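import Mathlib

/-!
# T-CAR, (A1): a noetherian local domain with `𝔪 = (a, t)`, `a` prime, is a UFD
-/

set_option autoImplicit false
set_option linter.style.haveILetI false

namespace Fermat.Agent.CARlib

open IsLocalRing

/-- the quotient of `O` by the prime element `a` is a principal ideal ring -/
theorem a1_quot_pir {O : Type*} [CommRing O] [IsDomain O] [IsNoetherianRing O] [IsLocalRing O]
    {a t : O} (hm : maximalIdeal O = Ideal.span {a, t}) (ha : Prime a) :
    IsPrincipalIdealRing (O ⧸ Ideal.span {a}) := by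
  haveI hp : (Ideal.span {a}).IsPrime := (Ideal.span_singleton_prime ha.ne_zero).2 ha
  haveI : Nontrivial (O ⧸ Ideal.span {a}) := Ideal.Quotient.nontrivial_iff.2 hp.ne_top
  haveI : IsLocalRing (O ⧸ Ideal.span {a}) :=
    IsLocalRing.of_surjective' (Ideal.Quotient.mk _) Ideal.Quotient.mk_surjective
  refine ((tfae_of_isNoetherianRing_of_isLocalRing_of_isDomain (O ⧸ Ideal.span {a})).out 4 0).1 ?_
  refine ⟨Ideal.Quotient.mk _ t, ?_⟩
  have h1 : maximalIdeal (O ⧸ Ideal.span {a}) = (maximalIdeal O).map (Ideal.Quotient.mk _) := by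
    have h2 : ((maximalIdeal O).map (Ideal.Quotient.mk (Ideal.span {a}))).IsMaximal := by
      refine Or.resolve_left (Ideal.map_eq_top_or_isMaximal_of_surjective _
        Ideal.Quotient.mk_surjective (maximalIdeal.isMaximal O)) ?_
      intro htop
      have h3 := congrArg (Ideal.comap (Ideal.Quotient.mk (Ideal.span {a}))) htop
      rw [Ideal.comap_map_of_surjective _ Ideal.Quotient.mk_surjective, Ideal.comap_top,
        ← RingHom.ker_eq_comap_bot, Ideal.mk_ker] at h3
      have h4 : Ideal.span {a} ≤ maximalIdeal O := by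
        rw [hm]
        exact Ideal.span_mono (by simp)
      rw [sup_eq_left.2 h4] at h3
      exact (maximalIdeal.isMaximal O).ne_top h3
    exact (IsLocalRing.eq_maximalIdeal h2).symm
  rw [h1, hm, Ideal.map_span, Set.image_pair]
  have h5 : Ideal.Quotient.mk (Ideal.span {a}) a = 0 :=
    Ideal.Quotient.eq_zero_iff_mem.2 (Ideal.mem_span_singleton_self a)
  rw [h5]
  show Ideal.span _ = Ideal.span _
  apply le_antisymm
  · rw [Ideal.span_le]
    rintro x (rfl | rfl)
    · exact Ideal.zero_mem _
    · exact Ideal.subset_span rfl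
  · exact Ideal.span_mono (by simp)

/-- **(A1)** -/
theorem a1_ufd {O : Type*} [CommRing O] [IsDomain O] [IsNoetherianRing O] [IsLocalRing O]
    {a t : O} (hm : maximalIdeal O = Ideal.span {a, t}) (ha : Prime a) :
    UniqueFactorizationMonoid O := by
  rw [UniqueFactorizationMonoid.iff_exists_prime_mem_of_isPrime]
  intro Q hQ0 hQ
  by_cases haQ : a ∈ Q
  · exact ⟨a, haQ, ha⟩
  haveI := a1_quot_pir hm ha
  obtain ⟨xb, hxb⟩ := (IsPrincipalIdealRing.principal
    (Q.map (Ideal.Quotient.mk (Ideal.span {a})))).principal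
  have hxb' : Q.map (Ideal.Quotient.mk (Ideal.span {a})) = Ideal.span {xb} := hxb
  have hxmem : xb ∈ Q.map (Ideal.Quotient.mk (Ideal.span {a})) := by
    rw [hxb']
    exact Ideal.mem_span_singleton_self xb
  rw [Ideal.mem_map_iff_of_surjective _ Ideal.Quotient.mk_surjective] at hxmem
  obtain ⟨x, hxQ, rfl⟩ := hxmem
  have hamax : a ∈ maximalIdeal O := by
    rw [hm]
    exact Ideal.subset_span (by simp)
  -- `Q ≤ (x) + a Q`
  have hle : Q ≤ Ideal.span {x} ⊔ Ideal.span {a} • Q := by
    intro y hy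
    have h1 : Ideal.Quotient.mk (Ideal.span {a}) y ∈ Ideal.span {Ideal.Quotient.mk (Ideal.span {a}) x} := by
      rw [← hxb']
      exact Ideal.mem_map_of_mem _ hy
    rw [Ideal.mem_span_singleton'] at h1
    obtain ⟨cb, hcb⟩ := h1
    obtain ⟨c, rfl⟩ := Ideal.Quotient.mk_surjective cb
    rw [← map_mul, Ideal.Quotient.eq, Ideal.mem_span_singleton] at hcb
    obtain ⟨z, hz⟩ := hcb
    have hzQ : z ∈ Q := by
      have h2 : a * z ∈ Q := by
        rw [← hz]
        exact Q.sub_mem (Q.mul_mem_left _ hxQ) hy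
      exact (hQ.mem_or_mem h2).resolve_left haQ
    have h3 : y = c * x - a * z := by
      rw [← hz]
      ring
    rw [h3]
    refine Ideal.sub_mem _ (Ideal.mem_sup_left (Ideal.mul_mem_left _ _
      (Ideal.mem_span_singleton_self x))) (Ideal.mem_sup_right ?_)
    exact Submodule.smul_mem_smul (Ideal.mem_span_singleton_self a) hzQ
  have hQx : Q ≤ Ideal.span {x} := by
    refine Submodule.le_of_le_smul_of_le_jacobson_bot (I := Ideal.span {a})
      (IsNoetherian.noetherian Q) ?_ hle
    rw [IsLocalRing.jacobson_eq_maximalIdeal ⊥ bot_ne_top, Ideal.span_le]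
    simpa using hamax
  have hQeq : Q = Ideal.span {x} :=
    le_antisymm hQx ((Ideal.span_singleton_le_iff_mem _).2 hxQ)
  have hx0 : x ≠ 0 := by
    rintro rfl
    apply hQ0
    rw [hQeq]
    simp
  exact ⟨x, hxQ, (Ideal.span_singleton_prime hx0).1 (hQeq ▸ hQ)⟩

end Fermat.Agent.CARlib
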