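import Mathlib

/-!
# T-CAR, (A2-2): semilocal gluing of `g = unit * H ^ m`
-/

set_option autoImplicit false
set_option linter.unusedSectionVars false

namespace Fermat.Agent.CARlib

section semilocal

variable {S F : Type*} [CommRing S] [IsDomain S] [Field F] [Algebra S F] [IsFractionRing S F]

/-- an element of `F` which lies in all the localisations of `S` at its maximal ideals lies in `S` -/
theorem a2_mem_of_forall_maximal {x : F}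
    (h : ∀ 𝔫 : Ideal S, 𝔫.IsMaximal → ∃ s : S, s ∉ 𝔫 ∧ ∃ A : S,
      algebraMap S F A = algebraMap S F s * x) : ∃ A : S, algebraMap S F A = x := by
  let D : Ideal S :=
    { carrier := {s | ∃ A : S, algebraMap S F A = algebraMap S F s * x}
      add_mem' := by
        rintro s s' ⟨A, hA⟩ ⟨A', hA'⟩
        exact ⟨A + A', by rw [map_add, map_add, hA, hA', add_mul]⟩
      zero_mem' := ⟨0, by simp⟩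
      smul_mem' := by
        rintro c s ⟨A, hA⟩
        exact ⟨c * A, by rw [smul_eq_mul, map_mul, map_mul, hA, mul_assoc]⟩ }
  have hD : D = ⊤ := by
    by_contra hne
    obtain ⟨𝔫, h𝔫, hle⟩ := Ideal.exists_le_maximal D hne
    obtain ⟨s, hs, hA⟩ := h 𝔫 h𝔫
    exact hs (hle hA)
  have h1 : (1 : S) ∈ D := hD ▸ Submodule.mem_top
  obtain ⟨A, hA⟩ := h1
  exact ⟨A, by rw [hA, map_one, one_mul]⟩

/-- **(A2-2), finite set of maximal ideals.** -/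
theorem a2_semilocal_set [IsIntegrallyClosed S] (𝒩 : Finset (Ideal S))
    (h𝒩 : ∀ 𝔫 ∈ 𝒩, 𝔫.IsMaximal) (hne𝒩 : 𝒩.Nonempty) {m : ℕ}
    (hm : m ≠ 0) {g : F} (hg : g ≠ 0)
    (h : ∀ 𝔫 ∈ 𝒩, ∃ H : F, H ≠ 0 ∧ ∃ a b : S, a ∉ 𝔫 ∧ b ∉ 𝔫 ∧
      H ^ m / g = algebraMap S F a / algebraMap S F b) :
    ∃ H : F, H ≠ 0 ∧ ∀ 𝔫 ∈ 𝒩, ∃ A B : S, A ∉ 𝔫 ∧ B ∉ 𝔫 ∧
      H ^ m / g = algebraMap S F A / algebraMap S F B := by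
  classical
  have hinj := IsFractionRing.injective S F
  have hne : ∀ x : S, x ≠ 0 → algebraMap S F x ≠ 0 := fun x hx => by
    rwa [Ne, map_eq_zero_iff _ hinj]
  choose! Hf hH0 af bf ha hb hHab using h
  have ha0 : ∀ 𝔫 ∈ 𝒩, af 𝔫 ≠ 0 := fun 𝔫 h𝔫 h0 => ha 𝔫 h𝔫 (h0 ▸ 𝔫.zero_mem)
  have hb0 : ∀ 𝔫 ∈ 𝒩, bf 𝔫 ≠ 0 := fun 𝔫 h𝔫 h0 => hb 𝔫 h𝔫 (h0 ▸ 𝔫.zero_mem)
  -- comparison of the local generators
  have hc : ∀ 𝔫 𝔫' : Ideal S, 𝔫 ∈ 𝒩 → 𝔫' ∈ 𝒩 → ∃ c : S,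
      algebraMap S F c = algebraMap S F (bf 𝔫 * af 𝔫') * (Hf 𝔫 / Hf 𝔫') := by
    intro 𝔫 𝔫' h𝔫 h𝔫'
    have h1 : (algebraMap S F (bf 𝔫 * af 𝔫') * (Hf 𝔫 / Hf 𝔫')) ^ m =
        algebraMap S F ((bf 𝔫 * af 𝔫') ^ (m - 1) * (af 𝔫 * bf 𝔫')) := by
      have e1 := hHab 𝔫 h𝔫
      have e2 := hHab 𝔫' h𝔫'
      have hbF := hne _ (hb0 𝔫 h𝔫)
      have hbF' := hne _ (hb0 𝔫' h𝔫')
      have haF := hne _ (ha0 𝔫 h𝔫)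
      have haF' := hne _ (ha0 𝔫' h𝔫')
      have hH := hH0 𝔫 h𝔫
      have hH' := hH0 𝔫' h𝔫'
      have e3 : Hf 𝔫 ^ m = g * (algebraMap S F (af 𝔫) / algebraMap S F (bf 𝔫)) := by
        rw [← e1]; field_simp
      have e4 : Hf 𝔫' ^ m = g * (algebraMap S F (af 𝔫') / algebraMap S F (bf 𝔫')) := by
        rw [← e2]; field_simp
      obtain ⟨k, rfl⟩ : ∃ k, m = k + 1 := Nat.exists_eq_succ_of_ne_zero hm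
      rw [mul_pow, div_pow, e3, e4, Nat.add_sub_cancel]
      simp only [map_mul, map_pow]
      field_simp
      ring
    have h2 : IsIntegral S (algebraMap S F (bf 𝔫 * af 𝔫') * (Hf 𝔫 / Hf 𝔫')) := by
      refine IsIntegral.of_pow (Nat.pos_of_ne_zero hm) ?_
      rw [h1]
      exact isIntegral_algebraMap
    exact IsIntegrallyClosed.isIntegral_iff.1 h2
  choose! cf hcf using hc
  -- the partition of unity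
  have he : ∀ 𝔫 ∈ 𝒩, ∃ e : S, e ∉ 𝔫 ∧ ∀ 𝔫' ∈ 𝒩, 𝔫' ≠ 𝔫 → e ∈ 𝔫' := by
    intro 𝔫 h𝔫
    have h1 : ∀ 𝔫' ∈ 𝒩, 𝔫' ≠ 𝔫 → ∃ c : S, c ∈ 𝔫' ∧ c ∉ 𝔫 := by
      intro 𝔫' h𝔫' hne'
      by_contra hcon
      push Not at hcon
      exact hne' ((h𝒩 𝔫' h𝔫').eq_of_le (h𝒩 𝔫 h𝔫).ne_top hcon)
    choose! c hc1 hc2 using h1
    refine ⟨∏ 𝔫' ∈ 𝒩.erase 𝔫, c 𝔫', ?_, ?_⟩
    · intro hmem'
      obtain ⟨𝔫', h𝔫', hcm⟩ := ((h𝒩 𝔫 h𝔫).isPrime.prod_mem_iff).1 hmem'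
      rw [Finset.mem_erase] at h𝔫'
      exact hc2 𝔫' h𝔫'.2 h𝔫'.1 hcm
    · intro 𝔫' h𝔫' hne'
      exact Ideal.mem_of_dvd _ (Finset.dvd_prod_of_mem c
        (Finset.mem_erase.2 ⟨hne', h𝔫'⟩)) (hc1 𝔫' h𝔫' hne')
  choose! ef hef1 hef2 using he
  set H : F := ∑ 𝔫 ∈ 𝒩, algebraMap S F (ef 𝔫 * bf 𝔫) * Hf 𝔫 with hH
  -- the local comparison of `H` with `Hf 𝔫₀`
  have hloc : ∀ 𝔫₀ ∈ 𝒩, ∃ A : S, A ∉ 𝔫₀ ∧
      algebraMap S F (af 𝔫₀) * (H / Hf 𝔫₀) = algebraMap S F A := by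
    intro 𝔫₀ h𝔫₀
    have hp := (h𝒩 𝔫₀ h𝔫₀).isPrime
    refine ⟨∑ 𝔫 ∈ 𝒩, ef 𝔫 * cf 𝔫 𝔫₀, ?_, ?_⟩
    · rw [← Finset.add_sum_erase 𝒩 _ h𝔫₀]
      intro hcon
      have h1 : ∑ 𝔫 ∈ 𝒩.erase 𝔫₀, ef 𝔫 * cf 𝔫 𝔫₀ ∈ 𝔫₀ := by
        refine 𝔫₀.sum_mem fun 𝔫 h𝔫 => ?_
        rw [Finset.mem_erase] at h𝔫
        exact 𝔫₀.mul_mem_right _ (hef2 𝔫 h𝔫.2 𝔫₀ h𝔫₀ (Ne.symm h𝔫.1))
      have h2 : ef 𝔫₀ * cf 𝔫₀ 𝔫₀ ∈ 𝔫₀ := (𝔫₀.add_mem_iff_left h1).1 hcon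
      have h3 : cf 𝔫₀ 𝔫₀ = bf 𝔫₀ * af 𝔫₀ := by
        apply hinj
        rw [hcf 𝔫₀ 𝔫₀ h𝔫₀ h𝔫₀, div_self (hH0 𝔫₀ h𝔫₀), mul_one]
      rw [h3] at h2
      rcases hp.mem_or_mem h2 with h4 | h4
      · exact hef1 𝔫₀ h𝔫₀ h4
      · rcases hp.mem_or_mem h4 with h5 | h5
        · exact hb 𝔫₀ h𝔫₀ h5
        · exact ha 𝔫₀ h𝔫₀ h5
    · rw [hH, Finset.sum_div, Finset.mul_sum, map_sum]
      refine Finset.sum_congr rfl fun 𝔫 h𝔫 => ?_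
      rw [map_mul (algebraMap S F) (ef 𝔫) (cf 𝔫 𝔫₀), hcf 𝔫 𝔫₀ h𝔫 h𝔫₀]
      simp only [map_mul]
      ring
  obtain ⟨𝔫₁, h𝔫₁⟩ := hne𝒩
  have hHne : H ≠ 0 := by
    intro h0
    obtain ⟨A, hA, hAe⟩ := hloc 𝔫₁ h𝔫₁
    rw [h0, zero_div, mul_zero] at hAe
    have : A = 0 := by
      apply hinj
      rw [← hAe, map_zero]
    exact hA (this ▸ 𝔫₁.zero_mem)
  refine ⟨H, hHne, ?_⟩
  intro 𝔫₀ h𝔫₀
  have hp := (h𝒩 𝔫₀ h𝔫₀).isPrime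
  obtain ⟨A, hA, hAe⟩ := hloc 𝔫₀ h𝔫₀
  refine ⟨A ^ m * af 𝔫₀, af 𝔫₀ ^ m * bf 𝔫₀, ?_, ?_, ?_⟩
  · intro hcon
    rcases hp.mem_or_mem hcon with h4 | h4
    · exact hA (hp.mem_of_pow_mem _ h4)
    · exact ha 𝔫₀ h𝔫₀ h4
  · intro hcon
    rcases hp.mem_or_mem hcon with h4 | h4
    · exact ha 𝔫₀ h𝔫₀ (hp.mem_of_pow_mem _ h4)
    · exact hb 𝔫₀ h𝔫₀ h4
  · have haF := hne _ (ha0 𝔫₀ h𝔫₀)
    have hbF := hne _ (hb0 𝔫₀ h𝔫₀)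
    have hH' := hH0 𝔫₀ h𝔫₀
    have e1 : H ^ m / g = (H / Hf 𝔫₀) ^ m * (Hf 𝔫₀ ^ m / g) := by
      rw [div_pow]; field_simp
    have e2 : H / Hf 𝔫₀ = algebraMap S F A / algebraMap S F (af 𝔫₀) := by
      rw [← hAe]; field_simp
    rw [e1, e2, hHab 𝔫₀ h𝔫₀, div_pow]
    simp only [map_mul, map_pow]
    field_simp

/-- **(A2-2)** semilocal gluing. -/
theorem a2_semilocal [IsIntegrallyClosed S] (hfin : {𝔫 : Ideal S | 𝔫.IsMaximal}.Finite) {m : ℕ}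
    (hm : m ≠ 0) {g : F} (hg : g ≠ 0)
    (h : ∀ 𝔫 : Ideal S, 𝔫.IsMaximal → ∃ H : F, H ≠ 0 ∧ ∃ a b : S, a ∉ 𝔫 ∧ b ∉ 𝔫 ∧
      H ^ m / g = algebraMap S F a / algebraMap S F b) :
    ∃ H : F, H ≠ 0 ∧ ∃ u : Sˣ, algebraMap S F u = H ^ m / g := by
  classical
  have hinj := IsFractionRing.injective S F
  have hne : ∀ x : S, x ≠ 0 → algebraMap S F x ≠ 0 := fun x hx => by
    rwa [Ne, map_eq_zero_iff _ hinj]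
  have hmem : ∀ 𝔫 : Ideal S, 𝔫 ∈ hfin.toFinset ↔ 𝔫.IsMaximal := fun 𝔫 => by simp
  obtain ⟨𝔫₁, h𝔫₁⟩ := Ideal.exists_maximal S
  obtain ⟨H, hHne, hform⟩ := a2_semilocal_set hfin.toFinset (fun 𝔫 h𝔫 => (hmem 𝔫).1 h𝔫)
    ⟨𝔫₁, (hmem 𝔫₁).2 h𝔫₁⟩ hm hg (fun 𝔫 h𝔫 => h 𝔫 ((hmem 𝔫).1 h𝔫))
  obtain ⟨u, hu⟩ := a2_mem_of_forall_maximal (S := S) (x := H ^ m / g) (by
    intro 𝔫₀ h𝔫₀
    obtain ⟨A, B, hA, hB, hAB⟩ := hform 𝔫₀ ((hmem 𝔫₀).2 h𝔫₀)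
    have hBF : algebraMap S F B ≠ 0 := hne _ fun h0 => hB (h0 ▸ 𝔫₀.zero_mem)
    exact ⟨B, hB, A, by rw [hAB]; field_simp⟩)
  obtain ⟨u', hu'⟩ := a2_mem_of_forall_maximal (S := S) (x := g / H ^ m) (by
    intro 𝔫₀ h𝔫₀
    obtain ⟨A, B, hA, hB, hAB⟩ := hform 𝔫₀ ((hmem 𝔫₀).2 h𝔫₀)
    have hAF : algebraMap S F A ≠ 0 := hne _ fun h0 => hA (h0 ▸ 𝔫₀.zero_mem)
    have hBF : algebraMap S F B ≠ 0 := hne _ fun h0 => hB (h0 ▸ 𝔫₀.zero_mem)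
    refine ⟨A, hA, B, ?_⟩
    have : g / H ^ m = (H ^ m / g)⁻¹ := by rw [inv_div]
    rw [this, hAB, inv_div]
    field_simp)
  have huu : u * u' = 1 := by
    apply hinj
    rw [map_mul, hu, hu', map_one]
    have := pow_ne_zero m hHne
    field_simp
  exact ⟨H, hHne, ⟨u, u', huu, by rw [mul_comm]; exact huu⟩, hu⟩

/-- **(A2b)** semilocal gluing, in the shape of the interface of block A. -/
theorem a2_glue [IsIntegrallyClosed S] (hfin : {I : Ideal S | I.IsMaximal}.Finite)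
    {m : ℕ} (hm : 0 < m) {g : F} (hg : g ≠ 0)
    (h : ∀ n : Ideal S, n.IsMaximal → ∃ H : F, H ≠ 0 ∧ ∃ b c : S, b ∉ n ∧ c ∉ n ∧
      g * algebraMap S F c = H ^ m * algebraMap S F b) :
    ∃ H : F, H ≠ 0 ∧ ∃ u : Sˣ, g = algebraMap S F u * H ^ m := by
  have hinj := IsFractionRing.injective S F
  have hne : ∀ x : S, x ≠ 0 → algebraMap S F x ≠ 0 := fun x hx => by
    rwa [Ne, map_eq_zero_iff _ hinj]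
  obtain ⟨H, hH0, u, hu⟩ := a2_semilocal hfin hm.ne' hg (by
    intro n hn
    obtain ⟨H, hH0, b, c, hb, hc, hbc⟩ := h n hn
    have hbF : algebraMap S F b ≠ 0 := hne _ fun h0 => hb (h0 ▸ n.zero_mem)
    refine ⟨H, hH0, c, b, hc, hb, ?_⟩
    rw [div_eq_div_iff hg hbF, ← hbc, mul_comm])
  refine ⟨H, hH0, u⁻¹, ?_⟩
  have h2 : algebraMap S F (u : S) * algebraMap S F ((u⁻¹ : Sˣ) : S) = 1 := by
    rw [← map_mul, Units.mul_inv, map_one]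
  have h3 : algebraMap S F ((u⁻¹ : Sˣ) : S) = g / H ^ m := by
    rw [hu] at h2
    rw [← inv_div]
    exact (inv_eq_of_mul_eq_one_right h2).symm
  rw [h3]
  have := pow_ne_zero m hH0
  field_simp

end semilocal

end Fermat.Agent.CARlib
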