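import Mathlib

/-!
# T-CAR, (A2-1): in a UFD an element whose divisor is divisible by `m` is a unit times an
`m`-th power
-/

set_option autoImplicit false
set_option linter.unusedSectionVars false

namespace Fermat.Agent.CARlib

section ufd

variable {O F : Type*} [CommRing O] [IsDomain O] [UniqueFactorizationMonoid O] [Field F]
  [Algebra O F] [IsFractionRing O F]

open scoped Classical in
/-- an element of a UFD all of whose prime multiplicities are divisible by `m` is associated to an
`m`-th power -/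
theorem a2_exists_pow_of_count {a : O} (ha : a ≠ 0) {m : ℕ} (hm : m ≠ 0)
    (h : ∀ p : Associates O, Irreducible p → m ∣ p.count (Associates.mk a).factors) :
    ∃ (c : O) (u : Oˣ), c ≠ 0 ∧ a = c ^ m * u := by
  obtain ⟨β, hβ⟩ := Associates.is_pow_of_dvd_count (Associates.mk_ne_zero.2 ha) h
  obtain ⟨c, rfl⟩ := Associates.mk_surjective β
  rw [← Associates.mk_pow, Associates.mk_eq_mk_iff_associated] at hβ
  obtain ⟨u, hu⟩ := hβ.symm
  refine ⟨c, u, ?_, hu.symm⟩
  rintro rfl
  rw [zero_pow hm, zero_mul] at hu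
  exact ha hu.symm

/-- **(A2-1)** `O` a UFD with fraction field `F`; if at every prime `ϖ` of `O` the element `g` is a
`ϖ`-unit times an `m`-th power, then `g` is a unit of `O` times an `m`-th power. -/
theorem a2_exists_pow_of_ufd {m : ℕ} (hm : m ≠ 0) {g : F} (hg : g ≠ 0)
    (h : ∀ ϖ : O, Prime ϖ → ∃ f : F, f ≠ 0 ∧ ∃ t : O, ¬ ϖ ∣ t ∧
      (∃ A : O, algebraMap O F A = algebraMap O F t * (f ^ m / g)) ∧
      (∃ A : O, algebraMap O F A = algebraMap O F t * (g / f ^ m))) :
    ∃ H : F, H ≠ 0 ∧ ∃ u : Oˣ, algebraMap O F u = H ^ m / g := by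
  classical
  have hinj := IsFractionRing.injective O F
  have hne : ∀ x : O, x ≠ 0 → algebraMap O F x ≠ 0 := fun x hx => by
    rwa [Ne, map_eq_zero_iff _ hinj]
  obtain ⟨a, ⟨b, hb⟩, hrel, hab⟩ := IsFractionRing.exists_reduced_fraction O g
  have hb0 : b ≠ 0 := nonZeroDivisors.ne_zero hb
  have hgab : g = algebraMap O F a / algebraMap O F b := by
    rw [← hab, IsFractionRing.mk'_eq_div]
  have ha0 : a ≠ 0 := by
    rintro rfl
    apply hg
    rw [hgab, map_zero, zero_div]
  have haF := hne a ha0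
  have hbF := hne b hb0
  -- the key count identity
  have key : ∀ p : Associates O, Irreducible p →
      m ∣ p.count (Associates.mk a).factors ∧ m ∣ p.count (Associates.mk b).factors := by
    intro p hp
    obtain ⟨ϖ, rfl⟩ := Associates.mk_surjective p
    have hϖi : Irreducible ϖ := Associates.irreducible_mk.1 hp
    have hϖ : Prime ϖ := hϖi.prime
    obtain ⟨f, hf0, t, ht, ⟨A, hA⟩, ⟨A', hA'⟩⟩ := h ϖ hϖ
    obtain ⟨c, d, hd, rfl⟩ := IsFractionRing.div_surjective (A := O) f
    have hd0 : d ≠ 0 := nonZeroDivisors.ne_zero hd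
    have hc0 : c ≠ 0 := by
      rintro rfl
      apply hf0
      rw [map_zero, zero_div]
    have hcF := hne c hc0
    have hdF := hne d hd0
    have ht0 : t ≠ 0 := by
      rintro rfl
      exact ht (dvd_zero _)
    have htF := hne t ht0
    have e1 : A * (d ^ m * a) = t * (c ^ m * b) := by
      apply hinj
      simp only [map_mul, map_pow]
      rw [hA, hgab, div_pow]
      field_simp
    have e2 : A' * (c ^ m * b) = t * (d ^ m * a) := by
      apply hinj
      simp only [map_mul, map_pow]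
      rw [hA', hgab, div_pow]
      field_simp
    have hA0 : A ≠ 0 := by
      rintro rfl
      rw [zero_mul] at e1
      exact mul_ne_zero ht0 (mul_ne_zero (pow_ne_zero _ hc0) hb0) e1.symm
    have hA'0 : A' ≠ 0 := by
      rintro rfl
      rw [zero_mul] at e2
      exact mul_ne_zero ht0 (mul_ne_zero (pow_ne_zero _ hd0) ha0) e2.symm
    set cnt : O → ℕ := fun x => (Associates.mk ϖ).count (Associates.mk x).factors with hcnt
    have cmul : ∀ x y : O, x ≠ 0 → y ≠ 0 → cnt (x * y) = cnt x + cnt y := by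
      intro x y hx hy
      simp only [hcnt, Associates.mk_mul_mk.symm]
      exact Associates.count_mul (Associates.mk_ne_zero.2 hx) (Associates.mk_ne_zero.2 hy) hp
    have cpow : ∀ x : O, x ≠ 0 → cnt (x ^ m) = m * cnt x := by
      intro x hx
      simp only [hcnt, Associates.mk_pow]
      exact Associates.count_pow (Associates.mk_ne_zero.2 hx) hp m
    have ct : cnt t = 0 := by
      by_contra hne0
      exact ht ((Associates.count_ne_zero_iff_dvd ht0 hϖi).1 hne0)
    have E1 := congrArg cnt e1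
    have E2 := congrArg cnt e2
    rw [cmul _ _ hA0 (mul_ne_zero (pow_ne_zero _ hd0) ha0), cmul _ _ (pow_ne_zero _ hd0) ha0,
      cmul _ _ ht0 (mul_ne_zero (pow_ne_zero _ hc0) hb0), cmul _ _ (pow_ne_zero _ hc0) hb0,
      cpow _ hd0, cpow _ hc0, ct] at E1
    rw [cmul _ _ hA'0 (mul_ne_zero (pow_ne_zero _ hc0) hb0), cmul _ _ (pow_ne_zero _ hc0) hb0,
      cmul _ _ ht0 (mul_ne_zero (pow_ne_zero _ hd0) ha0), cmul _ _ (pow_ne_zero _ hd0) ha0,
      cpow _ hd0, cpow _ hc0, ct] at E2
    have E : m * cnt d + cnt a = m * cnt c + cnt b := by omega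
    have hcop : cnt a = 0 ∨ cnt b = 0 := by
      by_contra hcon
      rw [not_or] at hcon
      have h1 : ϖ ∣ a := (Associates.count_ne_zero_iff_dvd ha0 hϖi).1 hcon.1
      have h2 : ϖ ∣ b := (Associates.count_ne_zero_iff_dvd hb0 hϖi).1 hcon.2
      exact hϖi.not_isUnit (hrel h1 h2)
    rcases hcop with h0 | h0
    · have h1 : m ∣ cnt a := h0 ▸ dvd_zero _
      have h2 : m ∣ cnt b := by
        rw [h0, add_zero] at E
        exact (Nat.dvd_add_right (Dvd.intro _ rfl)).1 (E ▸ Dvd.intro _ rfl)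
      exact ⟨h1, h2⟩
    · have h2 : m ∣ cnt b := h0 ▸ dvd_zero _
      have h1 : m ∣ cnt a := by
        rw [h0, add_zero] at E
        exact (Nat.dvd_add_right (Dvd.intro _ rfl)).1 (E.symm ▸ Dvd.intro _ rfl)
      exact ⟨h1, h2⟩
  obtain ⟨a1, u1, ha1, hau⟩ := a2_exists_pow_of_count ha0 hm fun p hp => (key p hp).1
  obtain ⟨b1, u2, hb1, hbu⟩ := a2_exists_pow_of_count hb0 hm fun p hp => (key p hp).2
  have ha1F := hne a1 ha1
  have hb1F := hne b1 hb1
  refine ⟨algebraMap O F a1 / algebraMap O F b1, div_ne_zero ha1F hb1F, u2 * u1⁻¹, ?_⟩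
  have hu1 : algebraMap O F (u1 : O) * algebraMap O F ((u1⁻¹ : Oˣ) : O) = 1 := by
    rw [← map_mul, Units.mul_inv, map_one]
  have hu1F : algebraMap O F (u1 : O) ≠ 0 := left_ne_zero_of_mul_eq_one hu1
  have hinv : algebraMap O F ((u1⁻¹ : Oˣ) : O) = (algebraMap O F (u1 : O))⁻¹ :=
    eq_inv_of_mul_eq_one_right hu1
  rw [Units.val_mul, map_mul, hinv, hgab, hau, hbu, div_pow]
  simp only [map_mul, map_pow]
  have hu2F : algebraMap O F (u2 : O) ≠ 0 := hne _ u2.ne_zero
  field_simp

end ufd

end Fermat.Agent.CARlib
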