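import Mathlib
import Fermat.Agent.UNI.HDiv
import Fermat.Agent.UNI.LPA0
import Fermat.Agent.CAR.A2Ufd
import Fermat.Agent.CAR.A2Semi

/-!
# T-CAR, (A2-3): `g = unit * H ^ m` over a local base, when all the local rings of the integral
closure are UFDs
-/

set_option autoImplicit false
set_option linter.unusedSectionVars false

namespace Fermat.Agent.CARlib

open Fermat.Agent.ESlib Fermat.Agent.UNIlib IsLocalRing

section vertical

variable {P S O : Type*} [CommRing P] [IsDomain P] [IsIntegrallyClosed P]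
  [CommRing S] [IsDomain S] [Algebra P S] [FaithfulSMul P S] [Algebra.IsIntegral P S]
  [CommRing O] [IsDomain O] [UniqueFactorizationMonoid O] [Algebra S O]

/-- **vertical primes**: a prime `ϖ` of the UFD `O = S_𝔫` dividing the prime `π` of the base `P`
divides no element of `P` outside `(π)` (going down). -/
theorem a2_not_dvd_of_not_dvd (𝔫 : Ideal S) [𝔫.IsPrime] [IsLocalization.AtPrime O 𝔫]
    {π : P} (hπ : Prime π) {ϖ : O} (hϖ : Prime ϖ)
    (hϖπ : ϖ ∣ algebraMap S O (algebraMap P S π)) {r : P} (hr : ¬ π ∣ r) :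
    ¬ ϖ ∣ algebraMap S O (algebraMap P S r) := by
  intro hϖr
  have hϖP : (Ideal.span {ϖ}).IsPrime := (Ideal.span_singleton_prime hϖ.ne_zero).2 hϖ
  set 𝔔 : Ideal S := (Ideal.span {ϖ}).comap (algebraMap S O) with h𝔔
  have i1 : 𝔔.IsPrime := Ideal.comap_isPrime _ _
  set 𝔮 : Ideal P := 𝔔.under P with h𝔮
  have i2 : 𝔮.IsPrime := inferInstance
  have i3 : 𝔔.LiesOver 𝔮 := ⟨rfl⟩
  have i4 : (Ideal.span {π}).IsPrime := (Ideal.span_singleton_prime hπ.ne_zero).2 hπ
  have hlt : Ideal.span {π} < 𝔮 := by
    refine lt_of_le_of_ne ?_ ?_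
    · rw [Ideal.span_singleton_le_iff_mem]
      change algebraMap S O (algebraMap P S π) ∈ Ideal.span {ϖ}
      exact Ideal.mem_span_singleton.2 hϖπ
    · intro heq
      have h1 : r ∈ 𝔮 := by
        change algebraMap S O (algebraMap P S r) ∈ Ideal.span {ϖ}
        exact Ideal.mem_span_singleton.2 hϖr
      rw [← heq, Ideal.mem_span_singleton] at h1
      exact hr h1
  obtain ⟨𝔔', hlt', hp', hover⟩ := Ideal.exists_ideal_lt_liesOver_of_lt 𝔔 hlt
  -- `𝔔'` is nonzero
  have hπ' : algebraMap P S π ∈ 𝔔' := by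
    have : π ∈ 𝔔'.under P := by
      rw [← hover.over]
      exact Ideal.mem_span_singleton_self π
    exact this
  have hπS : algebraMap P S π ≠ 0 := by
    rw [Ne, FaithfulSMul.algebraMap_eq_zero_iff]
    exact hπ.ne_zero
  have h𝔔𝔫 : 𝔔 ≤ 𝔫 := by
    intro x hx
    by_contra hxn
    have h1 : IsUnit (algebraMap S O x) := (IsLocalization.AtPrime.isUnit_to_map_iff O 𝔫 x).2 hxn
    exact hϖP.ne_top (Ideal.eq_top_of_isUnit_mem _ hx h1)
  have hdisj : Disjoint (𝔫.primeCompl : Set S) (𝔔' : Set S) := by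
    rw [Set.disjoint_left]
    intro x hx hx'
    exact hx (h𝔔𝔫 (hlt'.le hx'))
  have hp'' : (Ideal.map (algebraMap S O) 𝔔').IsPrime :=
    IsLocalization.isPrime_of_isPrime_disjoint 𝔫.primeCompl O 𝔔' hp' hdisj
  have hne : Ideal.map (algebraMap S O) 𝔔' ≠ ⊥ := by
    intro hbot
    have h1 : algebraMap S O (algebraMap P S π) ∈ Ideal.map (algebraMap S O) 𝔔' :=
      Ideal.mem_map_of_mem _ hπ'
    rw [hbot, Ideal.mem_bot] at h1
    have hinj : Function.Injective (algebraMap S O) :=
      IsLocalization.injective O (Ideal.primeCompl_le_nonZeroDivisors 𝔫)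
    exact hπS ((map_eq_zero_iff _ hinj).1 h1)
  obtain ⟨ϖ', hϖ'mem, hϖ'⟩ := hp''.exists_mem_prime_of_ne_bot hne
  have hle : Ideal.map (algebraMap S O) 𝔔' ≤ Ideal.span {ϖ} := by
    rw [Ideal.map_le_iff_le_comap]
    exact hlt'.le
  have hdvd : ϖ ∣ ϖ' := Ideal.mem_span_singleton.1 (hle hϖ'mem)
  have hass : Associated ϖ ϖ' := hϖ.associated_of_dvd hϖ' hdvd
  have hϖmem : ϖ ∈ Ideal.map (algebraMap S O) 𝔔' :=
    Ideal.mem_of_dvd _ hass.symm.dvd hϖ'mem
  have hcomap : (Ideal.map (algebraMap S O) 𝔔').comap (algebraMap S O) = 𝔔' :=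
    IsLocalization.under_map_of_isPrime_disjoint 𝔫.primeCompl O hp' hdisj
  have hfin : 𝔔 ≤ 𝔔' := by
    intro x hx
    rw [← hcomap, Ideal.mem_comap]
    exact Ideal.mem_of_dvd _ (Ideal.mem_span_singleton.1 hx) hϖmem
  exact absurd hlt' (not_lt_of_ge hfin)

end vertical

section base

variable {R K P F Kt : Type*} [CommRing R] [IsDomain R] [IsDiscreteValuationRing R]
  [Field K] [Algebra R K] [IsFractionRing R K] [Field F] [Algebra K F] [Algebra R F]
  [IsScalarTower R K F] [CharZero F]
  [CommRing P] [IsDomain P] [IsIntegrallyClosed P] [Algebra P F] [Algebra R P]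
  [IsScalarTower R P F]

/-- **(A2), at one closed point.**  `S` integral over `P`, `O = S_𝔫` a noetherian UFD. -/
theorem a2_at {S O : Type*} [CommRing S] [IsDomain S] [Algebra P S] [FaithfulSMul P S]
    [Algebra.IsIntegral P S] [Algebra S F] [IsScalarTower P S F]
    (hS : ∀ x : F, IsIntegral P x → ∃ y : S, algebraMap S F y = x)
    (𝔫 : Ideal S) [𝔫.IsPrime] [CommRing O] [IsDomain O] [IsNoetherianRing O]
    [UniqueFactorizationMonoid O] [Algebra S O] [IsLocalization.AtPrime O 𝔫] [Algebra O F]
    [IsScalarTower S O F] [IsFractionRing O F]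
    {π : R} (hπ : Irreducible π) (hπP : Prime (algebraMap R P π))
    {m : ℕ} (hm : m ≠ 0) {g : F} (hg : MDiv K m g)
    (hgC : LInt (algebraMap R P π) g) (hgC' : LInt (algebraMap R P π) g⁻¹) :
    ∃ H : F, H ≠ 0 ∧ ∃ a b : S, a ∉ 𝔫 ∧ b ∉ 𝔫 ∧
      H ^ m / g = algebraMap S F a / algebraMap S F b := by
  have hRF : ∀ x : R, algebraMap R F x =
      algebraMap O F (algebraMap S O (algebraMap P S (algebraMap R P x))) := by
    intro x
    rw [← IsScalarTower.algebraMap_apply S O F, ← IsScalarTower.algebraMap_apply P S F,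
      ← IsScalarTower.algebraMap_apply R P F]
  have hPF : ∀ x : P, algebraMap P F x = algebraMap O F (algebraMap S O (algebraMap P S x)) := by
    intro x
    rw [← IsScalarTower.algebraMap_apply S O F, ← IsScalarTower.algebraMap_apply P S F]
  set πO : O := algebraMap S O (algebraMap P S (algebraMap R P π)) with hπO
  obtain ⟨H, hH0, u, hu⟩ := a2_exists_pow_of_ufd (O := O) hm hg.1 (by
    intro ϖ hϖ
    by_cases hv : ϖ ∣ πO
    · -- vertical prime
      obtain ⟨r, hr, hrI⟩ := hgC
      obtain ⟨r', hr', hrI'⟩ := hgC'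
      obtain ⟨y, hy⟩ := hS _ hrI
      obtain ⟨y', hy'⟩ := hS _ hrI'
      have h1 := a2_not_dvd_of_not_dvd (O := O) 𝔫 hπP hϖ hv hr
      have h2 := a2_not_dvd_of_not_dvd (O := O) 𝔫 hπP hϖ hv hr'
      refine ⟨1, one_ne_zero, algebraMap S O (algebraMap P S r) * algebraMap S O (algebraMap P S r'),
        fun hd => (hϖ.dvd_or_dvd hd).elim h1 h2, ?_, ?_⟩
      · refine ⟨algebraMap S O (algebraMap P S r) * algebraMap S O y', ?_⟩
        rw [map_mul, map_mul, ← IsScalarTower.algebraMap_apply S O F y', hy', ← hPF, ← hPF,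
          Algebra.smul_def, one_pow, one_div]
        ring
      · refine ⟨algebraMap S O (algebraMap P S r') * algebraMap S O y, ?_⟩
        rw [map_mul, map_mul, ← IsScalarTower.algebraMap_apply S O F y, hy, ← hPF, ← hPF,
          Algebra.smul_def, one_pow, div_one]
        ring
    · -- horizontal prime
      obtain ⟨f, hf0, c, hc, h1, h2⟩ := exists_hdiv (P := O) (F := F) F (π := πO) hϖ hv
        (m := m) hg.1 (by
          intro V hP hinv htop hpir
          refine exists_unit_of_mdiv hg V (fun a => ?_) htop hpir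
          refine algebraMap_mem_of_inv_mem hπ V (fun x => ?_) ?_ a
          · rw [hRF]
            exact hP _
          · rw [hRF]
            exact hinv)
      refine ⟨f, hf0, c, hc, ?_, ?_⟩
      · obtain ⟨A, hA⟩ := IsIntegrallyClosed.isIntegral_iff.1 h1
        exact ⟨A, by rw [hA, Algebra.smul_def]⟩
      · obtain ⟨A, hA⟩ := IsIntegrallyClosed.isIntegral_iff.1 h2
        exact ⟨A, by rw [hA, Algebra.smul_def]⟩)
  obtain ⟨⟨a, b⟩, hab⟩ := IsLocalization.mk'_surjective 𝔫.primeCompl (u : O)
  have hab' : (u : O) * algebraMap S O b = algebraMap S O a :=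
    (IsLocalization.eq_mk'_iff_mul_eq.1 hab.symm)
  have hbu : IsUnit (algebraMap S O (b : S)) := IsLocalization.map_units O b
  have hau : IsUnit (algebraMap S O a) := hab' ▸ u.isUnit.mul hbu
  have ha : a ∉ 𝔫 := (IsLocalization.AtPrime.isUnit_to_map_iff O 𝔫 a).1 hau
  refine ⟨H, hH0, a, b, ha, b.2, ?_⟩
  have hbF : algebraMap S F (b : S) ≠ 0 := by
    rw [IsScalarTower.algebraMap_apply S O F]
    exact (hbu.map (algebraMap O F)).ne_zero
  rw [← hu, eq_div_iff hbF, IsScalarTower.algebraMap_apply S O F, ← map_mul, hab',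
    ← IsScalarTower.algebraMap_apply S O F]

/-- **(A2-3)**: `P` a noetherian integrally closed local domain in which `π` is prime, `F / Frac P`
finite, all the local rings of the integral closure `S` of `P` in `F` are UFDs, `g` is a unit at the
vertical primes and `m ∣ div g` on the generic fibre.  Then `g = unit * H ^ m` in `S`. -/
theorem a2_base (Kt : Type*) [IsLocalRing P] [IsNoetherianRing P] [Field Kt] [Algebra P Kt]
    [IsFractionRing P Kt] [Algebra Kt F] [IsScalarTower P Kt F] [FiniteDimensional Kt F]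
    {π : R} (hπ : Irreducible π) (hπP : Prime (algebraMap R P π))
    (hufd : ∀ (𝔫 : Ideal (integralClosure P F)) [𝔫.IsMaximal],
      UniqueFactorizationMonoid (Localization.AtPrime 𝔫))
    {m : ℕ} (hm : m ≠ 0) {g : F} (hg : MDiv K m g)
    (hgC : LInt (algebraMap R P π) g) (hgC' : LInt (algebraMap R P π) g⁻¹) :
    ∃ H : F, H ≠ 0 ∧ IsIntegral P (H ^ m / g) ∧ IsIntegral P (g / H ^ m) := by
  have i0 : CharZero Kt := by
    refine ⟨fun a b hab => ?_⟩
    have := congrArg (algebraMap Kt F) hab
    simpa using this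
  have i1 : IsFractionRing (integralClosure P F) F :=
    integralClosure.isFractionRing_of_finite_extension Kt F
  have i2 : IsIntegrallyClosed (integralClosure P F) :=
    integralClosure.isIntegrallyClosedOfFiniteExtension Kt
  have i3 : Module.Finite P (integralClosure P F) := IsIntegralClosure.finite P Kt F _
  have i4 : IsNoetherianRing (integralClosure P F) := IsIntegralClosure.isNoetherianRing P Kt F _
  have i5 : Module.IsTorsionFree P F := .trans_faithfulSMul P Kt F
  have i6 : FaithfulSMul P (integralClosure P F) := by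
    refine (faithfulSMul_iff_algebraMap_injective _ _).2 fun a b hab => ?_
    have h1 := congrArg (algebraMap (integralClosure P F) F) hab
    rw [← IsScalarTower.algebraMap_apply, ← IsScalarTower.algebraMap_apply,
      IsScalarTower.algebraMap_apply P Kt F, IsScalarTower.algebraMap_apply P Kt F] at h1
    exact IsFractionRing.injective P Kt ((algebraMap Kt F).injective h1)
  have hfin : {𝔫 : Ideal (integralClosure P F) | 𝔫.IsMaximal}.Finite := by
    refine (Algebra.QuasiFinite.finite_primesOver (S := integralClosure P F)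
      (maximalIdeal P)).subset ?_
    intro 𝔫 h𝔫
    have h𝔫' : 𝔫.IsMaximal := h𝔫
    refine ⟨h𝔫'.isPrime, ⟨?_⟩⟩
    have h1 : (𝔫.under P).IsMaximal := Ideal.isMaximal_comap_of_isIntegral_of_isMaximal 𝔫
    exact (IsLocalRing.eq_maximalIdeal h1).symm
  obtain ⟨H, hH0, u, hu⟩ := a2_semilocal (S := integralClosure P F) hfin hm hg.1 (by
    intro 𝔫 h𝔫
    have j0 := h𝔫.isPrime
    let O := Localization.subalgebra.ofField F 𝔫.primeCompl (Ideal.primeCompl_le_nonZeroDivisors 𝔫)
    have j1 : IsDomain O := IsLocalization.isDomain_of_atPrime O 𝔫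
    have j2 : IsNoetherianRing O := IsLocalization.isNoetherianRing 𝔫.primeCompl O inferInstance
    have j3 : IsFractionRing O F :=
      IsFractionRing.isFractionRing_of_isDomain_of_isLocalization 𝔫.primeCompl O F
    have j4 : UniqueFactorizationMonoid O :=
      (IsLocalization.algEquiv 𝔫.primeCompl (Localization.AtPrime 𝔫) O).toMulEquiv.uniqueFactorizationMonoid
        (hufd 𝔫)
    exact a2_at (K := K) (P := P) (S := integralClosure P F) (O := O)
      (fun x hx => ⟨⟨x, hx⟩, rfl⟩) 𝔫 hπ hπP hm hg hgC hgC')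
  refine ⟨H, hH0, ?_, ?_⟩
  · rw [← hu]
    exact (u : integralClosure P F).2
  · have h1 : g / H ^ m = algebraMap (integralClosure P F) F ((u⁻¹ : (integralClosure P F)ˣ) :
        integralClosure P F) := by
      have h2 : algebraMap (integralClosure P F) F (u : integralClosure P F) *
          algebraMap (integralClosure P F) F ((u⁻¹ : (integralClosure P F)ˣ) :
            integralClosure P F) = 1 := by
        rw [← map_mul, Units.mul_inv, map_one]
      rw [hu] at h2
      rw [← inv_div]
      exact inv_eq_of_mul_eq_one_right h2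
    rw [h1]
    exact ((u⁻¹ : (integralClosure P F)ˣ) : integralClosure P F).2

end base

end Fermat.Agent.CARlib
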