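import Mathlib
import Fermat.Agent.UNI.Wrap
import Fermat.Agent.UNI.LPChart
import Fermat.Agent.CAR.A2Base

/-!
# T-CAR, (A2c): GLUE in the chart `T`

If all the local rings of `B` (the integral closure of `R[T]` in `F`) at the closed points of the
special fibre are UFDs, `g` is a unit at the vertical valuations and `m ∣ div g` on the generic fibre,
then `LocPrin π T g m`.
-/

set_option autoImplicit false
set_option linter.unusedSectionVars false

namespace Fermat.Agent.CARlib

open Polynomial IntermediateField Fermat.Agent.ESlib Fermat.Agent.UNIlib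

section aux

variable {R K F Kt B : Type*} [CommRing R] [IsDomain R] [IsDiscreteValuationRing R]
  [Field K] [Algebra R K] [IsFractionRing R K] [CharZero K] [Field F] [Algebra K F] [Algebra R F]
  [IsScalarTower R K F]
  [Field Kt] [Algebra Kt F] [Algebra R[X] Kt] [IsFractionRing R[X] Kt] [Algebra R[X] F]
  [IsScalarTower R[X] Kt F] [FiniteDimensional Kt F]
  [CommRing B] [IsDomain B] [Algebra R[X] B] [Algebra B F] [IsScalarTower R[X] B F]
  [IsIntegralClosure B R[X] F]

theorem a2_chart_aux (Kt : Type*) [Field Kt] [Algebra Kt F] [Algebra R[X] Kt]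
    [IsFractionRing R[X] Kt] [IsScalarTower R[X] Kt F] [FiniteDimensional Kt F]
    {π : R} (hπ : Irreducible π) {T : F}
    (hTalg : ∀ p : R[X], algebraMap R[X] F p = aeval T p) {m : ℕ} (hm : 0 < m) {g : F}
    (hg : MDiv K m g) (hg1 : PiInt π T g) (hg2 : PiInt π T g⁻¹)
    (hufd : ∀ (n : Ideal B) [n.IsMaximal], algebraMap R[X] B (C π) ∈ n →
      UniqueFactorizationMonoid (Localization.AtPrime n))
    (𝔪 : Ideal R[X]) (h𝔪 : 𝔪.IsMaximal) (hπ𝔪 : C π ∈ 𝔪) :
    ∃ H : F, H ≠ 0 ∧ ∃ s : R[X], s ∉ 𝔪 ∧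
      IsIntegral (Algebra.adjoin R {T}) (aeval T s * (H ^ m / g)) ∧
      IsIntegral (Algebra.adjoin R {T}) (aeval T s * (g / H ^ m)) := by
  classical
  have hπp : Prime π := hπ.prime
  have hCπ : Prime (C π : R[X]) := prime_C_of_prime hπp
  have i0 : CharZero F := charZero_of_injective_algebraMap (algebraMap K F).injective
  have i0' : CharZero Kt := by
    refine ⟨fun a b hab => ?_⟩
    have := congrArg (algebraMap Kt F) hab
    simpa using this
  have i1 : Algebra.IsIntegral R[X] B := IsIntegralClosure.isIntegral_algebra R[X] F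
  have i2 : Module.Finite R[X] B := IsIntegralClosure.finite R[X] Kt F B
  have i3 : IsNoetherianRing B := IsIntegralClosure.isNoetherianRing R[X] Kt F B
  have i4 : IsFractionRing B F := IsIntegralClosure.isFractionRing_of_finite_extension R[X] Kt F B
  have hmemB : ∀ x : F, IsIntegral R[X] x → ∃ y : B, algebraMap B F y = x := fun x hx =>
    (IsIntegralClosure.isIntegral_iff (A := B)).1 hx
  have i5 : IsIntegrallyClosed B := by
    refine (isIntegrallyClosed_iff F).2 fun {x} hx => ?_
    exact hmemB x (isIntegral_trans x hx)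
  have hinjF : Function.Injective (algebraMap R[X] F) := by
    rw [IsScalarTower.algebraMap_eq R[X] Kt F]
    exact (algebraMap Kt F).injective.comp (IsFractionRing.injective R[X] Kt)
  have i6 : FaithfulSMul R[X] B := by
    refine (faithfulSMul_iff_algebraMap_injective _ _).2 fun a b hab => ?_
    apply hinjF
    rw [IsScalarTower.algebraMap_apply R[X] B F, hab, ← IsScalarTower.algebraMap_apply R[X] B F]
  have i7 : IsScalarTower R R[X] F := IsScalarTower.of_algebraMap_eq fun x => by
    rw [hTalg, Polynomial.algebraMap_apply, aeval_C, Algebra.algebraMap_self, RingHom.id_apply]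
  have hprime := h𝔪.isPrime
  have hLInt : ∀ x : F, PiInt π T x → LInt (algebraMap R R[X] π) x := by
    rintro x ⟨r, hr, hrx⟩
    refine ⟨r, hr, ?_⟩
    rw [Algebra.smul_def, hTalg, ← isIntegral_adjoin_iff_poly hTalg]
    exact hrx
  -- the closed points over `𝔪`
  have hfin : (𝔪.primesOver B).Finite := Algebra.QuasiFinite.finite_primesOver 𝔪
  set 𝒩 : Finset (Ideal B) := hfin.toFinset with h𝒩def
  have hmem : ∀ n : Ideal B, n ∈ 𝒩 ↔ n ∈ 𝔪.primesOver B := fun n => by simp [h𝒩def]
  have hmax : ∀ n ∈ 𝒩, n.IsMaximal := by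
    intro n hn
    obtain ⟨hp, ⟨hover⟩⟩ := (hmem n).1 hn
    refine Ideal.isMaximal_of_isIntegral_of_isMaximal_comap (R := R[X]) n ?_
    have : n.comap (algebraMap R[X] B) = 𝔪 := hover.symm
    rw [this]
    exact h𝔪
  have hne : 𝒩.Nonempty := by
    obtain ⟨⟨Q, hQ⟩⟩ := Ideal.nonempty_primesOver (S := B) 𝔪
    exact ⟨Q, (hmem Q).2 hQ⟩
  obtain ⟨H, hH0, hform⟩ := a2_semilocal_set (S := B) (F := F) 𝒩 hmax hne hm.ne' hg.1 (by
    intro n hn
    have j0 := hmax n hn
    have j0' := j0.isPrime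
    obtain ⟨-, ⟨hover⟩⟩ := (hmem n).1 hn
    have hπn : algebraMap R[X] B (C π) ∈ n := by
      have : C π ∈ n.under R[X] := hover ▸ hπ𝔪
      exact this
    let O := Localization.subalgebra.ofField F n.primeCompl (Ideal.primeCompl_le_nonZeroDivisors n)
    have j1 : IsDomain O := IsLocalization.isDomain_of_atPrime O n
    have j2 : IsNoetherianRing O := IsLocalization.isNoetherianRing n.primeCompl O inferInstance
    have j3 : IsFractionRing O F :=
      IsFractionRing.isFractionRing_of_isDomain_of_isLocalization n.primeCompl O F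
    have j4 : UniqueFactorizationMonoid O :=
      (IsLocalization.algEquiv n.primeCompl (Localization.AtPrime n) O).toMulEquiv.uniqueFactorizationMonoid
        (hufd n hπn)
    exact a2_at (K := K) (P := R[X]) (S := B) (O := O) hmemB n hπ hCπ hm.ne' hg
      (hLInt _ hg1) (hLInt _ hg2))
  -- denominators
  have hden : ∀ x : F, (∀ n ∈ 𝒩, ∃ b : B, b ∉ n ∧ ∃ a : B, algebraMap B F a = algebraMap B F b * x) →
      ∃ s : R[X], s ∉ 𝔪 ∧ IsIntegral (Algebra.adjoin R {T}) (aeval T s * x) := by
    intro x hx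
    let D : Ideal B :=
      { carrier := {s | ∃ A : B, algebraMap B F A = algebraMap B F s * x}
        add_mem' := by
          rintro s s' ⟨A, hA⟩ ⟨A', hA'⟩
          exact ⟨A + A', by rw [map_add, map_add, hA, hA', add_mul]⟩
        zero_mem' := ⟨0, by simp⟩
        smul_mem' := by
          rintro c s ⟨A, hA⟩
          exact ⟨c * A, by rw [smul_eq_mul, map_mul, map_mul, hA, mul_assoc]⟩ }
    by_contra hcon
    push Not at hcon
    have hle : D.comap (algebraMap R[X] B) ≤ 𝔪 := by
      intro s hs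
      by_contra hs𝔪
      obtain ⟨A, hA⟩ := hs
      apply hcon s hs𝔪
      rw [isIntegral_adjoin_iff_poly hTalg, ← hTalg, IsScalarTower.algebraMap_apply R[X] B F, ← hA]
      exact (IsIntegralClosure.isIntegral_iff (A := B)).2 ⟨A, rfl⟩
    obtain ⟨Q, hQD, hQp, hQ𝔪⟩ := Ideal.exists_ideal_over_prime_of_isIntegral 𝔪 D hle
    have hQ𝒩 : Q ∈ 𝒩 := (hmem Q).2 ⟨hQp, ⟨hQ𝔪.symm⟩⟩
    obtain ⟨b, hb, a, hab⟩ := hx Q hQ𝒩
    exact hb (hQD ⟨a, hab⟩)
  have hneB : ∀ (n : Ideal B) (x : B), x ∉ n → algebraMap B F x ≠ 0 := by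
    intro n x hx h0
    apply hx
    have : x = 0 := (map_eq_zero_iff _ (IsFractionRing.injective B F)).1 h0
    rw [this]
    exact n.zero_mem
  obtain ⟨s1, hs1, h1⟩ := hden (H ^ m / g) (by
    intro n hn
    obtain ⟨A, Bb, hA, hB, hAB⟩ := hform n hn
    have := hneB n Bb hB
    exact ⟨Bb, hB, A, by rw [hAB]; field_simp⟩)
  obtain ⟨s2, hs2, h2⟩ := hden (g / H ^ m) (by
    intro n hn
    obtain ⟨A, Bb, hA, hB, hAB⟩ := hform n hn
    have hBF := hneB n Bb hB
    have hAF := hneB n A hA
    refine ⟨A, hA, Bb, ?_⟩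
    have : g / H ^ m = (H ^ m / g)⁻¹ := by rw [inv_div]
    rw [this, hAB, inv_div]
    field_simp)
  refine ⟨H, hH0, s1 * s2, fun hmem' => (hprime.mem_or_mem hmem').elim hs1 hs2, ?_, ?_⟩
  · rw [map_mul, mul_comm (aeval T s1), mul_assoc]
    exact (isIntegral_aeval_adjoin T s2).mul h1
  · rw [map_mul, mul_assoc]
    exact (isIntegral_aeval_adjoin T s1).mul h2

end aux

section concrete

variable {R K F : Type*} [CommRing R] [IsDomain R] [IsDiscreteValuationRing R] [Field K]
  [Algebra R K] [IsFractionRing R K] [CharZero K] [Field F] [Algebra K F] [Algebra R F]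
  [IsScalarTower R K F]

/-- **(A2c)**: GLUE in the chart `T`, at one maximal ideal `𝔪 ∋ π` of `R[X]`; only the closed points
over `𝔪` are needed. -/
theorem a2_locPrin_at {π : R} (hπ : Irreducible π) {T : F} (hT : Transcendental K T)
    [FiniteDimensional (IntermediateField.adjoin K {T}) F] {m : ℕ} (hm : 0 < m) {g : F}
    (hg : MDiv K m g) (hg1 : PiInt π T g) (hg2 : PiInt π T g⁻¹)
    (hufd : ∀ (n : Ideal (integralClosure (Algebra.adjoin R {T}) F)) [n.IsMaximal],
      (⟨algebraMap R F π, isIntegral_algebraMap (x := (⟨algebraMap R F π,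
        Subalgebra.algebraMap_mem _ π⟩ : Algebra.adjoin R {T}))⟩ :
        integralClosure (Algebra.adjoin R {T}) F) ∈ n →
      UniqueFactorizationMonoid (Localization.AtPrime n))
    (𝔪 : Ideal R[X]) (h𝔪 : 𝔪.IsMaximal) (hπ𝔪 : C π ∈ 𝔪) :
    ∃ H : F, H ≠ 0 ∧ ∃ s : R[X], s ∉ 𝔪 ∧
      IsIntegral (Algebra.adjoin R {T}) (aeval T s * (H ^ m / g)) ∧
      IsIntegral (Algebra.adjoin R {T}) (aeval T s * (g / H ^ m)) := by
  let algK : Algebra R[X] K⟮T⟯ := polyAlgebra K T
  have i1 : IsFractionRing R[X] K⟮T⟯ := isFractionRing_polyAlgebra hT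
  let algL : Algebra R[X] F := ((aeval T : R[X] →ₐ[R] F) : R[X] →+* F).toAlgebra
  have i2 : IsScalarTower R[X] K⟮T⟯ F :=
    IsScalarTower.of_algebraMap_eq fun p => (polyAlgebra_algebraMap_coe T p).symm
  have hTalg : ∀ p : R[X], algebraMap R[X] F p = aeval T p := fun p => rfl
  let φ : R[X] →+* integralClosure (Algebra.adjoin R {T}) F :=
    RingHom.codRestrict ((aeval T : R[X] →ₐ[R] F) : R[X] →+* F)
      (integralClosure (Algebra.adjoin R {T}) F) (fun p => isIntegral_aeval_adjoin T p)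
  let algB : Algebra R[X] (integralClosure (Algebra.adjoin R {T}) F) := φ.toAlgebra
  have i3 : IsScalarTower R[X] (integralClosure (Algebra.adjoin R {T}) F) F :=
    IsScalarTower.of_algebraMap_eq fun p => rfl
  have i4 : IsIntegralClosure (integralClosure (Algebra.adjoin R {T}) F) R[X] F :=
    ⟨Subtype.val_injective, fun {x} =>
      ⟨fun hx => ⟨⟨x, (isIntegral_adjoin_iff_poly hTalg x).2 hx⟩, rfl⟩, by
        rintro ⟨y, rfl⟩
        exact (isIntegral_adjoin_iff_poly hTalg _).1 y.2⟩⟩
  refine a2_chart_aux (K := K) (B := integralClosure (Algebra.adjoin R {T}) F) K⟮T⟯ hπ hTalg hm hg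
    hg1 hg2 ?_ 𝔪 h𝔪 hπ𝔪
  intro n hn hπn
  refine hufd n ?_
  have : (⟨algebraMap R F π, isIntegral_algebraMap (x := (⟨algebraMap R F π,
        Subalgebra.algebraMap_mem _ π⟩ : Algebra.adjoin R {T}))⟩ :
        integralClosure (Algebra.adjoin R {T}) F) =
      algebraMap R[X] (integralClosure (Algebra.adjoin R {T}) F) (C π) := by
    apply Subtype.ext
    change algebraMap R F π = aeval T (C π)
    rw [aeval_C]
  rw [this]
  exact hπn

/-- **(A2c)**: GLUE in the chart `T`. -/
theorem a2_locPrin {π : R} (hπ : Irreducible π) {T : F} (hT : Transcendental K T)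
    [FiniteDimensional (IntermediateField.adjoin K {T}) F] {m : ℕ} (hm : 0 < m) {g : F}
    (hg : MDiv K m g) (hg1 : PiInt π T g) (hg2 : PiInt π T g⁻¹)
    (hufd : ∀ (n : Ideal (integralClosure (Algebra.adjoin R {T}) F)) [n.IsMaximal],
      (⟨algebraMap R F π, isIntegral_algebraMap (x := (⟨algebraMap R F π,
        Subalgebra.algebraMap_mem _ π⟩ : Algebra.adjoin R {T}))⟩ :
        integralClosure (Algebra.adjoin R {T}) F) ∈ n →
      UniqueFactorizationMonoid (Localization.AtPrime n)) :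
    LocPrin π T g m :=
  fun 𝔪 h𝔪 hπ𝔪 => a2_locPrin_at hπ hT hm hg hg1 hg2 hufd 𝔪 h𝔪 hπ𝔪

end concrete

end Fermat.Agent.CARlib
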