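import Fermat.Agent.CAR.CDefs

/-!
# T-CAR, block C: (C-gen) from elementwise regularity to the hypotheses of A1
-/

set_option autoImplicit false

open IsLocalRing Polynomial

namespace Fermat.Agent.CARlib.C

/-- **(C-gen)** translation to the hypotheses of A1 (`ESlib.ufd_of_regular_two`) -/
theorem c_gen {B : Type*} [CommRing B] [IsDomain B] (𝔫 : Ideal B) [𝔫.IsMaximal] (P : Ideal B)
    [P.IsPrime] (hP : P ≤ 𝔫) {a t : B} (ha : a ≠ 0) (h : CReg 𝔫 P a t) :
    Prime (algebraMap B (Localization.AtPrime 𝔫) a) ∧
    maximalIdeal (Localization.AtPrime 𝔫) =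
      Ideal.span {algebraMap B (Localization.AtPrime 𝔫) a,
        algebraMap B (Localization.AtPrime 𝔫) t} := by
  set O := Localization.AtPrime 𝔫
  set φ := algebraMap B O with hφ
  have hinj : Function.Injective φ :=
    IsLocalization.injective _ 𝔫.primeCompl_le_nonZeroDivisors
  have hunit : ∀ s, s ∉ 𝔫 → IsUnit (φ s) := fun s hs =>
    IsLocalization.map_units O (⟨s, hs⟩ : 𝔫.primeCompl)
  have hmapP : Ideal.map φ P = Ideal.span {φ a} := by
    apply le_antisymm
    · rw [Ideal.map_le_iff_le_comap]
      intro x hx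
      obtain ⟨s, hs, y, hy⟩ := h.gen x hx
      rw [Ideal.mem_comap, Ideal.mem_span_singleton, ← (hunit s hs).dvd_mul_left, ← map_mul, hy,
        map_mul]
      exact Dvd.intro _ rfl
    · rw [Ideal.span_le, Set.singleton_subset_iff]
      exact Ideal.mem_map_of_mem _ h.a_mem
  have hprime : (Ideal.map φ P).IsPrime := by
    apply IsLocalization.isPrime_of_isPrime_disjoint 𝔫.primeCompl O P inferInstance
    rw [Set.disjoint_left]
    intro x hx hx'
    exact hx (hP hx')
  have ha' : φ a ≠ 0 := fun h0 => ha (hinj (by rw [h0, map_zero]))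
  refine ⟨?_, ?_⟩
  · rw [hmapP, Ideal.span_singleton_prime ha'] at hprime
    exact hprime
  · rw [← Localization.AtPrime.map_eq_maximalIdeal]
    apply le_antisymm
    · rw [Ideal.map_le_iff_le_comap]
      intro x hx
      obtain ⟨s, hs, y, hy⟩ := h.dvr x hx
      have h1 : φ (s * x - t * y) ∈ Ideal.span {φ a, φ t} := by
        have : φ (s * x - t * y) ∈ Ideal.span {φ a} := by
          rw [← hmapP]; exact Ideal.mem_map_of_mem _ hy
        exact Ideal.span_mono (by simp) this
      have h2 : φ t * φ y ∈ Ideal.span {φ a, φ t} :=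
        Ideal.mul_mem_right _ _ (Ideal.subset_span (by simp))
      have h3 : φ s * φ x ∈ Ideal.span {φ a, φ t} := by
        have := Ideal.add_mem _ h1 h2
        rwa [map_sub, map_mul, map_mul, sub_add_cancel] at this
      rw [Ideal.mem_comap]
      exact (Ideal.unit_mul_mem_iff_mem _ (hunit s hs)).1 h3
    · rw [Ideal.span_le]
      intro z hz
      rcases hz with rfl | rfl
      · exact Ideal.mem_map_of_mem _ (hP h.a_mem)
      · exact Ideal.mem_map_of_mem _ h.t_mem

end Fermat.Agent.CARlib.C
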