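import Mathlib
import Fermat.Agent.CAR.A2LocPrin
import Fermat.Agent.CAR.A1UFD
import Fermat.Agent.CAR.CGen

/-!
# T-CAR, (A2-final): `g = unit * H ^ m` at ONE closed point `𝔫` of the chart `T`
-/

set_option autoImplicit false
set_option linter.unusedSectionVars false

namespace Fermat.Agent.CARlib

open Polynomial IntermediateField Fermat.Agent.ESlib Fermat.Agent.UNIlib

section aux

variable {R K F B : Type*} [CommRing R] [IsDomain R] [IsDiscreteValuationRing R]
  [Field K] [Algebra R K] [IsFractionRing R K] [CharZero K] [Field F] [Algebra K F] [Algebra R F]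
  [IsScalarTower R K F] [Algebra R[X] F]
  [CommRing B] [IsDomain B] [Algebra R[X] B] [Algebra B F] [IsScalarTower R[X] B F]
  [IsIntegralClosure B R[X] F]

theorem a2_final_aux (Kt : Type*) [Field Kt] [Algebra Kt F] [Algebra R[X] Kt]
    [IsFractionRing R[X] Kt] [IsScalarTower R[X] Kt F] [FiniteDimensional Kt F]
    {π : R} (hπ : Irreducible π) {T : F}
    (hTalg : ∀ p : R[X], algebraMap R[X] F p = aeval T p) {m : ℕ} (hm : 0 < m) {g : F}
    (hg : MDiv K m g) (hg1 : PiInt π T g) (hg2 : PiInt π T g⁻¹)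
    (n : Ideal B) [n.IsPrime]
    (hufd : IsNoetherianRing B → UniqueFactorizationMonoid (Localization.AtPrime n)) :
    ∃ H : F, H ≠ 0 ∧ ∃ a b : B, a ∉ n ∧ b ∉ n ∧
      H ^ m / g = algebraMap B F a / algebraMap B F b := by
  classical
  have hπp : Prime π := hπ.prime
  have hCπ : Prime (C π : R[X]) := prime_C_of_prime hπp
  have i0 : CharZero F := charZero_of_injective_algebraMap (algebraMap K F).injective
  have i0' : CharZero Kt := by
    refine ⟨fun a b hab => ?_⟩
    have := congrArg (algebraMap Kt F) hab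
    simpa using this
  have i1 : Algebra.IsIntegral R[X] B := IsIntegralClosure.isIntegral_algebra R[X] F
  have i3 : IsNoetherianRing B := IsIntegralClosure.isNoetherianRing R[X] Kt F B
  have i4 : IsFractionRing B F := IsIntegralClosure.isFractionRing_of_finite_extension R[X] Kt F B
  have hmemB : ∀ x : F, IsIntegral R[X] x → ∃ y : B, algebraMap B F y = x := fun x hx =>
    (IsIntegralClosure.isIntegral_iff (A := B)).1 hx
  have hinjF : Function.Injective (algebraMap R[X] F) := by
    rw [IsScalarTower.algebraMap_eq R[X] Kt F]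
    exact (algebraMap Kt F).injective.comp (IsFractionRing.injective R[X] Kt)
  have i6 : FaithfulSMul R[X] B := by
    refine (faithfulSMul_iff_algebraMap_injective _ _).2 fun a b hab => ?_
    apply hinjF
    rw [IsScalarTower.algebraMap_apply R[X] B F, hab, ← IsScalarTower.algebraMap_apply R[X] B F]
  have i7 : IsScalarTower R R[X] F := IsScalarTower.of_algebraMap_eq fun x => by
    rw [hTalg, Polynomial.algebraMap_apply, aeval_C, Algebra.algebraMap_self, RingHom.id_apply]
  have hLInt : ∀ x : F, PiInt π T x → LInt (algebraMap R R[X] π) x := by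
    rintro x ⟨r, hr, hrx⟩
    refine ⟨r, hr, ?_⟩
    rw [Algebra.smul_def, hTalg, ← isIntegral_adjoin_iff_poly hTalg]
    exact hrx
  let O := Localization.subalgebra.ofField F n.primeCompl (Ideal.primeCompl_le_nonZeroDivisors n)
  have j1 : IsDomain O := IsLocalization.isDomain_of_atPrime O n
  have j2 : IsNoetherianRing O := IsLocalization.isNoetherianRing n.primeCompl O inferInstance
  have j3 : IsFractionRing O F :=
    IsFractionRing.isFractionRing_of_isDomain_of_isLocalization n.primeCompl O F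
  have j4 : UniqueFactorizationMonoid O :=
    (IsLocalization.algEquiv n.primeCompl (Localization.AtPrime n) O).toMulEquiv.uniqueFactorizationMonoid
      (hufd i3)
  exact a2_at (K := K) (P := R[X]) (S := B) (O := O) hmemB n hπ hCπ hm.ne' hg
    (hLInt _ hg1) (hLInt _ hg2)

end aux

section concrete

variable {R K F : Type*} [CommRing R] [IsDomain R] [IsDiscreteValuationRing R] [Field K]
  [Algebra R K] [IsFractionRing R K] [CharZero K] [Field F] [Algebra K F] [Algebra R F]
  [IsScalarTower R K F]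

/-- the integral closure of `R[T]` in `F` is noetherian -/
theorem a2_isNoetherianRing {T : F} (hT : Transcendental K T)
    [FiniteDimensional (IntermediateField.adjoin K {T}) F] :
    IsNoetherianRing (integralClosure (Algebra.adjoin R {T}) F) := by
  let algK : Algebra R[X] K⟮T⟯ := polyAlgebra K T
  have i1 : IsFractionRing R[X] K⟮T⟯ := isFractionRing_polyAlgebra hT
  let algL : Algebra R[X] F := ((aeval T : R[X] →ₐ[R] F) : R[X] →+* F).toAlgebra
  have i2 : IsScalarTower R[X] K⟮T⟯ F :=
    IsScalarTower.of_algebraMap_eq fun p => (polyAlgebra_algebraMap_coe T p).symm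
  have hTalg : ∀ p : R[X], algebraMap R[X] F p = aeval T p := fun p => rfl
  let φ : R[X] →+* integralClosure (Algebra.adjoin R {T}) F :=
    RingHom.codRestrict ((aeval T : R[X] →ₐ[R] F) : R[X] →+* F)
      (integralClosure (Algebra.adjoin R {T}) F) (fun p => isIntegral_aeval_adjoin T p)
  let algB : Algebra R[X] (integralClosure (Algebra.adjoin R {T}) F) := φ.toAlgebra
  have i3 : IsScalarTower R[X] (integralClosure (Algebra.adjoin R {T}) F) F :=
    IsScalarTower.of_algebraMap_eq fun p => rfl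
  have i4 : IsIntegralClosure (integralClosure (Algebra.adjoin R {T}) F) R[X] F :=
    ⟨Subtype.val_injective, fun {x} =>
      ⟨fun hx => ⟨⟨x, (isIntegral_adjoin_iff_poly hTalg x).2 hx⟩, rfl⟩, by
        rintro ⟨y, rfl⟩
        exact (isIntegral_adjoin_iff_poly hTalg _).1 y.2⟩⟩
  have i0' : CharZero K⟮T⟯ := charZero_of_injective_algebraMap (algebraMap K K⟮T⟯).injective
  exact IsIntegralClosure.isNoetherianRing R[X] K⟮T⟯ F _

/-- **(A2-final)**: `B` the integral closure of `R[T]` in `F`, `𝔫` a prime of `B` such that `B_𝔫` is a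
UFD, `g` a unit at the vertical valuations, `m ∣ div g` on the generic fibre.  Then
`s₁ g = s₂ H ^ m` with `s₁, s₂ ∈ B ∖ 𝔫`. -/
theorem a2_final {π : R} (hπ : Irreducible π) {T : F} (hT : Transcendental K T)
    [FiniteDimensional (IntermediateField.adjoin K {T}) F] {m : ℕ} (hm : 0 < m) {g : F}
    (hg : MDiv K m g) (hg1 : PiInt π T g) (hg2 : PiInt π T g⁻¹)
    (𝔫 : Ideal (integralClosure (Algebra.adjoin R {T}) F)) [𝔫.IsPrime]
    (hufd : UniqueFactorizationMonoid (Localization.AtPrime 𝔫)) :
    ∃ H : F, H ≠ 0 ∧ ∃ s₁ s₂ : integralClosure (Algebra.adjoin R {T}) F, s₁ ∉ 𝔫 ∧ s₂ ∉ 𝔫 ∧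
      (s₁ : F) * g = (s₂ : F) * H ^ m := by
  let algK : Algebra R[X] K⟮T⟯ := polyAlgebra K T
  have i1 : IsFractionRing R[X] K⟮T⟯ := isFractionRing_polyAlgebra hT
  let algL : Algebra R[X] F := ((aeval T : R[X] →ₐ[R] F) : R[X] →+* F).toAlgebra
  have i2 : IsScalarTower R[X] K⟮T⟯ F :=
    IsScalarTower.of_algebraMap_eq fun p => (polyAlgebra_algebraMap_coe T p).symm
  have hTalg : ∀ p : R[X], algebraMap R[X] F p = aeval T p := fun p => rfl
  let φ : R[X] →+* integralClosure (Algebra.adjoin R {T}) F :=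
    RingHom.codRestrict ((aeval T : R[X] →ₐ[R] F) : R[X] →+* F)
      (integralClosure (Algebra.adjoin R {T}) F) (fun p => isIntegral_aeval_adjoin T p)
  let algB : Algebra R[X] (integralClosure (Algebra.adjoin R {T}) F) := φ.toAlgebra
  have i3 : IsScalarTower R[X] (integralClosure (Algebra.adjoin R {T}) F) F :=
    IsScalarTower.of_algebraMap_eq fun p => rfl
  have i4 : IsIntegralClosure (integralClosure (Algebra.adjoin R {T}) F) R[X] F :=
    ⟨Subtype.val_injective, fun {x} =>
      ⟨fun hx => ⟨⟨x, (isIntegral_adjoin_iff_poly hTalg x).2 hx⟩, rfl⟩, by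
        rintro ⟨y, rfl⟩
        exact (isIntegral_adjoin_iff_poly hTalg _).1 y.2⟩⟩
  obtain ⟨H, hH0, a, b, ha, hb, hab⟩ := a2_final_aux (K := K)
    (B := integralClosure (Algebra.adjoin R {T}) F) K⟮T⟯ hπ hTalg hm hg hg1 hg2 𝔫 (fun _ => hufd)
  refine ⟨H, hH0, a, b, ha, hb, ?_⟩
  have hb0 : (b : F) ≠ 0 := by
    intro h0
    apply hb
    have : b = 0 := Subtype.ext h0
    rw [this]
    exact 𝔫.zero_mem
  have hab' : H ^ m / g = (a : F) / (b : F) := hab
  have hg0 := hg.1
  field_simp at hab'
  rw [mul_comm (a : F) g, ← hab', mul_comm]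

/-- **(A2-final)** from the elementwise regularity `CReg` of block C. -/
theorem a2_final_creg {π : R} (hπ : Irreducible π) {T : F} (hT : Transcendental K T)
    [FiniteDimensional (IntermediateField.adjoin K {T}) F] {m : ℕ} (hm : 0 < m) {g : F}
    (hg : MDiv K m g) (hg1 : PiInt π T g) (hg2 : PiInt π T g⁻¹)
    (𝔫 : Ideal (integralClosure (Algebra.adjoin R {T}) F)) [𝔫.IsMaximal]
    (P : Ideal (integralClosure (Algebra.adjoin R {T}) F)) [P.IsPrime] (hP : P ≤ 𝔫)
    {a t : integralClosure (Algebra.adjoin R {T}) F} (ha : a ≠ 0) (h : C.CReg 𝔫 P a t) :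
    ∃ H : F, H ≠ 0 ∧ ∃ s₁ s₂ : integralClosure (Algebra.adjoin R {T}) F, s₁ ∉ 𝔫 ∧ s₂ ∉ 𝔫 ∧
      (s₁ : F) * g = (s₂ : F) * H ^ m := by
  have i1 : IsNoetherianRing (integralClosure (Algebra.adjoin R {T}) F) :=
    a2_isNoetherianRing (K := K) hT
  have i2 : IsNoetherianRing (Localization.AtPrime 𝔫) :=
    IsLocalization.isNoetherianRing 𝔫.primeCompl _ inferInstance
  obtain ⟨h1, h2⟩ := C.c_gen 𝔫 P hP ha h
  exact a2_final hπ hT hm hg hg1 hg2 𝔫 (a1_ufd h2 h1)

end concrete

end Fermat.Agent.CARlib
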