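import Fermat.Agent.CAR.A2Semi

/-!
# T-CAR, (A2b): `a2_glue` lives in `CAR/A2Semi.lean` (this file only re-exports it by import).
-/
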