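import Mathlib

/-!
# T-CAR, block A, (A4) EIS: Eisenstein type extension of an `A1`-regular ring

`A` a local UFD with `m_A = (π, s)`, `π` prime; `B = A[y]` a domain, `y` a root of `Q ∈ A[X]` with
`Q(0) = π * unit`, `(y, π, s) ≠ B`.  Then `B / (y) = A / (π)`, `y` is prime, `π ∈ (y)` and `(y, s)` is
a maximal ideal of `B`; the localisation of `B` at `(y, s)` satisfies the hypotheses of (A1) with
parameters `(y, s)`.
-/

set_option autoImplicit false

open Polynomial IsLocalRing

namespace Fermat.Agent.CARlib

section ker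

variable {A : Type*} [CommRing A] [IsDomain A] [UniqueFactorizationMonoid A]

/-- Gauss, field version -/
theorem a4_ker_field {K F : Type*} [Field K] [Algebra A K] [IsFractionRing A K] [Field F]
    [Algebra A F] (hinj : Function.Injective (algebraMap A F)) {y : F} {P0 : A[X]}
    (hP0 : Prime P0) (hy : aeval y P0 = 0) {f : A[X]} (hf : aeval y f = 0) : P0 ∣ f := by
  have hφ : (IsFractionRing.lift hinj : K →+* F).comp (algebraMap A K) = algebraMap A F := by
    ext a
    exact IsFractionRing.lift_algebraMap hinj a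
  have hev : ∀ g : A[X], eval₂ (IsFractionRing.lift hinj : K →+* F) y
      (g.map (algebraMap A K)) = aeval y g := by
    intro g
    rw [eval₂_map, hφ, aeval_def]
  -- `P0` is not constant
  have hdeg : P0.natDegree ≠ 0 := by
    intro h0
    rw [eq_C_of_natDegree_eq_zero h0, aeval_C] at hy
    have : P0.coeff 0 = 0 := hinj (by rw [hy, map_zero])
    apply hP0.ne_zero
    rw [eq_C_of_natDegree_eq_zero h0, this, C_0]
  have hprim : P0.IsPrimitive := hP0.irreducible.isPrimitive hdeg
  have hirrK : Irreducible (P0.map (algebraMap A K)) :=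
    (hprim.irreducible_iff_irreducible_map_fraction_map).mp hP0.irreducible
  -- divisibility over `K`
  have hdvdK : ∀ g : A[X], aeval y g = 0 → P0.map (algebraMap A K) ∣ g.map (algebraMap A K) := by
    intro g hg
    rcases hirrK.isCoprime_or_dvd (g.map (algebraMap A K)) with hc | hd
    · exfalso
      obtain ⟨a, b, hab⟩ := hc
      have := congrArg (eval₂ (IsFractionRing.lift hinj : K →+* F) y) hab
      rw [eval₂_add, eval₂_mul, eval₂_mul, hev, hev, hy, hg, mul_zero, mul_zero,
        add_zero, eval₂_one] at this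
      exact zero_ne_one this
    · exact hd
  exact hprim.dvd_of_fraction_map_dvd_fraction_map (K := K) (hdvdK _ hf)

/-- Gauss: the kernel of `aeval y` is generated by any prime element it contains. -/
theorem a4_ker {B : Type*} [CommRing B] [IsDomain B] [Algebra A B]
    (hinj : Function.Injective (algebraMap A B)) {y : B} {P0 : A[X]} (hP0 : Prime P0)
    (hy : aeval y P0 = 0) {f : A[X]} (hf : aeval y f = 0) : P0 ∣ f := by
  have hinjF : Function.Injective (algebraMap A (FractionRing B)) := by
    rw [IsScalarTower.algebraMap_eq A B (FractionRing B)]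
    exact (IsFractionRing.injective B (FractionRing B)).comp hinj
  refine a4_ker_field (K := FractionRing A) (F := FractionRing B) hinjF
    (y := algebraMap B (FractionRing B) y) hP0 ?_ ?_
  · rw [aeval_algebraMap_apply, hy, map_zero]
  · rw [aeval_algebraMap_apply, hf, map_zero]

omit [IsDomain A] in
/-- a root of `Q ≠ 0` is a root of a prime factor of `Q` -/
theorem a4_exists_prime_factor {B : Type*} [CommRing B] [IsDomain B] [Algebra A B] {y : B}
    {Q : A[X]} (hQ0 : Q ≠ 0) (hQy : aeval y Q = 0) :
    ∃ P0 : A[X], Prime P0 ∧ P0 ∣ Q ∧ aeval y P0 = 0 := by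
  classical
  have h1 := UniqueFactorizationMonoid.factors_prod hQ0
  have h2 : aeval y (UniqueFactorizationMonoid.factors Q).prod = 0 := by
    obtain ⟨u, hu⟩ := h1
    have h3 : aeval y ((UniqueFactorizationMonoid.factors Q).prod * (u : A[X])) = 0 := by
      rw [hu, hQy]
    rw [map_mul] at h3
    refine (mul_eq_zero.mp h3).resolve_right ?_
    exact (u.isUnit.map (aeval y)).ne_zero
  rw [map_multiset_prod, Multiset.prod_eq_zero_iff, Multiset.mem_map] at h2
  obtain ⟨P0, hP0, hP0y⟩ := h2
  exact ⟨P0, UniqueFactorizationMonoid.prime_of_factor P0 hP0,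
    UniqueFactorizationMonoid.dvd_of_mem_factors hP0, hP0y⟩

end ker

section main

variable {A B : Type*} [CommRing A] [IsDomain A] [IsLocalRing A] [UniqueFactorizationMonoid A]
  [CommRing B] [IsDomain B] [Algebra A B]

/-- every element of `A[y]` is congruent mod `y` to an element of `A` -/
theorem a4_exists_sub {A B : Type*} [CommRing A] [CommRing B] [Algebra A B] {y : B}
    (hgen : Algebra.adjoin A {y} = ⊤) (x : B) :
    ∃ (a : A) (h : A[X]), x = algebraMap A B a + y * aeval y h := by
  have hx : x ∈ Algebra.adjoin A {y} := by rw [hgen]; trivial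
  rw [Algebra.adjoin_singleton_eq_range_aeval] at hx
  obtain ⟨f, rfl⟩ := hx
  refine ⟨f.coeff 0, f.divX, ?_⟩
  conv_lhs => rw [← f.divX_mul_X_add]
  simp only [AlgHom.toRingHom_eq_coe, RingHom.coe_coe, map_add, map_mul, aeval_X, aeval_C]
  ring

/-- **(A4) EIS** -/
theorem a4_eis (hinj : Function.Injective (algebraMap A B)) {π s : A}
    (hm : maximalIdeal A = Ideal.span {π, s}) (hπ : Prime π) {y : B}
    (hgen : Algebra.adjoin A {y} = ⊤) {Q : A[X]} (hQy : aeval y Q = 0)
    (hQ0 : ∃ u : Aˣ, Q.coeff 0 = π * u)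
    (hproper : Ideal.span {y, algebraMap A B π, algebraMap A B s} ≠ ⊤) :
    y ≠ 0 ∧ y ∣ algebraMap A B π ∧ (∀ a : A, y ∣ algebraMap A B a → π ∣ a) ∧
      (∀ x : B, ∃ a : A, y ∣ x - algebraMap A B a) ∧ Prime y ∧
      (Ideal.span {y, algebraMap A B s}).IsMaximal := by
  obtain ⟨u, hu⟩ := hQ0
  have hynu : ¬ IsUnit y := by
    intro h
    apply hproper
    exact Ideal.eq_top_of_isUnit_mem _ (Ideal.subset_span (by simp)) h
  have hQne : Q ≠ 0 := by
    rintro rfl
    rw [coeff_zero] at hu
    exact (mul_ne_zero hπ.ne_zero u.ne_zero) hu.symm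
  -- value at `y` in terms of the constant coefficient
  have hval : ∀ f : A[X], aeval y f = algebraMap A B (f.coeff 0) + y * aeval y f.divX := by
    intro f
    conv_lhs => rw [← f.divX_mul_X_add]
    simp only [map_add, map_mul, aeval_X, aeval_C]
    ring
  have hdvd0 : ∀ f : A[X], aeval y f = 0 → y ∣ algebraMap A B (f.coeff 0) := by
    intro f hf
    rw [hval f] at hf
    exact ⟨- aeval y f.divX, by linear_combination hf⟩
  obtain ⟨P0, hP0, hP0Q, hP0y⟩ := a4_exists_prime_factor hQne hQy
  -- the constant coefficient of `P0` is associated to `π`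
  have hc0 : Associated (P0.coeff 0) π := by
    obtain ⟨R, hR⟩ := hP0Q
    have h1 : P0.coeff 0 * R.coeff 0 = π * u := by rw [← hu, hR, mul_coeff_zero]
    have h2 : π = P0.coeff 0 * (R.coeff 0 * ((u⁻¹ : Aˣ) : A)) := by
      rw [← mul_assoc, h1, mul_assoc, Units.mul_inv, mul_one]
    rcases hπ.irreducible.isUnit_or_isUnit h2 with h | h
    · exfalso
      exact hynu (isUnit_of_dvd_unit (hdvd0 P0 hP0y) (h.map (algebraMap A B)))
    · obtain ⟨v, hv⟩ := h
      exact ⟨v, by rw [hv, ← h2]⟩
  have hyπ : y ∣ algebraMap A B π := by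
    have := hdvd0 Q hQy
    rw [hu, map_mul] at this
    exact (IsUnit.dvd_mul_right (u.isUnit.map (algebraMap A B))).mp this
  have h5 : ∀ a : A, y ∣ algebraMap A B a → π ∣ a := by
    rintro a ⟨z, hz⟩
    obtain ⟨b, h, hb⟩ := a4_exists_sub hgen z
    -- the polynomial `C a - X * (C b + X * h)` vanishes at `y`
    have hf : aeval y (C a - X * (C b + X * h)) = 0 := by
      simp only [map_sub, map_mul, map_add, aeval_X, aeval_C]
      rw [hz, hb]; ring
    have hd := a4_ker hinj hP0 hP0y hf
    obtain ⟨R, hR⟩ := hd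
    have h0 : a = P0.coeff 0 * R.coeff 0 := by
      rw [← mul_coeff_zero, ← hR]
      simp
    rw [h0]
    exact (hc0.symm.dvd).mul_right _
  have h4 : ∀ x : B, ∃ a : A, y ∣ x - algebraMap A B a := by
    intro x
    obtain ⟨a, h, hx⟩ := a4_exists_sub hgen x
    exact ⟨a, aeval y h, by rw [hx]; ring⟩
  have hy0 : y ≠ 0 := by
    rintro rfl
    have := h5 1 (by
      have h6 := hdvd0 Q hQy
      rw [zero_dvd_iff] at h6
      have : Q.coeff 0 = 0 := hinj (by rw [h6, map_zero])
      rw [hu] at this
      exact absurd this (mul_ne_zero hπ.ne_zero u.ne_zero))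
    exact hπ.not_isUnit (isUnit_of_dvd_one this)
  have hprime : Prime y := by
    refine ⟨hy0, hynu, ?_⟩
    intro x₁ x₂ h12
    obtain ⟨a₁, z₁, h₁⟩ := h4 x₁
    obtain ⟨a₂, z₂, h₂⟩ := h4 x₂
    have e₁ : x₁ = algebraMap A B a₁ + y * z₁ := by linear_combination h₁
    have e₂ : x₂ = algebraMap A B a₂ + y * z₂ := by linear_combination h₂
    have h7 : y ∣ algebraMap A B (a₁ * a₂) := by
      rw [map_mul]
      have : algebraMap A B a₁ * algebraMap A B a₂ =
          x₁ * x₂ - y * (z₁ * algebraMap A B a₂ + z₂ * algebraMap A B a₁ + y * z₁ * z₂) := by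
        rw [e₁, e₂]; ring
      rw [this]
      exact dvd_sub h12 (dvd_mul_right _ _)
    rcases hπ.dvd_or_dvd (h5 _ h7) with h | h
    · left
      rw [e₁]
      exact dvd_add (hyπ.trans (map_dvd (algebraMap A B) h)) (dvd_mul_right _ _)
    · right
      rw [e₂]
      exact dvd_add (hyπ.trans (map_dvd (algebraMap A B) h)) (dvd_mul_right _ _)
  refine ⟨hy0, hyπ, h5, h4, hprime, ?_⟩
  -- maximality
  have hπmem : algebraMap A B π ∈ Ideal.span {y, algebraMap A B s} := by
    obtain ⟨z, hz⟩ := hyπ
    rw [hz]
    exact Ideal.mul_mem_right _ _ (Ideal.subset_span (by simp))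
  have hmA : ∀ a ∈ maximalIdeal A, algebraMap A B a ∈ Ideal.span {y, algebraMap A B s} := by
    intro a ha
    rw [hm, Ideal.mem_span_pair] at ha
    obtain ⟨c, d, rfl⟩ := ha
    rw [map_add, map_mul, map_mul]
    exact Ideal.add_mem _ (Ideal.mul_mem_left _ _ hπmem)
      (Ideal.mul_mem_left _ _ (Ideal.subset_span (by simp)))
  rw [Ideal.isMaximal_iff]
  constructor
  · intro h1
    apply hproper
    rw [Ideal.eq_top_iff_one]
    refine Ideal.span_mono ?_ h1
    intro t ht
    simp only [Set.mem_insert_iff, Set.mem_singleton_iff] at ht ⊢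
    tauto
  · intro J x hJ hx hxJ
    obtain ⟨a, z, hz⟩ := h4 x
    have e : x = algebraMap A B a + y * z := by linear_combination hz
    have hyz : y * z ∈ Ideal.span {y, algebraMap A B s} :=
      Ideal.mul_mem_right _ _ (Ideal.subset_span (by simp))
    have ha : a ∉ maximalIdeal A := by
      intro ha
      apply hx
      rw [e]
      exact Ideal.add_mem _ (hmA a ha) hyz
    have hau : IsUnit a := by
      by_contra h
      exact ha ((mem_maximalIdeal a).mpr h)
    have haJ : algebraMap A B a ∈ J := by
      have : algebraMap A B a = x - y * z := by rw [e]; ring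
      rw [this]
      exact J.sub_mem hxJ (hJ hyz)
    exact (Ideal.eq_top_iff_one J).mp
      (Ideal.eq_top_of_isUnit_mem J haJ (hau.map (algebraMap A B)))

end main

section loc

variable {A B : Type*} [CommRing A] [CommRing B] [Algebra A B]

/-- `A[y]` is noetherian -/
theorem a4_noeth [IsNoetherianRing A] {y : B} (hgen : Algebra.adjoin A {y} = ⊤) :
    IsNoetherianRing B := by
  have hs : Function.Surjective ((aeval y : A[X] →ₐ[A] B) : A[X] →+* B) := by
    intro x
    have hx : x ∈ Algebra.adjoin A {y} := by rw [hgen]; trivial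
    rw [Algebra.adjoin_singleton_eq_range_aeval] at hx
    exact hx
  exact isNoetherianRing_of_surjective A[X] B _ hs

/-- `hproper` from a local ring receiving `B` -/
theorem a4_proper {O : Type*} [CommRing O] [IsLocalRing O] (ψ : B →+* O) {y : B} {π s : A}
    (hy : ψ y ∈ maximalIdeal O) (hπ : ψ (algebraMap A B π) ∈ maximalIdeal O)
    (hs : ψ (algebraMap A B s) ∈ maximalIdeal O) :
    Ideal.span {y, algebraMap A B π, algebraMap A B s} ≠ ⊤ := by
  intro h
  have h1 : Ideal.span {y, algebraMap A B π, algebraMap A B s} ≤ (maximalIdeal O).comap ψ := by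
    rw [Ideal.span_le]
    intro t ht
    simp only [Set.mem_insert_iff, Set.mem_singleton_iff] at ht
    rcases ht with rfl | rfl | rfl
    · exact hy
    · exact hπ
    · exact hs
  rw [h, top_le_iff, Ideal.comap_eq_top_iff] at h1
  exact (maximalIdeal.isMaximal O).ne_top h1

/-- the localisation of `B` at `(y, s)` satisfies the hypotheses of (A1) -/
theorem a4_loc [IsDomain B] [IsNoetherianRing B] {y t : B} (hy : Prime y)
    [hmax : (Ideal.span {y, t}).IsPrime] (O' : Type*) [CommRing O'] [Algebra B O']
    [IsLocalization.AtPrime O' (Ideal.span {y, t})] [IsLocalRing O'] :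
    IsNoetherianRing O' ∧ maximalIdeal O' = Ideal.span {algebraMap B O' y, algebraMap B O' t} ∧
      Prime (algebraMap B O' y) := by
  refine ⟨IsLocalization.isNoetherianRing (Ideal.span {y, t}).primeCompl O' inferInstance, ?_, ?_⟩
  · rw [← IsLocalization.AtPrime.map_eq_maximalIdeal (Ideal.span {y, t}) O', Ideal.map_span,
      Set.image_pair]
  · have h1 : (Ideal.span {y}).IsPrime := (Ideal.span_singleton_prime hy.ne_zero).mpr hy
    have h2 : Disjoint ((Ideal.span {y, t}).primeCompl : Set B) (Ideal.span {y} : Ideal B) := by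
      rw [Set.disjoint_left]
      intro x hx hxy
      apply hx
      exact Ideal.span_mono (by simp) hxy
    have h3 := IsLocalization.isPrime_of_isPrime_disjoint (Ideal.span {y, t}).primeCompl O' _ h1 h2
    rw [Ideal.map_span, Set.image_singleton] at h3
    have hinj : Function.Injective (algebraMap B O') :=
      IsLocalization.injective O' (Ideal.span {y, t}).primeCompl_le_nonZeroDivisors
    have h0 : algebraMap B O' y ≠ 0 := by
      intro h
      exact hy.ne_zero (hinj (by rw [h, map_zero]))
    exact (Ideal.span_singleton_prime h0).mp h3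

end loc

end Fermat.Agent.CARlib
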