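import Mathlib
import Fermat.Agent.CAR.XCritB2

/-!
# T-CAR, (A5c): from the local ring at `𝔫` to the clause of `LocPowB2` at `𝔫`

The vertical valuations which do not pass through `𝔫` are killed by a denominator `s ∉ 𝔫`.
-/

set_option autoImplicit false

namespace Fermat.Agent.CARlib

open Polynomial IsLocalRing Fermat.Agent.ESlib Fermat.Agent.UNIlib

/-- `W` passes through `n`: the centre of `W` on `B` is contained in `n`. -/
def A5Thru {B F : Type*} [CommRing B] [Field F] [Algebra B F] (n : Ideal B)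
    (W : ValuationSubring F) : Prop :=
  ∀ b : B, W.valuation (algebraMap B F b) < 1 → b ∈ n

/-- an element which is integral at the branches through `n` becomes integral at all the branches
after multiplication by some `s ∉ n`. -/
theorem a5_at_mem {B F ι : Type*} [CommRing B] [Field F] [Algebra B F] (n : Ideal B) [n.IsPrime]
    [Finite ι] (W : ι → ValuationSubring F) (hBW : ∀ i x, algebraMap B F x ∈ W i)
    (harch : ∀ i (s x : F), (W i).valuation s < 1 → ∃ M : ℕ, s ^ M * x ∈ W i)
    {x : F} (hx : ∀ i, A5Thru n (W i) → x ∈ W i) :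
    ∃ s : B, s ∉ n ∧ ∀ i, algebraMap B F s * x ∈ W i := by
  classical
  cases nonempty_fintype ι
  have key : ∀ i, ∃ σ : B, σ ∉ n ∧ algebraMap B F σ * x ∈ W i := by
    intro i
    by_cases hc : A5Thru n (W i)
    · exact ⟨1, fun h1 => (Ideal.IsPrime.ne_top inferInstance) ((Ideal.eq_top_iff_one n).2 h1),
        by simpa using hx i hc⟩
    · unfold A5Thru at hc
      push Not at hc
      obtain ⟨b, hb, hbn⟩ := hc
      obtain ⟨M, hM⟩ := harch i _ x hb
      exact ⟨b ^ M, fun h1 => hbn (Ideal.IsPrime.mem_of_pow_mem inferInstance M h1),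
        by simpa using hM⟩
  choose σ hσn hσ using key
  refine ⟨∏ i, σ i, ?_, fun i => ?_⟩
  · intro h2
    obtain ⟨i, -, hi⟩ := Ideal.IsPrime.prod_mem_iff.1 h2
    exact hσn i hi
  · rw [← Finset.mul_prod_erase _ _ (Finset.mem_univ i), map_mul, mul_comm (algebraMap B F (σ i)),
      mul_assoc]
    exact (W i).mul_mem _ _ (hBW i _) (hσ i)

/-- elements of `O = B_n` are integral at the branches through `n` -/
theorem a5_thru_mem {B O F : Type*} [CommRing B] [Field F] [Algebra B F] (n : Ideal B) [n.IsPrime]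
    [CommRing O] [Algebra B O] [IsLocalization.AtPrime O n] [Algebra O F] [IsScalarTower B O F]
    (W : ValuationSubring F) (hBW : ∀ x, algebraMap B F x ∈ W) (hi : A5Thru n W) (x : O) :
    algebraMap O F x ∈ W := by
  obtain ⟨⟨a, s⟩, hx⟩ := IsLocalization.surj n.primeCompl x
  have h1 : algebraMap O F x * algebraMap B F s = algebraMap B F a := by
    rw [IsScalarTower.algebraMap_apply B O F, IsScalarTower.algebraMap_apply B O F, ← map_mul]
    exact congrArg _ hx
  have h2 : W.valuation (algebraMap B F s) = 1 := by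
    refine le_antisymm (W.valuation_le_one_iff _ |>.2 (hBW _)) ?_
    by_contra hlt
    exact s.2 (hi _ (not_le.1 hlt))
  rw [← W.valuation_le_one_iff]
  have h3 := congrArg W.valuation h1
  rw [map_mul, h2, mul_one] at h3
  rw [h3]
  exact W.valuation_le_one_iff _ |>.2 (hBW _)

/-- `f = u H ^ m`, `u, w` units of `O = B_n`, `H ≡ w mod π` at the branches through `n`:
`G := w / H` is `≡ 1 mod π` at these branches and `f G ^ m = u w ^ m ∈ O`. -/
theorem a5_at_abs {B O F ι : Type*} [CommRing B] [Field F] [Algebra B F] (n : Ideal B) [n.IsPrime]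
    [CommRing O] [Algebra B O] [IsLocalization.AtPrime O n] [Algebra O F] [IsScalarTower B O F]
    (W : ι → ValuationSubring F) (hBW : ∀ i x, algebraMap B F x ∈ W i) {π : F}
    (hπW : ∀ i, (W i).valuation π < 1) {f H : F} (hH : H ≠ 0) {m : ℕ} (u w : Oˣ)
    (hf : f = algebraMap O F u * H ^ m)
    (hw : ∀ i, A5Thru n (W i) → (H - algebraMap O F w) / π ∈ W i) :
    (∀ i, A5Thru n (W i) → (algebraMap O F w / H - 1) / π ∈ W i) ∧
    ∃ s : B, s ∉ n ∧ ∃ b : B, algebraMap B F s * (f * (algebraMap O F w / H) ^ m) =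
      algebraMap B F b := by
  constructor
  · intro i hi
    have hOW := a5_thru_mem (O := O) n (W i) (hBW i) hi
    have hw1 : (W i).valuation (algebraMap O F w) = 1 := by
      have h1 : (W i).valuation (algebraMap O F w) ≤ 1 := (W i).valuation_le_one_iff _ |>.2 (hOW _)
      have h2 : (W i).valuation (algebraMap O F (↑w⁻¹ : O)) ≤ 1 :=
        (W i).valuation_le_one_iff _ |>.2 (hOW _)
      have h3 : (W i).valuation (algebraMap O F w) * (W i).valuation (algebraMap O F (↑w⁻¹ : O)) =
          1 := by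
        rw [← map_mul, ← map_mul, Units.mul_inv, map_one, map_one]
      refine le_antisymm h1 ?_
      calc (1 : (W i).ValueGroup) = (W i).valuation (algebraMap O F w) *
            (W i).valuation (algebraMap O F (↑w⁻¹ : O)) := h3.symm
        _ ≤ (W i).valuation (algebraMap O F w) * 1 := by gcongr
        _ = _ := mul_one _
    by_cases hπ0 : π = 0
    · simp [hπ0, (W i).zero_mem]
    have hlt : (W i).valuation (H - algebraMap O F w) < 1 := by
      have h : H - algebraMap O F w = π * ((H - algebraMap O F w) / π) := by field_simp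
      rw [h, map_mul]
      exact mul_lt_of_lt_of_le_one (hπW i) ((W i).valuation_le_one_iff _ |>.2 (hw i hi))
    have hH1 : (W i).valuation H = 1 := by
      have h : H = algebraMap O F w + (H - algebraMap O F w) := by ring
      rw [h, ← hw1]
      exact Valuation.map_add_eq_of_lt_left _ (by rw [hw1]; exact hlt)
    have h : (algebraMap O F w / H - 1) / π = -(H⁻¹ * ((H - algebraMap O F w) / π)) := by
      field_simp
      ring
    rw [h]
    refine (W i).neg_mem _ ((W i).mul_mem _ _ ((W i).valuation_le_one_iff _ |>.1 ?_) (hw i hi))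
    rw [map_inv₀, hH1, inv_one]
  · obtain ⟨⟨a, s⟩, hx⟩ := IsLocalization.surj n.primeCompl ((u : O) * (w : O) ^ m)
    refine ⟨s, s.2, a, ?_⟩
    have h1 : algebraMap O F ((u : O) * (w : O) ^ m) * algebraMap B F s = algebraMap B F a := by
      rw [IsScalarTower.algebraMap_apply B O F, IsScalarTower.algebraMap_apply B O F, ← map_mul]
      exact congrArg _ hx
    rw [← h1, hf, map_mul, map_pow, div_pow]
    field_simp

section concrete

variable {R F ι : Type*} [CommRing R] [IsDomain R] [Field F] [Algebra R F] [Finite ι]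

/-- **(A5c)** the clause of `LocPowB2` at `𝔫` from a `G` which is `≡ 1 mod π` at the branches
through `𝔫` only. -/
theorem a5_at {π : R} (hπ : Prime π) {T : F} (W : ι → ValuationSubring F)
    (hW : ∀ x, PiInt π T x ↔ ∀ i, x ∈ W i)
    (harch : ∀ i (s x : F), (W i).valuation s < 1 → ∃ M : ℕ, s ^ M * x ∈ W i)
    (𝔫 : Ideal (integralClosure (Algebra.adjoin R {T}) F)) [𝔫.IsPrime] {f G : F} {m : ℕ}
    (hG : ∀ i, A5Thru 𝔫 (W i) → (G - 1) / algebraMap R F π ∈ W i)
    (hs : ∃ s : integralClosure (Algebra.adjoin R {T}) F, s ∉ 𝔫 ∧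
      IsIntegral (Algebra.adjoin R {T}) ((s : F) * (f * G ^ m))) :
    ∃ s : integralClosure (Algebra.adjoin R {T}) F, s ∉ 𝔫 ∧
      PiInt π T ((s : F) * ((G - 1) / algebraMap R F π)) ∧
      IsIntegral (Algebra.adjoin R {T}) ((s : F) * (f * G ^ m)) := by
  obtain ⟨s₀, hs₀, hs₀I⟩ := hs
  have hBW : ∀ i (x : integralClosure (Algebra.adjoin R {T}) F),
      algebraMap (integralClosure (Algebra.adjoin R {T}) F) F x ∈ W i := fun i x =>
    (hW _).1 (PiInt.of_isIntegral hπ x.2) i
  obtain ⟨s₁, hs₁, h₁⟩ := a5_at_mem 𝔫 W hBW harch hG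
  refine ⟨s₀ * s₁, fun h => ?_, ?_, ?_⟩
  · rcases Ideal.IsPrime.mem_or_mem inferInstance h with h | h
    · exact hs₀ h
    · exact hs₁ h
  · rw [Subalgebra.coe_mul, mul_assoc]
    exact (PiInt.of_isIntegral hπ s₀.2).mul hπ ((hW _).2 h₁)
  · rw [Subalgebra.coe_mul, mul_comm (s₀ : F), mul_assoc]
    exact s₁.2.mul hs₀I

/-- `LocPowB2` from the local statements. -/
theorem a5_locPowB2 {π : R} (hπ : Prime π) {T : F} (W : ι → ValuationSubring F)
    (hW : ∀ x, PiInt π T x ↔ ∀ i, x ∈ W i)
    (harch : ∀ i (s x : F), (W i).valuation s < 1 → ∃ M : ℕ, s ^ M * x ∈ W i) {f : F} {m : ℕ}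
    (h : ∀ 𝔫 : Ideal (integralClosure (Algebra.adjoin R {T}) F), 𝔫.IsMaximal →
      algebraMap R (integralClosure (Algebra.adjoin R {T}) F) π ∈ 𝔫 → ∃ G : F,
      (∀ i, A5Thru 𝔫 (W i) → (G - 1) / algebraMap R F π ∈ W i) ∧
      ∃ s : integralClosure (Algebra.adjoin R {T}) F, s ∉ 𝔫 ∧
        IsIntegral (Algebra.adjoin R {T}) ((s : F) * (f * G ^ m))) :
    LocPowB2 π T f m := by
  intro 𝔫 h𝔫 hπ𝔫
  obtain ⟨G, hG, hs⟩ := h 𝔫 h𝔫 hπ𝔫
  have := h𝔫.isPrime
  exact ⟨G, a5_at hπ W hW harch 𝔫 hG hs⟩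

/-- the same, fed with the output of `a5_local` : `f = u H ^ m`, `u, w` units of `O = B_𝔫`,
`H ≡ w mod π` at the branches through `𝔫`. -/
theorem a5_at_local {π : R} (hπ : Prime π) {T : F} (W : ι → ValuationSubring F)
    (hW : ∀ x, PiInt π T x ↔ ∀ i, x ∈ W i)
    (harch : ∀ i (s x : F), (W i).valuation s < 1 → ∃ M : ℕ, s ^ M * x ∈ W i)
    (hπW : ∀ i, (W i).valuation (algebraMap R F π) < 1)
    (𝔫 : Ideal (integralClosure (Algebra.adjoin R {T}) F)) [𝔫.IsPrime] {O : Type*} [CommRing O]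
    [Algebra (integralClosure (Algebra.adjoin R {T}) F) O] [IsLocalization.AtPrime O 𝔫]
    [Algebra O F] [IsScalarTower (integralClosure (Algebra.adjoin R {T}) F) O F]
    {f H : F} (hH : H ≠ 0) {m : ℕ} (u w : Oˣ) (hf : f = algebraMap O F u * H ^ m)
    (hw : ∀ i, A5Thru 𝔫 (W i) → (H - algebraMap O F w) / algebraMap R F π ∈ W i) :
    ∃ G : F, ∃ s : integralClosure (Algebra.adjoin R {T}) F, s ∉ 𝔫 ∧
      PiInt π T ((s : F) * ((G - 1) / algebraMap R F π)) ∧
      IsIntegral (Algebra.adjoin R {T}) ((s : F) * (f * G ^ m)) := by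
  have hBW : ∀ i (x : integralClosure (Algebra.adjoin R {T}) F),
      algebraMap (integralClosure (Algebra.adjoin R {T}) F) F x ∈ W i := fun i x =>
    (hW _).1 (PiInt.of_isIntegral hπ x.2) i
  obtain ⟨h1, s, hs, b, hb⟩ := a5_at_abs 𝔫 W hBW hπW hH u w hf hw
  refine ⟨algebraMap O F w / H, a5_at hπ W hW harch 𝔫 h1 ⟨s, hs, ?_⟩⟩
  have : (s : F) * (f * (algebraMap O F w / H) ^ m) = (b : F) := hb
  rw [this]
  exact b.2

end concrete

end Fermat.Agent.CARlib
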