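import Mathlib

/-!
# T-CAR, (A5b): the conductor

If `𝔪 ^ N ≤ P i ⊔ P j` for all `i ≠ j`, every family `a i ∈ 𝔪 ^ (N * card ι)` is glued by one element
`o` with `o - a i ∈ P i`.
-/

set_option autoImplicit false

namespace Fermat.Agent.CARlib

open IsLocalRing

theorem a5_sup_mul_sup_le {O : Type*} [CommRing O] (I P Q : Ideal O) :
    (I ⊔ P) * (I ⊔ Q) ≤ I ⊔ (P ⊓ Q) := by
  rw [Ideal.mul_le]
  intro x hx y hy
  obtain ⟨a, ha, p, hp, rfl⟩ := Submodule.mem_sup.1 hx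
  obtain ⟨b, hb, q, hq, rfl⟩ := Submodule.mem_sup.1 hy
  refine Submodule.mem_sup.2 ⟨a * (b + q) + p * b, ?_, p * q, ?_, by ring⟩
  · exact I.add_mem (I.mul_mem_right _ ha) (I.mul_mem_left _ hb)
  · exact ⟨P.mul_mem_right _ hp, Q.mul_mem_left _ hq⟩

theorem a5_pow_le_sup_iInf {O ι : Type*} [CommRing O] (M : Ideal O) (P : ι → Ideal O) (N : ℕ)
    (i : ι) (s : Finset ι) (h : ∀ j ∈ s, M ^ N ≤ P i ⊔ P j) :
    M ^ (N * s.card) ≤ P i ⊔ ⨅ j ∈ s, P j := by
  classical
  induction s using Finset.induction_on with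
  | empty => simp
  | insert a s ha ih =>
    rw [Finset.card_insert_of_notMem ha, Nat.mul_succ, pow_add, Finset.iInf_insert, mul_comm]
    refine le_trans (Ideal.mul_mono (h a (Finset.mem_insert_self a s))
      (ih fun j hj => h j (Finset.mem_insert_of_mem hj))) ?_
    exact a5_sup_mul_sup_le _ _ _

/-- the general form (any ideal `M`) -/
theorem a5_cond_ideal {O ι : Type*} [CommRing O] [Fintype ι] (M : Ideal O) (P : ι → Ideal O) (N : ℕ)
    (h : ∀ i j, i ≠ j → M ^ N ≤ P i ⊔ P j) (a : ι → O)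
    (ha : ∀ i, a i ∈ M ^ (N * Fintype.card ι)) : ∃ o : O, ∀ i, o - a i ∈ P i := by
  classical
  have key : ∀ i, ∃ c : O, a i - c ∈ P i ∧ ∀ j, j ≠ i → c ∈ P j := by
    intro i
    have h1 : a i ∈ P i ⊔ ⨅ j ∈ Finset.univ.erase i, P j := by
      refine a5_pow_le_sup_iInf M P N i (Finset.univ.erase i)
        (fun j hj => h i j (Finset.ne_of_mem_erase hj).symm) ?_
      refine Ideal.pow_le_pow_right (Nat.mul_le_mul_left N ?_) (ha i)
      exact Finset.card_le_univ _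
    obtain ⟨p, hp, c, hc, hpc⟩ := Submodule.mem_sup.1 h1
    refine ⟨c, ?_, fun j hj => ?_⟩
    · rw [← hpc]
      simpa using hp
    · rw [Submodule.mem_iInf] at hc
      have := hc j
      rw [Submodule.mem_iInf] at this
      exact this (Finset.mem_erase.2 ⟨hj, Finset.mem_univ j⟩)
  choose c hc1 hc2 using key
  refine ⟨∑ j, c j, fun i => ?_⟩
  rw [← Finset.add_sum_erase Finset.univ c (Finset.mem_univ i)]
  have : c i + ∑ j ∈ Finset.univ.erase i, c j - a i =
      ∑ j ∈ Finset.univ.erase i, c j - (a i - c i) := by ring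
  rw [this]
  refine (P i).sub_mem ((P i).sum_mem fun j hj => ?_) (hc1 i)
  exact hc2 j i (Finset.ne_of_mem_erase hj).symm

/-- **(A5b)** the conductor. -/
theorem a5_cond {O ι : Type*} [CommRing O] [IsLocalRing O] [Fintype ι] (P : ι → Ideal O) (N : ℕ)
    (h : ∀ i j, i ≠ j → maximalIdeal O ^ N ≤ P i ⊔ P j) (a : ι → O)
    (ha : ∀ i, a i ∈ maximalIdeal O ^ (N * Fintype.card ι)) : ∃ o : O, ∀ i, o - a i ∈ P i :=
  a5_cond_ideal _ P N h a ha

end Fermat.Agent.CARlib
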