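import Mathlib

/-!
# T-CAR, block A, (A5): the Frobenius trick

`O` a local ring inside the field `F`, `W i` the valuation rings of the vertical primes through the
closed point, residue characteristic `r`, `e_i ≤ r`.  If `u H ^ m ≡ 1 mod π C` (`u ∈ Oˣ`,
`gcd (m, r) = 1`) and the values of `H` on the branches agree at the closed point, then
`H w ≡ 1 mod π C` for a unit `w` of `O`.

* `a5_frob` : the statement of `AIface` (conductor hypothesis `hcond`, value `1`);
* `a5_frob_core` : the Bezout step, from `H ^ r ^ j ≡ w0` modulo the radical of `C`;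
* `a5_core`, `a5_local` : the same with `O ⧸ P i` discrete valuation rings, arbitrary common value;
* `a5_exists_lift` : existence of the values (normality of `O ⧸ P`);
* `a5_denominator`, `a5_glue` : from the local rings to a semilocal ring.
-/

set_option autoImplicit false

namespace Fermat.Agent.CARlib

open IsLocalRing

section One

variable {F : Type*} [Field F] (V : ValuationSubring F) {π : F}

theorem a5_lt_of_div_mem (hπ0 : π ≠ 0) (hπ : V.valuation π < 1) {x : F} (hx : x / π ∈ V) :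
    V.valuation x < 1 := by
  have h : x = π * (x / π) := by field_simp
  rw [h, map_mul]
  exact mul_lt_of_lt_of_le_one hπ ((V.valuation_le_one_iff _).2 hx)

theorem a5_one_val (hπ0 : π ≠ 0) (hπ : V.valuation π < 1) {x : F} (hx : (x - 1) / π ∈ V) :
    V.valuation x = 1 := by
  have h1 := a5_lt_of_div_mem V hπ0 hπ hx
  have h2 : x = 1 + (x - 1) := by ring
  rw [h2]
  exact Valuation.map_one_add_of_lt _ h1

theorem a5_one_mul (hπ0 : π ≠ 0) (hπ : V.valuation π < 1) {x y : F} (hx : (x - 1) / π ∈ V)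
    (hy : (y - 1) / π ∈ V) : (x * y - 1) / π ∈ V := by
  have h : (x * y - 1) / π = x * ((y - 1) / π) + (x - 1) / π := by field_simp; ring
  rw [h]
  exact V.add_mem _ _ (V.mul_mem _ _ ((V.valuation_le_one_iff _).1 (a5_one_val V hπ0 hπ hx).le) hy) hx

theorem a5_one_inv (hπ0 : π ≠ 0) (hπ : V.valuation π < 1) {x : F} (hx : (x - 1) / π ∈ V) :
    (x⁻¹ - 1) / π ∈ V := by
  have hv := a5_one_val V hπ0 hπ hx
  have hx0 : x ≠ 0 := by
    rintro rfl
    simp at hv
  have h : (x⁻¹ - 1) / π = -(x⁻¹ * ((x - 1) / π)) := by field_simp; ring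
  rw [h]
  refine V.neg_mem _ (V.mul_mem _ _ ((V.valuation_le_one_iff _).1 ?_) hx)
  rw [map_inv₀, hv, inv_one]

theorem a5_one_pow (hπ0 : π ≠ 0) (hπ : V.valuation π < 1) {x : F} (hx : (x - 1) / π ∈ V)
    (k : ℕ) : (x ^ k - 1) / π ∈ V := by
  induction k with
  | zero => simp [V.zero_mem]
  | succ k ih => rw [pow_succ]; exact a5_one_mul V hπ0 hπ ih hx

theorem a5_one_zpow (hπ0 : π ≠ 0) (hπ : V.valuation π < 1) {x : F} (hx : (x - 1) / π ∈ V)
    (k : ℤ) : (x ^ k - 1) / π ∈ V := by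
  cases k with
  | ofNat k => simpa using a5_one_pow V hπ0 hπ hx k
  | negSucc k =>
    rw [zpow_negSucc]
    exact a5_one_inv V hπ0 hπ (a5_one_pow V hπ0 hπ hx (k + 1))

theorem a5_pow_congr {x y : F} (hx : x ∈ V) (hy : y ∈ V) (h : V.valuation (x - y) < 1) (k : ℕ) :
    V.valuation (x ^ k - y ^ k) < 1 := by
  induction k with
  | zero => simp
  | succ k ih =>
    have h1 : x ^ (k + 1) - y ^ (k + 1) = x * (x ^ k - y ^ k) + (x - y) * y ^ k := by ring
    rw [h1]
    refine Valuation.map_add_lt _ ?_ ?_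
    · rw [map_mul, mul_comm]
      exact mul_lt_of_lt_of_le_one ih ((V.valuation_le_one_iff _).2 hx)
    · rw [map_mul]
      exact mul_lt_of_lt_of_le_one h ((V.valuation_le_one_iff _).2 (V.pow_mem hy k))

/-- Frobenius: `(w + ν) ^ r ≡ w ^ r mod π`. -/
theorem a5_frob' {r : ℕ} (hr : r.Prime) (hrπ : (r : F) / π ∈ V) {w ν : F} (hw : w ∈ V)
    (hν : ν ∈ V) (hνr : ν ^ r / π ∈ V) : ((w + ν) ^ r - w ^ r) / π ∈ V := by
  obtain ⟨ρ, hρ⟩ := exists_add_pow_prime_eq hr (⟨w, hw⟩ : V) ⟨ν, hν⟩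
  have h1 : (w + ν) ^ r = w ^ r + ν ^ r + r * w * ν * (ρ : F) := by
    have := congrArg (fun t : V => (t : F)) hρ
    simpa using this
  have h2 : ((w + ν) ^ r - w ^ r) / π = ν ^ r / π + (r : F) / π * (w * ν * ρ) := by
    rw [h1]; ring
  rw [h2]
  exact V.add_mem _ _ hνr (V.mul_mem _ _ hrπ (V.mul_mem _ _ (V.mul_mem _ _ hw hν) ρ.2))

end One

/-- units of `O` have valuation one (the centre of `W` is a proper ideal). -/
theorem a5_unit_val {O F : Type*} [CommRing O] [Field F] [Algebra O F] (W : ValuationSubring F)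
    (hOW : ∀ x : O, algebraMap O F x ∈ W) (v : Oˣ) : W.valuation (algebraMap O F v) = 1 := by
  have h1 : W.valuation (algebraMap O F v) ≤ 1 := (W.valuation_le_one_iff _).2 (hOW _)
  have h2 : W.valuation (algebraMap O F (↑v⁻¹ : O)) ≤ 1 := (W.valuation_le_one_iff _).2 (hOW _)
  have h3 : W.valuation (algebraMap O F v) * W.valuation (algebraMap O F (↑v⁻¹ : O)) = 1 := by
    rw [← map_mul, ← map_mul, Units.mul_inv, map_one, map_one]
  refine le_antisymm h1 ?_
  calc (1 : W.ValueGroup) = W.valuation (algebraMap O F v) * W.valuation (algebraMap O F (↑v⁻¹ : O)) :=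
        h3.symm
    _ ≤ W.valuation (algebraMap O F v) * 1 := by gcongr
    _ = _ := mul_one _

/-- an element of `O` of valuation `< 1` is not a unit, hence lies in the maximal ideal -/
theorem a5_mem_maximalIdeal {O F : Type*} [CommRing O] [IsLocalRing O] [Field F] [Algebra O F]
    (W : ValuationSubring F) (hOW : ∀ x : O, algebraMap O F x ∈ W) {x : O}
    (hx : W.valuation (algebraMap O F x) < 1) : x ∈ maximalIdeal O := by
  rw [mem_maximalIdeal, mem_nonunits_iff]
  rintro ⟨v, rfl⟩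
  rw [a5_unit_val W hOW v] at hx
  exact lt_irrefl _ hx

/-- **(A5), the Bezout step.** -/
theorem a5_frob_core {O F ι : Type*} [CommRing O] [Field F] [Algebra O F]
    (W : ι → ValuationSubring F) (hOW : ∀ i x, algebraMap O F x ∈ W i)
    {π : F} (hπ0 : π ≠ 0) (hπ : ∀ i, (W i).valuation π < 1) {r : ℕ} (hr : r.Prime)
    (hrπ : ∀ i, (r : F) / π ∈ W i)
    (he : ∀ i (ν : F), (W i).valuation ν < 1 → ν ^ r / π ∈ W i)
    {m : ℕ} (hmr : Nat.Coprime m r) {H : F}
    {u : Oˣ} (hu : ∀ i, (algebraMap O F u * H ^ m - 1) / π ∈ W i)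
    (j : ℕ) (w0u : Oˣ) (hν : ∀ i, (W i).valuation (H ^ r ^ j - algebraMap O F w0u) < 1) :
    ∃ w : Oˣ, ∀ i, (H * algebraMap O F w - 1) / π ∈ W i := by
  classical
  rcases isEmpty_or_nonempty ι with hι | ⟨⟨i0⟩⟩
  · exact ⟨1, fun i => (hι.false i).elim⟩
  have hunit : ∀ i (v : Oˣ), (W i).valuation (algebraMap O F v) = 1 := fun i v =>
    a5_unit_val (W i) (hOW i) v
  obtain ⟨g, hg⟩ : ∃ g : F, g = algebraMap O F u * H ^ m := ⟨_, rfl⟩
  rw [← hg] at hu
  have hH0 : H ≠ 0 := by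
    rintro rfl
    have h1 := hν i0
    rw [zero_pow (pow_ne_zero _ hr.ne_zero), zero_sub, Valuation.map_neg, hunit] at h1
    exact lt_irrefl _ h1
  have hfr : ∀ i, (H ^ r ^ (j + 1) - algebraMap O F w0u ^ r) / π ∈ W i := by
    intro i
    have h1 := a5_frob' (W i) hr (hrπ i) (hOW i w0u)
      (((W i).valuation_le_one_iff _).1 (hν i).le) (he i _ (hν i))
    rwa [add_sub_cancel, ← pow_mul, ← pow_succ] at h1
  set ε : F := H ^ r ^ (j + 1) / algebraMap O F w0u ^ r with hε
  have hw00 : algebraMap O F w0u ≠ 0 := by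
    intro h
    have := hunit i0 w0u
    rw [h] at this
    simp at this
  have hu0 : algebraMap O F u ≠ 0 := by
    intro h
    have := hunit i0 u
    rw [h] at this
    simp at this
  have hε1 : ∀ i, (ε - 1) / π ∈ W i := by
    intro i
    have h1 : (ε - 1) / π = (H ^ r ^ (j + 1) - algebraMap O F w0u ^ r) / π *
        (algebraMap O F (↑w0u⁻¹ : O)) ^ r := by
      have h2 : algebraMap O F (↑w0u⁻¹ : O) = (algebraMap O F w0u)⁻¹ := by
        apply eq_inv_of_mul_eq_one_left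
        rw [← map_mul, Units.inv_mul, map_one]
      rw [hε, h2, inv_pow]
      field_simp
    rw [h1]
    exact (W i).mul_mem _ _ (hfr i) ((W i).pow_mem (hOW i _) r)
  obtain ⟨a, b, hab⟩ : IsCoprime (m : ℤ) ((r ^ (j + 1) : ℕ) : ℤ) :=
    Nat.isCoprime_iff_coprime.2 (Nat.Coprime.pow_right _ hmr)
  let φ : Oˣ →* Fˣ := Units.map (algebraMap O F : O →* F)
  have hφ : ∀ (v : Oˣ) (k : ℤ), algebraMap O F ((v ^ k : Oˣ) : O) = algebraMap O F v ^ k := by
    intro v k
    have h1 : ((φ (v ^ k) : Fˣ) : F) = ((φ v : Fˣ) : F) ^ k := by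
      rw [map_zpow, Units.val_zpow_eq_zpow_val]
    exact h1
  refine ⟨u ^ a * ((w0u⁻¹) ^ r) ^ b, fun i => ?_⟩
  have hHm : H ^ m = g * (algebraMap O F u)⁻¹ := by
    rw [hg]; field_simp
  have hHr : H ^ r ^ (j + 1) = algebraMap O F w0u ^ r * ε := by
    rw [hε]; field_simp
  have hHeq : H * algebraMap O F ((u ^ a * ((w0u⁻¹) ^ r) ^ b : Oˣ) : O) = g ^ a * ε ^ b := by
    have h1 : H = (H ^ m) ^ a * (H ^ r ^ (j + 1)) ^ b := by
      rw [← zpow_natCast, ← zpow_natCast, ← zpow_mul, ← zpow_mul, ← zpow_add₀ hH0]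
      rw [mul_comm (m : ℤ) a, mul_comm ((r ^ (j + 1) : ℕ) : ℤ) b, hab, zpow_one]
    have h2 : algebraMap O F ((u ^ a * ((w0u⁻¹) ^ r) ^ b : Oˣ) : O) =
        (algebraMap O F u) ^ a * (((algebraMap O F w0u)⁻¹) ^ r) ^ b := by
      rw [Units.val_mul, map_mul, hφ, hφ, Units.val_pow_eq_pow_val, map_pow]
      congr 3
      apply eq_inv_of_mul_eq_one_left
      rw [← map_mul, Units.inv_mul, map_one]
    rw [h2]
    conv_lhs => rw [h1, hHm, hHr, mul_zpow g, mul_zpow _ ε]
    have h3 : ((algebraMap O F u)⁻¹) ^ a * (algebraMap O F u) ^ a = 1 := by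
      rw [← mul_zpow, inv_mul_cancel₀ hu0, one_zpow]
    have h4 : (algebraMap O F w0u ^ r) ^ b * (((algebraMap O F w0u)⁻¹) ^ r) ^ b = 1 := by
      rw [← mul_zpow, ← mul_pow, mul_inv_cancel₀ hw00, one_pow, one_zpow]
    calc g ^ a * ((algebraMap O F u)⁻¹) ^ a * ((algebraMap O F w0u ^ r) ^ b * ε ^ b) *
          ((algebraMap O F u) ^ a * (((algebraMap O F w0u)⁻¹) ^ r) ^ b)
        = g ^ a * ε ^ b * (((algebraMap O F u)⁻¹) ^ a * (algebraMap O F u) ^ a) *
          ((algebraMap O F w0u ^ r) ^ b * (((algebraMap O F w0u)⁻¹) ^ r) ^ b) := by ring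
      _ = g ^ a * ε ^ b := by rw [h3, h4, mul_one, mul_one]
  rw [hHeq]
  exact a5_one_mul _ hπ0 (hπ i) (a5_one_zpow _ hπ0 (hπ i) (hu i) a)
      (a5_one_zpow _ hπ0 (hπ i) (hε1 i) b)

/-- **(A5a)** the Frobenius trick at one closed point (statement of `AIface`). -/
theorem a5_frob {O F ι : Type*} [CommRing O] [IsLocalRing O] [Field F] [Algebra O F] [Finite ι]
    (W : ι → ValuationSubring F) (hOW : ∀ i x, algebraMap O F x ∈ W i)
    {π : F} (hπ0 : π ≠ 0) (hπ : ∀ i, (W i).valuation π < 1) {r : ℕ} (hr : r.Prime)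
    (hrπ : ∀ i, (r : F) / π ∈ W i)
    (he : ∀ i (ν : F), (W i).valuation ν < 1 → ν ^ r / π ∈ W i)
    (hcond : ∃ N : ℕ, ∀ a : ι → O, (∀ i, a i ∈ maximalIdeal O ^ N) →
      ∃ o : O, ∀ i, (W i).valuation (algebraMap O F (o - a i)) < 1)
    {m : ℕ} (hmr : Nat.Coprime m r) {H : F}
    {u : Oˣ} (hu : ∀ i, (algebraMap O F u * H ^ m - 1) / π ∈ W i)
    (hval : ∀ i, ∃ a ∈ maximalIdeal O, (W i).valuation (H - 1 - algebraMap O F a) < 1) :
    ∃ w : Oˣ, ∀ i, (H * algebraMap O F w - 1) / π ∈ W i := by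
  classical
  rcases isEmpty_or_nonempty ι with hι | ⟨⟨i0⟩⟩
  · exact ⟨1, fun i => (hι.false i).elim⟩
  obtain ⟨N, hN⟩ := hcond
  choose a ha hHa using hval
  have hNr : N ≤ r ^ N := (Nat.lt_pow_self hr.one_lt).le
  obtain ⟨o, ho⟩ := hN (fun i => a i ^ r ^ N) fun i =>
    Ideal.pow_le_pow_right hNr (Ideal.pow_mem_pow (ha i) _)
  have hon : o ∈ maximalIdeal O := by
    have h1 := a5_mem_maximalIdeal (W i0) (hOW i0) (ho i0)
    have h2 := (maximalIdeal O).add_mem h1
      ((maximalIdeal O).pow_mem_of_mem (ha i0) (r ^ N) (pow_pos hr.pos _))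
    simpa using h2
  have hw0 : IsUnit (1 + o) := by
    by_contra hnu
    have h1 : (1 + o) ∈ maximalIdeal O := hnu
    have h2 := (maximalIdeal O).sub_mem h1 hon
    rw [add_sub_cancel_right] at h2
    exact (Ideal.ne_top_iff_one _).1 (Ideal.IsPrime.ne_top inferInstance) h2
  obtain ⟨w0u, hw0u⟩ := hw0
  have hrv : ∀ i, (W i).valuation (r : F) < 1 := fun i =>
    a5_lt_of_div_mem _ hπ0 (hπ i) (hrπ i)
  refine a5_frob_core W hOW hπ0 hπ hr hrπ he hmr hu N w0u fun i => ?_
  have hdW : algebraMap O F (1 + a i) ∈ W i := hOW i _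
  have hHd : (W i).valuation (H - algebraMap O F (1 + a i)) < 1 := by
    have : H - algebraMap O F (1 + a i) = H - 1 - algebraMap O F (a i) := by
      rw [map_add, map_one]; ring
    rw [this]; exact hHa i
  have hHW : H ∈ W i := by
    have : H = (H - algebraMap O F (1 + a i)) + algebraMap O F (1 + a i) := by ring
    rw [this]
    exact (W i).add_mem _ _ (((W i).valuation_le_one_iff _).1 hHd.le) hdW
  obtain ⟨ρ, hρ⟩ := exists_add_pow_prime_pow_eq hr (1 : O) (a i) N
  have h1 : H ^ r ^ N - algebraMap O F w0u =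
      (H ^ r ^ N - algebraMap O F (1 + a i) ^ r ^ N) - algebraMap O F (o - a i ^ r ^ N) +
        (r : F) * algebraMap O F (1 * a i * ρ) := by
    rw [hw0u, ← map_pow, hρ]
    simp only [map_add, map_sub, map_mul, map_pow, map_one, map_natCast]
    ring
  rw [h1]
  refine Valuation.map_add_lt _ (Valuation.map_sub_lt _ (a5_pow_congr _ hHW hdW hHd _) (ho i)) ?_
  rw [map_mul]
  exact mul_lt_of_lt_of_le_one (hrv i) (((W i).valuation_le_one_iff _).2 (hOW i _))

/-- **(A5), ring core**: elements `d i` of `O` with the same value at the closed point; a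
Frobenius power of the tuple `(d i mod P i)` comes from a single element of `O`. -/
theorem a5_core {O : Type*} [CommRing O] [IsLocalRing O] {ι : Type*} [Finite ι]
    (P : ι → Ideal O) [∀ i, (P i).IsPrime] (hD : ∀ i, IsDiscreteValuationRing (O ⧸ P i))
    (hP : ∀ i l, i ≠ l → ¬ P l ≤ P i) {r : ℕ} (hr : r.Prime) (hrP : ∀ i, (r : O) ∈ P i)
    (d : ι → O) (z : O) (hd : ∀ i, d i - z ∈ maximalIdeal O) :
    ∃ (j : ℕ) (w : O), ∀ i, w - d i ^ r ^ j ∈ P i := by
  classical
  cases nonempty_fintype ι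
  have key : ∀ i, ∃ (c : O) (N : ℕ), (∀ l, l ≠ i → c ∈ P l) ∧
      ∀ x ∈ maximalIdeal O, ∀ k, N ≤ k → ∃ y : O, x ^ k - c * y ∈ P i := by
    intro i
    have hD' := hD i
    have ha : ∀ l, l ≠ i → ∃ a ∈ P l, a ∉ P i := fun l hl =>
      SetLike.not_le_iff_exists.1 (hP i l (Ne.symm hl))
    choose! a haP haN using ha
    let c : O := ∏ l ∈ Finset.univ.erase i, a l
    have hcl : ∀ l, l ≠ i → c ∈ P l := fun l hl =>
      (P l).mem_of_dvd (Finset.dvd_prod_of_mem a (Finset.mem_erase.2 ⟨hl, Finset.mem_univ _⟩))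
        (haP l hl)
    have hci : c ∉ P i := by
      intro h
      obtain ⟨l, hl, hl'⟩ := Ideal.IsPrime.prod_mem_iff.1 h
      exact haN l (Finset.ne_of_mem_erase hl) hl'
    obtain ⟨ϖ, hϖ⟩ := IsDiscreteValuationRing.exists_irreducible (O ⧸ P i)
    have hc0 : Ideal.Quotient.mk (P i) c ≠ 0 := by rwa [Ne, Ideal.Quotient.eq_zero_iff_mem]
    obtain ⟨N, hN⟩ := IsDiscreteValuationRing.associated_pow_irreducible hc0 hϖ
    refine ⟨c, N, hcl, fun x hx k hk => ?_⟩
    have hx' : ϖ ∣ Ideal.Quotient.mk (P i) x := by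
      have h1 : Ideal.Quotient.mk (P i) x ∈ maximalIdeal (O ⧸ P i) := by
        rw [mem_maximalIdeal, mem_nonunits_iff]
        rintro ⟨v, hv⟩
        obtain ⟨y, hy⟩ := Ideal.Quotient.mk_surjective (↑v⁻¹ : O ⧸ P i)
        have h2 : x * y - 1 ∈ P i := by
          rw [← Ideal.Quotient.eq_zero_iff_mem, map_sub, map_mul, map_one, hy, ← hv, Units.mul_inv,
            sub_self]
        have h3 : x * y - 1 ∈ maximalIdeal O :=
          le_maximalIdeal (Ideal.IsPrime.ne_top inferInstance) h2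
        have h4 : (1 : O) ∈ maximalIdeal O := by
          have := (maximalIdeal O).sub_mem ((maximalIdeal O).mul_mem_right y hx) h3
          simp at this
        exact (Ideal.ne_top_iff_one _).1 (Ideal.IsPrime.ne_top inferInstance) h4
      rwa [hϖ.maximalIdeal_eq, Ideal.mem_span_singleton] at h1
    have h1 : Ideal.Quotient.mk (P i) c ∣ Ideal.Quotient.mk (P i) x ^ k :=
      (hN.dvd).trans ((pow_dvd_pow ϖ hk).trans (pow_dvd_pow_of_dvd hx' k))
    obtain ⟨ybar, hy⟩ := h1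
    obtain ⟨y, rfl⟩ := Ideal.Quotient.mk_surjective ybar
    refine ⟨y, ?_⟩
    rw [← Ideal.Quotient.eq_zero_iff_mem, map_sub, map_pow, map_mul, hy, sub_self]
  choose c N hc hN using key
  set j := Finset.univ.sup N with hjdef
  have hj : ∀ i, N i ≤ r ^ j := fun i =>
    (Finset.le_sup (Finset.mem_univ i)).trans (Nat.lt_pow_self hr.one_lt).le
  choose y hy using fun i => hN i (d i - z) (hd i) (r ^ j) (hj i)
  refine ⟨j, z ^ r ^ j + ∑ l, c l * y l, fun i => ?_⟩
  obtain ⟨ρ', hρ⟩ := exists_add_pow_prime_pow_eq hr z (d i - z) j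
  obtain ⟨ρ, rfl⟩ : ∃ ρ, ρ = z * (d i - z) * ρ' := ⟨_, rfl⟩
  have h1 : d i ^ r ^ j = z ^ r ^ j + (d i - z) ^ r ^ j + r * (z * (d i - z) * ρ') := by
    have h0 : d i = z + (d i - z) := by ring
    conv_lhs => rw [h0]
    rw [hρ]; ring
  rw [h1, ← Finset.add_sum_erase _ _ (Finset.mem_univ i)]
  have h2 : ∑ l ∈ Finset.univ.erase i, c l * y l ∈ P i :=
    Ideal.sum_mem _ fun l hl => (P i).mul_mem_right _ (hc l i (Finset.ne_of_mem_erase hl).symm)
  have h3 : z ^ r ^ j + (c i * y i + ∑ l ∈ Finset.univ.erase i, c l * y l) -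
      (z ^ r ^ j + (d i - z) ^ r ^ j + r * (z * (d i - z) * ρ')) =
      -((d i - z) ^ r ^ j - c i * y i) + ∑ l ∈ Finset.univ.erase i, c l * y l -
        r * (z * (d i - z) * ρ') := by ring
  rw [h3]
  exact (P i).sub_mem ((P i).add_mem ((P i).neg_mem (hy i)) h2) ((P i).mul_mem_right _ (hrP i))

/-- **(A5), local form** with discrete valuation rings `O ⧸ P i`. -/
theorem a5_local {O F : Type*} [CommRing O] [IsLocalRing O] [Field F] [Algebra O F]
    {ι : Type*} [Finite ι] (W : ι → ValuationSubring F) (P : ι → Ideal O) [∀ i, (P i).IsPrime]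
    (hOW : ∀ i (x : O), algebraMap O F x ∈ W i)
    (hPW : ∀ i (x : O), x ∈ P i ↔ (W i).valuation (algebraMap O F x) < 1)
    (hD : ∀ i, IsDiscreteValuationRing (O ⧸ P i)) (hP : ∀ i l, i ≠ l → ¬ P l ≤ P i)
    {r : ℕ} (hr : r.Prime) {π : F} (hπ0 : π ≠ 0) (hπ : ∀ i, (W i).valuation π < 1)
    (hrπ : ∀ i, (r : F) / π ∈ W i)
    (hram : ∀ i (x : F), (W i).valuation x < 1 → x ^ r / π ∈ W i)
    {m : ℕ} (hm : m.Coprime r) {g H : F} (u : Oˣ) (hg : g = algebraMap O F u * H ^ m)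
    (hg1 : ∀ i, (g - 1) / π ∈ W i)
    (d : ι → O) (hd : ∀ i, (W i).valuation (H - algebraMap O F (d i)) < 1)
    (hz : ∀ i l, d i - d l ∈ maximalIdeal O) :
    ∃ w : Oˣ, ∀ i, (H - algebraMap O F w) / π ∈ W i := by
  classical
  rcases isEmpty_or_nonempty ι with hι | ⟨⟨i0⟩⟩
  · exact ⟨1, fun i => (hι.false i).elim⟩
  have hm0 : 0 < m := by
    rcases Nat.eq_zero_or_pos m with rfl | h
    · rw [Nat.coprime_zero_left] at hm
      exact absurd hm hr.one_lt.ne'
    · exact h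
  have hrP : ∀ i, (r : O) ∈ P i := by
    intro i
    rw [hPW, map_natCast]
    exact a5_lt_of_div_mem _ hπ0 (hπ i) (hrπ i)
  have hPn : ∀ i, P i ≤ maximalIdeal O := fun i => le_maximalIdeal (Ideal.IsPrime.ne_top inferInstance)
  -- units of `O` have valuation one
  have hunit : ∀ i (v : Oˣ), (W i).valuation (algebraMap O F v) = 1 := by
    intro i v
    refine le_antisymm ((W i).valuation_le_one_iff _ |>.2 (hOW i _)) ?_
    by_contra hlt
    rw [not_le, ← hPW] at hlt
    exact (Ideal.IsPrime.ne_top (inferInstance : (P i).IsPrime))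
      (Ideal.eq_top_of_isUnit_mem _ hlt v.isUnit)
  have hgv : ∀ i, (W i).valuation g = 1 := fun i => a5_one_val _ hπ0 (hπ i) (hg1 i)
  have hHv : ∀ i, (W i).valuation H = 1 := by
    intro i
    have h1 := hgv i
    rw [hg, map_mul, hunit, one_mul, map_pow] at h1
    exact (pow_eq_one_iff.1 h1).resolve_right hm0.ne'
  have hH0 : H ≠ 0 := by
    rintro rfl
    have := hHv i0
    simp at this
  have hHW : ∀ i, H ∈ W i := fun i => ((W i).valuation_le_one_iff _).1 (hHv i).le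
  -- the `d i` are units
  have hdu : ∀ i, IsUnit (d i) := by
    intro i
    have h1 : (u : O) * d i ^ m - 1 ∈ P i := by
      rw [hPW, map_sub, map_mul, map_pow, map_one]
      have h2 : algebraMap O F u * algebraMap O F (d i) ^ m - 1 =
          (g - 1) - algebraMap O F u * (H ^ m - algebraMap O F (d i) ^ m) := by rw [hg]; ring
      rw [h2]
      refine Valuation.map_sub_lt _ (a5_lt_of_div_mem _ hπ0 (hπ i) (hg1 i)) ?_
      rw [map_mul, hunit, one_mul]
      exact a5_pow_congr _ (hHW i) (hOW i _) (hd i) m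
    by_contra hnu
    have h2 : d i ∈ maximalIdeal O := hnu
    have h3 : (1 : O) ∈ maximalIdeal O := by
      have h4 := (maximalIdeal O).sub_mem
        ((maximalIdeal O).mul_mem_left (u : O) ((maximalIdeal O).pow_mem_of_mem h2 m hm0))
        (hPn i h1)
      simp at h4
    exact (Ideal.ne_top_iff_one _).1 (Ideal.IsPrime.ne_top inferInstance) h3
  obtain ⟨j, w0, hw0⟩ := a5_core P hD hP hr hrP d (d i0) (fun i => hz i i0)
  have hw0u : IsUnit w0 := by
    by_contra hnu
    have h2 : w0 ∈ maximalIdeal O := hnu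
    have h3 : d i0 ^ r ^ j ∈ maximalIdeal O := by
      have h4 := (maximalIdeal O).sub_mem h2 (hPn i0 (hw0 i0))
      simpa using h4
    exact h3 ((hdu i0).pow _)
  obtain ⟨w0u, rfl⟩ := hw0u
  -- `H ^ r ^ j ≡ w0` modulo the radical
  have hν : ∀ i, (W i).valuation (H ^ r ^ j - algebraMap O F w0u) < 1 := by
    intro i
    have h1 : H ^ r ^ j - algebraMap O F w0u =
        (H ^ r ^ j - algebraMap O F (d i) ^ r ^ j) - algebraMap O F (w0u - d i ^ r ^ j) := by
      rw [map_sub, map_pow]; ring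
    rw [h1]
    exact Valuation.map_sub_lt _ (a5_pow_congr _ (hHW i) (hOW i _) (hd i) _) ((hPW i _).1 (hw0 i))
  have hfr : ∀ i, (H ^ r ^ (j + 1) - algebraMap O F w0u ^ r) / π ∈ W i := by
    intro i
    have h1 := a5_frob' (W i) hr (hrπ i) (hOW i w0u)
      (((W i).valuation_le_one_iff _).1 (hν i).le) (hram i _ (hν i))
    rwa [add_sub_cancel, ← pow_mul, ← pow_succ] at h1
  set ε : F := H ^ r ^ (j + 1) / algebraMap O F w0u ^ r with hε
  have hw00 : algebraMap O F w0u ≠ 0 := by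
    intro h
    have := hunit i0 w0u
    rw [h] at this
    simp at this
  have hu0 : algebraMap O F u ≠ 0 := by
    intro h
    have := hunit i0 u
    rw [h] at this
    simp at this
  have hε1 : ∀ i, (ε - 1) / π ∈ W i := by
    intro i
    have h1 : (ε - 1) / π = (H ^ r ^ (j + 1) - algebraMap O F w0u ^ r) / π *
        (algebraMap O F (↑w0u⁻¹ : O)) ^ r := by
      have h2 : algebraMap O F (↑w0u⁻¹ : O) = (algebraMap O F w0u)⁻¹ := by
        apply eq_inv_of_mul_eq_one_left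
        rw [← map_mul, Units.inv_mul, map_one]
      rw [hε, h2, inv_pow]
      field_simp
    rw [h1]
    exact (W i).mul_mem _ _ (hfr i) ((W i).pow_mem (hOW i _) r)
  obtain ⟨a, b, hab⟩ : IsCoprime (m : ℤ) ((r ^ (j + 1) : ℕ) : ℤ) :=
    Nat.isCoprime_iff_coprime.2 (Nat.Coprime.pow_right _ hm)
  let φ : Oˣ →* Fˣ := Units.map (algebraMap O F : O →* F)
  have hφ : ∀ (v : Oˣ) (k : ℤ), algebraMap O F ((v ^ k : Oˣ) : O) = algebraMap O F v ^ k := by
    intro v k
    have h1 : ((φ (v ^ k) : Fˣ) : F) = ((φ v : Fˣ) : F) ^ k := by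
      rw [map_zpow, Units.val_zpow_eq_zpow_val]
    exact h1
  refine ⟨u⁻¹ ^ a * (w0u ^ r) ^ b, fun i => ?_⟩
  have hHm : H ^ m = g * (algebraMap O F u)⁻¹ := by
    rw [hg]; field_simp
  have hHr : H ^ r ^ (j + 1) = algebraMap O F w0u ^ r * ε := by
    rw [hε]; field_simp
  have hHeq : H = algebraMap O F ((u⁻¹ ^ a * (w0u ^ r) ^ b : Oˣ) : O) * (g ^ a * ε ^ b) := by
    have h1 : H = (H ^ m) ^ a * (H ^ r ^ (j + 1)) ^ b := by
      rw [← zpow_natCast, ← zpow_natCast, ← zpow_mul, ← zpow_mul, ← zpow_add₀ hH0]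
      rw [mul_comm (m : ℤ) a, mul_comm ((r ^ (j + 1) : ℕ) : ℤ) b, hab, zpow_one]
    have h2 : algebraMap O F ((u⁻¹ ^ a * (w0u ^ r) ^ b : Oˣ) : O) =
        ((algebraMap O F u)⁻¹) ^ a * (algebraMap O F w0u ^ r) ^ b := by
      rw [Units.val_mul, map_mul, hφ, hφ, Units.val_pow_eq_pow_val, map_pow]
      congr 2
      apply eq_inv_of_mul_eq_one_left
      rw [← map_mul, Units.inv_mul, map_one]
    rw [h2]
    conv_lhs => rw [h1, hHm, hHr, mul_zpow, mul_zpow]
    ring
  have hη : (g ^ a * ε ^ b - 1) / π ∈ W i :=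
    a5_one_mul _ hπ0 (hπ i) (a5_one_zpow _ hπ0 (hπ i) (hg1 i) a)
      (a5_one_zpow _ hπ0 (hπ i) (hε1 i) b)
  have hfin : (H - algebraMap O F ((u⁻¹ ^ a * (w0u ^ r) ^ b : Oˣ) : O)) / π =
      algebraMap O F ((u⁻¹ ^ a * (w0u ^ r) ^ b : Oˣ) : O) * ((g ^ a * ε ^ b - 1) / π) := by
    conv_lhs => rw [hHeq]
    ring
  rw [hfin]
  exact (W i).mul_mem _ _ (hOW i _) hη

/-- **(A5), existence of the values** (normality of `O ⧸ P`). -/
theorem a5_exists_lift {O F : Type*} [CommRing O] [IsLocalRing O] [Field F] [Algebra O F]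
    (W : ValuationSubring F) (P : Ideal O) [P.IsPrime]
    (hOW : ∀ x : O, algebraMap O F x ∈ W)
    (hPW : ∀ x : O, x ∈ P ↔ W.valuation (algebraMap O F x) < 1)
    (hD : IsDiscreteValuationRing (O ⧸ P))
    (hfrac : ∀ x ∈ W, ∃ a b : O, b ∉ P ∧
      W.valuation (x * algebraMap O F b - algebraMap O F a) < 1)
    {m : ℕ} (hm : 0 < m) {H : F} (u : Oˣ)
    (hH : W.valuation (algebraMap O F u * H ^ m - 1) < 1) :
    ∃ d : Oˣ, W.valuation (H - algebraMap O F d) < 1 := by
  have hPn : P ≤ maximalIdeal O := le_maximalIdeal (Ideal.IsPrime.ne_top inferInstance)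
  have hval1 : ∀ x : O, x ∉ P → W.valuation (algebraMap O F x) = 1 := by
    intro x hx
    refine le_antisymm (W.valuation_le_one_iff _ |>.2 (hOW _)) ?_
    by_contra hlt
    rw [not_le, ← hPW] at hlt
    exact hx hlt
  have hunit : ∀ v : Oˣ, W.valuation (algebraMap O F v) = 1 := fun v => hval1 _ fun h =>
    (Ideal.IsPrime.ne_top (inferInstance : P.IsPrime)) (Ideal.eq_top_of_isUnit_mem _ h v.isUnit)
  have hHv : W.valuation H = 1 := by
    have h1 : W.valuation (algebraMap O F u * H ^ m) = 1 := by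
      have h2 : algebraMap O F u * H ^ m = 1 + (algebraMap O F u * H ^ m - 1) := by ring
      rw [h2]
      exact Valuation.map_one_add_of_lt _ hH
    rw [map_mul, hunit, one_mul, map_pow] at h1
    exact (pow_eq_one_iff.1 h1).resolve_right hm.ne'
  have hHW : H ∈ W := (W.valuation_le_one_iff _).1 hHv.le
  obtain ⟨α, β, hβ, hαβ⟩ := hfrac H hHW
  have hβv := hval1 β hβ
  have hrel : (u : O) * α ^ m - β ^ m ∈ P := by
    rw [hPW, map_sub, map_mul, map_pow, map_pow]
    have h2 : algebraMap O F u * algebraMap O F α ^ m - algebraMap O F β ^ m =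
        algebraMap O F β ^ m * (algebraMap O F u * H ^ m - 1) -
          algebraMap O F u * ((H * algebraMap O F β) ^ m - algebraMap O F α ^ m) := by ring
    rw [h2]
    refine Valuation.map_sub_lt _ ?_ ?_
    · rw [map_mul, map_pow, hβv, one_pow, one_mul]
      exact hH
    · rw [map_mul, hunit, one_mul]
      exact a5_pow_congr _ (W.mul_mem _ _ hHW (hOW _)) (hOW _) hαβ m
  have hrel' : Ideal.Quotient.mk P (u : O) * Ideal.Quotient.mk P α ^ m =
      Ideal.Quotient.mk P β ^ m := by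
    rw [← sub_eq_zero, ← map_pow, ← map_pow, ← map_mul, ← map_sub, Ideal.Quotient.eq_zero_iff_mem]
    exact hrel
  have hβ0 : Ideal.Quotient.mk P β ≠ 0 := by rwa [Ne, Ideal.Quotient.eq_zero_iff_mem]
  have hubar : IsUnit (Ideal.Quotient.mk P (u : O)) := u.isUnit.map _
  have hα0 : Ideal.Quotient.mk P α ≠ 0 := by
    intro h
    rw [h, zero_pow hm.ne', mul_zero] at hrel'
    exact hβ0 (pow_eq_zero_iff hm.ne' |>.1 hrel'.symm)
  -- `α = β c` with a unit `c`
  obtain ⟨c, hc, hcα⟩ : ∃ c : O ⧸ P, IsUnit c ∧ Ideal.Quotient.mk P α = Ideal.Quotient.mk P β * c := by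
    rcases ValuationRing.dvd_total (Ideal.Quotient.mk P α) (Ideal.Quotient.mk P β) with h | h
    · obtain ⟨c, hc⟩ := h
      have h1 : c ^ m = Ideal.Quotient.mk P (u : O) := by
        rw [hc, mul_pow, mul_comm] at hrel'
        exact (mul_left_cancel₀ (pow_ne_zero m hα0) hrel').symm
      have hcu : IsUnit c := by
        have : IsUnit (c ^ m) := h1 ▸ hubar
        exact (isUnit_pow_iff hm.ne').1 this
      obtain ⟨cu, rfl⟩ := hcu
      exact ⟨↑cu⁻¹, cu⁻¹.isUnit, by rw [hc, mul_assoc, Units.mul_inv, mul_one]⟩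
    · obtain ⟨c, hc⟩ := h
      refine ⟨c, ?_, hc⟩
      have h1 : Ideal.Quotient.mk P (u : O) * c ^ m = 1 := by
        rw [hc, mul_pow, mul_left_comm] at hrel'
        exact mul_left_cancel₀ (pow_ne_zero m hβ0) (by rw [hrel', mul_one])
      have : IsUnit (c ^ m) := IsUnit.of_mul_eq_one_right _ h1
      exact (isUnit_pow_iff hm.ne').1 this
  obtain ⟨d, rfl⟩ := Ideal.Quotient.mk_surjective c
  have hdu : IsUnit d := by
    obtain ⟨v, hv⟩ := hc
    obtain ⟨y, hy⟩ := Ideal.Quotient.mk_surjective (↑v⁻¹ : O ⧸ P)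
    have h2 : d * y - 1 ∈ P := by
      rw [← Ideal.Quotient.eq_zero_iff_mem, map_sub, map_mul, map_one, hy, ← hv, Units.mul_inv,
        sub_self]
    by_contra hnu
    have h3 : d ∈ maximalIdeal O := hnu
    have h4 : (1 : O) ∈ maximalIdeal O := by
      have := (maximalIdeal O).sub_mem ((maximalIdeal O).mul_mem_right y h3) (hPn h2)
      simp at this
    exact (Ideal.ne_top_iff_one _).1 (Ideal.IsPrime.ne_top inferInstance) h4
  obtain ⟨du, rfl⟩ := hdu
  refine ⟨du, ?_⟩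
  have h5 : α - β * du ∈ P := by
    rw [← Ideal.Quotient.eq_zero_iff_mem, map_sub, map_mul, hcα, sub_self]
  have hβF : algebraMap O F β ≠ 0 := by
    intro h
    rw [h] at hβv
    simp at hβv
  have h6 : H - algebraMap O F du =
      ((H * algebraMap O F β - algebraMap O F α) + algebraMap O F (α - β * du)) *
        (algebraMap O F β)⁻¹ := by
    rw [map_sub, map_mul]
    field_simp
    ring
  rw [h6, map_mul, map_inv₀, hβv, inv_one, mul_one]
  exact Valuation.map_add_lt _ hαβ ((hPW _).1 h5)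

/-- **(A5), local-global principle.** -/
theorem a5_glue {F : Type*} [Field F] (B : Subring F) (A : AddSubgroup F)
    (hBA : ∀ b ∈ B, ∀ a ∈ A, b * a ∈ A) (H : F)
    (h : ∀ n : Ideal B, n.IsMaximal → ∃ s : B, s ∉ n ∧ ∃ b ∈ B, (s : F) * H - b ∈ A) :
    ∃ b ∈ B, H - b ∈ A := by
  let I : Ideal B :=
    { carrier := {s | ∃ b ∈ B, (s : F) * H - b ∈ A}
      add_mem' := by
        rintro s t ⟨b, hb, hs⟩ ⟨c, hc, ht⟩
        refine ⟨b + c, B.add_mem hb hc, ?_⟩
        have := A.add_mem hs ht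
        convert this using 1
        push_cast
        ring
      zero_mem' := ⟨0, B.zero_mem, by simp [A.zero_mem]⟩
      smul_mem' := by
        rintro c s ⟨b, hb, hs⟩
        refine ⟨c * b, B.mul_mem c.2 hb, ?_⟩
        have := hBA c c.2 _ hs
        convert this using 1
        simp only [smul_eq_mul, Subring.coe_mul]
        ring }
  have hI : I = ⊤ := by
    by_contra hne
    obtain ⟨n, hn, hIn⟩ := Ideal.exists_le_maximal I hne
    obtain ⟨s, hs, hs'⟩ := h n hn
    exact hs (hIn hs')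
  have h1 : (1 : B) ∈ I := by rw [hI]; trivial
  obtain ⟨b, hb, hb'⟩ := h1
  exact ⟨b, hb, by simpa using hb'⟩

theorem a5_denominator {F : Type*} [Field F] (B : Subring F) {ι : Type*} [Finite ι]
    (W : ι → ValuationSubring F) (hBW : ∀ i, ∀ b ∈ B, b ∈ W i)
    {π : F}
    (harch : ∀ i (s x : F), (W i).valuation s < 1 → ∃ M : ℕ, s ^ M * x ∈ W i)
    (n : Ideal B) [n.IsPrime] {H w : F} (hw : ∃ s : B, s ∉ n ∧ (s : F) * w ∈ B)
    (h : ∀ i, (∀ b : B, (W i).valuation (b : F) < 1 → b ∈ n) → (H - w) / π ∈ W i) :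
    ∃ s : B, s ∉ n ∧ ∃ b ∈ B, ∀ i, ((s : F) * H - b) / π ∈ W i := by
  classical
  cases nonempty_fintype ι
  obtain ⟨s', hs', hs'w⟩ := hw
  have key : ∀ i, ∃ σ : B, σ ∉ n ∧ (σ : F) * ((H - w) / π) ∈ W i := by
    intro i
    by_cases hc : ∀ b : B, (W i).valuation (b : F) < 1 → b ∈ n
    · exact ⟨1, fun h1 => (Ideal.IsPrime.ne_top inferInstance) ((Ideal.eq_top_iff_one n).2 h1),
        by simpa using h i hc⟩
    · push Not at hc
      obtain ⟨b, hb, hbn⟩ := hc
      obtain ⟨M, hM⟩ := harch i b ((H - w) / π) hb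
      exact ⟨b ^ M, fun h1 => hbn (Ideal.IsPrime.mem_of_pow_mem inferInstance M h1), by simpa using hM⟩
  choose σ hσn hσ using key
  refine ⟨s' * ∏ i, σ i, ?_, (s' : F) * w * ∏ i, (σ i : F), ?_, fun i => ?_⟩
  · intro h1
    rcases (Ideal.IsPrime.mem_or_mem inferInstance h1) with h2 | h2
    · exact hs' h2
    · obtain ⟨i, -, hi⟩ := Ideal.IsPrime.prod_mem_iff.1 h2
      exact hσn i hi
  · exact B.mul_mem hs'w (B.prod_mem fun i _ => (σ i).2)
  · have h1 : (((s' * ∏ i, σ i : B) : F) * H - (s' : F) * w * ∏ i, (σ i : F)) / π =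
        ((s' : F) * ∏ l ∈ Finset.univ.erase i, (σ l : F)) * ((σ i : F) * ((H - w) / π)) := by
      have h0 : ((∏ i, σ i : B) : F) = ∏ i, (σ i : F) := map_prod B.subtype _ _
      rw [Subring.coe_mul, h0, ← Finset.mul_prod_erase _ _ (Finset.mem_univ i)]
      ring
    rw [h1]
    exact (W i).mul_mem _ _ (hBW i _ (B.mul_mem s'.2 (B.prod_mem fun l _ => (σ l).2))) (hσ i)

end Fermat.Agent.CARlib
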