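import Mathlib

/-!
# T-CAR, block C: definitions (sorry-free).  See `CIface.lean` for the plan.
-/

set_option autoImplicit false

open IsLocalRing Polynomial

namespace Fermat.Agent.CARlib.C

/-- **elementwise A1-regularity** of `B` at the maximal ideal `𝔫`: the prime `P ≤ 𝔫` is generated by
`a` near `𝔫`, and `𝔫 / P` is generated by `t` near `𝔫`. -/
structure CReg {B : Type*} [CommRing B] (𝔫 P : Ideal B) (a t : B) : Prop where
  a_mem : a ∈ P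
  t_mem : t ∈ 𝔫
  gen : ∀ x ∈ P, ∃ s, s ∉ 𝔫 ∧ ∃ y, s * x = a * y
  dvr : ∀ x ∈ 𝔫, ∃ s, s ∉ 𝔫 ∧ ∃ y, s * x - t * y ∈ P

/-- `B / P` is a DVR (or a field) near `𝔫` -/
def CDvr {B : Type*} [CommRing B] (𝔫 P : Ideal B) : Prop :=
  ∃ t ∈ 𝔫, ∀ x ∈ 𝔫, ∃ s, s ∉ 𝔫 ∧ ∃ y, s * x - t * y ∈ P

/-- **level 1 bundle** (from T-UNI + block B) -/
structure CLev1 {B₁ F₁ : Type*} [CommRing B₁] [Field F₁] [Algebra B₁ F₁] (π₁ : B₁)
    (VF VV : ValuationSubring F₁) (pF pV : Ideal B₁) : Prop where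
  memF : ∀ b : B₁, b ∈ pF ↔ VF.valuation (algebraMap B₁ F₁ b) < 1
  memV : ∀ b : B₁, b ∈ pV ↔ VV.valuation (algebraMap B₁ F₁ b) < 1
  /-- `π` is a uniformiser of `VV` -/
  unifV : ∀ x : F₁, VV.valuation x < 1 → x / algebraMap B₁ F₁ π₁ ∈ VV
  /-- `B₁ / pV` is integrally closed in the residue field of `VV` (`NodeHyp.norm₂`) -/
  normV : ∀ Z ∈ VV, ∀ p : B₁[X], p.Monic → VV.valuation (aeval Z p) < 1 →
    ∃ x : B₁, VV.valuation (Z - algebraMap B₁ F₁ x) < 1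
  /-- `B₁ / pV` is a Dedekind domain -/
  dvrV : ∀ 𝔫₁ : Ideal B₁, 𝔫₁.IsMaximal → pV ≤ 𝔫₁ → CDvr 𝔫₁ pV
  /-- **thickness one** at the nodes (B5): `a = π/θ`, `b = θ` up to a local unit `c` -/
  thick : ∀ 𝔫₁ : Ideal B₁, 𝔫₁.IsMaximal → pF ≤ 𝔫₁ → pV ≤ 𝔫₁ →
    ∃ a b c : B₁, a * b = π₁ * c ∧ c ∉ 𝔫₁ ∧ a ∈ pF ∧ b ∈ pV

/-- **one component `W` of level 2 of type FV/VF**: `W | VF` along `ea`, `W | VV` with `e = f = 1`
along `eb`; `W'`, `W''` are the other two vertical valuations, both over `VV` along `ea`.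
(`WFV`: `ea = e₁`, `eb = e₂`; `WVF`: `ea = e₂`, `eb = e₁`.) -/
structure CPull {B₁ B₂ F₁ F₂ : Type*} [CommRing B₁] [CommRing B₂] [Field F₁] [Field F₂]
    [Algebra B₁ F₁] [Algebra B₂ F₂] (π₁ : B₁) (π₂ : B₂) (Ea Eb : B₁ →+* B₂) (ea eb : F₁ →+* F₂)
    (VF VV : ValuationSubring F₁) (W W' W'' : ValuationSubring F₂) (P : Ideal B₂) : Prop where
  inj₂ : Function.Injective (algebraMap B₂ F₂)
  pi_ne : π₂ ≠ 0
  hEa : ∀ b, algebraMap B₂ F₂ (Ea b) = ea (algebraMap B₁ F₁ b)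
  hEb : ∀ b, algebraMap B₂ F₂ (Eb b) = eb (algebraMap B₁ F₁ b)
  hπa : Ea π₁ = π₂
  intA : Ea.IsIntegral
  intB : Eb.IsIntegral
  sub : ∀ b : B₂, algebraMap B₂ F₂ b ∈ W
  sub' : ∀ b : B₂, algebraMap B₂ F₂ b ∈ W'
  sub'' : ∀ b : B₂, algebraMap B₂ F₂ b ∈ W''
  memP : ∀ b : B₂, b ∈ P ↔ W.valuation (algebraMap B₂ F₂ b) < 1
  /-- key criterion (V2 + `isIntegral_of_piInt`) -/
  KC : ∀ x : F₂, (∃ b : B₂, algebraMap B₂ F₂ b = algebraMap B₂ F₂ π₂ * x) → x ∈ W → x ∈ W' →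
    x ∈ W'' → ∃ b : B₂, algebraMap B₂ F₂ b = x
  unif : ∀ x : F₂, W.valuation x < 1 → x / algebraMap B₂ F₂ π₂ ∈ W
  comap_a : W.comap ea = VF
  comap_a' : W'.comap ea = VV
  comap_a'' : W''.comap ea = VV
  comap_b : W.comap eb = VV
  /-- residue degree one along `eb` -/
  res : ∀ x ∈ W, ∃ u ∈ VV, W.valuation (x - eb u) < 1

/-- **the middle component** `WVV` (`e = r - 1`, `f = 1` along `e₁`) -/
structure CMidV {B₁ B₂ F₁ F₂ : Type*} [CommRing B₁] [CommRing B₂] [Field F₁] [Field F₂]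
    [Algebra B₁ F₁] [Algebra B₂ F₂] (π₂ : B₂) (E₁ : B₁ →+* B₂) (e₁ : F₁ →+* F₂)
    (VV : ValuationSubring F₁) (WVV : ValuationSubring F₂) (PVV : Ideal B₂) : Prop where
  hE₁ : ∀ b, algebraMap B₂ F₂ (E₁ b) = e₁ (algebraMap B₁ F₁ b)
  int₁ : E₁.IsIntegral
  sub : ∀ b : B₂, algebraMap B₂ F₂ b ∈ WVV
  memP : ∀ b : B₂, b ∈ PVV ↔ WVV.valuation (algebraMap B₂ F₂ b) < 1
  comap₁ : WVV.comap e₁ = VV
  res : ∀ x ∈ WVV, ∃ u ∈ VV, WVV.valuation (x - e₁ u) < 1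
  /-- finite ramification -/
  ram : ∃ N : ℕ, ∀ x : F₂, WVV.valuation x < 1 → x ^ N / algebraMap B₂ F₂ π₂ ∈ WVV

/-- **local generator of `P_VV`** at `𝔫` (output of C2, C3) -/
def CMid {B₂ F₂ : Type*} [CommRing B₂] [Field F₂] [Algebra B₂ F₂] (π₂ : B₂)
    (WVV : ValuationSubring F₂) (𝔫 : Ideal B₂) : Prop :=
  ∃ y h c : B₂, c ∉ 𝔫 ∧ π₂ * c = y * h ∧ WVV.valuation (algebraMap B₂ F₂ y) < 1 ∧
    ∀ x : F₂, WVV.valuation x < 1 → x / algebraMap B₂ F₂ y ∈ WVV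

/-! ### valuation helpers -/

theorem val_lt_one_iff {F : Type*} [Field F] (W : ValuationSubring F) (x : F) :
    W.valuation x < 1 ↔ x = 0 ∨ x⁻¹ ∉ W := by
  by_cases hx : x = 0
  · simp [hx]
  · rw [← W.valuation_le_one_iff, map_inv₀, not_le, one_lt_inv₀ (by
      rw [pos_iff_ne_zero]; exact (W.valuation.ne_zero_iff).2 hx)]
    simp [hx]

theorem val_comap_lt_one_iff {F₁ F₂ : Type*} [Field F₁] [Field F₂] {W : ValuationSubring F₂}
    {V : ValuationSubring F₁} {e : F₁ →+* F₂} (h : W.comap e = V) (u : F₁) :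
    W.valuation (e u) < 1 ↔ V.valuation u < 1 := by
  rw [val_lt_one_iff, val_lt_one_iff, ← h, ValuationSubring.mem_comap, map_inv₀,
    map_eq_zero]

theorem mem_of_comap {F₁ F₂ : Type*} [Field F₁] [Field F₂] {W : ValuationSubring F₂}
    {V : ValuationSubring F₁} {e : F₁ →+* F₂} (h : W.comap e = V) {u : F₁} (hu : u ∈ V) :
    e u ∈ W := by
  rw [← h] at hu; exact hu

theorem mem_of_val_lt_one {F : Type*} [Field F] {W : ValuationSubring F} {x : F}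
    (h : W.valuation x < 1) : x ∈ W := (W.valuation_le_one_iff x).1 h.le

/-- the centre of a valuation ring on a subring is a prime ideal -/
theorem isPrime_of_mem {B F : Type*} [CommRing B] [Field F] [Algebra B F]
    {W : ValuationSubring F} {P : Ideal B} (hsub : ∀ b : B, algebraMap B F b ∈ W)
    (hmem : ∀ b : B, b ∈ P ↔ W.valuation (algebraMap B F b) < 1) : P.IsPrime := by
  refine ⟨?_, ?_⟩
  · rw [Ideal.ne_top_iff_one, hmem]; simp
  · intro x y hxy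
    rw [hmem, map_mul, map_mul] at hxy
    by_contra hcon
    rw [not_or, hmem, hmem, not_lt, not_lt] at hcon
    have h1 : W.valuation (algebraMap B F x) = 1 :=
      le_antisymm ((W.valuation_le_one_iff _).2 (hsub x)) hcon.1
    have h2 : W.valuation (algebraMap B F y) = 1 :=
      le_antisymm ((W.valuation_le_one_iff _).2 (hsub y)) hcon.2
    rw [h1, h2, one_mul] at hxy
    exact lt_irrefl _ hxy

/-- an element of `B` outside the centre is a unit of `W` -/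
theorem inv_mem_of_not_mem {B F : Type*} [CommRing B] [Field F] [Algebra B F]
    {W : ValuationSubring F} {P : Ideal B}
    (hmem : ∀ b : B, b ∈ P ↔ W.valuation (algebraMap B F b) < 1) {b : B} (hb : b ∉ P) :
    (algebraMap B F b)⁻¹ ∈ W := by
  rw [hmem, val_lt_one_iff, not_or, not_not] at hb
  exact hb.2

end Fermat.Agent.CARlib.C
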