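import Mathlib
import Fermat.Agent.CAR.A5Frob
import Fermat.Agent.CAR.CDefs

/-!
# T-CAR, (I8) = (A5-final): from the local data at one maximal ideal `𝔫` to the clause of `LocPowB2`

`B` = integral closure of `R[t]` in `F`, `𝔫` a maximal ideal, `O = B_𝔫`, `W i` ALL the vertical
valuations, `P i` their centres on `B`.  `g = u H ^ m ≡ 1 mod π`, `u ∈ Oˣ`, and the values of `H` on
the branches through `𝔫` agree.  Then there are `G` and `s ∉ 𝔫` with `s (G - 1) / π ∈ W i` for all `i`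
and `s g G ^ m ∈ B`.
-/

set_option autoImplicit false

namespace Fermat.Agent.CARlib

open IsLocalRing

/-- a noetherian local domain `O ⧸ P`, not a field, with principal maximal ideal -/
theorem a5_dvr_quot {O : Type*} [CommRing O] [IsLocalRing O] [IsNoetherianRing O] (P : Ideal O)
    [P.IsPrime] {t : O} (htm : t ∈ maximalIdeal O) (ht : maximalIdeal O ≤ P ⊔ Ideal.span {t})
    (hne : P ≠ maximalIdeal O) : IsDiscreteValuationRing (O ⧸ P) := by
  have hPn : P ≤ maximalIdeal O := le_maximalIdeal (Ideal.IsPrime.ne_top inferInstance)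
  have : IsLocalRing (O ⧸ P) :=
    IsLocalRing.of_surjective' (Ideal.Quotient.mk P) Ideal.Quotient.mk_surjective
  have hmem : ∀ x : O, Ideal.Quotient.mk P x ∈ maximalIdeal (O ⧸ P) → x ∈ maximalIdeal O := by
    intro x hx
    by_contra hnu
    have hu : IsUnit x := by
      by_contra h
      exact hnu h
    exact hx (hu.map _)
  have hfield : ¬ IsField (O ⧸ P) := by
    intro hf
    have hmax : P.IsMaximal := Ideal.Quotient.maximal_of_isField P hf
    exact hne (IsLocalRing.eq_maximalIdeal hmax)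
  have hprin : (maximalIdeal (O ⧸ P)).IsPrincipal := by
    refine ⟨⟨Ideal.Quotient.mk P t, le_antisymm ?_ ?_⟩⟩
    · intro x hx
      obtain ⟨y, rfl⟩ := Ideal.Quotient.mk_surjective x
      have h1 := ht (hmem y hx)
      obtain ⟨p, hp, c, hc, rfl⟩ := Submodule.mem_sup.1 h1
      obtain ⟨e, rfl⟩ := Ideal.mem_span_singleton'.1 hc
      rw [map_add, Ideal.Quotient.eq_zero_iff_mem.2 hp, zero_add, map_mul]
      exact Ideal.mul_mem_left _ _ (Ideal.subset_span rfl)
    · change Ideal.span _ ≤ _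
      rw [Ideal.span_singleton_le_iff_mem, mem_maximalIdeal, mem_nonunits_iff]
      rintro ⟨v, hv⟩
      obtain ⟨y, hy⟩ := Ideal.Quotient.mk_surjective (↑v⁻¹ : O ⧸ P)
      have h2 : t * y - 1 ∈ P := by
        rw [← Ideal.Quotient.eq_zero_iff_mem, map_sub, map_mul, map_one, hy, ← hv, Units.mul_inv,
          sub_self]
      have h4 : (1 : O) ∈ maximalIdeal O := by
        have h5 := (maximalIdeal O).sub_mem ((maximalIdeal O).mul_mem_right y htm) (hPn h2)
        rwa [sub_sub_cancel] at h5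
      exact (Ideal.ne_top_iff_one _).1 (Ideal.IsPrime.ne_top inferInstance) h4
  exact ((IsDiscreteValuationRing.TFAE (O ⧸ P) hfield).out 0 4).2 hprin

/-- **(A5), local form, DVR hypothesis only if there are two branches**; output `H w ≡ 1`. -/
theorem a5_local2 {O F : Type*} [CommRing O] [IsLocalRing O] [Field F] [Algebra O F]
    {ι : Type*} [Finite ι] (W : ι → ValuationSubring F) (P : ι → Ideal O) [∀ i, (P i).IsPrime]
    (hOW : ∀ i (x : O), algebraMap O F x ∈ W i)
    (hPW : ∀ i (x : O), x ∈ P i ↔ (W i).valuation (algebraMap O F x) < 1)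
    (hD : ∀ i l, i ≠ l → IsDiscreteValuationRing (O ⧸ P i)) (hP : ∀ i l, i ≠ l → ¬ P l ≤ P i)
    {r : ℕ} (hr : r.Prime) {π : F} (hπ0 : π ≠ 0) (hπ : ∀ i, (W i).valuation π < 1)
    (hrπ : ∀ i, (r : F) / π ∈ W i)
    (hram : ∀ i (x : F), (W i).valuation x < 1 → x ^ r / π ∈ W i)
    {m : ℕ} (hm : m.Coprime r) {g H : F} (u : Oˣ) (hg : g = algebraMap O F u * H ^ m)
    (hg1 : ∀ i, (g - 1) / π ∈ W i)
    (d : ι → O) (hd : ∀ i, (W i).valuation (H - algebraMap O F (d i)) < 1)
    (hz : ∀ i l, d i - d l ∈ maximalIdeal O) :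
    ∃ w : Oˣ, ∀ i, (H * algebraMap O F w - 1) / π ∈ W i := by
  classical
  by_cases hsub : ∃ i l : ι, i ≠ l
  · have hD' : ∀ i, IsDiscreteValuationRing (O ⧸ P i) := by
      intro i
      obtain ⟨a, b, hab⟩ := hsub
      by_cases hia : i = a
      · exact hD i b (hia ▸ hab)
      · exact hD i a hia
    obtain ⟨w, hw⟩ := a5_local W P hOW hPW hD' hP hr hπ0 hπ hrπ hram hm u hg hg1 d hd hz
    refine ⟨w⁻¹, fun i => ?_⟩
    have hw0 : algebraMap O F w ≠ 0 := by
      intro h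
      have := a5_unit_val (W i) (hOW i) w
      rw [h] at this
      simp at this
    have h2 : algebraMap O F (↑w⁻¹ : O) = (algebraMap O F w)⁻¹ := by
      apply eq_inv_of_mul_eq_one_left
      rw [← map_mul, Units.inv_mul, map_one]
    have h1 : (H * algebraMap O F (↑w⁻¹ : O) - 1) / π =
        (H - algebraMap O F w) / π * algebraMap O F (↑w⁻¹ : O) := by
      rw [h2]; field_simp
    rw [h1]
    exact (W i).mul_mem _ _ (hw i) (hOW i _)
  · push Not at hsub
    rcases isEmpty_or_nonempty ι with hι | ⟨⟨i0⟩⟩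
    · exact ⟨1, fun i => (hι.false i).elim⟩
    -- one branch: `d i0` is a unit
    have hm0 : 0 < m := by
      rcases Nat.eq_zero_or_pos m with rfl | h
      · rw [Nat.coprime_zero_left] at hm
        exact absurd hm hr.one_lt.ne'
      · exact h
    have hgv : (W i0).valuation g = 1 := a5_one_val _ hπ0 (hπ i0) (hg1 i0)
    have hHv : (W i0).valuation H = 1 := by
      have h1 := hgv
      rw [hg, map_mul, a5_unit_val (W i0) (hOW i0), one_mul, map_pow] at h1
      exact (pow_eq_one_iff.1 h1).resolve_right hm0.ne'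
    have hHW : H ∈ W i0 := ((W i0).valuation_le_one_iff _).1 hHv.le
    have hdu : IsUnit (d i0) := by
      have h1 : (W i0).valuation (algebraMap O F ((u : O) * d i0 ^ m - 1)) < 1 := by
        rw [map_sub, map_mul, map_pow, map_one]
        have h2 : algebraMap O F u * algebraMap O F (d i0) ^ m - 1 =
            (g - 1) - algebraMap O F u * (H ^ m - algebraMap O F (d i0) ^ m) := by rw [hg]; ring
        rw [h2]
        refine Valuation.map_sub_lt _ (a5_lt_of_div_mem _ hπ0 (hπ i0) (hg1 i0)) ?_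
        rw [map_mul, a5_unit_val (W i0) (hOW i0), one_mul]
        exact a5_pow_congr _ hHW (hOW i0 _) (hd i0) m
      have h1' := a5_mem_maximalIdeal (W i0) (hOW i0) h1
      by_contra hnu
      have h2 : d i0 ∈ maximalIdeal O := hnu
      have h3 : (1 : O) ∈ maximalIdeal O := by
        have h4 := (maximalIdeal O).sub_mem
          ((maximalIdeal O).mul_mem_left (u : O) ((maximalIdeal O).pow_mem_of_mem h2 m hm0)) h1'
        rwa [sub_sub_cancel] at h4
      exact (Ideal.ne_top_iff_one _).1 (Ideal.IsPrime.ne_top inferInstance) h3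
    obtain ⟨du, hdu'⟩ := hdu
    refine a5_frob_core W hOW hπ0 hπ hr hrπ hram hm (u := u) (by rw [← hg]; exact hg1) 0 du
      fun i => ?_
    rw [hsub i i0, pow_zero, pow_one, hdu']
    exact hd i0

/-- **(I8) = (A5-final)**: the clause of `LocPowB2` at `𝔫`. -/
theorem a5_final {B O F ι : Type*} [CommRing B] [IsNoetherianRing B] [Field F] [Algebra B F]
    (𝔫 : Ideal B) [𝔫.IsPrime] [CommRing O] [IsLocalRing O] [Algebra B O]
    [IsLocalization.AtPrime O 𝔫] [Algebra O F] [IsScalarTower B O F] [Finite ι]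
    (W : ι → ValuationSubring F) (hBW : ∀ i x, algebraMap B F x ∈ W i)
    (P : ι → Ideal B) (hP : ∀ i x, x ∈ P i ↔ (W i).valuation (algebraMap B F x) < 1)
    (hPne : ∀ i l, i ≠ l → ¬ P l ≤ P i)
    (hdvr : ∀ i, P i ≤ 𝔫 → C.CDvr 𝔫 (P i))
    {π : F} (hπ0 : π ≠ 0) (hπ : ∀ i, (W i).valuation π < 1) {r : ℕ} (hr : r.Prime)
    (hrπ : ∀ i, (r : F) / π ∈ W i)
    (he : ∀ i (ν : F), (W i).valuation ν < 1 → ν ^ r / π ∈ W i)
    {m : ℕ} (hmr : Nat.Coprime m r) {g H : F} (u : Oˣ) (hg : g = algebraMap O F u * H ^ m)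
    (hg1 : ∀ i, (g - 1) / π ∈ W i)
    (d : ι → O) (hd : ∀ i, P i ≤ 𝔫 → (W i).valuation (H - algebraMap O F (d i)) < 1)
    (hz : ∀ i l, P i ≤ 𝔫 → P l ≤ 𝔫 → d i - d l ∈ maximalIdeal O) :
    ∃ G : F, ∃ s : B, s ∉ 𝔫 ∧ (∀ i, algebraMap B F s * ((G - 1) / π) ∈ W i) ∧
      ∃ c : B, algebraMap B F c = algebraMap B F s * (g * G ^ m) := by
  classical
  cases nonempty_fintype ι
  have h1𝔫 : (1 : B) ∉ 𝔫 := (Ideal.ne_top_iff_one _).1 (Ideal.IsPrime.ne_top inferInstance)
  have hm0 : 0 < m := by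
    rcases Nat.eq_zero_or_pos m with rfl | h
    · rw [Nat.coprime_zero_left] at hmr
      exact absurd hmr hr.one_lt.ne'
    · exact h
  by_cases hH0 : H = 0
  · refine ⟨1, 1, h1𝔫, fun i => by simp [(W i).zero_mem], 0, ?_⟩
    rw [hg, hH0, zero_pow hm0.ne']
    simp
  have hs1 : ∀ i, P i ≤ 𝔫 → ∀ s : B, s ∉ 𝔫 → (W i).valuation (algebraMap B F s) = 1 := by
    intro i hi s hs
    refine le_antisymm (((W i).valuation_le_one_iff _).2 (hBW i s)) ?_
    by_contra hlt
    rw [not_le, ← hP] at hlt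
    exact hs (hi hlt)
  have hfrac : ∀ x : O, ∃ b s : B, s ∉ 𝔫 ∧
      algebraMap B F s * algebraMap O F x = algebraMap B F b := by
    intro x
    obtain ⟨b, s, rfl⟩ := IsLocalization.exists_mk'_eq 𝔫.primeCompl x
    refine ⟨b, s, s.2, ?_⟩
    rw [IsScalarTower.algebraMap_apply B O F, ← map_mul, mul_comm, IsLocalization.mk'_spec,
      ← IsScalarTower.algebraMap_apply]
  let ι' := {i : ι // P i ≤ 𝔫}
  have hOW : ∀ (i : ι') (x : O), algebraMap O F x ∈ W i.1 := by
    intro i x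
    obtain ⟨b, s, hs, hx⟩ := hfrac x
    have hv := hs1 i.1 i.2 s hs
    rw [← (W i.1).valuation_le_one_iff]
    have h2 : (W i.1).valuation (algebraMap B F s * algebraMap O F x) ≤ 1 := by
      rw [hx]; exact ((W i.1).valuation_le_one_iff _).2 (hBW _ _)
    rwa [map_mul, hv, one_mul] at h2
  let PO : ι' → Ideal O := fun i =>
    { carrier := {x | (W i.1).valuation (algebraMap O F x) < 1}
      add_mem' := fun {a b} ha hb => by
        simp only [Set.mem_ofPred_eq, map_add]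
        exact Valuation.map_add_lt _ ha hb
      zero_mem' := by simp
      smul_mem' := fun c x hx => by
        simp only [Set.mem_ofPred_eq, smul_eq_mul, map_mul]
        rw [mul_comm]
        exact mul_lt_of_lt_of_le_one hx (((W i.1).valuation_le_one_iff _).2 (hOW i c)) }
  have hPOW : ∀ (i : ι') (x : O), x ∈ PO i ↔ (W i.1).valuation (algebraMap O F x) < 1 :=
    fun i x => Iff.rfl
  have hPOp : ∀ i, (PO i).IsPrime := fun i => C.isPrime_of_mem (hOW i) (hPOW i)
  have hPOne : ∀ i l : ι', i ≠ l → ¬ PO l ≤ PO i := by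
    intro i l hil hle
    apply hPne i.1 l.1 (fun h => hil (Subtype.ext h))
    intro x hx
    have h1 : algebraMap B O x ∈ PO l := by
      rw [hPOW, ← IsScalarTower.algebraMap_apply]; exact (hP _ _).1 hx
    have h2 := hle h1
    rw [hPOW, ← IsScalarTower.algebraMap_apply] at h2
    exact (hP _ _).2 h2
  have hnoeth : IsNoetherianRing O := IsLocalization.isNoetherianRing 𝔫.primeCompl O inferInstance
  have hDO : ∀ i l : ι', i ≠ l → IsDiscreteValuationRing (O ⧸ PO i) := by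
    intro i l hil
    obtain ⟨t, ht𝔫, ht⟩ := hdvr i.1 i.2
    refine a5_dvr_quot (PO i) (t := algebraMap B O t) ?_ ?_ ?_
    · exact (IsLocalization.AtPrime.to_map_mem_maximal_iff O 𝔫 t).2 ht𝔫
    · intro x hx
      obtain ⟨b, s, rfl⟩ := IsLocalization.exists_mk'_eq 𝔫.primeCompl x
      have hb : b ∈ 𝔫 := (IsLocalization.AtPrime.mk'_mem_maximal_iff O 𝔫 b s).1 hx
      obtain ⟨s', hs', y, hy⟩ := ht b hb
      obtain ⟨v, hv⟩ := IsLocalization.map_units O (⟨s', hs'⟩ : 𝔫.primeCompl)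
      obtain ⟨v2, hv2⟩ := IsLocalization.map_units O s
      have hq : algebraMap B O (s' * b - t * y) ∈ PO i := by
        rw [hPOW, ← IsScalarTower.algebraMap_apply]; exact (hP _ _).1 hy
      refine Submodule.mem_sup.2 ⟨(↑v⁻¹ * ↑v2⁻¹ : O) * algebraMap B O (s' * b - t * y),
        (PO i).mul_mem_left _ hq, algebraMap B O t * ((↑v⁻¹ * ↑v2⁻¹ : O) * algebraMap B O y),
        Ideal.mem_span_singleton.2 ⟨_, rfl⟩, ?_⟩
      have h3 : algebraMap B O b = IsLocalization.mk' O b s * v2 := by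
        rw [hv2, IsLocalization.mk'_spec]
      have hv' : algebraMap B O s' = v := hv.symm
      rw [map_sub, map_mul, map_mul, h3, hv']
      have e1 : (↑v⁻¹ : O) * v = 1 := Units.inv_mul v
      have e2 : (↑v2⁻¹ : O) * v2 = 1 := Units.inv_mul v2
      linear_combination (IsLocalization.mk' O b s) * ((↑v2⁻¹ : O) * v2) * e1 +
        (IsLocalization.mk' O b s) * e2
    · intro h
      apply hPOne i l hil
      rw [h]
      exact le_maximalIdeal (hPOp l).ne_top
  obtain ⟨w, hw⟩ := a5_local2 (fun i : ι' => W i.1) PO hOW hPOW hDO hPOne hr hπ0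
    (fun i => hπ i.1) (fun i => hrπ i.1) (fun i => he i.1) hmr u hg (fun i => hg1 i.1)
    (fun i => d i.1) (fun i => hd i.1 i.2) (fun i l => hz i.1 l.1 i.2 l.2)
  -- nonvanishing of units in `F`
  have hinv : ∀ v : Oˣ, algebraMap O F (↑v⁻¹ : O) * algebraMap O F v = 1 := fun v => by
    rw [← map_mul, Units.inv_mul, map_one]
  have hne : ∀ v : Oˣ, algebraMap O F v ≠ 0 := fun v h => by
    have := hinv v
    rw [h, mul_zero] at this
    exact zero_ne_one this
  set wF : F := algebraMap O F w with hwF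
  have hwF0 : wF ≠ 0 := hne w
  have huF0 : algebraMap O F u ≠ 0 := hne u
  obtain ⟨b1, s1, hs1𝔫, hb1⟩ := hfrac ((u : O) * (↑w⁻¹ : O) ^ m)
  obtain ⟨b2, s2, hs2𝔫, hb2⟩ := hfrac (↑w⁻¹ : O)
  obtain ⟨a3, s3, hs3𝔫, ha3⟩ := hfrac (u : O)
  have hwinv : algebraMap O F (↑w⁻¹ : O) = wF⁻¹ := eq_inv_of_mul_eq_one_left (hinv w)
  have hgv : ∀ i, (W i).valuation g = 1 := fun i => a5_one_val _ hπ0 (hπ i) (hg1 i)
  have hg0 : g ≠ 0 := by
    rw [hg]; exact mul_ne_zero huF0 (pow_ne_zero _ hH0)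
  -- `s3 / H ∈ W i` for all `i`
  have hs3H : ∀ i, algebraMap B F s3 * H⁻¹ ∈ W i := by
    intro i
    rw [← (W i).valuation_le_one_iff]
    have h1 : (algebraMap B F s3 * H⁻¹) ^ m = algebraMap B F (s3 ^ (m - 1) * a3) * g⁻¹ := by
      have h2 : algebraMap B F s3 ^ m = algebraMap B F s3 ^ (m - 1) * algebraMap B F s3 := by
        rw [← pow_succ, Nat.sub_add_cancel hm0]
      rw [mul_pow, inv_pow, h2, map_mul, map_pow, ← ha3, hg]
      field_simp
    have h3 : (W i).valuation ((algebraMap B F s3 * H⁻¹) ^ m) ≤ 1 := by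
      rw [h1, map_mul, map_inv₀, hgv, inv_one, mul_one]
      exact ((W i).valuation_le_one_iff _).2 (hBW _ _)
    rw [map_pow] at h3
    exact (pow_le_one_iff hm0.ne').1 h3
  set G : F := (H * wF)⁻¹ with hG
  have hG23 : ∀ i, algebraMap B F (s2 * s3) * (G - 1) ∈ W i := by
    intro i
    have h1 : algebraMap B F (s2 * s3) * (G - 1) =
        (algebraMap B F s3 * H⁻¹) * algebraMap B F b2 - algebraMap B F (s2 * s3) := by
      rw [← hb2, hwinv, hG, map_mul, mul_inv]
      ring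
    rw [h1]
    exact (W i).sub_mem ((W i).mul_mem _ _ (hs3H i) (hBW _ _)) (hBW _ _)
  have hν : ∀ i, ∃ ν : B, ν ∉ 𝔫 ∧ (¬ P i ≤ 𝔫 → ν ∈ P i) := by
    intro i
    by_cases h : P i ≤ 𝔫
    · exact ⟨1, h1𝔫, fun h' => absurd h h'⟩
    · obtain ⟨x, hx, hx'⟩ := SetLike.not_le_iff_exists.1 h
      exact ⟨x, hx', fun _ => hx⟩
  choose ν hν𝔫 hνP using hν
  have hprod𝔫 : ∀ t : Finset ι, ∏ i ∈ t, ν i ^ r ∉ 𝔫 := by
    intro t h
    obtain ⟨i, -, hi⟩ := Ideal.IsPrime.prod_mem_iff.1 h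
    exact hν𝔫 i (Ideal.IsPrime.mem_of_pow_mem inferInstance r hi)
  have hmul𝔫 : ∀ {x y : B}, x ∉ 𝔫 → y ∉ 𝔫 → x * y ∉ 𝔫 := fun hx hy h =>
    (Ideal.IsPrime.mem_or_mem inferInstance h).elim hx hy
  refine ⟨G, s1 * (s2 * s3) * ∏ i, ν i ^ r,
    hmul𝔫 (hmul𝔫 hs1𝔫 (hmul𝔫 hs2𝔫 hs3𝔫)) (hprod𝔫 _), fun i => ?_,
    b1 * (s2 * s3) * ∏ i, ν i ^ r, ?_⟩
  · by_cases hi : P i ≤ 𝔫
    · refine (W i).mul_mem _ _ (hBW _ _) ?_
      exact a5_one_inv (W i) hπ0 (hπ i) (hw ⟨i, hi⟩)
    · have h1 : algebraMap B F (s1 * (s2 * s3) * ∏ i, ν i ^ r) * ((G - 1) / π) =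
          algebraMap B F (s1 * ∏ l ∈ Finset.univ.erase i, ν l ^ r) *
            ((algebraMap B F (ν i) ^ r / π) * (algebraMap B F (s2 * s3) * (G - 1))) := by
        rw [← Finset.mul_prod_erase _ _ (Finset.mem_univ i)]
        simp only [map_mul, map_pow]
        ring
      rw [h1]
      exact (W i).mul_mem _ _ (hBW _ _)
        ((W i).mul_mem _ _ (he i _ ((hP _ _).1 (hνP i hi))) (hG23 i))
  · have h1 : g * G ^ m = algebraMap O F ((u : O) * (↑w⁻¹ : O) ^ m) := by
      rw [map_mul, map_pow, hwinv, hg, hG, inv_pow, inv_pow, mul_pow]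
      field_simp
    rw [h1]
    simp only [map_mul]
    rw [← hb1]
    simp only [map_mul]
    ring

end Fermat.Agent.CARlib
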