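import Mathlib
import Fermat.Agent.CAR.A5Final

/-!
# T-CAR, (I0) = (R1): existence of the value of `H` on a branch through `𝔫`
-/

set_option autoImplicit false

namespace Fermat.Agent.CARlib

open IsLocalRing

/-- **(I0)**: `W` a vertical valuation through `𝔫` with centre `P`, `B / P` a DVR near `𝔫`, the residue
field of `W` is the fraction field of `B / P`; `u H ^ m ≡ 1 (W)` with `u ∈ Oˣ`, `O = B_𝔫`.  Then `H` is
congruent modulo `𝔪(W)` to a unit of `O`. -/
theorem a5_lift_at {B O F : Type*} [CommRing B] [IsNoetherianRing B] [Field F] [Algebra B F]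
    (𝔫 : Ideal B) [𝔫.IsPrime] [CommRing O] [IsLocalRing O] [Algebra B O]
    [IsLocalization.AtPrime O 𝔫] [Algebra O F] [IsScalarTower B O F]
    (W : ValuationSubring F) (hBW : ∀ x, algebraMap B F x ∈ W)
    (P : Ideal B) (hP : ∀ x, x ∈ P ↔ W.valuation (algebraMap B F x) < 1) (hP𝔫 : P ≤ 𝔫)
    (hdvr : C.CDvr 𝔫 P)
    (hfrac : ∀ x ∈ W, ∃ a b : B, b ∉ P ∧
      W.valuation (x * algebraMap B F b - algebraMap B F a) < 1)
    {m : ℕ} (hm : 0 < m) {H : F} (u : Oˣ)
    (hH : W.valuation (algebraMap O F u * H ^ m - 1) < 1) :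
    ∃ d : Oˣ, W.valuation (H - algebraMap O F d) < 1 := by
  classical
  have hs1 : ∀ s : B, s ∉ P → W.valuation (algebraMap B F s) = 1 := by
    intro s hs
    refine le_antisymm ((W.valuation_le_one_iff _).2 (hBW s)) ?_
    by_contra hlt
    rw [not_le, ← hP] at hlt
    exact hs hlt
  have hfr : ∀ x : O, ∃ b s : B, s ∉ 𝔫 ∧
      algebraMap B F s * algebraMap O F x = algebraMap B F b := by
    intro x
    obtain ⟨b, s, rfl⟩ := IsLocalization.exists_mk'_eq 𝔫.primeCompl x
    refine ⟨b, s, s.2, ?_⟩
    rw [IsScalarTower.algebraMap_apply B O F, ← map_mul, mul_comm, IsLocalization.mk'_spec,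
      ← IsScalarTower.algebraMap_apply]
  have hOW : ∀ x : O, algebraMap O F x ∈ W := by
    intro x
    obtain ⟨b, s, hs, hx⟩ := hfr x
    have hv := hs1 s (fun h => hs (hP𝔫 h))
    rw [← W.valuation_le_one_iff]
    have h2 : W.valuation (algebraMap B F s * algebraMap O F x) ≤ 1 := by
      rw [hx]; exact (W.valuation_le_one_iff _).2 (hBW _)
    rwa [map_mul, hv, one_mul] at h2
  let PO : Ideal O :=
    { carrier := {x | W.valuation (algebraMap O F x) < 1}
      add_mem' := fun {a b} ha hb => by
        simp only [Set.mem_ofPred_eq, map_add]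
        exact Valuation.map_add_lt _ ha hb
      zero_mem' := by simp
      smul_mem' := fun c x hx => by
        simp only [Set.mem_ofPred_eq, smul_eq_mul, map_mul]
        rw [mul_comm]
        exact mul_lt_of_lt_of_le_one hx ((W.valuation_le_one_iff _).2 (hOW c)) }
  have hPOW : ∀ x : O, x ∈ PO ↔ W.valuation (algebraMap O F x) < 1 := fun x => Iff.rfl
  have hPOp : PO.IsPrime := C.isPrime_of_mem hOW hPOW
  have hfracO : ∀ x ∈ W, ∃ a b : O, b ∉ PO ∧
      W.valuation (x * algebraMap O F b - algebraMap O F a) < 1 := by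
    intro x hx
    obtain ⟨a, b, hb, hab⟩ := hfrac x hx
    refine ⟨algebraMap B O a, algebraMap B O b, ?_, ?_⟩
    · rw [hPOW, ← IsScalarTower.algebraMap_apply, ← hP]; exact hb
    · rw [← IsScalarTower.algebraMap_apply, ← IsScalarTower.algebraMap_apply]; exact hab
  by_cases hmax : PO = maximalIdeal O
  · -- `O ⧸ PO` is a field
    have hval1 : ∀ x : O, x ∉ PO → W.valuation (algebraMap O F x) = 1 := by
      intro x hx
      refine le_antisymm ((W.valuation_le_one_iff _).2 (hOW _)) ?_
      by_contra hlt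
      rw [not_le, ← hPOW] at hlt
      exact hx hlt
    have hHv : W.valuation H = 1 := by
      have h1 : W.valuation (algebraMap O F u * H ^ m) = 1 := by
        have h2 : algebraMap O F u * H ^ m = 1 + (algebraMap O F u * H ^ m - 1) := by ring
        rw [h2]
        exact Valuation.map_one_add_of_lt _ hH
      rw [map_mul, a5_unit_val W hOW, one_mul, map_pow] at h1
      exact (pow_eq_one_iff.1 h1).resolve_right hm.ne'
    obtain ⟨α, β, hβ, hαβ⟩ := hfracO H ((W.valuation_le_one_iff _).1 hHv.le)
    have hβv := hval1 β hβ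
    have hβu : IsUnit β := by
      by_contra hnu
      exact hβ (hmax ▸ (hnu : β ∈ maximalIdeal O))
    have hαu : IsUnit α := by
      by_contra hnu
      have h1 : α ∈ PO := hmax ▸ (hnu : α ∈ maximalIdeal O)
      rw [hPOW] at h1
      have h2 : W.valuation (H * algebraMap O F β) < 1 := by
        have h3 : H * algebraMap O F β =
            (H * algebraMap O F β - algebraMap O F α) + algebraMap O F α := by ring
        rw [h3]
        exact Valuation.map_add_lt _ hαβ h1
      rw [map_mul, hHv, hβv, one_mul] at h2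
      exact lt_irrefl _ h2
    obtain ⟨βu, rfl⟩ := hβu
    obtain ⟨αu, rfl⟩ := hαu
    refine ⟨αu * βu⁻¹, ?_⟩
    have hβ0 : algebraMap O F βu ≠ 0 := by
      intro h
      rw [h] at hβv
      simp at hβv
    have h2 : algebraMap O F (↑βu⁻¹ : O) = (algebraMap O F βu)⁻¹ := by
      apply eq_inv_of_mul_eq_one_left
      rw [← map_mul, Units.inv_mul, map_one]
    have h3 : H - algebraMap O F ((αu * βu⁻¹ : Oˣ) : O) =
        (H * algebraMap O F βu - algebraMap O F αu) * (algebraMap O F βu)⁻¹ := by
      rw [Units.val_mul, map_mul, h2]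
      field_simp
    rw [h3, map_mul, map_inv₀, hβv, inv_one, mul_one]
    exact hαβ
  · have hnoeth : IsNoetherianRing O :=
      IsLocalization.isNoetherianRing 𝔫.primeCompl O inferInstance
    obtain ⟨t, ht𝔫, ht⟩ := hdvr
    have hD : IsDiscreteValuationRing (O ⧸ PO) := by
      refine a5_dvr_quot PO (t := algebraMap B O t) ?_ ?_ hmax
      · exact (IsLocalization.AtPrime.to_map_mem_maximal_iff O 𝔫 t).2 ht𝔫
      · intro x hx
        obtain ⟨b, s, rfl⟩ := IsLocalization.exists_mk'_eq 𝔫.primeCompl x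
        have hb : b ∈ 𝔫 := (IsLocalization.AtPrime.mk'_mem_maximal_iff O 𝔫 b s).1 hx
        obtain ⟨s', hs', y, hy⟩ := ht b hb
        obtain ⟨v, hv⟩ := IsLocalization.map_units O (⟨s', hs'⟩ : 𝔫.primeCompl)
        obtain ⟨v2, hv2⟩ := IsLocalization.map_units O s
        have hq : algebraMap B O (s' * b - t * y) ∈ PO := by
          rw [hPOW, ← IsScalarTower.algebraMap_apply]; exact (hP _).1 hy
        refine Submodule.mem_sup.2 ⟨(↑v⁻¹ * ↑v2⁻¹ : O) * algebraMap B O (s' * b - t * y),
          PO.mul_mem_left _ hq, algebraMap B O t * ((↑v⁻¹ * ↑v2⁻¹ : O) * algebraMap B O y),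
          Ideal.mem_span_singleton.2 ⟨_, rfl⟩, ?_⟩
        have h3 : algebraMap B O b = IsLocalization.mk' O b s * v2 := by
          rw [hv2, IsLocalization.mk'_spec]
        have hv' : algebraMap B O s' = v := hv.symm
        rw [map_sub, map_mul, map_mul, h3, hv']
        have e1 : (↑v⁻¹ : O) * v = 1 := Units.inv_mul v
        have e2 : (↑v2⁻¹ : O) * v2 = 1 := Units.inv_mul v2
        linear_combination (IsLocalization.mk' O b s) * ((↑v2⁻¹ : O) * v2) * e1 +
          (IsLocalization.mk' O b s) * e2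
    exact a5_exists_lift W PO hOW hPOW hD hfracO hm u hH

end Fermat.Agent.CARlib
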