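import Mathlib
import Fermat.Agent.UNI.Wrap
import Fermat.Agent.UNI.HDiv

/-!
# T-CAR, block A: interface (statements only; every `sorry` here is replaced by the file named in
the doc-string; NEVER import this file from a landed `SNN.lean`).
-/

set_option autoImplicit false

namespace Fermat.Agent.CARlib.AIface

open Polynomial IsLocalRing Fermat.Agent.ESlib Fermat.Agent.UNIlib

/-- (A1) `CAR/A1UFD.lean` (helper9). -/
theorem a1_ufd {O : Type*} [CommRing O] [IsDomain O] [IsNoetherianRing O] [IsLocalRing O]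
    {a t : O} (hm : maximalIdeal O = Ideal.span {a, t}) (ha : Prime a) :
    UniqueFactorizationMonoid O := by
  sorry

/-- (A2a) `CAR/A2Local.lean` (helper7): in a UFD, an element all of whose prime valuations are
divisible by `m` is a unit times an `m`-th power. -/
theorem a2_local {O F : Type*} [CommRing O] [IsDomain O] [UniqueFactorizationMonoid O] [Field F]
    [Algebra O F] [IsFractionRing O F] {m : ℕ} {g : F} (hg : g ≠ 0)
    (h : ∀ p : O, Prime p → ∃ h : F, h ≠ 0 ∧ ∃ x y : O, ¬ p ∣ x ∧ ¬ p ∣ y ∧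
      g * algebraMap O F y = h ^ m * algebraMap O F x) :
    ∃ H : F, H ≠ 0 ∧ ∃ u : Oˣ, g = algebraMap O F u * H ^ m := by
  sorry

/-- (A2b) `CAR/A2Glue.lean` (helper10): semilocal gluing. -/
theorem a2_glue {O F : Type*} [CommRing O] [IsDomain O] [IsIntegrallyClosed O] [Field F]
    [Algebra O F] [IsFractionRing O F] (hfin : {I : Ideal O | I.IsMaximal}.Finite)
    {m : ℕ} (hm : 0 < m) {g : F} (hg : g ≠ 0)
    (h : ∀ n : Ideal O, n.IsMaximal → ∃ H : F, H ≠ 0 ∧ ∃ b c : O, b ∉ n ∧ c ∉ n ∧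
      g * algebraMap O F c = H ^ m * algebraMap O F b) :
    ∃ H : F, H ≠ 0 ∧ ∃ u : Oˣ, g = algebraMap O F u * H ^ m := by
  sorry

/-- (A5a) `CAR/A5Frob.lean` (helper1): the Frobenius trick at one closed point. -/
theorem a5_frob {O F ι : Type*} [CommRing O] [IsLocalRing O] [Field F] [Algebra O F] [Finite ι]
    (W : ι → ValuationSubring F) (hOW : ∀ i x, algebraMap O F x ∈ W i)
    {π : F} (hπ0 : π ≠ 0) (hπ : ∀ i, (W i).valuation π < 1) {r : ℕ} (hr : r.Prime)
    (hrπ : ∀ i, (r : F) / π ∈ W i)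
    (he : ∀ i (ν : F), (W i).valuation ν < 1 → ν ^ r / π ∈ W i)
    (hcond : ∃ N : ℕ, ∀ a : ι → O, (∀ i, a i ∈ maximalIdeal O ^ N) →
      ∃ o : O, ∀ i, (W i).valuation (algebraMap O F (o - a i)) < 1)
    {m : ℕ} (hmr : Nat.Coprime m r) {H : F}
    {u : Oˣ} (hu : ∀ i, (algebraMap O F u * H ^ m - 1) / π ∈ W i)
    (hval : ∀ i, ∃ a ∈ maximalIdeal O, (W i).valuation (H - 1 - algebraMap O F a) < 1) :
    ∃ w : Oˣ, ∀ i, (H * algebraMap O F w - 1) / π ∈ W i := by
  sorry

/-- (A5b) `CAR/A5Cond.lean` (helper1 / helper14): the conductor. -/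
theorem a5_cond {O ι : Type*} [CommRing O] [IsLocalRing O] [Fintype ι] (P : ι → Ideal O) (N : ℕ)
    (h : ∀ i j, i ≠ j → maximalIdeal O ^ N ≤ P i ⊔ P j) (a : ι → O)
    (ha : ∀ i, a i ∈ maximalIdeal O ^ (N * Fintype.card ι)) : ∃ o : O, ∀ i, o - a i ∈ P i := by
  sorry

/-- (A5c) `CAR/A5At.lean` (helper14): from the local ring at `n` back to `B`; the branches which do
not pass through `n` are killed by a denominator. -/
theorem a5_at {B O F ι : Type*} [CommRing B] [Field F] [Algebra B F] (n : Ideal B) [n.IsPrime]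
    [CommRing O] [Algebra B O] [IsLocalization.AtPrime O n] [Algebra O F] [IsScalarTower B O F]
    [Finite ι] (W : ι → ValuationSubring F) (hBW : ∀ i x, algebraMap B F x ∈ W i) {π : F} {r : ℕ}
    (he : ∀ i (ν : F), (W i).valuation ν < 1 → ν ^ r / π ∈ W i)
    {Hi : F} (hH : ∀ i, Hi ∈ W i) (w : O)
    (hw : ∀ i, (∀ x : B, (W i).valuation (algebraMap B F x) < 1 → x ∈ n) →
      (Hi - algebraMap O F w) / π ∈ W i) :
    ∃ d o : B, d ∉ n ∧ ∀ i, (algebraMap B F d * Hi - algebraMap B F o) / π ∈ W i := by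
  sorry

section concrete

variable {R K F : Type*} [CommRing R] [IsDomain R] [IsDiscreteValuationRing R] [Field K]
  [Algebra R K] [IsFractionRing R K] [CharZero K] [Field F] [Algebra K F] [Algebra R F]
  [IsScalarTower R K F]

/-- (A2c) `CAR/A2LocPrin.lean` (helper10): GLUE in the chart `T`. -/
theorem a2_locPrin {π : R} (hπ : Irreducible π) {T : F} (hT : Transcendental K T)
    [FiniteDimensional (IntermediateField.adjoin K {T}) F] {m : ℕ} (hm : 0 < m) {g : F}
    (hg : MDiv K m g) (hg1 : PiInt π T g) (hg2 : PiInt π T g⁻¹)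
    (hufd : ∀ (n : Ideal (integralClosure (Algebra.adjoin R {T}) F)) [n.IsMaximal],
      (⟨algebraMap R F π, isIntegral_algebraMap (x := (⟨algebraMap R F π,
        Subalgebra.algebraMap_mem _ π⟩ : Algebra.adjoin R {T}))⟩ :
        integralClosure (Algebra.adjoin R {T}) F) ∈ n →
      UniqueFactorizationMonoid (Localization.AtPrime n)) :
    LocPrin π T g m := by
  sorry

/-- (A5d) `CAR/A5LocPow.lean` (helper9): from `LocPrin` data `f = u H ^ m` at `𝔪` and the local
statements `d H⁻¹ ∈ B + π C` (`d ∉ n`) at all the closed points `n` over `𝔪` to `LocPow` at `𝔪`. -/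
theorem a5_locPow {π : R} (hπ : Irreducible π) {T : F} (hT : Transcendental K T)
    {m : ℕ} {f H : F} (hH : H ≠ 0) (hf : PiInt π T ((f - 1) / algebraMap R F π))
    {𝔪 : Ideal R[X]} (h𝔪 : 𝔪.IsMaximal) (hπ𝔪 : C π ∈ 𝔪) {s : R[X]} (hs : s ∉ 𝔪)
    (h1 : IsIntegral (Algebra.adjoin R {T}) (aeval T s * (H ^ m / f)))
    (h2 : IsIntegral (Algebra.adjoin R {T}) (aeval T s * (f / H ^ m)))
    (hloc : ∀ n : Ideal (integralClosure (Algebra.adjoin R {T}) F), n.IsMaximal →
      (∀ p ∈ 𝔪, ∀ hp : IsIntegral (Algebra.adjoin R {T}) (aeval T p),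
        (⟨aeval T p, hp⟩ : integralClosure (Algebra.adjoin R {T}) F) ∈ n) →
      ∃ d o : integralClosure (Algebra.adjoin R {T}) F, d ∉ n ∧
        PiInt π T (((d : F) * H⁻¹ - (o : F)) / algebraMap R F π)) :
    ∃ G : F, PiInt π T ((G - 1) / algebraMap R F π) ∧
      ∃ s : R[X], s ∉ 𝔪 ∧ IsIntegral (Algebra.adjoin R {T}) (aeval T s * (f * G ^ m)) := by
  sorry

end concrete

end Fermat.Agent.CARlib.AIface
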