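import Mathlib

/-!
# T-CAR, block B, row B3: `S₁ = O₀[b]` (ideal theory + Nakayama)
-/

set_option autoImplicit false
set_option linter.unusedSectionVars false

open IsLocalRing Polynomial

namespace Fermat.Agent.CARlib.B3

variable {O₀ S₁ : Type*} [CommRing O₀] [IsLocalRing O₀] [CommRing S₁] [Algebra O₀ S₁]

/-- Nakayama for a subalgebra -/
theorem nak [Module.Finite O₀ S₁] (A : Subalgebra O₀ S₁)
    (h : ∀ x : S₁, ∃ n ∈ A, x - n ∈ Ideal.map (algebraMap O₀ S₁) (maximalIdeal O₀)) : A = ⊤ := by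
  have hfg : (⊤ : Submodule O₀ S₁).FG := Module.Finite.fg_top
  have hle : (⊤ : Submodule O₀ S₁) ≤
      Subalgebra.toSubmodule A ⊔ maximalIdeal O₀ • (⊤ : Submodule O₀ S₁) := by
    intro x _
    obtain ⟨n, hn, hx⟩ := h x
    rw [Ideal.smul_top_eq_map]
    have e : x = n + (x - n) := by ring
    rw [e]
    exact Submodule.add_mem_sup hn hx
  have h2 := Submodule.le_of_le_smul_of_le_jacobson_bot hfg
    (IsLocalRing.maximalIdeal_le_jacobson _) hle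
  rw [eq_top_iff]
  intro x _
  exact h2 (Submodule.mem_top : x ∈ (⊤ : Submodule O₀ S₁))

/-- iterate `x ≡ a + b y mod pV` -/
theorem iter {pV : Ideal S₁} {b : S₁}
    (hV : ∀ x : S₁, ∃ (a : O₀) (y : S₁), x - algebraMap O₀ S₁ a - b * y ∈ pV) (j : ℕ) (x : S₁) :
    ∃ n ∈ Algebra.adjoin O₀ {b}, ∃ y : S₁, x - n - b ^ j * y ∈ pV := by
  induction j with
  | zero => exact ⟨0, zero_mem _, x, by simp⟩
  | succ j ih =>
    obtain ⟨n, hn, y, hy⟩ := ih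
    obtain ⟨a, y', hy'⟩ := hV y
    have hb : b ∈ Algebra.adjoin O₀ {b} := Algebra.subset_adjoin rfl
    refine ⟨n + algebraMap O₀ S₁ a * b ^ j,
      add_mem hn (mul_mem (Subalgebra.algebraMap_mem _ a) (pow_mem hb j)), y', ?_⟩
    have e : x - (n + algebraMap O₀ S₁ a * b ^ j) - b ^ (j + 1) * y' =
        (x - n - b ^ j * y) + b ^ j * (y - algebraMap O₀ S₁ a - b * y') := by ring
    rw [e]
    exact pV.add_mem hy (pV.mul_mem_left _ hy')

theorem pow_sub_pow_mem {I : Ideal S₁} {x y : S₁} (h : x - y ∈ I) (n : ℕ) : x ^ n - y ^ n ∈ I := by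
  obtain ⟨c, hc⟩ := sub_dvd_pow_sub_pow x y n
  rw [hc]
  exact I.mul_mem_right _ h

/-- core of the ordinary case, `s` eliminated -/
theorem ord_core [Module.Finite O₀ S₁] {π t : O₀} (hm : maximalIdeal O₀ = Ideal.span {π, t})
    {pF pV : Ideal S₁} (hinf : pF ⊓ pV = Ideal.span {algebraMap O₀ S₁ π})
    (hF : ∀ x : S₁, ∃ a : O₀, x - algebraMap O₀ S₁ a ∈ pF) {b : S₁} {r : ℕ}
    (hV : ∀ x : S₁, ∃ (a : O₀) (y : S₁), x - algebraMap O₀ S₁ a - b * y ∈ pV)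
    (hs : b ^ r - algebraMap O₀ S₁ t ∈ pV) (hsup : pF ⊔ pV = ⊤)
    (hbF : b - 1 ∈ pF) : Algebra.adjoin O₀ {b} = ⊤ := by
  set J : Ideal S₁ := Ideal.map (algebraMap O₀ S₁) (maximalIdeal O₀) with hJ
  have hπJ : algebraMap O₀ S₁ π ∈ J := Ideal.mem_map_of_mem _ (by
    rw [hm]; exact Ideal.subset_span (by simp))
  have htJ : algebraMap O₀ S₁ t ∈ J := Ideal.mem_map_of_mem _ (by
    rw [hm]; exact Ideal.subset_span (by simp))
  have hinfJ : ∀ z : S₁, z ∈ pF → z ∈ pV → z ∈ J := by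
    intro z h1 h2
    have : z ∈ pF ⊓ pV := ⟨h1, h2⟩
    rw [hinf, Ideal.mem_span_singleton] at this
    obtain ⟨c, rfl⟩ := this
    exact J.mul_mem_right _ hπJ
  obtain ⟨e₁, he₁, e₂, he₂, he⟩ := Submodule.mem_sup.1 (hsup ▸ (Submodule.mem_top : (1 : S₁) ∈ ⊤))
  have hb : b ∈ Algebra.adjoin O₀ {b} := Algebra.subset_adjoin rfl
  have hb1 : b ^ r - 1 ∈ pF := by simpa using pow_sub_pow_mem hbF r
  -- `e₂ ≡ b ^ r mod J`
  have hE : b ^ r - e₂ ∈ J := by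
    have e : b ^ r - e₂ = ((b ^ r - algebraMap O₀ S₁ t) * e₁ + (b ^ r - 1) * e₂) +
        algebraMap O₀ S₁ t * e₁ + b ^ r * (1 - (e₁ + e₂)) := by ring
    rw [e, he, sub_self, mul_zero, add_zero]
    refine J.add_mem (hinfJ _ ?_ ?_) (J.mul_mem_right _ htJ)
    · exact pF.add_mem (pF.mul_mem_left _ he₁) (pF.mul_mem_right _ hb1)
    · exact pV.add_mem (pV.mul_mem_right _ hs) (pV.mul_mem_left _ he₂)
  apply nak
  intro x
  obtain ⟨a, ha⟩ := hF x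
  obtain ⟨n, hn, y, hy⟩ := iter hV r x
  refine ⟨algebraMap O₀ S₁ a * b ^ r + n * (1 - b ^ r),
    add_mem (mul_mem (Subalgebra.algebraMap_mem _ a) (pow_mem hb r))
      (mul_mem hn (sub_mem (one_mem _) (pow_mem hb r))), ?_⟩
  have hy2 : x - n - algebraMap O₀ S₁ t * y ∈ pV := by
    have e : x - n - algebraMap O₀ S₁ t * y =
        (x - n - b ^ r * y) + (b ^ r - algebraMap O₀ S₁ t) * y := by ring
    rw [e]
    exact pV.add_mem hy (pV.mul_mem_right _ hs)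
  have e : x - (algebraMap O₀ S₁ a * b ^ r + n * (1 - b ^ r)) =
      ((x - algebraMap O₀ S₁ a) * e₂ + (x - n - algebraMap O₀ S₁ t * y) * e₁) +
        algebraMap O₀ S₁ t * (y * e₁) + (b ^ r - e₂) * (n - algebraMap O₀ S₁ a) +
        (x - n) * (1 - (e₁ + e₂)) := by ring
  rw [e, he, sub_self, mul_zero, add_zero]
  refine J.add_mem (J.add_mem (hinfJ _ ?_ ?_) (J.mul_mem_right _ htJ)) (J.mul_mem_right _ hE)
  · exact pF.add_mem (pF.mul_mem_right _ ha) (pF.mul_mem_left _ he₁)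
  · exact pV.add_mem (pV.mul_mem_left _ he₂) (pV.mul_mem_right _ hy2)

/-- core of the node case, `s` eliminated -/
theorem node_core [Module.Finite O₀ S₁] {π t : O₀} (hm : maximalIdeal O₀ = Ideal.span {π, t})
    {pF pV : Ideal S₁} (hinf : pF ⊓ pV = Ideal.span {algebraMap O₀ S₁ π})
    (hF : ∀ x : S₁, ∃ a : O₀, x - algebraMap O₀ S₁ a ∈ pF) {b : S₁} {r : ℕ} (hr : 0 < r)
    (hV : ∀ x : S₁, ∃ (a : O₀) (y : S₁), x - algebraMap O₀ S₁ a - b * y ∈ pV)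
    (hs : b ^ r - algebraMap O₀ S₁ t ∈ pV) (hsup : pF ⊔ pV ≠ ⊤)
    (hbF : b ∈ pF) : Algebra.adjoin O₀ {b} = ⊤ := by
  set J : Ideal S₁ := Ideal.map (algebraMap O₀ S₁) (maximalIdeal O₀) with hJ
  have hπJ : algebraMap O₀ S₁ π ∈ J := Ideal.mem_map_of_mem _ (by
    rw [hm]; exact Ideal.subset_span (by simp))
  have htJ : algebraMap O₀ S₁ t ∈ J := Ideal.mem_map_of_mem _ (by
    rw [hm]; exact Ideal.subset_span (by simp))
  have hinfJ : ∀ z : S₁, z ∈ pF → z ∈ pV → z ∈ J := by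
    intro z h1 h2
    have : z ∈ pF ⊓ pV := ⟨h1, h2⟩
    rw [hinf, Ideal.mem_span_singleton] at this
    obtain ⟨c, rfl⟩ := this
    exact J.mul_mem_right _ hπJ
  have hπV : algebraMap O₀ S₁ π ∈ pV := by
    have : algebraMap O₀ S₁ π ∈ pF ⊓ pV := by
      rw [hinf]; exact Ideal.mem_span_singleton_self _
    exact this.2
  have hb : b ∈ Algebra.adjoin O₀ {b} := Algebra.subset_adjoin rfl
  have hbr : b ^ r ∈ pF := Ideal.pow_mem_of_mem _ hbF r hr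
  -- (i)
  have h1 : ∀ x : S₁, ∃ (a : O₀) (y : S₁), x - algebraMap O₀ S₁ a - b * y ∈ J := by
    intro x
    obtain ⟨a, y, hv⟩ := hV x
    obtain ⟨a', hf⟩ := hF (x - algebraMap O₀ S₁ a - b * y)
    have ha' : a' ∈ maximalIdeal O₀ := by
      by_contra hu
      have hu' : IsUnit a' := by
        rwa [mem_maximalIdeal, mem_nonunits_iff, not_not] at hu
      apply hsup
      rw [Ideal.eq_top_iff_one]
      have h3 : algebraMap O₀ S₁ a' ∈ pF ⊔ pV := by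
        have e : algebraMap O₀ S₁ a' = -(x - algebraMap O₀ S₁ a - b * y - algebraMap O₀ S₁ a') +
            (x - algebraMap O₀ S₁ a - b * y) := by ring
        rw [e]
        exact Submodule.add_mem_sup (pF.neg_mem hf) hv
      exact (Ideal.eq_top_of_isUnit_mem _ h3 (hu'.map _)) ▸ Submodule.mem_top
    rw [hm, Ideal.mem_span_pair] at ha'
    obtain ⟨a₁, a₂, rfl⟩ := ha'
    obtain ⟨r', rfl⟩ : ∃ r', r = r' + 1 := ⟨r - 1, by omega⟩
    refine ⟨a, y - b ^ r' * algebraMap O₀ S₁ a₂, ?_⟩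
    set v := x - algebraMap O₀ S₁ a - b * y with hvdef
    have e : x - algebraMap O₀ S₁ a - b * (y - b ^ r' * algebraMap O₀ S₁ a₂) =
        (v - algebraMap O₀ S₁ (a₁ * π + a₂ * t) + b ^ (r' + 1) * algebraMap O₀ S₁ a₂) +
          (algebraMap O₀ S₁ π * algebraMap O₀ S₁ a₁ + algebraMap O₀ S₁ t * algebraMap O₀ S₁ a₂) := by
      rw [hvdef, map_add, map_mul, map_mul]; ring
    rw [e]
    refine J.add_mem (hinfJ _ ?_ ?_)
      (J.add_mem (J.mul_mem_right _ hπJ) (J.mul_mem_right _ htJ))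
    · exact pF.add_mem hf (pF.mul_mem_right _ hbr)
    · have e2 : v - algebraMap O₀ S₁ (a₁ * π + a₂ * t) + b ^ (r' + 1) * algebraMap O₀ S₁ a₂ =
          v - algebraMap O₀ S₁ π * algebraMap O₀ S₁ a₁ +
            (b ^ (r' + 1) - algebraMap O₀ S₁ t) * algebraMap O₀ S₁ a₂ := by
        rw [map_add, map_mul, map_mul]; ring
      rw [e2]
      exact pV.add_mem (pV.sub_mem hv (pV.mul_mem_right _ hπV)) (pV.mul_mem_right _ hs)
  -- (ii)
  have h2 : b ^ (r + 1) ∈ J := by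
    have e : b ^ (r + 1) = (b ^ r - algebraMap O₀ S₁ t) * b + algebraMap O₀ S₁ t * b := by ring
    rw [e]
    refine J.add_mem (hinfJ _ (pF.mul_mem_left _ hbF) (pV.mul_mem_right _ hs))
      (J.mul_mem_right _ htJ)
  -- (iii)
  apply nak
  intro x
  obtain ⟨n, hn, y, hy⟩ := iter h1 (r + 1) x
  refine ⟨n, hn, ?_⟩
  have e : x - n = (x - n - b ^ (r + 1) * y) + b ^ (r + 1) * y := by ring
  rw [e]
  exact J.add_mem hy (J.mul_mem_right _ h2)

/-- replace `s` by `b` in `hV` -/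
theorem hV_of {pV : Ideal S₁} {s b : S₁}
    (hV : ∀ x : S₁, ∃ (a : O₀) (y : S₁), x - algebraMap O₀ S₁ a - s * y ∈ pV)
    (hbV : b - s ∈ pV) (x : S₁) :
    ∃ (a : O₀) (y : S₁), x - algebraMap O₀ S₁ a - b * y ∈ pV := by
  obtain ⟨a, y, h⟩ := hV x
  refine ⟨a, y, ?_⟩
  have e : x - algebraMap O₀ S₁ a - b * y = (x - algebraMap O₀ S₁ a - s * y) - (b - s) * y := by
    ring
  rw [e]
  exact pV.sub_mem h (pV.mul_mem_right _ hbV)

theorem hs_of {pV : Ideal S₁} {s b : S₁} {t : O₀} {r : ℕ}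
    (hs : s ^ r - algebraMap O₀ S₁ t ∈ pV) (hbV : b - s ∈ pV) :
    b ^ r - algebraMap O₀ S₁ t ∈ pV := by
  have e : b ^ r - algebraMap O₀ S₁ t = (b ^ r - s ^ r) + (s ^ r - algebraMap O₀ S₁ t) := by ring
  rw [e]
  exact pV.add_mem (pow_sub_pow_mem hbV r) hs

/-- **B3, ordinary point**: `b = (1, s)` -/
theorem b3_adjoin_eq_top_ord {O₀ S₁ : Type*} [CommRing O₀] [IsLocalRing O₀] [CommRing S₁]
    [Algebra O₀ S₁] [Module.Finite O₀ S₁] {π t : O₀} (hm : maximalIdeal O₀ = Ideal.span {π, t})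
    {pF pV : Ideal S₁} (hinf : pF ⊓ pV = Ideal.span {algebraMap O₀ S₁ π})
    (hF : ∀ x : S₁, ∃ a : O₀, x - algebraMap O₀ S₁ a ∈ pF) {s : S₁} {r : ℕ} (_hr : 0 < r)
    (hV : ∀ x : S₁, ∃ (a : O₀) (y : S₁), x - algebraMap O₀ S₁ a - s * y ∈ pV)
    (hs : s ^ r - algebraMap O₀ S₁ t ∈ pV) (hsup : pF ⊔ pV = ⊤)
    {b : S₁} (hbF : b - 1 ∈ pF) (hbV : b - s ∈ pV) : Algebra.adjoin O₀ {b} = ⊤ :=
  ord_core hm hinf hF (hV_of hV hbV) (hs_of hs hbV) hsup hbF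

/-- **B3, node**: `b = (0, s)` -/
theorem b3_adjoin_eq_top_node {O₀ S₁ : Type*} [CommRing O₀] [IsLocalRing O₀] [CommRing S₁]
    [Algebra O₀ S₁] [Module.Finite O₀ S₁] {π t : O₀} (hm : maximalIdeal O₀ = Ideal.span {π, t})
    {pF pV : Ideal S₁} (hinf : pF ⊓ pV = Ideal.span {algebraMap O₀ S₁ π})
    (hF : ∀ x : S₁, ∃ a : O₀, x - algebraMap O₀ S₁ a ∈ pF) {s : S₁} {r : ℕ} (hr : 0 < r)
    (hV : ∀ x : S₁, ∃ (a : O₀) (y : S₁), x - algebraMap O₀ S₁ a - s * y ∈ pV)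
    (hs : s ^ r - algebraMap O₀ S₁ t ∈ pV) (hsup : pF ⊔ pV ≠ ⊤)
    {b : S₁} (hbF : b ∈ pF) (hbV : b - s ∈ pV) : Algebra.adjoin O₀ {b} = ⊤ :=
  node_core hm hinf hF hr (hV_of hV hbV) (hs_of hs hbV) hsup hbF

end Fermat.Agent.CARlib.B3
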