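import Mathlib

/-!
# T-CAR, block B: the structure `BData` (level 1, local structure at a closed point `z'` of `X_0`)

`O₀` = local ring of `B_0` at `z'` (`𝔪 = (π, t)`, `π` prime), `S₁` = integral closure of `O₀` in `F₁`,
`VF`, `VV` the two valuation rings of `F₁` over the Gauss valuation (both with uniformiser `π`),
`pF = S₁ ∩ π VF`, `pV = S₁ ∩ π VV`, `s ∈ S₁` with `s ^ r ≡ t mod pV`.
-/

set_option autoImplicit false

open IsLocalRing Polynomial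

namespace Fermat.Agent.CARlib

/-- **level 1, local structure at `z'`** (what T-UNI gives: t3, t5, t6, saturation, `J` radical) -/
structure BData (O₀ S₁ F₁ : Type*) [CommRing O₀] [IsLocalRing O₀] [CommRing S₁] [Algebra O₀ S₁]
    [Field F₁] [Algebra S₁ F₁] (π t : O₀) (s : S₁) (pF pV : Ideal S₁)
    (VF VV : ValuationSubring F₁) (r : ℕ) : Prop where
  r_pos : 0 < r
  max_eq : maximalIdeal O₀ = Ideal.span {π, t}
  prime_pi : Prime π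
  mem_VF : ∀ x : S₁, algebraMap S₁ F₁ x ∈ VF
  mem_VV : ∀ x : S₁, algebraMap S₁ F₁ x ∈ VV
  mem_pF : ∀ x : S₁, x ∈ pF ↔ algebraMap S₁ F₁ x / algebraMap S₁ F₁ (algebraMap O₀ S₁ π) ∈ VF
  mem_pV : ∀ x : S₁, x ∈ pV ↔ algebraMap S₁ F₁ x / algebraMap S₁ F₁ (algebraMap O₀ S₁ π) ∈ VV
  /-- `π` generates the maximal ideal of `VF` -/
  unif_VF : ∀ z ∈ VF, z⁻¹ ∈ VF ∨ z / algebraMap S₁ F₁ (algebraMap O₀ S₁ π) ∈ VF
  unif_VV : ∀ z ∈ VV, z⁻¹ ∈ VV ∨ z / algebraMap S₁ F₁ (algebraMap O₀ S₁ π) ∈ VV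
  pi_VF : (algebraMap S₁ F₁ (algebraMap O₀ S₁ π))⁻¹ ∉ VF
  pi_VV : (algebraMap S₁ F₁ (algebraMap O₀ S₁ π))⁻¹ ∉ VV
  /-- saturation: `π S₁ = pF ∩ pV` -/
  sat : ∀ z : F₁, z ∈ VF → z ∈ VV →
    (∃ x : S₁, algebraMap S₁ F₁ (algebraMap O₀ S₁ π) * z = algebraMap S₁ F₁ x) →
    ∃ y : S₁, z = algebraMap S₁ F₁ y
  /-- `S₁ / pF = O₀ / π` -/
  surjF : ∀ x : S₁, ∃ a : O₀, x - algebraMap O₀ S₁ a ∈ pF
  /-- `S₁ / pV` is local with maximal ideal `(s)` and residue field that of `O₀` -/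
  surjV : ∀ x : S₁, ∃ (a : O₀) (y : S₁), x - algebraMap O₀ S₁ a - s * y ∈ pV
  s_pow : s ^ r - algebraMap O₀ S₁ t ∈ pV
  /-- transversality -/
  rad : (pF ⊔ pV).IsRadical

end Fermat.Agent.CARlib
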