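import Mathlib
import Fermat.Agent.CAR.BDefs

/-!
# T-CAR, block B, row B4: Euler's different formula for two generators of a monogenic order
-/

set_option autoImplicit false
set_option linter.unusedSectionVars false

open IsLocalRing Polynomial
open scoped Pointwise

namespace Fermat.Agent.CARlib.B4

/-- **B4, abstract Euler**: two generators of the same monogenic order have associated
"differents" (`traceForm_dualSubmodule_adjoin`) -/
theorem b4_euler {A K L : Type*} [CommRing A] [IsDomain A] [IsIntegrallyClosed A] [Field K]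
    [Algebra A K] [IsFractionRing A K] [Field L] [Algebra K L] [Algebra A L] [IsScalarTower A K L]
    [FiniteDimensional K L] [Algebra.IsSeparable K L] {x y : L} (hx : IsIntegral A x)
    (hy : IsIntegral A y) (hKx : Algebra.adjoin K {x} = ⊤) (hKy : Algebra.adjoin K {y} = ⊤)
    (hxy : Algebra.adjoin A {x} = Algebra.adjoin A {y}) :
    ∃ u ∈ Algebra.adjoin A {x}, ∃ u' ∈ Algebra.adjoin A {x}, u * u' = 1 ∧
      aeval y (derivative (minpoly K y)) = u * aeval x (derivative (minpoly K x)) := by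
  have h1 := traceForm_dualSubmodule_adjoin A K hKx hx
  have h2 := traceForm_dualSubmodule_adjoin A K hKy hy
  rw [← hxy, h1] at h2
  set dx : L := aeval x (derivative (minpoly K x)) with hdx
  set dy : L := aeval y (derivative (minpoly K y)) with hdy
  have hdx0 : dx ≠ 0 := by
    have hs : (minpoly K x).Separable := Algebra.IsSeparable.isSeparable K x
    exact hs.aeval_derivative_ne_zero (minpoly.aeval K x)
  have hdy0 : dy ≠ 0 := by
    have hs : (minpoly K y).Separable := Algebra.IsSeparable.isSeparable K y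
    exact hs.aeval_derivative_ne_zero (minpoly.aeval K y)
  have hone : (1 : L) ∈ Subalgebra.toSubmodule (Algebra.adjoin A {x}) :=
    (Algebra.adjoin A {x}).one_mem
  have m1 : dx⁻¹ • (1 : L) ∈ dy⁻¹ • Subalgebra.toSubmodule (Algebra.adjoin A {x}) := by
    rw [← h2]
    exact Submodule.smul_mem_pointwise_smul _ _ _ hone
  have m2 : dy⁻¹ • (1 : L) ∈ dx⁻¹ • Subalgebra.toSubmodule (Algebra.adjoin A {x}) := by
    rw [h2]
    exact Submodule.smul_mem_pointwise_smul _ _ _ hone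
  obtain ⟨u, hu, hu1⟩ := m1
  obtain ⟨u', hu', hu1'⟩ := m2
  simp only [smul_eq_mul, mul_one] at hu1 hu1'
  have e1 : dy⁻¹ * u = dx⁻¹ := hu1
  have e2 : dx⁻¹ * u' = dy⁻¹ := hu1'
  refine ⟨u, hu, u', hu', ?_, ?_⟩
  · have : dy⁻¹ * (u * u') = dy⁻¹ * 1 := by
      rw [← mul_assoc, e1, e2, mul_one]
    exact mul_left_cancel₀ (inv_ne_zero hdy0) this
  · have : u = dy * dx⁻¹ := by
      rw [← e1, ← mul_assoc, mul_inv_cancel₀ hdy0, one_mul]
    rw [this, mul_assoc, inv_mul_cancel₀ hdx0, mul_one]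


section B45

variable {O₀ S₁ F₀ F₁ : Type*} [CommRing O₀] [IsDomain O₀] [IsLocalRing O₀] [IsNoetherianRing O₀]
  [IsIntegrallyClosed O₀] [CommRing S₁] [IsDomain S₁] [Algebra O₀ S₁] [Module.Finite O₀ S₁]
  [Field F₀] [Algebra O₀ F₀] [IsFractionRing O₀ F₀]
  [Field F₁] [Algebra S₁ F₁] [IsFractionRing S₁ F₁] [Algebra F₀ F₁] [Algebra O₀ F₁]
  [IsScalarTower O₀ S₁ F₁] [IsScalarTower O₀ F₀ F₁] [FiniteDimensional F₀ F₁]
  [Algebra.IsSeparable F₀ F₁] [IsIntegralClosure S₁ O₀ F₁]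
  {π t : O₀} {s : S₁} {pF pV : Ideal S₁} {VF VV : ValuationSubring F₁} {r : ℕ}

/-- iterated saturation -/
theorem b4_sat_pow (D : BData O₀ S₁ F₁ π t s pF pV VF VV r) (k : ℕ) :
    ∀ z : F₁, z ∈ VF → z ∈ VV →
    (∃ x : S₁, algebraMap O₀ F₁ π ^ k * z = algebraMap S₁ F₁ x) →
    ∃ y : S₁, z = algebraMap S₁ F₁ y := by
  induction k with
  | zero =>
    rintro z - - ⟨x, hx⟩
    exact ⟨x, by rw [← hx, pow_zero, one_mul]⟩
  | succ k ih =>
    rintro z hF hV ⟨x, hx⟩
    refine ih z hF hV ?_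
    have e : algebraMap O₀ F₁ π = algebraMap S₁ F₁ (algebraMap O₀ S₁ π) :=
      IsScalarTower.algebraMap_apply O₀ S₁ F₁ π
    obtain ⟨y, hy⟩ := D.sat (algebraMap O₀ F₁ π ^ k * z)
      (VF.mul_mem _ _ (VF.toSubring.pow_mem (by rw [e]; exact D.mem_VF _) k) hF)
      (VV.mul_mem _ _ (VV.toSubring.pow_mem (by rw [e]; exact D.mem_VV _) k) hV)
      ⟨x, by rw [← hx, pow_succ', ← e]; ring⟩
    exact ⟨y, hy⟩

/-- `pF ∩ O₀ = (π)` -/
theorem b4_dvd_of_div_mem (D : BData O₀ S₁ F₁ π t s pF pV VF VV r)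
    (hFV : ∀ c : F₀, algebraMap F₀ F₁ c ∈ VF → algebraMap F₀ F₁ c ∈ VV) {a : O₀}
    (ha : algebraMap O₀ F₁ a / algebraMap O₀ F₁ π ∈ VF) : π ∣ a := by
  have hπ0 : π ≠ 0 := D.prime_pi.ne_zero
  have hπF₀ : algebraMap O₀ F₀ π ≠ 0 := by
    rwa [Ne, map_eq_zero_iff _ (IsFractionRing.injective O₀ F₀)]
  have hπF₁ : algebraMap O₀ F₁ π ≠ 0 := by
    rw [IsScalarTower.algebraMap_apply O₀ F₀ F₁]
    simpa using hπF₀
  set c : F₀ := algebraMap O₀ F₀ a / algebraMap O₀ F₀ π with hc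
  have hcz : algebraMap F₀ F₁ c = algebraMap O₀ F₁ a / algebraMap O₀ F₁ π := by
    rw [hc, map_div₀, ← IsScalarTower.algebraMap_apply, ← IsScalarTower.algebraMap_apply]
  have hV : algebraMap O₀ F₁ a / algebraMap O₀ F₁ π ∈ VV := by
    rw [← hcz]
    exact hFV c (by rw [hcz]; exact ha)
  obtain ⟨y, hy⟩ := b4_sat_pow D 1 _ ha hV ⟨algebraMap O₀ S₁ a, by
    rw [pow_one, ← IsScalarTower.algebraMap_apply O₀ S₁ F₁]
    field_simp⟩
  have hyint : IsIntegral O₀ y := Algebra.IsIntegral.isIntegral y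
  have h1 : IsIntegral O₀ (algebraMap F₀ F₁ c) := by
    rw [hcz, hy]
    exact hyint.algebraMap
  have h2 : IsIntegral O₀ c := (isIntegral_algebraMap_iff (algebraMap F₀ F₁).injective).1 h1
  obtain ⟨a', ha'⟩ := IsIntegrallyClosed.isIntegral_iff.1 h2
  refine ⟨a', ?_⟩
  apply IsFractionRing.injective O₀ F₀
  rw [map_mul, ha', hc]
  field_simp


/-- every element of `F₁` has a denominator in `O₀` -/
theorem b4_exists_denom (_h : FiniteDimensional F₀ F₁) (z : F₁) :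
    ∃ d : O₀, d ≠ 0 ∧ ∃ x : S₁, algebraMap O₀ F₁ d * z = algebraMap S₁ F₁ x := by
  have halg : IsAlgebraic O₀ z :=
    (IsFractionRing.isAlgebraic_iff O₀ F₀ F₁).2 (Algebra.IsAlgebraic.isAlgebraic z)
  obtain ⟨d, hd0, hd⟩ := halg.exists_integral_multiple
  obtain ⟨x, hx⟩ := (IsIntegralClosure.isIntegral_iff (A := S₁)).1 hd
  exact ⟨d, hd0, x, by rw [hx, Algebra.smul_def]⟩

/-- clearing denominators: `z ∈ VF ∩ VV` has a denominator in `O₀ ∖ (π)` -/
theorem b4_exists_denom_unit (_h : FiniteDimensional F₀ F₁)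
    (D : BData O₀ S₁ F₁ π t s pF pV VF VV r) {z : F₁} (hF : z ∈ VF) (hV : z ∈ VV) :
    ∃ d : O₀, ¬ π ∣ d ∧ ∃ x : S₁, algebraMap O₀ F₁ d * z = algebraMap S₁ F₁ x := by
  obtain ⟨d, hd0, x, hx⟩ := b4_exists_denom (O₀ := O₀) (S₁ := S₁) (F₀ := F₀) inferInstance z
  have hfin : FiniteMultiplicity π d := FiniteMultiplicity.of_not_isUnit D.prime_pi.not_isUnit hd0
  obtain ⟨d', hd', hnd⟩ := hfin.exists_eq_pow_mul_and_not_dvd
  refine ⟨d', hnd, ?_⟩
  have e : ∀ a : O₀, algebraMap O₀ F₁ a = algebraMap S₁ F₁ (algebraMap O₀ S₁ a) :=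
    IsScalarTower.algebraMap_apply O₀ S₁ F₁
  obtain ⟨y, hy⟩ := b4_sat_pow D (multiplicity π d) (algebraMap O₀ F₁ d' * z)
    (VF.mul_mem _ _ (by rw [e]; exact D.mem_VF _) hF)
    (VV.mul_mem _ _ (by rw [e]; exact D.mem_VV _) hV)
    ⟨x, by rw [← hx, ← mul_assoc, ← map_pow, ← map_mul, ← hd']⟩
  exact ⟨y, hy⟩


/-- **B4**: `θ = g'(b)` has `VF(θ) = 0`, `VV(θ) = 1`, by comparison with a generator `y` (`= j_r`) of
`C₁ = VF ∩ VV` over `calV = VF ∩ F₀` for which this is known (DIFF).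
(`hFV`: `VF` and `VV` lie over the same valuation ring of `F₀`.) -/
theorem b4_theta (D : BData O₀ S₁ F₁ π t s pF pV VF VV r) {b : S₁}
    (hb : Algebra.adjoin O₀ {b} = ⊤)
    (hFV : ∀ c : F₀, algebraMap F₀ F₁ c ∈ VF → algebraMap F₀ F₁ c ∈ VV)
    {y : F₁} (hyF : y ∈ VF) (hyV : y ∈ VV)
    (hgen : ∀ z ∈ VF, z ∈ VV → ∃ P : F₀[X], (∀ i, algebraMap F₀ F₁ (P.coeff i) ∈ VF) ∧
      aeval y P = z)
    (hdF : (aeval y (derivative (minpoly F₀ y)))⁻¹ ∈ VF)
    (hdV : aeval y (derivative (minpoly F₀ y)) / algebraMap O₀ F₁ π ∈ VV)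
    (hdV' : algebraMap O₀ F₁ π / aeval y (derivative (minpoly F₀ y)) ∈ VV) :
    (algebraMap S₁ F₁ (aeval b (derivative (minpoly O₀ b))))⁻¹ ∈ VF ∧
    algebraMap S₁ F₁ (aeval b (derivative (minpoly O₀ b))) / algebraMap O₀ F₁ π ∈ VV ∧
    algebraMap O₀ F₁ π / algebraMap S₁ F₁ (aeval b (derivative (minpoly O₀ b))) ∈ VV := by
  classical
  let calV : ValuationSubring F₀ := VF.comap (algebraMap F₀ F₁)
  let algV : Algebra calV F₁ := ((algebraMap F₀ F₁).comp (algebraMap calV F₀)).toAlgebra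
  have : IsScalarTower calV F₀ F₁ := IsScalarTower.of_algebraMap_eq fun _ => rfl
  set b' : F₁ := algebraMap S₁ F₁ b with hb'
  have e : ∀ a : O₀, algebraMap O₀ F₁ a = algebraMap S₁ F₁ (algebraMap O₀ S₁ a) :=
    IsScalarTower.algebraMap_apply O₀ S₁ F₁
  have e0 : ∀ a : O₀, algebraMap O₀ F₁ a = algebraMap F₀ F₁ (algebraMap O₀ F₀ a) :=
    IsScalarTower.algebraMap_apply O₀ F₀ F₁
  have hcalF : ∀ c : calV, algebraMap calV F₁ c ∈ VF := fun c => c.2
  have hcalV : ∀ c : calV, algebraMap calV F₁ c ∈ VV := fun c => hFV c.1 c.2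
  have hOcal : ∀ a : O₀, algebraMap O₀ F₀ a ∈ calV := by
    intro a
    show algebraMap F₀ F₁ (algebraMap O₀ F₀ a) ∈ VF
    rw [← e0, e]
    exact D.mem_VF _
  -- `S₁ ⊆ calV[b']`
  have L1 : ∀ x : S₁, algebraMap S₁ F₁ x ∈ Algebra.adjoin calV {b'} := by
    intro x
    have hx : x ∈ Algebra.adjoin O₀ {b} := by rw [hb]; exact Algebra.mem_top
    induction hx using Algebra.adjoin_induction with
    | mem x hx =>
      rw [Set.mem_singleton_iff] at hx
      rw [hx]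
      exact Algebra.subset_adjoin (Set.mem_singleton _)
    | algebraMap a =>
      have : algebraMap S₁ F₁ (algebraMap O₀ S₁ a) =
          algebraMap calV F₁ ⟨algebraMap O₀ F₀ a, hOcal a⟩ := by
        rw [← e, e0]
        rfl
      rw [this]
      exact Subalgebra.algebraMap_mem _ _
    | add x y _ _ hx hy =>
      rw [map_add]
      exact Subalgebra.add_mem _ hx hy
    | mul x y _ _ hx hy =>
      rw [map_mul]
      exact Subalgebra.mul_mem _ hx hy
  -- `VF ∩ VV ⊆ calV[b']`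
  have L2 : ∀ z : F₁, z ∈ VF → z ∈ VV → z ∈ Algebra.adjoin calV {b'} := by
    intro z hF hV
    obtain ⟨d, hd, x, hx⟩ := b4_exists_denom_unit (F₀ := F₀) inferInstance D hF hV
    have hd0 : d ≠ 0 := by
      rintro rfl
      exact hd (dvd_zero _)
    have hdF₀ : algebraMap O₀ F₀ d ≠ 0 := by
      rwa [Ne, map_eq_zero_iff _ (IsFractionRing.injective O₀ F₀)]
    have hdinv : (algebraMap O₀ F₀ d)⁻¹ ∈ calV := by
      show algebraMap F₀ F₁ (algebraMap O₀ F₀ d)⁻¹ ∈ VF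
      rw [map_inv₀, ← e0]
      rcases D.unif_VF (algebraMap O₀ F₁ d) (by rw [e]; exact D.mem_VF _) with h | h
      · exact h
      · rw [← e] at h
        exact absurd (b4_dvd_of_div_mem D hFV h) hd
    have hz : z = algebraMap calV F₁ ⟨(algebraMap O₀ F₀ d)⁻¹, hdinv⟩ * algebraMap S₁ F₁ x := by
      rw [← hx]
      show z = algebraMap F₀ F₁ (algebraMap O₀ F₀ d)⁻¹ * _
      rw [map_inv₀, ← e0, ← mul_assoc, inv_mul_cancel₀, one_mul]
      rw [e0]
      simpa using hdF₀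
    rw [hz]
    exact Subalgebra.mul_mem _ (Subalgebra.algebraMap_mem _ _) (L1 x)
  -- `calV[b'] ⊆ VF ∩ VV`
  have L3 : ∀ z ∈ Algebra.adjoin calV {b'}, z ∈ VF ∧ z ∈ VV := by
    intro z hz
    induction hz using Algebra.adjoin_induction with
    | mem x hx =>
      rw [Set.mem_singleton_iff] at hx
      rw [hx]
      exact ⟨D.mem_VF _, D.mem_VV _⟩
    | algebraMap a => exact ⟨hcalF a, hcalV a⟩
    | add x y _ _ hx hy => exact ⟨VF.add_mem _ _ hx.1 hy.1, VV.add_mem _ _ hx.2 hy.2⟩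
    | mul x y _ _ hx hy => exact ⟨VF.mul_mem _ _ hx.1 hy.1, VV.mul_mem _ _ hx.2 hy.2⟩
  -- integrality
  have hbint : IsIntegral O₀ b := Algebra.IsIntegral.isIntegral b
  have hb'int : IsIntegral calV b' := by
    let ι : O₀ →+* calV := (algebraMap O₀ F₀).codRestrict calV.toSubring hOcal
    refine ⟨(minpoly O₀ b).map ι, (minpoly.monic hbint).map _, ?_⟩
    rw [eval₂_map]
    have hcomp : (algebraMap calV F₁).comp ι = (algebraMap S₁ F₁).comp (algebraMap O₀ S₁) := by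
      refine RingHom.ext fun a => ?_
      show algebraMap F₀ F₁ (algebraMap O₀ F₀ a) = _
      rw [← e0, e]
      rfl
    rw [hcomp, ← hom_eval₂, ← aeval_def, minpoly.aeval, map_zero]
  have hyint : IsIntegral calV y := adjoin_le_integralClosure hb'int (L2 y hyF hyV)
  -- polynomials in `y`
  have L4 : ∀ z : F₁, z ∈ VF → z ∈ VV → z ∈ Algebra.adjoin calV {y} := by
    intro z hF hV
    obtain ⟨P, hP, rfl⟩ := hgen z hF hV
    rw [aeval_eq_sum_range]
    refine Subalgebra.sum_mem _ fun i _ => ?_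
    have : P.coeff i • y ^ i = algebraMap calV F₁ ⟨P.coeff i, hP i⟩ * y ^ i := by
      rw [Algebra.smul_def]
      rfl
    rw [this]
    exact Subalgebra.mul_mem _ (Subalgebra.algebraMap_mem _ _)
      (Subalgebra.pow_mem _ (Algebra.subset_adjoin (Set.mem_singleton _)) i)
  have hxy : Algebra.adjoin calV {b'} = Algebra.adjoin calV {y} := by
    apply le_antisymm
    · refine Algebra.adjoin_le ?_
      rintro _ rfl
      exact L4 _ (D.mem_VF _) (D.mem_VV _)
    · refine Algebra.adjoin_le ?_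
      rintro _ rfl
      exact L2 _ hyF hyV
  have hle : ∀ w : F₁, ∀ z ∈ Algebra.adjoin calV {w}, z ∈ Algebra.adjoin F₀ {w} := by
    intro w z hz
    have : Algebra.adjoin calV {w} ≤ (Algebra.adjoin F₀ {w}).restrictScalars calV :=
      Algebra.adjoin_le (by
        rintro _ rfl
        exact Algebra.subset_adjoin (Set.mem_singleton _))
    exact this hz
  have htop : ∀ w : F₁, (∀ x : S₁, algebraMap S₁ F₁ x ∈ Algebra.adjoin calV {w}) →
      Algebra.adjoin F₀ {w} = ⊤ := by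
    intro w hw
    rw [eq_top_iff]
    intro z _
    obtain ⟨d, hd0, x, hx⟩ := b4_exists_denom (O₀ := O₀) (S₁ := S₁) (F₀ := F₀) inferInstance z
    have hdF₀ : algebraMap O₀ F₀ d ≠ 0 := by
      rwa [Ne, map_eq_zero_iff _ (IsFractionRing.injective O₀ F₀)]
    have hz : z = algebraMap F₀ F₁ (algebraMap O₀ F₀ d)⁻¹ * algebraMap S₁ F₁ x := by
      rw [← hx, map_inv₀, ← e0, ← mul_assoc, inv_mul_cancel₀, one_mul]
      rw [e0]
      simpa using hdF₀
    rw [hz]
    exact Subalgebra.mul_mem _ (Subalgebra.algebraMap_mem _ _) (hle w _ (hw x))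
  have hKx : Algebra.adjoin F₀ {b'} = ⊤ := htop b' L1
  have hKy : Algebra.adjoin F₀ {y} = ⊤ := htop y fun x => hxy ▸ L1 x
  obtain ⟨u, hu, u', hu', huu, hE⟩ := b4_euler (A := calV) (K := F₀) (L := F₁) hb'int hyint hKx hKy hxy
  -- the minimal polynomial of `b`
  have hmin : minpoly F₀ b' = (minpoly O₀ b).map (algebraMap O₀ F₀) :=
    minpoly.isIntegrallyClosed_eq_field_fractions F₀ F₁ hbint
  have hθ : algebraMap S₁ F₁ (aeval b (derivative (minpoly O₀ b))) =
      aeval b' (derivative (minpoly F₀ b')) := by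
    rw [hmin, derivative_map, aeval_map_algebraMap, hb', aeval_algebraMap_apply]
  rw [hθ]
  set dx : F₁ := aeval b' (derivative (minpoly F₀ b')) with hdx
  set dy : F₁ := aeval y (derivative (minpoly F₀ y)) with hdy
  have hdx' : dx = u' * dy := by
    rw [hE, ← mul_assoc, mul_comm u' u, huu, one_mul]
  have hu0 : u ≠ 0 := left_ne_zero_of_mul_eq_one huu
  have hu'0 : u' ≠ 0 := right_ne_zero_of_mul_eq_one huu
  have hu'inv : u'⁻¹ = u := by
    rw [inv_eq_iff_eq_inv]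
    exact eq_inv_of_mul_eq_one_right huu
  refine ⟨?_, ?_, ?_⟩
  · rw [hdx', mul_inv, hu'inv]
    exact VF.mul_mem _ _ (L3 u hu).1 hdF
  · rw [hdx', mul_div_assoc]
    exact VV.mul_mem _ _ (L3 u' hu').2 hdV
  · rw [hdx', div_mul_eq_div_div_swap, div_eq_mul_inv _ u', hu'inv]
    exact VV.mul_mem _ _ hdV' (L3 u hu).2

end B45

end Fermat.Agent.CARlib.B4
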