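import Fermat.Agent.CAR.BDefs

/-!
# T-CAR, block B5 (TH1, thickness one): proofs of the rows `b5_dvd_pow`, `b5_TH1` of `BIface`
-/

set_option autoImplicit false
set_option linter.unusedSectionVars false

open IsLocalRing Polynomial

namespace Fermat.Agent.CARlib.B5

open Fermat.Agent.CARlib

/-- in a UFD, an element all of whose prime divisors are associated to `π` is `unit * π ^ k` -/
theorem associated_pow_of_forall_prime {A : Type*} [CommRing A] [IsDomain A]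
    [UniqueFactorizationMonoid A] {π n : A} (hn : n ≠ 0)
    (h : ∀ p₀ : A, Prime p₀ → p₀ ∣ n → Associated p₀ π) : ∃ k : ℕ, Associated n (π ^ k) := by
  obtain ⟨f, hf, hfn⟩ := UniqueFactorizationMonoid.exists_prime_factors n hn
  refine ⟨Multiset.card f, hfn.symm.trans ?_⟩
  have hall : ∀ b ∈ f, Associated b π := fun b hb =>
    h b (hf b hb) ((Multiset.dvd_prod hb).trans hfn.dvd)
  clear hfn hf
  induction f using Multiset.induction_on with
  | empty => simp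
  | cons a f ih =>
    rw [Multiset.prod_cons, Multiset.card_cons, pow_succ']
    exact (hall a (Multiset.mem_cons_self a f)).mul_mul
      (ih fun b hb => hall b (Multiset.mem_cons_of_mem hb))

section B45

variable {O₀ S₁ F₀ F₁ : Type*} [CommRing O₀] [IsDomain O₀] [IsLocalRing O₀] [IsNoetherianRing O₀]
  [IsIntegrallyClosed O₀] [CommRing S₁] [IsDomain S₁] [Algebra O₀ S₁] [Module.Finite O₀ S₁]
  [Field F₀] [Algebra O₀ F₀] [IsFractionRing O₀ F₀]
  [Field F₁] [Algebra S₁ F₁] [IsFractionRing S₁ F₁] [Algebra F₀ F₁] [Algebra O₀ F₁]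
  [IsScalarTower O₀ S₁ F₁] [IsScalarTower O₀ F₀ F₁] [FiniteDimensional F₀ F₁]
  [Algebra.IsSeparable F₀ F₁] [IsIntegralClosure S₁ O₀ F₁]
  {π t : O₀} {s : S₁} {pF pV : Ideal S₁} {VF VV : ValuationSubring F₁} {r : ℕ}

/-- **B5a**: `O₀` a UFD (A1); no horizontal prime divides the norm of `θ` (M7b) ⇒ `θ ∣ π ^ k` -/
theorem b5_dvd_pow [UniqueFactorizationMonoid O₀] {θ : S₁} (hθ : θ ≠ 0)
    (hint : ∃ n : O₀, algebraMap O₀ F₀ n = Algebra.norm F₀ (algebraMap S₁ F₁ θ) ∧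
      ∀ p₀ : O₀, Prime p₀ → p₀ ∣ n → Associated p₀ π) :
    ∃ (k : ℕ) (y : S₁), θ * y = algebraMap O₀ S₁ π ^ k := by
  obtain ⟨n, hn, hp⟩ := hint
  have hinj : Function.Injective (algebraMap S₁ F₁) := IsFractionRing.injective S₁ F₁
  have hn0 : n ≠ 0 := by
    rintro rfl
    rw [map_zero, eq_comm, Algebra.norm_eq_zero_iff] at hn
    exact hθ (hinj (by rw [hn, map_zero]))
  obtain ⟨k, u, hu⟩ := associated_pow_of_forall_prime hn0 hp
  have hii : Algebra.IsIntegral O₀ S₁ := IsIntegralClosure.isIntegral_algebra O₀ F₁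
  have hic : IsIntegrallyClosed S₁ := by
    refine (isIntegrallyClosed_iff F₁).mpr fun {x} hx => ?_
    exact IsIntegralClosure.isIntegral_iff.mp (isIntegral_trans (R := O₀) x hx)
  have htf : Module.IsTorsionFree O₀ S₁ := by
    rw [Module.isTorsionFree_iff_algebraMap_injective]
    have h1 : Function.Injective (algebraMap O₀ F₁) := by
      rw [IsScalarTower.algebraMap_eq O₀ F₀ F₁]
      exact (algebraMap F₀ F₁).injective.comp (IsFractionRing.injective O₀ F₀)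
    rw [IsScalarTower.algebraMap_eq O₀ S₁ F₁] at h1
    exact Function.Injective.of_comp h1
  have hd : θ ∣ algebraMap O₀ S₁ n := by
    have h1 := Algebra.dvd_algebraMap_intNorm_self (A := O₀) (B := S₁) θ
    have h2 : Algebra.intNorm O₀ S₁ θ = n := by
      apply IsFractionRing.injective O₀ F₀
      rw [Algebra.algebraMap_intNorm (L := F₁), hn]
    rwa [h2] at h1
  obtain ⟨c, hc⟩ := hd
  refine ⟨k, c * algebraMap O₀ S₁ u, ?_⟩
  rw [← mul_assoc, ← hc, ← map_mul, hu, map_pow]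

omit [IsDomain O₀] [IsNoetherianRing O₀] [IsIntegrallyClosed O₀] [IsDomain S₁]
  [Module.Finite O₀ S₁] [IsFractionRing S₁ F₁] [Algebra O₀ F₁] [IsScalarTower O₀ S₁ F₁]
  [IsIntegralClosure S₁ O₀ F₁] in
/-- iterated saturation -/
theorem sat_pow (D : BData O₀ S₁ F₁ π t s pF pV VF VV r) (k : ℕ) :
    ∀ z : F₁, z ∈ VF → z ∈ VV →
    (∃ x : S₁, algebraMap S₁ F₁ (algebraMap O₀ S₁ π) ^ k * z = algebraMap S₁ F₁ x) →
    ∃ y : S₁, z = algebraMap S₁ F₁ y := by
  induction k with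
  | zero =>
    rintro z - - ⟨x, hx⟩
    exact ⟨x, by rw [← hx, pow_zero, one_mul]⟩
  | succ k ih =>
    rintro z hF hV ⟨x, hx⟩
    refine ih z hF hV ?_
    obtain ⟨y, hy⟩ := D.sat (algebraMap S₁ F₁ (algebraMap O₀ S₁ π) ^ k * z)
      (VF.mul_mem _ _ (VF.toSubring.pow_mem (D.mem_VF _) k) hF)
      (VV.mul_mem _ _ (VV.toSubring.pow_mem (D.mem_VV _) k) hV)
      ⟨x, by rw [← hx, pow_succ']; ring⟩
    exact ⟨y, hy⟩

/-- **B5 = TH1 (thickness one)** -/
theorem b5_TH1 (D : BData O₀ S₁ F₁ π t s pF pV VF VV r) {θ : S₁}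
    (hθF : (algebraMap S₁ F₁ θ)⁻¹ ∈ VF)
    (hθV : algebraMap S₁ F₁ θ / algebraMap O₀ F₁ π ∈ VV)
    (hθV' : algebraMap O₀ F₁ π / algebraMap S₁ F₁ θ ∈ VV)
    (hdvd : ∃ (k : ℕ) (y : S₁), θ * y = algebraMap O₀ S₁ π ^ k) :
    pV = Ideal.span {θ} ∧ ∃ aF : S₁, aF * θ = algebraMap O₀ S₁ π ∧ pF = Ideal.span {aF} := by
  obtain ⟨k, y, hy⟩ := hdvd
  have hinj : Function.Injective (algebraMap S₁ F₁) := IsFractionRing.injective S₁ F₁
  rw [IsScalarTower.algebraMap_apply O₀ S₁ F₁] at hθV hθV'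
  set ϖ : F₁ := algebraMap S₁ F₁ (algebraMap O₀ S₁ π) with hϖ
  set ϑ : F₁ := algebraMap S₁ F₁ θ with hϑ
  have hϖ0 : ϖ ≠ 0 := by
    intro h0
    apply D.pi_VF
    rw [← hϖ, h0, inv_zero]
    exact VF.zero_mem
  have hy' : ϑ * algebraMap S₁ F₁ y = ϖ ^ k := by
    rw [hϑ, hϖ, ← map_mul, hy, map_pow]
  have hϑ0 : ϑ ≠ 0 := by
    intro h0
    rw [h0, zero_mul] at hy'
    exact pow_ne_zero k hϖ0 hy'.symm
  have hϖF : ϖ ∈ VF := D.mem_VF _
  have hϖV : ϖ ∈ VV := D.mem_VV _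
  have hϑF : ϑ ∈ VF := D.mem_VF _
  have hϑV : ϑ ∈ VV := D.mem_VV _
  -- division by θ
  have hdiv : ∀ x : S₁, algebraMap S₁ F₁ x / ϑ ∈ VV → θ ∣ x := by
    intro x hxV
    obtain ⟨c, hc⟩ := sat_pow D k (algebraMap S₁ F₁ x / ϑ)
      (by rw [div_eq_mul_inv]; exact VF.mul_mem _ _ (D.mem_VF x) hθF) hxV
      ⟨x * y, by rw [← hϖ, ← hy', map_mul]; field_simp⟩
    refine ⟨c, hinj ?_⟩
    rw [map_mul, ← hc, ← hϑ]
    field_simp
  have h1 : pV = Ideal.span {θ} := by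
    apply le_antisymm
    · intro x hx
      rw [Ideal.mem_span_singleton]
      apply hdiv
      have h2 := (D.mem_pV x).1 hx
      have : algebraMap S₁ F₁ x / ϑ = algebraMap S₁ F₁ x / ϖ * (ϖ / ϑ) := by
        field_simp
      rw [this]
      exact VV.mul_mem _ _ h2 hθV'
    · rw [Ideal.span_le, Set.singleton_subset_iff]
      exact (D.mem_pV θ).2 hθV
  obtain ⟨aF, haF⟩ : θ ∣ algebraMap O₀ S₁ π := hdiv _ hθV'
  have haF' : ϖ = ϑ * algebraMap S₁ F₁ aF := by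
    rw [hϖ, haF, map_mul]
  have ha0 : algebraMap S₁ F₁ aF ≠ 0 := by
    intro h0
    rw [h0, mul_zero] at haF'
    exact hϖ0 haF'
  refine ⟨h1, aF, by rw [haF, mul_comm], ?_⟩
  apply le_antisymm
  · intro x hx
    rw [Ideal.mem_span_singleton]
    have h2 := (D.mem_pF x).1 hx
    obtain ⟨c, hc⟩ := D.sat (algebraMap S₁ F₁ x * ϑ / ϖ)
      (by rw [mul_div_right_comm]; exact VF.mul_mem _ _ h2 hϑF)
      (by rw [mul_div_assoc]; exact VV.mul_mem _ _ (D.mem_VV x) hθV)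
      ⟨x * θ, by rw [← hϖ, map_mul, ← hϑ]; field_simp⟩
    refine ⟨c, hinj ?_⟩
    rw [map_mul, ← hc, haF']
    field_simp
  · rw [Ideal.span_le, Set.singleton_subset_iff]
    refine (D.mem_pF aF).2 ?_
    rw [← hϖ, haF']
    have : algebraMap S₁ F₁ aF / (ϑ * algebraMap S₁ F₁ aF) = ϑ⁻¹ := by
      field_simp
    rw [this]
    exact hθF

end B45

end Fermat.Agent.CARlib.B5
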