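import Mathlib

/-!
# T-CAR, block B5 (TH1, thickness one), abstract part (Mathlib only)

`S` a noetherian integrally closed domain.
* `b5_locPrin_of_colon` : a prime of the form `(θ : b)` is locally principal.
* `b5_dvr_of_colon` : ... hence `S_P` is a discrete valuation ring.
* `b5_dvd_of_forall` : `θ ∣ x` as soon as this holds in `S_P` for all primes `P ∋ θ` with `S_P` a DVR.
* `b5_span_eq` : `θ S = p` if `θ` generates `p S_p` and lies in no other DVR-prime.
* `b5_two_primes` : TH1.
* `b5_regular` : the local rings are regular in the sense of (A1).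
-/

set_option autoImplicit false

namespace Fermat.Agent.CARlib

open Ideal IsLocalRing

variable {S : Type*} [CommRing S] [IsDomain S]

/-- a prime `P = (θ : b)` of a noetherian normal domain is locally principal -/
theorem b5_locPrin_of_colon [IsNoetherianRing S] [IsIntegrallyClosed S] {θ b : S} (hθ0 : θ ≠ 0)
    {P : Ideal S} (hP1 : P ≠ ⊤) (hP : ∀ s, s ∈ P ↔ θ ∣ s * b) :
    ∃ ϖ ∈ P, ∀ x ∈ P, ∃ s, s ∉ P ∧ ϖ ∣ s * x := by
  classical
  by_contra hcon
  push Not at hcon
  have key : ∀ s ∈ P, ∀ c, s * b = θ * c → c ∈ P := by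
    intro s hs c hc
    by_contra hcP
    obtain ⟨x, hx, hx'⟩ := hcon s hs
    obtain ⟨d, hd⟩ := (hP x).1 hx
    apply hx' c hcP
    refine ⟨d, ?_⟩
    apply mul_left_cancel₀ hθ0
    calc θ * (c * x) = (θ * c) * x := by ring
      _ = s * b * x := by rw [hc]
      _ = s * (x * b) := by ring
      _ = s * (θ * d) := by rw [hd]
      _ = θ * (s * d) := by ring
  have hθP : θ ∈ P := (hP θ).2 (Dvd.intro _ rfl)
  have hθF : algebraMap S (FractionRing S) θ ≠ 0 := by
    simpa using hθ0
  have hint : IsIntegral S (algebraMap S (FractionRing S) b / algebraMap S (FractionRing S) θ) := by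
    refine isIntegral_of_smul_mem_submodule (M := FractionRing S)
      (Submodule.map (Algebra.linearMap S (FractionRing S)) P) ?_ ?_ _ ?_
    · intro h0
      have : algebraMap S (FractionRing S) θ ∈
          Submodule.map (Algebra.linearMap S (FractionRing S)) P := ⟨θ, hθP, rfl⟩
      rw [h0] at this
      exact hθF this
    · exact (IsNoetherian.noetherian P).map _
    · rintro _ ⟨s, hs, rfl⟩
      obtain ⟨c, hc⟩ := (hP s).1 hs
      refine ⟨c, key s hs c hc, ?_⟩
      simp only [Algebra.linearMap_apply, smul_eq_mul]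
      rw [div_mul_eq_mul_div, eq_div_iff hθF, ← map_mul, ← map_mul]
      congr 1
      rw [mul_comm c θ, ← hc, mul_comm]
  obtain ⟨y, hy⟩ := IsIntegrallyClosed.isIntegral_iff.mp hint
  apply hP1
  rw [Ideal.eq_top_iff_one, hP]
  refine ⟨y, ?_⟩
  rw [eq_div_iff hθF, ← map_mul] at hy
  have := IsFractionRing.injective S (FractionRing S) hy
  rw [one_mul, ← this, mul_comm]

/-- a nonzero locally principal prime of a noetherian domain has a DVR as local ring -/
theorem b5_dvr_of_locPrin [IsNoetherianRing S] {P : Ideal S} [P.IsPrime] (hP0 : P ≠ ⊥)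
    {ϖ : S} (hϖ : ϖ ∈ P) (h : ∀ x ∈ P, ∃ s, s ∉ P ∧ ϖ ∣ s * x) :
    IsDiscreteValuationRing (Localization.AtPrime P) := by
  have hinj : Function.Injective (algebraMap S (Localization.AtPrime P)) :=
    IsLocalization.injective _ P.primeCompl_le_nonZeroDivisors
  have hnf : ¬ IsField (Localization.AtPrime P) := by
    rw [IsLocalRing.isField_iff_maximalIdeal_eq]
    intro h0
    apply hP0
    have h1 := Localization.AtPrime.under_maximalIdeal (I := P)
    rw [h0] at h1
    rw [← h1, eq_bot_iff]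
    intro x hx
    rw [Ideal.mem_comap, Ideal.mem_bot] at hx
    exact hinj (by rw [hx, map_zero])
  have hprin : (maximalIdeal (Localization.AtPrime P)).IsPrincipal := by
    refine ⟨algebraMap S _ ϖ, ?_⟩
    rw [← Localization.AtPrime.map_eq_maximalIdeal]
    apply le_antisymm
    · rw [Ideal.map_le_iff_le_comap]
      intro x hx
      obtain ⟨s, hs, c, hc⟩ := h x hx
      have hu : IsUnit (algebraMap S (Localization.AtPrime P) s) :=
        IsLocalization.map_units (Localization.AtPrime P) (⟨s, hs⟩ : P.primeCompl)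
      rw [Ideal.mem_comap]
      change _ ∈ Ideal.span _
      rw [Ideal.mem_span_singleton]
      rw [← hu.dvd_mul_left, ← map_mul, hc, map_mul]
      exact Dvd.intro _ rfl
    · change Ideal.span _ ≤ _
      rw [Ideal.span_le, Set.singleton_subset_iff]
      exact Ideal.mem_map_of_mem _ hϖ
  exact ((IsDiscreteValuationRing.TFAE _ hnf).out 0 4).mpr hprin

/-- **normality criterion**: divisibility can be tested at the DVR-primes containing `θ` -/
theorem b5_dvd_of_forall [IsNoetherianRing S] [IsIntegrallyClosed S] {θ x : S} (hθ0 : θ ≠ 0)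
    (h : ∀ (P : Ideal S) [P.IsPrime], IsDiscreteValuationRing (Localization.AtPrime P) → θ ∈ P →
      ∃ s, s ∉ P ∧ θ ∣ s * x) : θ ∣ x := by
  by_contra hx
  have hx' : (Ideal.Quotient.mk (span {θ}) x) ≠ 0 := by
    rwa [Ne, Ideal.Quotient.eq_zero_iff_mem, mem_span_singleton]
  obtain ⟨P, hPass, hle⟩ :=
    exists_le_isAssociatedPrime_of_isNoetherianRing (R := S) (M := S ⧸ span {θ}) _ hx'
  obtain ⟨hPprime, y, hy⟩ := isAssociatedPrime_iff.1 hPass
  obtain ⟨b, rfl⟩ := Ideal.Quotient.mk_surjective y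
  have hcol : ∀ (z s : S), s ∈ (⊥ : Submodule S (S ⧸ span {θ})).colon {Ideal.Quotient.mk (span {θ}) z}
      ↔ θ ∣ s * z := by
    intro z s
    rw [Submodule.mem_colon_singleton, Submodule.mem_bot, ← mem_span_singleton,
      ← Ideal.Quotient.eq_zero_iff_mem, map_mul]
    rfl
  have hP : ∀ s, s ∈ P ↔ θ ∣ s * b := by
    intro s; rw [hy, hcol]
  have hθP : θ ∈ P := (hP θ).2 (Dvd.intro _ rfl)
  obtain ⟨ϖ, hϖ, hloc⟩ := b5_locPrin_of_colon hθ0 hPprime.ne_top hP
  have hP0 : P ≠ ⊥ := by
    rintro rfl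
    exact hθ0 hθP
  obtain ⟨s, hs, hsx⟩ := h P (b5_dvr_of_locPrin hP0 hϖ hloc) hθP
  exact hs (hle ((hcol x s).2 hsx))

/-- `θ S = p` if `θ` generates `p S_p` and lies in no other DVR-prime -/
theorem b5_span_eq [IsNoetherianRing S] [IsIntegrallyClosed S] {θ : S} (hθ0 : θ ≠ 0)
    {p : Ideal S} (hθp : θ ∈ p) (hgen : ∀ x ∈ p, ∃ s, s ∉ p ∧ θ ∣ s * x)
    (hother : ∀ (P : Ideal S) [P.IsPrime], IsDiscreteValuationRing (Localization.AtPrime P) →
      θ ∈ P → P = p) : Ideal.span {θ} = p := by
  apply le_antisymm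
  · rwa [Ideal.span_le, Set.singleton_subset_iff]
  · intro x hx
    rw [mem_span_singleton]
    refine b5_dvd_of_forall hθ0 fun P _ hD hθP => ?_
    obtain rfl := hother P hD hθP
    exact hgen x hx

/-- **TH1 (thickness one), abstract form** -/
theorem b5_two_primes [IsNoetherianRing S] [IsIntegrallyClosed S] {π θ : S} {pF pV : Ideal S}
    [pF.IsPrime] [pV.IsPrime] (hπ0 : π ≠ 0)
    (hvert : ∀ (P : Ideal S) [P.IsPrime], IsDiscreteValuationRing (Localization.AtPrime P) →
      π ∈ P → P = pF ∨ P = pV)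
    (hπF : π ∈ pF) (hπV : π ∈ pV)
    (hgenF : ∀ x ∈ pF, ∃ s, s ∉ pF ∧ π ∣ s * x)
    (hgenV : ∀ x ∈ pV, ∃ s, s ∉ pV ∧ π ∣ s * x)
    (hθF : θ ∉ pF) (hθV : θ ∈ pV) (hθV1 : ∃ s, s ∉ pV ∧ θ ∣ s * π)
    (hhor : ∀ (P : Ideal S) [P.IsPrime], IsDiscreteValuationRing (Localization.AtPrime P) →
      π ∉ P → θ ∉ P) :
    Ideal.span {θ} = pV ∧ ∃ a, π = θ * a ∧ Ideal.span {a} = pF := by
  have hθ0 : θ ≠ 0 := by
    rintro rfl
    exact hθF (zero_mem _)
  have h1 : Ideal.span {θ} = pV := by
    refine b5_span_eq hθ0 hθV ?_ ?_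
    · intro x hx
      obtain ⟨s, hs, c, hc⟩ := hgenV x hx
      obtain ⟨s', hs', c', hc'⟩ := hθV1
      refine ⟨s' * s, fun hmem => ?_, c' * c, ?_⟩
      · rcases (inferInstance : pV.IsPrime).mem_or_mem hmem with h | h
        · exact hs' h
        · exact hs h
      · calc s' * s * x = s' * (s * x) := by ring
          _ = s' * π * c := by rw [hc]; ring
          _ = θ * (c' * c) := by rw [hc']; ring
    · intro P _ hD hθP
      by_cases hπP : π ∈ P
      · rcases hvert P hD hπP with rfl | rfl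
        · exact absurd hθP hθF
        · rfl
      · exact absurd hθP (hhor P hD hπP)
  have hπθ : θ ∣ π := by
    rw [← mem_span_singleton, h1]; exact hπV
  obtain ⟨a, ha⟩ := hπθ
  refine ⟨h1, a, ha, ?_⟩
  have ha0 : a ≠ 0 := by
    rintro rfl
    exact hπ0 (by rw [ha, mul_zero])
  have haF : a ∈ pF := by
    rw [ha] at hπF
    exact ((inferInstance : pF.IsPrime).mem_or_mem hπF).resolve_left hθF
  have haV : a ∉ pV := by
    intro haV
    obtain ⟨s, hs, c, hc⟩ := hgenV θ hθV
    apply hs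
    have : s = a * c := by
      apply mul_left_cancel₀ hθ0
      calc θ * s = s * θ := by ring
        _ = π * c := hc
        _ = θ * (a * c) := by rw [ha]; ring
    rw [this]
    exact Ideal.mul_mem_right _ _ haV
  refine b5_span_eq ha0 haF ?_ ?_
  · intro x hx
    obtain ⟨s, hs, c, hc⟩ := hgenF x hx
    exact ⟨s, hs, θ * c, by rw [hc, ha]; ring⟩
  · intro P _ hD haP
    have hπP : π ∈ P := by rw [ha]; exact Ideal.mul_mem_left _ _ haP
    rcases hvert P hD hπP with rfl | rfl
    · rfl
    · exact absurd haP haV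

end Fermat.Agent.CARlib
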