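import Fermat.Agent.UNI.NodeAbs

/-!
# T-CAR, block B, row B6: the structure `B6Hyp` (global level 1 data = `NodeData` + a few facts)
-/

set_option autoImplicit false

namespace Fermat.Agent.CARlib

open Fermat.Agent.UNIlib

/-- the global level 1 data -/
structure B6Hyp {R F₀ F₁ : Type*} [CommRing R] [Field F₀] [Field F₁] [Algebra R F₁]
    [Algebra F₀ F₁] (π : R) (T₀ : F₀) (V₁ : ValuationSubring F₁) (w γ : F₁ ≃+* F₁) (r : ℕ) :
    Prop where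
  node : NodeData π (algebraMap F₀ F₁ T₀) V₁ w γ (algebraMap F₀ F₁).fieldRange r
  γ_symm_int : ∀ x, IsIntegral (Algebra.adjoin R {algebraMap F₀ F₁ T₀}) x →
    IsIntegral (Algebra.adjoin R {algebraMap F₀ F₁ T₀}) (γ.symm x)
  γ_symm_old : ∀ x : F₀, ∃ y : F₀, γ.symm (algebraMap F₀ F₁ x) = algebraMap F₀ F₁ y
  sat : ∀ x, x ∈ V₁ → w x ∈ V₁ →
    IsIntegral (Algebra.adjoin R {algebraMap F₀ F₁ T₀}) (algebraMap R F₁ π * x) →
    IsIntegral (Algebra.adjoin R {algebraMap F₀ F₁ T₀}) x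
  unif : ∀ z ∈ V₁, z⁻¹ ∈ V₁ ∨ z / algebraMap R F₁ π ∈ V₁
  pi_not : (algebraMap R F₁ π)⁻¹ ∉ V₁

end Fermat.Agent.CARlib
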