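import Fermat.Agent.UNI.NodeAbs
import Fermat.Agent.CAR.BDefs
import Fermat.Agent.CAR.B6Defs

/-!
# T-CAR, block B, row B6: instantiation of `BData` (interface, sorried)

`F₀ ⊆ F₁` fields (good level `N0`, level `N0 r`), `T₀ ∈ F₀` the chart,
`B₀` = integral closure of `R[T₀]` in `F₀`, `z'` a maximal ideal of `B₀` containing `π`,
`O₀` = ANY localisation of `B₀` at `z'`, `S₁` = ANY integral closure of `O₀` in `F₁`.

* (B6a) base facts on `integralClosure (Algebra.adjoin R {T}) F` (noetherian, normal, fraction field);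
* (B6b) `π` is prime in `B₀`, every maximal ideal `∋ π` is locally `(π, t)`;
* (B6d) residue fields of the closed points are `k = R / π` (algebraically closed);
* (B6c) `BData` from `B6Hyp` (= `NodeData` + a few facts);
* (B6e) `B6Hyp` in the modular setting.
-/

set_option autoImplicit false

open IsLocalRing Polynomial IntermediateField

namespace Fermat.Agent.CARlib.B6Iface

open Fermat.Agent.ESlib Fermat.Agent.UNIlib

section B6a

variable {R K F : Type*} [CommRing R] [IsDomain R] [IsDiscreteValuationRing R] [Field K]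
  [Algebra R K] [IsFractionRing R K] [CharZero K] [Field F] [Algebra K F] [Algebra R F]
  [IsScalarTower R K F]

theorem b6a_noeth (T : F) (hT : Transcendental K T) [FiniteDimensional K⟮T⟯ F] :
    IsNoetherianRing (integralClosure (Algebra.adjoin R {T}) F) := by
  sorry

theorem b6a_frac (T : F) (hT : Transcendental K T) [FiniteDimensional K⟮T⟯ F] :
    IsFractionRing (integralClosure (Algebra.adjoin R {T}) F) F := by
  sorry

theorem b6a_normal (T : F) (hT : Transcendental K T) [FiniteDimensional K⟮T⟯ F] :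
    IsIntegrallyClosed (integralClosure (Algebra.adjoin R {T}) F) := by
  sorry

/-- **B6b**: the good level.  `V` = the Gauss valuation ring. -/
theorem b6b_reg {π : R} (hπ : Irreducible π) (T : F) (hT : Transcendental K T)
    [FiniteDimensional K⟮T⟯ F] (V : ValuationSubring F) (hV : ∀ x, PiInt π T x ↔ x ∈ V)
    (unif : ∀ z ∈ V, z⁻¹ ∈ V ∨ z / algebraMap R F π ∈ V) (hpi : (algebraMap R F π)⁻¹ ∉ V)
    (loc : ∀ ε, PiInt π T ε → IntModPi π T ε →
      ∃ e : F, IsIntegral (Algebra.adjoin R {T}) e ∧ PiInt π T ((e - ε) / algebraMap R F π)) :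
    Prime (algebraMap R (integralClosure (Algebra.adjoin R {T}) F) π) ∧
    ∀ x : Ideal (integralClosure (Algebra.adjoin R {T}) F), x.IsMaximal →
      algebraMap R (integralClosure (Algebra.adjoin R {T}) F) π ∈ x →
      ∃ s ∈ x, ∀ g ∈ x, ∃ t, t ∉ x ∧
        t * g ∈ Ideal.span {algebraMap R (integralClosure (Algebra.adjoin R {T}) F) π, s} := by
  sorry

/-- **B6d**: closed points of the special fibre are `k`-rational -/
theorem b6d_res [IsAlgClosed (ResidueField R)] {π : R} (hπ : Irreducible π) (T : F)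
    (x : Ideal (integralClosure (Algebra.adjoin R {T}) F)) (hx : x.IsMaximal)
    (hπx : algebraMap R (integralClosure (Algebra.adjoin R {T}) F) π ∈ x)
    (b : integralClosure (Algebra.adjoin R {T}) F) :
    ∃ c : R, b - algebraMap R (integralClosure (Algebra.adjoin R {T}) F) c ∈ x := by
  sorry

end B6a

section B6c

variable {R F₀ F₁ : Type*} [CommRing R] [Field F₀] [Field F₁] [Algebra R F₀] [Algebra R F₁]
  [Algebra F₀ F₁] [IsScalarTower R F₀ F₁]
  {π : R} {T₀ : F₀} {V₁ : ValuationSubring F₁} {w γ : F₁ ≃+* F₁} {r : ℕ}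

/-- **B6c** -/
theorem b6c_bData (H : B6Hyp π T₀ V₁ w γ r)
    (hprime : Prime (algebraMap R (integralClosure (Algebra.adjoin R {T₀}) F₀) π))
    (z' : Ideal (integralClosure (Algebra.adjoin R {T₀}) F₀)) [z'.IsMaximal]
    (hπz : algebraMap R (integralClosure (Algebra.adjoin R {T₀}) F₀) π ∈ z')
    {t₀ : integralClosure (Algebra.adjoin R {T₀}) F₀} (ht₀ : t₀ ∈ z')
    (hreg : ∀ g ∈ z', ∃ u, u ∉ z' ∧ u * g ∈
      Ideal.span {algebraMap R (integralClosure (Algebra.adjoin R {T₀}) F₀) π, t₀})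
    (hres : ∀ b : integralClosure (Algebra.adjoin R {T₀}) F₀, ∃ c : R,
      b - algebraMap R (integralClosure (Algebra.adjoin R {T₀}) F₀) c ∈ z')
    (hperf : ∀ c : R, ∃ c₁ : R, π ∣ c - c₁ ^ r)
    (O₀ S₁ : Type*) [CommRing O₀] [IsLocalRing O₀]
    [Algebra (integralClosure (Algebra.adjoin R {T₀}) F₀) O₀] [IsLocalization.AtPrime O₀ z']
    [Algebra O₀ F₀] [IsScalarTower (integralClosure (Algebra.adjoin R {T₀}) F₀) O₀ F₀]
    [Algebra O₀ F₁] [IsScalarTower O₀ F₀ F₁] [CommRing S₁] [Algebra O₀ S₁] [Algebra S₁ F₁]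
    [IsScalarTower O₀ S₁ F₁] [IsIntegralClosure S₁ O₀ F₁] :
    ∃ (s : S₁) (pF pV : Ideal S₁),
      algebraMap S₁ F₁ s = w (γ (algebraMap F₀ F₁ (t₀ : F₀))) ∧
      BData O₀ S₁ F₁
        (algebraMap (integralClosure (Algebra.adjoin R {T₀}) F₀) O₀
          (algebraMap R (integralClosure (Algebra.adjoin R {T₀}) F₀) π))
        (algebraMap (integralClosure (Algebra.adjoin R {T₀}) F₀) O₀ t₀) s pF pV V₁
        (V₁.comap (w : F₁ →+* F₁)) r := by
  sorry

end B6c

end Fermat.Agent.CARlib.B6Iface
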