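import Mathlib

/-!
# T-CAR, B6Reg: every maximal ideal `∋ π` is locally `(π, s)` if `B ⧸ π B` is normal
-/

set_option autoImplicit false

namespace Fermat.Agent.CARlib

/-- In a Dedekind domain every maximal ideal is locally principal (elementary form). -/
theorem b6r_exists_local_generator {D : Type*} [CommRing D] [IsDedekindDomain D] (x : Ideal D)
    (hx : x.IsMaximal) : ∃ s ∈ x, ∀ g ∈ x, ∃ t, t ∉ x ∧ t * g ∈ Ideal.span {s} := by
  classical
  by_cases hbot : x = ⊥
  · refine ⟨0, x.zero_mem, fun g hg => ⟨1, (Ideal.ne_top_iff_one x).1 hx.ne_top, ?_⟩⟩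
    rw [hbot, Ideal.mem_bot] at hg
    rw [hg, mul_zero]
    exact Ideal.zero_mem _
  · obtain ⟨s, hs1, hs2⟩ := Ideal.exists_mem_pow_notMem_pow_succ x hbot hx.ne_top 1
    rw [pow_one] at hs1
    have hle : Ideal.span {s} ≤ x := (Ideal.span_singleton_le_iff_mem x).2 hs1
    obtain ⟨J, hJ⟩ := Ideal.dvd_iff_le.2 hle
    have hJx : ¬ J ≤ x := by
      intro h
      apply hs2
      have : Ideal.span {s} ≤ x ^ (1 + 1) := by
        rw [hJ, pow_succ, pow_one]
        exact Ideal.mul_mono_right h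
      exact this (Ideal.mem_span_singleton_self s)
    obtain ⟨t, htJ, htx⟩ := SetLike.not_le_iff_exists.1 hJx
    refine ⟨s, hs1, fun g hg => ⟨t, htx, ?_⟩⟩
    rw [hJ, mul_comm t g]
    exact Ideal.mul_mem_mul hg htJ

/-- a domain which is integral over a quotient of a polynomial ring over a field has dimension
`≤ 1` -/
theorem b6r_dimensionLEOne_of_isIntegral_polynomial {k D : Type*} [Field k] [CommRing D] [IsDomain D]
    (φ : Polynomial k →+* D) (hφ : φ.IsIntegral) : Ring.DimensionLEOne D := by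
  refine ⟨fun {P} hP hPp => ?_⟩
  obtain ⟨x, hxP, hx0⟩ := Submodule.exists_mem_ne_zero_of_ne_bot hP
  let _ : Algebra (Polynomial k) D := φ.toAlgebra
  have h1 : P.comap (algebraMap (Polynomial k) D) ≠ ⊥ :=
    Ideal.comap_ne_bot_of_integral_mem hx0 hxP (hφ x)
  have h2 : (P.comap (algebraMap (Polynomial k) D)).IsPrime := Ideal.comap_isPrime _ P
  have h3 : (P.comap (algebraMap (Polynomial k) D)).IsMaximal :=
    Ring.DimensionLEOne.maximalOfPrime h1 h2
  exact Ideal.isMaximal_of_isIntegral_of_isMaximal_comap' φ hφ P h3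

/-- **(I4) from Sm**: if `B ⧸ π B` is a Dedekind domain then `B` satisfies the field `reg` of
`IsChart`. -/
theorem b6r_reg_of_isDedekindDomain_quotient {B : Type*} [CommRing B] (ϖ : B)
    [IsDedekindDomain (B ⧸ Ideal.span {ϖ})] :
    ∀ x : Ideal B, x.IsMaximal → ϖ ∈ x →
      ∃ s ∈ x, ∀ g ∈ x, ∃ t, t ∉ x ∧ t * g ∈ Ideal.span {ϖ, s} := by
  intro x hx hϖ
  set I : Ideal B := Ideal.span {ϖ} with hI
  have hIx : I ≤ x := (Ideal.span_singleton_le_iff_mem x).2 hϖ
  let q : B →+* B ⧸ I := Ideal.Quotient.mk I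
  have hq : Function.Surjective q := Ideal.Quotient.mk_surjective
  have hcomap : (x.map q).comap q = x := Ideal.comap_map_mk hIx
  have hmem : ∀ b : B, q b ∈ x.map q ↔ b ∈ x := by
    intro b
    rw [← Ideal.mem_comap, hcomap]
  have hmax : (x.map q).IsMaximal := by
    rcases Ideal.map_eq_top_or_isMaximal_of_surjective q hq hx with h | h
    · exfalso
      apply hx.ne_top
      rw [← hcomap, h, Ideal.comap_top]
    · exact h
  obtain ⟨s', hs', H⟩ := b6r_exists_local_generator (x.map q) hmax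
  obtain ⟨s, rfl⟩ := hq s'
  refine ⟨s, (hmem s).1 hs', fun g hg => ?_⟩
  obtain ⟨t', ht', h⟩ := H (q g) ((hmem g).2 hg)
  obtain ⟨t, rfl⟩ := hq t'
  refine ⟨t, fun h => ht' ((hmem t).2 h), ?_⟩
  rw [Ideal.mem_span_singleton'] at h
  obtain ⟨c', hc⟩ := h
  obtain ⟨c, rfl⟩ := hq c'
  have h0 : q (t * g - c * s) = 0 := by
    rw [map_sub, map_mul, map_mul, hc, sub_self]
  rw [Ideal.Quotient.eq_zero_iff_mem, hI, Ideal.mem_span_singleton'] at h0
  obtain ⟨d, hd⟩ := h0
  rw [Ideal.mem_span_pair]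
  exact ⟨d, c, by rw [hd]; ring⟩

/-- **(I4) from Sm**, final form: `R` a DVR with uniformiser `π`, `B` a noetherian `R`-algebra, `T ∈ B`
with `B` integral over `R[T]`, `π B` prime and `B ⧸ π B` integrally closed. -/
theorem b6r_reg_of_isIntegrallyClosed_quotient {R B : Type*} [CommRing R] [IsDomain R]
    [IsDiscreteValuationRing R] [CommRing B] [Algebra R B] [IsNoetherianRing B] {π : R}
    (hπ : Irreducible π) (T : B) (hT : ∀ b : B, IsIntegral (Algebra.adjoin R {T}) b)
    [IsDomain (B ⧸ Ideal.span {algebraMap R B π})]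
    [IsIntegrallyClosed (B ⧸ Ideal.span {algebraMap R B π})] :
    ∀ x : Ideal B, x.IsMaximal → algebraMap R B π ∈ x →
      ∃ s ∈ x, ∀ g ∈ x, ∃ t, t ∉ x ∧ t * g ∈ Ideal.span {algebraMap R B π, s} := by
  classical
  set I : Ideal B := Ideal.span {algebraMap R B π} with hI
  have hmaxπ : (Ideal.span {π} : Ideal R).IsMaximal := by
    rw [← hπ.maximalIdeal_eq]
    exact IsLocalRing.maximalIdeal.isMaximal R
  let _ : Field (R ⧸ (Ideal.span {π} : Ideal R)) := Ideal.Quotient.field _
  let q : B →+* B ⧸ I := Ideal.Quotient.mk I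
  have hq : Function.Surjective q := Ideal.Quotient.mk_surjective
  let c : (R ⧸ (Ideal.span {π} : Ideal R)) →+* B ⧸ I :=
    Ideal.Quotient.lift _ (q.comp (algebraMap R B)) (by
      intro a ha
      rw [Ideal.mem_span_singleton'] at ha
      obtain ⟨b, rfl⟩ := ha
      rw [RingHom.comp_apply, map_mul, map_mul]
      have : q (algebraMap R B π) = 0 :=
        Ideal.Quotient.eq_zero_iff_mem.2 (Ideal.mem_span_singleton_self _)
      rw [this, mul_zero])
  let φ : Polynomial (R ⧸ (Ideal.span {π} : Ideal R)) →+* B ⧸ I :=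
    Polynomial.eval₂RingHom c (q T)
  let ψ : Polynomial R →+* B := ((Polynomial.aeval T : Polynomial R →ₐ[R] B) : Polynomial R →+* B)
  have hψ : ψ.IsIntegral := by
    intro b
    have hmem : ∀ p : Polynomial R, Polynomial.aeval T p ∈ Algebra.adjoin R {T} := fun p => by
      rw [Algebra.adjoin_singleton_eq_range_aeval]; exact ⟨p, rfl⟩
    let g : Polynomial R →+* Algebra.adjoin R {T} := ψ.codRestrict (Algebra.adjoin R {T}) hmem
    have hg : Function.Surjective g := by
      rintro ⟨y, hy⟩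
      rw [Algebra.adjoin_singleton_eq_range_aeval] at hy
      obtain ⟨p, rfl⟩ := hy
      exact ⟨p, rfl⟩
    have hcomp : (algebraMap (Algebra.adjoin R {T}) B).comp g = ψ := RingHom.ext fun p => rfl
    rw [← hcomp]
    exact RingHom.IsIntegral.trans g _ (RingHom.isIntegral_of_surjective g hg) hT b
  have hcomp : q.comp ψ = φ.comp (Polynomial.mapRingHom (Ideal.Quotient.mk (Ideal.span {π}))) := by
    apply Polynomial.ringHom_ext
    · intro a
      simp [ψ, φ, c, q]
    · simp [ψ, φ, q]
  have hφ : φ.IsIntegral := by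
    apply RingHom.IsIntegral.tower_top (Polynomial.mapRingHom (Ideal.Quotient.mk (Ideal.span {π}))) φ
    rw [← hcomp]
    exact RingHom.IsIntegral.trans ψ q hψ (RingHom.isIntegral_of_surjective q hq)
  have hdim : Ring.DimensionLEOne (B ⧸ I) := b6r_dimensionLEOne_of_isIntegral_polynomial φ hφ
  have hded : IsDedekindDomain (B ⧸ I) :=
    { toIsDomain := inferInstance
      toIsDedekindRing :=
        { toIsNoetherian := inferInstanceAs (IsNoetherianRing (B ⧸ I))
          toDimensionLEOne := hdim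
          toIsIntegralClosure := inferInstanceAs (IsIntegrallyClosed (B ⧸ I)) } }
  exact b6r_reg_of_isDedekindDomain_quotient (algebraMap R B π)

end Fermat.Agent.CARlib
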