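import Fermat.Agent.CAR.BDefs
import Fermat.Agent.CAR.B6Defs
import Fermat.Agent.ES.C.AKInt

/-!
# T-CAR, block B, row B6c: `BData` from `B6Hyp`
-/

set_option autoImplicit false
set_option linter.unusedSectionVars false
set_option linter.style.haveILetI false

open IsLocalRing Polynomial

namespace Fermat.Agent.CARlib

open Fermat.Agent.UNIlib Fermat.Agent.ESlib

section Gen

theorem b6_isIntegralElem_of_comp {A B C : Type*} [CommRing A] [CommRing B] [CommRing C]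
    (f : A →+* C) (g : A →+* B) (h : B →+* C) (hfg : ∀ a, h (g a) = f a) {z : C}
    (hz : f.IsIntegralElem z) : h.IsIntegralElem z := by
  obtain ⟨p, hp, hpz⟩ := hz
  refine ⟨p.map g, hp.map g, ?_⟩
  rw [eval₂_map]
  have : h.comp g = f := RingHom.ext hfg
  rw [this]
  exact hpz

end Gen

section B6c

variable {R F₀ F₁ : Type*} [CommRing R] [Field F₀] [Field F₁] [Algebra R F₀] [Algebra R F₁]
  [Algebra F₀ F₁] [IsScalarTower R F₀ F₁]
  {π : R} {T₀ : F₀} {V₁ : ValuationSubring F₁} {w γ : F₁ ≃+* F₁} {r : ℕ}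

/-- integrality over `R[T₀]` can be tested in `F₁` -/
theorem b6_isIntegral_map_iff (T₀ x : F₀) :
    IsIntegral (Algebra.adjoin R {algebraMap F₀ F₁ T₀}) (algebraMap F₀ F₁ x) ↔
      IsIntegral (Algebra.adjoin R {T₀}) x := by
  rw [isIntegral_adjoin_singleton_iff, isIntegral_adjoin_singleton_iff]
  have h : ∀ p : R[X], aeval (algebraMap F₀ F₁ T₀) p = algebraMap F₀ F₁ (aeval T₀ p) :=
    fun p => aeval_algebraMap_apply F₁ T₀ p
  have h' : ((aeval (algebraMap F₀ F₁ T₀) : R[X] →ₐ[R] F₁) : R[X] →+* F₁) =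
      (algebraMap F₀ F₁).comp ((aeval T₀ : R[X] →ₐ[R] F₀) : R[X] →+* F₀) := RingHom.ext h
  constructor
  · rintro ⟨p, hp, hpx⟩
    refine ⟨p, hp, (algebraMap F₀ F₁).injective ?_⟩
    rw [map_zero, hom_eval₂, ← h']
    exact hpx
  · rintro ⟨p, hp, hpx⟩
    refine ⟨p, hp, ?_⟩
    rw [h', ← hom_eval₂, hpx, map_zero]

theorem B6Hyp.unif_ne_zero (H : B6Hyp π T₀ V₁ w γ r) : algebraMap R F₁ π ≠ 0 := by
  intro h
  apply H.pi_not
  rw [h, inv_zero]
  exact V₁.zero_mem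

theorem b6_isIntegral_algebraMap (T : F₁) (c : R) :
    IsIntegral (Algebra.adjoin R {T}) (algebraMap R F₁ c) :=
  isIntegral_algebraMap (R := Algebra.adjoin R {T}) (x := algebraMap R _ c)

theorem B6Hyp.unif_mem (H : B6Hyp π T₀ V₁ w γ r) : algebraMap R F₁ π ∈ V₁ :=
  H.node.int_mem _ (b6_isIntegral_algebraMap _ _)

/-- both valuations restrict to the same valuation of `F₀` -/
theorem B6Hyp.hFV (H : B6Hyp π T₀ V₁ w γ r) (c : F₀) (hc : algebraMap F₀ F₁ c ∈ V₁) :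
    w (algebraMap F₀ F₁ c) ∈ V₁ := by
  have h1 := H.node.t5 (algebraMap F₀ F₁ c) ⟨c, rfl⟩ hc
  have h2 := V₁.mul_mem _ _ h1 H.unif_mem
  rw [div_mul_cancel₀ _ H.unif_ne_zero] at h2
  have h3 := V₁.add_mem _ _ h2 (V₁.toSubring.pow_mem (H.node.γ_V _ hc) r)
  rwa [sub_add_cancel] at h3

/-- elements of `B₀ ∖ z'` are units of both valuation rings -/
theorem B6Hyp.unit_mem (H : B6Hyp π T₀ V₁ w γ r)
    (z' : Ideal (integralClosure (Algebra.adjoin R {T₀}) F₀))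
    (hπz : algebraMap R (integralClosure (Algebra.adjoin R {T₀}) F₀) π ∈ z')
    (u : integralClosure (Algebra.adjoin R {T₀}) F₀) (hu : u ∉ z') :
    (algebraMap F₀ F₁ (u : F₀))⁻¹ ∈ V₁ ∧ w (algebraMap F₀ F₁ (u : F₀))⁻¹ ∈ V₁ := by
  have hI : IsIntegral (Algebra.adjoin R {algebraMap F₀ F₁ T₀}) (algebraMap F₀ F₁ (u : F₀)) :=
    (b6_isIntegral_map_iff T₀ _).2 u.2
  have h1 : (algebraMap F₀ F₁ (u : F₀))⁻¹ ∈ V₁ := by
    rcases H.unif _ (H.node.int_mem _ hI) with h | h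
    · exact h
    · exfalso
      have e1 : algebraMap F₀ F₁ (u : F₀) / algebraMap R F₁ π =
          algebraMap F₀ F₁ ((u : F₀) / algebraMap R F₀ π) := by
        rw [map_div₀, ← IsScalarTower.algebraMap_apply R F₀ F₁]
      rw [e1] at h
      have h2 := H.hFV _ h
      have h3 := H.sat _ h h2 (by
        rw [← e1, mul_div_cancel₀ _ H.unif_ne_zero]
        exact hI)
      rw [b6_isIntegral_map_iff] at h3
      apply hu
      have h0 : algebraMap R F₀ π ≠ 0 := by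
        intro h0
        apply H.unif_ne_zero
        rw [IsScalarTower.algebraMap_apply R F₀ F₁, h0, map_zero]
      have e2 : u = algebraMap R (integralClosure (Algebra.adjoin R {T₀}) F₀) π *
          ⟨(u : F₀) / algebraMap R F₀ π, h3⟩ := by
        apply Subtype.ext
        change (u : F₀) = algebraMap R F₀ π * ((u : F₀) / algebraMap R F₀ π)
        rw [mul_div_cancel₀ _ h0]
      rw [e2]
      exact z'.mul_mem_right _ hπz
  refine ⟨h1, ?_⟩
  rw [← map_inv₀] at h1 ⊢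
  exact H.hFV _ h1

section Dict

variable (z' : Ideal (integralClosure (Algebra.adjoin R {T₀}) F₀)) [z'.IsPrime]
    (O₀ S₁ : Type*) [CommRing O₀]
    [Algebra (integralClosure (Algebra.adjoin R {T₀}) F₀) O₀] [IsLocalization.AtPrime O₀ z']
    [Algebra O₀ F₀] [IsScalarTower (integralClosure (Algebra.adjoin R {T₀}) F₀) O₀ F₀]
    [Algebra O₀ F₁] [IsScalarTower O₀ F₀ F₁] [CommRing S₁] [Algebra O₀ S₁] [Algebra S₁ F₁]
    [IsScalarTower O₀ S₁ F₁] [IsIntegralClosure S₁ O₀ F₁]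

theorem b6_map_B (b : integralClosure (Algebra.adjoin R {T₀}) F₀) :
    algebraMap O₀ F₁ (algebraMap (integralClosure (Algebra.adjoin R {T₀}) F₀) O₀ b) =
      algebraMap F₀ F₁ (b : F₀) := by
  rw [IsScalarTower.algebraMap_apply O₀ F₀ F₁,
    ← IsScalarTower.algebraMap_apply (integralClosure (Algebra.adjoin R {T₀}) F₀) O₀ F₀]
  rfl

theorem b6_dictO (a : O₀) : ∃ b u : integralClosure (Algebra.adjoin R {T₀}) F₀, u ∉ z' ∧
    algebraMap O₀ F₁ a * algebraMap F₀ F₁ (u : F₀) = algebraMap F₀ F₁ (b : F₀) := by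
  obtain ⟨⟨b, u⟩, h⟩ := IsLocalization.surj z'.primeCompl a
  refine ⟨b, u, u.2, ?_⟩
  rw [← b6_map_B O₀, ← b6_map_B O₀, ← map_mul]
  exact congrArg _ h

theorem b6_dictO' (b u : integralClosure (Algebra.adjoin R {T₀}) F₀) (hu : u ∉ z') :
    ∃ a : O₀, algebraMap O₀ F₁ a = algebraMap F₀ F₁ (b : F₀) / algebraMap F₀ F₁ (u : F₀) := by
  refine ⟨IsLocalization.mk' O₀ b (⟨u, hu⟩ : z'.primeCompl), ?_⟩
  have hu0 : algebraMap F₀ F₁ (u : F₀) ≠ 0 := by
    intro h0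
    apply hu
    have : u = 0 := Subtype.ext ((map_eq_zero _).1 h0)
    rw [this]
    exact z'.zero_mem
  rw [eq_div_iff hu0, ← b6_map_B O₀, ← b6_map_B O₀, ← map_mul]
  exact congrArg _ (IsLocalization.mk'_spec O₀ b (⟨u, hu⟩ : z'.primeCompl))

/-- integral over `R[T₁]` implies integral over `O₀` -/
theorem b6_isIntegral_O {y : F₁}
    (hy : IsIntegral (Algebra.adjoin R {algebraMap F₀ F₁ T₀}) y) : IsIntegral O₀ y := by
  rw [isIntegral_adjoin_singleton_iff] at hy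
  have hmem : ∀ p : R[X], IsIntegral (Algebra.adjoin R {T₀}) (aeval T₀ p) := fun p =>
    isIntegral_algebraMap (R := Algebra.adjoin R {T₀}) (x := ⟨aeval T₀ p, by
      rw [Algebra.adjoin_singleton_eq_range_aeval]; exact ⟨p, rfl⟩⟩)
  let g : R[X] →+* integralClosure (Algebra.adjoin R {T₀}) F₀ :=
    ((aeval T₀ : R[X] →ₐ[R] F₀) : R[X] →+* F₀).codRestrict
      (integralClosure (Algebra.adjoin R {T₀}) F₀) hmem
  refine b6_isIntegralElem_of_comp _
    ((algebraMap (integralClosure (Algebra.adjoin R {T₀}) F₀) O₀).comp g) (algebraMap O₀ F₁)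
    (fun p => ?_) hy
  rw [RingHom.comp_apply, b6_map_B O₀]
  exact (aeval_algebraMap_apply F₁ T₀ p).symm

include O₀ in
theorem b6_dictS' (y : F₁) (u : integralClosure (Algebra.adjoin R {T₀}) F₀) (hu : u ∉ z')
    (h : IsIntegral (Algebra.adjoin R {algebraMap F₀ F₁ T₀}) (algebraMap F₀ F₁ (u : F₀) * y)) :
    ∃ x : S₁, algebraMap S₁ F₁ x = y := by
  obtain ⟨a, ha⟩ := b6_dictO' (F₁ := F₁) z' O₀ 1 u hu
  have hu0 : algebraMap F₀ F₁ (u : F₀) ≠ 0 := by
    intro h0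
    apply hu
    have : u = 0 := Subtype.ext ((map_eq_zero _).1 h0)
    rw [this]
    exact z'.zero_mem
  have hy : IsIntegral O₀ y := by
    have e : y = algebraMap O₀ F₁ a * (algebraMap F₀ F₁ (u : F₀) * y) := by
      rw [ha]
      change y = algebraMap F₀ F₁ 1 / _ * _
      rw [map_one]
      field_simp
    rw [e]
    exact isIntegral_algebraMap.mul (b6_isIntegral_O O₀ h)
  exact ⟨IsIntegralClosure.mk' S₁ y hy, IsIntegralClosure.algebraMap_mk' S₁ y hy⟩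

include O₀ in
theorem b6_dictS (x : S₁) : ∃ u : integralClosure (Algebra.adjoin R {T₀}) F₀, u ∉ z' ∧
    IsIntegral (Algebra.adjoin R {algebraMap F₀ F₁ T₀})
      (algebraMap F₀ F₁ (u : F₀) * algebraMap S₁ F₁ x) := by
  have hx : IsIntegral O₀ (algebraMap S₁ F₁ x) :=
    (IsIntegralClosure.isIntegral_iff (A := S₁)).2 ⟨x, rfl⟩
  haveI : IsScalarTower (integralClosure (Algebra.adjoin R {T₀}) F₀) O₀ F₁ :=
    IsScalarTower.of_algebraMap_eq fun b => (b6_map_B O₀ b).symm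
  obtain ⟨m, hm⟩ := IsIntegral.exists_multiple_integral_of_isLocalization z'.primeCompl _ hx
  refine ⟨m, m.2, ?_⟩
  have hm' : (algebraMap (integralClosure (Algebra.adjoin R {T₀}) F₀) F₁).IsIntegralElem
      (algebraMap F₀ F₁ ((m : integralClosure (Algebra.adjoin R {T₀}) F₀) : F₀) *
        algebraMap S₁ F₁ x) := by
    have e : m • algebraMap S₁ F₁ x =
        algebraMap F₀ F₁ ((m : integralClosure (Algebra.adjoin R {T₀}) F₀) : F₀) *
          algebraMap S₁ F₁ x := by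
      rw [Submonoid.smul_def, Algebra.smul_def]
      rfl
    rw [← e]
    exact hm
  let φ : integralClosure (Algebra.adjoin R {T₀}) F₀ →+*
      integralClosure (Algebra.adjoin R {algebraMap F₀ F₁ T₀}) F₁ :=
    ((algebraMap F₀ F₁).comp (algebraMap (integralClosure (Algebra.adjoin R {T₀}) F₀) F₀)).codRestrict
      (integralClosure (Algebra.adjoin R {algebraMap F₀ F₁ T₀}) F₁)
      (fun b => (b6_isIntegral_map_iff T₀ _).2 b.2)
  have h2 : IsIntegral (integralClosure (Algebra.adjoin R {algebraMap F₀ F₁ T₀}) F₁)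
      (algebraMap F₀ F₁ ((m : integralClosure (Algebra.adjoin R {T₀}) F₀) : F₀) *
        algebraMap S₁ F₁ x) :=
    b6_isIntegralElem_of_comp _ φ _ (fun a => rfl) hm'
  exact isIntegral_trans _ h2

end Dict

/-- the ideal `S₁ ∩ ϖ V` -/
def b6Ideal {S₁ : Type*} [CommRing S₁] [Algebra S₁ F₁] (V : ValuationSubring F₁) (ϖ : F₁)
    (hV : ∀ x : S₁, algebraMap S₁ F₁ x ∈ V) : Ideal S₁ where
  carrier := {x | algebraMap S₁ F₁ x / ϖ ∈ V}
  add_mem' := by
    intro a b ha hb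
    simp only [Set.mem_ofPred_eq, map_add, add_div] at *
    exact V.add_mem _ _ ha hb
  zero_mem' := by
    simp only [Set.mem_ofPred_eq, map_zero, zero_div]
    exact V.zero_mem
  smul_mem' := by
    intro c x hx
    simp only [smul_eq_mul, map_mul, Set.mem_ofPred_eq, mul_div_assoc] at *
    exact V.mul_mem _ _ (hV c) hx

theorem b6_mul_div_mem (V : ValuationSubring F₁) (ϖ : F₁) {c a : F₁} (hc : c ∈ V)
    (ha : a / ϖ ∈ V) : c * a / ϖ ∈ V := by
  rw [mul_div_assoc]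
  exact V.mul_mem _ _ hc ha

theorem b6_add_div_mem (V : ValuationSubring F₁) (ϖ : F₁) {a b : F₁} (ha : a / ϖ ∈ V)
    (hb : b / ϖ ∈ V) : (a + b) / ϖ ∈ V := by
  rw [add_div]
  exact V.add_mem _ _ ha hb

/-- Frobenius congruence on the second branch: `g ≡ (w γ g) ^ r mod π V₂` -/
theorem B6Hyp.frobV (H : B6Hyp π T₀ V₁ w γ r) (g : F₀) (hg : algebraMap F₀ F₁ g ∈ V₁) :
    (algebraMap F₀ F₁ g - w (γ (algebraMap F₀ F₁ g)) ^ r) / algebraMap R F₁ π ∈
      V₁.comap (w : F₁ →+* F₁) := by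
  show w _ ∈ V₁
  rw [H.node.w_div, map_sub, map_pow, H.node.w_w]
  exact H.node.t5 _ ⟨g, rfl⟩ hg

theorem B6Hyp.theta_unif (H : B6Hyp π T₀ V₁ w γ r) {x : F₁} (hx : x ∈ V₁) :
    w (γ (algebraMap R F₁ π)) * w (γ x) / algebraMap R F₁ π ∈ V₁.comap (w : F₁ →+* F₁) := by
  show w _ ∈ V₁
  rw [H.node.w_div, map_mul, H.node.w_w, H.node.w_w, mul_div_right_comm]
  exact V₁.mul_mem _ _ H.node.γ_unif (H.node.γ_V _ hx)

theorem B6Hyp.int_mem₂ (H : B6Hyp π T₀ V₁ w γ r) {x : F₁}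
    (hx : IsIntegral (Algebra.adjoin R {algebraMap F₀ F₁ T₀}) x) :
    x ∈ V₁.comap (w : F₁ →+* F₁) := H.node.int_mem₂ x hx

theorem B6Hyp.theta_int (H : B6Hyp π T₀ V₁ w γ r) {x : F₁}
    (hx : IsIntegral (Algebra.adjoin R {algebraMap F₀ F₁ T₀}) x) :
    IsIntegral (Algebra.adjoin R {algebraMap F₀ F₁ T₀}) (w (γ x)) :=
  H.node.w_int _ (H.node.γ_int _ hx)

/-- the core of `surjV` -/
theorem B6Hyp.surjV_core (H : B6Hyp π T₀ V₁ w γ r)
    (z' : Ideal (integralClosure (Algebra.adjoin R {T₀}) F₀))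
    (hπz : algebraMap R (integralClosure (Algebra.adjoin R {T₀}) F₀) π ∈ z')
    {t₀ : integralClosure (Algebra.adjoin R {T₀}) F₀}
    (hreg : ∀ g ∈ z', ∃ u, u ∉ z' ∧ u * g ∈
      Ideal.span {algebraMap R (integralClosure (Algebra.adjoin R {T₀}) F₀) π, t₀})
    (hres : ∀ b : integralClosure (Algebra.adjoin R {T₀}) F₀, ∃ c : R,
      b - algebraMap R (integralClosure (Algebra.adjoin R {T₀}) F₀) c ∈ z')
    (hperf : ∀ c : R, ∃ c₁ : R, π ∣ c - c₁ ^ r)
    {y : F₁} (hy : IsIntegral (Algebra.adjoin R {algebraMap F₀ F₁ T₀}) y) :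
    ∃ (c₁ : R) (u₂ : integralClosure (Algebra.adjoin R {T₀}) F₀) (Y : F₁), u₂ ∉ z' ∧
      IsIntegral (Algebra.adjoin R {algebraMap F₀ F₁ T₀}) Y ∧
      (y - algebraMap R F₁ c₁ - w (γ (algebraMap F₀ F₁ (t₀ : F₀))) *
        (Y / algebraMap F₀ F₁ (u₂ : F₀))) / algebraMap R F₁ π ∈ V₁.comap (w : F₁ →+* F₁) := by
  obtain ⟨k, rfl⟩ : ∃ k, r = k + 1 := ⟨r - 1, by have := H.node.two_le; omega⟩
  have hIB : ∀ b : integralClosure (Algebra.adjoin R {T₀}) F₀,
      IsIntegral (Algebra.adjoin R {algebraMap F₀ F₁ T₀}) (algebraMap F₀ F₁ (b : F₀)) :=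
    fun b => (b6_isIntegral_map_iff T₀ _).2 b.2
  obtain ⟨a₁, ⟨a₁', rfl⟩, ha₁I, ha₁⟩ := H.node.t6 (H.node.w_int _ hy)
  obtain ⟨a₂', ha₂'⟩ := H.γ_symm_old a₁'
  have ha₂I : IsIntegral (Algebra.adjoin R {T₀}) a₂' := by
    rw [← b6_isIntegral_map_iff (F₁ := F₁), ← ha₂']
    exact H.γ_symm_int _ ha₁I
  have hγa₂ : γ (algebraMap F₀ F₁ a₂') = algebraMap F₀ F₁ a₁' := by
    rw [← ha₂', RingEquiv.apply_symm_apply]
  obtain ⟨c, hc⟩ := hres ⟨a₂', ha₂I⟩
  obtain ⟨u₂, hu₂, hmem⟩ := hreg _ hc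
  obtain ⟨d₁, d₂, hd⟩ := Ideal.mem_span_pair.1 hmem
  obtain ⟨c₁, c₂, hc₂⟩ := hperf c
  have hcR : ∀ c : R, algebraMap F₀ F₁ (algebraMap R F₀ c) = algebraMap R F₁ c :=
    fun c => (IsScalarTower.algebraMap_apply R F₀ F₁ c).symm
  -- the relations in `F₁`
  set Θ : F₁ →+* F₁ := (w : F₁ →+* F₁).comp (γ : F₁ →+* F₁) with hΘ
  have hΘa : ∀ x, Θ x = w (γ x) := fun x => rfl
  set e : F₁ := algebraMap F₀ F₁ a₂' - algebraMap R F₁ c with he
  have hd' : algebraMap R F₁ π * algebraMap F₀ F₁ (d₁ : F₀) +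
      algebraMap F₀ F₁ (t₀ : F₀) * algebraMap F₀ F₁ (d₂ : F₀) =
      algebraMap F₀ F₁ (u₂ : F₀) * e := by
    have := congrArg (fun b : integralClosure (Algebra.adjoin R {T₀}) F₀ =>
      algebraMap F₀ F₁ (b : F₀)) hd
    simp only [Subalgebra.coe_add, Subalgebra.coe_mul, Subalgebra.coe_sub, map_add, map_mul,
      map_sub] at this
    have e1 : ((algebraMap R (integralClosure (Algebra.adjoin R {T₀}) F₀) π :
      integralClosure (Algebra.adjoin R {T₀}) F₀) : F₀) = algebraMap R F₀ π := rfl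
    have e2 : ((algebraMap R (integralClosure (Algebra.adjoin R {T₀}) F₀) c :
      integralClosure (Algebra.adjoin R {T₀}) F₀) : F₀) = algebraMap R F₀ c := rfl
    rw [e1, e2, hcR, hcR] at this
    rw [he, ← this]
    ring
  have hc' : algebraMap R F₁ c = algebraMap R F₁ c₁ ^ (k + 1) +
      algebraMap R F₁ π * algebraMap R F₁ c₂ := by
    rw [← map_pow, ← map_mul, ← map_add, ← hc₂]
    congr 1
    ring
  have hu0 : algebraMap F₀ F₁ (u₂ : F₀) ≠ 0 := by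
    intro h0
    apply hu₂
    have : u₂ = 0 := Subtype.ext ((map_eq_zero _).1 h0)
    rw [this]
    exact z'.zero_mem
  refine ⟨c₁, u₂, Θ (algebraMap F₀ F₁ (d₂ : F₀)) * Θ (algebraMap F₀ F₁ (u₂ : F₀)) ^ k, hu₂,
    (H.theta_int (hIB d₂)).mul ((H.theta_int (hIB u₂)).pow k), ?_⟩
  -- the five terms
  have hV₂ := fun {x : F₁} (hx : IsIntegral (Algebra.adjoin R {algebraMap F₀ F₁ T₀}) x) =>
    H.int_mem₂ hx
  have hRI := fun c : R => b6_isIntegral_algebraMap (R := R) (algebraMap F₀ F₁ T₀) c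
  have t1 : (y - Θ (algebraMap F₀ F₁ a₂')) / algebraMap R F₁ π ∈ V₁.comap (w : F₁ →+* F₁) := by
    show w _ ∈ V₁
    rw [H.node.w_div, map_sub, hΘa, H.node.w_w, hγa₂]
    exact ha₁
  have t2 : (Θ (algebraMap R F₁ c₁) ^ (k + 1) - algebraMap R F₁ c₁) / algebraMap R F₁ π ∈
      V₁.comap (w : F₁ →+* F₁) := by
    have := H.frobV (algebraMap R F₀ c₁) (by rw [hcR]; exact H.node.int_mem _ (hRI c₁))
    rw [hcR] at this
    have h2 := (V₁.comap (w : F₁ →+* F₁)).neg_mem _ this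
    rwa [← neg_div, neg_sub] at h2
  have t3 : Θ (algebraMap R F₁ π) * Θ (algebraMap R F₁ c₂) / algebraMap R F₁ π ∈
      V₁.comap (w : F₁ →+* F₁) := H.theta_unif (H.node.int_mem _ (hRI c₂))
  have heI : IsIntegral (Algebra.adjoin R {algebraMap F₀ F₁ T₀}) e :=
    ((b6_isIntegral_map_iff T₀ _).2 ha₂I).sub (hRI c)
  have hinv := (H.unit_mem z' hπz u₂ hu₂).2
  have t4 : (Θ e * (algebraMap F₀ F₁ (u₂ : F₀))⁻¹) *
      (algebraMap F₀ F₁ (u₂ : F₀) - Θ (algebraMap F₀ F₁ (u₂ : F₀)) ^ (k + 1)) /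
      algebraMap R F₁ π ∈ V₁.comap (w : F₁ →+* F₁) :=
    b6_mul_div_mem _ _ ((V₁.comap (w : F₁ →+* F₁)).mul_mem _ _ (hV₂ (H.theta_int heI)) hinv)
      (H.frobV _ (H.node.int_mem _ (hIB u₂)))
  have t5 : (Θ (algebraMap F₀ F₁ (u₂ : F₀)) ^ k * (algebraMap F₀ F₁ (u₂ : F₀))⁻¹) *
      (Θ (algebraMap R F₁ π) * Θ (algebraMap F₀ F₁ (d₁ : F₀))) /
      algebraMap R F₁ π ∈ V₁.comap (w : F₁ →+* F₁) :=
    b6_mul_div_mem _ _ ((V₁.comap (w : F₁ →+* F₁)).mul_mem _ _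
      (hV₂ ((H.theta_int (hIB u₂)).pow k)) hinv) (H.theta_unif (H.node.int_mem _ (hIB d₁)))
  have hsum := b6_add_div_mem _ _ (b6_add_div_mem _ _ (b6_add_div_mem _ _
    (b6_add_div_mem _ _ t1 t2) t3) t4) t5
  convert hsum using 2
  have r1 : Θ (algebraMap F₀ F₁ a₂') = Θ (algebraMap R F₁ c₁) ^ (k + 1) +
      Θ (algebraMap R F₁ π) * Θ (algebraMap R F₁ c₂) + Θ e := by
    rw [he, map_sub, hc', map_add, map_pow, map_mul]
    ring
  have r2 : Θ (algebraMap R F₁ π) * Θ (algebraMap F₀ F₁ (d₁ : F₀)) +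
      Θ (algebraMap F₀ F₁ (t₀ : F₀)) * Θ (algebraMap F₀ F₁ (d₂ : F₀)) =
      Θ (algebraMap F₀ F₁ (u₂ : F₀)) * Θ e := by
    rw [← map_mul, ← map_mul, ← map_add, hd', map_mul]
  rw [r1, ← hΘa]
  field_simp
  linear_combination (-(Θ (algebraMap F₀ F₁ (u₂ : F₀)) ^ k)) * r2

/-- **B6c** -/
theorem b6c_bData (H : B6Hyp π T₀ V₁ w γ r)
    (hprime : Prime (algebraMap R (integralClosure (Algebra.adjoin R {T₀}) F₀) π))
    (z' : Ideal (integralClosure (Algebra.adjoin R {T₀}) F₀)) [z'.IsMaximal]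
    (hπz : algebraMap R (integralClosure (Algebra.adjoin R {T₀}) F₀) π ∈ z')
    {t₀ : integralClosure (Algebra.adjoin R {T₀}) F₀} (ht₀ : t₀ ∈ z')
    (hreg : ∀ g ∈ z', ∃ u, u ∉ z' ∧ u * g ∈
      Ideal.span {algebraMap R (integralClosure (Algebra.adjoin R {T₀}) F₀) π, t₀})
    (hres : ∀ b : integralClosure (Algebra.adjoin R {T₀}) F₀, ∃ c : R,
      b - algebraMap R (integralClosure (Algebra.adjoin R {T₀}) F₀) c ∈ z')
    (hperf : ∀ c : R, ∃ c₁ : R, π ∣ c - c₁ ^ r)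
    (O₀ S₁ : Type*) [CommRing O₀] [IsLocalRing O₀]
    [Algebra (integralClosure (Algebra.adjoin R {T₀}) F₀) O₀] [IsLocalization.AtPrime O₀ z']
    [Algebra O₀ F₀] [IsScalarTower (integralClosure (Algebra.adjoin R {T₀}) F₀) O₀ F₀]
    [Algebra O₀ F₁] [IsScalarTower O₀ F₀ F₁] [CommRing S₁] [Algebra O₀ S₁] [Algebra S₁ F₁]
    [IsScalarTower O₀ S₁ F₁] [IsIntegralClosure S₁ O₀ F₁] :
    ∃ (s : S₁) (pF pV : Ideal S₁),
      algebraMap S₁ F₁ s = w (γ (algebraMap F₀ F₁ (t₀ : F₀))) ∧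
      BData O₀ S₁ F₁
        (algebraMap (integralClosure (Algebra.adjoin R {T₀}) F₀) O₀
          (algebraMap R (integralClosure (Algebra.adjoin R {T₀}) F₀) π))
        (algebraMap (integralClosure (Algebra.adjoin R {T₀}) F₀) O₀ t₀) s pF pV V₁
        (V₁.comap (w : F₁ →+* F₁)) r := by
  have hIB : ∀ b : integralClosure (Algebra.adjoin R {T₀}) F₀,
      IsIntegral (Algebra.adjoin R {algebraMap F₀ F₁ T₀}) (algebraMap F₀ F₁ (b : F₀)) :=
    fun b => (b6_isIntegral_map_iff T₀ _).2 b.2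
  have hSO : ∀ a : O₀, algebraMap S₁ F₁ (algebraMap O₀ S₁ a) = algebraMap O₀ F₁ a :=
    fun a => (IsScalarTower.algebraMap_apply O₀ S₁ F₁ a).symm
  have hϖ : algebraMap S₁ F₁ (algebraMap O₀ S₁
      (algebraMap (integralClosure (Algebra.adjoin R {T₀}) F₀) O₀
        (algebraMap R (integralClosure (Algebra.adjoin R {T₀}) F₀) π))) = algebraMap R F₁ π := by
    rw [hSO, b6_map_B O₀, IsScalarTower.algebraMap_apply R F₀ F₁]
    rfl
  have hu0 : ∀ u : integralClosure (Algebra.adjoin R {T₀}) F₀, u ∉ z' →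
      algebraMap F₀ F₁ (u : F₀) ≠ 0 := by
    intro u hu h0
    apply hu
    have : u = 0 := Subtype.ext ((map_eq_zero _).1 h0)
    rw [this]
    exact z'.zero_mem
  have memV₁ : ∀ x : S₁, algebraMap S₁ F₁ x ∈ V₁ := by
    intro x
    obtain ⟨u, hu, hx⟩ := b6_dictS (F₁ := F₁) z' O₀ S₁ x
    have e : algebraMap S₁ F₁ x = (algebraMap F₀ F₁ (u : F₀))⁻¹ *
        (algebraMap F₀ F₁ (u : F₀) * algebraMap S₁ F₁ x) := by
      rw [← mul_assoc, inv_mul_cancel₀ (hu0 u hu), one_mul]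
    rw [e]
    exact V₁.mul_mem _ _ (H.unit_mem z' hπz u hu).1 (H.node.int_mem _ hx)
  have memV₂ : ∀ x : S₁, algebraMap S₁ F₁ x ∈ V₁.comap (w : F₁ →+* F₁) := by
    intro x
    obtain ⟨u, hu, hx⟩ := b6_dictS (F₁ := F₁) z' O₀ S₁ x
    have e : algebraMap S₁ F₁ x = (algebraMap F₀ F₁ (u : F₀))⁻¹ *
        (algebraMap F₀ F₁ (u : F₀) * algebraMap S₁ F₁ x) := by
      rw [← mul_assoc, inv_mul_cancel₀ (hu0 u hu), one_mul]
    rw [e]
    exact (V₁.comap (w : F₁ →+* F₁)).mul_mem _ _ (H.unit_mem z' hπz u hu).2 (H.int_mem₂ hx)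
  have h1z : (1 : integralClosure (Algebra.adjoin R {T₀}) F₀) ∉ z' :=
    (Ideal.ne_top_iff_one z').1 (Ideal.IsPrime.ne_top inferInstance)
  obtain ⟨s, hs⟩ := b6_dictS' z' O₀ S₁ (w (γ (algebraMap F₀ F₁ (t₀ : F₀)))) 1 h1z (by
    have : ((1 : integralClosure (Algebra.adjoin R {T₀}) F₀) : F₀) = 1 := rfl
    rw [this, map_one, one_mul]
    exact H.theta_int (hIB t₀))
  refine ⟨s, b6Ideal V₁ (algebraMap R F₁ π) memV₁,
    b6Ideal (V₁.comap (w : F₁ →+* F₁)) (algebraMap R F₁ π) memV₂, hs, ?_⟩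
  have hunit : ∀ u : integralClosure (Algebra.adjoin R {T₀}) F₀, u ∉ z' →
      IsUnit (algebraMap (integralClosure (Algebra.adjoin R {T₀}) F₀) O₀ u) :=
    fun u hu => IsLocalization.map_units O₀ (⟨u, hu⟩ : z'.primeCompl)
  refine
    { r_pos := by have := H.node.two_le; omega
      max_eq := ?_
      prime_pi := ?_
      mem_VF := memV₁
      mem_VV := memV₂
      mem_pF := fun x => by rw [hϖ]; rfl
      mem_pV := fun x => by rw [hϖ]; rfl
      unif_VF := fun z hz => by rw [hϖ]; exact H.unif z hz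
      unif_VV := fun z hz => ?_
      pi_VF := by rw [hϖ]; exact H.pi_not
      pi_VV := ?_
      sat := ?_
      surjF := ?_
      surjV := ?_
      s_pow := ?_
      rad := ?_ }
  · -- max_eq
    rw [← IsLocalization.AtPrime.map_eq_maximalIdeal z' O₀]
    apply le_antisymm
    · rw [Ideal.map_le_iff_le_comap]
      intro g hg
      obtain ⟨u, hu, hmem⟩ := hreg g hg
      have h1 := Ideal.mem_map_of_mem
        (algebraMap (integralClosure (Algebra.adjoin R {T₀}) F₀) O₀) hmem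
      rw [Ideal.map_span, Set.image_pair, map_mul] at h1
      exact (Ideal.unit_mul_mem_iff_mem _ (hunit u hu)).1 h1
    · rw [Ideal.span_le]
      rintro x (rfl | rfl)
      · exact Ideal.mem_map_of_mem _ hπz
      · exact Ideal.mem_map_of_mem _ ht₀
  · -- prime_pi
    have hp : (Ideal.span {algebraMap R (integralClosure (Algebra.adjoin R {T₀}) F₀) π}).IsPrime :=
      (Ideal.span_singleton_prime hprime.ne_zero).2 hprime
    have hd : Disjoint (z'.primeCompl : Set (integralClosure (Algebra.adjoin R {T₀}) F₀))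
        ↑(Ideal.span {algebraMap R (integralClosure (Algebra.adjoin R {T₀}) F₀) π}) := by
      rw [Set.disjoint_left]
      intro x hx hx'
      exact hx ((Ideal.span_singleton_le_iff_mem z').2 hπz hx')
    have h1 := IsLocalization.isPrime_of_isPrime_disjoint z'.primeCompl O₀ _ hp hd
    rw [Ideal.map_span, Set.image_singleton] at h1
    refine (Ideal.span_singleton_prime ?_).1 h1
    rw [Ne, map_eq_zero_iff _ (IsLocalization.injective O₀ z'.primeCompl_le_nonZeroDivisors)]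
    exact hprime.ne_zero
  · -- unif_VV
    rw [hϖ]
    rcases H.unif (w z) hz with h | h
    · left
      show w _ ∈ V₁
      rwa [map_inv₀]
    · right
      show w _ ∈ V₁
      rwa [H.node.w_div]
  · -- pi_VV
    rw [hϖ]
    intro h
    have h' : w (algebraMap R F₁ π)⁻¹ ∈ V₁ := h
    rw [map_inv₀, H.node.w_unif] at h'
    exact H.pi_not h'
  · -- sat
    intro z hz hz' hx
    rw [hϖ] at hx
    obtain ⟨x, hx⟩ := hx
    obtain ⟨u, hu, hux⟩ := b6_dictS (F₁ := F₁) z' O₀ S₁ x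
    obtain ⟨y, hy⟩ := b6_dictS' z' O₀ S₁ z u hu (by
      refine H.sat _ (V₁.mul_mem _ _ (H.node.int_mem _ (hIB u)) hz) ?_ ?_
      · rw [map_mul]
        exact V₁.mul_mem _ _ (H.int_mem₂ (hIB u)) hz'
      · rw [mul_left_comm, hx]
        exact hux)
    exact ⟨y, hy.symm⟩
  · -- surjF
    intro x
    obtain ⟨u, hu, hux⟩ := b6_dictS (F₁ := F₁) z' O₀ S₁ x
    obtain ⟨x', ⟨b, rfl⟩, hbI, hb⟩ := H.node.t6 hux
    obtain ⟨a, ha⟩ := b6_dictO' (F₁ := F₁) z' O₀ ⟨b, (b6_isIntegral_map_iff T₀ _).1 hbI⟩ u hu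
    refine ⟨a, ?_⟩
    show algebraMap S₁ F₁ _ / _ ∈ V₁
    rw [map_sub, hSO, ha]
    have e : (algebraMap S₁ F₁ x - algebraMap F₀ F₁ b / algebraMap F₀ F₁ (u : F₀)) /
        algebraMap R F₁ π = (algebraMap F₀ F₁ (u : F₀))⁻¹ *
        ((algebraMap F₀ F₁ (u : F₀) * algebraMap S₁ F₁ x - algebraMap F₀ F₁ b) /
          algebraMap R F₁ π) := by
      have := hu0 u hu
      have := H.unif_ne_zero
      field_simp
    rw [e]
    exact V₁.mul_mem _ _ (H.unit_mem z' hπz u hu).1 hb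
  · -- surjV
    intro x
    obtain ⟨u, hu, hux⟩ := b6_dictS (F₁ := F₁) z' O₀ S₁ x
    obtain ⟨c₁, u₂, Y, hu₂, hY, hcore⟩ := H.surjV_core z' hπz hreg hres hperf hux
    obtain ⟨a, ha⟩ := b6_dictO' (F₁ := F₁) z' O₀
      (algebraMap R (integralClosure (Algebra.adjoin R {T₀}) F₀) c₁) u hu
    have huu : u * u₂ ∉ z' := fun h =>
      ((Ideal.IsPrime.mem_or_mem inferInstance h).elim hu hu₂)
    obtain ⟨y, hy⟩ := b6_dictS' z' O₀ S₁
      (Y / (algebraMap F₀ F₁ (u₂ : F₀) * algebraMap F₀ F₁ (u : F₀))) (u * u₂) huu (by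
      have e : algebraMap F₀ F₁ ((u * u₂ : integralClosure (Algebra.adjoin R {T₀}) F₀) : F₀) *
          (Y / (algebraMap F₀ F₁ (u₂ : F₀) * algebraMap F₀ F₁ (u : F₀))) = Y := by
        rw [Subalgebra.coe_mul, map_mul]
        have := hu0 u hu
        have := hu0 u₂ hu₂
        field_simp
      rw [e]
      exact hY)
    refine ⟨a, y, ?_⟩
    show algebraMap S₁ F₁ _ / _ ∈ V₁.comap (w : F₁ →+* F₁)
    rw [map_sub, map_sub, map_mul, hSO, ha, hy, hs]
    have e1 : ((algebraMap R (integralClosure (Algebra.adjoin R {T₀}) F₀) c₁ :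
      integralClosure (Algebra.adjoin R {T₀}) F₀) : F₀) = algebraMap R F₀ c₁ := rfl
    rw [e1, ← IsScalarTower.algebraMap_apply R F₀ F₁]
    have e : (algebraMap S₁ F₁ x - algebraMap R F₁ c₁ / algebraMap F₀ F₁ (u : F₀) -
        w (γ (algebraMap F₀ F₁ (t₀ : F₀))) *
          (Y / (algebraMap F₀ F₁ (u₂ : F₀) * algebraMap F₀ F₁ (u : F₀)))) /
        algebraMap R F₁ π = (algebraMap F₀ F₁ (u : F₀))⁻¹ *
        ((algebraMap F₀ F₁ (u : F₀) * algebraMap S₁ F₁ x - algebraMap R F₁ c₁ -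
          w (γ (algebraMap F₀ F₁ (t₀ : F₀))) * (Y / algebraMap F₀ F₁ (u₂ : F₀))) /
          algebraMap R F₁ π) := by
      have := hu0 u hu
      have := hu0 u₂ hu₂
      have := H.unif_ne_zero
      field_simp
    rw [e]
    exact (V₁.comap (w : F₁ →+* F₁)).mul_mem _ _ (H.unit_mem z' hπz u hu).2 hcore
  · -- s_pow
    show algebraMap S₁ F₁ _ / _ ∈ V₁.comap (w : F₁ →+* F₁)
    rw [map_sub, map_pow, hs, hSO, b6_map_B O₀]
    have h1 := H.frobV (t₀ : F₀) (H.node.int_mem _ (hIB t₀))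
    have h2 := (V₁.comap (w : F₁ →+* F₁)).neg_mem _ h1
    rwa [← neg_div, neg_sub] at h2
  · -- rad
    have NH := H.node.nodeHyp ((γ : F₁ →+* F₁).comp (γ : F₁ →+* F₁)) (fun x => rfl)
    intro x hx
    obtain ⟨n, hn⟩ := hx
    obtain ⟨f, hf, v, hv, hfv⟩ := Submodule.mem_sup.1 hn
    obtain ⟨u, hu, hux⟩ := b6_dictS (F₁ := F₁) z' O₀ S₁ x
    obtain ⟨u₁, hu₁, huf⟩ := b6_dictS (F₁ := F₁) z' O₀ S₁ f
    obtain ⟨u₂, hu₂, huv⟩ := b6_dictS (F₁ := F₁) z' O₀ S₁ v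
    have hf' : algebraMap S₁ F₁ f / algebraMap R F₁ π ∈ V₁ := hf
    have hv' : algebraMap S₁ F₁ v / algebraMap R F₁ π ∈ V₁.comap (w : F₁ →+* F₁) := hv
    set U := algebraMap F₀ F₁ (u : F₀) with hU
    set U₁ := algebraMap F₀ F₁ (u₁ : F₀) with hU₁
    set U₂ := algebraMap F₀ F₁ (u₂ : F₀) with hU₂
    have hUn : U ≠ 0 := hu0 u hu
    have hU₁n : U₁ ≠ 0 := hu0 u₁ hu₁
    have hU₂n : U₂ ≠ 0 := hu0 u₂ hu₂
    have j1 : InJ π (algebraMap F₀ F₁ T₀) V₁ (V₁.comap (w : F₁ →+* F₁))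
        (U₂ * (U₁ * algebraMap S₁ F₁ f)) :=
      InJ.of_div_mem₁ ((hIB u₂).mul huf) (b6_mul_div_mem _ _ (H.node.int_mem _ (hIB u₂))
        (b6_mul_div_mem _ _ (H.node.int_mem _ (hIB u₁)) hf'))
    have j2 : InJ π (algebraMap F₀ F₁ T₀) V₁ (V₁.comap (w : F₁ →+* F₁))
        (U₁ * (U₂ * algebraMap S₁ F₁ v)) :=
      InJ.of_div_mem₂ ((hIB u₁).mul huv) (b6_mul_div_mem _ _ (H.int_mem₂ (hIB u₁))
        (b6_mul_div_mem _ _ (H.int_mem₂ (hIB u₂)) hv'))
    have hZ : IsIntegral (Algebra.adjoin R {algebraMap F₀ F₁ T₀})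
        (U₁ * U₂ * (U * algebraMap S₁ F₁ x)) := ((hIB u₁).mul (hIB u₂)).mul hux
    have j3 : InJ π (algebraMap F₀ F₁ T₀) V₁ (V₁.comap (w : F₁ →+* F₁))
        ((U₁ * U₂ * (U * algebraMap S₁ F₁ x)) ^ (n + 1)) := by
      have e : (U₁ * U₂ * (U * algebraMap S₁ F₁ x)) ^ (n + 1) =
          ((U₁ * U₂) ^ n * U ^ n * (U * algebraMap S₁ F₁ x)) *
            (U₂ * (U₁ * algebraMap S₁ F₁ f) + U₁ * (U₂ * algebraMap S₁ F₁ v)) := by
        have : algebraMap S₁ F₁ f + algebraMap S₁ F₁ v = algebraMap S₁ F₁ x ^ n := by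
          rw [← map_add, hfv, map_pow]
        have e2 : U₂ * (U₁ * algebraMap S₁ F₁ f) + U₁ * (U₂ * algebraMap S₁ F₁ v) =
            U₁ * U₂ * algebraMap S₁ F₁ x ^ n := by
          rw [← this]; ring
        rw [e2]
        ring
      rw [e]
      exact (j1.add j2).mul_left NH
        (((((hIB u₁).mul (hIB u₂)).pow n).mul ((hIB u).pow n)).mul hux)
    obtain ⟨-, Y, hYI, hY₂, hY₁⟩ := InJ.radical NH hZ j3
    have hc : u₁ * u₂ * u ∉ z' := fun h =>
      (Ideal.IsPrime.mem_or_mem inferInstance h).elim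
        (fun h => (Ideal.IsPrime.mem_or_mem inferInstance h).elim hu₁ hu₂) hu
    have hcc : algebraMap F₀ F₁ ((u₁ * u₂ * u : integralClosure (Algebra.adjoin R {T₀}) F₀) : F₀) =
        U₁ * U₂ * U := by
      rw [Subalgebra.coe_mul, Subalgebra.coe_mul, map_mul, map_mul]
    obtain ⟨yV, hyV⟩ := b6_dictS' z' O₀ S₁ (Y / (U₁ * U₂ * U)) (u₁ * u₂ * u) hc (by
      rw [hcc, mul_div_cancel₀ _ (mul_ne_zero (mul_ne_zero hU₁n hU₂n) hUn)]
      exact hYI)
    obtain ⟨yF, hyF⟩ := b6_dictS' z' O₀ S₁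
      ((U₁ * U₂ * (U * algebraMap S₁ F₁ x) - Y) / (U₁ * U₂ * U)) (u₁ * u₂ * u) hc (by
      rw [hcc, mul_div_cancel₀ _ (mul_ne_zero (mul_ne_zero hU₁n hU₂n) hUn)]
      exact hZ.sub hYI)
    have hinv := H.unit_mem z' hπz _ hc
    rw [hcc] at hinv
    have hx : x = yF + yV := by
      apply IsIntegralClosure.algebraMap_injective S₁ O₀ F₁
      rw [map_add, hyF, hyV]
      field_simp
      ring
    rw [hx]
    refine Submodule.add_mem_sup ?_ ?_
    · show algebraMap S₁ F₁ yF / _ ∈ V₁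
      rw [hyF]
      have e : (U₁ * U₂ * (U * algebraMap S₁ F₁ x) - Y) / (U₁ * U₂ * U) / algebraMap R F₁ π =
          (U₁ * U₂ * U)⁻¹ * (-((Y - U₁ * U₂ * (U * algebraMap S₁ F₁ x)) / algebraMap R F₁ π)) := by
        have := H.unif_ne_zero
        field_simp
        ring
      rw [e]
      exact V₁.mul_mem _ _ hinv.1 (V₁.neg_mem _ hY₁)
    · show algebraMap S₁ F₁ yV / _ ∈ V₁.comap (w : F₁ →+* F₁)
      rw [hyV]
      have e : Y / (U₁ * U₂ * U) / algebraMap R F₁ π =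
          (U₁ * U₂ * U)⁻¹ * (Y / algebraMap R F₁ π) := by
        have := H.unif_ne_zero
        field_simp
      rw [e]
      exact (V₁.comap (w : F₁ →+* F₁)).mul_mem _ _ hinv.2 hY₂

end B6c

end Fermat.Agent.CARlib
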