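import Mathlib

/-!
# T-CAR, block B, row B6d: closed points of the special fibre are `k`-rational

* `b6d_isIntegral_of_polynomial`: a field which is integral over `k[X]` is integral over `k`;
* `b6d_res`: for `B` = integral closure of `R[T]` in `F`, `R` a discrete valuation ring with
  algebraically closed residue field, every maximal ideal `x ∋ π` of `B` has residue field `R / π`;
* `b6d_perf`: `r`-th roots modulo `π`.
-/

set_option autoImplicit false

open IsLocalRing Polynomial

namespace Fermat.Agent.CARlib

/-- a field which is integral over `k[X]` is integral over `k` (Zariski's lemma, one variable) -/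
theorem b6d_isIntegral_of_polynomial {k L : Type*} [Field k] [Field L] [Algebra k L]
    (h : k[X] →ₐ[k] L) (hh : (h : k[X] →+* L).IsIntegral) : Algebra.IsIntegral k L := by
  have hmax : (RingHom.ker (h : k[X] →+* L)).IsMaximal := by
    have := Ideal.isMaximal_comap_of_isIntegral_of_isMaximal' (h : k[X] →+* L) hh (⊥ : Ideal L)
    exact this
  have h1 := Polynomial.quotient_mk_comp_C_isIntegral_of_isJacobsonRing
    (RingHom.ker (h : k[X] →+* L))
  have h2 : (RingHom.kerLift (h : k[X] →+* L)).IsIntegral := by
    apply RingHom.IsIntegral.tower_top (Ideal.Quotient.mk (RingHom.ker (h : k[X] →+* L)))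
    have : (RingHom.kerLift (h : k[X] →+* L)).comp
        (Ideal.Quotient.mk (RingHom.ker (h : k[X] →+* L))) = (h : k[X] →+* L) := by
      ext <;> simp
    rw [this]
    exact hh
  have h3 := h1.trans _ _ h2
  have h4 : (RingHom.kerLift (h : k[X] →+* L)).comp
      ((Ideal.Quotient.mk (RingHom.ker (h : k[X] →+* L))).comp C) = algebraMap k L := by
    ext a
    simpa using h.commutes a
  rw [h4] at h3
  exact algebraMap_isIntegral_iff.mp h3

/-- **B6d**: closed points of the special fibre are `k`-rational -/
theorem b6d_res {R F : Type*} [CommRing R] [IsDomain R] [IsDiscreteValuationRing R] [Field F]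
    [Algebra R F] [IsAlgClosed (ResidueField R)] {π : R} (hπ : Irreducible π) (T : F)
    (x : Ideal (integralClosure (Algebra.adjoin R {T}) F)) (hx : x.IsMaximal)
    (hπx : algebraMap R (integralClosure (Algebra.adjoin R {T}) F) π ∈ x)
    (b : integralClosure (Algebra.adjoin R {T}) F) :
    ∃ c : R, b - algebraMap R (integralClosure (Algebra.adjoin R {T}) F) c ∈ x := by
  classical
  let _ : Field (integralClosure (Algebra.adjoin R {T}) F ⧸ x) := Ideal.Quotient.field x
  let φ : R →+* integralClosure (Algebra.adjoin R {T}) F ⧸ x :=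
    (Ideal.Quotient.mk x).comp (algebraMap R (integralClosure (Algebra.adjoin R {T}) F))
  have hφ : ∀ a ∈ maximalIdeal R, φ a = 0 := by
    intro a ha
    rw [hπ.maximalIdeal_eq, Ideal.mem_span_singleton] at ha
    obtain ⟨c, rfl⟩ := ha
    have : φ π = 0 := Ideal.Quotient.eq_zero_iff_mem.mpr hπx
    rw [map_mul, this, zero_mul]
  let ψ : ResidueField R →+* integralClosure (Algebra.adjoin R {T}) F ⧸ x :=
    Ideal.Quotient.lift _ φ hφ
  have hψ : ∀ a : R, ψ (residue R a) = φ a := fun a => Ideal.Quotient.lift_mk _ _ _
  let _ : Algebra (ResidueField R) (integralClosure (Algebra.adjoin R {T}) F ⧸ x) := ψ.toAlgebra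
  let TA : Algebra.adjoin R {T} := ⟨T, Algebra.subset_adjoin rfl⟩
  let q : R[X] →ₐ[R] Algebra.adjoin R {T} := aeval TA
  have hq : Function.Surjective q := by
    rintro ⟨a, ha⟩
    rw [Algebra.adjoin_singleton_eq_range_aeval] at ha
    obtain ⟨p, rfl⟩ := ha
    refine ⟨p, Subtype.ext ?_⟩
    change (Algebra.adjoin R {T}).val (aeval TA p) = _
    rw [← aeval_algHom_apply]
    rfl
  let h : (ResidueField R)[X] →ₐ[ResidueField R] (integralClosure (Algebra.adjoin R {T}) F ⧸ x) :=
    aeval (Ideal.Quotient.mk x (algebraMap (Algebra.adjoin R {T}) _ TA))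
  have hG : ((Ideal.Quotient.mk x).comp
      ((algebraMap (Algebra.adjoin R {T}) (integralClosure (Algebra.adjoin R {T}) F)).comp
        (q : R[X] →+* Algebra.adjoin R {T}))).IsIntegral := by
    refine RingHom.IsIntegral.trans _ _ (RingHom.IsIntegral.trans _ _
      (RingHom.isIntegral_of_surjective _ hq) ?_)
      (RingHom.isIntegral_of_surjective _ Ideal.Quotient.mk_surjective)
    exact algebraMap_isIntegral_iff.mpr inferInstance
  have hcomp : ((Ideal.Quotient.mk x).comp
      ((algebraMap (Algebra.adjoin R {T}) (integralClosure (Algebra.adjoin R {T}) F)).comp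
        (q : R[X] →+* Algebra.adjoin R {T}))) =
      (h : (ResidueField R)[X] →+* integralClosure (Algebra.adjoin R {T}) F ⧸ x).comp
        (Polynomial.mapRingHom (residue R)) := by
    apply Polynomial.ringHom_ext
    · intro a
      have e1 : (h : (ResidueField R)[X] →+* integralClosure (Algebra.adjoin R {T}) F ⧸ x)
          (C (residue R a)) = φ a := by
        change h (C (residue R a)) = _
        rw [aeval_C]
        exact hψ a
      simp only [RingHom.comp_apply, coe_mapRingHom, map_C, e1]
      change _ = Ideal.Quotient.mk x _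
      congr 1
      change algebraMap _ _ (q (C a)) = _
      rw [aeval_C]
      rfl
    · simp only [RingHom.comp_apply, coe_mapRingHom, map_X]
      change Ideal.Quotient.mk x (algebraMap _ _ (q X)) = h X
      rw [aeval_X, aeval_X]
  have hh : (h : (ResidueField R)[X] →+* integralClosure (Algebra.adjoin R {T}) F ⧸ x).IsIntegral := by
    apply RingHom.IsIntegral.tower_top (Polynomial.mapRingHom (residue R))
    rw [← hcomp]
    exact hG
  have := b6d_isIntegral_of_polynomial h hh
  obtain ⟨c', hc'⟩ := (IsAlgClosed.algebraMap_bijective_of_isIntegral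
    (k := ResidueField R)
    (K := integralClosure (Algebra.adjoin R {T}) F ⧸ x)).2 (Ideal.Quotient.mk x b)
  obtain ⟨c, rfl⟩ := residue_surjective c'
  refine ⟨c, ?_⟩
  rw [← Ideal.Quotient.eq]
  rw [← hc']
  exact hψ c

/-- `r`-th roots modulo `π` -/
theorem b6d_perf {R : Type*} [CommRing R] [IsDomain R] [IsDiscreteValuationRing R]
    [IsAlgClosed (ResidueField R)] {π : R} (hπ : Irreducible π) {r : ℕ} (hr : 0 < r) (c : R) :
    ∃ c₁ : R, π ∣ c - c₁ ^ r := by
  obtain ⟨z, hz⟩ := IsAlgClosed.exists_pow_nat_eq (residue R c) hr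
  obtain ⟨c₁, rfl⟩ := residue_surjective z
  refine ⟨c₁, ?_⟩
  rw [← Ideal.mem_span_singleton, ← hπ.maximalIdeal_eq, ← residue_eq_zero_iff, map_sub, map_pow,
    hz, sub_self]

end Fermat.Agent.CARlib
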