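import Fermat.Agent.CAR.BGam
import Fermat.Agent.CAR.B6Defs
import Fermat.Agent.UNI.NormaliseFK

/-!
# T-CAR, block B, row B6e: `B6Hyp` in the modular setting (both charts `t`, `1/t` of `X₀(N)`)
-/

set_option autoImplicit false
set_option linter.unusedSectionVars false
set_option linter.style.haveILetI false

open ModularCurve Polynomial

namespace Fermat.Agent.CARlib

open Fermat.Agent.ESlib Fermat.Agent.UNIlib
open Fermat.Agent.S24lib (Dv Kb)

noncomputable section

section inv

variable {R K : Type} [CommRing R] [IsDomain R] [IsDiscreteValuationRing R] [Field K] [Algebra R K]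
  [IsFractionRing R K] [CharZero K] [Algebra ℚ K]
  {π : R} {r : ℕ} {s : K ≃ₐ[ℚ] K} {sR : R →+* R}

/-- `s⁻¹` maps `R` into `R` -/
theorem InvFrob.exists_symm (h : InvFrob π r s sR) (hπ : Irreducible π) (c : R) :
    ∃ c' : R, algebraMap R K c' = s.symm (algebraMap R K c) := by
  by_contra hcon
  have hinj := IsFractionRing.injective R K
  set x : K := s.symm (algebraMap R K c) with hx
  have hsx : s x = algebraMap R K c := by rw [hx, AlgEquiv.apply_symm_apply]
  -- `x ∉ R`, so `x⁻¹ ∈ 𝔪`
  obtain ⟨y, hy⟩ : ∃ y : R, algebraMap R K y = x⁻¹ := by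
    rcases ValuationRing.isInteger_or_isInteger R x with ⟨y, hy⟩ | ⟨y, hy⟩
    · exact absurd ⟨y, hy⟩ hcon
    · exact ⟨y, hy⟩
  have hx0 : x ≠ 0 := by
    intro h0
    exact hcon ⟨0, by rw [map_zero, h0]⟩
  have hyu : ¬ IsUnit y := by
    intro hu
    obtain ⟨z, hz⟩ := hu.exists_right_inv
    apply hcon
    refine ⟨z, ?_⟩
    have := congrArg (algebraMap R K) hz
    rw [map_mul, hy, map_one] at this
    field_simp at this
    exact this
  have hyπ : π ∣ y := by
    have h1 : y ∈ IsLocalRing.maximalIdeal R := hyu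
    rwa [(IsDiscreteValuationRing.irreducible_iff_uniformizer π).1 hπ,
      Ideal.mem_span_singleton] at h1
  have h2 : π ∣ sR y := (h.dvd_unif hπ).trans (map_dvd sR hyπ)
  have h3 : algebraMap R K (sR y) * algebraMap R K c = 1 := by
    rw [h.compat, hy, ← hsx]
    show s x⁻¹ * s x = 1
    rw [← map_mul, inv_mul_cancel₀ hx0, map_one]
  have h4 : sR y * c = 1 := hinj (by rw [map_mul, h3, map_one])
  exact hπ.not_isUnit (isUnit_of_dvd_one (h2.trans (Dvd.intro _ h4)))

/-- the restriction of `s⁻¹` to `R` -/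
def InvFrob.symmR (h : InvFrob π r s sR) (hπ : Irreducible π) : R →+* R where
  toFun c := (h.exists_symm hπ c).choose
  map_one' := IsFractionRing.injective R K (by
    rw [(h.exists_symm hπ 1).choose_spec, map_one, map_one])
  map_mul' a b := IsFractionRing.injective R K (by
    rw [(h.exists_symm hπ (a * b)).choose_spec, map_mul, map_mul, map_mul,
      (h.exists_symm hπ a).choose_spec, (h.exists_symm hπ b).choose_spec])
  map_zero' := IsFractionRing.injective R K (by
    rw [(h.exists_symm hπ 0).choose_spec, map_zero, map_zero])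
  map_add' a b := IsFractionRing.injective R K (by
    rw [(h.exists_symm hπ (a + b)).choose_spec, map_add, map_add, map_add,
      (h.exists_symm hπ a).choose_spec, (h.exists_symm hπ b).choose_spec])

theorem InvFrob.algebraMap_symmR (h : InvFrob π r s sR) (hπ : Irreducible π) (c : R) :
    algebraMap R K (h.symmR hπ c) = s.symm (algebraMap R K c) :=
  (h.exists_symm hπ c).choose_spec

theorem gamK_symm_apply (M : ℕ) (x : FK K M) : (gamK K M s).symm x = gamK K M s.symm x := rfl

variable {M : ℕ} [NeZero M]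

/-- `π` is a uniformiser of the Gauss valuation -/
theorem b6e_unif [Algebra R (FK K M)] [IsScalarTower R K (FK K M)] (hπ : Irreducible π)
    (z : FK K M) (hz : z ∈ gaussVal R K M) :
    z⁻¹ ∈ gaussVal R K M ∨ z / algebraMap R (FK K M) π ∈ gaussVal R K M := by
  by_cases h0 : redGa R K M ⟨z, hz⟩ = 0
  · right
    have := div_mem_gaussSub_of_redGa_eq_zero hπ h0
    rw [IsScalarTower.algebraMap_apply R K (FK K M)]
    exact this
  · left
    exact inv_mem_LamR_of_redR_ne_zero (IsFractionRing.injective R K)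
      (x := ⟨(z : LaurentSeries K), hz⟩) h0

end inv

section main

variable {R K : Type} [CommRing R] [IsDomain R] [IsDiscreteValuationRing R] [Field K] [Algebra R K]
  [IsFractionRing R K] [CharZero K] [Algebra ℚ K] [Algebra K ℂ] [IsScalarTower ℚ K ℂ]
  [Algebra R ℂ] [IsScalarTower R K ℂ] {N r : ℕ} [NeZero N] [NeZero r] [NeZero (N * r)]
  [CharP (IsLocalRing.ResidueField R) r]
  [Algebra R (FK K (N * r))] [IsScalarTower R K (FK K (N * r))]
  {π : R} {s : K ≃ₐ[ℚ] K} {sR : R →+* R}

theorem b6e_symm_algebraMap_R (h : InvFrob π r s sR) (hπ : Irreducible π) (c : R) :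
    gamK K (N * r) s.symm (algebraMap R (FK K (N * r)) c) =
      algebraMap R (FK K (N * r)) (h.symmR hπ c) := by
  rw [IsScalarTower.algebraMap_apply R K (FK K (N * r)), gamK_algebraMap,
    IsScalarTower.algebraMap_apply R K (FK K (N * r)), h.algebraMap_symmR hπ]

theorem b6e_symm_old (x : FK K N) :
    ∃ y : FK K N, gamK K (N * r) s.symm (oldI K N r x) = oldI K N r y := by
  refine ⟨gamK K N s.symm x, Subtype.ext ?_⟩
  rw [coe_gamK, coe_oldI, coe_oldI, coe_gamK]

/-- **B6e**: `B6Hyp` in both charts -/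
theorem b6e_hyp (h : InvFrob π r s sR) (hπ : Irreducible π) (hr : r.Prime) (hrN : ¬ r ∣ N)
    (hN : IsUnit (N : R)) (a : ℕ) [NeZero a] (ha : a = 2 ∨ a = 3) (haN : a ∣ N)
    (hζN : ∃ z : K, IsPrimitiveRoot z N) :
    letI : Algebra (FK K N) (FK K (N * r)) := (oldI K N r).toAlgebra
    B6Hyp π (tF K N a ha haN) (gaussVal R K (N * r)) (wr K hr hrN).toRingEquiv
      (gamK K (N * r) s) r ∧
    B6Hyp π (tF K N a ha haN)⁻¹ (gaussVal R K (N * r)) (wr K hr hrN).toRingEquiv
      (gamK K (N * r) s) r := by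
  letI : Algebra (FK K N) (FK K (N * r)) := (oldI K N r).toAlgebra
  letI : Algebra R (FK K N) := ((algebraMap K (FK K N)).comp (algebraMap R K)).toAlgebra
  haveI : IsScalarTower R K (FK K N) := IsScalarTower.of_algebraMap_eq fun _ => rfl
  have hN' := natCast_residueField_ne_zero_of_isUnit hN
  have haR : IsUnit (a : R) := by
    obtain ⟨k, rfl⟩ := haN
    rw [Nat.cast_mul] at hN
    exact isUnit_of_mul_isUnit_left hN
  obtain ⟨D, D'⟩ := bgam_nodeData h hπ hr hrN hN a ha haN hζN
  have hI : algebraMap (FK K N) (FK K (N * r)) (tF K N a ha haN) =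
      tF K (N * r) a ha (haN.mul_right r) := oldI_tF (K := K) (N := N) (r := r) a ha haN
  have hI' : algebraMap (FK K N) (FK K (N * r)) (tF K N a ha haN)⁻¹ =
      (tF K (N * r) a ha (haN.mul_right r))⁻¹ := by
    rw [map_inv₀, hI]
  have hγT := gamK_tF K (N * r) s.symm a ha (haN.mul_right r)
  have htr := transcendental_tF K (N * r) a ha (haN.mul_right r)
  have htr' : Transcendental K (tF K (N * r) a ha (haN.mul_right r))⁻¹ := by
    intro h
    exact htr (by simpa using h.inv)
  constructor
  · refine ⟨by rw [hI]; exact D, ?_, ?_, ?_, ?_, ?_⟩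
    · intro x hx
      rw [hI] at hx ⊢
      exact isIntegral_adjoin_map_semilinear
        (σ := (gamK K (N * r) s.symm : FK K (N * r) →+* FK K (N * r)))
        (b6e_symm_algebraMap_R h hπ) hγT hx
    · intro x
      exact b6e_symm_old x
    · intro x hx1 hx2 hx
      rw [hI] at hx ⊢
      exact isIntegral_of_piInt hπ.prime htr
        ((tv_piInt_iff a ha haN hr hrN hN' haR hπ x).2 ⟨hx1, hx2⟩) hx
    · exact b6e_unif hπ
    · exact inv_unif_notMem_gaussSub hπ
  · refine ⟨by rw [hI']; exact D', ?_, ?_, ?_, ?_, ?_⟩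
    · intro x hx
      rw [hI'] at hx ⊢
      exact isIntegral_adjoin_map_semilinear
        (σ := (gamK K (N * r) s.symm : FK K (N * r) →+* FK K (N * r)))
        (b6e_symm_algebraMap_R h hπ) (by rw [map_inv₀]; exact congrArg _ hγT) hx
    · intro x
      exact b6e_symm_old x
    · intro x hx1 hx2 hx
      rw [hI'] at hx ⊢
      exact isIntegral_of_piInt hπ.prime htr'
        ((tv_piInt_inv_iff a ha haN hr hrN hN' haR hπ x).2 ⟨hx1, hx2⟩) hx
    · exact b6e_unif hπ
    · exact inv_unif_notMem_gaussSub hπ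

end main

end

end Fermat.Agent.CARlib
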