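import Fermat.Agent.CAR.B6c

/-!
# T-CAR, block B, row B6f: the Frobenius congruence `t ≡ G ^ (r ^ 2) mod pF + pV` in `S₁`
-/

set_option autoImplicit false
set_option linter.unusedSectionVars false
set_option linter.style.haveILetI false

open IsLocalRing Polynomial

namespace Fermat.Agent.CARlib

open Fermat.Agent.UNIlib Fermat.Agent.ESlib

section B6f

variable {R F₀ F₁ : Type*} [CommRing R] [Field F₀] [Field F₁] [Algebra R F₀] [Algebra R F₁]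
  [Algebra F₀ F₁] [IsScalarTower R F₀ F₁]
  {π : R} {T₀ : F₀} {V₁ : ValuationSubring F₁} {w γ : F₁ ≃+* F₁} {r : ℕ}

theorem b6c_frob (H : B6Hyp π T₀ V₁ w γ r)
    (z' : Ideal (integralClosure (Algebra.adjoin R {T₀}) F₀)) [z'.IsMaximal]
    (t₀ : integralClosure (Algebra.adjoin R {T₀}) F₀)
    (O₀ S₁ : Type*) [CommRing O₀] [IsLocalRing O₀]
    [Algebra (integralClosure (Algebra.adjoin R {T₀}) F₀) O₀] [IsLocalization.AtPrime O₀ z']
    [Algebra O₀ F₀] [IsScalarTower (integralClosure (Algebra.adjoin R {T₀}) F₀) O₀ F₀]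
    [Algebra O₀ F₁] [IsScalarTower O₀ F₀ F₁] [CommRing S₁] [Algebra O₀ S₁] [Algebra S₁ F₁]
    [IsScalarTower O₀ S₁ F₁] [IsIntegralClosure S₁ O₀ F₁]
    {πO : O₀} {s : S₁} {pF pV : Ideal S₁}
    (D : BData O₀ S₁ F₁ πO (algebraMap (integralClosure (Algebra.adjoin R {T₀}) F₀) O₀ t₀) s pF pV
      V₁ (V₁.comap (w : F₁ →+* F₁)) r)
    (hπO : algebraMap S₁ F₁ (algebraMap O₀ S₁ πO) = algebraMap R F₁ π) :
    ∃ G : S₁, algebraMap O₀ S₁ (algebraMap (integralClosure (Algebra.adjoin R {T₀}) F₀) O₀ t₀) -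
      G ^ (r ^ 2) ∈ pF ⊔ pV := by
  have hI : IsIntegral (Algebra.adjoin R {algebraMap F₀ F₁ T₀}) (algebraMap F₀ F₁ (t₀ : F₀)) :=
    (b6_isIntegral_map_iff T₀ _).2 t₀.2
  have h1z : (1 : integralClosure (Algebra.adjoin R {T₀}) F₀) ∉ z' :=
    (Ideal.ne_top_iff_one _).1 (Ideal.IsPrime.ne_top inferInstance)
  have hone : algebraMap F₀ F₁ ((1 : integralClosure (Algebra.adjoin R {T₀}) F₀) : F₀) = 1 := by
    change algebraMap F₀ F₁ 1 = 1
    exact map_one _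
  obtain ⟨_, Y, hYI, hY₂, hY₁⟩ := H.node.frob hI
  have hγγ : IsIntegral (Algebra.adjoin R {algebraMap F₀ F₁ T₀})
      (γ (γ (algebraMap F₀ F₁ (t₀ : F₀)))) := H.node.γ_int _ (H.node.γ_int _ hI)
  obtain ⟨G, hG⟩ := b6_dictS' (F₁ := F₁) z' O₀ S₁ (γ (γ (algebraMap F₀ F₁ (t₀ : F₀)))) 1 h1z
    (by rw [hone, one_mul]; exact hγγ)
  obtain ⟨YS, hYS⟩ := b6_dictS' (F₁ := F₁) z' O₀ S₁ Y 1 h1z (by rw [hone, one_mul]; exact hYI)
  have ht : algebraMap S₁ F₁ (algebraMap O₀ S₁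
      (algebraMap (integralClosure (Algebra.adjoin R {T₀}) F₀) O₀ t₀)) =
      algebraMap F₀ F₁ (t₀ : F₀) := by
    rw [← IsScalarTower.algebraMap_apply O₀ S₁ F₁, b6_map_B O₀]
  refine ⟨G, ?_⟩
  have hV : YS ∈ pV := by
    rw [D.mem_pV, hπO, hYS]
    exact hY₂
  have hF : YS - (algebraMap O₀ S₁ (algebraMap (integralClosure (Algebra.adjoin R {T₀}) F₀) O₀ t₀) -
      G ^ (r ^ 2)) ∈ pF := by
    rw [D.mem_pF, hπO, map_sub, map_sub, map_pow, hYS, hG, ht]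
    exact hY₁
  have e : algebraMap O₀ S₁ (algebraMap (integralClosure (Algebra.adjoin R {T₀}) F₀) O₀ t₀) -
      G ^ (r ^ 2) = -(YS - (algebraMap O₀ S₁
        (algebraMap (integralClosure (Algebra.adjoin R {T₀}) F₀) O₀ t₀) - G ^ (r ^ 2))) + YS := by
    ring
  rw [e]
  exact (pF ⊔ pV).add_mem (Ideal.mem_sup_left (pF.neg_mem hF)) (Ideal.mem_sup_right hV)

end B6f

end Fermat.Agent.CARlib
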