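import Fermat.Agent.CAR.B7Cusp
import Fermat.Agent.UNI.HauptInt
import Fermat.Agent.UNI.TwoValPi

/-!
# T-CAR, block B, row B7: "cusps are ordinary", modular part

* `b7_dich_tF`, `b7_dich_tF_inv` : a local ring `O ⊆ F_K(N)` containing the chart `t` (resp. `1/t`)
  contains `j`, or `1/j` lies in its maximal ideal;
* `b7_cusp` : at a cuspidal closed point `pF ⊔ pV = ⊤`.
-/

set_option autoImplicit false
set_option linter.unusedSectionVars false
set_option linter.style.haveILetI false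

open ModularCurve Polynomial IsLocalRing

namespace Fermat.Agent.CARlib

open Fermat.Agent.ESlib Fermat.Agent.UNIlib
open Fermat.Agent.S24lib (Dv Kb)

section dich

variable {K : Type} [Field K] [CharZero K] [Algebra ℚ K] {N : ℕ} [NeZero N]

/-- the relation between `j` and the Hauptmodul, with the constant term -/
theorem b7_exists_tF_rel (R₀ : Type*) [CommRing R₀] [Nontrivial R₀] [Algebra R₀ (FK K N)]
    (a : ℕ) [NeZero a] (ha : a = 2 ∨ a = 3) (haN : a ∣ N) (hu : IsUnit (a : R₀)) :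
    ∃ (A : Polynomial R₀) (e : ℕ), A.Monic ∧ 0 < e ∧ e < A.natDegree ∧ IsUnit (A.coeff 0) ∧
      J1 K N * tF K N a ha haN ^ e = Polynomial.aeval (tF K N a ha haN) A := by
  rcases ha with rfl | rfl
  · refine ⟨(Polynomial.X + Polynomial.C 256) ^ 3, 2, (Polynomial.monic_X_add_C 256).pow 3,
      by norm_num, ?_, ?_, ?_⟩
    · rw [((Polynomial.monic_X_add_C (256 : R₀))).natDegree_pow, Polynomial.natDegree_X_add_C]
      norm_num
    · rw [coeff_zero_eq_eval_zero, eval_pow, eval_add, eval_X, eval_C, zero_add]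
      have : (256 : R₀) = ((2 : ℕ) : R₀) ^ 8 := by norm_num
      rw [this]
      exact (hu.pow 8).pow 3
    · rw [map_pow, map_add, Polynomial.aeval_X, Polynomial.aeval_C, map_ofNat]
      exact tF_rel_two K N haN
  · refine ⟨(Polynomial.X + Polynomial.C 27) * (Polynomial.X + Polynomial.C 243) ^ 3, 3,
      (Polynomial.monic_X_add_C 27).mul ((Polynomial.monic_X_add_C 243).pow 3), by norm_num,
      ?_, ?_, ?_⟩
    · rw [(Polynomial.monic_X_add_C 27).natDegree_mul ((Polynomial.monic_X_add_C 243).pow 3),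
        (Polynomial.monic_X_add_C (243 : R₀)).natDegree_pow, Polynomial.natDegree_X_add_C,
        Polynomial.natDegree_X_add_C]
      norm_num
    · rw [coeff_zero_eq_eval_zero, eval_mul, eval_pow, eval_add, eval_add, eval_X, eval_C, eval_C,
        zero_add, zero_add]
      have h1 : (27 : R₀) = ((3 : ℕ) : R₀) ^ 3 := by norm_num
      have h2 : (243 : R₀) = ((3 : ℕ) : R₀) ^ 5 := by norm_num
      rw [h1, h2]
      exact (hu.pow 3).mul ((hu.pow 5).pow 3)
    · rw [map_mul, map_pow, map_add, map_add, Polynomial.aeval_X, Polynomial.aeval_C,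
        Polynomial.aeval_C, map_ofNat, map_ofNat]
      exact tF_rel_three K N haN

/-- **B7 (iv)**, chart `t` -/
theorem b7_dich_tF {O : Type*} [CommRing O] [IsLocalRing O] [Algebra O (FK K N)]
    (a : ℕ) [NeZero a] (ha : a = 2 ∨ a = 3) (haN : a ∣ N) (hu : IsUnit (a : O))
    (T' : O) (hT : algebraMap O (FK K N) T' = tF K N a ha haN) :
    (∃ c : O, algebraMap O (FK K N) c = J1 K N) ∨
      (∃ c ∈ maximalIdeal O, algebraMap O (FK K N) c = (J1 K N)⁻¹) := by
  obtain ⟨A, e, -, he, -, hA0, hrel⟩ := b7_exists_tF_rel (K := K) (N := N) O a ha haN hu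
  exact b7_dichotomy he hA0 hrel T' hT

/-- **B7 (iv)**, chart `1 / t` -/
theorem b7_dich_tF_inv {O : Type*} [CommRing O] [IsLocalRing O] [Algebra O (FK K N)]
    (a : ℕ) [NeZero a] (ha : a = 2 ∨ a = 3) (haN : a ∣ N)
    (U : O) (hU : algebraMap O (FK K N) U = (tF K N a ha haN)⁻¹) :
    (∃ c : O, algebraMap O (FK K N) c = J1 K N) ∨
      (∃ c ∈ maximalIdeal O, algebraMap O (FK K N) c = (J1 K N)⁻¹) := by
  obtain ⟨A, e, hA, he, hrel⟩ := exists_tF_rel K N O a ha haN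
  exact b7_dichotomy_inv hA he (tF_ne_zero K N a ha haN) hrel U hU

end dich

section cusp

variable {R K : Type} [CommRing R] [IsDomain R] [IsDiscreteValuationRing R] [Field K]
  [Algebra R K] [IsFractionRing R K] [Algebra ℚ K] [CharZero K] [Algebra K ℂ] [IsScalarTower ℚ K ℂ]
  {N r : ℕ} [NeZero N] [NeZero r] [NeZero (N * r)]
  [Algebra R (FK K (N * r))] [IsScalarTower R K (FK K (N * r))]
  [CharP (IsLocalRing.ResidueField R) r]

theorem b7_inv_Jgen_mem (M : ℕ) [NeZero M] (d : Dv M) : (Jgen K M d)⁻¹ ∈ gaussSub R K M := by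
  have : NeZero d.1 := ⟨fun h0 => NeZero.ne M (Nat.eq_zero_of_zero_dvd (h0 ▸ d.2))⟩
  refine inv_mem_gaussSub_of_eq_coeffMap (S28lib.jAd R d.1)
    (by rw [coe_Jgen_jAd, S28lib.coeffMap_jAd]) ?_
  rw [S28lib.coeffMap_jAd]
  exact jAd_ne_zero d.1

theorem b7_Jgen_ne_zero (M : ℕ) [NeZero M] (d : Dv M) : Jgen K M d ≠ 0 := by
  have : NeZero d.1 := ⟨fun h0 => NeZero.ne M (Nat.eq_zero_of_zero_dvd (h0 ▸ d.2))⟩
  intro h0
  have h1 := congrArg (fun x : FK K M => (x : LaurentSeries K)) h0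
  simp only [coe_Jgen_jAd] at h1
  exact jAd_ne_zero (κ := K) d.1 h1

/-- **B7: cusps are ordinary** -/
theorem b7_cusp {π : R} (hπ : Irreducible π) (hr : r.Prime) (hrN : ¬ r ∣ N)
    {O₀ S₁ : Type*} [CommRing O₀] [IsLocalRing O₀] [CommRing S₁] [Algebra O₀ S₁]
    [Algebra O₀ (FK K (N * r))] [Algebra S₁ (FK K (N * r))] [IsScalarTower O₀ S₁ (FK K (N * r))]
    [IsIntegralClosure S₁ O₀ (FK K (N * r))] {pF pV : Ideal S₁}
    (hpF : ∀ x : S₁, algebraMap S₁ (FK K (N * r)) x / algebraMap R (FK K (N * r)) π ∈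
      gaussSub R K (N * r) → x ∈ pF)
    (hpV : ∀ x : S₁, wr K hr hrN (algebraMap S₁ (FK K (N * r)) x / algebraMap R (FK K (N * r)) π) ∈
      gaussSub R K (N * r) → x ∈ pV)
    (c : O₀) (hc : c ∈ maximalIdeal O₀)
    (hcJ : algebraMap O₀ (FK K (N * r)) c = (J1 K (N * r))⁻¹) : pF ⊔ pV = ⊤ := by
  have hii : Algebra.IsIntegral O₀ S₁ := IsIntegralClosure.isIntegral_algebra O₀ (FK K (N * r))
  letI : Algebra R (FK K N) := ((algebraMap K (FK K N)).comp (algebraMap R K)).toAlgebra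
  haveI : IsScalarTower R K (FK K N) := IsScalarTower.of_algebraMap_eq fun _ => rfl
  obtain ⟨Φ, hΦ, hev⟩ := exists_PhiShape hr
  set j := J1 K (N * r) with hj
  set j' := jr K N r with hj'
  set ϖ := algebraMap R (FK K (N * r)) π with hϖ
  have hj0 : j ≠ 0 := b7_Jgen_ne_zero _ _
  have hj'0 : j' ≠ 0 := b7_Jgen_ne_zero _ _
  have h0 : evZ Φ j' j = 0 := by
    have h := (hev K (N * r) 1 (one_dvd _) (by rw [one_mul]; exact dvd_mul_left r N)).1
    have h1 : (⟨1 * r, by rw [one_mul]; exact dvd_mul_left r N⟩ : Dv (N * r)) =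
      ⟨r, dvd_mul_left r N⟩ := Subtype.ext (one_mul r)
    rw [h1] at h
    exact h
  have hint : IsIntegral O₀ (j' * j⁻¹ ^ r) := b7_isIntegral hΦ hr.one_le h0 hj0 c hcJ
  set e' : S₁ := IsIntegralClosure.mk' S₁ (j' * j⁻¹ ^ r) hint with he'
  have hee : algebraMap S₁ (FK K (N * r)) e' = j' * j⁻¹ ^ r := IsIntegralClosure.algebraMap_mk' _ _ _
  have hsub := tv_jr_sub (R := R) (K := K) (N := N) hr hπ
  have hwϖ : wr K hr hrN ϖ = ϖ := by
    rw [hϖ, IsScalarTower.algebraMap_apply R K (FK K (N * r))]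
    exact (wr K hr hrN).commutes _
  have hwj' : wr K hr hrN j' = j := wr_jr hr hrN
  have hwj : wr K hr hrN j = j' := by rw [← hwj', wr_wr]
  have hr2 : 0 < r ^ 2 - 1 := by
    have := hr.two_le
    have : 4 ≤ r ^ 2 := by nlinarith
    omega
  refine b7_abs e' (c ^ (r ^ 2 - 1)) (Ideal.pow_mem_of_mem _ hc _ hr2) (hpF _ ?_) r (hpV _ ?_)
  · rw [map_sub, map_one, hee]
    have e0 : j ^ r * j⁻¹ ^ r = 1 := by rw [← mul_pow, mul_inv_cancel₀ hj0, one_pow]
    have : (j' * j⁻¹ ^ r - 1) / ϖ = (j' - j ^ r) / ϖ * j⁻¹ ^ r := by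
      rw [div_mul_eq_mul_div, sub_mul, e0]
    rw [this]
    exact mul_mem hsub (pow_mem (b7_inv_Jgen_mem _ _) r)
  · rw [map_sub, map_pow, hee, ← IsScalarTower.algebraMap_apply, map_pow, hcJ, map_div₀, map_sub,
      map_pow, map_mul, map_pow, map_pow, map_inv₀, hwϖ, hwj, hwj']
    have : ((j * j'⁻¹ ^ r) ^ r - j'⁻¹ ^ (r ^ 2 - 1)) / ϖ = -((j' - j ^ r) / ϖ * j'⁻¹ ^ (r ^ 2)) := by
      obtain ⟨k, hk⟩ : ∃ k, r ^ 2 = k + 1 := ⟨r ^ 2 - 1, by omega⟩
      have e1 : r ^ 2 - 1 = k := by omega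
      have e2 : (j * j'⁻¹ ^ r) ^ r = j ^ r * j'⁻¹ ^ (r ^ 2) := by
        rw [mul_pow, ← pow_mul, sq]
      have e3 : j'⁻¹ ^ k = j' * j'⁻¹ ^ (r ^ 2) := by
        rw [hk, pow_succ, mul_comm j', mul_assoc, inv_mul_cancel₀ hj'0, mul_one]
      rw [e1, e2, e3]
      ring
    rw [this]
    exact neg_mem (mul_mem hsub (pow_mem (b7_inv_Jgen_mem _ _) _))

end cusp

end Fermat.Agent.CARlib
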