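import Fermat.Agent.UNI.NewtonPhi
import Fermat.Agent.ES.C.AKInt

/-!
# T-CAR, block B, row B7: "cusps are ordinary" (= nodes are not cuspidal), abstract part

* `b7_abs` : an element `e` with `e ≡ 1 mod pF`, `e ^ n ≡ c mod pV`, `c ∈ 𝔪₀` ⇒ `pF ⊔ pV = ⊤`;
* `b7_isIntegral` : `Φ(x, y) = 0` ⇒ `x / y ^ p` is integral over every ring containing `1 / y`;
* `b7_dichotomy`, `b7_dichotomy_inv` : `j T ^ e = A(T)` ⇒ `j ∈ O` or `1 / j ∈ 𝔪_O`.
-/

set_option autoImplicit false

open IsLocalRing Polynomial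

namespace Fermat.Agent.CARlib

open Fermat.Agent.UNIlib Fermat.Agent.ESlib

/-- **B7, abstract** -/
theorem b7_abs {O₀ S₁ : Type*} [CommRing O₀] [IsLocalRing O₀] [CommRing S₁] [Algebra O₀ S₁]
    [Algebra.IsIntegral O₀ S₁] {pF pV : Ideal S₁} (e : S₁) (c : O₀) (hc : c ∈ maximalIdeal O₀)
    (h1 : e - 1 ∈ pF) (n : ℕ) (h2 : e ^ n - algebraMap O₀ S₁ c ∈ pV) : pF ⊔ pV = ⊤ := by
  by_contra h
  obtain ⟨x, hx, hle⟩ := Ideal.exists_le_maximal _ h
  have hmax : (x.comap (algebraMap O₀ S₁)).IsMaximal :=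
    Ideal.isMaximal_comap_of_isIntegral_of_isMaximal x
  have heq := IsLocalRing.eq_maximalIdeal hmax
  have hcx : algebraMap O₀ S₁ c ∈ x := by
    have : c ∈ x.comap (algebraMap O₀ S₁) := by rw [heq]; exact hc
    exact this
  have h3 : e ^ n ∈ x := by
    have := x.add_mem (hle (Ideal.mem_sup_right h2)) hcx
    rwa [sub_add_cancel] at this
  have h4 : e ∈ x := hx.isPrime.mem_of_pow_mem n h3
  have h5 : (1 : S₁) ∈ x := by
    have := x.sub_mem h4 (hle (Ideal.mem_sup_left h1))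
    rwa [sub_sub_cancel] at this
  exact hx.ne_top ((Ideal.eq_top_iff_one x).2 h5)

/-- `P(y) / y ^ n` is a polynomial in `1 / y` for `n ≥ deg P` -/
theorem b7_exists_rev {O F : Type*} [CommRing O] [Field F] [Algebra O F] (P : ℤ[X]) (n : ℕ)
    (hn : P.natDegree ≤ n) {y : F} (hy0 : y ≠ 0) (J : O) (hJ : algebraMap O F J = y⁻¹) :
    ∃ a : O, algebraMap O F a = aeval y P * y⁻¹ ^ n := by
  refine ⟨∑ k ∈ Finset.range (n + 1), ((P.coeff k : ℤ) : O) * J ^ (n - k), ?_⟩
  rw [map_sum, aeval_eq_sum_range' (Nat.lt_succ_of_le hn), Finset.sum_mul]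
  refine Finset.sum_congr rfl fun k hk => ?_
  have hk' : k ≤ n := Nat.lt_succ_iff.1 (Finset.mem_range.1 hk)
  rw [map_mul, map_pow, hJ, map_intCast, zsmul_eq_mul, mul_assoc]
  congr 1
  obtain ⟨m, rfl⟩ := Nat.exists_eq_add_of_le hk'
  rw [Nat.add_sub_cancel_left, pow_add, ← mul_assoc, ← mul_pow, mul_inv_cancel₀ hy0, one_pow,
    one_mul]

/-- **B7 (i)**: `x / y ^ p` is integral over `ℤ[1 / y]` -/
theorem b7_isIntegral {O F : Type*} [CommRing O] [Field F] [Algebra O F] {p : ℕ} {Φ : ℤ[X][X]}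
    (hΦ : PhiShape p Φ) (hp : 1 ≤ p) {x y : F} (h : evZ Φ x y = 0) (hy0 : y ≠ 0) (J : O)
    (hJ : algebraMap O F J = y⁻¹) : IsIntegral O (x * y⁻¹ ^ p) := by
  set Ψ : F[X] := Φ.map ((aeval y : ℤ[X] →ₐ[ℤ] F) : ℤ[X] →+* F) with hΨ
  have hΨm : Ψ.Monic := hΦ.monic.map _
  have hΨd : Ψ.natDegree = p + 1 := by rw [hΨ, hΦ.monic.natDegree_map, hΦ.natDegree]
  have hΨx : Ψ.eval x = 0 := by rw [hΨ, eval_map]; exact h
  refine isIntegral_of_monic_of_coeff_isIntegral (Ψ.scaleRoots (y⁻¹ ^ p))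
    ((monic_scaleRoots_iff _).2 hΨm) (fun i => ?_) ?_
  · rw [coeff_scaleRoots, hΨd, hΨ, coeff_map, ← pow_mul]
    rcases lt_trichotomy i (p + 1) with hi | hi | hi
    · have hdeg : (Φ.coeff i).natDegree ≤ p * (p + 1 - i) := by
        rcases Nat.eq_zero_or_pos i with rfl | hi0
        · refine hΦ.deg0.trans ?_
          rw [Nat.sub_zero]
          exact Nat.le_mul_of_pos_left _ hp
        · refine (hΦ.deg i hi0).trans ?_
          exact Nat.le_mul_of_pos_right _ (by omega)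
      obtain ⟨a, ha⟩ := b7_exists_rev (Φ.coeff i) _ hdeg hy0 J hJ
      have : ((aeval y : ℤ[X] →ₐ[ℤ] F) : ℤ[X] →+* F) (Φ.coeff i) * y⁻¹ ^ (p * (p + 1 - i)) =
          algebraMap O F a := ha.symm
      rw [this]
      exact isIntegral_algebraMap
    · have : Φ.coeff i = 1 := by rw [hi, ← hΦ.natDegree]; exact hΦ.monic.coeff_natDegree
      rw [this, hi, Nat.sub_self, mul_zero, pow_zero, mul_one, map_one]
      exact isIntegral_one
    · rw [coeff_eq_zero_of_natDegree_lt (by rw [hΦ.natDegree]; exact hi), map_zero, zero_mul]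
      exact isIntegral_zero
  · rw [mul_comm x, scaleRoots_eval_mul, hΨx, mul_zero]

/-- **B7 (iv)**, chart `T`: `j T ^ e = A(T)`, `A(0)` a unit ⇒ `j ∈ O` or `1 / j ∈ 𝔪_O` -/
theorem b7_dichotomy {O F : Type*} [CommRing O] [IsLocalRing O] [Field F] [Algebra O F]
    {j T : F} {A : O[X]} {e : ℕ} (he : 0 < e) (hA0 : IsUnit (A.coeff 0))
    (hrel : j * T ^ e = aeval T A) (T' : O) (hT : algebraMap O F T' = T) :
    (∃ c : O, algebraMap O F c = j) ∨ (∃ c ∈ maximalIdeal O, algebraMap O F c = j⁻¹) := by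
  have hev : aeval T A = algebraMap O F (A.eval T') := by
    rw [← hT, aeval_algebraMap_apply]
    rfl
  by_cases hu : IsUnit T'
  · left
    obtain ⟨u, hu'⟩ := hu.exists_right_inv
    have h1 : T * algebraMap O F u = 1 := by rw [← hT, ← map_mul, hu', map_one]
    refine ⟨A.eval T' * u ^ e, ?_⟩
    rw [map_mul, ← hev, ← hrel, map_pow, mul_assoc, ← mul_pow, h1, one_pow, mul_one]
  · right
    have hTm : T' ∈ maximalIdeal O := hu
    have hAu : IsUnit (A.eval T') := by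
      by_contra hn
      have hAm : A.eval T' ∈ maximalIdeal O := hn
      have h2 : A.eval T' = A.divX.eval T' * T' + A.coeff 0 := by
        conv_lhs => rw [← divX_mul_X_add A]
        simp
      have h3 : A.coeff 0 ∈ maximalIdeal O := by
        have := (maximalIdeal O).sub_mem hAm ((maximalIdeal O).mul_mem_left (A.divX.eval T') hTm)
        rwa [h2, add_sub_cancel_left] at this
      exact h3 hA0
    obtain ⟨v, hv⟩ := hAu.exists_right_inv
    have h1 : aeval T A * algebraMap O F v = 1 := by rw [hev, ← map_mul, hv, map_one]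
    refine ⟨T' ^ e * v, (maximalIdeal O).mul_mem_right _ ((maximalIdeal O).pow_mem_of_mem hTm e he),
      ?_⟩
    rw [map_mul, map_pow, hT]
    have hj : j * (T ^ e * algebraMap O F v) = 1 := by rw [← mul_assoc, hrel, h1]
    exact eq_inv_of_mul_eq_one_right hj

/-- **B7 (iv)**, chart `1 / T`: `j T ^ e = A(T)`, `A` monic of degree `> e` -/
theorem b7_dichotomy_inv {O F : Type*} [CommRing O] [IsLocalRing O] [Field F] [Algebra O F]
    {j T : F} {A : O[X]} {e : ℕ} (hA : A.Monic) (he : e < A.natDegree) (hT0 : T ≠ 0)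
    (hrel : j * T ^ e = aeval T A) (U : O) (hU : algebraMap O F U = T⁻¹) :
    (∃ c : O, algebraMap O F c = j) ∨ (∃ c ∈ maximalIdeal O, algebraMap O F c = j⁻¹) := by
  refine b7_dichotomy (T := T⁻¹) (A := A.reverse) (e := A.natDegree - e) (by omega) ?_ ?_ U hU
  · rw [coeff_zero_reverse, hA.leadingCoeff]
    exact isUnit_one
  · let _ : Invertible T := invertibleOfNonzero hT0
    have h1 := eval₂_reverse_mul_pow (algebraMap O F) T A
    rw [invOf_eq_inv] at h1
    have h2 : aeval T⁻¹ A.reverse * T ^ A.natDegree = j * T ^ e := by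
      rw [hrel]; exact h1
    obtain ⟨k, hk⟩ := Nat.exists_eq_add_of_lt he
    have hk' : A.natDegree - e = k + 1 := by omega
    have hk'' : A.natDegree = e + (k + 1) := by omega
    rw [hk', inv_pow]
    rw [hk'', pow_add] at h2
    have hTe : T ^ e ≠ 0 := pow_ne_zero _ hT0
    have hTk : T ^ (k + 1) ≠ 0 := pow_ne_zero _ hT0
    have h3 : aeval T⁻¹ A.reverse * T ^ (k + 1) * T ^ e = j * T ^ e := by
      rw [← h2]; ring
    rw [← mul_right_cancel₀ hTe h3, mul_assoc, mul_inv_cancel₀ hTk, mul_one]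

end Fermat.Agent.CARlib
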