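import Mathlib

/-!
# T-CAR, row B9 (abstract part, Mathlib only)

* `b9Val hp : ValuationSubring F` : the discrete valuation ring `O_(p)` of `F = Frac O` attached to a
  prime element `p` of a UFD `O`;
* `b9_hint_abs` : if the norm of `θ = g'(b)` is a unit of `O_(p)` for every prime `p` not associated
  to `π`, then the norm of `θ` is, up to a unit, a power of `π` (hypothesis `hint` of `b5_dvd_pow`).
-/

set_option autoImplicit false

open Polynomial

namespace Fermat.Agent.CARlib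

section val

variable {O F : Type*} [CommRing O] [IsDomain O] [UniqueFactorizationMonoid O] [Field F]
  [Algebra O F] [IsFractionRing O F]

theorem b9_exists_pow_mul {p : O} (hp : Prime p) {a : O} (ha : a ≠ 0) :
    ∃ (n : ℕ) (a' : O), ¬ p ∣ a' ∧ a = p ^ n * a' := by
  have hfin : FiniteMultiplicity p a := FiniteMultiplicity.of_prime_left hp ha
  obtain ⟨a', h1, h2⟩ := hfin.exists_eq_pow_mul_and_not_dvd
  exact ⟨_, a', h2, h1⟩

variable (F) in
/-- `O_(p) ⊆ F` -/
def b9Val {p : O} (hp : Prime p) : ValuationSubring F where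
  carrier := {x | ∃ a c : O, ¬ p ∣ c ∧ x * algebraMap O F c = algebraMap O F a}
  mul_mem' := by
    rintro x y ⟨a, c, hc, h⟩ ⟨a', c', hc', h'⟩
    refine ⟨a * a', c * c', fun hd => (hp.dvd_or_dvd hd).elim hc hc', ?_⟩
    rw [map_mul, map_mul, ← h, ← h']; ring
  one_mem' := ⟨1, 1, hp.not_dvd_one, by simp⟩
  add_mem' := by
    rintro x y ⟨a, c, hc, h⟩ ⟨a', c', hc', h'⟩
    refine ⟨a * c' + a' * c, c * c', fun hd => (hp.dvd_or_dvd hd).elim hc hc', ?_⟩
    rw [map_mul, map_add, map_mul, map_mul, ← h, ← h']; ring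
  zero_mem' := ⟨0, 1, hp.not_dvd_one, by simp⟩
  neg_mem' := by
    rintro x ⟨a, c, hc, h⟩
    exact ⟨-a, c, hc, by rw [map_neg, ← h]; ring⟩
  mem_or_inv_mem' := by
    intro x
    by_cases hx : x = 0
    · exact Or.inl ⟨0, 1, hp.not_dvd_one, by simp [hx]⟩
    obtain ⟨a, b, hb, rfl⟩ := IsFractionRing.div_surjective (A := O) x
    have hb0 : b ≠ 0 := nonZeroDivisors.ne_zero hb
    have ha0 : a ≠ 0 := by
      rintro rfl
      simp at hx
    have hbF : algebraMap O F b ≠ 0 := by simpa using hb0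
    have haF : algebraMap O F a ≠ 0 := by simpa using ha0
    obtain ⟨i, a', ha', rfl⟩ := b9_exists_pow_mul hp ha0
    obtain ⟨j, b', hb', rfl⟩ := b9_exists_pow_mul hp hb0
    have hpF : algebraMap O F p ≠ 0 := by simpa using hp.ne_zero
    have ha'F : algebraMap O F a' ≠ 0 := by
      have : a' ≠ 0 := by rintro rfl; exact ha' (dvd_zero _)
      simpa using this
    have hb'F : algebraMap O F b' ≠ 0 := by
      have : b' ≠ 0 := by rintro rfl; exact hb' (dvd_zero _)
      simpa using this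
    rcases le_total j i with hij | hij
    · left
      refine ⟨p ^ (i - j) * a', b', hb', ?_⟩
      obtain ⟨k, rfl⟩ := Nat.exists_eq_add_of_le hij
      rw [Nat.add_sub_cancel_left]
      simp only [map_mul, map_pow]
      field_simp
      ring
    · right
      refine ⟨p ^ (j - i) * b', a', ha', ?_⟩
      obtain ⟨k, rfl⟩ := Nat.exists_eq_add_of_le hij
      rw [Nat.add_sub_cancel_left]
      simp only [map_mul, map_pow]
      field_simp
      ring

theorem mem_b9Val {p : O} (hp : Prime p) {x : F} :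
    x ∈ b9Val F hp ↔ ∃ a c : O, ¬ p ∣ c ∧ x * algebraMap O F c = algebraMap O F a := Iff.rfl

theorem algebraMap_mem_b9Val {p : O} (hp : Prime p) (a : O) : algebraMap O F a ∈ b9Val F hp :=
  ⟨a, 1, hp.not_dvd_one, by simp⟩

theorem inv_mem_b9Val {p : O} (hp : Prime p) {c : O} (hc : ¬ p ∣ c) :
    (algebraMap O F c)⁻¹ ∈ b9Val F hp := by
  have hc0 : algebraMap O F c ≠ 0 := by
    have : c ≠ 0 := by rintro rfl; exact hc (dvd_zero _)
    simpa using this
  exact ⟨1, c, hc, by rw [inv_mul_cancel₀ hc0, map_one]⟩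

theorem not_dvd_of_inv_mem_b9Val {p : O} (hp : Prime p) {n : O} (hn : n ≠ 0)
    (h : (algebraMap O F n)⁻¹ ∈ b9Val F hp) : ¬ p ∣ n := by
  obtain ⟨a, c, hc, h1⟩ := h
  have hn0 : algebraMap O F n ≠ 0 := by simpa using hn
  intro hd
  apply hc
  have h2 : algebraMap O F c = algebraMap O F (a * n) := by
    rw [map_mul, ← h1]; field_simp
  rw [IsFractionRing.injective O F h2]
  exact hd.mul_left a

theorem b9Val_ne_top {p : O} (hp : Prime p) : b9Val F hp ≠ ⊤ := by
  intro h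
  have h1 : (algebraMap O F p)⁻¹ ∈ b9Val F hp := by rw [h]; exact ValuationSubring.mem_top _
  exact not_dvd_of_inv_mem_b9Val hp hp.ne_zero h1 dvd_rfl

/-- every nonzero element of `F` is a unit of `O_(p)` times a power of `p` -/
theorem b9_exists_zpow {p : O} (hp : Prime p) {x : F} (hx : x ≠ 0) :
    ∃ (n : ℤ) (u : F), u ∈ b9Val F hp ∧ u⁻¹ ∈ b9Val F hp ∧ x = algebraMap O F p ^ n * u := by
  obtain ⟨a, b, hb, rfl⟩ := IsFractionRing.div_surjective (A := O) x
  have hb0 : b ≠ 0 := nonZeroDivisors.ne_zero hb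
  have ha0 : a ≠ 0 := by
    rintro rfl
    simp at hx
  obtain ⟨i, a', ha', rfl⟩ := b9_exists_pow_mul hp ha0
  obtain ⟨j, b', hb', rfl⟩ := b9_exists_pow_mul hp hb0
  have hpF : algebraMap O F p ≠ 0 := by simpa using hp.ne_zero
  have ha'F : algebraMap O F a' ≠ 0 := by
    have : a' ≠ 0 := by rintro rfl; exact ha' (dvd_zero _)
    simpa using this
  have hb'F : algebraMap O F b' ≠ 0 := by
    have : b' ≠ 0 := by rintro rfl; exact hb' (dvd_zero _)
    simpa using this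
  refine ⟨(i : ℤ) - j, algebraMap O F a' / algebraMap O F b', ?_, ?_, ?_⟩
  · rw [div_eq_mul_inv]
    exact mul_mem (algebraMap_mem_b9Val hp _) (inv_mem_b9Val hp hb')
  · rw [inv_div, div_eq_mul_inv]
    exact mul_mem (algebraMap_mem_b9Val hp _) (inv_mem_b9Val hp ha')
  · rw [zpow_sub₀ hpF, zpow_natCast, zpow_natCast]
    simp only [map_mul, map_pow]
    field_simp

theorem b9Val_isPrincipalIdealRing {p : O} (hp : Prime p) :
    IsPrincipalIdealRing (b9Val F hp) := by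
  classical
  have hpF : algebraMap O F p ≠ 0 := by simpa using hp.ne_zero
  let ϖ : b9Val F hp := ⟨algebraMap O F p, algebraMap_mem_b9Val hp p⟩
  -- elements of the ring
  have key : ∀ x : b9Val F hp, x ≠ 0 → ∃ (n : ℕ) (u : (b9Val F hp)ˣ), x = ϖ ^ n * u := by
    intro x hx
    have hx' : (x : F) ≠ 0 := by simpa using hx
    obtain ⟨n, u, hu, hu', h⟩ := b9_exists_zpow hp hx'
    have hu0 : u ≠ 0 := by
      rintro rfl
      rw [mul_zero] at h
      exact hx' h
    have hn : 0 ≤ n := by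
      by_contra hneg
      rw [not_le] at hneg
      -- then `p⁻¹` is in the ring
      have h1 : (algebraMap O F p)⁻¹ ∈ b9Val F hp := by
        have h2 : (algebraMap O F p)⁻¹ =
            (x : F) * u⁻¹ * algebraMap O F p ^ ((-n - 1).toNat) := by
          have h3 : ((-n - 1).toNat : ℤ) = -n - 1 := Int.toNat_of_nonneg (by omega)
          rw [← zpow_natCast, h3, h, mul_assoc, mul_assoc, ← mul_assoc u, mul_inv_cancel₀ hu0,
            one_mul, ← zpow_add₀ hpF]
          rw [show n + (-n - 1) = -1 by ring, zpow_neg_one]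
        rw [h2]
        exact mul_mem (mul_mem x.2 hu') (pow_mem (algebraMap_mem_b9Val hp p) _)
      exact not_dvd_of_inv_mem_b9Val hp hp.ne_zero h1 dvd_rfl
    obtain ⟨k, rfl⟩ := Int.eq_ofNat_of_zero_le hn
    refine ⟨k, ⟨⟨u, hu⟩, ⟨u⁻¹, hu'⟩, Subtype.ext (mul_inv_cancel₀ hu0),
      Subtype.ext (inv_mul_cancel₀ hu0)⟩, Subtype.ext ?_⟩
    rw [h, zpow_natCast]
    rfl
  refine ⟨fun I => ?_⟩
  by_cases hI : I = ⊥
  · rw [hI]; exact bot_isPrincipal
  obtain ⟨x, hxI, hx0⟩ := Submodule.exists_mem_ne_zero_of_ne_bot hI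
  have hex : ∃ n : ℕ, ϖ ^ n ∈ I := by
    obtain ⟨n, u, h⟩ := key x hx0
    refine ⟨n, ?_⟩
    have : ϖ ^ n = x * ((u⁻¹ : (b9Val F hp)ˣ) : b9Val F hp) := by
      rw [h, mul_assoc, Units.mul_inv, mul_one]
    rw [this]
    exact I.mul_mem_right _ hxI
  refine ⟨⟨ϖ ^ Nat.find hex, ?_⟩⟩
  apply le_antisymm
  · intro z hz
    rw [Ideal.submodule_span_eq, Ideal.mem_span_singleton]
    by_cases hz0 : z = 0
    · rw [hz0]; exact dvd_zero _
    obtain ⟨k, u, h⟩ := key z hz0
    have hk : ϖ ^ k ∈ I := by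
      have : ϖ ^ k = z * ((u⁻¹ : (b9Val F hp)ˣ) : b9Val F hp) := by
        rw [h, mul_assoc, Units.mul_inv, mul_one]
      rw [this]
      exact I.mul_mem_right _ hz
    have hle := Nat.find_min' hex hk
    rw [h]
    exact (pow_dvd_pow ϖ hle).mul_right _
  · rw [Ideal.submodule_span_eq, Ideal.span_singleton_le_iff_mem]
    exact Nat.find_spec hex

end val

section hint

variable {O₀ S₁ F₀ F₁ : Type*} [CommRing O₀] [IsDomain O₀] [UniqueFactorizationMonoid O₀]
  [CommRing S₁] [Algebra O₀ S₁]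
  [Field F₀] [Algebra O₀ F₀] [IsFractionRing O₀ F₀]
  [Field F₁] [Algebra S₁ F₁] [Algebra F₀ F₁] [Algebra O₀ F₁]
  [IsScalarTower O₀ S₁ F₁] [IsScalarTower O₀ F₀ F₁] [IsIntegralClosure S₁ O₀ F₁]

/-- a common denominator prime to `p` -/
theorem b9_exists_denom {p : O₀} (hp : Prime p) (q : F₀[X]) (hq : ∀ i, q.coeff i ∈ b9Val F₀ hp) :
    ∃ c : O₀, ¬ p ∣ c ∧ ∀ i, ∃ a : O₀, algebraMap O₀ F₀ c * q.coeff i = algebraMap O₀ F₀ a := by
  classical
  choose a c hc h using hq
  refine ⟨∏ i ∈ q.support, c i, ?_, fun i => ?_⟩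
  · intro hd
    obtain ⟨i, -, hi⟩ := (Prime.dvd_finsetProd_iff hp _).1 hd
    exact hc i hi
  · by_cases hi : i ∈ q.support
    · refine ⟨(∏ j ∈ q.support.erase i, c j) * a i, ?_⟩
      rw [← Finset.mul_prod_erase _ _ hi, map_mul, map_mul, ← h i]
      ring
    · rw [Polynomial.notMem_support_iff.1 hi]
      exact ⟨0, by simp⟩

/-- an element integral over `O_(p)` becomes integral over `O` after multiplication by some
`c ∉ (p)` -/
theorem b9_isIntegral_mul {p : O₀} (hp : Prime p) {z : F₁} {q : F₀[X]} (hqm : q.Monic)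
    (hq : ∀ i, q.coeff i ∈ b9Val F₀ hp) (hz : aeval z q = 0) :
    ∃ c : O₀, ¬ p ∣ c ∧ IsIntegral O₀ (algebraMap O₀ F₁ c * z) := by
  obtain ⟨c, hc, ha⟩ := b9_exists_denom hp q hq
  refine ⟨c, hc, ?_⟩
  have hlift : scaleRoots q (algebraMap O₀ F₀ c) ∈ Polynomial.lifts (algebraMap O₀ F₀) := by
    rw [Polynomial.lifts_iff_coeff_lifts]
    intro i
    rw [coeff_scaleRoots]
    by_cases hi : i < q.natDegree
    · obtain ⟨a, h⟩ := ha i
      refine ⟨a * c ^ (q.natDegree - i - 1), ?_⟩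
      rw [map_mul, map_pow, ← h]
      have : q.natDegree - i = (q.natDegree - i - 1) + 1 := by omega
      conv_rhs => rw [this, pow_succ]
      ring
    · rcases Nat.lt_or_eq_of_le (not_lt.1 hi) with h | h
      · rw [coeff_eq_zero_of_natDegree_lt h, zero_mul]
        exact ⟨0, map_zero _⟩
      · rw [← h, Nat.sub_self, pow_zero, mul_one, hqm.coeff_natDegree]
        exact ⟨1, map_one _⟩
  obtain ⟨q₀, hq₀, -, hq₀m⟩ := Polynomial.lifts_and_natDegree_eq_and_monic hlift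
    ((monic_scaleRoots_iff _).2 hqm)
  refine ⟨q₀, hq₀m, ?_⟩
  have h1 : eval₂ (algebraMap F₀ F₁) (algebraMap F₀ F₁ (algebraMap O₀ F₀ c) * z)
      (scaleRoots q (algebraMap O₀ F₀ c)) = 0 :=
    scaleRoots_eval₂_eq_zero (algebraMap F₀ F₁) hz
  rw [← hq₀, eval₂_map, ← IsScalarTower.algebraMap_eq, ← IsScalarTower.algebraMap_apply] at h1
  exact h1

/-- `hmono` of `M7bFinal` -/
theorem b9_hmono {p : O₀} (hp : Prime p) {b : S₁} (hb : Algebra.adjoin O₀ {b} = ⊤) (z : F₁)
    (hz : ∃ q : F₀[X], q.Monic ∧ (∀ i, q.coeff i ∈ b9Val F₀ hp) ∧ aeval z q = 0) :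
    ∃ P : F₀[X], (∀ i, P.coeff i ∈ b9Val F₀ hp) ∧ aeval (algebraMap S₁ F₁ b) P = z := by
  obtain ⟨q, hqm, hq, hqz⟩ := hz
  obtain ⟨c, hc, hint⟩ := b9_isIntegral_mul hp hqm hq hqz
  obtain ⟨w, hw⟩ := IsIntegralClosure.isIntegral_iff (A := S₁).1 hint
  have hwb : w ∈ Algebra.adjoin O₀ {b} := by rw [hb]; exact Algebra.mem_top
  rw [Algebra.adjoin_singleton_eq_range_aeval] at hwb
  obtain ⟨P₀, hP₀⟩ := hwb
  have hc0 : algebraMap O₀ F₀ c ≠ 0 := by
    have : c ≠ 0 := by rintro rfl; exact hc (dvd_zero _)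
    simpa using this
  refine ⟨C (algebraMap O₀ F₀ c)⁻¹ * P₀.map (algebraMap O₀ F₀), fun i => ?_, ?_⟩
  · rw [coeff_C_mul, coeff_map]
    exact mul_mem (inv_mem_b9Val hp hc) (algebraMap_mem_b9Val hp _)
  · have h1 : aeval (algebraMap S₁ F₁ b) (P₀.map (algebraMap O₀ F₀)) = algebraMap O₀ F₁ c * z := by
      rw [aeval_map_algebraMap, aeval_algebraMap_apply, ← hw]
      congr 1
    rw [map_mul, aeval_C, h1, IsScalarTower.algebraMap_apply O₀ F₀ F₁ c, ← mul_assoc, ← map_mul,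
      inv_mul_cancel₀ hc0, map_one, one_mul]

theorem b9_hb {p : O₀} (hp : Prime p) (b : S₁) :
    ∃ q : F₀[X], q.Monic ∧ (∀ i, q.coeff i ∈ b9Val F₀ hp) ∧ aeval (algebraMap S₁ F₁ b) q = 0 := by
  have hint : IsIntegral O₀ b := IsIntegralClosure.isIntegral O₀ F₁ b
  refine ⟨(minpoly O₀ b).map (algebraMap O₀ F₀), (minpoly.monic hint).map _, fun i => ?_, ?_⟩
  · rw [coeff_map]; exact algebraMap_mem_b9Val hp _
  · rw [aeval_map_algebraMap, aeval_algebraMap_apply, minpoly.aeval, map_zero]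

variable [IsDomain S₁] [FiniteDimensional F₀ F₁] [Algebra.IsSeparable F₀ F₁]

/-- **B9, abstract form.**  `hunit` = M7b. -/
theorem b9_hint_abs {π : O₀} {b : S₁}
    (hunit : ∀ (p : O₀) (hp : Prime p), ¬ Associated p π →
      (Algebra.norm F₀ (aeval (algebraMap S₁ F₁ b)
        (derivative (minpoly F₀ (algebraMap S₁ F₁ b)))))⁻¹ ∈ b9Val F₀ hp) :
    ∃ n : O₀, algebraMap O₀ F₀ n =
        Algebra.norm F₀ (algebraMap S₁ F₁ (aeval b (derivative (minpoly O₀ b)))) ∧
      ∀ p₀ : O₀, Prime p₀ → p₀ ∣ n → Associated p₀ π := by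
  have hint : IsIntegral O₀ b := IsIntegralClosure.isIntegral O₀ F₁ b
  have hmin : minpoly F₀ (algebraMap S₁ F₁ b) = (minpoly O₀ b).map (algebraMap O₀ F₀) :=
    minpoly.isIntegrallyClosed_eq_field_fractions F₀ F₁ hint
  have hθ : aeval (algebraMap S₁ F₁ b) (derivative (minpoly F₀ (algebraMap S₁ F₁ b))) =
      algebraMap S₁ F₁ (aeval b (derivative (minpoly O₀ b))) := by
    rw [hmin, derivative_map, aeval_map_algebraMap, aeval_algebraMap_apply]
  have hθint : IsIntegral O₀ (algebraMap S₁ F₁ (aeval b (derivative (minpoly O₀ b)))) :=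
    IsIntegralClosure.isIntegral_iff (A := S₁).2 ⟨_, rfl⟩
  have hNint : IsIntegral O₀
      (Algebra.norm F₀ (algebraMap S₁ F₁ (aeval b (derivative (minpoly O₀ b))))) :=
    Algebra.isIntegral_norm F₀ hθint
  obtain ⟨n, hn⟩ := (IsIntegrallyClosed.isIntegral_iff (R := O₀) (K := F₀)).1 hNint
  have hθ0 : aeval (algebraMap S₁ F₁ b) (derivative (minpoly F₀ (algebraMap S₁ F₁ b))) ≠ 0 :=
    (Algebra.IsSeparable.isSeparable F₀ (algebraMap S₁ F₁ b)).aeval_derivative_ne_zero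
      (minpoly.aeval _ _)
  have hn0 : n ≠ 0 := by
    rintro rfl
    rw [map_zero, eq_comm, Algebra.norm_eq_zero_iff, ← hθ] at hn
    exact hθ0 hn
  refine ⟨n, hn, fun p₀ hp₀ hd => ?_⟩
  by_contra hna
  have h1 := hunit p₀ hp₀ hna
  rw [hθ, ← hn] at h1
  exact not_dvd_of_inv_mem_b9Val hp₀ hn0 h1 hd

end hint

end Fermat.Agent.CARlib
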