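import Fermat.Agent.CAR.M7bConst
import Fermat.Agent.UNI.Mord

/-!
# T-CAR, row M7b (b2): unramifiedness of `K`-places from unramifiedness over the algebraic closure

* `m7b_exists_restrict` : restriction of a place along an embedding of function fields;
* `m7b_bc_unram`        : every place of `F_L(N)` above a place of `F_K(N)` has index one;
* `m7b_unram_K`         : if all the places of `F_L(N₁)` above `v` are unramified over `F_L(N₀)`,
  then `v` is unramified over `F_K(N₀)`.
-/

set_option autoImplicit false
set_option linter.unusedSectionVars false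
set_option linter.style.haveILetI false

open AlgebraicCurve ModularCurve IntermediateField Polynomial

namespace Fermat.Agent.CARlib

open Fermat.Agent.S24RH Fermat.Agent.S24lib Fermat.Agent.ESlib Fermat.Agent.UNIlib

section abs

variable {K F0 F1 : Type*} [Field K] [Field F0] [Field F1] [Algebra K F0] [Algebra K F1]

/-- restriction of a place along an embedding of function fields -/
theorem m7b_exists_restrict (hFF1 : IsFF K F1) (ι : F0 →ₐ[K] F1) {x : F0}
    (hx : Transcendental K x) (v : Place K F1) :
    ∃ (v0 : Place K F0) (m : ℕ), 0 < m ∧ ∀ f : F0, v.ord (ι f) = m * v0.ord f := by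
  have hinj : Function.Injective ι := ι.toRingHom.injective
  have hne : ∀ f : F0, f ≠ 0 → ι f ≠ 0 := fun f hf => (map_ne_zero_iff _ hinj).2 hf
  have hnt : ∃ f : F0, f ≠ 0 ∧ v.ord (ι f) ≠ 0 := by
    by_contra hcon
    push Not at hcon
    have hxtr : Transcendental K (ι x) := by
      intro h
      exact hx ((isAlgebraic_algHom_iff ι hinj).1 h)
    have := hFF1.finiteDimensional hxtr
    have hle : ∀ c ∈ K⟮ι x⟯, c ∈ v.toValuationSubring := by
      intro c hc
      have h1 : K⟮ι x⟯ ≤ ι.fieldRange := by
        rw [IntermediateField.adjoin_le_iff]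
        rintro _ rfl
        exact ⟨x, rfl⟩
      obtain ⟨c', rfl⟩ := h1 hc
      by_cases hc0 : c' = 0
      · rw [hc0, map_zero]; exact zero_mem _
      · exact mem_of_ord_nonneg v (le_of_eq (hcon c' hc0).symm)
    apply v.ne_top'
    rw [eq_top_iff]
    intro y _
    have hy : IsIntegral K⟮ι x⟯ y := Algebra.IsIntegral.isIntegral y
    refine mem_valuationSubring_of_monic v.toValuationSubring y
      ((minpoly K⟮ι x⟯ y).map (algebraMap K⟮ι x⟯ F1)) ((minpoly.monic hy).map _) ?_ ?_
    · intro i
      rw [Polynomial.coeff_map]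
      exact hle _ (Subtype.property _)
    · rw [Polynomial.eval_map, ← Polynomial.aeval_def, minpoly.aeval]
  obtain ⟨v0, m, hm, hv0⟩ := exists_place_of_valuation (K := K) (fun f : F0 => v.ord (ι f))
    (fun f g hf hg => by
      simp only [map_mul]
      exact v.ord_mul (hne f hf) (hne g hg))
    (fun f g hf hg hfg => by
      simp only [map_add]
      have h1 : ι f + ι g ≠ 0 := by rw [← map_add]; exact hne _ hfg
      rcases Place.ord_add_ge v h1 with h | h | h
      · exact h
      · exact absurd h (hne f hf)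
      · exact absurd h (hne g hg))
    (fun a _ => by
      simp only [AlgHom.commutes]
      exact Place.ord_algebraMap v a)
    hnt
  refine ⟨v0, m, hm, fun f => ?_⟩
  by_cases hf : f = 0
  · subst hf; simp
  · exact hv0 f hf

end abs

section conc

variable (K L : Type) [Field K] [Field L] [CharZero K] [Algebra ℚ K] [Algebra ℚ L] [Algebra K L]
  [IsScalarTower ℚ K L]

/-- every place of `F_L(N)` above a place of `F_K(N)` has index one -/
theorem m7b_bc_unram (N : ℕ) [NeZero N] [IsAlgClosed L] [Algebra.IsAlgebraic K L]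
    (v : Place K (FK K N)) (P : Place L (FK L N)) (n : ℕ) (hn : 0 < n)
    (hP : ∀ f : FK K N, P.ord (bc K L (modularFunctionFieldFull N) f) = n * v.ord f) : n = 1 := by
  have : CharZero L := charZero_of_injective_algebraMap (algebraMap K L).injective
  letI : Algebra (FK K N) (FK L N) := (bc K L (modularFunctionFieldFull N)).toAlgebra
  letI : Algebra K (FK L N) := ((algebraMap L (FK L N)).comp (algebraMap K L)).toAlgebra
  haveI : IsScalarTower K (FK K N) (FK L N) := IsScalarTower.of_algebraMap_eq fun a =>
    (bc_algebraMap K L (modularFunctionFieldFull N) a).symm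
  haveI : IsScalarTower K L (FK L N) := IsScalarTower.of_algebraMap_eq fun _ => rfl
  refine m7b_const_unram (isFF_FKK K N) (isFF_FKK L N) ?_ v P n hn hP
  rw [eq_top_iff, ← adjoin_range_JgenK L N]
  apply IntermediateField.adjoin.mono
  rintro _ ⟨d, rfl⟩
  exact ⟨Jgen K N d, bc_JgenK K L N d⟩

/-- **(b2)** descent of unramifiedness from `L` to `K` -/
theorem m7b_unram_K (N0 N1 : ℕ) [NeZero N0] [NeZero N1] [IsAlgClosed L] [Algebra.IsAlgebraic K L]
    (ιK : FK K N0 →ₐ[K] FK K N1) (ιL : FK L N0 →ₐ[L] FK L N1)
    (hcomm : ∀ f : FK K N0, bc K L (modularFunctionFieldFull N1) (ιK f) =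
      ιL (bc K L (modularFunctionFieldFull N0) f))
    (v : Place K (FK K N1))
    (hM7 : ∀ Q : Place L (FK L N1),
      (∀ f : FK K N1, Q.ord (bc K L (modularFunctionFieldFull N1) f) = v.ord f) →
        ∃ T : FK L N0, Q.ord (ιL T) = 1) :
    ∃ v0 : Place K (FK K N0), ∀ f : FK K N0, v.ord (ιK f) = v0.ord f := by
  have : CharZero L := charZero_of_injective_algebraMap (algebraMap K L).injective
  obtain ⟨P, hP⟩ := exists_place_bc K L N1 v
  obtain ⟨T, hT⟩ := hM7 P hP
  obtain ⟨v0, m0, hm0, hv0⟩ := m7b_exists_restrict (isFF_FKK K N1) ιK (transcendental_J1K K N0) v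
  obtain ⟨P0, M0, hM0, hP0⟩ := m7b_exists_restrict (isFF_FKK L N1) ιL (transcendental_J1K L N0) P
  have hM01 : M0 = 1 := by
    have h := hP0 T
    rw [hT] at h
    have h1 : (M0 : ℤ) ∣ 1 := ⟨_, h⟩
    have h2 := Int.eq_one_of_dvd_one (by positivity) h1
    exact_mod_cast h2
  have hm01 : m0 = 1 := by
    refine m7b_bc_unram K L N0 v0 P0 m0 hm0 (fun f => ?_)
    have h := hP0 (bc K L (modularFunctionFieldFull N0) f)
    rw [hM01, Nat.cast_one, one_mul, ← hcomm, hP, hv0] at h
    exact h.symm
  refine ⟨v0, fun f => ?_⟩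
  rw [hv0, hm01, Nat.cast_one, one_mul]

end conc

end Fermat.Agent.CARlib
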