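import Fermat.Agent.CAR.M7bNorm
import Fermat.Agent.CAR.M7bUnram

/-!
# T-CAR, row M7b (b4), concrete form

`ιK : F_K(N₀) → F_K(N₁)` an embedding of modular function fields which is the restriction of
`ιL : F_L(N₀) → F_L(N₁)`, `L` the algebraic closure of `K`; `ιL` unramified at the non-cuspidal
places (M7u).  Then for every non-cuspidal place `v0` of `F_K(N₀)`:

* `m7b_unram_above`  : every place `v` of `F_K(N₁)` above `v0` has `ord_v (ιK f) = ord_v0 f`;
* `m7b_norm_unit`    : if the integral closure of `O_v0` in `F_K(N₁)` is `O_v0[b]` then the norm of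
  `g'(b)` (`g = minpoly b`) is a unit of `O_v0`;
* `m7b_ord_theta`    : and `ord_v (g'(b)) = 0` for every place `v` above `v0`.
-/

set_option autoImplicit false
set_option linter.unusedSectionVars false
set_option linter.style.haveILetI false

open AlgebraicCurve ModularCurve IntermediateField Polynomial

namespace Fermat.Agent.CARlib

open Fermat.Agent.S24RH Fermat.Agent.S24lib Fermat.Agent.ESlib Fermat.Agent.UNIlib

variable (K L : Type) [Field K] [Field L] [CharZero K] [Algebra ℚ K] [Algebra ℚ L] [Algebra K L]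
  [IsScalarTower ℚ K L] [IsAlgClosed L] [Algebra.IsAlgebraic K L]
  (N0 N1 : ℕ) [NeZero N0] [NeZero N1]
  (ιK : FK K N0 →ₐ[K] FK K N1) (ιL : FK L N0 →ₐ[L] FK L N1)

/-- every place above a non-cuspidal place is unramified -/
theorem m7b_unram_above
    (hcomm : ∀ f : FK K N0, bc K L (modularFunctionFieldFull N1) (ιK f) =
      ιL (bc K L (modularFunctionFieldFull N0) f))
    (hM7 : ∀ Q : Place L (FK L N1), 0 ≤ Q.ord (ιL (J1 L N0)) → ∃ T : FK L N0, Q.ord (ιL T) = 1)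
    (v0 : Place K (FK K N0)) (hj : 0 ≤ v0.ord (J1 K N0)) (v : Place K (FK K N1))
    (hv : ∀ f ∈ v0.toValuationSubring, ιK f ∈ v.toValuationSubring) (f : FK K N0) :
    v.ord (ιK f) = v0.ord f := by
  obtain ⟨v0', hv0'⟩ := m7b_unram_K K L N0 N1 ιK ιL hcomm v (fun Q hQ => by
    apply hM7 Q
    have h1 : J1 L N0 = bc K L (modularFunctionFieldFull N0) (J1 K N0) :=
      (bc_JgenK K L N0 ⟨1, one_dvd N0⟩).symm
    rw [h1, ← hcomm, hQ]
    exact ord_nonneg_of_mem v (hv _ (mem_of_ord_nonneg v0 hj)))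
  have heq : v0 = v0' := by
    apply place_ext_of_le
    intro g hg
    apply mem_of_ord_nonneg
    rw [← hv0']
    exact ord_nonneg_of_mem v (hv g hg)
  rw [hv0', heq]

variable [Algebra (FK K N0) (FK K N1)] [FiniteDimensional (FK K N0) (FK K N1)]

/-- **(b4)** the norm of `g'(b)` is a unit at the non-cuspidal places -/
theorem m7b_norm_unit (halg : ∀ f : FK K N0, algebraMap (FK K N0) (FK K N1) f = ιK f)
    (hcomm : ∀ f : FK K N0, bc K L (modularFunctionFieldFull N1) (ιK f) =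
      ιL (bc K L (modularFunctionFieldFull N0) f))
    (hM7 : ∀ Q : Place L (FK L N1), 0 ≤ Q.ord (ιL (J1 L N0)) → ∃ T : FK L N0, Q.ord (ιL T) = 1)
    (v0 : Place K (FK K N0)) (hj : 0 ≤ v0.ord (J1 K N0)) (b : FK K N1)
    (hb : ∃ p : (FK K N0)[X], p.Monic ∧ (∀ i, p.coeff i ∈ v0.toValuationSubring) ∧ aeval b p = 0)
    (hmono : ∀ z : FK K N1,
      (∃ p : (FK K N0)[X], p.Monic ∧ (∀ i, p.coeff i ∈ v0.toValuationSubring) ∧ aeval z p = 0) →
        ∃ P : (FK K N0)[X], (∀ i, P.coeff i ∈ v0.toValuationSubring) ∧ aeval b P = z) :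
    Algebra.norm (FK K N0) (aeval b (derivative (minpoly (FK K N0) b))) ∈ v0.toValuationSubring ∧
      (Algebra.norm (FK K N0) (aeval b (derivative (minpoly (FK K N0) b))))⁻¹ ∈
        v0.toValuationSubring := by
  haveI : IsScalarTower K (FK K N0) (FK K N1) := IsScalarTower.of_algebraMap_eq fun a => by
    rw [halg, AlgHom.commutes]
  refine m7b_norm_unit_abs v0 (fun v hv f => ?_) b hb hmono
  rw [halg]
  exact m7b_unram_above K L N0 N1 ιK ιL hcomm hM7 v0 hj v
    (fun g hg => by rw [← halg]; exact hv g hg) f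

/-- **(b4)** `ord_v (g'(b)) = 0` at every place above a non-cuspidal place -/
theorem m7b_ord_theta (halg : ∀ f : FK K N0, algebraMap (FK K N0) (FK K N1) f = ιK f)
    (hcomm : ∀ f : FK K N0, bc K L (modularFunctionFieldFull N1) (ιK f) =
      ιL (bc K L (modularFunctionFieldFull N0) f))
    (hM7 : ∀ Q : Place L (FK L N1), 0 ≤ Q.ord (ιL (J1 L N0)) → ∃ T : FK L N0, Q.ord (ιL T) = 1)
    (v0 : Place K (FK K N0)) (hj : 0 ≤ v0.ord (J1 K N0)) (b : FK K N1)
    (hb : ∃ p : (FK K N0)[X], p.Monic ∧ (∀ i, p.coeff i ∈ v0.toValuationSubring) ∧ aeval b p = 0)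
    (hmono : ∀ z : FK K N1,
      (∃ p : (FK K N0)[X], p.Monic ∧ (∀ i, p.coeff i ∈ v0.toValuationSubring) ∧ aeval z p = 0) →
        ∃ P : (FK K N0)[X], (∀ i, P.coeff i ∈ v0.toValuationSubring) ∧ aeval b P = z)
    (v : Place K (FK K N1))
    (hv : ∀ f ∈ v0.toValuationSubring, ιK f ∈ v.toValuationSubring) :
    v.ord (aeval b (derivative (minpoly (FK K N0) b))) = 0 := by
  haveI : IsScalarTower K (FK K N0) (FK K N1) := IsScalarTower.of_algebraMap_eq fun a => by
    rw [halg, AlgHom.commutes]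
  refine m7b_ord_theta_abs v0 (fun v hv f => ?_) b hb hmono v
    (fun g hg => by rw [halg]; exact hv g hg)
  rw [halg]
  exact m7b_unram_above K L N0 N1 ιK ιL hcomm hM7 v0 hj v
    (fun g hg => by rw [← halg]; exact hv g hg) f

/-- **(b4)**, shape of helper25 (#753): `𝒪` a discrete valuation ring of `F_K(N₀)` containing `K`
and `j` -/
theorem m7b_norm_unit_valuationSubring
    (halg : ∀ f : FK K N0, algebraMap (FK K N0) (FK K N1) f = ιK f)
    (hcomm : ∀ f : FK K N0, bc K L (modularFunctionFieldFull N1) (ιK f) =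
      ιL (bc K L (modularFunctionFieldFull N0) f))
    (hM7 : ∀ Q : Place L (FK L N1), 0 ≤ Q.ord (ιL (J1 L N0)) → ∃ T : FK L N0, Q.ord (ιL T) = 1)
    (𝒪 : ValuationSubring (FK K N0)) (hK : ∀ a : K, algebraMap K (FK K N0) a ∈ 𝒪) (hne : 𝒪 ≠ ⊤)
    (hpir : IsPrincipalIdealRing 𝒪) (hj : J1 K N0 ∈ 𝒪) (b : FK K N1)
    (hb : ∃ p : (FK K N0)[X], p.Monic ∧ (∀ i, p.coeff i ∈ 𝒪) ∧ aeval b p = 0)
    (hmono : ∀ z : FK K N1,
      (∃ p : (FK K N0)[X], p.Monic ∧ (∀ i, p.coeff i ∈ 𝒪) ∧ aeval z p = 0) →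
        ∃ P : (FK K N0)[X], (∀ i, P.coeff i ∈ 𝒪) ∧ aeval b P = z) :
    Algebra.norm (FK K N0) (aeval b (derivative (minpoly (FK K N0) b))) ∈ 𝒪 ∧
      (Algebra.norm (FK K N0) (aeval b (derivative (minpoly (FK K N0) b))))⁻¹ ∈ 𝒪 :=
  m7b_norm_unit K L N0 N1 ιK ιL halg hcomm hM7 ⟨𝒪, hK, hne, hpir⟩
    (ord_nonneg_of_mem (⟨𝒪, hK, hne, hpir⟩ : Place K (FK K N0)) hj) b hb hmono

end Fermat.Agent.CARlib
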