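import Fermat.Agent.CAR.B9Abs
import Fermat.Agent.CAR.M7L
import Fermat.Agent.CAR.M7bFinal

/-!
# T-CAR, row B9: the hypothesis `hint` of `b5_dvd_pow` from M7 + M7b

`F₀ = FK K N0 ⊆ F₁ = FK K N1` (`N0 ∣ N1`, `4 ∣ N0` or `9 ∣ N0`), `K ⊆ ℂ` any field,
`O₀ ⊆ F₀` a UFD with `Frac O₀ = F₀`, `K ⊆ O₀[1/π]`, `j ∈ O₀` (non-cuspidal), `S₁ = O₀[b]` the integral
closure of `O₀` in `F₁`, `θ = g'(b)`.  Then the norm of `θ` is divisible by no prime of `O₀` other than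
`π`.
-/

set_option autoImplicit false
set_option linter.unusedSectionVars false

open AlgebraicCurve ModularCurve Polynomial

namespace Fermat.Agent.CARlib

open Fermat.Agent.S24RH Fermat.Agent.S24lib Fermat.Agent.ESlib Fermat.Agent.UNIlib

section generalL

variable (K L : Type) [Field K] [Field L] [CharZero K] [Algebra ℚ K] [Algebra ℚ L] [Algebra K L]
  [IsScalarTower ℚ K L] [IsAlgClosed L] [Algebra.IsAlgebraic K L] [CharZero L] [Algebra L ℂ]
  [IsScalarTower ℚ L ℂ]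
  {N0 N1 : ℕ} [NeZero N0] [NeZero N1]

theorem b9_bc_inclF (hN : N0 ∣ N1) (f : FK K N0) :
    bc K L (modularFunctionFieldFull N1) (inclF K hN f) =
      inclF L hN (bc K L (modularFunctionFieldFull N0) f) :=
  Subtype.ext (by rw [coe_bc, coe_inclF, coe_inclF, coe_bc])

variable {O₀ S₁ : Type*} [CommRing O₀] [IsDomain O₀] [UniqueFactorizationMonoid O₀]
  [CommRing S₁] [IsDomain S₁] [Algebra O₀ S₁]
  [Algebra O₀ (FK K N0)] [IsFractionRing O₀ (FK K N0)]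
  [Algebra S₁ (FK K N1)] [Algebra (FK K N0) (FK K N1)] [Algebra O₀ (FK K N1)]
  [IsScalarTower O₀ S₁ (FK K N1)] [IsScalarTower O₀ (FK K N0) (FK K N1)]
  [IsIntegralClosure S₁ O₀ (FK K N1)] [FiniteDimensional (FK K N0) (FK K N1)]
  [Algebra.IsSeparable (FK K N0) (FK K N1)]

include L in
theorem b9_hint_L (hN : N0 ∣ N1) (h49 : 4 ∣ N0 ∨ 9 ∣ N0)
    (halg : ∀ f : FK K N0, algebraMap (FK K N0) (FK K N1) f = inclF K hN f)
    {π : O₀} (hπ : Prime π)
    (hK : ∀ c : K, ∃ (k : ℕ) (a : O₀),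
      algebraMap K (FK K N0) c * algebraMap O₀ (FK K N0) π ^ k = algebraMap O₀ (FK K N0) a)
    (hJ : ∃ a : O₀, algebraMap O₀ (FK K N0) a = J1 K N0)
    {b : S₁} (hb : Algebra.adjoin O₀ {b} = ⊤) :
    ∃ n : O₀, algebraMap O₀ (FK K N0) n =
        Algebra.norm (FK K N0) (algebraMap S₁ (FK K N1) (aeval b (derivative (minpoly O₀ b)))) ∧
      ∀ p₀ : O₀, Prime p₀ → p₀ ∣ n → Associated p₀ π := by
  refine b9_hint_abs (fun p hp hna => ?_)
  refine (m7b_norm_unit_valuationSubring K L N0 N1 (inclF K hN) (inclF L hN) halg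
    (b9_bc_inclF K L hN) (fun Q hQ => m7L_unram hN h49 Q hQ) (b9Val (FK K N0) hp) (fun c => ?_)
    (b9Val_ne_top hp) (b9Val_isPrincipalIdealRing hp) ?_ (algebraMap S₁ (FK K N1) b)
    (b9_hb hp b) (b9_hmono hp hb)).2
  · obtain ⟨k, a, h⟩ := hK c
    have hpk : ¬ p ∣ π ^ k := fun hd => hna (hp.associated_of_dvd hπ (hp.dvd_of_dvd_pow hd))
    have h0 : algebraMap O₀ (FK K N0) (π ^ k) ≠ 0 := by
      have : π ^ k ≠ 0 := pow_ne_zero _ hπ.ne_zero
      simpa using this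
    have h1 : algebraMap K (FK K N0) c =
        algebraMap O₀ (FK K N0) a * (algebraMap O₀ (FK K N0) (π ^ k))⁻¹ := by
      rw [← h, map_pow, mul_assoc, mul_inv_cancel₀ (by rwa [map_pow] at h0), mul_one]
    rw [h1]
    exact mul_mem (algebraMap_mem_b9Val hp a) (inv_mem_b9Val hp hpk)
  · obtain ⟨a, ha⟩ := hJ
    rw [← ha]
    exact algebraMap_mem_b9Val hp a

end generalL

section final

variable (K : Type) [Field K] [CharZero K] [Algebra ℚ K] [Algebra K ℂ] [IsScalarTower ℚ K ℂ]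
  {N0 N1 : ℕ} [NeZero N0] [NeZero N1]
  {O₀ S₁ : Type*} [CommRing O₀] [IsDomain O₀] [UniqueFactorizationMonoid O₀]
  [CommRing S₁] [IsDomain S₁] [Algebra O₀ S₁]
  [Algebra O₀ (FK K N0)] [IsFractionRing O₀ (FK K N0)]
  [Algebra S₁ (FK K N1)] [Algebra (FK K N0) (FK K N1)] [Algebra O₀ (FK K N1)]
  [IsScalarTower O₀ S₁ (FK K N1)] [IsScalarTower O₀ (FK K N0) (FK K N1)]
  [IsIntegralClosure S₁ O₀ (FK K N1)] [FiniteDimensional (FK K N0) (FK K N1)]
  [Algebra.IsSeparable (FK K N0) (FK K N1)]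

/-- **B9**: the hypothesis `hint` of `b5_dvd_pow` -/
theorem b9_hint (hN : N0 ∣ N1) (h49 : 4 ∣ N0 ∨ 9 ∣ N0)
    (halg : ∀ f : FK K N0, algebraMap (FK K N0) (FK K N1) f = inclF K hN f)
    {π : O₀} (hπ : Prime π)
    (hK : ∀ c : K, ∃ (k : ℕ) (a : O₀),
      algebraMap K (FK K N0) c * algebraMap O₀ (FK K N0) π ^ k = algebraMap O₀ (FK K N0) a)
    (hJ : ∃ a : O₀, algebraMap O₀ (FK K N0) a = J1 K N0)
    {b : S₁} (hb : Algebra.adjoin O₀ {b} = ⊤) :
    ∃ n : O₀, algebraMap O₀ (FK K N0) n =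
        Algebra.norm (FK K N0) (algebraMap S₁ (FK K N1) (aeval b (derivative (minpoly O₀ b)))) ∧
      ∀ p₀ : O₀, Prime p₀ → p₀ ∣ n → Associated p₀ π := by
  have : IsAlgClosed (algebraicClosure K ℂ) := IsAlgClosure.isAlgClosed K
  exact b9_hint_L K (algebraicClosure K ℂ) hN h49 halg hπ hK hJ hb

end final

section hK

variable {R K O₀ F₀ : Type*} [CommRing R] [IsDomain R] [IsDiscreteValuationRing R] [Field K]
  [Algebra R K] [IsFractionRing R K] [CommRing O₀] [Field F₀] [Algebra R O₀] [Algebra O₀ F₀]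
  [Algebra K F₀] [Algebra R F₀] [IsScalarTower R O₀ F₀] [IsScalarTower R K F₀]

/-- the hypothesis `hK` of `b9_hint` when `R ⊆ O₀`, `K = Frac R`, `π` a uniformiser of `R` -/
theorem b9_hK {π : R} (hπ : Irreducible π) (c : K) :
    ∃ (k : ℕ) (a : O₀),
      algebraMap K F₀ c * algebraMap O₀ F₀ (algebraMap R O₀ π) ^ k = algebraMap O₀ F₀ a := by
  obtain ⟨x, y, hy, rfl⟩ := IsFractionRing.div_surjective (A := R) c
  have hy0 : y ≠ 0 := nonZeroDivisors.ne_zero hy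
  obtain ⟨k, u, hu⟩ := IsDiscreteValuationRing.eq_unit_mul_pow_irreducible hy0 hπ
  refine ⟨k, algebraMap R O₀ (x * ((u⁻¹ : Rˣ) : R)), ?_⟩
  have hyK : algebraMap R K y ≠ 0 := by simpa using hy0
  rw [← IsScalarTower.algebraMap_apply R O₀ F₀, ← IsScalarTower.algebraMap_apply R O₀ F₀,
    IsScalarTower.algebraMap_apply R K F₀, IsScalarTower.algebraMap_apply R K F₀, ← map_pow,
    ← map_mul]
  congr 1
  rw [div_mul_eq_mul_div, div_eq_iff hyK, ← map_pow, ← map_mul, ← map_mul]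
  congr 1
  rw [hu]
  have := u.inv_mul
  calc x * π ^ k = x * (((u⁻¹ : Rˣ) : R) * (u : R)) * π ^ k := by rw [Units.inv_mul, mul_one]
    _ = _ := by ring

end hK

end Fermat.Agent.CARlib
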