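import Mathlib

/-!
# T-CAR, B9Val: the valuation subring attached to a prime element of a UFD
-/

set_option autoImplicit false

namespace Fermat.Agent.CARlib

variable {O F : Type*} [CommRing O] [IsDomain O] [UniqueFactorizationMonoid O]
  [Field F] [Algebra O F] [IsFractionRing O F]

/-- **(KU2)** the valuation subring of `F = Frac O` attached to a prime element `p` of the UFD `O` -/
theorem b9_exists_valuationSubring_of_prime {p : O} (hp : Prime p) :
    ∃ W : ValuationSubring F, ∀ x : F, x ∈ W ↔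
      ∃ a d : O, ¬ p ∣ d ∧ x * algebraMap O F d = algebraMap O F a := by
  classical
  have hinj := IsFractionRing.injective O F
  have hmul : ∀ d d' : O, ¬ p ∣ d → ¬ p ∣ d' → ¬ p ∣ d * d' := by
    intro d d' h h' hh
    rcases hp.dvd_or_dvd hh with h1 | h1
    · exact h h1
    · exact h' h1
  have h1 : ¬ p ∣ (1 : O) := fun h => hp.not_isUnit (isUnit_of_dvd_one h)
  let S : Subring F :=
    { carrier := {x | ∃ a d : O, ¬ p ∣ d ∧ x * algebraMap O F d = algebraMap O F a}
      mul_mem' := by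
        rintro x y ⟨a, d, hd, h⟩ ⟨a', d', hd', h'⟩
        refine ⟨a * a', d * d', hmul _ _ hd hd', ?_⟩
        rw [map_mul, map_mul, ← h, ← h']; ring
      one_mem' := ⟨1, 1, h1, by simp⟩
      add_mem' := by
        rintro x y ⟨a, d, hd, h⟩ ⟨a', d', hd', h'⟩
        refine ⟨a * d' + a' * d, d * d', hmul _ _ hd hd', ?_⟩
        rw [map_add, map_mul, map_mul, map_mul, ← h, ← h']; ring
      zero_mem' := ⟨0, 1, h1, by simp⟩
      neg_mem' := by
        rintro x ⟨a, d, hd, h⟩
        exact ⟨-a, d, hd, by rw [map_neg, ← h]; ring⟩ }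
  refine ⟨{ S with mem_or_inv_mem' := ?_ }, fun x => Iff.rfl⟩
  intro x
  obtain ⟨a, b, hb, rfl⟩ := IsFractionRing.div_surjective (A := O) x
  have hb0 : b ≠ 0 := nonZeroDivisors.ne_zero hb
  by_cases ha0 : a = 0
  · left
    exact ⟨0, 1, h1, by simp [ha0]⟩
  obtain ⟨α, a1, ha1, rfl⟩ := WfDvdMonoid.max_power_factor ha0 hp.irreducible
  obtain ⟨β, b1, hb1, rfl⟩ := WfDvdMonoid.max_power_factor hb0 hp.irreducible
  have hp0 : algebraMap O F p ≠ 0 := (map_ne_zero_iff _ hinj).2 hp.ne_zero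
  have ha10 : algebraMap O F a1 ≠ 0 :=
    (map_ne_zero_iff _ hinj).2 (fun h => ha1 (h ▸ dvd_zero _))
  have hb10 : algebraMap O F b1 ≠ 0 :=
    (map_ne_zero_iff _ hinj).2 (fun h => hb1 (h ▸ dvd_zero _))
  rcases le_total β α with hle | hle
  · left
    obtain ⟨k, rfl⟩ := Nat.exists_eq_add_of_le hle
    refine ⟨p ^ k * a1, b1, hb1, ?_⟩
    simp only [map_mul, map_pow]
    field_simp
    ring
  · right
    obtain ⟨k, rfl⟩ := Nat.exists_eq_add_of_le hle
    refine ⟨p ^ k * b1, a1, ha1, ?_⟩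
    simp only [map_mul, map_pow]
    field_simp
    ring

end Fermat.Agent.CARlib
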