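import Fermat.Agent.UNI.Descent
import Fermat.Agent.ES.B.Descent

/-!
# T-CAR, block D: definitions

`inF A` = fixed field of the inertia group of `A` in `ℚ̄`; `R = RA A (inF A) = A ∩ inF A`.
-/

set_option autoImplicit false
set_option linter.unusedSectionVars false

open ModularCurve AlgebraicCurve

namespace Fermat.Agent.CARlib

open Fermat.Agent.ESlib Fermat.Agent.UNIlib
open Fermat.Agent.S24lib (Kb)

/-- the fixed field of the inertia group of `A` -/
noncomputable abbrev inF (A : ValuationSubring Kb) : IntermediateField ℚ Kb :=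
  IntermediateField.fixedField (A.inertiaSubgroupIn ℚ)

theorem mem_inF_iff (A : ValuationSubring Kb) (x : Kb) :
    x ∈ inF A ↔ ∀ σ ∈ A.inertiaSubgroupIn ℚ, σ x = x := by
  rw [inF, IntermediateField.mem_fixedField_iff]

end Fermat.Agent.CARlib
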