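import Fermat.Agent.UNI.NodeInputs
import Fermat.Agent.CAR.DDefs

/-!
# T-CAR, row D4 = BGam: `NodeHyp` / `NodeData` over a base `(R, K)` with an abstract semilinear
"inverse Frobenius" `s : K ≃ₐ[ℚ] K` (no normality of `K / ℚ`)

* `gamK K N s := arithmeticRingAut (modularFunctionFieldFull N) s`;
* `InvFrob π r s sR` : `sR : R →+* R` is the restriction of `s` and `(sR c) ^ r ≡ c mod π`;
* `bgam_t5`, `bgam_nodeHyp`, `bgam_nodeData` : the inputs of `UNIlib.nodeHyp_of_gamma`;
* `bgam_exists_res`, `bgam_invFrob_inF` : the instance `K = inF A`, `s = φ⁻¹ | K`.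
-/

set_option autoImplicit false
set_option linter.unusedSectionVars false
set_option linter.style.haveILetI false

open ModularCurve Polynomial
open scoped Pointwise

namespace Fermat.Agent.CARlib

open Fermat.Agent.ESlib Fermat.Agent.UNIlib
open Fermat.Agent.S24lib (Dv Kb)

noncomputable section

section gam

variable (K : Type) [Field K] [Algebra ℚ K] (N : ℕ)

/-- the coefficientwise action of `s` on `F_K(N)` -/
def gamK (s : K ≃ₐ[ℚ] K) : FK K N ≃+* FK K N :=
  arithmeticRingAut (modularFunctionFieldFull N) s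

theorem coe_gamK (s : K ≃ₐ[ℚ] K) (x : FK K N) :
    ((gamK K N s x : FK K N) : LaurentSeries K) =
      coeffMap ((s : K ≃ₐ[ℚ] K) : K →+* K) (x : LaurentSeries K) := rfl

theorem gamK_algebraMap (s : K ≃ₐ[ℚ] K) (a : K) :
    gamK K N s (algebraMap K (FK K N) a) = algebraMap K (FK K N) (s a) :=
  arithmeticRingAut_algebraMap _ _ a

theorem gamK_mul (s t : K ≃ₐ[ℚ] K) (x : FK K N) :
    gamK K N (s * t) x = gamK K N s (gamK K N t x) := by
  apply Subtype.ext
  rw [coe_gamK, coe_gamK, coe_gamK, coeffMap_coeffMap]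
  exact coeffMap_congr (RingHom.ext fun _ => rfl) _

theorem gamK_of_coeffEmb (s : K ≃ₐ[ℚ] K) (x : FK K N) (y : LaurentSeries ℚ)
    (h : (x : LaurentSeries K) = coeffEmb K y) : gamK K N s x = x := by
  apply Subtype.ext
  rw [coe_gamK, h, coeffMap_coeffEmb]

variable [NeZero N]

theorem gamK_Jgen (s : K ≃ₐ[ℚ] K) (d : Dv N) : gamK K N s (Jgen K N d) = Jgen K N d :=
  gamK_of_coeffEmb K N s _ _ rfl

theorem gamK_tF [CharZero K] (s : K ≃ₐ[ℚ] K) (a : ℕ) [NeZero a] (ha : a = 2 ∨ a = 3)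
    (haN : a ∣ N) : gamK K N s (tF K N a ha haN) = tF K N a ha haN :=
  Subtype.ext (coeffMap_haupt _ a (hexp a))

end gam

theorem gamK_wr (K : Type) [Field K] [Algebra ℚ K] [Algebra K ℂ] [IsScalarTower ℚ K ℂ]
    {N r : ℕ} [NeZero (N * r)] (s : K ≃ₐ[ℚ] K) (hr : r.Prime) (hrN : ¬ r ∣ N)
    (x : FK K (N * r)) :
    gamK K (N * r) s (wr K hr hrN x) = wr K hr hrN (gamK K (N * r) s x) :=
  map_wr K K hr hrN (gamK K (N * r) s).toRingHom ((s : K ≃ₐ[ℚ] K) : K →+* K)
    (gamK_algebraMap K (N * r) s) (gamK_Jgen K (N * r) s) x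

/-! ### the abstract inverse Frobenius -/

section invFrob

variable {R K : Type} [CommRing R] [IsDomain R] [IsDiscreteValuationRing R] [Field K] [Algebra R K]
  [IsFractionRing R K] [CharZero K] [Algebra ℚ K]

/-- `sR` is the restriction of `s` to `R`, and `(sR c) ^ r ≡ c` modulo `π` -/
structure InvFrob (π : R) (r : ℕ) (s : K ≃ₐ[ℚ] K) (sR : R →+* R) : Prop where
  compat : ∀ c, algebraMap R K (sR c) = ((s : K ≃ₐ[ℚ] K) : K →+* K) (algebraMap R K c)
  frob : ∀ c, π ∣ sR c ^ r - c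

variable {π : R} {r : ℕ} {s : K ≃ₐ[ℚ] K} {sR : R →+* R}

theorem InvFrob.dvd_unif (h : InvFrob π r s sR) (hπ : Irreducible π) : π ∣ sR π := by
  have h1 : π ∣ sR π ^ r := by
    have := dvd_add (h.frob π) (dvd_refl π)
    rwa [sub_add_cancel] at this
  exact hπ.prime.dvd_of_dvd_pow h1

theorem InvFrob.isLocalHom (h : InvFrob π r s sR) (hπ : Irreducible π) : IsLocalHom sR := by
  refine ⟨fun a ha => ?_⟩
  by_contra hna
  have h1 : a ∈ IsLocalRing.maximalIdeal R := hna
  rw [(IsDiscreteValuationRing.irreducible_iff_uniformizer π).1 hπ,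
    Ideal.mem_span_singleton] at h1
  obtain ⟨c, rfl⟩ := h1
  rw [map_mul] at ha
  have h2 := isUnit_of_mul_isUnit_left ha
  exact hπ.not_isUnit (isUnit_of_dvd_unit (h.dvd_unif hπ) h2)

/-- the induced map on the residue field -/
def InvFrob.res (h : InvFrob π r s sR) (hπ : Irreducible π) :
    IsLocalRing.ResidueField R →+* IsLocalRing.ResidueField R :=
  haveI := h.isLocalHom hπ
  IsLocalRing.ResidueField.map sR

theorem InvFrob.residue_apply (h : InvFrob π r s sR) (hπ : Irreducible π) (a : R) :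
    IsLocalRing.residue R (sR a) = h.res hπ (IsLocalRing.residue R a) := rfl

theorem InvFrob.res_pow (h : InvFrob π r s sR) (hπ : Irreducible π)
    (x : IsLocalRing.ResidueField R) : h.res hπ x ^ r = x := by
  obtain ⟨a, rfl⟩ := IsLocalRing.residue_surjective x
  rw [← h.residue_apply hπ, ← map_pow, ← sub_eq_zero, ← map_sub,
    IsLocalRing.residue_eq_zero_iff,
    (IsDiscreteValuationRing.irreducible_iff_uniformizer π).1 hπ, Ideal.mem_span_singleton]
  exact h.frob a

variable {N : ℕ} [NeZero N]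

theorem InvFrob.gamK_mem_gaussSub (h : InvFrob π r s sR) (hπ : Irreducible π) {x : FK K N}
    (hx : x ∈ gaussSub R K N) : gamK K N s x ∈ gaussSub R K N :=
  coeffMap_mem_LamR_of_compat sR ((s : K ≃ₐ[ℚ] K) : K →+* K) (h.res hπ) h.compat
    (h.residue_apply hπ) hx

variable (R K N) in
/-- the reduction map of the Gauss ring -/
abbrev redGa : gaussSub R K N →+* LaurentSeries (IsLocalRing.ResidueField R) :=
  (redR (ρ := IsLocalRing.residue R) (IsFractionRing.injective R K)).comp
    ((algebraMap (FK K N) (LaurentSeries K)).restrict (gaussSub R K N)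
      (LamR (algebraMap R K) (IsLocalRing.residue R)) (fun _ h => h))

theorem InvFrob.redGa_gamK (h : InvFrob π r s sR) (hπ : Irreducible π) (x : gaussSub R K N) :
    redGa R K N ⟨gamK K N s x, h.gamK_mem_gaussSub hπ x.2⟩ =
      coeffMap (h.res hπ) (redGa R K N x) :=
  redR_coeffMap_of_compat (IsFractionRing.injective R K) sR
    ((s : K ≃ₐ[ℚ] K) : K →+* K) (h.res hπ) h.compat (h.residue_apply hπ) ⟨_, x.2⟩

theorem redGa_of_coe_eq_qExpand [NeZero r] {G W : FK K N}
    (hG : G ∈ gaussSub R K N) (hW : W ∈ gaussSub R K N)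
    (h : (W : LaurentSeries K) = qExpand K r (G : LaurentSeries K)) :
    redGa R K N ⟨W, hW⟩ = qExpand _ r (redGa R K N ⟨G, hG⟩) := by
  have h1 := redR_qExpL (ι := algebraMap R K) (ρ := IsLocalRing.residue R)
    (IsFractionRing.injective R K) r ⟨(G : LaurentSeries K), hG⟩
  refine Eq.trans ?_ h1
  exact congrArg (redR (IsFractionRing.injective R K)) (Subtype.ext h)

/-- the kernel of the reduction map is generated by `π` -/
theorem div_mem_gaussSub_of_redGa_eq_zero (hπ : Irreducible π)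
    {x : gaussSub R K N} (hx : redGa R K N x = 0) :
    (x : FK K N) / algebraMap K (FK K N) (algebraMap R K π) ∈ gaussSub R K N := by
  have hS := redSetup_of_dvr (K := K) hπ
  obtain ⟨x', hx'⟩ := exists_eq_mul_of_redR_eq_zero hS
    (x := ⟨((x : FK K N) : LaurentSeries K), x.2⟩) hx
  have h1 : ((x : FK K N) : LaurentSeries K) =
      HahnSeries.C (algebraMap R K π) * (x' : LaurentSeries K) :=
    congrArg Subtype.val hx'
  have h2 : ((algebraMap K (FK K N) (algebraMap R K π) : FK K N) : LaurentSeries K) =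
      HahnSeries.C (algebraMap R K π) := by
    show algebraMap K (LaurentSeries K) _ = _
    rw [algebraMap_laurentSeries_eq_single, HahnSeries.C_apply]
  rw [mem_gaussSub_iff]
  show ((x : FK K N) : LaurentSeries K) /
    ((algebraMap K (FK K N) (algebraMap R K π) : FK K N) : LaurentSeries K) ∈ _
  rw [h2, h1, mul_div_cancel_left₀ _ (redSetup_C_unif_ne_zero hS)]
  exact x'.2

theorem InvFrob.t5_aux [NeZero r] [CharP (IsLocalRing.ResidueField R) r]
    (h : InvFrob π r s sR) (hπ : Irreducible π) (hr : r.Prime) {G W : FK K N}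
    (hG : G ∈ gaussSub R K N) (hW : W ∈ gaussSub R K N)
    (hWG : (W : LaurentSeries K) = qExpand K r (G : LaurentSeries K)) :
    (W - gamK K N s G ^ r) / algebraMap K (FK K N) (algebraMap R K π) ∈ gaussSub R K N := by
  have : Fact r.Prime := ⟨hr⟩
  have hγG := h.gamK_mem_gaussSub hπ hG
  have e1 := redGa_of_coe_eq_qExpand hG hW hWG
  have e2 := h.redGa_gamK hπ ⟨G, hG⟩
  have e3 : coeffMap (frobenius (IsLocalRing.ResidueField R) r)
      (coeffMap (h.res hπ) (redGa R K N ⟨G, hG⟩)) = redGa R K N ⟨G, hG⟩ := by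
    rw [coeffMap_coeffMap]
    refine (coeffMap_congr (g := RingHom.id _) (RingHom.ext fun a => ?_) _).trans (coeffMap_id _)
    exact h.res_pow hπ a
  have key : redGa R K N (⟨W, hW⟩ - ⟨gamK K N s G, hγG⟩ ^ r) = 0 := by
    rw [map_sub, map_pow, pow_char_eq_qExpand r, e2, e3, e1, sub_self]
  have h2 := div_mem_gaussSub_of_redGa_eq_zero hπ key
  rw [AddSubgroupClass.coe_sub, SubmonoidClass.coe_pow] at h2
  exact h2

end invFrob

/-! ### `NodeHyp`, `NodeData` -/

section node

variable {R K : Type} [CommRing R] [IsDomain R] [IsDiscreteValuationRing R] [Field K] [Algebra R K]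
  [IsFractionRing R K] [CharZero K] [Algebra ℚ K] [Algebra K ℂ] [IsScalarTower ℚ K ℂ]
  [Algebra R ℂ] [IsScalarTower R K ℂ] {N r : ℕ} [NeZero N] [NeZero r] [NeZero (N * r)]
  [CharP (IsLocalRing.ResidueField R) r]
  {π : R} {s : K ≃ₐ[ℚ] K} {sR : R →+* R}

theorem bgam_wr_oldI_mem_gaussSub (hr : r.Prime) (hrN : ¬ r ∣ N) {g : FK K N}
    (hg : g ∈ gaussSub R K N) : wr K hr hrN (oldI K N r g) ∈ gaussSub R K (N * r) := by
  rw [mem_gaussSub_iff, oldI_apply, coe_wr_inclF]
  exact qExpand_mem_LamR r hg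

/-- **T5.**  `w_r g = g(q^r) ≡ (γ g)^r` modulo `π` -/
theorem bgam_t5 (h : InvFrob π r s sR) (hπ : Irreducible π) (hr : r.Prime) (hrN : ¬ r ∣ N)
    {g : FK K N} (hg : g ∈ gaussSub R K N) :
    (wr K hr hrN (oldI K N r g) - gamK K (N * r) s (oldI K N r g) ^ r) /
      algebraMap K (FK K (N * r)) (algebraMap R K π) ∈ gaussSub R K (N * r) :=
  h.t5_aux hπ hr (oldI_mem_gaussSub_iff.2 hg) (bgam_wr_oldI_mem_gaussSub hr hrN hg)
    (by rw [coe_oldI, oldI_apply, coe_wr_inclF])

variable [Algebra R (FK K (N * r))] [IsScalarTower R K (FK K (N * r))]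

theorem bgam_algebraMap_R (h : InvFrob π r s sR) (c : R) :
    gamK K (N * r) s (algebraMap R (FK K (N * r)) c) = algebraMap R (FK K (N * r)) (sR c) := by
  rw [IsScalarTower.algebraMap_apply R K (FK K (N * r)), gamK_algebraMap,
    IsScalarTower.algebraMap_apply R K (FK K (N * r)), h.compat]
  rfl

/-- **`NodeHyp` in both charts of `X₀(N r)`** over an abstract `(R, K)` with an inverse Frobenius `s`;
`q = r²`, `ρ = s²`. -/
theorem bgam_nodeHyp (h : InvFrob π r s sR) (hπ : Irreducible π) (hr : r.Prime) (hrN : ¬ r ∣ N)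
    (hN : IsUnit (N : R)) (a : ℕ) [NeZero a] (ha : a = 2 ∨ a = 3) (haN : a ∣ N)
    (hζN : ∃ z : K, IsPrimitiveRoot z N) :
    NodeHyp π (tF K (N * r) a ha (haN.mul_right r)) (gaussVal R K (N * r))
      ((gaussVal R K (N * r)).comap
        ((wr K hr hrN).toRingEquiv : FK K (N * r) →+* FK K (N * r))) (r ^ 2)
      (gamK K (N * r) (s * s) : FK K (N * r) →+* FK K (N * r)) ∧
    NodeHyp π (tF K (N * r) a ha (haN.mul_right r))⁻¹ (gaussVal R K (N * r))
      ((gaussVal R K (N * r)).comap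
        ((wr K hr hrN).toRingEquiv : FK K (N * r) →+* FK K (N * r))) (r ^ 2)
      (gamK K (N * r) (s * s) : FK K (N * r) →+* FK K (N * r)) := by
  refine nodeHyp_of_gamma hπ hr hrN hN a ha haN hζN
    (gamK K (N * r) s) sR (bgam_algebraMap_R h)
    (gamK_tF K (N * r) s a ha (haN.mul_right r)) (fun x hx => h.gamK_mem_gaussSub hπ hx)
    (h.dvd_unif hπ) (fun x => gamK_wr K s hr hrN x) (fun g hg => ?_) _
    (fun x => gamK_mul K (N * r) s s x)
  rw [IsScalarTower.algebraMap_apply R K (FK K (N * r))]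
  exact bgam_t5 h hπ hr hrN hg

/-- **`NodeData` in both charts of `X₀(N r)`** (t3, t5, t6, `loc`) -/
theorem bgam_nodeData (h : InvFrob π r s sR) (hπ : Irreducible π) (hr : r.Prime) (hrN : ¬ r ∣ N)
    (hN : IsUnit (N : R)) (a : ℕ) [NeZero a] (ha : a = 2 ∨ a = 3) (haN : a ∣ N)
    (hζN : ∃ z : K, IsPrimitiveRoot z N) :
    NodeData π (tF K (N * r) a ha (haN.mul_right r)) (gaussVal R K (N * r))
      (wr K hr hrN).toRingEquiv (gamK K (N * r) s) (oldF K N r) r ∧
    NodeData π (tF K (N * r) a ha (haN.mul_right r))⁻¹ (gaussVal R K (N * r))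
      (wr K hr hrN).toRingEquiv (gamK K (N * r) s) (oldF K N r) r := by
  letI : Algebra R (FK K N) := ((algebraMap K (FK K N)).comp (algebraMap R K)).toAlgebra
  haveI : IsScalarTower R K (FK K N) := IsScalarTower.of_algebraMap_eq fun _ => rfl
  have hN' := natCast_residueField_ne_zero_of_isUnit hN
  have haR : IsUnit (a : R) := by
    obtain ⟨k, rfl⟩ := haN
    rw [Nat.cast_mul] at hN
    exact isUnit_of_mul_isUnit_left hN
  obtain ⟨hG, hG'⟩ := goodChart_tF (R := R) (K := K) N hπ hN a ha haN hζN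
  have ht0 := tF_ne_zero K N a ha haN
  have h1 : ∀ x ∈ gaussSub R K N, PiInt π (tF K N a ha haN) x := by
    intro x hx
    obtain ⟨P, e, hP, he, hrel⟩ := exists_tF_rel K N R a ha haN
    exact piInt_haupt hN' (redSetup_of_dvr (K := K) hπ).red_unif ht0 hP he hrel hx
  have t3 : ∀ x ∈ gaussSub R K (N * r), ∃ x' : FK K N, x' ∈ gaussSub R K N ∧
      (x - oldI K N r x') / algebraMap R (FK K (N * r)) π ∈ gaussSub R K (N * r) := by
    intro x hx
    obtain ⟨x', hx', h⟩ := tv_t3 hr hrN hN' hπ x hx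
    exact ⟨x', hx', by rw [oldI_apply]; exact h⟩
  have t5 : ∀ g ∈ gaussSub R K N, (wr K hr hrN (oldI K N r g) -
      gamK K (N * r) s (oldI K N r g) ^ r) /
      algebraMap R (FK K (N * r)) π ∈ gaussSub R K (N * r) := by
    intro g hg
    rw [IsScalarTower.algebraMap_apply R K (FK K (N * r))]
    exact bgam_t5 h hπ hr hrN hg
  have hI := oldI_tF (K := K) (N := N) (r := r) a ha haN
  have hI' : oldI K N r (tF K N a ha haN)⁻¹ = (tF K (N * r) a ha (haN.mul_right r))⁻¹ := by
    rw [map_inv₀, hI]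
  have hγT := gamK_tF K (N * r) s a ha (haN.mul_right r)
  constructor
  · have D := nodeData_of_chart hπ hr hrN (tF K N a ha haN) (tF_mem_gaussSub N a ha haN) hG h1
      (fun x hx => mem_gaussSub_of_piInt N a ha haN hπ hx)
      (fun x hx => by
        rw [hI] at hx ⊢
        exact ((isIntegral_wr_iff K R hr hrN a ha haN haR x).1).2 hx)
      (gamK K (N * r) s) sR (bgam_algebraMap_R h) (by rw [hI]; exact hγT)
      (fun x hx => h.gamK_mem_gaussSub hπ hx) (h.dvd_unif hπ)
      (fun x => gamK_wr K s hr hrN x) t3 t5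
    rw [hI] at D
    exact D
  · have D := nodeData_of_chart hπ hr hrN (tF K N a ha haN)⁻¹ (inv_tF_mem_gaussSub N a ha haN) hG'
      (fun x hx => PiInt.inv ht0 (h1 x hx))
      (fun x hx => mem_gaussSub_of_piInt_inv N a ha haN hπ hx)
      (fun x hx => by
        rw [hI'] at hx ⊢
        exact ((isIntegral_wr_iff K R hr hrN a ha haN haR x).2).2 hx)
      (gamK K (N * r) s) sR (bgam_algebraMap_R h) (by rw [hI', map_inv₀, hγT])
      (fun x hx => h.gamK_mem_gaussSub hπ hx) (h.dvd_unif hπ)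
      (fun x => gamK_wr K s hr hrN x) t3 t5
    rw [hI'] at D
    exact D

end node

end

end Fermat.Agent.CARlib
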