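import Fermat.Agent.CAR.CDefs
import Fermat.Agent.ES.C.AKGauss

/-!
# T-CAR, block C: generic instantiation of `CPull`, `CMidV` for
`B₁ = integralClosure R[T₁] F₁`, `B₂ = integralClosure R[t2] F₂`
-/

set_option autoImplicit false
set_option linter.unusedSectionVars false

open IsLocalRing Polynomial

namespace Fermat.Agent.CARlib.C

open Fermat.Agent.ESlib

section cen

variable {F : Type*} (B : Type*) [CommRing B] [Field F] [Algebra B F]

/-- the centre of `W` on `B` -/
def cCen (W : ValuationSubring F) : Ideal B where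
  carrier := {b | ∀ c : B, W.valuation (algebraMap B F (c * b)) < 1}
  add_mem' := by
    intro x y hx hy c
    rw [mul_add, map_add]
    exact lt_of_le_of_lt (W.valuation.map_add _ _) (max_lt (hx c) (hy c))
  zero_mem' := by intro c; simp
  smul_mem' := by
    intro c x hx c'
    rw [smul_eq_mul, ← mul_assoc]
    exact hx _

variable {B}

theorem mem_cCen {W : ValuationSubring F} (hsub : ∀ b : B, algebraMap B F b ∈ W) (b : B) :
    b ∈ cCen B W ↔ W.valuation (algebraMap B F b) < 1 := by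
  constructor
  · intro h
    simpa using h 1
  · intro h c
    rw [map_mul, map_mul]
    calc W.valuation (algebraMap B F c) * W.valuation (algebraMap B F b)
        ≤ 1 * W.valuation (algebraMap B F b) :=
          mul_le_mul_left ((W.valuation_le_one_iff _).2 (hsub c)) _
      _ < 1 := by rwa [one_mul]

end cen

section gen

variable {R F₁ F₂ : Type*} [CommRing R] [Field F₁] [Algebra R F₁] [Field F₂] [Algebra R F₂]
  {T₁ : F₁} {t2 : F₂}

/-- `R[T₁] → R[t2]` -/
noncomputable def cPhi (e : F₁ →ₐ[R] F₂) (he : e T₁ = t2) :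
    Algebra.adjoin R {T₁} →ₐ[R] Algebra.adjoin R {t2} :=
  (e.comp (Algebra.adjoin R {T₁}).val).codRestrict (Algebra.adjoin R {t2}) (by
    intro x
    have : e x ∈ (Algebra.adjoin R {T₁}).map e := ⟨x, x.2, rfl⟩
    rw [AlgHom.map_adjoin, Set.image_singleton, he] at this
    exact this)

theorem cPhi_surjective (e : F₁ →ₐ[R] F₂) (he : e T₁ = t2) :
    Function.Surjective (cPhi e he) := by
  rintro ⟨y, hy⟩
  have : y ∈ (Algebra.adjoin R {T₁}).map e := by
    rw [AlgHom.map_adjoin, Set.image_singleton, he]; exact hy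
  obtain ⟨x, hx, rfl⟩ := this
  exact ⟨⟨x, hx⟩, rfl⟩

theorem isIntegral_map (e : F₁ →ₐ[R] F₂) (he : e T₁ = t2) {x : F₁}
    (hx : IsIntegral (Algebra.adjoin R {T₁}) x) : IsIntegral (Algebra.adjoin R {t2}) (e x) :=
  IsIntegral.map_of_comp_eq (cPhi e he : Algebra.adjoin R {T₁} →+* Algebra.adjoin R {t2})
    (e : F₁ →+* F₂) (by ext x; rfl) hx

/-- the restriction `B₁ → B₂` of `e` -/
noncomputable def cE (e : F₁ →ₐ[R] F₂) (he : e T₁ = t2) :
    integralClosure (Algebra.adjoin R {T₁}) F₁ →+* integralClosure (Algebra.adjoin R {t2}) F₂ :=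
  ((e : F₁ →+* F₂).comp (algebraMap (integralClosure (Algebra.adjoin R {T₁}) F₁) F₁)).codRestrict
    (integralClosure (Algebra.adjoin R {t2}) F₂) (fun x => isIntegral_map e he x.2)

theorem coe_cE (e : F₁ →ₐ[R] F₂) (he : e T₁ = t2)
    (b : integralClosure (Algebra.adjoin R {T₁}) F₁) :
    algebraMap (integralClosure (Algebra.adjoin R {t2}) F₂) F₂ (cE e he b) =
      (e : F₁ →+* F₂) (algebraMap (integralClosure (Algebra.adjoin R {T₁}) F₁) F₁ b) := rfl

theorem cE_isIntegral (e : F₁ →ₐ[R] F₂) (he : e T₁ = t2) : (cE e he).IsIntegral := by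
  apply RingHom.IsIntegral.tower_top
    (algebraMap (Algebra.adjoin R {T₁}) (integralClosure (Algebra.adjoin R {T₁}) F₁)) (cE e he)
  have : (cE e he).comp
      (algebraMap (Algebra.adjoin R {T₁}) (integralClosure (Algebra.adjoin R {T₁}) F₁)) =
      (algebraMap (Algebra.adjoin R {t2}) (integralClosure (Algebra.adjoin R {t2}) F₂)).comp
        (cPhi e he : Algebra.adjoin R {T₁} →+* Algebra.adjoin R {t2}) := by
    ext x; rfl
  rw [this]
  exact RingHom.IsIntegral.trans _ _ (RingHom.isIntegral_of_surjective _ (cPhi_surjective e he))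
    (algebraMap_isIntegral_iff.2 inferInstance)

theorem cE_algebraMap (e : F₁ →ₐ[R] F₂) (he : e T₁ = t2) (a : R) :
    cE e he (algebraMap R _ a) = algebraMap R _ a := by
  apply Subtype.ext
  exact e.commutes a

end gen

section inst

variable {R K F₁ F₂ : Type*} [CommRing R] [IsDomain R] [IsIntegrallyClosed R] [Field K]
  [Algebra R K] [IsFractionRing R K] [Field F₁] [Algebra R F₁] [Field F₂] [Algebra K F₂]
  [Algebra R F₂] [IsScalarTower R K F₂] {T₁ : F₁} {t2 : F₂}

theorem cInst_pull {π : R} (hπ : Prime π) (ht2 : Transcendental K t2) (ea eb : F₁ →ₐ[R] F₂)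
    (hea : ea T₁ = t2) (heb : eb T₁ = t2) {VF VV : ValuationSubring F₁}
    {W W' W'' : ValuationSubring F₂} (hPi : ∀ x, PiInt π t2 x ↔ x ∈ W ∧ x ∈ W' ∧ x ∈ W'')
    (hunif : ∀ x : F₂, W.valuation x < 1 → x / algebraMap R F₂ π ∈ W)
    (ca : W.comap (ea : F₁ →+* F₂) = VF) (ca' : W'.comap (ea : F₁ →+* F₂) = VV)
    (ca'' : W''.comap (ea : F₁ →+* F₂) = VV) (cb : W.comap (eb : F₁ →+* F₂) = VV)
    (hres : ∀ x ∈ W, ∃ u ∈ VV, W.valuation (x - (eb : F₁ →+* F₂) u) < 1) :
    CPull (algebraMap R (integralClosure (Algebra.adjoin R {T₁}) F₁) π)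
      (algebraMap R (integralClosure (Algebra.adjoin R {t2}) F₂) π) (cE ea hea) (cE eb heb)
      (ea : F₁ →+* F₂) (eb : F₁ →+* F₂) VF VV W W' W''
      (cCen (integralClosure (Algebra.adjoin R {t2}) F₂) W) := by
  have hsub : ∀ b : integralClosure (Algebra.adjoin R {t2}) F₂,
      (b : F₂) ∈ W ∧ (b : F₂) ∈ W' ∧ (b : F₂) ∈ W'' := fun b =>
    (hPi _).1 (PiInt.of_isIntegral hπ b.2)
  have hinjR : Function.Injective (algebraMap R F₂) := by
    rw [IsScalarTower.algebraMap_eq R K F₂]
    exact (algebraMap K F₂).injective.comp (IsFractionRing.injective R K)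
  exact
  { inj₂ := Subtype.val_injective
    pi_ne := by
      intro h
      apply hπ.ne_zero
      apply hinjR
      rw [map_zero]
      exact congrArg Subtype.val h
    hEa := coe_cE ea hea
    hEb := coe_cE eb heb
    hπa := cE_algebraMap ea hea π
    intA := cE_isIntegral ea hea
    intB := cE_isIntegral eb heb
    sub := fun b => (hsub b).1
    sub' := fun b => (hsub b).2.1
    sub'' := fun b => (hsub b).2.2
    memP := mem_cCen fun b => (hsub b).1
    KC := by
      rintro x ⟨b, hb⟩ h1 h2 h3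
      have : IsIntegral (Algebra.adjoin R {t2}) (algebraMap R F₂ π * x) := by
        have h : IsIntegral (Algebra.adjoin R {t2}) (b : F₂) := b.2
        have hb' : (b : F₂) = algebraMap R F₂ π * x := hb
        rwa [hb'] at h
      exact ⟨⟨x, isIntegral_of_piInt hπ ht2 ((hPi x).2 ⟨h1, h2, h3⟩) this⟩, rfl⟩
    unif := hunif
    comap_a := ca
    comap_a' := ca'
    comap_a'' := ca''
    comap_b := cb
    res := hres }

theorem cInst_mid {π : R} (hπ : Prime π) (e₁ : F₁ →ₐ[R] F₂)
    (he₁ : e₁ T₁ = t2) {VV : ValuationSubring F₁}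
    {WVV : ValuationSubring F₂} (hPi : ∀ x, PiInt π t2 x → x ∈ WVV)
    (c₁ : WVV.comap (e₁ : F₁ →+* F₂) = VV)
    (hres : ∀ x ∈ WVV, ∃ u ∈ VV, WVV.valuation (x - (e₁ : F₁ →+* F₂) u) < 1)
    (hram : ∃ N : ℕ, ∀ x : F₂, WVV.valuation x < 1 → x ^ N / algebraMap R F₂ π ∈ WVV) :
    CMidV (algebraMap R (integralClosure (Algebra.adjoin R {t2}) F₂) π) (cE e₁ he₁)
      (e₁ : F₁ →+* F₂) VV WVV (cCen (integralClosure (Algebra.adjoin R {t2}) F₂) WVV) := by
  have hsub : ∀ b : integralClosure (Algebra.adjoin R {t2}) F₂, (b : F₂) ∈ WVV := fun b =>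
    hPi _ (PiInt.of_isIntegral hπ b.2)
  exact
  { hE₁ := coe_cE e₁ he₁
    int₁ := cE_isIntegral e₁ he₁
    sub := hsub
    memP := mem_cCen hsub
    comap₁ := c₁
    res := hres
    ram := hram }

end inst

end Fermat.Agent.CARlib.C
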