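import Fermat.Agent.CAR.V1AL
import Fermat.Agent.UNI.TwoValPi
import Fermat.Agent.ES.E.HeckeSeries

/-!
# T-CAR, block V (valuations at level 2): DEFINITIONS (sorry-free, final)

Coordinates: `F₁ = FK K (N * r)`, `F₂ = FK K (N * r * r)`, all inside `K((q))`.
`i12 : F₁ → F₂` the inclusion, `β = heckeBetaBar K (N * r) r : x(q) ↦ x(q^r)`, `w2 = sw`.
`e₁ = i12 ∘ wr`, `e₂ = β`.  `vJ0 = j(q)`, `vJ1 = j(q^r)`, `vJ2 = j(q^{r^2})`, `vY = vJ2 - vJ0`.

* `WVF = gaussVal R K (N * r * r)`          (over `V_F` along `i12`, `e = f = 1`)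
* `WFV = WVF.comap w2`                      (over `V_V = V_F.comap wr` along `i12`, `e = 1`, `f = r`)
* `WVV` = pull back of the Gauss ring of `K(ζ_r)((q))` along `φ : F₂ → K(ζ_r)((q))`,
  `φ ∘ i12 = q`-expansion, `φ (vJ2) = j(ζ q)`   (over `V_F` along `i12`, `e = r - 1`, `f = 1`).
-/

set_option autoImplicit false
set_option linter.unusedSectionVars false
set_option linter.unusedVariables false

open ModularCurve Polynomial

namespace Fermat.Agent.CARlib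

open Fermat.Agent.ESlib Fermat.Agent.UNIlib
open Fermat.Agent.S28lib (RedSetup jA jAd scale)
open Fermat.Agent.S24lib (Dv)

noncomputable section

/-! ### notation -/

section notation_

variable (K : Type) [Field K] [Algebra ℚ K] (N r : ℕ) [NeZero (N * r)] [NeZero (N * r * r)]

/-- the inclusion `F₁ → F₂` -/
abbrev i12 : FK K (N * r) →ₐ[K] FK K (N * r * r) := inclF K (dvd_mul_right (N * r) r)

/-- `j(q)` at level 2 -/
abbrev vJ0 : FK K (N * r * r) := Jgen K (N * r * r) ⟨1, one_dvd _⟩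

/-- `j(q^r)` at level 2 -/
abbrev vJ1 : FK K (N * r * r) :=
  Jgen K (N * r * r) ⟨1 * r, (Nat.mul_dvd_mul_right (one_dvd N) r).mul_right r⟩

/-- `j(q^(r^2))` at level 2 -/
abbrev vJ2 : FK K (N * r * r) :=
  Jgen K (N * r * r) ⟨1 * r * r, Nat.mul_dvd_mul_right (Nat.mul_dvd_mul_right (one_dvd N) r) r⟩

/-- the uniformiser `y_j = e₂ j_r - e₁ j_r = j(q^(r^2)) - j(q)` of `W_VV` -/
abbrev vY : FK K (N * r * r) := vJ2 K N r - vJ0 K N r

end notation_

/-! ### (V4) the ramified extension `R[ζ_r]` -/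

/-- `R' = R[ζ_r] ⊇ R`: uniformiser `lam = 1 - ζ`, `lam ^ (r - 1) = π * unit`, same residue field -/
structure ZetaSetup {R K κ R' K' : Type*} [CommRing R] [Field K] [Field κ] [CommRing R'] [Field K']
    (ι : R →+* K) (ρ : R →+* κ) (π : R) (ι' : R' →+* K') (ρ' : R' →+* κ) (lam : R')
    (g : R →+* R') (f : K →+* K') (ζ : R'ˣ) (r : ℕ) : Prop where
  red : RedSetup ι' ρ' lam
  comm : ∀ a, f (ι a) = ι' (g a)
  res : ∀ a, ρ' (g a) = ρ a
  prim : IsPrimitiveRoot ζ r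
  lam_eq : lam = 1 - (ζ : R')
  pow : ∃ u : R'ˣ, lam ^ (r - 1) = g π * u

section main

variable {R K : Type} [CommRing R] [IsDomain R] [IsDiscreteValuationRing R] [Field K]
  [Algebra R K] [IsFractionRing R K] [Algebra ℚ K] [CharZero K] [Algebra K ℂ] [IsScalarTower ℚ K ℂ]
  {N r : ℕ} [NeZero N] [NeZero r] [NeZero (N * r)] [NeZero (N * r * r)]
  [Algebra R (FK K N)] [IsScalarTower R K (FK K N)]
  [Algebra R (FK K (N * r))] [IsScalarTower R K (FK K (N * r))]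
  [Algebra R (FK K (N * r * r))] [IsScalarTower R K (FK K (N * r * r))]

/-! #### the three valuation rings -/

variable (R K N) in
/-- `V_F` at level 1 -/
abbrev VF1 (r : ℕ) [NeZero (N * r)] : ValuationSubring (FK K (N * r)) := gaussVal R K (N * r)

variable (R) in
/-- `V_V` at level 1 -/
abbrev VV1 (hr : r.Prime) (hrN : ¬ r ∣ N) : ValuationSubring (FK K (N * r)) :=
  (gaussVal R K (N * r)).comap (wr K hr hrN : FK K (N * r) →+* FK K (N * r))

variable (R K N) in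
/-- `W_VF` -/
abbrev WVF (r : ℕ) [NeZero (N * r * r)] : ValuationSubring (FK K (N * r * r)) :=
  gaussVal R K (N * r * r)

variable (R) in
/-- `W_FV` -/
abbrev WFV (hr : r.Prime) (hrN : ¬ r ∣ N) : ValuationSubring (FK K (N * r * r)) :=
  (gaussVal R K (N * r * r)).comap (w2 K hr hrN : FK K (N * r * r) →+* FK K (N * r * r))

variable (a : ℕ) [NeZero a] (ha : a = 2 ∨ a = 3) (haN : a ∣ N)

variable (K r) in
/-- the chart `t2 = ε T = T(q^r)` -/
abbrev vT2 : FK K (N * r * r) := heckeBetaBar K (N * r) r (tF K (N * r) a ha (haN.mul_right r))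

/-- **everything the other blocks may use about the third valuation ring `W = W_VV`** -/
structure VData (hr : r.Prime) (hrN : ¬ r ∣ N) (π : R) (W : ValuationSubring (FK K (N * r * r))) :
    Prop where
  /-- `W_VV` lies over `V_F` along `i12` (over `V_V` along `e₁ = i12 ∘ wr`) -/
  vv_incl : ∀ x : FK K (N * r), i12 K N r x ∈ W ↔ x ∈ VF1 R K N r
  /-- `sw` fixes `W_VV` -/
  vv_w2 : ∀ x, w2 K hr hrN x ∈ W ↔ x ∈ W
  vv_y : vY K N r ∈ W ∧ (vY K N r)⁻¹ ∉ W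
  /-- `y` is a uniformiser -/
  vv_unif : ∀ z ∈ W, z⁻¹ ∈ W ∨ z / vY K N r ∈ W
  /-- `e = r - 1` -/
  vv_pow : vY K N r ^ (r - 1) / algebraMap R (FK K (N * r * r)) π ∈ W ∧
    algebraMap R (FK K (N * r * r)) π / vY K N r ^ (r - 1) ∈ W
  /-- `f = 1` -/
  vv_res : ∀ z ∈ W, ∃ c ∈ VF1 R K N r, (z - i12 K N r c) / vY K N r ∈ W
  /-- `W_VF ∩ W_VV = ⊕ V_F Y^i` -/
  basis_F : ∀ c : Fin r → FK K (N * r),
    ∑ i, i12 K N r (c i) * vJ2 K N r ^ (i : ℕ) ∈ WVF R K N r →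
    ∑ i, i12 K N r (c i) * vJ2 K N r ^ (i : ℕ) ∈ W → ∀ i, c i ∈ VF1 R K N r
  /-- weak approximation with precision `π` -/
  approx : ∀ s₁ s₂ s₃ : FK K (N * r * r), ∃ G : FK K (N * r * r),
    (G - s₁) / algebraMap R (FK K (N * r * r)) π ∈ WVF R K N r ∧
    (G - s₂) / algebraMap R (FK K (N * r * r)) π ∈ WFV R hr hrN ∧
    (G - s₃) / algebraMap R (FK K (N * r * r)) π ∈ W
  /-- **(V2)** -/
  piInt_iff : ∀ (a : ℕ) [NeZero a] (ha : a = 2 ∨ a = 3) (haN : a ∣ N), IsUnit (a : R) →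
    ∀ x, PiInt π (vT2 K r a ha haN) x ↔ x ∈ WVF R K N r ∧ x ∈ WFV R hr hrN ∧ x ∈ W
  piInt_inv_iff : ∀ (a : ℕ) [NeZero a] (ha : a = 2 ∨ a = 3) (haN : a ∣ N), IsUnit (a : R) →
    ∀ x, PiInt π (vT2 K r a ha haN)⁻¹ x ↔ x ∈ WVF R K N r ∧ x ∈ WFV R hr hrN ∧ x ∈ W

end main

end

end Fermat.Agent.CARlib
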