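import Mathlib

/-!
# T-CAR, (Inst-0), abstract part: a noetherian domain `B` with a prime element `π` such that `B / π` is
integrally closed of dimension `≤ 1` is "A1-regular" at every maximal ideal containing `π`.
-/

set_option autoImplicit false
set_option linter.unusedSectionVars false
set_option linter.style.haveILetI false

open Polynomial IsLocalRing

namespace Fermat.Agent.CARlib

/-- a prime of `R[X]` strictly containing `(π)` is maximal (`R` a DVR with uniformiser `π`) -/
theorem x0_isMaximal_of_lt {R : Type*} [CommRing R] [IsDomain R] [IsDiscreteValuationRing R] {π : R}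
    (hπ : Irreducible π) (P : Ideal R[X]) [hP : P.IsPrime] (h : Ideal.span {C π} < P) :
    P.IsMaximal := by
  set f : R[X] →+* (ResidueField R)[X] := mapRingHom (residue R) with hf
  have hsurj : Function.Surjective f := map_surjective _ residue_surjective
  have hker : RingHom.ker f = Ideal.span {C π} := by
    rw [hf, ker_mapRingHom, ker_residue, hπ.maximalIdeal_eq, Ideal.map_span, Set.image_singleton]
  have hle : RingHom.ker f ≤ P := hker ▸ h.le
  have hprime : (P.map f).IsPrime := Ideal.map_isPrime_of_surjective hsurj hle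
  have hcomap : (P.map f).comap f = P := by
    rw [Ideal.comap_map_of_surjective f hsurj, ← RingHom.ker_eq_comap_bot, sup_eq_left.2 hle]
  have hne : P.map f ≠ ⊥ := by
    intro h0
    rw [h0, ← RingHom.ker_eq_comap_bot, hker] at hcomap
    exact h.ne hcomap
  have hmax : (P.map f).IsMaximal := hprime.isMaximal hne
  rw [← hcomap]
  exact Ideal.comap_isMaximal_of_surjective f hsurj

section Quot

variable {B : Type*} [CommRing B] [IsDomain B] {π : B}

/-- `B / π` is integrally closed, from an elementwise lifting property -/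
theorem x0_isIntegrallyClosed_quot (hπ : Prime π)
    (H : ∀ (a b : B) (P : B[X]), ¬ π ∣ b → P.Monic → π ∣ (P.scaleRoots b).eval a →
      ∃ e, π ∣ e * b - a) :
    haveI : (Ideal.span {π}).IsPrime := (Ideal.span_singleton_prime hπ.ne_zero).2 hπ
    IsIntegrallyClosed (B ⧸ Ideal.span {π}) := by
  haveI : (Ideal.span {π}).IsPrime := (Ideal.span_singleton_prime hπ.ne_zero).2 hπ
  set D := B ⧸ Ideal.span {π} with hD
  rw [isIntegrallyClosed_iff (FractionRing D)]
  intro x hx
  obtain ⟨p, hp, hpx⟩ := hx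
  obtain ⟨a', b', hb', rfl⟩ := IsFractionRing.div_surjective (A := D) x
  obtain ⟨a, rfl⟩ := Ideal.Quotient.mk_surjective a'
  obtain ⟨b, rfl⟩ := Ideal.Quotient.mk_surjective b'
  have hb0 : (Ideal.Quotient.mk (Ideal.span {π}) b) ≠ 0 := nonZeroDivisors.ne_zero hb'
  have hb : ¬ π ∣ b := by
    intro h
    exact hb0 ((Ideal.Quotient.eq_zero_iff_mem).2 (Ideal.mem_span_singleton.2 h))
  have hinj : Function.Injective (algebraMap D (FractionRing D)) := IsFractionRing.injective _ _
  have h1 := scaleRoots_aeval_eq_zero_of_aeval_div_eq_zero hinj (p := p) hpx hb'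
  rw [aeval_algebraMap_apply, map_eq_zero_iff _ hinj] at h1
  obtain ⟨P, hPp, -, hP⟩ := lifts_and_degree_eq_and_monic
    ((lifts_iff_coeff_lifts p).2 fun n => Ideal.Quotient.mk_surjective _) hp
  have h2 : (P.scaleRoots b).map (Ideal.Quotient.mk (Ideal.span {π})) =
      p.scaleRoots (Ideal.Quotient.mk (Ideal.span {π}) b) := by
    rw [map_scaleRoots _ _ _ (by rw [hP.leadingCoeff, map_one]; exact one_ne_zero), hPp]
  have h3 : π ∣ (P.scaleRoots b).eval a := by
    rw [← Ideal.mem_span_singleton, ← Ideal.Quotient.eq_zero_iff_mem, ← eval_map_apply, h2]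
    simpa [aeval_def] using h1
  obtain ⟨e, he⟩ := H a b P hb hP h3
  refine ⟨Ideal.Quotient.mk _ e, ?_⟩
  have h4 : Ideal.Quotient.mk (Ideal.span {π}) e * Ideal.Quotient.mk (Ideal.span {π}) b =
      Ideal.Quotient.mk (Ideal.span {π}) a := by
    rw [← map_mul, Ideal.Quotient.eq, Ideal.mem_span_singleton]
    exact he
  rw [eq_div_iff ((map_ne_zero_iff _ hinj).2 hb0), ← map_mul, h4]

/-- `B / π` has dimension `≤ 1` if every prime strictly above `(π)` is maximal -/
theorem x0_dimensionLEOne_quot
    (H : ∀ J : Ideal B, J.IsPrime → Ideal.span {π} < J → J.IsMaximal) :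
    Ring.DimensionLEOne (B ⧸ Ideal.span {π}) := by
  refine ⟨fun {Q} hQ0 hQ => ?_⟩
  have hsurj := Ideal.Quotient.mk_surjective (I := Ideal.span {π})
  set J := Q.comap (Ideal.Quotient.mk (Ideal.span {π})) with hJ
  have hJp : J.IsPrime := Ideal.comap_isPrime _ _
  have hmap : J.map (Ideal.Quotient.mk (Ideal.span {π})) = Q := Ideal.map_comap_of_surjective _ hsurj Q
  have hlt : Ideal.span {π} < J := by
    refine lt_of_le_of_ne ?_ ?_
    · intro x hx
      rw [hJ, Ideal.mem_comap, Ideal.Quotient.eq_zero_iff_mem.2 hx]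
      exact Q.zero_mem
    · intro h
      apply hQ0
      rw [← hmap, ← h, Ideal.map_quotient_self]
  have hmax := H J hJp hlt
  rcases Ideal.map_eq_top_or_isMaximal_of_surjective _ hsurj hmax with h | h
  · exact absurd (hmap ▸ h) hQ.ne_top
  · exact hmap ▸ h

variable [IsNoetherianRing B]

/-- **local parameters** -/
theorem x0_exists_param (hπ : Prime π)
    (hic : IsIntegrallyClosed (B ⧸ Ideal.span {π})) (hdim : Ring.DimensionLEOne (B ⧸ Ideal.span {π}))
    (n : Ideal B) [hn : n.IsMaximal] (hπn : π ∈ n) :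
    ∃ t ∈ n, ∀ x ∈ n, ∃ s, s ∉ n ∧ s * x ∈ Ideal.span {π, t} := by
  haveI : (Ideal.span {π}).IsPrime := (Ideal.span_singleton_prime hπ.ne_zero).2 hπ
  set D := B ⧸ Ideal.span {π} with hD
  haveI : IsDedekindDomain D := { }
  have hsurj := Ideal.Quotient.mk_surjective (I := Ideal.span {π})
  have hle : Ideal.span {π} ≤ n := (Ideal.span_singleton_le_iff_mem _).2 hπn
  set P : Ideal D := n.map (Ideal.Quotient.mk (Ideal.span {π})) with hP
  have hcomap : P.comap (Ideal.Quotient.mk (Ideal.span {π})) = n := by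
    rw [hP, Ideal.comap_map_of_surjective _ hsurj, ← RingHom.ker_eq_comap_bot, Ideal.mk_ker,
      sup_eq_left.2 hle]
  have hPtop : P ≠ ⊤ := by
    intro h
    rw [h, Ideal.comap_top] at hcomap
    exact hn.ne_top hcomap.symm
  by_cases hP0 : P = ⊥
  · refine ⟨π, hπn, fun x hx => ⟨1, fun h => hn.ne_top ((Ideal.eq_top_iff_one _).2 h), ?_⟩⟩
    have : Ideal.Quotient.mk (Ideal.span {π}) x ∈ P := Ideal.mem_map_of_mem _ hx
    rw [hP0, Ideal.mem_bot, Ideal.Quotient.eq_zero_iff_mem] at this
    rw [one_mul]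
    exact Ideal.span_mono (by simp) this
  · have hPprime : P.IsPrime := by
      rcases Ideal.map_eq_top_or_isMaximal_of_surjective _ hsurj hn with h | h
      · exact absurd h hPtop
      · exact h.isPrime
    have hlt : P ^ 2 < P := by simpa using Ideal.pow_succ_lt_pow hP0 1
    obtain ⟨t', ht'P, ht'⟩ := SetLike.exists_of_lt hlt
    obtain ⟨t, rfl⟩ := hsurj t'
    have htn : t ∈ n := by rw [← hcomap]; exact ht'P
    refine ⟨t, htn, fun x hx => ?_⟩
    obtain ⟨I, hI⟩ : P ∣ Ideal.span {Ideal.Quotient.mk (Ideal.span {π}) t} :=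
      Ideal.dvd_span_singleton.2 ht'P
    have hIP : ¬ I ≤ P := by
      intro h
      apply ht'
      have : Ideal.span {Ideal.Quotient.mk (Ideal.span {π}) t} ≤ P ^ 2 := by
        rw [hI, sq]
        exact Ideal.mul_mono_right h
      exact this (Ideal.mem_span_singleton_self _)
    obtain ⟨s', hs'I, hs'P⟩ := SetLike.not_le_iff_exists.1 hIP
    obtain ⟨s, rfl⟩ := hsurj s'
    refine ⟨s, fun h => hs'P (Ideal.mem_map_of_mem _ h), ?_⟩
    have h1 : Ideal.Quotient.mk (Ideal.span {π}) (s * x) ∈
        Ideal.span {Ideal.Quotient.mk (Ideal.span {π}) t} := by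
      rw [hI, map_mul, mul_comm (Ideal.Quotient.mk _ s)]
      exact Ideal.mul_mem_mul (Ideal.mem_map_of_mem _ hx) hs'I
    obtain ⟨c', hc'⟩ := Ideal.mem_span_singleton.1 h1
    obtain ⟨c, rfl⟩ := hsurj c'
    rw [← map_mul, Ideal.Quotient.eq, Ideal.mem_span_singleton] at hc'
    obtain ⟨d, hd⟩ := hc'
    rw [Ideal.mem_span_pair]
    exact ⟨d, c, by linear_combination -hd⟩

end Quot

section Loc

variable {B : Type*} [CommRing B] [IsDomain B] {π t : B} (n : Ideal B) [hn : n.IsPrime]
  (O : Type*) [CommRing O] [Algebra B O] [IsLocalization.AtPrime O n]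

theorem x0_maximalIdeal_eq [IsLocalRing O] (hπn : π ∈ n) (htn : t ∈ n)
    (h : ∀ x ∈ n, ∃ s, s ∉ n ∧ s * x ∈ Ideal.span {π, t}) :
    maximalIdeal O = Ideal.span {algebraMap B O π, algebraMap B O t} := by
  apply le_antisymm
  · rw [← IsLocalization.AtPrime.map_eq_maximalIdeal n O, Ideal.map_le_iff_le_comap]
    intro x hx
    obtain ⟨s, hs, hsx⟩ := h x hx
    obtain ⟨a, b, hab⟩ := Ideal.mem_span_pair.1 hsx
    have hu : IsUnit (algebraMap B O s) := IsLocalization.map_units O (⟨s, hs⟩ : n.primeCompl)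
    rw [Ideal.mem_comap]
    have h1 : algebraMap B O s * algebraMap B O x ∈
        Ideal.span {algebraMap B O π, algebraMap B O t} := by
      rw [← map_mul, ← hab, map_add, map_mul, map_mul, Ideal.mem_span_pair]
      exact ⟨_, _, rfl⟩
    obtain ⟨v, hv⟩ := hu.exists_left_inv
    have h2 : algebraMap B O x = v * (algebraMap B O s * algebraMap B O x) := by
      rw [← mul_assoc, hv, one_mul]
    rw [h2]
    exact Ideal.mul_mem_left _ _ h1
  · rw [Ideal.span_le]
    rintro _ (rfl | rfl)
    · exact (IsLocalization.AtPrime.to_map_mem_maximal_iff O n _).2 hπn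
    · exact (IsLocalization.AtPrime.to_map_mem_maximal_iff O n _).2 htn

theorem x0_prime_algebraMap (hπ : Prime π) (hπn : π ∈ n) : Prime (algebraMap B O π) := by
  have hinj : Function.Injective (algebraMap B O) :=
    IsLocalization.injective O n.primeCompl_le_nonZeroDivisors
  have h0 : algebraMap B O π ≠ 0 := (map_ne_zero_iff _ hinj).2 hπ.ne_zero
  rw [← Ideal.span_singleton_prime h0, ← Set.image_singleton, ← Ideal.map_span]
  refine IsLocalization.isPrime_of_isPrime_disjoint n.primeCompl O _
    ((Ideal.span_singleton_prime hπ.ne_zero).2 hπ) ?_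
  rw [Set.disjoint_left]
  intro x hx hx'
  exact hx ((Ideal.span_singleton_le_iff_mem _).2 hπn hx')

end Loc

end Fermat.Agent.CARlib
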