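import Fermat.Agent.UNI.LPFinal
import Fermat.Agent.CAR.X0Abs

/-!
# T-CAR, (Inst-0): the integral closure `B` of `R[T]` in `L` is "A1-regular" at every maximal ideal
containing `π`, when the special fibre is irreducible (`PiInt ↔ V`) and normal (`GoodChart.loc`).
-/

set_option autoImplicit false
set_option linter.unusedSectionVars false
set_option linter.style.haveILetI false

open Polynomial IntermediateField IsLocalRing
open Fermat.Agent.ESlib Fermat.Agent.UNIlib

namespace Fermat.Agent.CARlib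

universe u

variable {R K L : Type u} [CommRing R] [IsDomain R] [IsDiscreteValuationRing R]
    [Field K] [Algebra R K] [IsFractionRing R K] [CharZero K] [Field L] [Algebra K L] [Algebra R L]
    [IsScalarTower R K L]

/-- the integral closure of `R[T]` in `L` -/
abbrev BT (R : Type u) {L : Type u} [CommRing R] [Field L] [Algebra R L] (T : L) :
    Subalgebra (Algebra.adjoin R {T}) L := integralClosure (Algebra.adjoin R {T}) L

/-- `R[X] → B` -/
noncomputable def x0Poly (T : L) : R[X] →+* BT R T :=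
  ((aeval T : R[X] →ₐ[R] L) : R[X] →+* L).codRestrict (BT R T) fun p => isIntegral_aeval_adjoin T p

theorem coe_x0Poly (T : L) (p : R[X]) : ((x0Poly T p : BT R T) : L) = aeval T p := rfl

theorem x0Poly_C (T : L) (c : R) : x0Poly T (C c) = algebraMap R (BT R T) c := by
  apply Subtype.ext
  rw [coe_x0Poly, aeval_C]
  rfl

theorem x0_isIntegral_poly (T : L) : (x0Poly (R := R) T).IsIntegral := by
  intro x
  obtain ⟨p, hp, hpx⟩ := (isIntegral_adjoin_singleton_iff T (x : L)).1 x.2
  refine ⟨p, hp, ?_⟩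
  apply Subtype.ext
  have h1 : ((BT R T).val : BT R T →+* L).comp (x0Poly T) =
      ((aeval T : R[X] →ₐ[R] L) : R[X] →+* L) := RingHom.ext fun _ => rfl
  have h2 := hom_eval₂ p (x0Poly T) ((BT R T).val : BT R T →+* L) x
  rw [h1] at h2
  exact h2.trans hpx

theorem x0_isNoetherianRing {T : L} (hT : Transcendental K T) [FiniteDimensional K⟮T⟯ L] :
    IsNoetherianRing (BT R T) := by
  letI algK : Algebra R[X] K⟮T⟯ := polyAlgebra K T
  haveI : IsFractionRing R[X] K⟮T⟯ := isFractionRing_polyAlgebra hT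
  letI algL : Algebra R[X] L := ((aeval T : R[X] →ₐ[R] L) : R[X] →+* L).toAlgebra
  haveI : IsScalarTower R[X] K⟮T⟯ L :=
    IsScalarTower.of_algebraMap_eq fun p => (polyAlgebra_algebraMap_coe T p).symm
  letI algB : Algebra R[X] (BT R T) := (x0Poly T).toAlgebra
  haveI : IsScalarTower R[X] (BT R T) L := IsScalarTower.of_algebraMap_eq fun p => rfl
  haveI : CharZero K⟮T⟯ := charZero_of_injective_algebraMap (algebraMap K K⟮T⟯).injective
  haveI : IsIntegralClosure (BT R T) R[X] L :=
    { algebraMap_injective := Subtype.val_injective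
      isIntegral_iff := by
        intro x
        constructor
        · intro hx
          exact ⟨⟨x, (isIntegral_adjoin_singleton_iff T x).2 hx⟩, rfl⟩
        · rintro ⟨y, rfl⟩
          exact (isIntegral_adjoin_singleton_iff T (y : L)).1 y.2 }
  exact IsIntegralClosure.isNoetherianRing R[X] K⟮T⟯ L (BT R T)

section V

variable {π : R} {T : L} {V : ValuationSubring L}

theorem x0_dvd_iff (hπ : Irreducible π) (hT : Transcendental K T)
    (hV : ∀ x, PiInt π T x ↔ x ∈ V) (x : BT R T) :
    algebraMap R (BT R T) π ∣ x ↔ (x : L) / algebraMap R L π ∈ V := by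
  have hπ0 : algebraMap R L π ≠ 0 := by
    rw [IsScalarTower.algebraMap_apply R K L]
    simpa using hπ.ne_zero
  constructor
  · rintro ⟨y, rfl⟩
    have : (((algebraMap R (BT R T) π * y : BT R T)) : L) / algebraMap R L π = (y : L) := by
      rw [Subalgebra.coe_mul]
      change algebraMap R L π * (y : L) / algebraMap R L π = y
      rw [mul_div_cancel_left₀ _ hπ0]
    rw [this, ← hV]
    exact PiInt.of_isIntegral hπ.prime y.2
  · intro h
    have h1 : IsIntegral (Algebra.adjoin R {T}) ((x : L) / algebraMap R L π) := by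
      refine isIntegral_of_piInt (K := K) hπ.prime hT ((hV _).2 h) ?_
      rw [mul_div_cancel₀ _ hπ0]
      exact x.2
    refine ⟨⟨_, h1⟩, Subtype.ext ?_⟩
    rw [Subalgebra.coe_mul]
    change (x : L) = algebraMap R L π * ((x : L) / algebraMap R L π)
    rw [mul_div_cancel₀ _ hπ0]

theorem x0_prime (hπ : Irreducible π) (hT : Transcendental K T)
    (hV : ∀ x, PiInt π T x ↔ x ∈ V)
    (hVπ : ∀ x ∈ V, x⁻¹ ∈ V ∨ x / algebraMap R L π ∈ V)
    (hπV : (algebraMap R L π)⁻¹ ∉ V) : Prime (algebraMap R (BT R T) π) := by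
  have hπ0 : algebraMap R L π ≠ 0 := by
    rw [IsScalarTower.algebraMap_apply R K L]
    simpa using hπ.ne_zero
  have hmem : ∀ x : BT R T, (x : L) ∈ V := fun x => (hV _).1 (PiInt.of_isIntegral hπ.prime x.2)
  refine ⟨?_, ?_, ?_⟩
  · intro h
    exact hπ0 (congrArg Subtype.val h)
  · intro h
    obtain ⟨y, hy⟩ := h.exists_right_inv
    apply hπV
    have h1 : algebraMap R L π * (y : L) = 1 := congrArg Subtype.val hy
    rw [← eq_inv_of_mul_eq_one_right h1]
    exact hmem y
  · intro a b hab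
    rw [x0_dvd_iff (K := K) hπ hT hV] at hab ⊢
    rw [x0_dvd_iff (K := K) hπ hT hV]
    by_cases ha : (a : L) = 0
    · left
      rw [ha, zero_div]
      exact V.zero_mem
    rcases hVπ _ (hmem a) with h | h
    · right
      have : (b : L) / algebraMap R L π =
          (a : L)⁻¹ * (((a * b : BT R T) : L) / algebraMap R L π) := by
        rw [Subalgebra.coe_mul]
        field_simp
      rw [this]
      exact V.mul_mem _ _ h hab
    · exact Or.inl h

/-- the elementwise lifting property of `x0_isIntegrallyClosed_quot` -/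
theorem x0_lift (hπ : Irreducible π) (hT : Transcendental K T)
    (hV : ∀ x, PiInt π T x ↔ x ∈ V)
    (hVπ : ∀ x ∈ V, x⁻¹ ∈ V ∨ x / algebraMap R L π ∈ V)
    (hloc : ∀ ε : L, PiInt π T ε → IntModPi π T ε →
      ∃ e : L, IsIntegral (Algebra.adjoin R {T}) e ∧ PiInt π T ((e - ε) / algebraMap R L π))
    (a b : BT R T) (P : (BT R T)[X]) (hb : ¬ algebraMap R (BT R T) π ∣ b) (hP : P.Monic)
    (h : algebraMap R (BT R T) π ∣ (P.scaleRoots b).eval a) :
    ∃ e, algebraMap R (BT R T) π ∣ e * b - a := by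
  have hπ0 : algebraMap R L π ≠ 0 := by
    rw [IsScalarTower.algebraMap_apply R K L]
    simpa using hπ.ne_zero
  have hmem : ∀ x : BT R T, (x : L) ∈ V := fun x => (hV _).1 (PiInt.of_isIntegral hπ.prime x.2)
  rw [x0_dvd_iff (K := K) hπ hT hV] at hb h
  have hbinv : (b : L)⁻¹ ∈ V := (hVπ _ (hmem b)).resolve_right hb
  have hb0 : (b : L) ≠ 0 := by
    intro h0
    apply hb
    rw [h0, zero_div]
    exact V.zero_mem
  set ε : L := (a : L) / (b : L) with hε
  have hεV : ε ∈ V := by
    rw [hε, div_eq_mul_inv]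
    exact V.mul_mem _ _ (hmem a) hbinv
  set ι : BT R T →+* L := ((BT R T).val : BT R T →+* L) with hι
  have hev : ((P.scaleRoots b).eval a : BT R T) = (b : L) ^ P.natDegree * (P.map ι).eval ε := by
    have h1 := scaleRoots_eval₂_mul (p := P) ι ε b
    have h2 : ι b * ε = ι a := by
      rw [hε]
      change (b : L) * ((a : L) / (b : L)) = (a : L)
      field_simp
    rw [h2] at h1
    rw [eval_map]
    have h3 : ι ((P.scaleRoots b).eval a) = eval₂ ι (ι a) (P.scaleRoots b) := by
      rw [← eval₂_id, hom_eval₂, RingHom.comp_id]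
    exact h3.trans h1
  obtain ⟨e, he, hee⟩ := hloc ε ((hV _).2 hεV) ⟨P.map ι, hP.map _, fun i => by
      rw [coeff_map]; exact (P.coeff i).2, by
    rw [hV]
    have : (P.map ι).eval ε / algebraMap R L π =
        ((b : L)⁻¹) ^ P.natDegree * ((((P.scaleRoots b).eval a : BT R T) : L) / algebraMap R L π) := by
      rw [hev, inv_pow, mul_div_assoc, ← mul_assoc, inv_mul_cancel₀ (pow_ne_zero _ hb0), one_mul]
    rw [this]
    exact V.mul_mem _ _ (V.pow_mem hbinv _) h⟩
  refine ⟨⟨e, he⟩, ?_⟩
  rw [x0_dvd_iff (K := K) hπ hT hV]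
  have : (((⟨e, he⟩ * b - a : BT R T)) : L) / algebraMap R L π =
      (b : L) * ((e - ε) / algebraMap R L π) := by
    rw [Subalgebra.coe_sub, Subalgebra.coe_mul, hε]
    field_simp
  rw [this]
  exact V.mul_mem _ _ (hmem b) ((hV _).1 hee)

/-- every prime of `B` strictly above `(π)` is maximal -/
theorem x0_isMaximal_of_lt_B (hπ : Irreducible π) (hpr : Prime (algebraMap R (BT R T) π))
    (J : Ideal (BT R T)) (hJ : J.IsPrime)
    (hlt : Ideal.span {algebraMap R (BT R T) π} < J) : J.IsMaximal := by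
  letI algB : Algebra R[X] (BT R T) := (x0Poly T).toAlgebra
  haveI : Algebra.IsIntegral R[X] (BT R T) := ⟨x0_isIntegral_poly T⟩
  haveI hI : (Ideal.span {algebraMap R (BT R T) π}).IsPrime :=
    (Ideal.span_singleton_prime hpr.ne_zero).2 hpr
  obtain ⟨x, hxJ, hxI⟩ := SetLike.exists_of_lt hlt
  have h1 := Ideal.comap_lt_comap_of_integral_mem_sdiff (R := R[X]) hlt.le ⟨hxJ, hxI⟩
    (Algebra.IsIntegral.isIntegral x)
  have h2 : Ideal.span {C π} ≤
      (Ideal.span {algebraMap R (BT R T) π}).comap (algebraMap R[X] (BT R T)) := by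
    rw [Ideal.span_singleton_le_iff_mem, Ideal.mem_comap]
    change x0Poly T (C π) ∈ _
    rw [x0Poly_C]
    exact Ideal.mem_span_singleton_self _
  haveI : (J.comap (algebraMap R[X] (BT R T))).IsPrime := Ideal.comap_isPrime _ _
  have h3 := x0_isMaximal_of_lt hπ _ (lt_of_le_of_lt h2 h1)
  exact Ideal.isMaximal_of_isIntegral_of_isMaximal_comap J h3

/-- **(Inst-0)** -/
theorem x0_regular (hπ : Irreducible π) (hT : Transcendental K T) [FiniteDimensional K⟮T⟯ L]
    (hV : ∀ x, PiInt π T x ↔ x ∈ V)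
    (hVπ : ∀ x ∈ V, x⁻¹ ∈ V ∨ x / algebraMap R L π ∈ V)
    (hπV : (algebraMap R L π)⁻¹ ∉ V)
    (hloc : ∀ ε : L, PiInt π T ε → IntModPi π T ε →
      ∃ e : L, IsIntegral (Algebra.adjoin R {T}) e ∧ PiInt π T ((e - ε) / algebraMap R L π))
    (n : Ideal (BT R T)) [hn : n.IsMaximal] (hπn : algebraMap R (BT R T) π ∈ n) :
    IsNoetherianRing (BT R T) ∧ Prime (algebraMap R (BT R T) π) ∧
    ∃ t ∈ n, (∀ x ∈ n, ∃ s, s ∉ n ∧ s * x ∈ Ideal.span {algebraMap R (BT R T) π, t}) ∧
      ∀ (O : Type u) [CommRing O] [Algebra (BT R T) O] [IsLocalization.AtPrime O n] [IsLocalRing O],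
        IsNoetherianRing O ∧
        maximalIdeal O = Ideal.span {algebraMap (BT R T) O (algebraMap R (BT R T) π),
          algebraMap (BT R T) O t} ∧
        Prime (algebraMap (BT R T) O (algebraMap R (BT R T) π)) := by
  have hN : IsNoetherianRing (BT R T) := x0_isNoetherianRing (K := K) hT
  have hpr := x0_prime (K := K) hπ hT hV hVπ hπV
  have hic := x0_isIntegrallyClosed_quot hpr (x0_lift (K := K) hπ hT hV hVπ hloc)
  have hdim := x0_dimensionLEOne_quot (x0_isMaximal_of_lt_B hπ hpr)
  obtain ⟨t, htn, ht⟩ := x0_exists_param hpr hic hdim n hπn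
  refine ⟨hN, hpr, t, htn, ht, fun O _ _ _ _ => ⟨?_, ?_, ?_⟩⟩
  · exact IsLocalization.isNoetherianRing n.primeCompl O hN
  · exact x0_maximalIdeal_eq n O hπn htn ht
  · exact x0_prime_algebraMap n O hpr hπn

end V

end Fermat.Agent.CARlib
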