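import Fermat.Agent.UNI.NodeInputs
import Fermat.Agent.CAR.X0Reg

/-!
# T-CAR, (Inst-0) on `F_K(N)`, `N` a unit of `R`: both charts `tF`, `tF⁻¹`.
-/

set_option autoImplicit false
set_option linter.unusedSectionVars false
set_option linter.style.haveILetI false

open Polynomial IntermediateField IsLocalRing ModularCurve
open Fermat.Agent.S24lib Fermat.Agent.ESlib Fermat.Agent.UNIlib

namespace Fermat.Agent.CARlib

section gauss

variable {R K : Type} [CommRing R] [IsDomain R] [IsDiscreteValuationRing R] [Field K] [Algebra R K]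
  [IsFractionRing R K] [Algebra ℚ K] (M : ℕ) [NeZero M]
  [Algebra R (FK K M)] [IsScalarTower R K (FK K M)]

/-- `π` is a uniformiser of the Gauss valuation (any level) -/
theorem x0_gauss_unif {π : R} (hπ : Irreducible π) (x : FK K M) :
    x⁻¹ ∈ gaussVal R K M ∨ x / algebraMap R (FK K M) π ∈ gaussVal R K M := by
  have hS := redSetup_of_dvr (K := K) hπ
  by_cases hx0 : x = 0
  · left; rw [hx0, inv_zero]; exact (gaussVal R K M).zero_mem
  have hx0' : (x : LaurentSeries K) ≠ 0 := fun h => hx0 (Subtype.ext h)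
  obtain ⟨a, b, u, hu, hu', hu0, hrel⟩ := (isBdd_of_mem_FK (R := R) x.2).exists_unit hS hx0'
  have hc := redSetup_C_unif_ne_zero hS
  have hcm : (HahnSeries.C (algebraMap R K π) : LaurentSeries K) ∈
      LamR (algebraMap R K) (IsLocalRing.residue R) := C_unif_mem_LamR
  rcases lt_or_ge a b with hab | hab
  · right
    obtain ⟨c, rfl⟩ := Nat.exists_eq_add_of_lt hab
    rw [mem_gaussVal_iff, mem_gaussSub_iff]
    show (x : LaurentSeries K) / ((algebraMap R (FK K M) π : FK K M) : LaurentSeries K) ∈ _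
    rw [coe_algebraMap_R]
    have : (x : LaurentSeries K) =
        (HahnSeries.C (algebraMap R K π) : LaurentSeries K) * ((HahnSeries.C (algebraMap R K π)) ^ c * u) := by
      apply mul_left_cancel₀ (pow_ne_zero a hc)
      rw [hrel]
      ring
    rw [this, mul_div_cancel_left₀ _ hc]
    exact mul_mem (pow_mem hcm c) hu
  · left
    obtain ⟨c, rfl⟩ := Nat.exists_eq_add_of_le hab
    rw [mem_gaussVal_iff, mem_gaussSub_iff]
    show (x : LaurentSeries K)⁻¹ ∈ _
    have : (x : LaurentSeries K)⁻¹ = (HahnSeries.C (algebraMap R K π) : LaurentSeries K) ^ c * u⁻¹ := by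
      rw [pow_add, mul_assoc] at hrel
      have h2 := mul_left_cancel₀ (pow_ne_zero b hc) hrel
      rw [← h2, mul_inv, mul_inv_cancel_left₀ (pow_ne_zero c hc)]
    rw [this]
    exact mul_mem (pow_mem hcm c) hu'

theorem x0_gauss_pi_inv {π : R} (hπ : Irreducible π) :
    (algebraMap R (FK K M) π)⁻¹ ∉ gaussVal R K M := by
  have hS := redSetup_of_dvr (K := K) hπ
  have hc := redSetup_C_unif_ne_zero hS
  intro h
  rw [mem_gaussVal_iff, mem_gaussSub_iff] at h
  have h' : ((HahnSeries.C (algebraMap R K π) : LaurentSeries K))⁻¹ ∈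
      LamR (algebraMap R K) (IsLocalRing.residue R) := by
    rw [← coe_algebraMap_R (N := M)]
    exact h
  obtain ⟨s, y, hs, hsy⟩ := h'
  apply hs
  have h1 : coeffMap (algebraMap R K) s = coeffMap (algebraMap R K) (HahnSeries.C π * y) := by
    rw [map_mul, coeffMap_C', ← hsy]
    field_simp
  have h2 : s = HahnSeries.C π * y := S28lib.coeffMap_injective hS.inj h1
  rw [h2, map_mul, coeffMap_C', hS.red_unif, map_zero, zero_mul]

end gauss

variable {R K : Type} [CommRing R] [IsDomain R] [IsDiscreteValuationRing R] [Field K] [Algebra R K]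
  [IsFractionRing R K] [CharZero K] [Algebra ℚ K] [Algebra K ℂ] [IsScalarTower ℚ K ℂ]
  [Algebra R ℂ] [IsScalarTower R K ℂ] (N : ℕ) [NeZero N]
  [Algebra R (FK K N)] [IsScalarTower R K (FK K N)]

theorem x0_piInt_tF_iff {π : R} (hπ : Irreducible π) (hN : IsUnit (N : R)) (a : ℕ) [NeZero a]
    (ha : a = 2 ∨ a = 3) (haN : a ∣ N) (x : FK K N) :
    (PiInt π (tF K N a ha haN) x ↔ x ∈ gaussVal R K N) ∧
    (PiInt π (tF K N a ha haN)⁻¹ x ↔ x ∈ gaussVal R K N) := by
  have hN' := natCast_residueField_ne_zero_of_isUnit hN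
  have ht0 := tF_ne_zero K N a ha haN
  have h1 : ∀ x ∈ gaussSub R K N, PiInt π (tF K N a ha haN) x := by
    intro x hx
    obtain ⟨P, e, hP, he, hrel⟩ := exists_tF_rel K N R a ha haN
    exact piInt_haupt hN' (redSetup_of_dvr (K := K) hπ).red_unif ht0 hP he hrel hx
  exact ⟨⟨fun h => mem_gaussSub_of_piInt N a ha haN hπ h, h1 x⟩,
    ⟨fun h => mem_gaussSub_of_piInt_inv N a ha haN hπ h, fun h => PiInt.inv ht0 (h1 x h)⟩⟩

/-- **(Inst-0) at the good level**, chart `tF` -/
theorem x0_regular_tF {π : R} (hπ : Irreducible π) (hN : IsUnit (N : R)) (a : ℕ) [NeZero a]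
    (ha : a = 2 ∨ a = 3) (haN : a ∣ N) (hζN : ∃ z : K, IsPrimitiveRoot z N)
    (n : Ideal (BT R (tF K N a ha haN))) [hn : n.IsMaximal]
    (hπn : algebraMap R (BT R (tF K N a ha haN)) π ∈ n) :
    IsNoetherianRing (BT R (tF K N a ha haN)) ∧ Prime (algebraMap R (BT R (tF K N a ha haN)) π) ∧
    ∃ t ∈ n, (∀ x ∈ n, ∃ s, s ∉ n ∧
        s * x ∈ Ideal.span {algebraMap R (BT R (tF K N a ha haN)) π, t}) ∧
      ∀ (O : Type) [CommRing O] [Algebra (BT R (tF K N a ha haN)) O] [IsLocalization.AtPrime O n]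
        [IsLocalRing O], IsNoetherianRing O ∧
        maximalIdeal O = Ideal.span {algebraMap (BT R (tF K N a ha haN)) O
          (algebraMap R (BT R (tF K N a ha haN)) π), algebraMap (BT R (tF K N a ha haN)) O t} ∧
        Prime (algebraMap (BT R (tF K N a ha haN)) O
          (algebraMap R (BT R (tF K N a ha haN)) π)) := by
  obtain ⟨hG, -⟩ := goodChart_tF (R := R) (K := K) N hπ hN a ha haN hζN
  haveI := hG.2.1
  exact x0_regular (K := K) (V := gaussVal R K N) hπ hG.1
    (fun x => (x0_piInt_tF_iff N hπ hN a ha haN x).1) (fun x _ => x0_gauss_unif N hπ x)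
    (x0_gauss_pi_inv N hπ) (fun ε h1 h2 => hG.loc hπ ε h1 h2) n hπn

/-- **(Inst-0) at the good level**, chart `tF⁻¹` -/
theorem x0_regular_tF_inv {π : R} (hπ : Irreducible π) (hN : IsUnit (N : R)) (a : ℕ) [NeZero a]
    (ha : a = 2 ∨ a = 3) (haN : a ∣ N) (hζN : ∃ z : K, IsPrimitiveRoot z N)
    (n : Ideal (BT R (tF K N a ha haN)⁻¹)) [hn : n.IsMaximal]
    (hπn : algebraMap R (BT R (tF K N a ha haN)⁻¹) π ∈ n) :
    IsNoetherianRing (BT R (tF K N a ha haN)⁻¹) ∧
    Prime (algebraMap R (BT R (tF K N a ha haN)⁻¹) π) ∧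
    ∃ t ∈ n, (∀ x ∈ n, ∃ s, s ∉ n ∧
        s * x ∈ Ideal.span {algebraMap R (BT R (tF K N a ha haN)⁻¹) π, t}) ∧
      ∀ (O : Type) [CommRing O] [Algebra (BT R (tF K N a ha haN)⁻¹) O] [IsLocalization.AtPrime O n]
        [IsLocalRing O], IsNoetherianRing O ∧
        maximalIdeal O = Ideal.span {algebraMap (BT R (tF K N a ha haN)⁻¹) O
          (algebraMap R (BT R (tF K N a ha haN)⁻¹) π), algebraMap (BT R (tF K N a ha haN)⁻¹) O t} ∧
        Prime (algebraMap (BT R (tF K N a ha haN)⁻¹) O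
          (algebraMap R (BT R (tF K N a ha haN)⁻¹) π)) := by
  obtain ⟨-, hG⟩ := goodChart_tF (R := R) (K := K) N hπ hN a ha haN hζN
  haveI := hG.2.1
  exact x0_regular (K := K) (V := gaussVal R K N) hπ hG.1
    (fun x => (x0_piInt_tF_iff N hπ hN a ha haN x).2) (fun x _ => x0_gauss_unif N hπ x)
    (x0_gauss_pi_inv N hπ) (fun ε h1 h2 => hG.loc hπ ε h1 h2) n hπn

end Fermat.Agent.CARlib
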