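import Fermat.Agent.CAR.CLev1Top
import Fermat.Agent.CAR.CInst
import Fermat.Agent.CAR.BGam
import Fermat.Agent.CAR.X0FK
import Fermat.Agent.CAR.VDefs

/-!
# T-CAR, block B: the bundle `C.CLev1` in the modular frame (top adapter)

From the local statement `hloc` (hypothesis of `C.cLev1_of_local`) to the input `L` of `C.c_top`.
-/

set_option autoImplicit false
set_option linter.unusedSectionVars false
set_option linter.style.haveILetI false

open ModularCurve Polynomial IsLocalRing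

namespace Fermat.Agent.CARlib

open Fermat.Agent.ESlib Fermat.Agent.UNIlib

variable {R K : Type} [CommRing R] [IsDomain R] [IsDiscreteValuationRing R] [Field K] [Algebra R K]
  [IsFractionRing R K] [CharZero K] [Algebra ℚ K] [Algebra K ℂ] [IsScalarTower ℚ K ℂ]
  [Algebra R ℂ] [IsScalarTower R K ℂ] {N r : ℕ} [NeZero N] [NeZero r] [NeZero (N * r)]
  [Algebra R (FK K N)] [IsScalarTower R K (FK K N)]
  [Algebra R (FK K (N * r))] [IsScalarTower R K (FK K (N * r))]
  [CharP (IsLocalRing.ResidueField R) r]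
  {π : R} {s : K ≃ₐ[ℚ] K} {sR : R →+* R}

/-- `R → F_K(N) → F_K(N r)` -/
theorem bTopL_tower :
    letI : Algebra (FK K N) (FK K (N * r)) := (oldI K N r).toAlgebra
    IsScalarTower R (FK K N) (FK K (N * r)) := by
  letI : Algebra (FK K N) (FK K (N * r)) := (oldI K N r).toAlgebra
  exact IsScalarTower.of_algebraMap_eq fun c => (oldI_algebraMap (K := K) (N := N) (r := r) c).symm

/-- the local statement at the closed points of the good level, chart `T₀` -/
def BLoc (π : R) (hr : r.Prime) (hrN : ¬ r ∣ N) (T₀ : FK K N)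
    [IsFractionRing (integralClosure (Algebra.adjoin R {T₀}) (FK K N)) (FK K N)] : Prop :=
  letI : Algebra (FK K N) (FK K (N * r)) := (oldI K N r).toAlgebra
  ∀ (z' : Ideal (integralClosure (Algebra.adjoin R {T₀}) (FK K N))) [z'.IsMaximal],
    algebraMap R _ π ∈ z' →
    ∃ (t : C.CO₀ (FK K N) z') (s : C.CS₁ (FK K N) (FK K (N * r)) z')
      (pF' pV' : Ideal (C.CS₁ (FK K N) (FK K (N * r)) z')),
      BData (C.CO₀ (FK K N) z') (C.CS₁ (FK K N) (FK K (N * r)) z') (FK K (N * r))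
        (algebraMap (integralClosure (Algebra.adjoin R {T₀}) (FK K N)) (C.CO₀ (FK K N) z')
          (algebraMap R (integralClosure (Algebra.adjoin R {T₀}) (FK K N)) π)) t s pF' pV'
        (VF1 R K N r) (VV1 (K := K) R hr hrN) r ∧
      (pF' ⊔ pV' ≠ ⊤ → ∃ aF θ : C.CS₁ (FK K N) (FK K (N * r)) z',
        aF * θ = algebraMap (C.CO₀ (FK K N) z') (C.CS₁ (FK K N) (FK K (N * r)) z')
          (algebraMap (integralClosure (Algebra.adjoin R {T₀}) (FK K N)) (C.CO₀ (FK K N) z')
            (algebraMap R (integralClosure (Algebra.adjoin R {T₀}) (FK K N)) π)) ∧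
          aF ∈ pF' ∧ θ ∈ pV')

/-- generic chart: `NodeHyp` + `BLoc` ⇒ `CLev1` -/
theorem bTopL_of_nodeHyp (hπ : Irreducible π) (hr : r.Prime) (hrN : ¬ r ∣ N) (T₀ : FK K N)
    [IsFractionRing (integralClosure (Algebra.adjoin R {T₀}) (FK K N)) (FK K N)]
    {q : ℕ} {ρ : FK K (N * r) →+* FK K (N * r)}
    (H : NodeHyp π (inclF K (dvd_mul_right N r) T₀) (VF1 R K N r) (VV1 (K := K) R hr hrN) q ρ)
    (hloc : BLoc π hr hrN T₀) :
    C.CLev1 (algebraMap R (integralClosure
      (Algebra.adjoin R {inclF K (dvd_mul_right N r) T₀}) (FK K (N * r))) π)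
      (VF1 R K N r) (VV1 (K := K) R hr hrN) (C.cCen _ (VF1 R K N r)) (C.cCen _ (VV1 (K := K) R hr hrN)) := by
  letI : Algebra (FK K N) (FK K (N * r)) := (oldI K N r).toAlgebra
  haveI : IsScalarTower R (FK K N) (FK K (N * r)) := bTopL_tower
  have hwπ : wr K hr hrN (algebraMap R (FK K (N * r)) π) = algebraMap R (FK K (N * r)) π := by
    rw [IsScalarTower.algebraMap_apply R K (FK K (N * r))]
    exact (wr K hr hrN).commutes _
  have hpi : (algebraMap R (FK K (N * r)) π)⁻¹ ∉ VV1 (K := K) R hr hrN := by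
    intro h
    rw [ValuationSubring.mem_comap] at h
    have h' : wr K hr hrN (algebraMap R (FK K (N * r)) π)⁻¹ ∈ gaussVal R K (N * r) := h
    rw [map_inv₀, hwπ] at h'
    exact x0_gauss_pi_inv (N * r) hπ h'
  have unifV : ∀ x : FK K (N * r), (VV1 (K := K) R hr hrN).valuation x < 1 →
      x / algebraMap R (FK K (N * r)) π ∈ VV1 (K := K) R hr hrN := by
    intro x hx
    rw [C.val_lt_one_iff] at hx
    rw [ValuationSubring.mem_comap]
    show wr K hr hrN (x / algebraMap R (FK K (N * r)) π) ∈ gaussVal R K (N * r)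
    rw [map_div₀, hwπ]
    rcases hx with rfl | hx
    · rw [map_zero, zero_div]; exact (gaussVal R K (N * r)).zero_mem
    · rcases x0_gauss_unif (N * r) hπ (wr K hr hrN x) with h | h
      · exact absurd (by
          rw [ValuationSubring.mem_comap]
          show wr K hr hrN x⁻¹ ∈ gaussVal R K (N * r)
          rw [map_inv₀]; exact h) hx
      · exact h
  exact C.cLev1_of_local (F₀ := FK K N) (F₁ := FK K (N * r)) (T₀ := T₀) (r := r) H unifV hpi
    (C.mem_cCen fun b => H.int_mem₁ _ b.2) (C.mem_cCen fun b => H.int_mem₂ _ b.2) hloc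

theorem bTopL_inclF_tF (a : ℕ) [NeZero a] (ha : a = 2 ∨ a = 3) (haN : a ∣ N) :
    inclF K (dvd_mul_right N r) (tF K N a ha haN) = tF K (N * r) a ha (haN.mul_right r) := by
  rw [← oldI_apply]; exact oldI_tF a ha haN

/-- **`L`, chart `tF`** -/
theorem bTop_L (h : InvFrob π r s sR) (hπ : Irreducible π) (hr : r.Prime) (hrN : ¬ r ∣ N)
    (hN : IsUnit (N : R)) (a : ℕ) [NeZero a] (ha : a = 2 ∨ a = 3) (haN : a ∣ N)
    (hζN : ∃ z : K, IsPrimitiveRoot z N)
    [IsFractionRing (integralClosure (Algebra.adjoin R {tF K N a ha haN}) (FK K N)) (FK K N)]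
    (hloc : BLoc π hr hrN (tF K N a ha haN)) :
    C.CLev1 (algebraMap R (integralClosure
      (Algebra.adjoin R {inclF K (dvd_mul_right N r) (tF K N a ha haN)}) (FK K (N * r))) π)
      (VF1 R K N r) (VV1 (K := K) R hr hrN) (C.cCen _ (VF1 R K N r))
      (C.cCen _ (VV1 (K := K) R hr hrN)) := by
  refine bTopL_of_nodeHyp hπ hr hrN _ (q := r ^ 2)
    (ρ := (gamK K (N * r) (s * s) : FK K (N * r) →+* FK K (N * r))) ?_ hloc
  rw [bTopL_inclF_tF]
  exact (bgam_nodeHyp h hπ hr hrN hN a ha haN hζN).1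

/-- **`L`, chart `tF⁻¹`** -/
theorem bTop_L_inv (h : InvFrob π r s sR) (hπ : Irreducible π) (hr : r.Prime) (hrN : ¬ r ∣ N)
    (hN : IsUnit (N : R)) (a : ℕ) [NeZero a] (ha : a = 2 ∨ a = 3) (haN : a ∣ N)
    (hζN : ∃ z : K, IsPrimitiveRoot z N)
    [IsFractionRing (integralClosure (Algebra.adjoin R {(tF K N a ha haN)⁻¹}) (FK K N)) (FK K N)]
    (hloc : BLoc π hr hrN (tF K N a ha haN)⁻¹) :
    C.CLev1 (algebraMap R (integralClosure
      (Algebra.adjoin R {inclF K (dvd_mul_right N r) (tF K N a ha haN)⁻¹}) (FK K (N * r))) π)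
      (VF1 R K N r) (VV1 (K := K) R hr hrN) (C.cCen _ (VF1 R K N r))
      (C.cCen _ (VV1 (K := K) R hr hrN)) := by
  refine bTopL_of_nodeHyp hπ hr hrN _ (q := r ^ 2)
    (ρ := (gamK K (N * r) (s * s) : FK K (N * r) →+* FK K (N * r))) ?_ hloc
  rw [map_inv₀, bTopL_inclF_tF]
  exact (bgam_nodeHyp h hπ hr hrN hN a ha haN hζN).2

end Fermat.Agent.CARlib
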