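import Fermat.Agent.CAR.BConcA29
import Fermat.Agent.CAR.BTopL

/-!
# T-CAR, block B: modular instantiation of `bTop_local` (both charts): `L` and `hBTop`
-/

set_option autoImplicit false
set_option linter.unusedSectionVars false
set_option linter.unusedVariables false
set_option linter.style.haveILetI false

open ModularCurve Polynomial IsLocalRing

namespace Fermat.Agent.CARlib

open Fermat.Agent.ESlib Fermat.Agent.UNIlib

variable {R K : Type} [CommRing R] [IsDomain R] [IsDiscreteValuationRing R] [Field K] [Algebra R K]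
  [IsFractionRing R K] [CharZero K] [Algebra ℚ K] [Algebra K ℂ] [IsScalarTower ℚ K ℂ]
  [Algebra R ℂ] [IsScalarTower R K ℂ] {N r : ℕ} [NeZero N] [NeZero r] [NeZero (N * r)]
  [Algebra R (FK K N)] [IsScalarTower R K (FK K N)]
  [Algebra R (FK K (N * r))] [IsScalarTower R K (FK K (N * r))]
  [CharP (IsLocalRing.ResidueField R) r]
  {π : R}

set_option maxHeartbeats 1000000 in
/-- generic chart of the good level -/
theorem bq_of_chart [IsAlgClosed (ResidueField R)] (hπ : Irreducible ((r : ℕ) : R)) (hr : r.Prime)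
    (hrN : ¬ r ∣ N) (h49 : 4 ∣ N ∨ 9 ∣ N) (hNres : (N : ResidueField R) ≠ 0) (T₀ : FK K N)
    [IsFractionRing (integralClosure (Algebra.adjoin R {T₀}) (FK K N)) (FK K N)]
    [IsNoetherianRing (integralClosure (Algebra.adjoin R {T₀}) (FK K N))]
    [IsIntegrallyClosed (integralClosure (Algebra.adjoin R {T₀}) (FK K N))]
    {γ : FK K (N * r) ≃+* FK K (N * r)}
    (H : letI : Algebra (FK K N) (FK K (N * r)) := (oldI K N r).toAlgebra
      B6Hyp ((r : ℕ) : R) T₀ (gaussVal R K (N * r)) (wr K hr hrN).toRingEquiv γ r)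
    (hprime : Prime (algebraMap R (integralClosure (Algebra.adjoin R {T₀}) (FK K N)) ((r : ℕ) : R)))
    (hreg : ∀ z' : Ideal (integralClosure (Algebra.adjoin R {T₀}) (FK K N)), z'.IsMaximal →
      algebraMap R (integralClosure (Algebra.adjoin R {T₀}) (FK K N)) ((r : ℕ) : R) ∈ z' →
      ∃ t₀ ∈ z', ∀ g ∈ z', ∃ u, u ∉ z' ∧ u * g ∈ Ideal.span
        {algebraMap R (integralClosure (Algebra.adjoin R {T₀}) (FK K N)) ((r : ℕ) : R), t₀})
    (hd : B7Dich R T₀ (J1 K N)) :
    BLoc ((r : ℕ) : R) hr hrN T₀ ∧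
    BqTop R r ((r : ℕ) : R) T₀ := by
  letI : Algebra (FK K N) (FK K (N * r)) := (oldI K N r).toAlgebra
  haveI : IsScalarTower R (FK K N) (FK K (N * r)) := binst_isScalarTower K R
  haveI := binst_finiteDimensional K hr hrN
  haveI := binst_isSeparable K hr hrN
  obtain ⟨hdF, hdV, hdV'⟩ := bq_diff (R := R) (K := K) hr hrN
  have hyF : jr K N r ∈ gaussVal R K (N * r) := btg_hyF
  have hyV : (wr K hr hrN).toRingEquiv (jr K N r) ∈ gaussVal R K (N * r) := by
    show wr K hr hrN (jr K N r) ∈ gaussSub R K (N * r)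
    rw [wr_jr]
    exact Jgen_mem_gaussSub _
  have hgen : ∀ z ∈ gaussVal R K (N * r), (wr K hr hrN).toRingEquiv z ∈ gaussVal R K (N * r) →
      ∃ P : (FK K N)[X], (∀ i, algebraMap (FK K N) (FK K (N * r)) (P.coeff i) ∈
        gaussVal R K (N * r)) ∧ aeval (jr K N r) P = z := by
    intro z hz hz'
    exact btg_hgen (R := R) (K := K) hr hrN hNres z hz (ValuationSubring.mem_comap.2 hz')
  have hres := fun (z' : Ideal (integralClosure (Algebra.adjoin R {T₀}) (FK K N)))
    (hz : z'.IsMaximal) hπz => b6d_res hπ T₀ z' hz hπz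
  have hperf := fun c : R => b6d_perf hπ hr.pos c
  have h9 := bq_b9 (K := K) hπ hr hrN h49
  have h7 := bq_b7 (K := K) hπ hr hrN
  have key := fun (z' : Ideal (integralClosure (Algebra.adjoin R {T₀}) (FK K N)))
    (hz' : z'.IsMaximal) hπz => bTop_local H hprime z' hπz
      (hreg z' hz' hπz) (hres z' hz' hπz) hperf hyF hyV hgen hdF hdV hdV' h9 h7 hd
  have hVV : (gaussVal R K (N * r)).comap
      (((wr K hr hrN).toRingEquiv : FK K (N * r) ≃+* FK K (N * r)) : FK K (N * r) →+* FK K (N * r))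
      = VV1 (K := K) R hr hrN := by
    ext x
    exact Iff.rfl
  constructor
  · intro z' hz' hπz
    obtain ⟨t, s, pF', pV', D, ⟨b, hb⟩, hth, hnode⟩ := key z' hz' hπz
    rw [hVV] at D
    refine ⟨t, s, pF', pV', D, fun hne => ?_⟩
    obtain ⟨hV, aF, haF, hF⟩ := hth (hnode hne) b hb
    refine ⟨aF, _, haF, ?_, ?_⟩
    · rw [hF]; exact Ideal.mem_span_singleton_self _
    · rw [hV]; exact Ideal.mem_span_singleton_self _
  · intro z' hz' hπz hJ
    obtain ⟨t, s, pF', pV', D, ⟨b, hb⟩, hth, -⟩ := key z' hz' hπz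
    obtain ⟨-, aF, haF, -⟩ := hth hJ b hb
    exact ⟨b, aF, hb, haF⟩

variable {s : K ≃ₐ[ℚ] K} {sR : R →+* R}

/-- **chart `tF`** : `L` and `hBTop` -/
theorem bq_tF [IsAlgClosed (ResidueField R)] (h : InvFrob ((r : ℕ) : R) r s sR)
    (hπ : Irreducible ((r : ℕ) : R)) (hr : r.Prime) (hrN : ¬ r ∣ N) (h49 : 4 ∣ N ∨ 9 ∣ N)
    (hN : IsUnit (N : R)) (a : ℕ) [NeZero a] (ha : a = 2 ∨ a = 3) (haN : a ∣ N)
    (hζN : ∃ z : K, IsPrimitiveRoot z N)
    [IsFractionRing (integralClosure (Algebra.adjoin R {tF K N a ha haN}) (FK K N)) (FK K N)] :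
    C.CLev1 (algebraMap R (integralClosure
      (Algebra.adjoin R {inclF K (dvd_mul_right N r) (tF K N a ha haN)}) (FK K (N * r)))
        ((r : ℕ) : R))
      (VF1 R K N r) (VV1 (K := K) R hr hrN) (C.cCen _ (VF1 R K N r))
      (C.cCen _ (VV1 (K := K) R hr hrN)) ∧
    BqTop R r ((r : ℕ) : R) (tF K N a ha haN) := by
  haveI := (finiteDimensional_tF K N a ha haN).1
  haveI : IsNoetherianRing (integralClosure (Algebra.adjoin R {tF K N a ha haN}) (FK K N)) :=
    x0_isNoetherianRing (K := K) (transcendental_tF K N a ha haN)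
  haveI := binst_isIntegrallyClosed_tF K R N a ha haN
  have key := bq_of_chart hπ hr hrN h49 (natCast_residueField_ne_zero_of_isUnit hN)
    (tF K N a ha haN) (b6e_hyp h hπ hr hrN hN a ha haN hζN).1
    (x0_prime (K := K) (V := gaussVal R K N) hπ (transcendental_tF K N a ha haN)
      (fun x => (x0_piInt_tF_iff N hπ hN a ha haN x).1) (fun x _ => x0_gauss_unif N hπ x)
      (x0_gauss_pi_inv N hπ)) (by
        intro z' hz' hπz
        obtain ⟨-, -, t, ht, hreg, -⟩ := x0_regular_tF N hπ hN a ha haN hζN z' hπz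
        exact ⟨t, ht, hreg⟩) (bq_dich a ha haN hN)
  exact ⟨bTop_L h hπ hr hrN hN a ha haN hζN key.1, key.2⟩

/-- **chart `tF⁻¹`** : `L` and `hBTop` -/
theorem bq_tF_inv [IsAlgClosed (ResidueField R)] (h : InvFrob ((r : ℕ) : R) r s sR)
    (hπ : Irreducible ((r : ℕ) : R)) (hr : r.Prime) (hrN : ¬ r ∣ N) (h49 : 4 ∣ N ∨ 9 ∣ N)
    (hN : IsUnit (N : R)) (a : ℕ) [NeZero a] (ha : a = 2 ∨ a = 3) (haN : a ∣ N)
    (hζN : ∃ z : K, IsPrimitiveRoot z N)
    [IsFractionRing (integralClosure (Algebra.adjoin R {(tF K N a ha haN)⁻¹}) (FK K N)) (FK K N)] :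
    C.CLev1 (algebraMap R (integralClosure
      (Algebra.adjoin R {inclF K (dvd_mul_right N r) (tF K N a ha haN)⁻¹}) (FK K (N * r)))
        ((r : ℕ) : R))
      (VF1 R K N r) (VV1 (K := K) R hr hrN) (C.cCen _ (VF1 R K N r))
      (C.cCen _ (VV1 (K := K) R hr hrN)) ∧
    BqTop R r ((r : ℕ) : R) (tF K N a ha haN)⁻¹ := by
  haveI := (finiteDimensional_tF K N a ha haN).2
  haveI : IsNoetherianRing (integralClosure (Algebra.adjoin R {(tF K N a ha haN)⁻¹}) (FK K N)) :=
    x0_isNoetherianRing (K := K) (binst_transcendental_tF_inv K N a ha haN)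
  haveI := binst_isIntegrallyClosed_tF_inv K R N a ha haN
  have key := bq_of_chart hπ hr hrN h49 (natCast_residueField_ne_zero_of_isUnit hN)
    (tF K N a ha haN)⁻¹ (b6e_hyp h hπ hr hrN hN a ha haN hζN).2
    (x0_prime (K := K) (V := gaussVal R K N) hπ (binst_transcendental_tF_inv K N a ha haN)
      (fun x => (x0_piInt_tF_iff N hπ hN a ha haN x).2) (fun x _ => x0_gauss_unif N hπ x)
      (x0_gauss_pi_inv N hπ)) (by
        intro z' hz' hπz
        obtain ⟨-, -, t, ht, hreg, -⟩ := x0_regular_tF_inv N hπ hN a ha haN hζN z' hπz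
        exact ⟨t, ht, hreg⟩) (bq_dich_inv a ha haN)
  exact ⟨bTop_L_inv h hπ hr hrN hN a ha haN hζN key.1, key.2⟩

end Fermat.Agent.CARlib
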