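import Fermat.Agent.CAR.V1Deg
import Fermat.Agent.S54lib.FrobExists
import Fermat.Agent.ES.M.NumField

/-!
# T-CAR, V1: (T0) over an ARBITRARY field `K ⊆ ℂ`: `1, j_r, …, j_r^r` span `F_K(N r)` over `F_K(N)`
(base change from `ℚ`, where T-UNI's `exists_eval₂_jr_eq` applies with `R = ℤ_(r)`).
-/

set_option autoImplicit false
set_option linter.unusedSectionVars false
set_option linter.style.haveILetI false

open ModularCurve Polynomial
open Fermat.Agent.S24lib Fermat.Agent.ESlib Fermat.Agent.UNIlib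

namespace Fermat.Agent.CARlib

noncomputable section

theorem v1g_mem_nonunits_iff {L : Type*} [Field L] (B : ValuationSubring L) {x : L} (hx : x ≠ 0) :
    x ∈ B.nonunits ↔ x⁻¹ ∉ B := by
  rw [ValuationSubring.mem_nonunits_iff, ← B.valuation_le_one_iff, not_le,
    B.valuation.one_lt_val_iff (inv_ne_zero hx), inv_inv]

/-- a discrete valuation ring of `ℚ` of residue characteristic `r` -/
theorem v1g_exists_dvr {r : ℕ} (hr : r.Prime) :
    ∃ R0 : ValuationSubring ℚ, IsDiscreteValuationRing R0 ∧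
      CharP (IsLocalRing.ResidueField R0) r := by
  obtain ⟨A, hA⟩ := Fermat.Agent.FrobExists.exists_liesOverPrime r hr
  let R0 : ValuationSubring ℚ := A.comap (algebraMap ℚ (AlgebraicClosure ℚ))
  have hr0 : (r : ℚ) ≠ 0 := by exact_mod_cast hr.ne_zero
  have hr0' : (r : AlgebraicClosure ℚ) ≠ 0 := by exact_mod_cast hr.ne_zero
  have hnon : (r : ℚ) ∈ R0.nonunits := by
    rw [v1g_mem_nonunits_iff _ hr0]
    intro h
    have h1 : algebraMap ℚ (AlgebraicClosure ℚ) ((r : ℚ)⁻¹) ∈ A := h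
    rw [map_inv₀, map_natCast] at h1
    exact (v1g_mem_nonunits_iff A hr0').1 hA h1
  refine ⟨R0, ?_, ?_⟩
  · refine isDiscreteValuationRing_of_dedekind (D := ℤ) R0 (fun d => ?_) ⟨(r : ℤ), ?_, ?_⟩
    · rw [eq_intCast]
      exact intCast_mem R0 d
    · exact_mod_cast hr.ne_zero
    · rw [eq_intCast, Int.cast_natCast]
      exact hnon
  · rw [CharP.charP_iff_prime_eq_zero hr]
    have h1 : ((r : ℕ) : R0) ∈ IsLocalRing.maximalIdeal R0 := by
      obtain ⟨h3, h4⟩ := ValuationSubring.mem_nonunits_iff_exists_mem_maximalIdeal.1 hnon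
      exact h4
    rw [← map_natCast (IsLocalRing.residue R0)]
    exact (IsLocalRing.residue_eq_zero_iff _).2 h1

variable {N r : ℕ} [NeZero N] [NeZero r] [NeZero (N * r)]

/-- (T0) over `ℚ` -/
theorem v1g_T0_rat (hr : r.Prime) (hrN : ¬ r ∣ N) (x : FK ℚ (N * r)) :
    ∃ c : (FK ℚ N)[X], c.natDegree ≤ r ∧ c.eval₂ (iF ℚ N r) (jr ℚ N r) = x := by
  obtain ⟨R0, h1, h2⟩ := v1g_exists_dvr hr
  have hN : (N : IsLocalRing.ResidueField R0) ≠ 0 := by
    rw [Ne, CharP.cast_eq_zero_iff (IsLocalRing.ResidueField R0) r]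
    exact hrN
  exact exists_eval₂_jr_eq R0 hr hrN hN x

variable (K : Type) [Field K] [Algebra ℚ K] [Algebra K ℂ] [IsScalarTower ℚ K ℂ]

theorem v1g_bc_comp_iF :
    (bc ℚ K (modularFunctionFieldFull (N * r))).comp (iF ℚ N r) =
      (iF K N r).comp (bc ℚ K (modularFunctionFieldFull N)) := by
  refine RingHom.ext fun x => Subtype.ext ?_
  rw [RingHom.comp_apply, RingHom.comp_apply, coe_bc, coe_iF, coe_iF, coe_bc]

/-- base change of a polynomial expression in `j_r` -/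
theorem v1g_bc_eval₂ (c : (FK ℚ N)[X]) :
    bc ℚ K (modularFunctionFieldFull (N * r)) (c.eval₂ (iF ℚ N r) (jr ℚ N r)) =
      (c.map (bc ℚ K (modularFunctionFieldFull N))).eval₂ (iF K N r) (jr K N r) := by
  have h := hom_eval₂ c (iF ℚ N r) (bc ℚ K (modularFunctionFieldFull (N * r))) (jr ℚ N r)
  rw [v1g_bc_comp_iF, bc_Jgen] at h
  rw [eval₂_map]
  exact h

/-- a monic polynomial of degree `r + 1` over `F_K(N)` which kills `j_r` -/
theorem v1g_exists_monic (hr : r.Prime) (hrN : ¬ r ∣ N) :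
    ∃ g : (FK K N)[X], g.Monic ∧ g.natDegree = r + 1 ∧ g.eval₂ (iF K N r) (jr K N r) = 0 := by
  obtain ⟨c, hdeg, hc⟩ := v1g_T0_rat hr hrN (jr ℚ N r ^ (r + 1))
  have hd : c.degree < ((r + 1 : ℕ) : WithBot ℕ) :=
    lt_of_le_of_lt (Polynomial.degree_le_of_natDegree_le hdeg) (by exact_mod_cast Nat.lt_succ_self r)
  have hmon : (X ^ (r + 1) - c).Monic := monic_X_pow_sub hd
  have hnd : (X ^ (r + 1) - c).natDegree = r + 1 := by
    rw [natDegree_sub_eq_left_of_natDegree_lt (by rw [natDegree_X_pow]; omega), natDegree_X_pow]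
  refine ⟨(X ^ (r + 1) - c).map (bc ℚ K (modularFunctionFieldFull N)), hmon.map _, ?_, ?_⟩
  · rw [hmon.natDegree_map, hnd]
  · rw [← v1g_bc_eval₂, eval₂_sub, eval₂_pow, eval₂_X, hc, sub_self, map_zero]

theorem v1g_exists_poly (hr : r.Prime) (hrN : ¬ r ∣ N) (x : FK K (N * r)) :
    ∃ p : (FK K N)[X], p.eval₂ (iF K N r) (jr K N r) = x := by
  obtain ⟨g, hmon, -, hgy⟩ := v1g_exists_monic K hr hrN
  have hx : x ∈ IntermediateField.adjoin K (Set.range (ESlib.Jgen K (N * r))) := by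
    rw [adjoin_range_JgenK]; exact IntermediateField.mem_top
  induction hx using IntermediateField.adjoin_induction with
  | mem x hx =>
    obtain ⟨d, rfl⟩ := hx
    obtain ⟨c, -, hc⟩ := v1g_T0_rat hr hrN (ESlib.Jgen ℚ (N * r) d)
    refine ⟨c.map (bc ℚ K (modularFunctionFieldFull N)), ?_⟩
    rw [← v1g_bc_eval₂, hc, bc_Jgen]
  | algebraMap a =>
    refine ⟨C (algebraMap K _ a), ?_⟩
    rw [eval₂_C, iF_apply, AlgHom.commutes]
  | add x y _ _ hx hy =>
    obtain ⟨p, rfl⟩ := hx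
    obtain ⟨q, rfl⟩ := hy
    exact ⟨p + q, eval₂_add _ _⟩
  | inv x _ hx =>
    obtain ⟨p, rfl⟩ := hx
    exact v1_exists_inv _ _ hmon hgy p
  | mul x y _ _ hx hy =>
    obtain ⟨p, rfl⟩ := hx
    obtain ⟨q, rfl⟩ := hy
    exact ⟨p * q, eval₂_mul _ _⟩

/-- **(T0) over an arbitrary `K`** -/
theorem v1g_T0 (hr : r.Prime) (hrN : ¬ r ∣ N) (x : FK K (N * r)) :
    ∃ c : (FK K N)[X], c.natDegree ≤ r ∧ c.eval₂ (iF K N r) (jr K N r) = x := by
  obtain ⟨g, hmon, hdeg, hgy⟩ := v1g_exists_monic K hr hrN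
  obtain ⟨p, rfl⟩ := v1g_exists_poly K hr hrN x
  obtain ⟨c, hc, hx⟩ := v1_exists_lt_of_monic _ _ hmon (by rw [hdeg]; omega) hgy p
  exact ⟨c, by omega, hx⟩

end

end Fermat.Agent.CARlib
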