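import Fermat.Agent.CAR.X0FK
import Fermat.Agent.CAR.V1T0

/-!
# T-CAR, block B: instances for the modular instantiation (`B₀`, `F₀ ⊆ F₁`)
-/

set_option autoImplicit false
set_option linter.unusedSectionVars false
set_option linter.style.haveILetI false

open Polynomial IntermediateField IsLocalRing
open Fermat.Agent.ESlib Fermat.Agent.UNIlib

namespace Fermat.Agent.CARlib

universe u

section gen

variable {R K L : Type u} [CommRing R] [IsDomain R] [IsDiscreteValuationRing R]
    [Field K] [Algebra R K] [IsFractionRing R K] [CharZero K] [Field L] [Algebra K L] [Algebra R L]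
    [IsScalarTower R K L]

/-- **b6a_frac** -/
theorem binst_isFractionRing {T : L} (hT : Transcendental K T) [FiniteDimensional K⟮T⟯ L] :
    IsFractionRing (integralClosure (Algebra.adjoin R {T}) L) L := by
  letI algK : Algebra R[X] K⟮T⟯ := polyAlgebra K T
  haveI : IsFractionRing R[X] K⟮T⟯ := isFractionRing_polyAlgebra hT
  letI algL : Algebra R[X] L := ((aeval T : R[X] →ₐ[R] L) : R[X] →+* L).toAlgebra
  haveI : IsScalarTower R[X] K⟮T⟯ L :=
    IsScalarTower.of_algebraMap_eq fun p => (polyAlgebra_algebraMap_coe T p).symm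
  letI algB : Algebra R[X] (BT R T) := (x0Poly T).toAlgebra
  haveI : IsScalarTower R[X] (BT R T) L := IsScalarTower.of_algebraMap_eq fun p => rfl
  haveI : IsIntegralClosure (BT R T) R[X] L :=
    { algebraMap_injective := Subtype.val_injective
      isIntegral_iff := by
        intro x
        constructor
        · intro hx
          exact ⟨⟨x, (isIntegral_adjoin_singleton_iff T x).2 hx⟩, rfl⟩
        · rintro ⟨y, rfl⟩
          exact (isIntegral_adjoin_singleton_iff T (y : L)).1 y.2 }
  exact IsIntegralClosure.isFractionRing_of_finite_extension R[X] K⟮T⟯ L (BT R T)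

/-- **b6a_normal** -/
theorem binst_isIntegrallyClosed {T : L} (hT : Transcendental K T) [FiniteDimensional K⟮T⟯ L] :
    IsIntegrallyClosed (integralClosure (Algebra.adjoin R {T}) L) := by
  haveI := binst_isFractionRing (R := R) hT
  rw [isIntegrallyClosed_iff L]
  intro x hx
  have h1 : IsIntegral (Algebra.adjoin R {T}) x := isIntegral_trans x hx
  exact ⟨⟨x, h1⟩, rfl⟩

end gen

section modular

variable (K : Type) [Field K] [Algebra ℚ K] [Algebra K ℂ] [IsScalarTower ℚ K ℂ]
variable {N r : ℕ} [NeZero N] [NeZero r] [NeZero (N * r)]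

/-- `F_K(N r)` is finite over `F_K(N)` (spanned by `1, j_r, …, j_r^r`) -/
theorem binst_finiteDimensional (hr : r.Prime) (hrN : ¬ r ∣ N) :
    letI : Algebra (FK K N) (FK K (N * r)) := (oldI K N r).toAlgebra
    FiniteDimensional (FK K N) (FK K (N * r)) := by
  letI : Algebra (FK K N) (FK K (N * r)) := (oldI K N r).toAlgebra
  classical
  refine ⟨⟨(Finset.range (r + 1)).image (fun i => jr K N r ^ i), ?_⟩⟩
  rw [eq_top_iff]
  intro x _
  obtain ⟨c, hc, rfl⟩ := v1g_T0 K hr hrN x
  rw [eval₂_eq_sum_range' _ (n := r + 1) (by omega)]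
  refine Submodule.sum_mem _ fun i hi => ?_
  have h1 : (iF K N r) (c.coeff i) * jr K N r ^ i = c.coeff i • jr K N r ^ i :=
    (Algebra.smul_def _ _).symm
  rw [h1]
  refine Submodule.smul_mem _ _ (Submodule.subset_span ?_)
  rw [Finset.coe_image]
  exact ⟨i, hi, rfl⟩

theorem binst_charZero (M : ℕ) [NeZero M] [CharZero K] : CharZero (FK K M) :=
  charZero_of_injective_algebraMap (algebraMap K (FK K M)).injective

theorem binst_isSeparable [CharZero K] (hr : r.Prime) (hrN : ¬ r ∣ N) :
    letI : Algebra (FK K N) (FK K (N * r)) := (oldI K N r).toAlgebra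
    Algebra.IsSeparable (FK K N) (FK K (N * r)) := by
  letI : Algebra (FK K N) (FK K (N * r)) := (oldI K N r).toAlgebra
  haveI := binst_finiteDimensional K hr hrN
  haveI := binst_charZero K N
  infer_instance

theorem binst_isScalarTower_K :
    letI : Algebra (FK K N) (FK K (N * r)) := (oldI K N r).toAlgebra
    IsScalarTower K (FK K N) (FK K (N * r)) := by
  letI : Algebra (FK K N) (FK K (N * r)) := (oldI K N r).toAlgebra
  refine IsScalarTower.of_algebraMap_eq fun x => ?_
  exact ((inclF K (dvd_mul_right N r)).commutes x).symm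

theorem binst_isScalarTower (R : Type) [CommRing R] [Algebra R K]
    [Algebra R (FK K N)] [IsScalarTower R K (FK K N)]
    [Algebra R (FK K (N * r))] [IsScalarTower R K (FK K (N * r))] :
    letI : Algebra (FK K N) (FK K (N * r)) := (oldI K N r).toAlgebra
    IsScalarTower R (FK K N) (FK K (N * r)) := by
  letI : Algebra (FK K N) (FK K (N * r)) := (oldI K N r).toAlgebra
  refine IsScalarTower.of_algebraMap_eq fun x => ?_
  rw [IsScalarTower.algebraMap_apply R K (FK K (N * r)), IsScalarTower.algebraMap_apply R K (FK K N)]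
  exact ((inclF K (dvd_mul_right N r)).commutes _).symm

section chart

variable [CharZero K] (R : Type) [CommRing R] [IsDomain R] [IsDiscreteValuationRing R]
  [Algebra R K] [IsFractionRing R K] (M : ℕ) [NeZero M]
  [Algebra R (FK K M)] [IsScalarTower R K (FK K M)]
  (a : ℕ) [NeZero a] (ha : a = 2 ∨ a = 3) (haM : a ∣ M)

theorem binst_transcendental_tF_inv : Transcendental K (tF K M a ha haM)⁻¹ := by
  intro h
  have h1 : IsAlgebraic K ((tF K M a ha haM)⁻¹)⁻¹ := h.inv
  rw [inv_inv] at h1
  exact transcendental_tF K M a ha haM h1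

theorem binst_isFractionRing_tF :
    IsFractionRing (integralClosure (Algebra.adjoin R {tF K M a ha haM}) (FK K M)) (FK K M) := by
  haveI := (finiteDimensional_tF K M a ha haM).1
  exact binst_isFractionRing (transcendental_tF K M a ha haM)

theorem binst_isFractionRing_tF_inv :
    IsFractionRing (integralClosure (Algebra.adjoin R {(tF K M a ha haM)⁻¹}) (FK K M))
      (FK K M) := by
  haveI := (finiteDimensional_tF K M a ha haM).2
  exact binst_isFractionRing (binst_transcendental_tF_inv K M a ha haM)

theorem binst_isIntegrallyClosed_tF :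
    IsIntegrallyClosed (integralClosure (Algebra.adjoin R {tF K M a ha haM}) (FK K M)) := by
  haveI := (finiteDimensional_tF K M a ha haM).1
  exact binst_isIntegrallyClosed (K := K) (transcendental_tF K M a ha haM)

theorem binst_isIntegrallyClosed_tF_inv :
    IsIntegrallyClosed (integralClosure (Algebra.adjoin R {(tF K M a ha haM)⁻¹}) (FK K M)) := by
  haveI := (finiteDimensional_tF K M a ha haM).2
  exact binst_isIntegrallyClosed (K := K) (binst_transcendental_tF_inv K M a ha haM)

end chart

end modular

end Fermat.Agent.CARlib
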