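import Fermat.Agent.UNI.TwoVal
import Fermat.Agent.UNI.TwoValPi
import Fermat.Agent.UNI.NodeLevel

/-!
# T-CAR, block B: the inputs `hyF`, `hyV`, `hgen`, `hFV` of `BData.thick_of_gen` in the modular frame

`F₀ = F_K(N)`, `F₁ = F_K(N r)` (algebra structure `oldI`), `y = j_r`, `VF` = Gauss valuation ring,
`VV = VF.comap w_r`.
-/

set_option autoImplicit false
set_option linter.unusedSectionVars false
set_option linter.style.haveILetI false

open ModularCurve Polynomial

namespace Fermat.Agent.CARlib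

open Fermat.Agent.ESlib Fermat.Agent.UNIlib

noncomputable section

variable {R K : Type} [CommRing R] [IsDomain R] [IsDiscreteValuationRing R] [Field K] [Algebra R K]
  [IsFractionRing R K] [CharZero K] [Algebra ℚ K] [Algebra K ℂ] [IsScalarTower ℚ K ℂ]
  {N r : ℕ} [NeZero N] [NeZero r] [NeZero (N * r)]

/-- `j_r ∈ VF` -/
theorem btg_hyF : jr K N r ∈ gaussVal R K (N * r) := Jgen_mem_gaussSub _

/-- `j_r ∈ VV` -/
theorem btg_hyV (hr : r.Prime) (hrN : ¬ r ∣ N) :
    jr K N r ∈ (gaussVal R K (N * r)).comap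
      ((wr K hr hrN).toRingEquiv : FK K (N * r) →+* FK K (N * r)) := by
  show wr K hr hrN (jr K N r) ∈ gaussSub R K (N * r)
  rw [wr_jr]
  exact Jgen_mem_gaussSub _

/-- `V_F ∩ V_V = ⊕ gaussSub(N) j_r ^ i`, polynomial form -/
theorem btg_hgen [CharP (IsLocalRing.ResidueField R) r] (hr : r.Prime) (hrN : ¬ r ∣ N)
    (hN : (N : IsLocalRing.ResidueField R) ≠ 0) :
    letI : Algebra (FK K N) (FK K (N * r)) := (oldI K N r).toAlgebra
    ∀ z ∈ gaussVal R K (N * r), z ∈ (gaussVal R K (N * r)).comap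
        ((wr K hr hrN).toRingEquiv : FK K (N * r) →+* FK K (N * r)) →
      ∃ P : (FK K N)[X], (∀ i, algebraMap (FK K N) (FK K (N * r)) (P.coeff i) ∈
        gaussVal R K (N * r)) ∧ aeval (jr K N r) P = z := by
  letI : Algebra (FK K N) (FK K (N * r)) := (oldI K N r).toAlgebra
  intro z hz1 hz2
  obtain ⟨c, hdeg, rfl⟩ := exists_eval₂_jr_eq R hr hrN hN z
  refine ⟨c, fun i => ?_, rfl⟩
  exact oldI_mem_gaussSub_iff.2 (coeff_mem_gaussSub_of_eval₂ hr hrN c hdeg hz1 hz2 i)

end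

end Fermat.Agent.CARlib
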