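import Fermat.Agent.CAR.V3DiffZ
import Fermat.Agent.UNI.TwoVal
import Fermat.Agent.UNI.NewtonPhi
import Fermat.Agent.UNI.GaussVal

/-!
# T-CAR, row V3 (DIFF), level one: `F₀ = F_K(N)`, `F₁ = F_K(N r)`

`θ_j := Φ_X(j_r, j)` (`= g'(j_r)`, `g = minpoly F₀ j_r = Φ(X, j)`).
`V_F(θ_j) = 0` and `V_V(θ_j) = V_F(w_r θ_j) = V_F(r)`.
-/

set_option autoImplicit false
set_option linter.unusedSectionVars false

open ModularCurve Polynomial
open Fermat.Agent.S28lib (ev2 evY jA jAd)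

namespace Fermat.Agent.CARlib

open Fermat.Agent.UNIlib Fermat.Agent.ESlib

noncomputable section

/-- `evZ` commutes with ring homomorphisms -/
theorem v3_map_evZ {F F' : Type*} [Field F] [Field F'] (σ : F →+* F') (P : ℤ[X][X]) (x y : F) :
    σ (evZ P x y) = evZ P (σ x) (σ y) := by
  unfold evZ
  rw [hom_eval₂]
  congr 1
  apply Polynomial.ringHom_ext'
  · exact RingHom.ext_int _ _
  · simp

variable {R K : Type} [CommRing R] [IsDomain R] [IsDiscreteValuationRing R] [Field K]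
  [Algebra R K] [IsFractionRing R K] [Algebra ℚ K] [Algebra K ℂ] [IsScalarTower ℚ K ℂ]
  {N r : ℕ} [NeZero N] [NeZero r] [NeZero (N * r)]

/-- `q`-expansion of `P(x, y)`, `P ∈ ℤ[Y][X]` -/
theorem v3_coe_evZ {M : ℕ} [NeZero M] (P : ℤ[X][X]) {x y : FK K M} {X' Y' : LaurentSeries ℤ}
    (hx : (x : LaurentSeries K) = coeffMap (Int.castRingHom K) X')
    (hy : (y : LaurentSeries K) = coeffMap (Int.castRingHom K) Y') :
    ((evZ P x y : FK K M) : LaurentSeries K) = coeffMap (Int.castRingHom K) (ev2 P X' Y') := by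
  have h1 : ((evZ P x y : FK K M) : LaurentSeries K) =
      algebraMap (FK K M) (LaurentSeries K) (evZ P x y) := rfl
  rw [h1]
  unfold evZ ev2
  rw [hom_eval₂, hom_eval₂]
  have h2 : algebraMap (FK K M) (LaurentSeries K) x = coeffMap (Int.castRingHom K) X' := hx
  rw [h2]
  congr 1
  apply Polynomial.ringHom_ext'
  · exact RingHom.ext_int _ _
  · simp only [RingHom.comp_apply, RingHom.coe_coe, aeval_X, S28lib.evY_X]
    exact hy

theorem v3_coe_R (Z : LaurentSeries ℤ) :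
    coeffMap (Int.castRingHom K) Z =
      coeffMap (algebraMap R K) (coeffMap (Int.castRingHom R) Z) := by
  rw [coeffMap_coeffMap]
  exact coeffMap_congr (RingHom.ext_int _ _) _

theorem v3_coe_jr : ((jr K N r : FK K (N * r)) : LaurentSeries K) =
    coeffMap (Int.castRingHom K) (jAd ℤ r) := by
  rw [coe_Jgen_jAd, S28lib.coeffMap_jAd]

theorem v3_coe_J1 (M : ℕ) [NeZero M] : ((J1 K M : FK K M) : LaurentSeries K) =
    coeffMap (Int.castRingHom K) (jA ℤ) := by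
  rw [coe_J1_jA, S28lib.coeffMap_jA]

variable (K N r) in
/-- `θ_j = Φ_X(j_r, j) ∈ F_K(N r)` -/
def v3Theta (Φ : ℤ[X][X]) : FK K (N * r) := evZ (derivative Φ) (jr K N r) (J1 K (N * r))

theorem v3_wr_J1 (hr : r.Prime) (hrN : ¬ r ∣ N) : wr K hr hrN (J1 K (N * r)) = jr K N r := by
  rw [← wr_jr hr hrN, wr_wr]

theorem v3_wr_theta (hr : r.Prime) (hrN : ¬ r ∣ N) (Φ : ℤ[X][X]) :
    wr K hr hrN (v3Theta K N r Φ) = evZ (derivative Φ) (J1 K (N * r)) (jr K N r) := by
  have h := v3_map_evZ ((wr K hr hrN).toAlgHom.toRingHom) (derivative Φ) (jr K N r) (J1 K (N * r))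
  have h1 : (wr K hr hrN).toAlgHom.toRingHom (jr K N r) = J1 K (N * r) := wr_jr hr hrN
  have h2 : (wr K hr hrN).toAlgHom.toRingHom (J1 K (N * r)) = jr K N r := v3_wr_J1 hr hrN
  rw [h1, h2] at h
  exact h

variable {Φ : ℤ[X][X]}

theorem v3_coe_theta (Φ : ℤ[X][X]) : ((v3Theta K N r Φ : FK K (N * r)) : LaurentSeries K) =
    coeffMap (Int.castRingHom K) (ev2 (derivative Φ) (jAd ℤ r) (jA ℤ)) :=
  v3_coe_evZ _ v3_coe_jr (v3_coe_J1 _)

/-- **DIFF (F)**: `θ_j` is a unit of the Gauss ring `V_F` -/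
theorem v3_theta_mem (Φ : ℤ[X][X]) : v3Theta K N r Φ ∈ gaussSub R K (N * r) :=
  mem_gaussSub_of_eq_coeffMap _ (by rw [v3_coe_theta, v3_coe_R (R := R)])

theorem v3_theta_inv_mem (hr : r.Prime) (hΦ : V3Phi r Φ) :
    (v3Theta K N r Φ)⁻¹ ∈ gaussSub R K (N * r) := by
  refine inv_mem_gaussSub_of_eq_coeffMap _ (by rw [v3_coe_theta, v3_coe_R (R := R)]) ?_
  intro h
  have h1 := congrArg (fun x => HahnSeries.coeff x (-((r : ℤ) * r))) h
  simp only [coeffMap_coeff, v3_diffF_Z hr hΦ, HahnSeries.coeff_zero, map_one] at h1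
  exact one_ne_zero h1

/-- the `q`-expansion of `w_r (θ_j / r)` is a primitive integral series -/
theorem v3_exists_coe_wr (hr : r.Prime) (hrN : ¬ r ∣ N) (hΦ : V3Phi r Φ) :
    ∃ U : LaurentSeries ℤ, U.coeff (-((r : ℤ) * r + r - 1)) = -1 ∧
      ((wr K hr hrN (v3Theta K N r Φ / (r : FK K (N * r))) : FK K (N * r)) : LaurentSeries K) =
        coeffMap (Int.castRingHom K) U := by
  obtain ⟨U, hU, hc⟩ := v3_diffV_Z hr hΦ
  refine ⟨U, hc, ?_⟩
  have hchar : CharZero K := algebraRat.charZero K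
  have hrK : (r : K) ≠ 0 := Nat.cast_ne_zero.2 hr.ne_zero
  have h1 : ((evZ (derivative Φ) (J1 K (N * r)) (jr K N r) : FK K (N * r)) : LaurentSeries K) =
      coeffMap (Int.castRingHom K) (ev2 (derivative Φ) (jA ℤ) (jAd ℤ r)) :=
    v3_coe_evZ _ (v3_coe_J1 _) v3_coe_jr
  rw [hU, map_mul, S28lib.coeffMap_C] at h1
  rw [map_div₀, map_natCast, v3_wr_theta]
  have h2 : ((evZ (derivative Φ) (J1 K (N * r)) (jr K N r) / (r : FK K (N * r)) : FK K (N * r)) :
      LaurentSeries K) =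
      ((evZ (derivative Φ) (J1 K (N * r)) (jr K N r) : FK K (N * r)) : LaurentSeries K) /
        ((r : FK K (N * r)) : LaurentSeries K) := rfl
  have h3 : (((r : FK K (N * r)) : FK K (N * r)) : LaurentSeries K) = HahnSeries.C (r : K) := by
    have : (((r : FK K (N * r)) : FK K (N * r)) : LaurentSeries K) =
      algebraMap (FK K (N * r)) (LaurentSeries K) (r : FK K (N * r)) := rfl
    rw [this, map_natCast, map_natCast]
  have h4 : (HahnSeries.C (r : K) : LaurentSeries K) ≠ 0 := by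
    rw [Ne, map_eq_zero_iff _ HahnSeries.C_injective]
    exact hrK
  rw [h2, h1, h3]
  simp only [eq_intCast, Int.cast_natCast]
  rw [mul_div_cancel_left₀ _ h4]

/-- **DIFF (V)**: `w_r θ_j / r` is a unit of the Gauss ring, i.e. `V_V(θ_j) = V_V(r)` -/
theorem v3_wr_theta_div_mem (hr : r.Prime) (hrN : ¬ r ∣ N) (hΦ : V3Phi r Φ) :
    wr K hr hrN (v3Theta K N r Φ / (r : FK K (N * r))) ∈ gaussSub R K (N * r) := by
  obtain ⟨U, _, hU⟩ := v3_exists_coe_wr (K := K) (N := N) hr hrN hΦ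
  exact mem_gaussSub_of_eq_coeffMap _ (by rw [hU, v3_coe_R (R := R)])

theorem v3_wr_div_theta_mem (hr : r.Prime) (hrN : ¬ r ∣ N) (hΦ : V3Phi r Φ) :
    wr K hr hrN ((r : FK K (N * r)) / v3Theta K N r Φ) ∈ gaussSub R K (N * r) := by
  obtain ⟨U, hc, hU⟩ := v3_exists_coe_wr (K := K) (N := N) hr hrN hΦ
  have h1 : wr K hr hrN ((r : FK K (N * r)) / v3Theta K N r Φ) =
      (wr K hr hrN (v3Theta K N r Φ / (r : FK K (N * r))))⁻¹ := by
    rw [← map_inv₀, inv_div]
  rw [h1]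
  refine inv_mem_gaussSub_of_eq_coeffMap _ (by rw [hU, v3_coe_R (R := R)]) ?_
  intro h
  have h1 := congrArg (fun x => HahnSeries.coeff x (-((r : ℤ) * r + r - 1))) h
  simp only [coeffMap_coeff, hc, HahnSeries.coeff_zero, map_one, map_neg, neg_eq_zero] at h1
  exact one_ne_zero h1

variable (K N) in
/-- `Φ(X, j) ∈ F_K(N)[X]` -/
def v3PhiJ (Φ : ℤ[X][X]) : (FK K N)[X] :=
  Φ.map ((aeval (J1 K N) : ℤ[X] →ₐ[ℤ] FK K N) : ℤ[X] →+* FK K N)

theorem v3_iF_J1 : iF K N r (J1 K N) = J1 K (N * r) := by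
  apply Subtype.ext
  rw [coe_iF, coe_J1_jA, coe_J1_jA]

theorem v3_eval₂_PhiJ (P : ℤ[X][X]) :
    (v3PhiJ K N P).eval₂ (iF K N r) (jr K N r) = evZ P (jr K N r) (J1 K (N * r)) := by
  unfold v3PhiJ evZ
  rw [eval₂_map]
  congr 1
  apply Polynomial.ringHom_ext'
  · exact RingHom.ext_int _ _
  · simp only [RingHom.comp_apply, RingHom.coe_coe, aeval_X]
    exact v3_iF_J1

theorem v3_evZ_Phi_eq_zero (hΦ : V3Phi r Φ) : evZ Φ (jr K N r) (J1 K (N * r)) = 0 := by
  apply Subtype.ext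
  rw [v3_coe_evZ Φ v3_coe_jr (v3_coe_J1 _), hΦ.ev₁, map_zero]
  rfl

/-- `Φ(X, j)` is the minimal polynomial of `j_r` over `F_K(N)` -/
theorem v3_minpoly_jr (R : Type) [CommRing R] [IsDomain R] [IsDiscreteValuationRing R]
    [Algebra R K] [IsFractionRing R K] [CharP (IsLocalRing.ResidueField R) r]
    [Algebra (FK K N) (FK K (N * r))]
    (halg : algebraMap (FK K N) (FK K (N * r)) = iF K N r) (hr : r.Prime) (hrN : ¬ r ∣ N)
    (hΦ : V3Phi r Φ) : minpoly (FK K N) (jr K N r) = v3PhiJ K N Φ := by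
  have hm : (v3PhiJ K N Φ).Monic := hΦ.monic.map _
  have hd : (v3PhiJ K N Φ).natDegree = r + 1 := by
    rw [v3PhiJ, hΦ.monic.natDegree_map, hΦ.natDegree]
  symm
  refine minpoly.unique _ _ hm ?_ ?_
  · rw [aeval_def, halg, v3_eval₂_PhiJ, v3_evZ_Phi_eq_zero hΦ]
  · intro q hq hq0
    by_contra hlt
    rw [not_le] at hlt
    have h1 : q.natDegree < (v3PhiJ K N Φ).natDegree := natDegree_lt_natDegree hq.ne_zero hlt
    rw [hd] at h1
    rw [aeval_def, halg] at hq0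
    exact hq.ne_zero (eq_zero_of_eval₂_jr R hr hrN q (by omega) hq0)

theorem v3_aeval_derivative_minpoly (R : Type) [CommRing R] [IsDomain R]
    [IsDiscreteValuationRing R]
    [Algebra R K] [IsFractionRing R K] [CharP (IsLocalRing.ResidueField R) r]
    [Algebra (FK K N) (FK K (N * r))]
    (halg : algebraMap (FK K N) (FK K (N * r)) = iF K N r) (hr : r.Prime) (hrN : ¬ r ∣ N)
    (hΦ : V3Phi r Φ) :
    aeval (jr K N r) (derivative (minpoly (FK K N) (jr K N r))) = v3Theta K N r Φ := by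
  rw [v3_minpoly_jr R halg hr hrN hΦ, aeval_def, halg]
  have : derivative (v3PhiJ K N Φ) = v3PhiJ K N (derivative Φ) := by
    unfold v3PhiJ
    rw [derivative_map]
  rw [this, v3_eval₂_PhiJ]
  rfl

/-- **DIFF**, in the shape of `b4_theta` (`VF = gaussVal`, `VV = VF.comap w_r`, `y = j_r`) -/
theorem v3_diff [CharP (IsLocalRing.ResidueField R) r] [Algebra (FK K N) (FK K (N * r))]
    (halg : algebraMap (FK K N) (FK K (N * r)) = iF K N r) (hr : r.Prime) (hrN : ¬ r ∣ N)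
    {π : FK K (N * r)} (hπ : π / (r : FK K (N * r)) ∈ gaussSub R K (N * r))
    (hπ' : (r : FK K (N * r)) / π ∈ gaussSub R K (N * r)) (hwπ : wr K hr hrN π = π) :
    (aeval (jr K N r) (derivative (minpoly (FK K N) (jr K N r))))⁻¹ ∈ gaussSub R K (N * r) ∧
    wr K hr hrN (aeval (jr K N r) (derivative (minpoly (FK K N) (jr K N r))) / π) ∈
      gaussSub R K (N * r) ∧
    wr K hr hrN (π / aeval (jr K N r) (derivative (minpoly (FK K N) (jr K N r)))) ∈
      gaussSub R K (N * r) := by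
  obtain ⟨Φ, hΦ, -⟩ := v3_exists_Phi hr
  have hchar : CharZero K := algebraRat.charZero K
  have hr0 : (r : FK K (N * r)) ≠ 0 := Nat.cast_ne_zero.2 hr.ne_zero
  rw [v3_aeval_derivative_minpoly R halg hr hrN hΦ]
  refine ⟨v3_theta_inv_mem hr hΦ, ?_, ?_⟩
  · have h1 : v3Theta K N r Φ / π = v3Theta K N r Φ / (r : FK K (N * r)) * ((r : FK K (N * r)) / π) := by
      rw [div_mul_div_cancel₀ hr0]
    rw [h1, map_mul, map_div₀ _ (r : FK K (N * r)) π, map_natCast, hwπ]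
    exact mul_mem (v3_wr_theta_div_mem hr hrN hΦ) hπ'
  · have h1 : π / v3Theta K N r Φ = π / (r : FK K (N * r)) * ((r : FK K (N * r)) / v3Theta K N r Φ) := by
      rw [div_mul_div_cancel₀ hr0]
    rw [h1, map_mul, map_div₀ _ π (r : FK K (N * r)), map_natCast, hwπ]
    exact mul_mem hπ (v3_wr_div_theta_mem hr hrN hΦ)

end

end Fermat.Agent.CARlib
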