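import Fermat.Agent.CAR.BTopMid
import Fermat.Agent.CAR.BTopGen
import Fermat.Agent.CAR.BInstFK
import Fermat.Agent.CAR.B6e
import Fermat.Agent.CAR.B6d
import Fermat.Agent.CAR.B7Conc
import Fermat.Agent.CAR.B9Norm
import Fermat.Agent.CAR.V3Diff
import Fermat.Agent.CAR.X0FK
import Fermat.Agent.CAR.VDefs
import Fermat.Agent.CAR.CInst

/-!
# T-CAR, block B: modular instantiation of `bTop_local` / `bTop_cLev1` (both charts)
-/

set_option autoImplicit false
set_option linter.unusedSectionVars false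
set_option linter.unusedVariables false
set_option linter.style.haveILetI false

open ModularCurve Polynomial IsLocalRing

namespace Fermat.Agent.CARlib

open Fermat.Agent.ESlib Fermat.Agent.UNIlib

variable {R K : Type} [CommRing R] [IsDomain R] [IsDiscreteValuationRing R] [Field K] [Algebra R K]
  [IsFractionRing R K] [CharZero K] [Algebra ℚ K] [Algebra K ℂ] [IsScalarTower ℚ K ℂ]
  [Algebra R ℂ] [IsScalarTower R K ℂ] {N r : ℕ} [NeZero N] [NeZero r] [NeZero (N * r)]
  [Algebra R (FK K N)] [IsScalarTower R K (FK K N)]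
  [Algebra R (FK K (N * r))] [IsScalarTower R K (FK K (N * r))]
  [CharP (IsLocalRing.ResidueField R) r]
  {π : R}

theorem bq_b9 (hπ : Irreducible π) (hr : r.Prime) (hrN : ¬ r ∣ N) (h49 : 4 ∣ N ∨ 9 ∣ N) :
    letI : Algebra (FK K N) (FK K (N * r)) := (oldI K N r).toAlgebra
    B9Prov R (FK K (N * r)) π (J1 K N) := by
  letI : Algebra (FK K N) (FK K (N * r)) := (oldI K N r).toAlgebra
  haveI := binst_finiteDimensional K hr hrN
  haveI := binst_isSeparable K hr hrN
  intro O₀ S₁ _ _ _ _ _ _ _ _ _ _ _ _ _ _ _ hp hJ b hb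
  exact b9_hint K (dvd_mul_right N r) h49 (fun f => rfl) hp (fun c => b9_hK hπ c) hJ hb

theorem bq_oldI_J1 : oldI K N r (J1 K N) = J1 K (N * r) := by
  apply Subtype.ext
  rw [coe_oldI]
  rfl

theorem bq_b7 (hπ : Irreducible π) (hr : r.Prime) (hrN : ¬ r ∣ N) :
    letI : Algebra (FK K N) (FK K (N * r)) := (oldI K N r).toAlgebra
    B7Prov R π (J1 K N) (gaussVal R K (N * r)) (wr K hr hrN).toRingEquiv := by
  letI : Algebra (FK K N) (FK K (N * r)) := (oldI K N r).toAlgebra
  intro O₀ S₁ _ _ _ _ _ _ _ _ pF pV hpF hpV c hc hcJ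
  refine b7_cusp hπ hr hrN hpF hpV c hc ?_
  rw [hcJ]
  exact congrArg (·⁻¹) bq_oldI_J1

theorem bq_dich (a : ℕ) [NeZero a] (ha : a = 2 ∨ a = 3) (haN : a ∣ N) (hN : IsUnit (N : R)) :
    B7Dich R (tF K N a ha haN) (J1 K N) := by
  intro O _ _ _ _ _ T' hT'
  have haR : IsUnit (a : R) := by
    obtain ⟨k, rfl⟩ := haN
    rw [Nat.cast_mul] at hN
    exact isUnit_of_mul_isUnit_left hN
  have hu : IsUnit (a : O) := by
    have := haR.map (algebraMap R O)
    rwa [map_natCast] at this
  exact b7_dich_tF a ha haN hu T' hT'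

theorem bq_dich_inv (a : ℕ) [NeZero a] (ha : a = 2 ∨ a = 3) (haN : a ∣ N) :
    B7Dich R (tF K N a ha haN)⁻¹ (J1 K N) := by
  intro O _ _ _ _ _ T' hT'
  exact b7_dich_tF_inv a ha haN T' hT'

/-- the three differents inputs, `π = r` -/
theorem bq_diff (hr : r.Prime) (hrN : ¬ r ∣ N) :
    letI : Algebra (FK K N) (FK K (N * r)) := (oldI K N r).toAlgebra
    (aeval (jr K N r) (derivative (minpoly (FK K N) (jr K N r))))⁻¹ ∈ gaussVal R K (N * r) ∧
    (wr K hr hrN).toRingEquiv (aeval (jr K N r) (derivative (minpoly (FK K N) (jr K N r))) /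
      algebraMap R (FK K (N * r)) ((r : ℕ) : R)) ∈ gaussVal R K (N * r) ∧
    (wr K hr hrN).toRingEquiv (algebraMap R (FK K (N * r)) ((r : ℕ) : R) /
      aeval (jr K N r) (derivative (minpoly (FK K N) (jr K N r)))) ∈ gaussVal R K (N * r) := by
  letI : Algebra (FK K N) (FK K (N * r)) := (oldI K N r).toAlgebra
  have hr0 : (r : FK K (N * r)) ≠ 0 := by
    haveI := binst_charZero K (N * r)
    exact Nat.cast_ne_zero.2 hr.ne_zero
  have h := v3_diff (R := R) (K := K) (N := N) (r := r) rfl hr hrN (π := (r : FK K (N * r)))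
    (by rw [div_self hr0]; exact (gaussSub R K (N * r)).one_mem)
    (by rw [div_self hr0]; exact (gaussSub R K (N * r)).one_mem) (map_natCast _ _)
  rw [map_natCast]
  exact h

/-- the statement `hBTop` consumed by block C (row CHmid) -/
def BqTop (R : Type) {K : Type} [CommRing R] [Field K] [Algebra ℚ K] {N : ℕ} (r : ℕ) [NeZero N]
    [NeZero (N * r)] [Algebra R (FK K N)] (π : R) (T₀ : FK K N)
    [IsFractionRing (integralClosure (Algebra.adjoin R {T₀}) (FK K N)) (FK K N)] : Prop :=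
  letI : Algebra (FK K N) (FK K (N * r)) := (oldI K N r).toAlgebra
  ∀ (z' : Ideal (integralClosure (Algebra.adjoin R {T₀}) (FK K N))) [z'.IsMaximal],
    algebraMap R (integralClosure (Algebra.adjoin R {T₀}) (FK K N)) π ∈ z' →
    (∃ c : C.CO₀ (FK K N) z', algebraMap (C.CO₀ (FK K N) z') (FK K N) c = J1 K N) →
    ∃ b aF : C.CS₁ (FK K N) (FK K (N * r)) z',
      Algebra.adjoin (C.CO₀ (FK K N) z') {b} = ⊤ ∧
      aF * aeval b (derivative (minpoly (C.CO₀ (FK K N) z') b)) =
        algebraMap (C.CO₀ (FK K N) z') (C.CS₁ (FK K N) (FK K (N * r)) z')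
          (algebraMap (integralClosure (Algebra.adjoin R {T₀}) (FK K N)) (C.CO₀ (FK K N) z')
            (algebraMap R (integralClosure (Algebra.adjoin R {T₀}) (FK K N)) π))

end Fermat.Agent.CARlib
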