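import Fermat.Agent.CAR.BGam
import Fermat.Agent.S54lib.FrobExists

/-!
# T-CAR, row D4 = BGam, part 2: the inverse Frobenius of `K = inF A` (fixed field of inertia)

* `bgam_exists_res` : an automorphism `σ` of `ℚ̄` with `σ K = K` restricts to `K`;
* `bgam_invFrob` : `K` any intermediate field, `τ = φ⁻¹ | K`, `φ` a Frobenius element at `A`
  ⇒ `InvFrob π r τ (bgamRA ..)` over `R = RA A K`;
* `bgam_exists_invFrob_inF` : the case `K = inF A`.
-/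

set_option autoImplicit false
set_option linter.unusedSectionVars false

open ModularCurve
open scoped Pointwise

namespace Fermat.Agent.CARlib

open Fermat.Agent.ESlib Fermat.Agent.UNIlib
open Fermat.Agent.S24lib (Dv Kb)

noncomputable section

/-- restriction of `σ` to a stable intermediate field -/
theorem bgam_exists_res (K : IntermediateField ℚ Kb) (σ : Kb ≃ₐ[ℚ] Kb)
    (h1 : ∀ x ∈ K, σ x ∈ K) (h2 : ∀ x ∈ K, σ⁻¹ x ∈ K) :
    ∃ τ : K ≃ₐ[ℚ] K, ∀ a : K, ((τ a : K) : Kb) = σ (a : Kb) := by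
  let f : K →ₐ[ℚ] K := ((σ : Kb →ₐ[ℚ] Kb).comp K.val).codRestrict K.toSubalgebra
    (fun x => h1 _ x.2)
  let g : K →ₐ[ℚ] K := (((σ⁻¹ : Kb ≃ₐ[ℚ] Kb) : Kb →ₐ[ℚ] Kb).comp K.val).codRestrict K.toSubalgebra
    (fun x => h2 _ x.2)
  refine ⟨AlgEquiv.ofAlgHom f g ?_ ?_, fun a => rfl⟩
  · ext a
    show σ (σ⁻¹ (a : Kb)) = a
    rw [← AlgEquiv.mul_apply, mul_inv_cancel, AlgEquiv.one_apply]
  · ext a
    show σ⁻¹ (σ (a : Kb)) = a
    rw [← AlgEquiv.mul_apply, inv_mul_cancel, AlgEquiv.one_apply]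

section general

variable (A : ValuationSubring Kb) (K : IntermediateField ℚ Kb)

theorem bgam_res_mem_RA {σ : Kb ≃ₐ[ℚ] Kb} (hσ : σ ∈ A.decompositionSubgroup ℚ) {τ : K ≃ₐ[ℚ] K}
    (hτ : ∀ a : K, ((τ a : K) : Kb) = σ (a : Kb)) {a : K} (ha : a ∈ RA A K) : τ a ∈ RA A K := by
  show algebraMap K Kb (τ a) ∈ A
  rw [show algebraMap K Kb (τ a) = σ (algebraMap K Kb a) from hτ a]
  have h1 : σ • A = A := hσ
  have h2 : σ • (algebraMap K Kb a) ∈ σ • A := ValuationSubring.smul_mem_pointwise_smul σ _ A ha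
  rw [h1] at h2
  exact h2

/-- the restriction of `τ` to `A ∩ K` -/
def bgamRA {σ : Kb ≃ₐ[ℚ] Kb} (hσ : σ ∈ A.decompositionSubgroup ℚ) {τ : K ≃ₐ[ℚ] K}
    (hτ : ∀ a : K, ((τ a : K) : Kb) = σ (a : Kb)) : RA A K →+* RA A K :=
  (((τ : K ≃ₐ[ℚ] K) : K →+* K).comp (RA A K).subtype).codRestrict (RA A K).toSubring
    (fun a => bgam_res_mem_RA A K hσ hτ a.2)

theorem RAincl_bgamRA {σ : Kb ≃ₐ[ℚ] Kb} (hσ : σ ∈ A.decompositionSubgroup ℚ) {τ : K ≃ₐ[ℚ] K}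
    (hτ : ∀ a : K, ((τ a : K) : Kb) = σ (a : Kb)) (a : RA A K) :
    RAincl A K (bgamRA A K hσ hτ a) = (⟨σ, hσ⟩ : A.decompositionSubgroup ℚ) • RAincl A K a :=
  Subtype.ext (hτ (a : K))

theorem bgam_mem_maximalIdeal_RA_iff (x : RA A K) :
    x ∈ IsLocalRing.maximalIdeal (RA A K) ↔ IsLocalRing.residue A (RAincl A K x) = 0 := by
  have := isLocalHom_RAincl A K
  rw [IsLocalRing.residue_eq_zero_iff, IsLocalRing.mem_maximalIdeal, IsLocalRing.mem_maximalIdeal,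
    mem_nonunits_iff, mem_nonunits_iff, not_iff_not]
  exact ⟨fun h => h.map _, fun h => isUnit_of_map_unit (RAincl A K) _ h⟩

/-- **the inverse Frobenius over `R = A ∩ K`** -/
theorem bgam_invFrob [IsDiscreteValuationRing (RA A K)] {r : ℕ} {φ : Kb ≃ₐ[ℚ] Kb}
    (hφ : A.IsFrobeniusAt φ r) {τ : K ≃ₐ[ℚ] K}
    (hτ : ∀ a : K, ((τ a : K) : Kb) = φ⁻¹ (a : Kb)) {π : RA A K} (hπ : Irreducible π) :
    InvFrob π r τ (bgamRA A K (inv_mem hφ.mem_decompositionSubgroup) hτ) where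
  compat _ := rfl
  frob c := by
    rw [← Ideal.mem_span_singleton,
      ← (IsDiscreteValuationRing.irreducible_iff_uniformizer π).1 hπ,
      bgam_mem_maximalIdeal_RA_iff, map_sub, map_sub, map_pow, map_pow, RAincl_bgamRA,
      IsLocalRing.ResidueField.residue_smul, ← hφ.smul_residue_eq, sub_eq_zero]
    have e : (⟨φ⁻¹, inv_mem hφ.mem_decompositionSubgroup⟩ : A.decompositionSubgroup ℚ) =
      (⟨φ, hφ.mem_decompositionSubgroup⟩ : A.decompositionSubgroup ℚ)⁻¹ := rfl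
    rw [e, smul_inv_smul]

end general

/-! ### `K = inF A` -/

section inF

variable (A : ValuationSubring Kb)

theorem bgam_map_mem_inF {σ : Kb ≃ₐ[ℚ] Kb} (hσ : σ ∈ A.decompositionSubgroup ℚ) {x : Kb}
    (hx : x ∈ inF A) : σ x ∈ inF A := by
  rw [mem_inF_iff] at hx ⊢
  intro ι hι
  obtain ⟨g, hg, rfl⟩ := Subgroup.mem_map.mp hι
  have hn : (A.inertiaSubgroup ℚ).Normal := by
    unfold ValuationSubring.inertiaSubgroup
    infer_instance
  have h1 := hn.conj_mem' g hg (⟨σ, hσ⟩ : A.decompositionSubgroup ℚ)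
  have h2 := hx _ (Subgroup.mem_map.mpr ⟨_, h1, rfl⟩)
  have h3 : σ⁻¹ ((g : Kb ≃ₐ[ℚ] Kb) (σ x)) = x := h2
  have h4 := congrArg σ h3
  rw [← AlgEquiv.mul_apply, mul_inv_cancel, AlgEquiv.one_apply] at h4
  exact h4

/-- the decomposition group acts on `inF A` -/
theorem bgam_exists_res_inF {σ : Kb ≃ₐ[ℚ] Kb} (hσ : σ ∈ A.decompositionSubgroup ℚ) :
    ∃ τ : inF A ≃ₐ[ℚ] inF A, ∀ a : inF A, ((τ a : inF A) : Kb) = σ (a : Kb) :=
  bgam_exists_res (inF A) σ (fun _ hx => bgam_map_mem_inF A hσ hx)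
    (fun _ hx => bgam_map_mem_inF A (inv_mem hσ) hx)

/-- **existence of the inverse Frobenius for `K = inF A`, `R = RA A (inF A)`** -/
theorem bgam_exists_invFrob_inF [IsDiscreteValuationRing (RA A (inF A))] {r : ℕ} (hr : r.Prime)
    (hA : A.LiesOverPrime r) {π : RA A (inF A)} (hπ : Irreducible π) :
    ∃ (s : inF A ≃ₐ[ℚ] inF A) (sR : RA A (inF A) →+* RA A (inF A)), InvFrob π r s sR := by
  obtain ⟨φ, hφ⟩ := Fermat.Agent.FrobExists.exists_isFrobeniusAt A hr hA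
  obtain ⟨τ, hτ⟩ := bgam_exists_res_inF A (inv_mem hφ.mem_decompositionSubgroup)
  exact ⟨τ, _, bgam_invFrob A (inF A) hφ hτ hπ⟩

end inF

end

end Fermat.Agent.CARlib
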