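import Mathlib
import Fermat.Agent.CAR.BDefs

/-!
# T-CAR, block B (level 1, local structure at a closed point `z'` of `X_0`): interface

ABSTRACT FORM (Mathlib only).
`O₀` = local ring of `B_0` at `z'` (`𝔪 = (π, t)`, `π` prime), `S₁` = integral closure of `O₀` in `F₁`,
`VF`, `VV` the two valuation rings of `F₁` over the Gauss valuation (both with uniformiser `π`),
`pF = S₁ ∩ π VF`, `pV = S₁ ∩ π VV`, `s ∈ S₁` with `s ^ r ≡ t mod pV`.

Rows: `b3_*` (helper24), `b4_*` (helper13), `b5_*` (helper2), `bOut_*`, instantiation (helper25).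
-/

set_option autoImplicit false

open IsLocalRing Polynomial

namespace Fermat.Agent.CARlib

/-! ### (B3) `S₁ = O₀[b]`  (pure ideal theory + Nakayama) -/

/-- **B3, ordinary point**: `b = (1, s)` -/
theorem b3_adjoin_eq_top_ord {O₀ S₁ : Type*} [CommRing O₀] [IsLocalRing O₀] [CommRing S₁]
    [Algebra O₀ S₁] [Module.Finite O₀ S₁] {π t : O₀} (hm : maximalIdeal O₀ = Ideal.span {π, t})
    {pF pV : Ideal S₁} (hinf : pF ⊓ pV = Ideal.span {algebraMap O₀ S₁ π})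
    (hF : ∀ x : S₁, ∃ a : O₀, x - algebraMap O₀ S₁ a ∈ pF) {s : S₁} {r : ℕ} (hr : 0 < r)
    (hV : ∀ x : S₁, ∃ (a : O₀) (y : S₁), x - algebraMap O₀ S₁ a - s * y ∈ pV)
    (hs : s ^ r - algebraMap O₀ S₁ t ∈ pV) (hsup : pF ⊔ pV = ⊤)
    {b : S₁} (hbF : b - 1 ∈ pF) (hbV : b - s ∈ pV) : Algebra.adjoin O₀ {b} = ⊤ := by
  sorry

/-- **B3, node**: `b = (0, s)` -/
theorem b3_adjoin_eq_top_node {O₀ S₁ : Type*} [CommRing O₀] [IsLocalRing O₀] [CommRing S₁]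
    [Algebra O₀ S₁] [Module.Finite O₀ S₁] {π t : O₀} (hm : maximalIdeal O₀ = Ideal.span {π, t})
    {pF pV : Ideal S₁} (hinf : pF ⊓ pV = Ideal.span {algebraMap O₀ S₁ π})
    (hF : ∀ x : S₁, ∃ a : O₀, x - algebraMap O₀ S₁ a ∈ pF) {s : S₁} {r : ℕ} (hr : 0 < r)
    (hV : ∀ x : S₁, ∃ (a : O₀) (y : S₁), x - algebraMap O₀ S₁ a - s * y ∈ pV)
    (hs : s ^ r - algebraMap O₀ S₁ t ∈ pV) (hsup : pF ⊔ pV ≠ ⊤)
    {b : S₁} (hbF : b ∈ pF) (hbV : b - s ∈ pV) : Algebra.adjoin O₀ {b} = ⊤ := by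
  sorry

/-! ### (B4) Euler -/

/-- **B4, abstract Euler**: two generators of the same monogenic order have associated
"differents" (`traceForm_dualSubmodule_adjoin`) -/
theorem b4_euler {A K L : Type*} [CommRing A] [IsDomain A] [IsIntegrallyClosed A] [Field K]
    [Algebra A K] [IsFractionRing A K] [Field L] [Algebra K L] [Algebra A L] [IsScalarTower A K L]
    [FiniteDimensional K L] [Algebra.IsSeparable K L] {x y : L} (hx : IsIntegral A x)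
    (hy : IsIntegral A y) (hKx : Algebra.adjoin K {x} = ⊤) (hKy : Algebra.adjoin K {y} = ⊤)
    (hxy : Algebra.adjoin A {x} = Algebra.adjoin A {y}) :
    ∃ u ∈ Algebra.adjoin A {x}, ∃ u' ∈ Algebra.adjoin A {x}, u * u' = 1 ∧
      aeval y (derivative (minpoly K y)) = u * aeval x (derivative (minpoly K x)) := by
  sorry

section B45

variable {O₀ S₁ F₀ F₁ : Type*} [CommRing O₀] [IsDomain O₀] [IsLocalRing O₀] [IsNoetherianRing O₀]
  [IsIntegrallyClosed O₀] [CommRing S₁] [IsDomain S₁] [Algebra O₀ S₁] [Module.Finite O₀ S₁]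
  [Field F₀] [Algebra O₀ F₀] [IsFractionRing O₀ F₀]
  [Field F₁] [Algebra S₁ F₁] [IsFractionRing S₁ F₁] [Algebra F₀ F₁] [Algebra O₀ F₁]
  [IsScalarTower O₀ S₁ F₁] [IsScalarTower O₀ F₀ F₁] [FiniteDimensional F₀ F₁]
  [Algebra.IsSeparable F₀ F₁] [IsIntegralClosure S₁ O₀ F₁]
  {π t : O₀} {s : S₁} {pF pV : Ideal S₁} {VF VV : ValuationSubring F₁} {r : ℕ}

/-- **B4**: `θ = g'(b)` has `VF(θ) = 0`, `VV(θ) = 1`, by comparison with a generator `y` (`= j_r`) of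
`C₁ = VF ∩ VV` over `calV = VF ∩ F₀` for which this is known (DIFF). -/
theorem b4_theta (D : BData O₀ S₁ F₁ π t s pF pV VF VV r) {b : S₁}
    (hb : Algebra.adjoin O₀ {b} = ⊤) {y : F₁} (hyF : y ∈ VF) (hyV : y ∈ VV)
    (hgen : ∀ z ∈ VF, z ∈ VV → ∃ P : F₀[X], (∀ i, algebraMap F₀ F₁ (P.coeff i) ∈ VF) ∧
      aeval y P = z)
    (hdF : (aeval y (derivative (minpoly F₀ y)))⁻¹ ∈ VF)
    (hdV : aeval y (derivative (minpoly F₀ y)) / algebraMap O₀ F₁ π ∈ VV)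
    (hdV' : algebraMap O₀ F₁ π / aeval y (derivative (minpoly F₀ y)) ∈ VV) :
    (algebraMap S₁ F₁ (aeval b (derivative (minpoly O₀ b))))⁻¹ ∈ VF ∧
    algebraMap S₁ F₁ (aeval b (derivative (minpoly O₀ b))) / algebraMap O₀ F₁ π ∈ VV ∧
    algebraMap O₀ F₁ π / algebraMap S₁ F₁ (aeval b (derivative (minpoly O₀ b))) ∈ VV := by
  sorry

/-! ### (B5) thickness one -/

/-- **B5a**: `O₀` a UFD (A1); no horizontal prime divides the norm of `θ` (M7b) ⇒ `θ ∣ π ^ k` -/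
theorem b5_dvd_pow [UniqueFactorizationMonoid O₀] {θ : S₁} (hθ : θ ≠ 0)
    (hint : ∃ n : O₀, algebraMap O₀ F₀ n = Algebra.norm F₀ (algebraMap S₁ F₁ θ) ∧
      ∀ p₀ : O₀, Prime p₀ → p₀ ∣ n → Associated p₀ π) :
    ∃ (k : ℕ) (y : S₁), θ * y = algebraMap O₀ S₁ π ^ k := by
  sorry

/-- **B5 = TH1 (thickness one)** -/
theorem b5_TH1 (D : BData O₀ S₁ F₁ π t s pF pV VF VV r) {θ : S₁}
    (hθF : (algebraMap S₁ F₁ θ)⁻¹ ∈ VF)
    (hθV : algebraMap S₁ F₁ θ / algebraMap O₀ F₁ π ∈ VV)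
    (hθV' : algebraMap O₀ F₁ π / algebraMap S₁ F₁ θ ∈ VV)
    (hdvd : ∃ (k : ℕ) (y : S₁), θ * y = algebraMap O₀ S₁ π ^ k) :
    pV = Ideal.span {θ} ∧ ∃ aF : S₁, aF * θ = algebraMap O₀ S₁ π ∧ pF = Ideal.span {aF} := by
  sorry

end B45

end Fermat.Agent.CARlib
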