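import Fermat.Agent.CAR.BDefs
import Fermat.Agent.CAR.B3
import Fermat.Agent.CAR.B4
import Fermat.Agent.CAR.B5

/-!
# T-CAR, block B: abstract assembly (B3 + B4 + B5): thickness one at a non cuspidal closed point
-/

set_option autoImplicit false
set_option linter.unusedSectionVars false

open IsLocalRing Polynomial

namespace Fermat.Agent.CARlib

section BTop

variable {O₀ S₁ F₀ F₁ : Type*} [CommRing O₀] [IsDomain O₀] [IsLocalRing O₀] [IsNoetherianRing O₀]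
  [IsIntegrallyClosed O₀] [CommRing S₁] [IsDomain S₁] [Algebra O₀ S₁] [Module.Finite O₀ S₁]
  [Field F₀] [Algebra O₀ F₀] [IsFractionRing O₀ F₀]
  [Field F₁] [Algebra S₁ F₁] [IsFractionRing S₁ F₁] [Algebra F₀ F₁] [Algebra O₀ F₁]
  [IsScalarTower O₀ S₁ F₁] [IsScalarTower O₀ F₀ F₁] [FiniteDimensional F₀ F₁]
  [Algebra.IsSeparable F₀ F₁] [IsIntegralClosure S₁ O₀ F₁]
  {π t : O₀} {s : S₁} {pF pV : Ideal S₁} {VF VV : ValuationSubring F₁} {r : ℕ}

theorem BData.unif_ne_zero (D : BData O₀ S₁ F₁ π t s pF pV VF VV r) :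
    algebraMap S₁ F₁ (algebraMap O₀ S₁ π) ≠ 0 := by
  intro h
  apply D.pi_VF
  rw [h, inv_zero]
  exact VF.zero_mem

theorem BData.pi_mem_pF (D : BData O₀ S₁ F₁ π t s pF pV VF VV r) : algebraMap O₀ S₁ π ∈ pF := by
  rw [D.mem_pF, div_self D.unif_ne_zero]
  exact VF.one_mem

theorem BData.pi_mem_pV (D : BData O₀ S₁ F₁ π t s pF pV VF VV r) : algebraMap O₀ S₁ π ∈ pV := by
  rw [D.mem_pV, div_self D.unif_ne_zero]
  exact VV.one_mem

/-- `pF ∩ pV = π S₁` -/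
theorem BData.inf_eq (D : BData O₀ S₁ F₁ π t s pF pV VF VV r) :
    pF ⊓ pV = Ideal.span {algebraMap O₀ S₁ π} := by
  apply le_antisymm
  · rintro x ⟨hF, hV⟩
    obtain ⟨y, hy⟩ := D.sat _ ((D.mem_pF x).1 hF) ((D.mem_pV x).1 hV)
      ⟨x, by rw [mul_div_cancel₀ _ D.unif_ne_zero]⟩
    rw [Ideal.mem_span_singleton]
    refine ⟨y, IsFractionRing.injective S₁ F₁ ?_⟩
    rw [map_mul, ← hy, mul_div_cancel₀ _ D.unif_ne_zero]
  · rw [Ideal.span_singleton_le_iff_mem]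
    exact ⟨D.pi_mem_pF, D.pi_mem_pV⟩

/-- at a node `t ∈ pF + pV` -/
theorem BData.t_mem (D : BData O₀ S₁ F₁ π t s pF pV VF VV r) {G : S₁} {n : ℕ} (hn : 2 ≤ n)
    (hG : algebraMap O₀ S₁ t - G ^ n ∈ pF ⊔ pV) (hne : pF ⊔ pV ≠ ⊤) :
    algebraMap O₀ S₁ t ∈ pF ⊔ pV := by
  obtain ⟨x, hx, hIx⟩ := Ideal.exists_le_maximal _ hne
  haveI := hx
  have hcomap : x.comap (algebraMap O₀ S₁) = maximalIdeal O₀ :=
    IsLocalRing.eq_maximalIdeal (Ideal.isMaximal_comap_of_isIntegral_of_isMaximal x)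
  have htm : t ∈ maximalIdeal O₀ := by
    rw [D.max_eq]
    exact Ideal.subset_span (by simp)
  have htx : algebraMap O₀ S₁ t ∈ x := by
    have h := htm
    rw [← hcomap] at h
    exact h
  have hGx : G ∈ x := by
    have h1 : G ^ n ∈ x := by
      have := x.sub_mem htx (hIx hG)
      rwa [sub_sub_cancel] at this
    exact hx.isPrime.mem_of_pow_mem n h1
  obtain ⟨a, ha⟩ := D.surjF G
  have hax : a ∈ maximalIdeal O₀ := by
    rw [← hcomap]
    show algebraMap O₀ S₁ a ∈ x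
    have := x.sub_mem hGx (hIx (Ideal.mem_sup_left ha))
    rwa [sub_sub_cancel] at this
  rw [D.max_eq, Ideal.mem_span_pair] at hax
  obtain ⟨c1, c2, hc⟩ := hax
  have h2 : G - algebraMap O₀ S₁ (c2 * t) ∈ pF ⊔ pV := by
    have h3 : G - algebraMap O₀ S₁ (c2 * t) =
        (G - algebraMap O₀ S₁ a) + algebraMap O₀ S₁ c1 * algebraMap O₀ S₁ π := by
      rw [← hc]
      simp only [map_add, map_mul]
      ring
    rw [h3]
    exact (pF ⊔ pV).add_mem (Ideal.mem_sup_left ha)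
      (Ideal.mul_mem_left _ _ (Ideal.mem_sup_left D.pi_mem_pF))
  have h4 : G ^ n - algebraMap O₀ S₁ (c2 * t) ^ n ∈ pF ⊔ pV := by
    obtain ⟨k, hk⟩ := sub_dvd_pow_sub_pow G (algebraMap O₀ S₁ (c2 * t)) n
    rw [hk]
    exact Ideal.mul_mem_right _ _ h2
  have h5 : algebraMap O₀ S₁ (t * (1 - c2 ^ n * t ^ (n - 1))) ∈ pF ⊔ pV := by
    have h6 : algebraMap O₀ S₁ (t * (1 - c2 ^ n * t ^ (n - 1))) =
        (algebraMap O₀ S₁ t - G ^ n) + (G ^ n - algebraMap O₀ S₁ (c2 * t) ^ n) := by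
      obtain ⟨k, rfl⟩ : ∃ k, n = k + 1 := ⟨n - 1, by omega⟩
      simp only [map_mul, map_sub, map_one, map_pow, Nat.add_sub_cancel]
      ring
    rw [h6]
    exact (pF ⊔ pV).add_mem hG h4
  have hu : IsUnit (1 - c2 ^ n * t ^ (n - 1)) := by
    have h7 : c2 ^ n * t ^ (n - 1) ∈ maximalIdeal O₀ :=
      Ideal.mul_mem_left _ _ (Ideal.pow_mem_of_mem _ htm _ (by omega))
    by_contra hnu
    have h6 : 1 - c2 ^ n * t ^ (n - 1) ∈ maximalIdeal O₀ := (IsLocalRing.mem_maximalIdeal _).2 hnu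
    have h8 := (maximalIdeal O₀).add_mem h6 h7
    rw [sub_add_cancel] at h8
    exact (Ideal.ne_top_iff_one _).1 (IsLocalRing.maximalIdeal.isMaximal O₀).ne_top h8
  rw [map_mul] at h5
  exact (Ideal.mul_unit_mem_iff_mem _ (hu.map (algebraMap O₀ S₁))).1 h5

/-- at a node `s ∈ pF + pV` -/
theorem BData.s_mem (D : BData O₀ S₁ F₁ π t s pF pV VF VV r) {G : S₁} {n : ℕ} (hn : 2 ≤ n)
    (hG : algebraMap O₀ S₁ t - G ^ n ∈ pF ⊔ pV) (hne : pF ⊔ pV ≠ ⊤) : s ∈ pF ⊔ pV := by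
  apply D.rad
  refine ⟨r, ?_⟩
  have h1 := D.t_mem hn hG hne
  have h2 : s ^ r - algebraMap O₀ S₁ t ∈ pF ⊔ pV := Ideal.mem_sup_right D.s_pow
  have := (pF ⊔ pV).add_mem h2 h1
  rwa [sub_add_cancel] at this

/-- **B3**: `S₁` is monogenic over `O₀` -/
theorem BData.exists_gen (D : BData O₀ S₁ F₁ π t s pF pV VF VV r) {G : S₁} {n : ℕ} (hn : 2 ≤ n)
    (hG : algebraMap O₀ S₁ t - G ^ n ∈ pF ⊔ pV) : ∃ b : S₁, Algebra.adjoin O₀ {b} = ⊤ := by
  by_cases hsup : pF ⊔ pV = ⊤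
  · have h1 : (1 : S₁) ∈ pF ⊔ pV := by rw [hsup]; trivial
    obtain ⟨f, hf, v, hv, hfv⟩ := Submodule.mem_sup.1 h1
    refine ⟨v + f * s, B3.b3_adjoin_eq_top_ord D.max_eq D.inf_eq D.surjF D.r_pos D.surjV D.s_pow
      hsup ?_ ?_⟩
    · have : v + f * s - 1 = f * (s - 1) := by linear_combination hfv
      rw [this]
      exact pF.mul_mem_right _ hf
    · have : v + f * s - s = v * (1 - s) := by linear_combination s * hfv
      rw [this]
      exact pV.mul_mem_right _ hv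
  · obtain ⟨f, hf, v, hv, hfv⟩ := Submodule.mem_sup.1 (D.s_mem hn hG hsup)
    refine ⟨f, B3.b3_adjoin_eq_top_node D.max_eq D.inf_eq D.surjF D.r_pos D.surjV D.s_pow
      hsup hf ?_⟩
    have : f - s = -v := by rw [← hfv]; ring
    rw [this]
    exact pV.neg_mem hv

theorem bTop_theta_ne_zero (_h : FiniteDimensional F₀ F₁) (b : S₁) : aeval b (derivative (minpoly O₀ b)) ≠ 0 := by
  have hbint : IsIntegral O₀ b := Algebra.IsIntegral.isIntegral b
  have hmin : minpoly F₀ (algebraMap S₁ F₁ b) = (minpoly O₀ b).map (algebraMap O₀ F₀) :=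
    minpoly.isIntegrallyClosed_eq_field_fractions F₀ F₁ hbint
  have hθ : algebraMap S₁ F₁ (aeval b (derivative (minpoly O₀ b))) =
      aeval (algebraMap S₁ F₁ b) (derivative (minpoly F₀ (algebraMap S₁ F₁ b))) := by
    rw [hmin, derivative_map, aeval_map_algebraMap, aeval_algebraMap_apply]
  intro h0
  have hs : (minpoly F₀ (algebraMap S₁ F₁ b)).Separable := Algebra.IsSeparable.isSeparable F₀ _
  refine hs.aeval_derivative_ne_zero (minpoly.aeval F₀ (algebraMap S₁ F₁ b)) ?_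
  rw [← hθ, h0, map_zero]

/-- **thickness one** for a given generator `b` -/
theorem BData.thick_of_gen [UniqueFactorizationMonoid O₀]
    (D : BData O₀ S₁ F₁ π t s pF pV VF VV r) {b : S₁} (hb : Algebra.adjoin O₀ {b} = ⊤)
    (hFV : ∀ c : F₀, algebraMap F₀ F₁ c ∈ VF → algebraMap F₀ F₁ c ∈ VV)
    {y : F₁} (hyF : y ∈ VF) (hyV : y ∈ VV)
    (hgen : ∀ z ∈ VF, z ∈ VV → ∃ P : F₀[X], (∀ i, algebraMap F₀ F₁ (P.coeff i) ∈ VF) ∧
      aeval y P = z)
    (hdF : (aeval y (derivative (minpoly F₀ y)))⁻¹ ∈ VF)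
    (hdV : aeval y (derivative (minpoly F₀ y)) / algebraMap O₀ F₁ π ∈ VV)
    (hdV' : algebraMap O₀ F₁ π / aeval y (derivative (minpoly F₀ y)) ∈ VV)
    (hint : ∃ n : O₀, algebraMap O₀ F₀ n =
        Algebra.norm F₀ (algebraMap S₁ F₁ (aeval b (derivative (minpoly O₀ b)))) ∧
      ∀ p₀ : O₀, Prime p₀ → p₀ ∣ n → Associated p₀ π) :
    pV = Ideal.span {aeval b (derivative (minpoly O₀ b))} ∧
      ∃ aF : S₁, aF * aeval b (derivative (minpoly O₀ b)) = algebraMap O₀ S₁ π ∧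
        pF = Ideal.span {aF} := by
  obtain ⟨h1, h2, h3⟩ := B4.b4_theta D hb hFV hyF hyV hgen hdF hdV hdV'
  exact B5.b5_TH1 D h1 h2 h3 (B5.b5_dvd_pow (F₀ := F₀) (F₁ := F₁)
    (bTop_theta_ne_zero (inferInstance : FiniteDimensional F₀ F₁) b) hint)

end BTop

end Fermat.Agent.CARlib
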