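import Fermat.Agent.CAR.CLev1Top
import Fermat.Agent.CAR.BTopAbs
import Fermat.Agent.CAR.B6f
import Fermat.Agent.CAR.B6d
import Fermat.Agent.CAR.B6e
import Fermat.Agent.CAR.B7Conc
import Fermat.Agent.CAR.B9Norm
import Fermat.Agent.CAR.X0FK
import Fermat.Agent.CAR.V3Diff
import Fermat.Agent.CAR.A1UFD

/-!
# T-CAR, block B: the local structure of level 1 at a closed point `z'` of the good level
(assembly of B3-B9 in the modular frame, generic chart `T₀`)
-/

set_option autoImplicit false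
set_option linter.unusedSectionVars false
set_option linter.unusedVariables false
set_option linter.style.haveILetI false

open ModularCurve Polynomial IsLocalRing

namespace Fermat.Agent.CARlib

open Fermat.Agent.ESlib Fermat.Agent.UNIlib
open Fermat.Agent.S24lib (Dv Kb)

section BLoc

variable {R K : Type} [CommRing R] [IsDomain R] [IsDiscreteValuationRing R] [Field K]
  [Algebra R K] [IsFractionRing R K] [Algebra ℚ K] [CharZero K] [Algebra K ℂ] [IsScalarTower ℚ K ℂ]
  {N r : ℕ} [NeZero N] [NeZero r] [NeZero (N * r)]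
  [Algebra R (FK K N)] [IsScalarTower R K (FK K N)]
  [Algebra R (FK K (N * r))] [IsScalarTower R K (FK K (N * r))]
  [CharP (IsLocalRing.ResidueField R) r] [IsAlgClosed (IsLocalRing.ResidueField R)]

/-- `hgen` of `b4_theta` -/
theorem bl_hgen [Algebra (FK K N) (FK K (N * r))]
    (halg : algebraMap (FK K N) (FK K (N * r)) = iF K N r) (hr : r.Prime) (hrN : ¬ r ∣ N)
    (hN : (N : IsLocalRing.ResidueField R) ≠ 0) (z : FK K (N * r))
    (h1 : z ∈ gaussVal R K (N * r))
    (h2 : z ∈ (gaussVal R K (N * r)).comap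
      ((wr K hr hrN).toRingEquiv : FK K (N * r) →+* FK K (N * r))) :
    ∃ P : (FK K N)[X], (∀ i, algebraMap (FK K N) (FK K (N * r)) (P.coeff i) ∈
      gaussVal R K (N * r)) ∧ aeval (jr K N r) P = z := by
  obtain ⟨c, hdeg, rfl⟩ := exists_eval₂_jr_eq R hr hrN hN z
  refine ⟨c, fun i => ?_, ?_⟩
  · rw [halg]
    exact (oldI_mem_gaussSub_iff (R := R) (K := K) (N := N) (r := r)).2
      (coeff_mem_gaussSub_of_eval₂ hr hrN c hdeg h1 h2 i)
  · rw [aeval_def, halg]

set_option maxHeartbeats 4000000 in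
/-- **level 1, local structure at `z'`**, generic chart -/
theorem bl_local [Algebra (FK K N) (FK K (N * r))] [IsScalarTower R (FK K N) (FK K (N * r))]
    [FiniteDimensional (FK K N) (FK K (N * r))] [Algebra.IsSeparable (FK K N) (FK K (N * r))]
    (halg : algebraMap (FK K N) (FK K (N * r)) = iF K N r)
    {π : R} (hπ : Irreducible π) (hr : r.Prime) (hrN : ¬ r ∣ N) (h49 : 4 ∣ N ∨ 9 ∣ N)
    (hN : (N : IsLocalRing.ResidueField R) ≠ 0)
    (hπr : algebraMap R (FK K (N * r)) π / (r : FK K (N * r)) ∈ gaussSub R K (N * r))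
    (hπr' : (r : FK K (N * r)) / algebraMap R (FK K (N * r)) π ∈ gaussSub R K (N * r))
    {T₀ : FK K N} {γ : FK K (N * r) ≃+* FK K (N * r)}
    [IsFractionRing (integralClosure (Algebra.adjoin R {T₀}) (FK K N)) (FK K N)]
    [IsIntegrallyClosed (integralClosure (Algebra.adjoin R {T₀}) (FK K N))]
    (H : B6Hyp π T₀ (gaussVal R K (N * r)) (wr K hr hrN).toRingEquiv γ r)
    (z' : Ideal (integralClosure (Algebra.adjoin R {T₀}) (FK K N))) [z'.IsMaximal]
    (hπz : algebraMap R (integralClosure (Algebra.adjoin R {T₀}) (FK K N)) π ∈ z')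
    (hreg : IsNoetherianRing (integralClosure (Algebra.adjoin R {T₀}) (FK K N)) ∧
      Prime (algebraMap R (integralClosure (Algebra.adjoin R {T₀}) (FK K N)) π) ∧
      ∃ t ∈ z', (∀ x ∈ z', ∃ s, s ∉ z' ∧ s * x ∈
          Ideal.span {algebraMap R (integralClosure (Algebra.adjoin R {T₀}) (FK K N)) π, t}) ∧
        ∀ (O : Type) [CommRing O] [Algebra (integralClosure (Algebra.adjoin R {T₀}) (FK K N)) O]
          [IsLocalization.AtPrime O z'] [IsLocalRing O], IsNoetherianRing O ∧
          maximalIdeal O = Ideal.span {algebraMap (integralClosure (Algebra.adjoin R {T₀}) (FK K N)) O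
            (algebraMap R (integralClosure (Algebra.adjoin R {T₀}) (FK K N)) π),
            algebraMap (integralClosure (Algebra.adjoin R {T₀}) (FK K N)) O t} ∧
          Prime (algebraMap (integralClosure (Algebra.adjoin R {T₀}) (FK K N)) O
            (algebraMap R (integralClosure (Algebra.adjoin R {T₀}) (FK K N)) π))) :
    ∃ (t : C.CO₀ (FK K N) z') (s : C.CS₁ (FK K N) (FK K (N * r)) z')
      (pF pV : Ideal (C.CS₁ (FK K N) (FK K (N * r)) z')),
      BData (C.CO₀ (FK K N) z') (C.CS₁ (FK K N) (FK K (N * r)) z') (FK K (N * r))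
        (algebraMap (integralClosure (Algebra.adjoin R {T₀}) (FK K N)) (C.CO₀ (FK K N) z')
          (algebraMap R (integralClosure (Algebra.adjoin R {T₀}) (FK K N)) π)) t s pF pV
        (gaussVal R K (N * r)) ((gaussVal R K (N * r)).comap
          ((wr K hr hrN).toRingEquiv : FK K (N * r) →+* FK K (N * r))) r ∧
      ((∃ c : C.CO₀ (FK K N) z', algebraMap (C.CO₀ (FK K N) z') (FK K N) c = J1 K N) →
        ∃ b aF : C.CS₁ (FK K N) (FK K (N * r)) z', Algebra.adjoin (C.CO₀ (FK K N) z') {b} = ⊤ ∧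
          aF * aeval b (derivative (minpoly (C.CO₀ (FK K N) z') b)) =
            algebraMap (C.CO₀ (FK K N) z') (C.CS₁ (FK K N) (FK K (N * r)) z')
              (algebraMap (integralClosure (Algebra.adjoin R {T₀}) (FK K N)) (C.CO₀ (FK K N) z')
                (algebraMap R (integralClosure (Algebra.adjoin R {T₀}) (FK K N)) π)) ∧
          pV = Ideal.span {aeval b (derivative (minpoly (C.CO₀ (FK K N) z') b))} ∧
          pF = Ideal.span {aF}) ∧
      ((∃ c ∈ maximalIdeal (C.CO₀ (FK K N) z'),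
        algebraMap (C.CO₀ (FK K N) z') (FK K N) c = (J1 K N)⁻¹) → pF ⊔ pV = ⊤) := by
  obtain ⟨hNoeth, hprime, t₀, ht₀, hreg1, hO⟩ := hreg
  haveI := hNoeth
  obtain ⟨hON, hOmax, hOprime⟩ := hO (C.CO₀ (FK K N) z')
  obtain ⟨s, pF, pV, hs, D⟩ := b6c_bData H hprime z' hπz ht₀ hreg1
    (b6d_res hπ T₀ z' inferInstance hπz) (b6d_perf hπ hr.pos)
    (C.CO₀ (FK K N) z') (C.CS₁ (FK K N) (FK K (N * r)) z')
  have hπO1 : algebraMap (C.CO₀ (FK K N) z') (FK K (N * r))
      (algebraMap (integralClosure (Algebra.adjoin R {T₀}) (FK K N)) (C.CO₀ (FK K N) z')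
        (algebraMap R (integralClosure (Algebra.adjoin R {T₀}) (FK K N)) π)) =
      algebraMap R (FK K (N * r)) π := by
    rw [b6_map_B (C.CO₀ (FK K N) z'), IsScalarTower.algebraMap_apply R (FK K N) (FK K (N * r))]
    rfl
  have hπO : algebraMap (C.CS₁ (FK K N) (FK K (N * r)) z') (FK K (N * r))
      (algebraMap (C.CO₀ (FK K N) z') (C.CS₁ (FK K N) (FK K (N * r)) z')
      (algebraMap (integralClosure (Algebra.adjoin R {T₀}) (FK K N)) (C.CO₀ (FK K N) z')
        (algebraMap R (integralClosure (Algebra.adjoin R {T₀}) (FK K N)) π))) =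
      algebraMap R (FK K (N * r)) π := by
    rw [← IsScalarTower.algebraMap_apply (C.CO₀ (FK K N) z') (C.CS₁ (FK K N) (FK K (N * r)) z')
      (FK K (N * r)), hπO1]
  refine ⟨_, s, pF, pV, D, ?_, ?_⟩
  · intro hJ
    obtain ⟨G, hG⟩ := b6c_frob H z' t₀ (C.CO₀ (FK K N) z') (C.CS₁ (FK K N) (FK K (N * r)) z') D hπO
    obtain ⟨b, hb⟩ := D.exists_gen (n := r ^ 2) (by nlinarith [hr.two_le]) hG
    haveI : UniqueFactorizationMonoid (C.CO₀ (FK K N) z') := a1_ufd hOmax hOprime
    have hwπ : wr K hr hrN (algebraMap R (FK K (N * r)) π) = algebraMap R (FK K (N * r)) π := by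
      rw [IsScalarTower.algebraMap_apply R K (FK K (N * r))]
      exact (wr K hr hrN).commutes _
    obtain ⟨d1, d2, d3⟩ := v3_diff (R := R) halg hr hrN hπr hπr' hwπ
    have htow : ∀ y : integralClosure (Algebra.adjoin R {T₀}) (FK K N),
        algebraMap (C.CO₀ (FK K N) z') (FK K N)
          (algebraMap (integralClosure (Algebra.adjoin R {T₀}) (FK K N)) (C.CO₀ (FK K N) z') y) =
        (y : FK K N) := fun y =>
      (IsScalarTower.algebraMap_apply (integralClosure (Algebra.adjoin R {T₀}) (FK K N))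
        (C.CO₀ (FK K N) z') (FK K N) y).symm
    letI : Algebra R (C.CO₀ (FK K N) z') :=
      ((algebraMap (integralClosure (Algebra.adjoin R {T₀}) (FK K N)) (C.CO₀ (FK K N) z')).comp
        (algebraMap R (integralClosure (Algebra.adjoin R {T₀}) (FK K N)))).toAlgebra
    haveI : IsScalarTower R (C.CO₀ (FK K N) z') (FK K N) :=
      IsScalarTower.of_algebraMap_eq fun x => (htow (algebraMap R _ x)).symm
    have hint := b9_hint K (dvd_mul_right N r) h49
      (fun f => by rw [halg]; exact iF_apply f) hOprime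
      (fun c => b9_hK (R := R) (K := K) (O₀ := C.CO₀ (FK K N) z') (F₀ := FK K N) hπ c) hJ hb
    obtain ⟨h1, aF, h2, h3⟩ := D.thick_of_gen (F₀ := FK K N) hb (fun c hc => H.hFV c hc)
      (y := jr K N r) (Jgen_mem_gaussSub _)
      (by
        show wr K hr hrN (jr K N r) ∈ gaussSub R K (N * r)
        rw [wr_jr]
        exact Jgen_mem_gaussSub _)
      (fun z h1 h2 => bl_hgen halg hr hrN hN z h1 h2) d1
      (by rw [hπO1]; exact d2) (by rw [hπO1]; exact d3) hint
    exact ⟨b, aF, hb, h2, h1, h3⟩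
  · rintro ⟨c, hc, hcJ⟩
    refine b7_cusp hπ hr hrN (fun x hx => (D.mem_pF x).2 (by rw [hπO]; exact hx))
      (fun x hx => (D.mem_pV x).2 (by rw [hπO]; exact hx)) c hc ?_
    rw [IsScalarTower.algebraMap_apply (C.CO₀ (FK K N) z') (FK K N) (FK K (N * r)), hcJ, map_inv₀,
      halg, v3_iF_J1]

end BLoc

end Fermat.Agent.CARlib
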