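import Fermat.Agent.CAR.BLoc
import Fermat.Agent.CAR.BTopL
import Fermat.Agent.CAR.BInstFK

/-!
# T-CAR, block B: `BLoc` (= `hloc` of `C.cLev1_of_local`) and `hBTop` (input of `CHmid`), both charts
-/

set_option autoImplicit false
set_option linter.unusedSectionVars false
set_option linter.unusedVariables false
set_option linter.style.haveILetI false

open ModularCurve Polynomial IsLocalRing

namespace Fermat.Agent.CARlib

open Fermat.Agent.ESlib Fermat.Agent.UNIlib

variable {R K : Type} [CommRing R] [IsDomain R] [IsDiscreteValuationRing R] [Field K] [Algebra R K]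
  [IsFractionRing R K] [CharZero K] [Algebra ℚ K] [Algebra K ℂ] [IsScalarTower ℚ K ℂ]
  [Algebra R ℂ] [IsScalarTower R K ℂ] {N r : ℕ} [NeZero N] [NeZero r] [NeZero (N * r)]
  [Algebra R (FK K N)] [IsScalarTower R K (FK K N)]
  [Algebra R (FK K (N * r))] [IsScalarTower R K (FK K (N * r))]
  [CharP (IsLocalRing.ResidueField R) r] [IsAlgClosed (IsLocalRing.ResidueField R)]
  {π : R} {s : K ≃ₐ[ℚ] K} {sR : R →+* R}

/-- the monogenic generator with thickness one at the non cuspidal closed points (input of `CHmid`) -/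
def BTopH (π : R) (r : ℕ) [NeZero r] [NeZero (N * r)] (T₀ : FK K N)
    [IsFractionRing (integralClosure (Algebra.adjoin R {T₀}) (FK K N)) (FK K N)] : Prop :=
  letI : Algebra (FK K N) (FK K (N * r)) := (oldI K N r).toAlgebra
  ∀ (z' : Ideal (integralClosure (Algebra.adjoin R {T₀}) (FK K N))) [z'.IsMaximal],
    algebraMap R _ π ∈ z' →
    (∃ c : C.CO₀ (FK K N) z', algebraMap (C.CO₀ (FK K N) z') (FK K N) c = J1 K N) →
    ∃ b aF : C.CS₁ (FK K N) (FK K (N * r)) z', Algebra.adjoin (C.CO₀ (FK K N) z') {b} = ⊤ ∧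
      aF * aeval b (derivative (minpoly (C.CO₀ (FK K N) z') b)) =
        algebraMap (C.CO₀ (FK K N) z') (C.CS₁ (FK K N) (FK K (N * r)) z')
          (algebraMap (integralClosure (Algebra.adjoin R {T₀}) (FK K N)) (C.CO₀ (FK K N) z')
            (algebraMap R (integralClosure (Algebra.adjoin R {T₀}) (FK K N)) π))

set_option maxHeartbeats 4000000 in
/-- generic chart -/
theorem bl_both (hπ : Irreducible π) (hr : r.Prime) (hrN : ¬ r ∣ N) (h49 : 4 ∣ N ∨ 9 ∣ N)
    (hN : (N : IsLocalRing.ResidueField R) ≠ 0)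
    (hπr : algebraMap R (FK K (N * r)) π / (r : FK K (N * r)) ∈ gaussSub R K (N * r))
    (hπr' : (r : FK K (N * r)) / algebraMap R (FK K (N * r)) π ∈ gaussSub R K (N * r))
    {T₀ : FK K N} {γ : FK K (N * r) ≃+* FK K (N * r)}
    [IsFractionRing (integralClosure (Algebra.adjoin R {T₀}) (FK K N)) (FK K N)]
    [IsIntegrallyClosed (integralClosure (Algebra.adjoin R {T₀}) (FK K N))]
    (H : letI : Algebra (FK K N) (FK K (N * r)) := (oldI K N r).toAlgebra
      B6Hyp π T₀ (gaussVal R K (N * r)) (wr K hr hrN).toRingEquiv γ r)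
    (hreg : ∀ (z' : Ideal (integralClosure (Algebra.adjoin R {T₀}) (FK K N))) [z'.IsMaximal],
      algebraMap R (integralClosure (Algebra.adjoin R {T₀}) (FK K N)) π ∈ z' →
      IsNoetherianRing (integralClosure (Algebra.adjoin R {T₀}) (FK K N)) ∧
      Prime (algebraMap R (integralClosure (Algebra.adjoin R {T₀}) (FK K N)) π) ∧
      ∃ t ∈ z', (∀ x ∈ z', ∃ s, s ∉ z' ∧ s * x ∈
          Ideal.span {algebraMap R (integralClosure (Algebra.adjoin R {T₀}) (FK K N)) π, t}) ∧
        ∀ (O : Type) [CommRing O] [Algebra (integralClosure (Algebra.adjoin R {T₀}) (FK K N)) O]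
          [IsLocalization.AtPrime O z'] [IsLocalRing O], IsNoetherianRing O ∧
          maximalIdeal O = Ideal.span {algebraMap (integralClosure (Algebra.adjoin R {T₀}) (FK K N)) O
            (algebraMap R (integralClosure (Algebra.adjoin R {T₀}) (FK K N)) π),
            algebraMap (integralClosure (Algebra.adjoin R {T₀}) (FK K N)) O t} ∧
          Prime (algebraMap (integralClosure (Algebra.adjoin R {T₀}) (FK K N)) O
            (algebraMap R (integralClosure (Algebra.adjoin R {T₀}) (FK K N)) π)))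
    (hdich : ∀ (z' : Ideal (integralClosure (Algebra.adjoin R {T₀}) (FK K N))) [z'.IsMaximal],
      (∃ c : C.CO₀ (FK K N) z', algebraMap (C.CO₀ (FK K N) z') (FK K N) c = J1 K N) ∨
      (∃ c ∈ maximalIdeal (C.CO₀ (FK K N) z'),
        algebraMap (C.CO₀ (FK K N) z') (FK K N) c = (J1 K N)⁻¹)) :
    BLoc π hr hrN T₀ ∧ BTopH π r T₀ := by
  letI : Algebra (FK K N) (FK K (N * r)) := (oldI K N r).toAlgebra
  haveI : IsScalarTower R (FK K N) (FK K (N * r)) := bTopL_tower
  haveI : FiniteDimensional (FK K N) (FK K (N * r)) := binst_finiteDimensional K hr hrN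
  haveI : Algebra.IsSeparable (FK K N) (FK K (N * r)) := binst_isSeparable K hr hrN
  have key := fun (z' : Ideal (integralClosure (Algebra.adjoin R {T₀}) (FK K N))) [z'.IsMaximal]
    (hπz : algebraMap R (integralClosure (Algebra.adjoin R {T₀}) (FK K N)) π ∈ z') =>
    bl_local (R := R) (K := K) (N := N) (r := r) rfl hπ hr hrN h49 hN hπr hπr' H z' hπz (hreg z' hπz)
  constructor
  · intro z' _ hπz
    obtain ⟨t, s, pF, pV, D, h1, h2⟩ := key z' hπz
    refine ⟨t, s, pF, pV, D, fun hne => ?_⟩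
    rcases hdich z' with hJ | hJ
    · obtain ⟨b, aF, -, e1, e2, e3⟩ := h1 hJ
      refine ⟨aF, _, e1, ?_, ?_⟩
      · rw [e3]; exact Ideal.mem_span_singleton_self _
      · rw [e2]; exact Ideal.mem_span_singleton_self _
    · exact absurd (h2 hJ) hne
  · intro z' _ hπz hJ
    obtain ⟨t, s, pF, pV, D, h1, h2⟩ := key z' hπz
    obtain ⟨b, aF, e0, e1, -, -⟩ := h1 hJ
    exact ⟨b, aF, e0, e1⟩

theorem bl_unit_a (hN : IsUnit (N : R)) {a : ℕ} (haN : a ∣ N) : IsUnit (a : R) := by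
  obtain ⟨k, rfl⟩ := haN
  rw [Nat.cast_mul] at hN
  exact isUnit_of_mul_isUnit_left hN

theorem bl_self_mem {F : Type*} [Field F] [Algebra R F] (T : F) :
    T ∈ integralClosure (Algebra.adjoin R {T}) F :=
  isIntegral_algebraMap (R := Algebra.adjoin R {T})
    (x := (⟨T, Algebra.subset_adjoin rfl⟩ : Algebra.adjoin R {T}))

theorem bl_tower_apply {B₀ : Type*} (F₀ : Type*) [CommRing B₀] [IsDomain B₀] [Field F₀]
    [Algebra B₀ F₀] [IsFractionRing B₀ F₀] (z' : Ideal B₀) [z'.IsPrime] (y : B₀) :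
    algebraMap (C.CO₀ F₀ z') F₀ (algebraMap B₀ (C.CO₀ F₀ z') y) = algebraMap B₀ F₀ y :=
  (IsScalarTower.algebraMap_apply B₀ (C.CO₀ F₀ z') F₀ y).symm

set_option maxHeartbeats 1000000 in
/-- chart `tF` -/
theorem bl_tF (h : InvFrob π r s sR) (hπ : Irreducible π) (hr : r.Prime) (hrN : ¬ r ∣ N)
    (h49 : 4 ∣ N ∨ 9 ∣ N) (hN : IsUnit (N : R))
    (hπr : algebraMap R (FK K (N * r)) π / (r : FK K (N * r)) ∈ gaussSub R K (N * r))
    (hπr' : (r : FK K (N * r)) / algebraMap R (FK K (N * r)) π ∈ gaussSub R K (N * r))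
    (a : ℕ) [NeZero a] (ha : a = 2 ∨ a = 3) (haN : a ∣ N) (hζN : ∃ z : K, IsPrimitiveRoot z N)
    [IsFractionRing (integralClosure (Algebra.adjoin R {tF K N a ha haN}) (FK K N)) (FK K N)] :
    BLoc π hr hrN (tF K N a ha haN) ∧ BTopH π r (tF K N a ha haN) := by
  haveI := binst_isIntegrallyClosed_tF K R N a ha haN
  refine bl_both hπ hr hrN h49 (natCast_residueField_ne_zero_of_isUnit hN) hπr hπr'
    (b6e_hyp h hπ hr hrN hN a ha haN hζN).1
    (fun z' _ hπz => x0_regular_tF N hπ hN a ha haN hζN z' hπz) (fun z' _ => ?_)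
  refine b7_dich_tF a ha haN ?_
    (algebraMap (integralClosure (Algebra.adjoin R {tF K N a ha haN}) (FK K N)) (C.CO₀ (FK K N) z')
      ⟨tF K N a ha haN, bl_self_mem _⟩) ?_
  · have h1 := (bl_unit_a hN haN).map
      ((algebraMap (integralClosure (Algebra.adjoin R {tF K N a ha haN}) (FK K N))
        (C.CO₀ (FK K N) z')).comp
        (algebraMap R (integralClosure (Algebra.adjoin R {tF K N a ha haN}) (FK K N))))
    rwa [map_natCast] at h1
  · exact bl_tower_apply (FK K N) z' ⟨tF K N a ha haN, bl_self_mem _⟩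

set_option maxHeartbeats 1000000 in
/-- chart `tF⁻¹` -/
theorem bl_tF_inv (h : InvFrob π r s sR) (hπ : Irreducible π) (hr : r.Prime) (hrN : ¬ r ∣ N)
    (h49 : 4 ∣ N ∨ 9 ∣ N) (hN : IsUnit (N : R))
    (hπr : algebraMap R (FK K (N * r)) π / (r : FK K (N * r)) ∈ gaussSub R K (N * r))
    (hπr' : (r : FK K (N * r)) / algebraMap R (FK K (N * r)) π ∈ gaussSub R K (N * r))
    (a : ℕ) [NeZero a] (ha : a = 2 ∨ a = 3) (haN : a ∣ N) (hζN : ∃ z : K, IsPrimitiveRoot z N)
    [IsFractionRing (integralClosure (Algebra.adjoin R {(tF K N a ha haN)⁻¹}) (FK K N)) (FK K N)] :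
    BLoc π hr hrN (tF K N a ha haN)⁻¹ ∧ BTopH π r (tF K N a ha haN)⁻¹ := by
  haveI := binst_isIntegrallyClosed_tF_inv K R N a ha haN
  refine bl_both hπ hr hrN h49 (natCast_residueField_ne_zero_of_isUnit hN) hπr hπr'
    (b6e_hyp h hπ hr hrN hN a ha haN hζN).2
    (fun z' _ hπz => x0_regular_tF_inv N hπ hN a ha haN hζN z' hπz) (fun z' _ => ?_)
  refine b7_dich_tF_inv a ha haN
    (algebraMap (integralClosure (Algebra.adjoin R {(tF K N a ha haN)⁻¹}) (FK K N))
      (C.CO₀ (FK K N) z') ⟨(tF K N a ha haN)⁻¹, bl_self_mem _⟩) ?_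
  exact bl_tower_apply (FK K N) z' ⟨(tF K N a ha haN)⁻¹, bl_self_mem _⟩

section final

variable (h : InvFrob ((r : ℕ) : R) r s sR) (hπ : Irreducible ((r : ℕ) : R)) (hr : r.Prime)
  (hrN : ¬ r ∣ N) (h49 : 4 ∣ N ∨ 9 ∣ N) (hN : IsUnit (N : R))
  (a : ℕ) [NeZero a] (ha : a = 2 ∨ a = 3) (haN : a ∣ N) (hζN : ∃ z : K, IsPrimitiveRoot z N)

theorem bl_r_div (hr : r.Prime) :
    algebraMap R (FK K (N * r)) ((r : ℕ) : R) / (r : FK K (N * r)) ∈ gaussSub R K (N * r) ∧
    (r : FK K (N * r)) / algebraMap R (FK K (N * r)) ((r : ℕ) : R) ∈ gaussSub R K (N * r) := by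
  haveI := binst_charZero K (N * r)
  have h0 : (r : FK K (N * r)) ≠ 0 := Nat.cast_ne_zero.2 hr.ne_zero
  rw [map_natCast, div_self h0]
  exact ⟨one_mem _, one_mem _⟩

include h hπ h49 hN hζN in
/-- **(L+)** -/
theorem bl_L : C.CLev1 (algebraMap R (integralClosure
      (Algebra.adjoin R {inclF K (dvd_mul_right N r) (tF K N a ha haN)}) (FK K (N * r)))
        ((r : ℕ) : R))
      (VF1 R K N r) (VV1 (K := K) R hr hrN) (C.cCen _ (VF1 R K N r))
      (C.cCen _ (VV1 (K := K) R hr hrN)) := by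
  haveI := binst_isFractionRing_tF K R N a ha haN
  exact bTop_L h hπ hr hrN hN a ha haN hζN
    (bl_tF h hπ hr hrN h49 hN (bl_r_div hr).1 (bl_r_div hr).2 a ha haN hζN).1

include h hπ h49 hN hζN in
/-- **(L-)** -/
theorem bl_L_inv : C.CLev1 (algebraMap R (integralClosure
      (Algebra.adjoin R {inclF K (dvd_mul_right N r) (tF K N a ha haN)⁻¹}) (FK K (N * r)))
        ((r : ℕ) : R))
      (VF1 R K N r) (VV1 (K := K) R hr hrN) (C.cCen _ (VF1 R K N r))
      (C.cCen _ (VV1 (K := K) R hr hrN)) := by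
  haveI := binst_isFractionRing_tF_inv K R N a ha haN
  exact bTop_L_inv h hπ hr hrN hN a ha haN hζN
    (bl_tF_inv h hπ hr hrN h49 hN (bl_r_div hr).1 (bl_r_div hr).2 a ha haN hζN).1

include h hπ hr hrN h49 hN hζN in
/-- **(hBTop+)** -/
theorem bl_H
    [IsFractionRing (integralClosure (Algebra.adjoin R {tF K N a ha haN}) (FK K N)) (FK K N)] :
    BTopH ((r : ℕ) : R) r (tF K N a ha haN) :=
  (bl_tF h hπ hr hrN h49 hN (bl_r_div hr).1 (bl_r_div hr).2 a ha haN hζN).2

include h hπ hr hrN h49 hN hζN in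
/-- **(hBTop-)** -/
theorem bl_H_inv
    [IsFractionRing (integralClosure (Algebra.adjoin R {(tF K N a ha haN)⁻¹}) (FK K N)) (FK K N)] :
    BTopH ((r : ℕ) : R) r (tF K N a ha haN)⁻¹ :=
  (bl_tF_inv h hπ hr hrN h49 hN (bl_r_div hr).1 (bl_r_div hr).2 a ha haN hζN).2

end final

end Fermat.Agent.CARlib
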