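import Fermat.Agent.CAR.BDefs

set_option autoImplicit false

open IsLocalRing Polynomial

namespace Fermat.Agent.CARlib

/-- at a node `t ∈ pF + pV` (elementary; no use of `rad`) -/
theorem bt_t_mem {O₀ S₁ F₁ : Type*} [CommRing O₀] [IsLocalRing O₀] [CommRing S₁] [Algebra O₀ S₁]
    [Field F₁] [Algebra S₁ F₁] {π t : O₀} {s : S₁} {pF pV : Ideal S₁}
    {VF VV : ValuationSubring F₁} {r : ℕ}
    (D : BData O₀ S₁ F₁ π t s pF pV VF VV r) {G : S₁} {n : ℕ} (hn : 2 ≤ n)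
    (hG : algebraMap O₀ S₁ t - G ^ n ∈ pF ⊔ pV) (hne : pF ⊔ pV ≠ ⊤) :
    algebraMap O₀ S₁ t ∈ pF ⊔ pV := by
  have hπ0 : algebraMap S₁ F₁ (algebraMap O₀ S₁ π) ≠ 0 := by
    intro h
    apply D.pi_VF
    rw [h, inv_zero]
    exact VF.zero_mem
  have hπF : algebraMap O₀ S₁ π ∈ pF := by
    rw [D.mem_pF, div_self hπ0]
    exact VF.one_mem
  have htm : t ∈ maximalIdeal O₀ := by
    rw [D.max_eq]
    exact Ideal.subset_span (by simp)
  obtain ⟨a, ha⟩ := D.surjF G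
  -- `G ^ n ≡ a ^ n mod pF`
  have h1 : G ^ n - algebraMap O₀ S₁ a ^ n ∈ pF :=
    Ideal.mem_of_dvd _ (sub_dvd_pow_sub_pow G (algebraMap O₀ S₁ a) n) ha
  have h2 : algebraMap O₀ S₁ (t - a ^ n) ∈ pF ⊔ pV := by
    have := (pF ⊔ pV).add_mem hG (Ideal.mem_sup_left h1)
    rw [map_sub, map_pow]
    convert this using 1
    ring
  by_cases hau : IsUnit a
  · exfalso
    apply hne
    have hu : IsUnit (t - a ^ n) := by
      by_contra hnu
      have h3 : t - a ^ n ∈ maximalIdeal O₀ := (mem_maximalIdeal _).2 hnu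
      have h4 : a ^ n ∈ maximalIdeal O₀ := by
        have := (maximalIdeal O₀).sub_mem htm h3
        rwa [sub_sub_cancel] at this
      exact (mem_maximalIdeal _).1 h4 (hau.pow n)
    exact Ideal.eq_top_of_isUnit_mem _ h2 (hu.map (algebraMap O₀ S₁))
  · have ham : a ∈ maximalIdeal O₀ := (mem_maximalIdeal _).2 hau
    rw [D.max_eq, Ideal.mem_span_pair] at ham
    obtain ⟨x, y, hxy⟩ := ham
    -- `a ^ n ≡ (y t) ^ n mod π`
    have h3 : π ∣ a ^ n - (y * t) ^ n :=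
      dvd_trans ⟨x, by rw [← hxy]; ring⟩ (sub_dvd_pow_sub_pow a (y * t) n)
    obtain ⟨z, hz⟩ := h3
    obtain ⟨k, rfl⟩ : ∃ k, n = k + 2 := ⟨n - 2, by omega⟩
    have hu : IsUnit (1 - t * (t ^ k * y ^ (k + 2))) := by
      by_contra hnu
      have h4 : 1 - t * (t ^ k * y ^ (k + 2)) ∈ maximalIdeal O₀ := (mem_maximalIdeal _).2 hnu
      have h5 : (1 : O₀) ∈ maximalIdeal O₀ := by
        have := (maximalIdeal O₀).add_mem h4
          ((maximalIdeal O₀).mul_mem_right (t ^ k * y ^ (k + 2)) htm)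
        rwa [sub_add_cancel] at this
      exact (mem_maximalIdeal _).1 h5 isUnit_one
    have h6 : algebraMap O₀ S₁ (t * (1 - t * (t ^ k * y ^ (k + 2)))) ∈ pF ⊔ pV := by
      have e : t * (1 - t * (t ^ k * y ^ (k + 2))) = (t - a ^ (k + 2)) + π * z := by
        rw [← hz]; ring
      rw [e, map_add, map_mul]
      exact (pF ⊔ pV).add_mem h2 (Ideal.mem_sup_left (pF.mul_mem_right _ hπF))
    rw [map_mul] at h6
    obtain ⟨v, hv⟩ := hu.map (algebraMap O₀ S₁)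
    have := (pF ⊔ pV).mul_mem_right ((v⁻¹ : S₁ˣ) : S₁) h6
    rwa [← hv, mul_assoc, Units.mul_inv, mul_one] at this

end Fermat.Agent.CARlib
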