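import Fermat.Agent.CAR.BTopAbs
import Fermat.Agent.CAR.B6c
import Fermat.Agent.CAR.B6f
import Fermat.Agent.CAR.A1UFD

/-!
# T-CAR, block B: semi-abstract assembly at one closed point `z'` (B6c + B6f + BTopAbs + A1)
-/

set_option autoImplicit false
set_option linter.unusedSectionVars false
set_option linter.style.haveILetI false

open IsLocalRing Polynomial

namespace Fermat.Agent.CARlib

open Fermat.Agent.UNIlib Fermat.Agent.ESlib

section local_

variable {R F₀ F₁ : Type*} [CommRing R] [Field F₀] [Field F₁] [Algebra R F₀] [Algebra R F₁]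
  [Algebra F₀ F₁] [IsScalarTower R F₀ F₁]
  {π : R} {T₀ : F₀} {V₁ : ValuationSubring F₁} {w γ : F₁ ≃+* F₁} {r : ℕ}

theorem bta_local (H : B6Hyp π T₀ V₁ w γ r) (hr2 : 2 ≤ r)
    (hprime : Prime (algebraMap R (integralClosure (Algebra.adjoin R {T₀}) F₀) π))
    (z' : Ideal (integralClosure (Algebra.adjoin R {T₀}) F₀)) [z'.IsMaximal]
    (hπz : algebraMap R (integralClosure (Algebra.adjoin R {T₀}) F₀) π ∈ z')
    {t₀ : integralClosure (Algebra.adjoin R {T₀}) F₀} (ht₀ : t₀ ∈ z')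
    (hreg : ∀ g ∈ z', ∃ u, u ∉ z' ∧ u * g ∈
      Ideal.span {algebraMap R (integralClosure (Algebra.adjoin R {T₀}) F₀) π, t₀})
    (hres : ∀ b : integralClosure (Algebra.adjoin R {T₀}) F₀, ∃ c : R,
      b - algebraMap R (integralClosure (Algebra.adjoin R {T₀}) F₀) c ∈ z')
    (hperf : ∀ c : R, ∃ c₁ : R, π ∣ c - c₁ ^ r)
    (O₀ S₁ : Type*) [CommRing O₀] [IsDomain O₀] [IsLocalRing O₀] [IsNoetherianRing O₀]
    [IsIntegrallyClosed O₀]
    [Algebra (integralClosure (Algebra.adjoin R {T₀}) F₀) O₀] [IsLocalization.AtPrime O₀ z']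
    [Algebra O₀ F₀] [IsScalarTower (integralClosure (Algebra.adjoin R {T₀}) F₀) O₀ F₀]
    [IsFractionRing O₀ F₀]
    [Algebra O₀ F₁] [IsScalarTower O₀ F₀ F₁] [CommRing S₁] [IsDomain S₁] [Algebra O₀ S₁]
    [Module.Finite O₀ S₁] [Algebra S₁ F₁] [IsFractionRing S₁ F₁]
    [IsScalarTower O₀ S₁ F₁] [IsIntegralClosure S₁ O₀ F₁] [FiniteDimensional F₀ F₁]
    [Algebra.IsSeparable F₀ F₁]
    {y : F₁} (hyF : y ∈ V₁) (hyV : w y ∈ V₁)
    (hgen : ∀ z ∈ V₁, w z ∈ V₁ → ∃ P : F₀[X], (∀ i, algebraMap F₀ F₁ (P.coeff i) ∈ V₁) ∧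
      aeval y P = z)
    (hdF : (aeval y (derivative (minpoly F₀ y)))⁻¹ ∈ V₁)
    (hdV : w (aeval y (derivative (minpoly F₀ y)) / algebraMap R F₁ π) ∈ V₁)
    (hdV' : w (algebraMap R F₁ π / aeval y (derivative (minpoly F₀ y))) ∈ V₁) :
    ∃ (s : S₁) (pF pV : Ideal S₁),
      BData O₀ S₁ F₁
        (algebraMap (integralClosure (Algebra.adjoin R {T₀}) F₀) O₀
          (algebraMap R (integralClosure (Algebra.adjoin R {T₀}) F₀) π))
        (algebraMap (integralClosure (Algebra.adjoin R {T₀}) F₀) O₀ t₀) s pF pV V₁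
        (V₁.comap (w : F₁ →+* F₁)) r ∧
      UniqueFactorizationMonoid O₀ ∧
      ∃ b : S₁, Algebra.adjoin O₀ {b} = ⊤ ∧
        ((∃ n : O₀, algebraMap O₀ F₀ n =
            Algebra.norm F₀ (algebraMap S₁ F₁ (aeval b (derivative (minpoly O₀ b)))) ∧
          ∀ p₀ : O₀, Prime p₀ → p₀ ∣ n → Associated p₀
            (algebraMap (integralClosure (Algebra.adjoin R {T₀}) F₀) O₀
              (algebraMap R (integralClosure (Algebra.adjoin R {T₀}) F₀) π))) →
          pV = Ideal.span {aeval b (derivative (minpoly O₀ b))} ∧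
          ∃ aF : S₁, aF * aeval b (derivative (minpoly O₀ b)) =
              algebraMap O₀ S₁ (algebraMap (integralClosure (Algebra.adjoin R {T₀}) F₀) O₀
                (algebraMap R (integralClosure (Algebra.adjoin R {T₀}) F₀) π)) ∧
            pF = Ideal.span {aF}) := by
  obtain ⟨s, pF, pV, -, D⟩ := b6c_bData H hprime z' hπz ht₀ hreg hres hperf O₀ S₁
  have hπO : algebraMap O₀ F₁ (algebraMap (integralClosure (Algebra.adjoin R {T₀}) F₀) O₀
      (algebraMap R (integralClosure (Algebra.adjoin R {T₀}) F₀) π)) = algebraMap R F₁ π := by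
    rw [b6_map_B O₀, IsScalarTower.algebraMap_apply R F₀ F₁]
    rfl
  have hπS : algebraMap S₁ F₁ (algebraMap O₀ S₁
      (algebraMap (integralClosure (Algebra.adjoin R {T₀}) F₀) O₀
      (algebraMap R (integralClosure (Algebra.adjoin R {T₀}) F₀) π))) = algebraMap R F₁ π := by
    rw [← IsScalarTower.algebraMap_apply O₀ S₁ F₁, hπO]
  obtain ⟨G, hG⟩ := b6c_frob H z' t₀ O₀ S₁ D hπS
  have hufd : UniqueFactorizationMonoid O₀ := a1_ufd D.max_eq D.prime_pi
  obtain ⟨b, hb⟩ := D.exists_gen (n := r ^ 2) (by nlinarith) hG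
  refine ⟨s, pF, pV, D, hufd, b, hb, fun hint => ?_⟩
  exact D.thick_of_gen (F₀ := F₀) hb (fun c hc => H.hFV c hc) hyF hyV hgen hdF
    (by rw [hπO]; exact hdV) (by rw [hπO]; exact hdV') hint

/-- the same with the hypotheses stated with `V₁.comap w` -/
theorem bta_local' (H : B6Hyp π T₀ V₁ w γ r) (hr2 : 2 ≤ r)
    (hprime : Prime (algebraMap R (integralClosure (Algebra.adjoin R {T₀}) F₀) π))
    (z' : Ideal (integralClosure (Algebra.adjoin R {T₀}) F₀)) [z'.IsMaximal]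
    (hπz : algebraMap R (integralClosure (Algebra.adjoin R {T₀}) F₀) π ∈ z')
    {t₀ : integralClosure (Algebra.adjoin R {T₀}) F₀} (ht₀ : t₀ ∈ z')
    (hreg : ∀ g ∈ z', ∃ u, u ∉ z' ∧ u * g ∈
      Ideal.span {algebraMap R (integralClosure (Algebra.adjoin R {T₀}) F₀) π, t₀})
    (hres : ∀ b : integralClosure (Algebra.adjoin R {T₀}) F₀, ∃ c : R,
      b - algebraMap R (integralClosure (Algebra.adjoin R {T₀}) F₀) c ∈ z')
    (hperf : ∀ c : R, ∃ c₁ : R, π ∣ c - c₁ ^ r)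
    (O₀ S₁ : Type*) [CommRing O₀] [IsDomain O₀] [IsLocalRing O₀] [IsNoetherianRing O₀]
    [IsIntegrallyClosed O₀]
    [Algebra (integralClosure (Algebra.adjoin R {T₀}) F₀) O₀] [IsLocalization.AtPrime O₀ z']
    [Algebra O₀ F₀] [IsScalarTower (integralClosure (Algebra.adjoin R {T₀}) F₀) O₀ F₀]
    [IsFractionRing O₀ F₀]
    [Algebra O₀ F₁] [IsScalarTower O₀ F₀ F₁] [CommRing S₁] [IsDomain S₁] [Algebra O₀ S₁]
    [Module.Finite O₀ S₁] [Algebra S₁ F₁] [IsFractionRing S₁ F₁]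
    [IsScalarTower O₀ S₁ F₁] [IsIntegralClosure S₁ O₀ F₁] [FiniteDimensional F₀ F₁]
    [Algebra.IsSeparable F₀ F₁]
    {y : F₁} (hyF : y ∈ V₁) (hyV : y ∈ V₁.comap (w : F₁ →+* F₁))
    (hgen : ∀ z ∈ V₁, z ∈ V₁.comap (w : F₁ →+* F₁) → ∃ P : F₀[X], (∀ i, algebraMap F₀ F₁ (P.coeff i) ∈ V₁) ∧
      aeval y P = z)
    (hdF : (aeval y (derivative (minpoly F₀ y)))⁻¹ ∈ V₁)
    (hdV : aeval y (derivative (minpoly F₀ y)) / algebraMap R F₁ π ∈ V₁.comap (w : F₁ →+* F₁))
    (hdV' : algebraMap R F₁ π / aeval y (derivative (minpoly F₀ y)) ∈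
      V₁.comap (w : F₁ →+* F₁)) :
    ∃ (s : S₁) (pF pV : Ideal S₁),
      BData O₀ S₁ F₁
        (algebraMap (integralClosure (Algebra.adjoin R {T₀}) F₀) O₀
          (algebraMap R (integralClosure (Algebra.adjoin R {T₀}) F₀) π))
        (algebraMap (integralClosure (Algebra.adjoin R {T₀}) F₀) O₀ t₀) s pF pV V₁
        (V₁.comap (w : F₁ →+* F₁)) r ∧
      UniqueFactorizationMonoid O₀ ∧
      ∃ b : S₁, Algebra.adjoin O₀ {b} = ⊤ ∧
        ((∃ n : O₀, algebraMap O₀ F₀ n =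
            Algebra.norm F₀ (algebraMap S₁ F₁ (aeval b (derivative (minpoly O₀ b)))) ∧
          ∀ p₀ : O₀, Prime p₀ → p₀ ∣ n → Associated p₀
            (algebraMap (integralClosure (Algebra.adjoin R {T₀}) F₀) O₀
              (algebraMap R (integralClosure (Algebra.adjoin R {T₀}) F₀) π))) →
          pV = Ideal.span {aeval b (derivative (minpoly O₀ b))} ∧
          ∃ aF : S₁, aF * aeval b (derivative (minpoly O₀ b)) =
              algebraMap O₀ S₁ (algebraMap (integralClosure (Algebra.adjoin R {T₀}) F₀) O₀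
                (algebraMap R (integralClosure (Algebra.adjoin R {T₀}) F₀) π)) ∧
            pF = Ideal.span {aF}) := by
  obtain ⟨s, pF, pV, -, D⟩ := b6c_bData H hprime z' hπz ht₀ hreg hres hperf O₀ S₁
  have hπO : algebraMap O₀ F₁ (algebraMap (integralClosure (Algebra.adjoin R {T₀}) F₀) O₀
      (algebraMap R (integralClosure (Algebra.adjoin R {T₀}) F₀) π)) = algebraMap R F₁ π := by
    rw [b6_map_B O₀, IsScalarTower.algebraMap_apply R F₀ F₁]
    rfl
  have hπS : algebraMap S₁ F₁ (algebraMap O₀ S₁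
      (algebraMap (integralClosure (Algebra.adjoin R {T₀}) F₀) O₀
      (algebraMap R (integralClosure (Algebra.adjoin R {T₀}) F₀) π))) = algebraMap R F₁ π := by
    rw [← IsScalarTower.algebraMap_apply O₀ S₁ F₁, hπO]
  obtain ⟨G, hG⟩ := b6c_frob H z' t₀ O₀ S₁ D hπS
  have hufd : UniqueFactorizationMonoid O₀ := a1_ufd D.max_eq D.prime_pi
  obtain ⟨b, hb⟩ := D.exists_gen (n := r ^ 2) (by nlinarith) hG
  refine ⟨s, pF, pV, D, hufd, b, hb, fun hint => ?_⟩
  exact D.thick_of_gen (F₀ := F₀) hb (fun c hc => H.hFV c hc) hyF hyV hgen hdF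
    (by rw [hπO]; exact hdV) (by rw [hπO]; exact hdV') hint

end local_

end Fermat.Agent.CARlib
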