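import Fermat.Agent.CAR.BTopMid
import Fermat.Agent.CAR.B6d
import Fermat.Agent.CAR.B6e
import Fermat.Agent.CAR.B7Conc
import Fermat.Agent.CAR.B9Norm
import Fermat.Agent.CAR.X0FK
import Fermat.Agent.CAR.V3Diff
import Fermat.Agent.CAR.BTopGen
import Fermat.Agent.CAR.BInstFK
import Fermat.Agent.CAR.CInst
import Fermat.Agent.CAR.VDefs

/-!
# T-CAR, block B: the modular instantiation of `bTop_cLev1` (both charts of `X₀(N)`)
-/

set_option autoImplicit false
set_option linter.unusedSectionVars false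
set_option linter.style.haveILetI false

open Polynomial IntermediateField IsLocalRing ModularCurve
open Fermat.Agent.S24lib Fermat.Agent.ESlib Fermat.Agent.UNIlib

namespace Fermat.Agent.CARlib

variable {R K : Type} [CommRing R] [IsDomain R] [IsDiscreteValuationRing R] [Field K] [Algebra R K]
  [IsFractionRing R K] [CharZero K] [Algebra ℚ K] [Algebra K ℂ] [IsScalarTower ℚ K ℂ]
  [Algebra R ℂ] [IsScalarTower R K ℂ] {N r : ℕ} [NeZero N] [NeZero r] [NeZero (N * r)]
  [CharP (IsLocalRing.ResidueField R) r]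
  [Algebra R (FK K N)] [IsScalarTower R K (FK K N)]
  [Algebra R (FK K (N * r))] [IsScalarTower R K (FK K (N * r))]

theorem bTopc_b9 {π : R} (hπ : Irreducible π) (hr : r.Prime) (hrN : ¬ r ∣ N)
    (h49 : 4 ∣ N ∨ 9 ∣ N) :
    letI : Algebra (FK K N) (FK K (N * r)) := (oldI K N r).toAlgebra
    B9Prov R (FK K (N * r)) π (J1 K N) := by
  letI : Algebra (FK K N) (FK K (N * r)) := (oldI K N r).toAlgebra
  haveI := binst_finiteDimensional K hr hrN
  haveI := binst_isSeparable K hr hrN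
  intro O₀ S₁ _ _ _ _ _ _ _ _ _ _ _ _ _ _ _ hp hJ b hb
  exact b9_hint K (dvd_mul_right N r) h49 (fun f => rfl) hp (fun c => b9_hK hπ c) hJ hb

theorem bTopc_b7 {π : R} (hπ : Irreducible π) (hr : r.Prime) (hrN : ¬ r ∣ N) :
    letI : Algebra (FK K N) (FK K (N * r)) := (oldI K N r).toAlgebra
    B7Prov R π (J1 K N) (gaussVal R K (N * r)) (wr K hr hrN).toRingEquiv := by
  letI : Algebra (FK K N) (FK K (N * r)) := (oldI K N r).toAlgebra
  intro O₀ S₁ _ _ _ _ _ _ _ _ pF pV hpF hpV c hc hcJ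
  refine b7_cusp hπ hr hrN hpF hpV c hc ?_
  rw [hcJ, ← tv_incl_J1 (K := K) (N := N) (r := r)]
  rfl

theorem bTopc_dich (a : ℕ) [NeZero a] (ha : a = 2 ∨ a = 3) (haN : a ∣ N)
    (hu : IsUnit (a : R)) : B7Dich R (tF K N a ha haN) (J1 K N) := by
  intro O _ _ _ _ _ T' hT'
  refine b7_dich_tF a ha haN ?_ T' hT'
  have := hu.map (algebraMap R O)
  rwa [map_natCast] at this

theorem bTopc_dich_inv (a : ℕ) [NeZero a] (ha : a = 2 ∨ a = 3) (haN : a ∣ N) :
    B7Dich R (tF K N a ha haN)⁻¹ (J1 K N) := by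
  intro O _ _ _ _ _ T' hT'
  exact b7_dich_tF_inv a ha haN T' hT'

/-- `DIFF` for `π = r` -/
theorem bTopc_diff (hr : r.Prime) (hrN : ¬ r ∣ N) :
    letI : Algebra (FK K N) (FK K (N * r)) := (oldI K N r).toAlgebra
    (aeval (jr K N r) (derivative (minpoly (FK K N) (jr K N r))))⁻¹ ∈ gaussVal R K (N * r) ∧
    (wr K hr hrN).toRingEquiv (aeval (jr K N r) (derivative (minpoly (FK K N) (jr K N r))) /
      algebraMap R (FK K (N * r)) ((r : ℕ) : R)) ∈ gaussVal R K (N * r) ∧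
    (wr K hr hrN).toRingEquiv (algebraMap R (FK K (N * r)) ((r : ℕ) : R) /
      aeval (jr K N r) (derivative (minpoly (FK K N) (jr K N r)))) ∈ gaussVal R K (N * r) := by
  letI : Algebra (FK K N) (FK K (N * r)) := (oldI K N r).toAlgebra
  have hr0 : (r : FK K (N * r)) ≠ 0 := by
    haveI := binst_charZero K (N * r)
    exact Nat.cast_ne_zero.2 hr.ne_zero
  rw [map_natCast]
  exact v3_diff (R := R) (π := (r : FK K (N * r))) rfl hr hrN
    (by rw [div_self hr0]; exact one_mem _) (by rw [div_self hr0]; exact one_mem _)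
    (map_natCast _ _)

set_option maxHeartbeats 400000 in
/-- generic chart -/
theorem bTopc_chart (hπ : Irreducible ((r : ℕ) : R)) (hr : r.Prime) (hrN : ¬ r ∣ N)
    (hN : IsUnit (N : R)) (h49 : 4 ∣ N ∨ 9 ∣ N) [IsAlgClosed (ResidueField R)] (T₀ : FK K N)
    [IsFractionRing (integralClosure (Algebra.adjoin R {T₀}) (FK K N)) (FK K N)]
    [IsNoetherianRing (integralClosure (Algebra.adjoin R {T₀}) (FK K N))]
    [IsIntegrallyClosed (integralClosure (Algebra.adjoin R {T₀}) (FK K N))]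
    {γ : FK K (N * r) ≃+* FK K (N * r)}
    (H : letI : Algebra (FK K N) (FK K (N * r)) := (oldI K N r).toAlgebra
      B6Hyp ((r : ℕ) : R) T₀ (gaussVal R K (N * r)) (wr K hr hrN).toRingEquiv γ r)
    (hprime : Prime (algebraMap R (integralClosure (Algebra.adjoin R {T₀}) (FK K N))
      ((r : ℕ) : R)))
    (hreg : ∀ z' : Ideal (integralClosure (Algebra.adjoin R {T₀}) (FK K N)), z'.IsMaximal →
      algebraMap R (integralClosure (Algebra.adjoin R {T₀}) (FK K N)) ((r : ℕ) : R) ∈ z' →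
      ∃ t₀ ∈ z', ∀ g ∈ z', ∃ u, u ∉ z' ∧ u * g ∈
        Ideal.span {algebraMap R (integralClosure (Algebra.adjoin R {T₀}) (FK K N))
          ((r : ℕ) : R), t₀})
    (hd : B7Dich R T₀ (J1 K N)) :
    C.CLev1 (algebraMap R (integralClosure
      (Algebra.adjoin R {inclF K (dvd_mul_right N r) T₀}) (FK K (N * r))) ((r : ℕ) : R))
      (VF1 R K N r) (VV1 (K := K) R hr hrN) (C.cCen _ (VF1 R K N r))
      (C.cCen _ (VV1 (K := K) R hr hrN)) := by
  letI : Algebra (FK K N) (FK K (N * r)) := (oldI K N r).toAlgebra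
  haveI := binst_finiteDimensional K hr hrN
  haveI := binst_isSeparable K hr hrN
  haveI := binst_isScalarTower (N := N) (r := r) K R
  have hN' := natCast_residueField_ne_zero_of_isUnit hN
  obtain ⟨hdF, hdV, hdV'⟩ := bTopc_diff (R := R) (K := K) hr hrN
  have Hn := H.node.nodeHyp ((γ : FK K (N * r) →+* FK K (N * r)).comp
    (γ : FK K (N * r) →+* FK K (N * r))) (fun x => rfl)
  have memF : ∀ b : integralClosure (Algebra.adjoin R {algebraMap (FK K N) (FK K (N * r)) T₀})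
      (FK K (N * r)), b ∈ C.cCen _ (gaussVal R K (N * r)) ↔
      (gaussVal R K (N * r)).valuation (algebraMap _ (FK K (N * r)) b) < 1 :=
    C.mem_cCen fun b => Hn.int_mem₁ _ b.2
  have memV : ∀ b : integralClosure (Algebra.adjoin R {algebraMap (FK K N) (FK K (N * r)) T₀})
      (FK K (N * r)), b ∈ C.cCen _ ((gaussVal R K (N * r)).comap
        ((wr K hr hrN).toRingEquiv : FK K (N * r) →+* FK K (N * r))) ↔
      ((gaussVal R K (N * r)).comap
        ((wr K hr hrN).toRingEquiv : FK K (N * r) →+* FK K (N * r))).valuation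
        (algebraMap _ (FK K (N * r)) b) < 1 :=
    C.mem_cCen fun b => Hn.int_mem₂ _ b.2
  have hres := fun (z' : Ideal (integralClosure (Algebra.adjoin R {T₀}) (FK K N)))
    (hz' : z'.IsMaximal) hπz => b6d_res hπ T₀ z' hz' hπz
  have hperf := b6d_perf (R := R) hπ hr.pos
  have h9 := bTopc_b9 (K := K) hπ hr hrN h49
  have h7 := bTopc_b7 (K := K) hπ hr hrN
  have hyF := btg_hyF (R := R) (K := K) (N := N) (r := r)
  have hyV := btg_hyV (R := R) (K := K) hr hrN
  have hgen := btg_hgen (R := R) (K := K) hr hrN hN'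
  have key := bTop_cLev1 (R := R) (F₀ := FK K N) (F₁ := FK K (N * r)) (π := ((r : ℕ) : R))
    (T₀ := T₀) (V₁ := gaussVal R K (N * r)) (w := (wr K hr hrN).toRingEquiv) (γ := γ) (r := r)
    H hprime hreg hres hperf (y := jr K N r) hyF hyV hgen hdF hdV hdV' h9 h7 hd memF memV
  exact key

variable {s : K ≃ₐ[ℚ] K} {sR : R →+* R}

/-- **block B, final output, chart `tF`** -/
theorem bTop_conc (h : InvFrob ((r : ℕ) : R) r s sR) (hπ : Irreducible ((r : ℕ) : R))
    (hr : r.Prime) (hrN : ¬ r ∣ N) (hN : IsUnit (N : R)) (h49 : 4 ∣ N ∨ 9 ∣ N)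
    [IsAlgClosed (ResidueField R)] (a : ℕ) [NeZero a] (ha : a = 2 ∨ a = 3) (haN : a ∣ N)
    (hζN : ∃ z : K, IsPrimitiveRoot z N) :
    C.CLev1 (algebraMap R (integralClosure
      (Algebra.adjoin R {inclF K (dvd_mul_right N r) (tF K N a ha haN)}) (FK K (N * r)))
      ((r : ℕ) : R))
      (VF1 R K N r) (VV1 (K := K) R hr hrN) (C.cCen _ (VF1 R K N r))
      (C.cCen _ (VV1 (K := K) R hr hrN)) := by
  haveI := binst_isFractionRing_tF K R N a ha haN
  haveI := binst_isIntegrallyClosed_tF K R N a ha haN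
  obtain ⟨hG, -⟩ := goodChart_tF (R := R) (K := K) N hπ hN a ha haN hζN
  haveI := hG.2.1
  haveI : IsNoetherianRing (integralClosure (Algebra.adjoin R {tF K N a ha haN}) (FK K N)) :=
    x0_isNoetherianRing hG.1
  have haR : IsUnit (a : R) := by
    obtain ⟨k, rfl⟩ := haN
    rw [Nat.cast_mul] at hN
    exact isUnit_of_mul_isUnit_left hN
  refine bTopc_chart hπ hr hrN hN h49 (tF K N a ha haN)
    (b6e_hyp h hπ hr hrN hN a ha haN hζN).1 ?_ ?_ (bTopc_dich a ha haN haR)
  · exact x0_prime (K := K) (V := gaussVal R K N) hπ hG.1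
      (fun x => (x0_piInt_tF_iff N hπ hN a ha haN x).1) (fun x _ => x0_gauss_unif N hπ x)
      (x0_gauss_pi_inv N hπ)
  · intro z' hz' hπz
    obtain ⟨-, -, t, ht, h1, -⟩ := x0_regular_tF N hπ hN a ha haN hζN z' hπz
    exact ⟨t, ht, h1⟩

/-- **block B, final output, chart `tF⁻¹`** -/
theorem bTop_conc_inv (h : InvFrob ((r : ℕ) : R) r s sR) (hπ : Irreducible ((r : ℕ) : R))
    (hr : r.Prime) (hrN : ¬ r ∣ N) (hN : IsUnit (N : R)) (h49 : 4 ∣ N ∨ 9 ∣ N)
    [IsAlgClosed (ResidueField R)] (a : ℕ) [NeZero a] (ha : a = 2 ∨ a = 3) (haN : a ∣ N)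
    (hζN : ∃ z : K, IsPrimitiveRoot z N) :
    C.CLev1 (algebraMap R (integralClosure
      (Algebra.adjoin R {inclF K (dvd_mul_right N r) (tF K N a ha haN)⁻¹}) (FK K (N * r)))
      ((r : ℕ) : R))
      (VF1 R K N r) (VV1 (K := K) R hr hrN) (C.cCen _ (VF1 R K N r))
      (C.cCen _ (VV1 (K := K) R hr hrN)) := by
  haveI := binst_isFractionRing_tF_inv K R N a ha haN
  haveI := binst_isIntegrallyClosed_tF_inv K R N a ha haN
  obtain ⟨-, hG⟩ := goodChart_tF (R := R) (K := K) N hπ hN a ha haN hζN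
  haveI := hG.2.1
  haveI : IsNoetherianRing (integralClosure (Algebra.adjoin R {(tF K N a ha haN)⁻¹}) (FK K N)) :=
    x0_isNoetherianRing hG.1
  refine bTopc_chart hπ hr hrN hN h49 (tF K N a ha haN)⁻¹
    (b6e_hyp h hπ hr hrN hN a ha haN hζN).2 ?_ ?_ (bTopc_dich_inv a ha haN)
  · exact x0_prime (K := K) (V := gaussVal R K N) hπ hG.1
      (fun x => (x0_piInt_tF_iff N hπ hN a ha haN x).2) (fun x _ => x0_gauss_unif N hπ x)
      (x0_gauss_pi_inv N hπ)
  · intro z' hz' hπz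
    obtain ⟨-, -, t, ht, h1, -⟩ := x0_regular_tF_inv N hπ hN a ha haN hζN z' hπz
    exact ⟨t, ht, h1⟩

end Fermat.Agent.CARlib
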