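import Fermat.Agent.CAR.BTopMid

/-!
# T-CAR, block B: `hBTop` (the input of CHmid) for abstract fields, with the SAME hypothesis list as
`bTop_cLev1`
-/

set_option autoImplicit false
set_option linter.unusedSectionVars false
set_option linter.style.haveILetI false

open Polynomial IsLocalRing
open Fermat.Agent.ESlib Fermat.Agent.UNIlib

namespace Fermat.Agent.CARlib

section mid

variable {R F₀ F₁ : Type} [CommRing R] [Field F₀] [Field F₁] [Algebra R F₀] [Algebra R F₁]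
  [Algebra F₀ F₁] [IsScalarTower R F₀ F₁] [FiniteDimensional F₀ F₁] [Algebra.IsSeparable F₀ F₁]
  {π : R} {T₀ : F₀} {V₁ : ValuationSubring F₁} {w γ : F₁ ≃+* F₁} {r : ℕ}

set_option maxHeartbeats 4000000 in
/-- **block B, second global output**: at every NON-CUSPIDAL closed point `z'` the ring `S₁` is
monogenic over `O₀` and the different `θ_b` divides `π` -/
theorem bTop_hBTop [IsFractionRing (integralClosure (Algebra.adjoin R {T₀}) F₀) F₀]
    [IsNoetherianRing (integralClosure (Algebra.adjoin R {T₀}) F₀)]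
    [IsIntegrallyClosed (integralClosure (Algebra.adjoin R {T₀}) F₀)]
    (H : B6Hyp π T₀ V₁ w γ r)
    (hprime : Prime (algebraMap R (integralClosure (Algebra.adjoin R {T₀}) F₀) π))
    (hreg : ∀ z' : Ideal (integralClosure (Algebra.adjoin R {T₀}) F₀), z'.IsMaximal →
      algebraMap R (integralClosure (Algebra.adjoin R {T₀}) F₀) π ∈ z' →
      ∃ t₀ ∈ z', ∀ g ∈ z', ∃ u, u ∉ z' ∧ u * g ∈
        Ideal.span {algebraMap R (integralClosure (Algebra.adjoin R {T₀}) F₀) π, t₀})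
    (hres : ∀ z' : Ideal (integralClosure (Algebra.adjoin R {T₀}) F₀), z'.IsMaximal →
      algebraMap R (integralClosure (Algebra.adjoin R {T₀}) F₀) π ∈ z' →
      ∀ b : integralClosure (Algebra.adjoin R {T₀}) F₀, ∃ c : R,
        b - algebraMap R (integralClosure (Algebra.adjoin R {T₀}) F₀) c ∈ z')
    (hperf : ∀ c : R, ∃ c₁ : R, π ∣ c - c₁ ^ r)
    {y : F₁} (hyF : y ∈ V₁) (hyV : w y ∈ V₁)
    (hgen : ∀ z ∈ V₁, w z ∈ V₁ → ∃ P : F₀[X], (∀ i, algebraMap F₀ F₁ (P.coeff i) ∈ V₁) ∧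
      aeval y P = z)
    (hdF : (aeval y (derivative (minpoly F₀ y)))⁻¹ ∈ V₁)
    (hdV : w (aeval y (derivative (minpoly F₀ y)) / algebraMap R F₁ π) ∈ V₁)
    (hdV' : w (algebraMap R F₁ π / aeval y (derivative (minpoly F₀ y))) ∈ V₁)
    {J : F₀} (h9 : B9Prov R F₁ π J) (h7 : B7Prov R π J V₁ w) (hd : B7Dich R T₀ J) :
    ∀ (z' : Ideal (integralClosure (Algebra.adjoin R {T₀}) F₀)) [z'.IsMaximal],
      algebraMap R (integralClosure (Algebra.adjoin R {T₀}) F₀) π ∈ z' →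
      (∃ c : C.CO₀ F₀ z', algebraMap (C.CO₀ F₀ z') F₀ c = J) →
      ∃ b aF : C.CS₁ F₀ F₁ z', Algebra.adjoin (C.CO₀ F₀ z') {b} = ⊤ ∧
        aF * aeval b (derivative (minpoly (C.CO₀ F₀ z') b)) =
          algebraMap (C.CO₀ F₀ z') (C.CS₁ F₀ F₁ z')
            (algebraMap (integralClosure (Algebra.adjoin R {T₀}) F₀) (C.CO₀ F₀ z')
              (algebraMap R (integralClosure (Algebra.adjoin R {T₀}) F₀) π)) := by
  intro z' hz' hπz hJ
  obtain ⟨t, s, pF', pV', D, ⟨b, hb⟩, hth, hnode⟩ := bTop_local H hprime z' hπz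
    (hreg z' hz' hπz) (hres z' hz' hπz) hperf hyF hyV hgen hdF hdV hdV' h9 h7 hd
  obtain ⟨hV, aF, haF, hF⟩ := hth hJ b hb
  exact ⟨b, aF, hb, haF⟩

end mid

end Fermat.Agent.CARlib
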