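import Fermat.Agent.CAR.CLev1Of
import Fermat.Agent.CAR.BDefs
import Fermat.Agent.UNI.Node

/-!
# T-CAR, block C: the bundle `CLev1` for the global ring `B₁` from the semilocal data of block B

* `CO₀ F₀ z'`, `CS₁ F₀ F₁ z'`: a CONCRETE choice of the local ring `O₀` of `B₀` at `z'` (inside `F₀`) and
  of its integral closure `S₁` in `F₁`, with all the instances of `BIface` §B45;
* `cCentre W hsub`: the centre of a valuation ring on `B`;
* `cLev1_of_local`: `CLev1` from `NodeHyp` + (`BData` + thickness one at the nodes) at every `z'`.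
-/

set_option autoImplicit false

open IsLocalRing Polynomial

namespace Fermat.Agent.CARlib.C

open Fermat.Agent.ESlib Fermat.Agent.UNIlib Fermat.Agent.CARlib

section choice

variable {B₀ : Type*} (F₀ F₁ : Type*) [CommRing B₀] [IsDomain B₀] [Field F₀] [Field F₁] [Algebra B₀ F₀]
  [IsFractionRing B₀ F₀] [Algebra F₀ F₁]

/-- the local ring of `B₀` at `z'` (realised inside `F₀`) -/
def CO₀ (z' : Ideal B₀) [z'.IsPrime] : Type _ :=
  ↥(Localization.subalgebra.ofField F₀ z'.primeCompl z'.primeCompl_le_nonZeroDivisors)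

variable (z' : Ideal B₀) [z'.IsPrime]

noncomputable instance CO₀.commRing : CommRing (CO₀ F₀ z') :=
  inferInstanceAs (CommRing
    ↥(Localization.subalgebra.ofField F₀ z'.primeCompl z'.primeCompl_le_nonZeroDivisors))

instance CO₀.isDomain : IsDomain (CO₀ F₀ z') :=
  inferInstanceAs (IsDomain
    ↥(Localization.subalgebra.ofField F₀ z'.primeCompl z'.primeCompl_le_nonZeroDivisors))

noncomputable instance CO₀.algebra : Algebra B₀ (CO₀ F₀ z') :=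
  inferInstanceAs (Algebra B₀
    ↥(Localization.subalgebra.ofField F₀ z'.primeCompl z'.primeCompl_le_nonZeroDivisors))

noncomputable instance CO₀.algebra₀ : Algebra (CO₀ F₀ z') F₀ :=
  inferInstanceAs (Algebra
    ↥(Localization.subalgebra.ofField F₀ z'.primeCompl z'.primeCompl_le_nonZeroDivisors) F₀)

noncomputable instance CO₀.algebra₁ : Algebra (CO₀ F₀ z') F₁ :=
  inferInstanceAs (Algebra
    ↥(Localization.subalgebra.ofField F₀ z'.primeCompl z'.primeCompl_le_nonZeroDivisors) F₁)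

instance CO₀.isLocalization : IsLocalization.AtPrime (CO₀ F₀ z') z' :=
  inferInstanceAs (IsLocalization z'.primeCompl
    ↥(Localization.subalgebra.ofField F₀ z'.primeCompl z'.primeCompl_le_nonZeroDivisors))

instance CO₀.isFractionRing : IsFractionRing (CO₀ F₀ z') F₀ :=
  inferInstanceAs (IsFractionRing
    ↥(Localization.subalgebra.ofField F₀ z'.primeCompl z'.primeCompl_le_nonZeroDivisors) F₀)

instance CO₀.tower₀ : IsScalarTower B₀ (CO₀ F₀ z') F₀ :=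
  inferInstanceAs (IsScalarTower B₀
    ↥(Localization.subalgebra.ofField F₀ z'.primeCompl z'.primeCompl_le_nonZeroDivisors) F₀)

instance CO₀.tower₁ : IsScalarTower (CO₀ F₀ z') F₀ F₁ :=
  inferInstanceAs (IsScalarTower
    ↥(Localization.subalgebra.ofField F₀ z'.primeCompl z'.primeCompl_le_nonZeroDivisors) F₀ F₁)

instance CO₀.isLocalRing : IsLocalRing (CO₀ F₀ z') := IsLocalization.AtPrime.isLocalRing _ z'

instance CO₀.isNoetherianRing [IsNoetherianRing B₀] : IsNoetherianRing (CO₀ F₀ z') :=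
  IsLocalization.isNoetherianRing z'.primeCompl _ inferInstance

instance CO₀.isIntegrallyClosed [IsIntegrallyClosed B₀] : IsIntegrallyClosed (CO₀ F₀ z') :=
  isIntegrallyClosed_of_isLocalization _ z'.primeCompl z'.primeCompl_le_nonZeroDivisors

/-- the integral closure of `CO₀ F₀ z'` in `F₁` -/
def CS₁ : Type _ := ↥(integralClosure (CO₀ F₀ z') F₁)

noncomputable instance CS₁.commRing : CommRing (CS₁ F₀ F₁ z') :=
  inferInstanceAs (CommRing ↥(integralClosure (CO₀ F₀ z') F₁))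

instance CS₁.isDomain : IsDomain (CS₁ F₀ F₁ z') :=
  inferInstanceAs (IsDomain ↥(integralClosure (CO₀ F₀ z') F₁))

noncomputable instance CS₁.algebra : Algebra (CO₀ F₀ z') (CS₁ F₀ F₁ z') :=
  inferInstanceAs (Algebra (CO₀ F₀ z') ↥(integralClosure (CO₀ F₀ z') F₁))

noncomputable instance CS₁.algebra₁ : Algebra (CS₁ F₀ F₁ z') F₁ :=
  inferInstanceAs (Algebra ↥(integralClosure (CO₀ F₀ z') F₁) F₁)

instance CS₁.tower : IsScalarTower (CO₀ F₀ z') (CS₁ F₀ F₁ z') F₁ :=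
  Subalgebra.isScalarTower_mid (integralClosure (CO₀ F₀ z') F₁)

instance CS₁.isIntegralClosure : IsIntegralClosure (CS₁ F₀ F₁ z') (CO₀ F₀ z') F₁ :=
  inferInstanceAs (IsIntegralClosure ↥(integralClosure (CO₀ F₀ z') F₁) (CO₀ F₀ z') F₁)

instance CS₁.finite [IsNoetherianRing B₀] [IsIntegrallyClosed B₀] [FiniteDimensional F₀ F₁]
    [Algebra.IsSeparable F₀ F₁] : Module.Finite (CO₀ F₀ z') (CS₁ F₀ F₁ z') :=
  IsIntegralClosure.finite (CO₀ F₀ z') F₀ F₁ (CS₁ F₀ F₁ z')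

instance CS₁.isFractionRing [FiniteDimensional F₀ F₁] : IsFractionRing (CS₁ F₀ F₁ z') F₁ :=
  integralClosure.isFractionRing_of_finite_extension F₀ F₁

end choice

/-- the centre of the valuation ring `W` on `B` -/
def cCentre {B F : Type*} [CommRing B] [Field F] [Algebra B F] (W : ValuationSubring F)
    (hsub : ∀ b : B, algebraMap B F b ∈ W) : Ideal B :=
  Ideal.comap ((algebraMap B F).codRestrict W.toSubring hsub) (maximalIdeal W)

theorem mem_cCentre {B F : Type*} [CommRing B] [Field F] [Algebra B F] (W : ValuationSubring F)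
    (hsub : ∀ b : B, algebraMap B F b ∈ W) (b : B) :
    b ∈ cCentre W hsub ↔ W.valuation (algebraMap B F b) < 1 := by
  rw [cCentre, Ideal.mem_comap]
  exact W.valuation_lt_one_iff _

section bdata

variable {R F₀ F₁ : Type*} [CommRing R] [Field F₀] [Field F₁] [Algebra R F₀] [Algebra R F₁]
  [Algebra F₀ F₁] [IsScalarTower R F₀ F₁]

theorem cI₀_isIntegralHom (T₀ : F₀) : (cI₀ R F₁ T₀).IsIntegral := by
  intro b
  obtain ⟨q, hq, hb⟩ := cI₀_isIntegral T₀ b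
  refine ⟨q, hq, ?_⟩
  apply Subtype.ext
  have h := hom_eval₂ q (cI₀ R F₁ T₀)
    (integralClosure (Algebra.adjoin R {algebraMap F₀ F₁ T₀}) F₁).val.toRingHom b
  exact h.trans hb

/-- the dictionary for the concrete global rings and ANY `O₀`, `S₁` -/
theorem cDict_concrete (T₀ : F₀)
    (𝔫₁ : Ideal (integralClosure (Algebra.adjoin R {algebraMap F₀ F₁ T₀}) F₁)) [𝔫₁.IsPrime]
    (O₀ S₁ : Type*) [CommRing O₀] [IsLocalRing O₀]
    [Algebra (integralClosure (Algebra.adjoin R {T₀}) F₀) O₀]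
    [IsLocalization.AtPrime O₀ (𝔫₁.comap (cI₀ R F₁ T₀))]
    [Algebra O₀ F₀] [IsScalarTower (integralClosure (Algebra.adjoin R {T₀}) F₀) O₀ F₀]
    [Algebra O₀ F₁] [IsScalarTower O₀ F₀ F₁] [CommRing S₁] [Algebra O₀ S₁] [Algebra S₁ F₁]
    [IsScalarTower O₀ S₁ F₁] [IsIntegralClosure S₁ O₀ F₁] :
    CDict (S₁ := S₁) (F₁ := F₁) (cI₀ R F₁ T₀)
      (algebraMap (integralClosure (Algebra.adjoin R {T₀}) F₀) O₀) 𝔫₁ := by
  have : IsScalarTower (integralClosure (Algebra.adjoin R {T₀}) F₀) O₀ F₁ :=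
    IsScalarTower.of_algebraMap_eq fun m => by
      rw [IsScalarTower.algebraMap_apply O₀ F₀ F₁,
        ← IsScalarTower.algebraMap_apply (integralClosure (Algebra.adjoin R {T₀}) F₀) O₀ F₀]
      rfl
  exact cDict_of_isLocalization (cI₀ R F₁ T₀) 𝔫₁ (fun _ => rfl) Subtype.val_injective
    (cI₀_isIntegral T₀) (fun z hz => ⟨⟨z, cI₀_closed T₀ z hz⟩, rfl⟩)

end bdata

section generic

variable {B₀ B₁ O₀ S₁ F₁ : Type*} [CommRing B₀] [CommRing B₁] [CommRing O₀] [IsLocalRing O₀]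
  [CommRing S₁] [Field F₁] [Algebra B₁ F₁] [Algebra O₀ S₁] [Algebra S₁ F₁]
  {i₀ : B₀ →+* B₁} {l₀ : B₀ →+* O₀} {𝔫₁ : Ideal B₁}
  {π' t : O₀} {s : S₁} {pF' pV' : Ideal S₁} {VF VV : ValuationSubring F₁} {r : ℕ}

theorem cLev1Of_mem_pF (D : BData O₀ S₁ F₁ π' t s pF' pV' VF VV r) {pF : Ideal B₁}
    (memF : ∀ b : B₁, b ∈ pF ↔ VF.valuation (algebraMap B₁ F₁ b) < 1) (b : B₁) (x : S₁)
    (hx : algebraMap S₁ F₁ x = algebraMap B₁ F₁ b) (h : x ∈ pF') : b ∈ pF := by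
  rw [memF, ← hx]
  exact val_lt_one_of_div_mem D.pi_VF ((D.mem_pF x).1 h)

theorem cLev1Of_mem_pV (D : BData O₀ S₁ F₁ π' t s pF' pV' VF VV r) {pV : Ideal B₁}
    (memV : ∀ b : B₁, b ∈ pV ↔ VV.valuation (algebraMap B₁ F₁ b) < 1) (b : B₁) (x : S₁)
    (hx : algebraMap S₁ F₁ x = algebraMap B₁ F₁ b) (h : x ∈ pV') : b ∈ pV := by
  rw [memV, ← hx]
  exact val_lt_one_of_div_mem D.pi_VV ((D.mem_pV x).1 h)

theorem cLev1Of_pi_mem_pV (D : BData O₀ S₁ F₁ π' t s pF' pV' VF VV r) :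
    algebraMap O₀ S₁ π' ∈ pV' := by
  rw [D.mem_pV, div_self]
  · exact VV.one_mem
  · intro h0
    exact D.pi_VV (by rw [h0, inv_zero]; exact VV.zero_mem)

/-- `CLev1.dvrV` at `𝔫₁` from `BData` -/
theorem cLev1Of_dvrV_bData (H : CDict (S₁ := S₁) (F₁ := F₁) i₀ l₀ 𝔫₁) [𝔫₁.IsPrime]
    (D : BData O₀ S₁ F₁ π' t s pF' pV' VF VV r) {pV : Ideal B₁}
    (memV : ∀ b : B₁, b ∈ pV ↔ VV.valuation (algebraMap B₁ F₁ b) < 1) (hle : pV ≤ 𝔫₁) :
    CDvr 𝔫₁ pV :=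
  cLev1Of_dvrV H hle (cLev1Of_mem_pV D memV) D.max_eq (cLev1Of_pi_mem_pV D) D.r_pos D.surjV D.s_pow

/-- `CLev1.thick` at `𝔫₁` from `BData` + thickness one of `S₁` at the nodes -/
theorem cLev1Of_thick_bData (H : CDict (S₁ := S₁) (F₁ := F₁) i₀ l₀ 𝔫₁) [𝔫₁.IsPrime] {π₀ : B₀}
    (D : BData O₀ S₁ F₁ (l₀ π₀) t s pF' pV' VF VV r) {pF pV : Ideal B₁}
    (memF : ∀ b : B₁, b ∈ pF ↔ VF.valuation (algebraMap B₁ F₁ b) < 1)
    (memV : ∀ b : B₁, b ∈ pV ↔ VV.valuation (algebraMap B₁ F₁ b) < 1)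
    (hleF : pF ≤ 𝔫₁) (hleV : pV ≤ 𝔫₁)
    (hth : pF' ⊔ pV' ≠ ⊤ → ∃ aF θ : S₁, aF * θ = algebraMap O₀ S₁ (l₀ π₀) ∧ aF ∈ pF' ∧ θ ∈ pV') :
    ∃ a b c : B₁, a * b = i₀ π₀ * c ∧ c ∉ 𝔫₁ ∧ a ∈ pF ∧ b ∈ pV := by
  obtain ⟨aF, θ, h1, h2, h3⟩ := hth
    (cLev1Of_sup_ne_top H hleF hleV (cLev1Of_mem_pF D memF) (cLev1Of_mem_pV D memV))
  exact cLev1Of_thick H (cLev1Of_mem_pF D memF) (cLev1Of_mem_pV D memV) h1 h2 h3

end generic

section top

variable {R F₀ F₁ : Type*} [CommRing R] [Field F₀] [Field F₁] [Algebra R F₀] [Algebra R F₁]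
  [Algebra F₀ F₁] [IsScalarTower R F₀ F₁]

/-- `CLev1.normV` from `NodeHyp.norm₂` -/
theorem cLev1Of_normV {R F : Type*} [CommRing R] [Field F] [Algebra R F] {π : R} {T : F}
    {VF VV : ValuationSubring F} {q : ℕ} {ρ : F →+* F} (H : NodeHyp π T VF VV q ρ)
    (unifV : ∀ x : F, VV.valuation x < 1 → x / algebraMap R F π ∈ VV)
    (hpi : (algebraMap R F π)⁻¹ ∉ VV) (Z : F) (hZ : Z ∈ VV)
    (p : (integralClosure (Algebra.adjoin R {T}) F)[X]) (hp : p.Monic)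
    (h : VV.valuation (aeval Z p) < 1) :
    ∃ x : integralClosure (Algebra.adjoin R {T}) F,
      VV.valuation (Z - algebraMap (integralClosure (Algebra.adjoin R {T}) F) F x) < 1 := by
  obtain ⟨x, hx, hx'⟩ := H.norm₂ Z ⟨hZ, p.map (algebraMap _ F), hp.map _, fun i => by
    rw [coeff_map]; exact (p.coeff i).2, by
    rw [eval_map_algebraMap]; exact unifV _ h⟩
  exact ⟨⟨x, hx⟩, val_lt_one_of_div_mem hpi hx'⟩

/-- **the bundle `CLev1`** for `B₁` = integral closure of `R[T₀]` in `F₁`, from `NodeHyp` and the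
semilocal data of block B at every closed point `z'` of `B₀` (`BData` + thickness one at the nodes),
for the concrete choice `O₀ = CO₀ F₀ z'`, `S₁ = CS₁ F₀ F₁ z'`. -/
theorem cLev1_of_local {π : R} {T₀ : F₀} {VF VV : ValuationSubring F₁} {q r : ℕ} {ρ : F₁ →+* F₁}
    [IsFractionRing (integralClosure (Algebra.adjoin R {T₀}) F₀) F₀]
    (H : NodeHyp π (algebraMap F₀ F₁ T₀) VF VV q ρ)
    (unifV : ∀ x : F₁, VV.valuation x < 1 → x / algebraMap R F₁ π ∈ VV)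
    (hpi : (algebraMap R F₁ π)⁻¹ ∉ VV)
    {pF pV : Ideal (integralClosure (Algebra.adjoin R {algebraMap F₀ F₁ T₀}) F₁)}
    (memF : ∀ b, b ∈ pF ↔ VF.valuation (algebraMap _ F₁ b) < 1)
    (memV : ∀ b, b ∈ pV ↔ VV.valuation (algebraMap _ F₁ b) < 1)
    (hloc : ∀ (z' : Ideal (integralClosure (Algebra.adjoin R {T₀}) F₀)) [z'.IsMaximal],
      algebraMap R _ π ∈ z' →
      ∃ (t : CO₀ F₀ z') (s : CS₁ F₀ F₁ z') (pF' pV' : Ideal (CS₁ F₀ F₁ z')),
        BData (CO₀ F₀ z') (CS₁ F₀ F₁ z') F₁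
          (algebraMap (integralClosure (Algebra.adjoin R {T₀}) F₀) (CO₀ F₀ z')
            (algebraMap R (integralClosure (Algebra.adjoin R {T₀}) F₀) π)) t s pF' pV' VF VV r ∧
        (pF' ⊔ pV' ≠ ⊤ → ∃ aF θ : CS₁ F₀ F₁ z',
          aF * θ = algebraMap (CO₀ F₀ z') (CS₁ F₀ F₁ z')
            (algebraMap (integralClosure (Algebra.adjoin R {T₀}) F₀) (CO₀ F₀ z')
              (algebraMap R (integralClosure (Algebra.adjoin R {T₀}) F₀) π)) ∧ aF ∈ pF' ∧ θ ∈ pV')) :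
    CLev1 (algebraMap R (integralClosure (Algebra.adjoin R {algebraMap F₀ F₁ T₀}) F₁) π)
      VF VV pF pV := by
  have hπV : algebraMap R (integralClosure (Algebra.adjoin R {algebraMap F₀ F₁ T₀}) F₁) π ∈ pV := by
    rw [memV]
    exact (val_lt_one_iff VV _).2 (Or.inr hpi)
  have key : ∀ 𝔫₁ : Ideal (integralClosure (Algebra.adjoin R {algebraMap F₀ F₁ T₀}) F₁),
      𝔫₁.IsMaximal → pV ≤ 𝔫₁ → (𝔫₁.comap (cI₀ R F₁ T₀)).IsMaximal ∧
        algebraMap R _ π ∈ 𝔫₁.comap (cI₀ R F₁ T₀) := by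
    intro 𝔫₁ h𝔫 hle
    refine ⟨Ideal.isMaximal_comap_of_isIntegral_of_isMaximal' (cI₀ R F₁ T₀)
      (cI₀_isIntegralHom T₀) 𝔫₁, ?_⟩
    rw [Ideal.mem_comap, cI₀_algebraMap]
    exact hle hπV
  refine ⟨memF, memV, unifV, cLev1Of_normV H unifV hpi, ?_, ?_⟩
  · intro 𝔫₁ h𝔫 hle
    obtain ⟨hmax, hπ⟩ := key 𝔫₁ h𝔫 hle
    obtain ⟨t, s, pF', pV', D, -⟩ := hloc (𝔫₁.comap (cI₀ R F₁ T₀)) hπ
    exact cLev1Of_dvrV_bData (cDict_concrete T₀ 𝔫₁ _ _) D memV hle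
  · intro 𝔫₁ h𝔫 hleF hleV
    obtain ⟨hmax, hπ⟩ := key 𝔫₁ h𝔫 hleV
    obtain ⟨t, s, pF', pV', D, hth⟩ := hloc (𝔫₁.comap (cI₀ R F₁ T₀)) hπ
    have := cLev1Of_thick_bData (cDict_concrete T₀ 𝔫₁ _ _) D memF memV hleF hleV hth
    rwa [cI₀_algebraMap] at this

end top

end Fermat.Agent.CARlib.C
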