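import Fermat.Agent.CAR.B6c
import Fermat.Agent.CAR.B6f
import Fermat.Agent.CAR.CLev1Top
import Fermat.Agent.CAR.A1UFD
import Fermat.Agent.CAR.BTopAbs

/-!
# T-CAR, block B: the assembly for abstract fields `F₀ ⊆ F₁` (the modular inputs are hypotheses)
-/

set_option autoImplicit false
set_option linter.unusedSectionVars false
set_option linter.style.haveILetI false

open Polynomial IsLocalRing
open Fermat.Agent.ESlib Fermat.Agent.UNIlib

namespace Fermat.Agent.CARlib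

section mid

variable {R F₀ F₁ : Type} [CommRing R] [Field F₀] [Field F₁] [Algebra R F₀] [Algebra R F₁]
  [Algebra F₀ F₁] [IsScalarTower R F₀ F₁] [FiniteDimensional F₀ F₁] [Algebra.IsSeparable F₀ F₁]
  {π : R} {T₀ : F₀} {V₁ : ValuationSubring F₁} {w γ : F₁ ≃+* F₁} {r : ℕ}

/-- the statement of `b9_hint` for abstract fields -/
def B9Prov (R : Type) {F₀ : Type} (F₁ : Type) [CommRing R] [Field F₀] [Field F₁] [Algebra F₀ F₁]
    [Algebra R F₀] (π : R) (J : F₀) : Prop :=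
  ∀ (O₀ S₁ : Type) [CommRing O₀] [IsDomain O₀] [UniqueFactorizationMonoid O₀] [CommRing S₁]
    [IsDomain S₁] [Algebra O₀ S₁] [Algebra O₀ F₀] [IsFractionRing O₀ F₀] [Algebra S₁ F₁]
    [Algebra O₀ F₁] [IsScalarTower O₀ S₁ F₁] [IsScalarTower O₀ F₀ F₁] [IsIntegralClosure S₁ O₀ F₁]
    [Algebra R O₀] [IsScalarTower R O₀ F₀], Prime (algebraMap R O₀ π) →
    (∃ a : O₀, algebraMap O₀ F₀ a = J) → ∀ b : S₁, Algebra.adjoin O₀ {b} = ⊤ →
    ∃ n : O₀, algebraMap O₀ F₀ n =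
        Algebra.norm F₀ (algebraMap S₁ F₁ (aeval b (derivative (minpoly O₀ b)))) ∧
      ∀ p₀ : O₀, Prime p₀ → p₀ ∣ n → Associated p₀ (algebraMap R O₀ π)

/-- the statement of `b7_cusp` for abstract fields -/
def B7Prov (R : Type) {F₀ F₁ : Type} [CommRing R] [Field F₀] [Field F₁] [Algebra F₀ F₁]
    [Algebra R F₁] (π : R) (J : F₀) (V₁ : ValuationSubring F₁) (w : F₁ ≃+* F₁) : Prop :=
  ∀ (O₀ S₁ : Type) [CommRing O₀] [IsLocalRing O₀] [CommRing S₁] [Algebra O₀ S₁]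
    [Algebra O₀ F₁] [Algebra S₁ F₁] [IsScalarTower O₀ S₁ F₁]
    [IsIntegralClosure S₁ O₀ F₁] (pF pV : Ideal S₁),
    (∀ x : S₁, algebraMap S₁ F₁ x / algebraMap R F₁ π ∈ V₁ → x ∈ pF) →
    (∀ x : S₁, w (algebraMap S₁ F₁ x / algebraMap R F₁ π) ∈ V₁ → x ∈ pV) →
    ∀ c ∈ maximalIdeal O₀, algebraMap O₀ F₁ c = (algebraMap F₀ F₁ J)⁻¹ → pF ⊔ pV = ⊤

/-- the dichotomy cuspidal / non cuspidal for abstract fields -/
def B7Dich (R : Type) {F₀ : Type} [CommRing R] [Field F₀] [Algebra R F₀] (T₀ J : F₀) : Prop :=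
  ∀ (O : Type) [CommRing O] [IsLocalRing O] [Algebra O F₀] [Algebra R O] [IsScalarTower R O F₀]
    (T' : O), algebraMap O F₀ T' = T₀ →
    (∃ c : O, algebraMap O F₀ c = J) ∨ (∃ c ∈ maximalIdeal O, algebraMap O F₀ c = J⁻¹)

set_option maxHeartbeats 4000000 in
/-- **block B at one closed point `z'`** -/
theorem bTop_local [IsFractionRing (integralClosure (Algebra.adjoin R {T₀}) F₀) F₀]
    [IsNoetherianRing (integralClosure (Algebra.adjoin R {T₀}) F₀)]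
    [IsIntegrallyClosed (integralClosure (Algebra.adjoin R {T₀}) F₀)]
    (H : B6Hyp π T₀ V₁ w γ r)
    (hprime : Prime (algebraMap R (integralClosure (Algebra.adjoin R {T₀}) F₀) π))
    (z' : Ideal (integralClosure (Algebra.adjoin R {T₀}) F₀)) [z'.IsMaximal]
    (hπz : algebraMap R (integralClosure (Algebra.adjoin R {T₀}) F₀) π ∈ z')
    (hreg : ∃ t₀ ∈ z', ∀ g ∈ z', ∃ u, u ∉ z' ∧ u * g ∈
      Ideal.span {algebraMap R (integralClosure (Algebra.adjoin R {T₀}) F₀) π, t₀})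
    (hres : ∀ b : integralClosure (Algebra.adjoin R {T₀}) F₀, ∃ c : R,
      b - algebraMap R (integralClosure (Algebra.adjoin R {T₀}) F₀) c ∈ z')
    (hperf : ∀ c : R, ∃ c₁ : R, π ∣ c - c₁ ^ r)
    {y : F₁} (hyF : y ∈ V₁) (hyV : w y ∈ V₁)
    (hgen : ∀ z ∈ V₁, w z ∈ V₁ → ∃ P : F₀[X], (∀ i, algebraMap F₀ F₁ (P.coeff i) ∈ V₁) ∧
      aeval y P = z)
    (hdF : (aeval y (derivative (minpoly F₀ y)))⁻¹ ∈ V₁)
    (hdV : w (aeval y (derivative (minpoly F₀ y)) / algebraMap R F₁ π) ∈ V₁)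
    (hdV' : w (algebraMap R F₁ π / aeval y (derivative (minpoly F₀ y))) ∈ V₁)
    {J : F₀} (h9 : B9Prov R F₁ π J) (h7 : B7Prov R π J V₁ w) (hd : B7Dich R T₀ J) :
    ∃ (t : C.CO₀ F₀ z') (s : C.CS₁ F₀ F₁ z') (pF' pV' : Ideal (C.CS₁ F₀ F₁ z')),
      BData (C.CO₀ F₀ z') (C.CS₁ F₀ F₁ z') F₁
        (algebraMap (integralClosure (Algebra.adjoin R {T₀}) F₀) (C.CO₀ F₀ z')
          (algebraMap R (integralClosure (Algebra.adjoin R {T₀}) F₀) π)) t s pF' pV' V₁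
        (V₁.comap (w : F₁ →+* F₁)) r ∧
      (∃ b : C.CS₁ F₀ F₁ z', Algebra.adjoin (C.CO₀ F₀ z') {b} = ⊤) ∧
      ((∃ c : C.CO₀ F₀ z', algebraMap (C.CO₀ F₀ z') F₀ c = J) →
        ∀ b : C.CS₁ F₀ F₁ z', Algebra.adjoin (C.CO₀ F₀ z') {b} = ⊤ →
          pV' = Ideal.span {aeval b (derivative (minpoly (C.CO₀ F₀ z') b))} ∧
          ∃ aF, aF * aeval b (derivative (minpoly (C.CO₀ F₀ z') b)) =
            algebraMap (C.CO₀ F₀ z') (C.CS₁ F₀ F₁ z')
              (algebraMap (integralClosure (Algebra.adjoin R {T₀}) F₀) (C.CO₀ F₀ z')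
                (algebraMap R (integralClosure (Algebra.adjoin R {T₀}) F₀) π)) ∧
            pF' = Ideal.span {aF}) ∧
      (pF' ⊔ pV' ≠ ⊤ → ∃ c : C.CO₀ F₀ z', algebraMap (C.CO₀ F₀ z') F₀ c = J) := by
  obtain ⟨t₀, ht₀, hreg'⟩ := hreg
  obtain ⟨s, pF, pV, hs, D⟩ := b6c_bData H hprime z' hπz ht₀ hreg' hres hperf
    (C.CO₀ F₀ z') (C.CS₁ F₀ F₁ z')
  have hϖ : algebraMap (C.CS₁ F₀ F₁ z') F₁ (algebraMap (C.CO₀ F₀ z') (C.CS₁ F₀ F₁ z')
      (algebraMap (integralClosure (Algebra.adjoin R {T₀}) F₀) (C.CO₀ F₀ z')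
        (algebraMap R (integralClosure (Algebra.adjoin R {T₀}) F₀) π))) = algebraMap R F₁ π := by
    rw [← IsScalarTower.algebraMap_apply (C.CO₀ F₀ z') (C.CS₁ F₀ F₁ z') F₁, b6_map_B (C.CO₀ F₀ z'),
      IsScalarTower.algebraMap_apply R F₀ F₁]
    rfl
  have hϖ' : algebraMap (C.CO₀ F₀ z') F₁
      (algebraMap (integralClosure (Algebra.adjoin R {T₀}) F₀) (C.CO₀ F₀ z')
        (algebraMap R (integralClosure (Algebra.adjoin R {T₀}) F₀) π)) = algebraMap R F₁ π := by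
    rw [IsScalarTower.algebraMap_apply (C.CO₀ F₀ z') (C.CS₁ F₀ F₁ z') F₁, hϖ]
  obtain ⟨G, hG⟩ := b6c_frob H z' t₀ (C.CO₀ F₀ z') (C.CS₁ F₀ F₁ z') D hϖ
  have hn : 2 ≤ r ^ 2 := by have := H.node.two_le; nlinarith
  haveI : UniqueFactorizationMonoid (C.CO₀ F₀ z') := a1_ufd D.max_eq D.prime_pi
  letI : Algebra R (C.CO₀ F₀ z') :=
    ((algebraMap (integralClosure (Algebra.adjoin R {T₀}) F₀) (C.CO₀ F₀ z')).comp
      (algebraMap R (integralClosure (Algebra.adjoin R {T₀}) F₀))).toAlgebra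
  haveI : IsScalarTower R (C.CO₀ F₀ z') F₀ := IsScalarTower.of_algebraMap_eq fun c => by
    rw [RingHom.algebraMap_toAlgebra, RingHom.comp_apply,
      ← IsScalarTower.algebraMap_apply (integralClosure (Algebra.adjoin R {T₀}) F₀)
      (C.CO₀ F₀ z') F₀]
    rfl
  refine ⟨_, s, pF, pV, D, D.exists_gen hn hG, ?_, ?_⟩
  · intro hJ b hb
    have e : algebraMap R (C.CO₀ F₀ z') π =
        algebraMap (integralClosure (Algebra.adjoin R {T₀}) F₀) (C.CO₀ F₀ z')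
          (algebraMap R (integralClosure (Algebra.adjoin R {T₀}) F₀) π) := by
      rw [RingHom.algebraMap_toAlgebra, RingHom.comp_apply]
    have hp : Prime (algebraMap R (C.CO₀ F₀ z') π) := by rw [e]; exact D.prime_pi
    have key := h9 (C.CO₀ F₀ z') (C.CS₁ F₀ F₁ z') hp hJ b hb
    rw [e] at key
    refine D.thick_of_gen hb (fun c hc => H.hFV c hc) hyF hyV hgen hdF ?_ ?_ key
    · rw [hϖ']; exact hdV
    · rw [hϖ']; exact hdV'
  · intro hne
    have hTI : IsIntegral (Algebra.adjoin R {T₀}) T₀ :=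
      isIntegral_algebraMap (R := Algebra.adjoin R {T₀})
        (x := ⟨T₀, Algebra.self_mem_adjoin_singleton R T₀⟩)
    rcases hd (C.CO₀ F₀ z')
      (algebraMap (integralClosure (Algebra.adjoin R {T₀}) F₀) (C.CO₀ F₀ z') ⟨T₀, hTI⟩) (by
        rw [← IsScalarTower.algebraMap_apply (integralClosure (Algebra.adjoin R {T₀}) F₀)
          (C.CO₀ F₀ z') F₀]
        rfl) with hJ | ⟨c, hc, hcJ⟩
    · exact hJ
    · exfalso
      apply hne
      refine h7 (C.CO₀ F₀ z') (C.CS₁ F₀ F₁ z') pF pV (fun x hx => ?_) (fun x hx => ?_) c hc ?_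
      · rw [D.mem_pF, hϖ]; exact hx
      · rw [D.mem_pV, hϖ]; exact hx
      · rw [IsScalarTower.algebraMap_apply (C.CO₀ F₀ z') F₀ F₁, hcJ, map_inv₀]

theorem B6Hyp.unifV (H : B6Hyp π T₀ V₁ w γ r) (x : F₁)
    (hx : (V₁.comap (w : F₁ →+* F₁)).valuation x < 1) :
    x / algebraMap R F₁ π ∈ V₁.comap (w : F₁ →+* F₁) := by
  rcases (C.val_lt_one_iff _ x).1 hx with rfl | h
  · rw [zero_div]; exact (V₁.comap (w : F₁ →+* F₁)).zero_mem
  · have hxV : x ∈ V₁.comap (w : F₁ →+* F₁) := C.mem_of_val_lt_one hx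
    rcases H.unif (w x) hxV with h1 | h1
    · exfalso
      apply h
      show w x⁻¹ ∈ V₁
      rwa [map_inv₀]
    · show w _ ∈ V₁
      rwa [H.node.w_div]

theorem B6Hyp.pi_notV (H : B6Hyp π T₀ V₁ w γ r) :
    (algebraMap R F₁ π)⁻¹ ∉ V₁.comap (w : F₁ →+* F₁) := by
  intro h
  have h' : w (algebraMap R F₁ π)⁻¹ ∈ V₁ := h
  rw [map_inv₀, H.node.w_unif] at h'
  exact H.pi_not h'

set_option maxHeartbeats 4000000 in
/-- **block B, global output**: the bundle `CLev1` of block C -/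
theorem bTop_cLev1 [IsFractionRing (integralClosure (Algebra.adjoin R {T₀}) F₀) F₀]
    [IsNoetherianRing (integralClosure (Algebra.adjoin R {T₀}) F₀)]
    [IsIntegrallyClosed (integralClosure (Algebra.adjoin R {T₀}) F₀)]
    (H : B6Hyp π T₀ V₁ w γ r)
    (hprime : Prime (algebraMap R (integralClosure (Algebra.adjoin R {T₀}) F₀) π))
    (hreg : ∀ z' : Ideal (integralClosure (Algebra.adjoin R {T₀}) F₀), z'.IsMaximal →
      algebraMap R (integralClosure (Algebra.adjoin R {T₀}) F₀) π ∈ z' →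
      ∃ t₀ ∈ z', ∀ g ∈ z', ∃ u, u ∉ z' ∧ u * g ∈
        Ideal.span {algebraMap R (integralClosure (Algebra.adjoin R {T₀}) F₀) π, t₀})
    (hres : ∀ z' : Ideal (integralClosure (Algebra.adjoin R {T₀}) F₀), z'.IsMaximal →
      algebraMap R (integralClosure (Algebra.adjoin R {T₀}) F₀) π ∈ z' →
      ∀ b : integralClosure (Algebra.adjoin R {T₀}) F₀, ∃ c : R,
        b - algebraMap R (integralClosure (Algebra.adjoin R {T₀}) F₀) c ∈ z')
    (hperf : ∀ c : R, ∃ c₁ : R, π ∣ c - c₁ ^ r)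
    {y : F₁} (hyF : y ∈ V₁) (hyV : w y ∈ V₁)
    (hgen : ∀ z ∈ V₁, w z ∈ V₁ → ∃ P : F₀[X], (∀ i, algebraMap F₀ F₁ (P.coeff i) ∈ V₁) ∧
      aeval y P = z)
    (hdF : (aeval y (derivative (minpoly F₀ y)))⁻¹ ∈ V₁)
    (hdV : w (aeval y (derivative (minpoly F₀ y)) / algebraMap R F₁ π) ∈ V₁)
    (hdV' : w (algebraMap R F₁ π / aeval y (derivative (minpoly F₀ y))) ∈ V₁)
    {J : F₀} (h9 : B9Prov R F₁ π J) (h7 : B7Prov R π J V₁ w) (hd : B7Dich R T₀ J)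
    {pF pV : Ideal (integralClosure (Algebra.adjoin R {algebraMap F₀ F₁ T₀}) F₁)}
    (memF : ∀ b, b ∈ pF ↔ V₁.valuation (algebraMap _ F₁ b) < 1)
    (memV : ∀ b, b ∈ pV ↔ (V₁.comap (w : F₁ →+* F₁)).valuation (algebraMap _ F₁ b) < 1) :
    C.CLev1 (algebraMap R (integralClosure (Algebra.adjoin R {algebraMap F₀ F₁ T₀}) F₁) π)
      V₁ (V₁.comap (w : F₁ →+* F₁)) pF pV := by
  refine C.cLev1_of_local (r := r)
    (H.node.nodeHyp ((γ : F₁ →+* F₁).comp (γ : F₁ →+* F₁)) (fun x => rfl))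
    H.unifV H.pi_notV memF memV ?_
  intro z' hz' hπz
  obtain ⟨t, s, pF', pV', D, ⟨b, hb⟩, hth, hnode⟩ := bTop_local H hprime z' hπz
    (hreg z' hz' hπz) (hres z' hz' hπz) hperf hyF hyV hgen hdF hdV hdV' h9 h7 hd
  refine ⟨t, s, pF', pV', D, fun hne => ?_⟩
  obtain ⟨hV, aF, haF, hF⟩ := hth (hnode hne) b hb
  refine ⟨aF, _, haF, ?_, ?_⟩
  · rw [hF]; exact Ideal.mem_span_singleton_self _
  · rw [hV]; exact Ideal.mem_span_singleton_self _

end mid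

end Fermat.Agent.CARlib
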