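import Fermat.Agent.CAR.V3Diff
import Fermat.Agent.UNI.NodeLevel

/-!
# T-CAR, block B: the inputs `hdF`, `hdV`, `hdV'` of `bTop_cLev1` in the modular frame
(`y = j_r`, `π = r`)
-/

set_option autoImplicit false
set_option linter.unusedSectionVars false
set_option linter.style.haveILetI false

open ModularCurve Polynomial

namespace Fermat.Agent.CARlib

open Fermat.Agent.ESlib Fermat.Agent.UNIlib

noncomputable section

variable {R K : Type} [CommRing R] [IsDomain R] [IsDiscreteValuationRing R] [Field K] [Algebra R K]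
  [IsFractionRing R K] [CharZero K] [Algebra ℚ K] [Algebra K ℂ] [IsScalarTower ℚ K ℂ]
  {N r : ℕ} [NeZero N] [NeZero r] [NeZero (N * r)]
  [Algebra R (FK K (N * r))] [IsScalarTower R K (FK K (N * r))]
  [CharP (IsLocalRing.ResidueField R) r]

theorem btp_hd (hr : r.Prime) (hrN : ¬ r ∣ N) :
    letI : Algebra (FK K N) (FK K (N * r)) := (oldI K N r).toAlgebra
    (aeval (jr K N r) (derivative (minpoly (FK K N) (jr K N r))))⁻¹ ∈ gaussVal R K (N * r) ∧
    (wr K hr hrN).toRingEquiv (aeval (jr K N r) (derivative (minpoly (FK K N) (jr K N r))) /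
      algebraMap R (FK K (N * r)) ((r : ℕ) : R)) ∈ gaussVal R K (N * r) ∧
    (wr K hr hrN).toRingEquiv (algebraMap R (FK K (N * r)) ((r : ℕ) : R) /
      aeval (jr K N r) (derivative (minpoly (FK K N) (jr K N r)))) ∈ gaussVal R K (N * r) := by
  letI : Algebra (FK K N) (FK K (N * r)) := (oldI K N r).toAlgebra
  have hr0 : (r : FK K (N * r)) ≠ 0 := by
    haveI : CharZero (FK K (N * r)) := charZero_of_injective_algebraMap
      (algebraMap K (FK K (N * r))).injective
    exact Nat.cast_ne_zero.2 hr.ne_zero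
  have h := v3_diff (R := R) (K := K) (N := N) (r := r) rfl hr hrN
    (π := (r : FK K (N * r))) (by rw [div_self hr0]; exact one_mem _)
    (by rw [div_self hr0]; exact one_mem _) (map_natCast _ _)
  rw [map_natCast]
  exact h

theorem btp_hdF (hr : r.Prime) (hrN : ¬ r ∣ N) :
    letI : Algebra (FK K N) (FK K (N * r)) := (oldI K N r).toAlgebra
    (aeval (jr K N r) (derivative (minpoly (FK K N) (jr K N r))))⁻¹ ∈ gaussVal R K (N * r) :=
  (btp_hd hr hrN).1

theorem btp_hdV (hr : r.Prime) (hrN : ¬ r ∣ N) :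
    letI : Algebra (FK K N) (FK K (N * r)) := (oldI K N r).toAlgebra
    (wr K hr hrN).toRingEquiv (aeval (jr K N r) (derivative (minpoly (FK K N) (jr K N r))) /
      algebraMap R (FK K (N * r)) ((r : ℕ) : R)) ∈ gaussVal R K (N * r) :=
  (btp_hd hr hrN).2.1

theorem btp_hdV' (hr : r.Prime) (hrN : ¬ r ∣ N) :
    letI : Algebra (FK K N) (FK K (N * r)) := (oldI K N r).toAlgebra
    (wr K hr hrN).toRingEquiv (algebraMap R (FK K (N * r)) ((r : ℕ) : R) /
      aeval (jr K N r) (derivative (minpoly (FK K N) (jr K N r)))) ∈ gaussVal R K (N * r) :=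
  (btp_hd hr hrN).2.2

end

end Fermat.Agent.CARlib
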