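import Fermat.Agent.CAR.V1AL

/-!
# T-CAR, V1: the two embeddings `e1, e2 : F_K(N r) → F_K(N r^2)`, `eps : F_K(N) → F_K(N r^2)`

* `e1 = incl ∘ w_r`, `e2 = B_r : x(q) ↦ x(q^r)` (`= heckeBetaBar K (N * r) r`),
* `eps = e1 ∘ incl = e2 ∘ incl : x(q) ↦ x(q^r)`,
* the swap `w2` : `w2 ∘ e1 = e2`, `w2 ∘ e2 = e1`.
-/

set_option autoImplicit false
set_option linter.unusedSectionVars false
set_option linter.style.haveILetI false

open ModularCurve
open Fermat.Agent.S24lib Fermat.Agent.ESlib Fermat.Agent.UNIlib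

namespace Fermat.Agent.CARlib

variable (K : Type) [Field K] [Algebra ℚ K] [Algebra K ℂ] [IsScalarTower ℚ K ℂ]
variable {N r : ℕ} [NeZero N] [NeZero r] [NeZero (N * r)] [NeZero (N * r * r)]

/-- `e1 = incl ∘ w_r : F_K(N r) → F_K(N r^2)` -/
noncomputable def e1 (hr : r.Prime) (hrN : ¬ r ∣ N) : FK K (N * r) →ₐ[K] FK K (N * r * r) :=
  (inclF K (dvd_mul_right (N * r) r)).comp (wr K hr hrN).toAlgHom

variable (N r) in
/-- `e2 = B_r : F_K(N r) → F_K(N r^2)`, `x(q) ↦ x(q^r)` -/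
noncomputable def e2 : FK K (N * r) →ₐ[K] FK K (N * r * r) := heckeBetaBar K (N * r) r

variable (N r) in
/-- `eps : F_K(N) → F_K(N r^2)`, `x(q) ↦ x(q^r)` -/
noncomputable def eps : FK K N →ₐ[K] FK K (N * r * r) :=
  (e2 K N r).comp (inclF K (dvd_mul_right N r))

theorem e1_apply (hr : r.Prime) (hrN : ¬ r ∣ N) (x : FK K (N * r)) :
    e1 K hr hrN x = inclF K (dvd_mul_right (N * r) r) (wr K hr hrN x) := rfl

theorem e2_eq : e2 K N r = heckeBetaBar K (N * r) r := rfl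

theorem inclF_eq_heckeAlphaBar :
    inclF K (dvd_mul_right (N * r) r) = heckeAlphaBar K (N * r) r := rfl

@[simp]
theorem coe_e1 (hr : r.Prime) (hrN : ¬ r ∣ N) (x : FK K (N * r)) :
    ((e1 K hr hrN x : FK K (N * r * r)) : LaurentSeries K) =
      (wr K hr hrN x : FK K (N * r)) := by
  rw [e1_apply, coe_inclF]

@[simp]
theorem coe_e2 (x : FK K (N * r)) :
    ((e2 K N r x : FK K (N * r * r)) : LaurentSeries K) = qExpand K r (x : LaurentSeries K) := rfl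

theorem eps_apply (x : FK K N) : eps K N r x = e2 K N r (inclF K (dvd_mul_right N r) x) := rfl

@[simp]
theorem coe_eps (x : FK K N) :
    ((eps K N r x : FK K (N * r * r)) : LaurentSeries K) = qExpand K r (x : LaurentSeries K) := by
  rw [eps_apply, coe_e2, coe_inclF]

theorem e2_inclF (x : FK K N) : e2 K N r (inclF K (dvd_mul_right N r) x) = eps K N r x := rfl

theorem e1_inclF (hr : r.Prime) (hrN : ¬ r ∣ N) (x : FK K N) :
    e1 K hr hrN (inclF K (dvd_mul_right N r) x) = eps K N r x := by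
  apply Subtype.ext
  rw [coe_e1, coe_wr_inclF, coe_eps]

theorem e1_injective (hr : r.Prime) (hrN : ¬ r ∣ N) : Function.Injective (e1 K hr hrN) :=
  (e1 K hr hrN).toRingHom.injective

theorem e2_injective : Function.Injective (e2 K N r) := (e2 K N r).toRingHom.injective

theorem eps_injective : Function.Injective (eps K N r) := (eps K N r).toRingHom.injective

/-- `e2 (j(q^d)) = j(q^{d r})` -/
theorem e2_Jgen (d : Dv (N * r)) :
    e2 K N r (ESlib.Jgen K (N * r) d) =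
      ESlib.Jgen K (N * r * r) ⟨d.1 * r, Nat.mul_dvd_mul_right d.2 r⟩ := by
  apply Subtype.ext
  rw [coe_e2]
  show qExpand K r (coeffEmb K (qExpand ℚ d.1 jq)) = coeffEmb K (qExpand ℚ (d.1 * r) jq)
  rw [← coeffEmb_qExpand, qExpand_qExpand]
  congr 1
  exact qExpand_congr (mul_comm _ _) _

/-- `e1 (j(q^e)) = j(q^{e r})` for `e ∣ N` -/
theorem e1_Jgen_of_dvd (hr : r.Prime) (hrN : ¬ r ∣ N) {e : ℕ} (he : e ∣ N) :
    e1 K hr hrN (ESlib.Jgen K (N * r) ⟨e, he.mul_right r⟩) =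
      ESlib.Jgen K (N * r * r) ⟨e * r, (Nat.mul_dvd_mul_right he r).mul_right r⟩ := by
  rw [e1_apply, wr_Jgen_of_dvd K hr hrN he, inclF_Jgen]

/-- `e1 (j(q^{e r})) = j(q^e)` for `e ∣ N` -/
theorem e1_Jgen_mul_of_dvd (hr : r.Prime) (hrN : ¬ r ∣ N) {e : ℕ} (he : e ∣ N) :
    e1 K hr hrN (ESlib.Jgen K (N * r) ⟨e * r, Nat.mul_dvd_mul_right he r⟩) =
      ESlib.Jgen K (N * r * r) ⟨e, (he.mul_right r).mul_right r⟩ := by
  rw [e1_apply, wr_Jgen_mul_of_dvd K hr hrN he, inclF_Jgen]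

theorem v1_dvd_cases₁ (hr : r.Prime) {d : ℕ} (hd : d ∣ N * r) :
    ∃ e, e ∣ N ∧ (d = e ∨ d = e * r) := by
  by_cases h1 : r ∣ d
  · obtain ⟨d1, rfl⟩ := h1
    have hd1 : d1 ∣ N := by
      rw [mul_comm r d1] at hd
      exact Nat.dvd_of_mul_dvd_mul_right hr.pos hd
    exact ⟨d1, hd1, Or.inr (mul_comm _ _)⟩
  · exact ⟨d, dvd_of_not_dvd_of_dvd_mul hr h1 hd, Or.inl rfl⟩

/-- **the swap**: `w2 ∘ e1 = e2` -/
theorem w2_e1 (hr : r.Prime) (hrN : ¬ r ∣ N) (x : FK K (N * r)) :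
    w2 K hr hrN (e1 K hr hrN x) = e2 K N r x := by
  have h : ((w2 K hr hrN).toAlgHom.comp (e1 K hr hrN)).toRingHom = (e2 K N r).toRingHom := by
    apply ringHom_ext_JgenK
    · intro a
      show w2 K hr hrN (e1 K hr hrN _) = e2 K N r _
      rw [AlgHom.commutes, AlgEquiv.commutes, AlgHom.commutes]
    · rintro ⟨d, hd⟩
      show w2 K hr hrN (e1 K hr hrN _) = e2 K N r _
      obtain ⟨e, he, h | h⟩ := v1_dvd_cases₁ hr hd
      · subst h
        rw [e1_Jgen_of_dvd K hr hrN he, w2_Jgen_one K hr hrN he, e2_Jgen]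
      · subst h
        rw [e1_Jgen_mul_of_dvd K hr hrN he, w2_Jgen_zero K hr hrN he, e2_Jgen]
  exact DFunLike.congr_fun h x

/-- **the swap**: `w2 ∘ e2 = e1` -/
theorem w2_e2 (hr : r.Prime) (hrN : ¬ r ∣ N) (x : FK K (N * r)) :
    w2 K hr hrN (e2 K N r x) = e1 K hr hrN x := by
  rw [← w2_e1 K hr hrN, w2_w2]

theorem w2_eps (hr : r.Prime) (hrN : ¬ r ∣ N) (x : FK K N) :
    w2 K hr hrN (eps K N r x) = eps K N r x := by
  rw [← e1_inclF K hr hrN, w2_e1, e2_inclF, e1_inclF]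

/-- `w2 ∘ incl = B_r ∘ w_r` -/
theorem w2_inclF (hr : r.Prime) (hrN : ¬ r ∣ N) (x : FK K (N * r)) :
    w2 K hr hrN (inclF K (dvd_mul_right (N * r) r) x) = e2 K N r (wr K hr hrN x) := by
  rw [← w2_e1 K hr hrN, e1_apply, wr_wr]

/-- `incl = e1 ∘ w_r` -/
theorem e1_wr (hr : r.Prime) (hrN : ¬ r ∣ N) (x : FK K (N * r)) :
    e1 K hr hrN (wr K hr hrN x) = inclF K (dvd_mul_right (N * r) r) x := by
  rw [e1_apply, wr_wr]

/-- `e1 j_r = j` -/
theorem e1_jr (hr : r.Prime) (hrN : ¬ r ∣ N) :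
    e1 K hr hrN (ESlib.Jgen K (N * r) ⟨r, dvd_mul_left r N⟩) = J1 K (N * r * r) := by
  have h := e1_Jgen_mul_of_dvd K hr hrN (one_dvd N)
  have h1 : (⟨1 * r, Nat.mul_dvd_mul_right (one_dvd N) r⟩ : Dv (N * r)) =
      ⟨r, dvd_mul_left r N⟩ := Subtype.ext (one_mul r)
  rw [h1] at h
  exact h

/-- `e2 j_r = j(q^{r^2})` -/
theorem e2_jr :
    e2 K N r (ESlib.Jgen K (N * r) ⟨r, dvd_mul_left r N⟩) =
      ESlib.Jgen K (N * r * r) ⟨r * r, Nat.mul_dvd_mul_right (dvd_mul_left r N) r⟩ :=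
  e2_Jgen K _

/-- `e1 j = e2 j = j_r` -/
theorem e1_J1 (hr : r.Prime) (hrN : ¬ r ∣ N) :
    e1 K hr hrN (J1 K (N * r)) =
      ESlib.Jgen K (N * r * r) ⟨r, (dvd_mul_left r N).mul_right r⟩ := by
  have h := e1_Jgen_of_dvd K hr hrN (one_dvd N)
  exact h.trans (Jgen_ext K (one_mul r))

theorem e2_J1 :
    e2 K N r (J1 K (N * r)) =
      ESlib.Jgen K (N * r * r) ⟨r, (dvd_mul_left r N).mul_right r⟩ := by
  rw [ESlib.J1, e2_Jgen]
  exact Jgen_ext K (one_mul r)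

end Fermat.Agent.CARlib
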