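import Fermat.Agent.CAR.CLoc
import Fermat.Agent.CAR.VDefs
import Fermat.Agent.CAR.V1Emb

/-!
# T-CAR, block C, (C0): the dichotomy cuspidal / non-cuspidal at a closed point of level 2

`𝔫` a prime of a ring `B₂ ⊆ F₂` containing the chart `t2 = T(q^r)` (resp. `1 / t2`):
`j(q^r) ∈ B₂_𝔫` or `1 / j(q^r) ∈ 𝔫 B₂_𝔫`.
-/

set_option autoImplicit false
set_option linter.unusedSectionVars false

open ModularCurve Polynomial

namespace Fermat.Agent.CARlib

open Fermat.Agent.ESlib Fermat.Agent.UNIlib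
open Fermat.Agent.S24lib (Dv)

/-- abstract dichotomy, chart `T` -/
theorem c0_dich_abs {B F : Type*} [CommRing B] [Field F] [Algebra B F] {𝔫 : Ideal B} [h𝔫 : 𝔫.IsPrime]
    {j T : F} {A : B[X]} {e : ℕ} (he : 0 < e) (hA0 : A.coeff 0 ∉ 𝔫)
    (hrel : j * T ^ e = aeval T A) (T' : B) (hT : algebraMap B F T' = T) :
    j ∈ C.cLoc F 𝔫 ∨ j⁻¹ ∈ C.cLocM F 𝔫 := by
  have hev : aeval T A = algebraMap B F (A.eval T') := by
    rw [← hT, aeval_algebraMap_apply]
    rfl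
  by_cases hu : T' ∈ 𝔫
  · right
    by_cases hj : j = 0
    · rw [hj, inv_zero]; exact (C.cLocM F 𝔫).zero_mem
    have hAu : A.eval T' ∉ 𝔫 := by
      intro hAm
      have h2 : A.eval T' = A.divX.eval T' * T' + A.coeff 0 := by
        conv_lhs => rw [← divX_mul_X_add A]
        simp
      apply hA0
      have := 𝔫.sub_mem hAm (𝔫.mul_mem_left (A.divX.eval T') hu)
      rwa [h2, add_sub_cancel_left] at this
    refine ⟨A.eval T', hAu, T' ^ e, 𝔫.pow_mem_of_mem hu e he, ?_⟩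
    rw [← hev, ← hrel, map_pow, hT, mul_comm j, mul_assoc, mul_inv_cancel₀ hj, mul_one]
  · left
    refine ⟨T' ^ e, fun h => hu (h𝔫.mem_of_pow_mem e h), A.eval T', ?_⟩
    rw [← hev, ← hrel, map_pow, hT, mul_comm]

/-- abstract dichotomy, chart `1 / T` -/
theorem c0_dich_abs_inv {B F : Type*} [CommRing B] [Field F] [Algebra B F] {𝔫 : Ideal B}
    [h𝔫 : 𝔫.IsPrime] {j T : F} {A : B[X]} {e : ℕ} (hA : A.Monic) (he : e < A.natDegree)
    (hT0 : T ≠ 0) (hrel : j * T ^ e = aeval T A) (U : B) (hU : algebraMap B F U = T⁻¹) :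
    j ∈ C.cLoc F 𝔫 ∨ j⁻¹ ∈ C.cLocM F 𝔫 := by
  refine c0_dich_abs (T := T⁻¹) (A := A.reverse) (e := A.natDegree - e) (by omega) ?_ ?_ U hU
  · rw [coeff_zero_reverse, hA.leadingCoeff]
    exact (Ideal.ne_top_iff_one _).1 h𝔫.ne_top
  · let _ : Invertible T := invertibleOfNonzero hT0
    have h1 := eval₂_reverse_mul_pow (algebraMap B F) T A
    rw [invOf_eq_inv] at h1
    have h2 : aeval T⁻¹ A.reverse * T ^ A.natDegree = j * T ^ e := by
      rw [hrel]; exact h1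
    obtain ⟨k, hk⟩ := Nat.exists_eq_add_of_lt he
    have hk' : A.natDegree - e = k + 1 := by omega
    have hk'' : A.natDegree = e + (k + 1) := by omega
    rw [hk', inv_pow]
    rw [hk'', pow_add] at h2
    have hTe : T ^ e ≠ 0 := pow_ne_zero _ hT0
    have hTk : T ^ (k + 1) ≠ 0 := pow_ne_zero _ hT0
    have h3 : aeval T⁻¹ A.reverse * T ^ (k + 1) * T ^ e = j * T ^ e := by
      rw [← h2]; ring
    rw [← mul_right_cancel₀ hTe h3, mul_assoc, mul_inv_cancel₀ hTk, mul_one]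

section conc

variable {K : Type} [Field K] [CharZero K] [Algebra ℚ K]

/-- the relation between `j` and the Hauptmodul over `ℤ`, with its constant term -/
theorem c0_exists_tF_rel (M : ℕ) [NeZero M] (a : ℕ) [NeZero a] (ha : a = 2 ∨ a = 3)
    (haM : a ∣ M) :
    ∃ (A : ℤ[X]) (e k : ℕ), A.Monic ∧ 0 < e ∧ e < A.natDegree ∧ A.coeff 0 = (a : ℤ) ^ k ∧
      J1 K M * tF K M a ha haM ^ e = aeval (tF K M a ha haM) A := by
  rcases ha with rfl | rfl
  · refine ⟨(X + C 256) ^ 3, 2, 24, (monic_X_add_C 256).pow 3, by norm_num, ?_, ?_, ?_⟩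
    · rw [((monic_X_add_C (256 : ℤ))).natDegree_pow, natDegree_X_add_C]
      norm_num
    · rw [coeff_zero_eq_eval_zero, eval_pow, eval_add, eval_X, eval_C, zero_add]
      norm_num
    · rw [map_pow, map_add, aeval_X, aeval_C, map_ofNat]
      exact tF_rel_two K M haM
  · refine ⟨(X + C 27) * (X + C 243) ^ 3, 3, 18,
      (monic_X_add_C 27).mul ((monic_X_add_C 243).pow 3), by norm_num, ?_, ?_, ?_⟩
    · rw [(monic_X_add_C 27).natDegree_mul ((monic_X_add_C 243).pow 3),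
        (monic_X_add_C (243 : ℤ)).natDegree_pow, natDegree_X_add_C, natDegree_X_add_C]
      norm_num
    · rw [coeff_zero_eq_eval_zero, eval_mul, eval_pow, eval_add, eval_add, eval_X, eval_C, eval_C,
        zero_add, zero_add]
      norm_num
    · rw [map_mul, map_pow, map_add, map_add, aeval_X, aeval_C, aeval_C, map_ofNat, map_ofNat]
      exact tF_rel_three K M haM

variable [Algebra K ℂ] [IsScalarTower ℚ K ℂ]
  {N r : ℕ} [NeZero N] [NeZero r] [NeZero (N * r)] [NeZero (N * r * r)]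

theorem c0_beta_J1 : heckeBetaBar K (N * r) r (J1 K (N * r)) = vJ1 K N r := by
  have h := e2_Jgen (K := K) (N := N) (r := r) ⟨1, one_dvd _⟩
  exact h

/-- the relation at level 2 -/
theorem c0_rel2 (a : ℕ) [NeZero a] (ha : a = 2 ∨ a = 3) (haN : a ∣ N) :
    ∃ (A : ℤ[X]) (e k : ℕ), A.Monic ∧ 0 < e ∧ e < A.natDegree ∧ A.coeff 0 = (a : ℤ) ^ k ∧
      vJ1 K N r * vT2 K r a ha haN ^ e = aeval (vT2 K r a ha haN) A := by
  obtain ⟨A, e, k, hA, he, he', hA0, hrel⟩ :=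
    c0_exists_tF_rel (K := K) (N * r) a ha (haN.mul_right r)
  refine ⟨A, e, k, hA, he, he', hA0, ?_⟩
  have h := congrArg (heckeBetaBar K (N * r) r) hrel
  rw [map_mul, map_pow, c0_beta_J1] at h
  rw [h]
  exact (aeval_algHom_apply ((heckeBetaBar K (N * r) r).restrictScalars ℤ) _ A).symm

/-- **(C0) dichotomy**, chart `t2` -/
theorem c0_dich (a : ℕ) [NeZero a] (ha : a = 2 ∨ a = 3) (haN : a ∣ N)
    {B₂ : Type*} [CommRing B₂] [Algebra B₂ (FK K (N * r * r))] (𝔫 : Ideal B₂) [h𝔫 : 𝔫.IsPrime]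
    (ha𝔫 : (a : B₂) ∉ 𝔫) (T' : B₂)
    (hT : algebraMap B₂ (FK K (N * r * r)) T' = vT2 K r a ha haN) :
    vJ1 K N r ∈ C.cLoc (FK K (N * r * r)) 𝔫 ∨ (vJ1 K N r)⁻¹ ∈ C.cLocM (FK K (N * r * r)) 𝔫 := by
  obtain ⟨A, e, k, -, he, -, hA0, hrel⟩ := c0_rel2 (K := K) (N := N) (r := r) a ha haN
  refine c0_dich_abs (A := A.map (Int.castRingHom B₂)) he ?_ ?_ T' hT
  · rw [coeff_map, hA0]
    intro h
    apply ha𝔫
    have h1 : (Int.castRingHom B₂) ((a : ℤ) ^ k) = (a : B₂) ^ k := by simp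
    rw [h1] at h
    exact h𝔫.mem_of_pow_mem k h
  · rw [hrel, ← algebraMap_int_eq, aeval_map_algebraMap]

/-- **(C0) dichotomy**, chart `1 / t2` -/
theorem c0_dich_inv (a : ℕ) [NeZero a] (ha : a = 2 ∨ a = 3) (haN : a ∣ N)
    {B₂ : Type*} [CommRing B₂] [Algebra B₂ (FK K (N * r * r))] (𝔫 : Ideal B₂) [h𝔫 : 𝔫.IsPrime]
    (U : B₂) (hU : algebraMap B₂ (FK K (N * r * r)) U = (vT2 K r a ha haN)⁻¹) :
    vJ1 K N r ∈ C.cLoc (FK K (N * r * r)) 𝔫 ∨ (vJ1 K N r)⁻¹ ∈ C.cLocM (FK K (N * r * r)) 𝔫 := by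
  obtain ⟨A, e, k, hA, -, he, -, hrel⟩ := c0_rel2 (K := K) (N := N) (r := r) a ha haN
  have hT0 : vT2 K r a ha haN ≠ 0 :=
    (_root_.map_ne_zero _).2 (tF_ne_zero K (N * r) a ha (haN.mul_right r))
  have : Nontrivial B₂ := ⟨0, 1, fun h => h𝔫.ne_top ((Ideal.eq_top_iff_one _).2 (h ▸ 𝔫.zero_mem))⟩
  refine c0_dich_abs_inv (A := A.map (Int.castRingHom B₂)) (e := e) (hA.map _) ?_ hT0 ?_ U hU
  · rw [hA.natDegree_map]; exact he
  · rw [hrel, ← algebraMap_int_eq, aeval_map_algebraMap]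

end conc

end Fermat.Agent.CARlib
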