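import Fermat.Agent.CAR.C1Pull

/-!
# T-CAR, block C, complements to row C1 for block I: (FR1), (FR2), (INC), (RAM)
-/

set_option autoImplicit false

open IsLocalRing Polynomial

namespace Fermat.Agent.CARlib.C

section aux

variable {B₁ B₂ F₁ F₂ : Type*} [CommRing B₁] [CommRing B₂] [Field F₁] [Field F₂]
  [Algebra B₁ F₁] [Algebra B₂ F₂]

/-- pointwise form of `c1_res_aux`: an element of `B₂` whose residue class in `κ(W)` comes from
`κ(V)` is congruent modulo `P` to an element of `E B₁` -/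
theorem c1_res_at {E : B₁ →+* B₂} {e : F₁ →+* F₂} {V : ValuationSubring F₁}
    {W : ValuationSubring F₂} {P : Ideal B₂}
    (hE : ∀ b, algebraMap B₂ F₂ (E b) = e (algebraMap B₁ F₁ b)) (hint : E.IsIntegral)
    (hsub : ∀ b : B₂, algebraMap B₂ F₂ b ∈ W)
    (hmemP : ∀ b : B₂, b ∈ P ↔ W.valuation (algebraMap B₂ F₂ b) < 1)
    (hcomap : W.comap e = V)
    (hnorm : ∀ Z ∈ V, ∀ p : B₁[X], p.Monic → V.valuation (aeval Z p) < 1 →
      ∃ x : B₁, V.valuation (Z - algebraMap B₁ F₁ x) < 1)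
    (x : B₂) {Z : F₁} (hZ : Z ∈ V) (hxZ : W.valuation (algebraMap B₂ F₂ x - e Z) < 1) :
    ∃ u : B₁, x - E u ∈ P := by
  obtain ⟨p, hp, hpx⟩ := hint x
  have hZW : e Z ∈ W := mem_of_comap hcomap hZ
  have h0 : p.eval₂ ((algebraMap B₂ F₂).comp E) (algebraMap B₂ F₂ x) = 0 := by
    rw [← hom_eval₂, hpx, map_zero]
  have h1 : W.valuation (p.eval₂ ((algebraMap B₂ F₂).comp E) (e Z)) < 1 :=
    c1_val_eval₂_lt W ((algebraMap B₂ F₂).comp E) (fun a => hsub _) p hZW (hsub x)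
      (by rw [← Valuation.map_neg, neg_sub]; exact hxZ) h0
  have h2 : p.eval₂ ((algebraMap B₂ F₂).comp E) (e Z) = e (aeval Z p) := by
    rw [aeval_def, hom_eval₂]
    congr 1
    ext b
    exact hE b
  rw [h2, val_comap_lt_one_iff hcomap] at h1
  obtain ⟨u, hu⟩ := hnorm Z hZ p hp h1
  refine ⟨u, ?_⟩
  rw [hmemP, map_sub, hE]
  have h3 : W.valuation (e Z - e (algebraMap B₁ F₁ u)) < 1 := by
    rw [← map_sub, val_comap_lt_one_iff hcomap]; exact hu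
  have h4 : algebraMap B₂ F₂ x - e (algebraMap B₁ F₁ u) =
      (algebraMap B₂ F₂ x - e Z) + (e Z - e (algebraMap B₁ F₁ u)) := by ring
  rw [h4]
  exact Valuation.map_add_lt _ hxZ h3

/-- **(FR), general form**: `B₂ ^ r ⊆ E B₁ + P` when `κ(W) ^ r ⊆ κ(V)` -/
theorem c1_frob_aux {E : B₁ →+* B₂} {e : F₁ →+* F₂} {V : ValuationSubring F₁}
    {W : ValuationSubring F₂} {P : Ideal B₂} {r : ℕ}
    (hE : ∀ b, algebraMap B₂ F₂ (E b) = e (algebraMap B₁ F₁ b)) (hint : E.IsIntegral)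
    (hsub : ∀ b : B₂, algebraMap B₂ F₂ b ∈ W)
    (hmemP : ∀ b : B₂, b ∈ P ↔ W.valuation (algebraMap B₂ F₂ b) < 1)
    (hcomap : W.comap e = V)
    (hresF : ∀ x ∈ W, ∃ u ∈ V, W.valuation (x ^ r - e u) < 1)
    (hnorm : ∀ Z ∈ V, ∀ p : B₁[X], p.Monic → V.valuation (aeval Z p) < 1 →
      ∃ x : B₁, V.valuation (Z - algebraMap B₁ F₁ x) < 1)
    (x : B₂) : ∃ c : B₁, x ^ r - E c ∈ P := by
  obtain ⟨Z, hZ, hxZ⟩ := hresF _ (hsub x)
  exact c1_res_at hE hint hsub hmemP hcomap hnorm (x ^ r) hZ (by rw [map_pow]; exact hxZ)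

end aux

section pull

variable {B₁ B₂ F₁ F₂ : Type*} [CommRing B₁] [CommRing B₂] [Field F₁] [Field F₂]
  [Algebra B₁ F₁] [Algebra B₂ F₂] {π₁ : B₁} {π₂ : B₂} {Ea Eb : B₁ →+* B₂} {ea eb : F₁ →+* F₂}
  {VF VV : ValuationSubring F₁} {W W' W'' : ValuationSubring F₂} {P : Ideal B₂}

/-- **(FR1), (FR2)**: `x ^ r ∈ Ea B₁ + P` on a component of type FV / VF -/
theorem c1_frob (H : CPull π₁ π₂ Ea Eb ea eb VF VV W W' W'' P) {r : ℕ}
    (hresF : ∀ x ∈ W, ∃ u ∈ VF, W.valuation (x ^ r - ea u) < 1)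
    (hnormF : ∀ Z ∈ VF, ∀ p : B₁[X], p.Monic → VF.valuation (aeval Z p) < 1 →
      ∃ x : B₁, VF.valuation (Z - algebraMap B₁ F₁ x) < 1)
    (x : B₂) : ∃ c : B₁, x ^ r - Ea c ∈ P :=
  c1_frob_aux H.hEa H.intA H.sub H.memP H.comap_a hresF hnormF x

end pull

section inc

variable {B₁ B₂ F₁ F₂ : Type*} [CommRing B₁] [CommRing B₂] [Field F₁] [Field F₂]
  [Algebra B₁ F₁] [Algebra B₂ F₂] {π₁ : B₁} {π₂ : B₂} {E₁ E₂ : B₁ →+* B₂} {e₁ e₂ : F₁ →+* F₂}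
  {VF VV : ValuationSubring F₁} {WFV WVF WVV : ValuationSubring F₂} {PFV PVF PVV : Ideal B₂}
  {pF pV : Ideal B₁}

/-- membership in a centre is detected downstairs -/
theorem c1_map_mem_iff {E : B₁ →+* B₂} {e : F₁ →+* F₂} {V : ValuationSubring F₁}
    {W : ValuationSubring F₂} {P : Ideal B₂} {p : Ideal B₁}
    (hE : ∀ b, algebraMap B₂ F₂ (E b) = e (algebraMap B₁ F₁ b))
    (hmemP : ∀ b : B₂, b ∈ P ↔ W.valuation (algebraMap B₂ F₂ b) < 1)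
    (hcomap : W.comap e = V)
    (hmemp : ∀ b : B₁, b ∈ p ↔ V.valuation (algebraMap B₁ F₁ b) < 1) (b : B₁) :
    E b ∈ P ↔ b ∈ p := by
  rw [hmemP, hE, val_comap_lt_one_iff hcomap, ← hmemp]

/-- **(INC)** the three vertical primes of level 2 are pairwise incomparable -/
theorem c1_inc (L : CLev1 π₁ VF VV pF pV) (H₁ : CPull π₁ π₂ E₁ E₂ e₁ e₂ VF VV WFV WVF WVV PFV)
    (H₂ : CPull π₁ π₂ E₂ E₁ e₂ e₁ VF VV WVF WFV WVV PVF) (M : CMidV π₂ E₁ e₁ VV WVV PVV)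
    (hFV : ¬ pF ≤ pV) (hVF : ¬ pV ≤ pF) :
    ¬ PFV ≤ PVF ∧ ¬ PVF ≤ PFV ∧ ¬ PFV ≤ PVV ∧ ¬ PVV ≤ PFV ∧ ¬ PVF ≤ PVV ∧ ¬ PVV ≤ PVF := by
  obtain ⟨a, haF, haV⟩ := SetLike.not_le_iff_exists.1 hFV
  obtain ⟨b, hbV, hbF⟩ := SetLike.not_le_iff_exists.1 hVF
  -- along `e₁`
  have i1F := c1_map_mem_iff H₁.hEa H₁.memP H₁.comap_a L.memF
  have i1V := c1_map_mem_iff H₂.hEb H₂.memP H₂.comap_b L.memV
  have i1M := c1_map_mem_iff M.hE₁ M.memP M.comap₁ L.memV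
  -- along `e₂`
  have i2F := c1_map_mem_iff H₂.hEa H₂.memP H₂.comap_a L.memF
  have i2V := c1_map_mem_iff H₁.hEb H₁.memP H₁.comap_b L.memV
  have i2M := c1_map_mem_iff H₂.hEa M.memP H₂.comap_a'' L.memV
  refine ⟨fun h => ?_, fun h => ?_, fun h => ?_, fun h => ?_, fun h => ?_, fun h => ?_⟩
  · exact haV ((i1V a).1 (h ((i1F a).2 haF)))
  · exact hbF ((i1F b).1 (h ((i1V b).2 hbV)))
  · exact haV ((i1M a).1 (h ((i1F a).2 haF)))
  · exact hbF ((i1F b).1 (h ((i1M b).2 hbV)))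
  · exact haV ((i2M a).1 (h ((i2F a).2 haF)))
  · exact hbF ((i2F b).1 (h ((i2M b).2 hbV)))

end inc

section ram

variable {F : Type*} [Field F]

/-- **(RAM)** `y` a uniformiser of `W`, `v(y ^ (r - 1)) = v(π)` ⇒ `x ^ r / π ∈ W` for `x ∈ 𝔪_W` -/
theorem c1_ram (W : ValuationSubring F) {y π : F} {r : ℕ} (hr : 0 < r)
    (hy : ∀ x : F, W.valuation x < 1 → x / y ∈ W)
    (hpow : W.valuation y ^ (r - 1) = W.valuation π) {x : F} (hx : W.valuation x < 1) :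
    x ^ r / π ∈ W := by
  by_cases hπ : π = 0
  · rw [hπ, div_zero]; exact W.zero_mem
  have hπv : W.valuation π ≠ 0 := (W.valuation.ne_zero_iff).2 hπ
  have hle : W.valuation x ^ (r - 1) ≤ W.valuation y ^ (r - 1) := by
    by_cases hy0 : y = 0
    · rcases Nat.eq_zero_or_pos (r - 1) with h | h
      · rw [h, pow_zero, pow_zero]
      · rw [hy0, map_zero, zero_pow h.ne'] at hpow
        exact absurd hpow.symm hπv
    · have h1 : W.valuation (x / y) ≤ 1 := (W.valuation_le_one_iff _).2 (hy x hx)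
      have hyv : W.valuation y ≠ 0 := (W.valuation.ne_zero_iff).2 hy0
      rw [map_div₀, div_le_one₀ (zero_lt_iff.2 hyv)] at h1
      exact pow_le_pow_left₀ zero_le h1 _
  rw [← W.valuation_le_one_iff, map_div₀, map_pow, div_le_one₀ (zero_lt_iff.2 hπv), ← hpow]
  obtain ⟨k, rfl⟩ : ∃ k, r = k + 1 := ⟨r - 1, by omega⟩
  rw [Nat.add_sub_cancel] at hle ⊢
  rw [pow_succ]
  calc W.valuation x ^ k * W.valuation x ≤ W.valuation y ^ k * 1 :=
        mul_le_mul' hle hx.le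
    _ = W.valuation y ^ k := mul_one _

end ram

end Fermat.Agent.CARlib.C
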