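import Fermat.Agent.CAR.CDefs

/-!
# T-CAR, block C, row C1 (PULL): the points on the components `C_FV`, `C_VF`; `B₂ / P` is a DVR
near every maximal ideal, for the three vertical primes.
-/

set_option autoImplicit false

open IsLocalRing Polynomial

namespace Fermat.Agent.CARlib.C

section aux

variable {B₁ B₂ F₁ F₂ : Type*} [CommRing B₁] [CommRing B₂] [Field F₁] [Field F₂]
  [Algebra B₁ F₁] [Algebra B₂ F₂]

/-- two points of `W` congruent modulo `𝔪_W` have congruent values under a polynomial with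
coefficients in `W` -/
theorem c1_val_eval₂_lt {A F : Type*} [CommRing A] [Field F] (W : ValuationSubring F) (φ : A →+* F)
    (hφ : ∀ a, φ a ∈ W) (p : A[X]) {u v : F} (hu : u ∈ W) (hv : v ∈ W)
    (huv : W.valuation (u - v) < 1) (hpv : p.eval₂ φ v = 0) : W.valuation (p.eval₂ φ u) < 1 := by
  let ψ : A →+* W := φ.codRestrict W.toSubring hφ
  have hψ : ∀ (z : W), (((p.map ψ).eval z : W) : F) = p.eval₂ φ (z : F) := by
    intro z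
    rw [eval_map]
    have := hom_eval₂ p ψ W.subtype z
    rw [show W.subtype.comp ψ = φ from rfl] at this
    exact this
  obtain ⟨k, hk⟩ := sub_dvd_eval_sub (⟨u, hu⟩ : W) ⟨v, hv⟩ (p.map ψ)
  have h1 := congrArg (fun z : W => (z : F)) hk
  simp only [AddSubgroupClass.coe_sub, MulMemClass.coe_mul] at h1
  rw [hψ, hψ] at h1
  simp only [hpv, sub_zero] at h1
  rw [h1, map_mul]
  exact mul_lt_one_of_lt_of_le huv ((W.valuation_le_one_iff _).2 k.2)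

/-- **(RES), general form**: `B₂ = E B₁ + P` -/
theorem c1_res_aux {E : B₁ →+* B₂} {e : F₁ →+* F₂} {V : ValuationSubring F₁}
    {W : ValuationSubring F₂} {P : Ideal B₂}
    (hE : ∀ b, algebraMap B₂ F₂ (E b) = e (algebraMap B₁ F₁ b)) (hint : E.IsIntegral)
    (hsub : ∀ b : B₂, algebraMap B₂ F₂ b ∈ W)
    (hmemP : ∀ b : B₂, b ∈ P ↔ W.valuation (algebraMap B₂ F₂ b) < 1)
    (hcomap : W.comap e = V) (hres : ∀ x ∈ W, ∃ u ∈ V, W.valuation (x - e u) < 1)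
    (hnorm : ∀ Z ∈ V, ∀ p : B₁[X], p.Monic → V.valuation (aeval Z p) < 1 →
      ∃ x : B₁, V.valuation (Z - algebraMap B₁ F₁ x) < 1)
    (x : B₂) : ∃ u : B₁, x - E u ∈ P := by
  obtain ⟨Z, hZ, hxZ⟩ := hres _ (hsub x)
  obtain ⟨p, hp, hpx⟩ := hint x
  have hZW : e Z ∈ W := mem_of_comap hcomap hZ
  have h0 : p.eval₂ ((algebraMap B₂ F₂).comp E) (algebraMap B₂ F₂ x) = 0 := by
    rw [← hom_eval₂, hpx, map_zero]
  have h1 : W.valuation (p.eval₂ ((algebraMap B₂ F₂).comp E) (e Z)) < 1 :=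
    c1_val_eval₂_lt W ((algebraMap B₂ F₂).comp E) (fun a => hsub _) p hZW (hsub x)
      (by rw [← Valuation.map_neg, neg_sub]; exact hxZ) h0
  have h2 : p.eval₂ ((algebraMap B₂ F₂).comp E) (e Z) = e (aeval Z p) := by
    rw [aeval_def, hom_eval₂]
    congr 1
    ext b
    exact hE b
  rw [h2, val_comap_lt_one_iff hcomap] at h1
  obtain ⟨u, hu⟩ := hnorm Z hZ p hp h1
  refine ⟨u, ?_⟩
  rw [hmemP, map_sub, hE]
  have h3 : W.valuation (e Z - e (algebraMap B₁ F₁ u)) < 1 := by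
    rw [← map_sub, val_comap_lt_one_iff hcomap]; exact hu
  have h4 : algebraMap B₂ F₂ x - e (algebraMap B₁ F₁ u) =
      (algebraMap B₂ F₂ x - e Z) + (e Z - e (algebraMap B₁ F₁ u)) := by ring
  rw [h4]
  exact Valuation.map_add_lt _ hxZ h3

/-- **(DVR), general form** -/
theorem c1_dvr_aux {E : B₁ →+* B₂} {e : F₁ →+* F₂} {V : ValuationSubring F₁}
    {W : ValuationSubring F₂} {P : Ideal B₂} {pV : Ideal B₁}
    (hE : ∀ b, algebraMap B₂ F₂ (E b) = e (algebraMap B₁ F₁ b)) (hint : E.IsIntegral)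
    (hmemP : ∀ b : B₂, b ∈ P ↔ W.valuation (algebraMap B₂ F₂ b) < 1)
    (hcomap : W.comap e = V)
    (hmemV : ∀ b : B₁, b ∈ pV ↔ V.valuation (algebraMap B₁ F₁ b) < 1)
    (hdvr : ∀ 𝔫₁ : Ideal B₁, 𝔫₁.IsMaximal → pV ≤ 𝔫₁ → CDvr 𝔫₁ pV)
    (hresB : ∀ x : B₂, ∃ u : B₁, x - E u ∈ P)
    (𝔫 : Ideal B₂) (h𝔫 : 𝔫.IsMaximal) (hP : P ≤ 𝔫) : CDvr 𝔫 P := by
  have hmax : (𝔫.comap E).IsMaximal := Ideal.isMaximal_comap_of_isIntegral_of_isMaximal' E hint 𝔫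
  have hpP : ∀ b ∈ pV, E b ∈ P := by
    intro b hb
    rw [hmemP, hE, val_comap_lt_one_iff hcomap, ← hmemV]
    exact hb
  have hle : pV ≤ 𝔫.comap E := fun b hb => hP (hpP b hb)
  obtain ⟨t₁, ht₁, h₁⟩ := hdvr _ hmax hle
  refine ⟨E t₁, ht₁, fun x hx => ?_⟩
  obtain ⟨u, hu⟩ := hresB x
  have hu𝔫 : u ∈ 𝔫.comap E := by
    rw [Ideal.mem_comap]
    have := 𝔫.sub_mem hx (hP hu)
    rwa [sub_sub_cancel] at this
  obtain ⟨s₁, hs₁, y₁, hy₁⟩ := h₁ u hu𝔫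
  refine ⟨E s₁, hs₁, E y₁, ?_⟩
  have h2 : E s₁ * x - E t₁ * E y₁ = E s₁ * (x - E u) + E (s₁ * u - t₁ * y₁) := by
    simp only [map_sub, map_mul]; ring
  rw [h2]
  exact P.add_mem (P.mul_mem_left _ hu) (hpP _ hy₁)

end aux

section pull

variable {B₁ B₂ F₁ F₂ : Type*} [CommRing B₁] [CommRing B₂] [Field F₁] [Field F₂]
  [Algebra B₁ F₁] [Algebra B₂ F₂] {π₁ : B₁} {π₂ : B₂} {Ea Eb : B₁ →+* B₂} {ea eb : F₁ →+* F₂}
  {VF VV : ValuationSubring F₁} {W W' W'' : ValuationSubring F₂} {P : Ideal B₂} {pF pV : Ideal B₁}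

/-- **(C1-i)** `x ∈ P`, `a b = π c`, `b ∈ pV` ⇒ `Ea c * x = Ea a * y`
(`y := x * ea b / π ∈ B₂` by `KC`) -/
theorem c1_pull_gen (L : CLev1 π₁ VF VV pF pV) (H : CPull π₁ π₂ Ea Eb ea eb VF VV W W' W'' P)
    {a b c : B₁} (habc : a * b = π₁ * c) (hb : b ∈ pV) {x : B₂} (hx : x ∈ P) :
    ∃ y : B₂, Ea c * x = Ea a * y := by
  have hπ0 : algebraMap B₂ F₂ π₂ ≠ 0 := by
    intro h0
    exact H.pi_ne (H.inj₂ (by rw [h0, map_zero]))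
  have hπe : algebraMap B₂ F₂ π₂ = ea (algebraMap B₁ F₁ π₁) := by rw [← H.hπa, H.hEa]
  have hbπ : algebraMap B₁ F₁ b / algebraMap B₁ F₁ π₁ ∈ VV := L.unifV _ ((L.memV b).1 hb)
  have hq : ea (algebraMap B₁ F₁ b) / algebraMap B₂ F₂ π₂ =
      ea (algebraMap B₁ F₁ b / algebraMap B₁ F₁ π₁) := by rw [map_div₀, hπe]
  obtain ⟨y, hy⟩ := H.KC (algebraMap B₂ F₂ x * ea (algebraMap B₁ F₁ b) / algebraMap B₂ F₂ π₂)
    ⟨x * Ea b, by rw [map_mul, H.hEa]; field_simp⟩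
    (by
      have h1 := H.unif _ ((H.memP x).1 hx)
      have h2 : ea (algebraMap B₁ F₁ b) ∈ W := by rw [← H.hEa]; exact H.sub _
      have := W.mul_mem _ _ h1 h2
      rwa [div_mul_eq_mul_div] at this)
    (by
      rw [mul_div_assoc, hq]
      exact W'.mul_mem _ _ (H.sub' x) (mem_of_comap H.comap_a' hbπ))
    (by
      rw [mul_div_assoc, hq]
      exact W''.mul_mem _ _ (H.sub'' x) (mem_of_comap H.comap_a'' hbπ))
  refine ⟨y, H.inj₂ ?_⟩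
  have h3 : ea (algebraMap B₁ F₁ a) * ea (algebraMap B₁ F₁ b) =
      algebraMap B₂ F₂ π₂ * ea (algebraMap B₁ F₁ c) := by
    rw [hπe, ← map_mul, ← map_mul, ← map_mul, ← map_mul, habc]
  rw [map_mul, map_mul, hy, H.hEa, H.hEa]
  field_simp
  linear_combination (-(algebraMap B₂ F₂ x)) * h3

/-- **(C1-RES)** `B₂ = Eb B₁ + P` -/
theorem c1_res (L : CLev1 π₁ VF VV pF pV) (H : CPull π₁ π₂ Ea Eb ea eb VF VV W W' W'' P)
    (x : B₂) : ∃ u : B₁, x - Eb u ∈ P :=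
  c1_res_aux H.hEb H.intB H.sub H.memP H.comap_b H.res L.normV x

/-- **(C1-ii)** `B₂ / P` is a DVR near every maximal ideal -/
theorem c1_dvr (L : CLev1 π₁ VF VV pF pV) (H : CPull π₁ π₂ Ea Eb ea eb VF VV W W' W'' P)
    (𝔫 : Ideal B₂) (h𝔫 : 𝔫.IsMaximal) (hP : P ≤ 𝔫) : CDvr 𝔫 P :=
  c1_dvr_aux H.hEb H.intB H.memP H.comap_b L.memV L.dvrV (c1_res L H) 𝔫 h𝔫 hP

theorem c1_map_pF_le (L : CLev1 π₁ VF VV pF pV) (H : CPull π₁ π₂ Ea Eb ea eb VF VV W W' W'' P)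
    {b : B₁} (hb : b ∈ pF) : Ea b ∈ P := by
  rw [H.memP, H.hEa, val_comap_lt_one_iff H.comap_a, ← L.memF]
  exact hb

theorem c1_pi_mem_pF (L : CLev1 π₁ VF VV pF pV) (H : CPull π₁ π₂ Ea Eb ea eb VF VV W W' W'' P)
    (hπ : π₂ ∈ P) : π₁ ∈ pF := by
  rw [L.memF, ← val_comap_lt_one_iff H.comap_a, ← H.hEa, H.hπa, ← H.memP]
  exact hπ

/-- the local datum `(a, b, c)`: `a b = π c`, `c ∉ 𝔫₁`, `a ∈ pF`, `b ∈ pV`, at EVERY maximal ideal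
on `C_F` -/
theorem c1_exists_abc (L : CLev1 π₁ VF VV pF pV) (hπ : π₁ ∈ pF) (𝔫₁ : Ideal B₁)
    (h𝔫₁ : 𝔫₁.IsMaximal) (hF : pF ≤ 𝔫₁) :
    ∃ a b c : B₁, a * b = π₁ * c ∧ c ∉ 𝔫₁ ∧ a ∈ pF ∧ b ∈ pV := by
  by_cases hV : pV ≤ 𝔫₁
  · exact L.thick 𝔫₁ h𝔫₁ hF hV
  · obtain ⟨u, hu, hu'⟩ := SetLike.not_le_iff_exists.1 hV
    exact ⟨π₁, u, u, rfl, hu', hπ, hu⟩

/-- **(C1, PULL)** every maximal ideal on the component `W` is A1-regular -/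
theorem c1_pull (L : CLev1 π₁ VF VV pF pV) (H : CPull π₁ π₂ Ea Eb ea eb VF VV W W' W'' P)
    (hπ : π₂ ∈ P) (𝔫 : Ideal B₂) (h𝔫 : 𝔫.IsMaximal) (hP : P ≤ 𝔫) :
    ∃ a t : B₂, a ≠ 0 ∧ CReg 𝔫 P a t := by
  have hmax : (𝔫.comap Ea).IsMaximal :=
    Ideal.isMaximal_comap_of_isIntegral_of_isMaximal' Ea H.intA 𝔫
  have hF : pF ≤ 𝔫.comap Ea := fun b hb => hP (c1_map_pF_le L H hb)
  obtain ⟨a, b, c, habc, hc, ha, hb⟩ := c1_exists_abc L (c1_pi_mem_pF L H hπ) _ hmax hF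
  obtain ⟨t, ht, hdvr⟩ := c1_dvr L H 𝔫 h𝔫 hP
  refine ⟨Ea a, t, ?_, c1_map_pF_le L H ha, ht, fun x hx => ?_, hdvr⟩
  · intro h0
    have h1 : Ea a * Ea b = π₂ * Ea c := by rw [← map_mul, habc, map_mul, H.hπa]
    rw [h0, zero_mul] at h1
    have h2 := congrArg (algebraMap B₂ F₂) h1
    rw [map_zero, map_mul] at h2
    rcases mul_eq_zero.1 h2.symm with h3 | h3
    · exact H.pi_ne (H.inj₂ (by rw [h3, map_zero]))
    · apply hc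
      rw [Ideal.mem_comap, H.inj₂ (by rw [h3, map_zero] : algebraMap B₂ F₂ (Ea c) =
        algebraMap B₂ F₂ 0)]
      exact 𝔫.zero_mem
  · exact ⟨Ea c, hc, c1_pull_gen L H habc hb hx⟩

/-- **(C0-a)** if `pr_a 𝔫` lies on `C_F` then `𝔫` lies on the component `W` -/
theorem c1_le_of_comap (L : CLev1 π₁ VF VV pF pV)
    (H : CPull π₁ π₂ Ea Eb ea eb VF VV W W' W'' P) (hπ : π₂ ∈ P)
    (𝔫 : Ideal B₂) (h𝔫 : 𝔫.IsMaximal) (h : pF ≤ 𝔫.comap Ea) : P ≤ 𝔫 := by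
  have hmax : (𝔫.comap Ea).IsMaximal :=
    Ideal.isMaximal_comap_of_isIntegral_of_isMaximal' Ea H.intA 𝔫
  obtain ⟨a, b, c, habc, hc, ha, hb⟩ := c1_exists_abc L (c1_pi_mem_pF L H hπ) _ hmax h
  intro x hx
  obtain ⟨y, hy⟩ := c1_pull_gen L H habc hb hx
  have h1 : Ea c * x ∈ 𝔫 := by
    rw [hy]; exact 𝔫.mul_mem_right _ (h ha)
  exact (h𝔫.isPrime.mem_or_mem h1).resolve_left hc

end pull

section mid

variable {B₁ B₂ F₁ F₂ : Type*} [CommRing B₁] [CommRing B₂] [Field F₁] [Field F₂]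
  [Algebra B₁ F₁] [Algebra B₂ F₂] {π₁ : B₁} {π₂ : B₂} {E₁ : B₁ →+* B₂} {e₁ : F₁ →+* F₂}
  {VF VV : ValuationSubring F₁} {WVV : ValuationSubring F₂} {PVV : Ideal B₂}
  {pF pV : Ideal B₁}

/-- `B₂ = E₁ B₁ + P_VV` -/
theorem c1_res_mid (L : CLev1 π₁ VF VV pF pV) (M : CMidV π₂ E₁ e₁ VV WVV PVV) (x : B₂) :
    ∃ u : B₁, x - E₁ u ∈ PVV :=
  c1_res_aux M.hE₁ M.int₁ M.sub M.memP M.comap₁ M.res L.normV x

/-- `B₂ / P_VV` is a DVR near every maximal ideal (same proof as `c1_dvr`) -/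
theorem c1_dvr_mid (L : CLev1 π₁ VF VV pF pV) (M : CMidV π₂ E₁ e₁ VV WVV PVV)
    (𝔫 : Ideal B₂) (h𝔫 : 𝔫.IsMaximal) (hP : PVV ≤ 𝔫) : CDvr 𝔫 PVV :=
  c1_dvr_aux M.hE₁ M.int₁ M.memP M.comap₁ L.memV L.dvrV (c1_res_mid L M) 𝔫 h𝔫 hP

end mid

end Fermat.Agent.CARlib.C
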