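import Mathlib
import Fermat.Agent.CAR.CDefs

set_option autoImplicit false

open IsLocalRing Polynomial

namespace Fermat.Agent.CARlib.C

variable {B₁ B₂ F₂ : Type*} [CommRing B₁] [CommRing B₂] [Field F₂]
  [Algebra B₂ F₂] {π₁ : B₁} {π₂ : B₂} {E₁ E₂ : B₁ →+* B₂}
  {WVV : ValuationSubring F₂}

/-- **(C2, abstract core)**: `G = g / (Y - b)`, `θ = G(b)`, `θ d = π c` -/
theorem c2_abs (hπ : E₁ π₁ = π₂) (𝔫 : Ideal B₂) {b d c : B₁} {G : B₁[X]}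
    (hG : (G.map E₁).eval (E₂ b) = 0) (hθ : G.eval b * d = π₁ * c) (hc : E₁ c ∉ 𝔫)
    (hlt : WVV.valuation (algebraMap B₂ F₂ (E₂ b - E₁ b)) < 1)
    (hy : ∀ x : F₂, WVV.valuation x < 1 → x / algebraMap B₂ F₂ (E₂ b - E₁ b) ∈ WVV) :
    CMid π₂ WVV 𝔫 := by
  obtain ⟨h', hh'⟩ := Polynomial.sub_dvd_eval_sub (E₂ b) (E₁ b) (G.map E₁)
  have h1 : (G.map E₁).eval (E₁ b) = E₁ (G.eval b) := by
    rw [eval_map, eval₂_hom]
  rw [hG, h1, zero_sub] at hh'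
  refine ⟨E₂ b - E₁ b, - h' * E₁ d, E₁ c, hc, ?_, hlt, hy⟩
  rw [← hπ, ← map_mul, ← hθ, map_mul]
  linear_combination (- E₁ d) * hh'

/-- **(C2, abstract)**: the datum `(b, g, d, c)` over a common base `B₀`. -/
theorem c2_mid {B₀ : Type*} [CommRing B₀] (i₀ : B₀ →+* B₁) (hE : E₁.comp i₀ = E₂.comp i₀)
    (hinj : Function.Injective (algebraMap B₂ F₂))
    (hsub : ∀ x : B₂, algebraMap B₂ F₂ x ∈ WVV)
    (hπ : E₁ π₁ = π₂) (𝔫 : Ideal B₂)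
    (hP : ∀ x : B₂, WVV.valuation (algebraMap B₂ F₂ x) < 1 → x ∈ 𝔫)
    {b d c : B₁} {g : B₀[X]} (hg : (g.map i₀).eval b = 0)
    (hθ : ((derivative g).map i₀).eval b * d = π₁ * c) (hc : E₁ c ∉ 𝔫)
    {u₀ : B₁} (hgen : ∃ c₀ : B₀, E₁ (i₀ c₀) ∉ 𝔫 ∧ ∃ P : B₀[X], i₀ c₀ * u₀ = (P.map i₀).eval b)
    (hu₀ne : E₂ u₀ ≠ E₁ u₀)
    (hu₀ : ∀ x : F₂, WVV.valuation x < 1 → x / algebraMap B₂ F₂ (E₂ u₀ - E₁ u₀) ∈ WVV)
    (hlt : WVV.valuation (algebraMap B₂ F₂ (E₂ b - E₁ b)) < 1) :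
    CMid π₂ WVV 𝔫 := by
  have hdom : IsDomain B₂ := hinj.isDomain (algebraMap B₂ F₂)
  obtain ⟨c₀, hc₀, P, hP₀⟩ := hgen
  -- the comparison of `u₀` and `b`
  have hmapE : ∀ p : B₀[X], (p.map i₀).map E₂ = (p.map i₀).map E₁ := by
    intro p
    rw [map_map, map_map, hE]
  have hev : ∀ (E : B₁ →+* B₂) (p : B₁[X]) (z : B₁), (p.map E).eval (E z) = E (p.eval z) := by
    intro E p z
    rw [eval_map, eval₂_hom]
  obtain ⟨Q, hQ⟩ := Polynomial.sub_dvd_eval_sub (E₂ b) (E₁ b) ((P.map i₀).map E₁)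
  have hc₀E : E₂ (i₀ c₀) = E₁ (i₀ c₀) := by
    have := congrArg (fun f => f c₀) hE
    simpa using this.symm
  have hcmp : E₁ (i₀ c₀) * (E₂ u₀ - E₁ u₀) = (E₂ b - E₁ b) * Q := by
    rw [← hQ, hev, ← hmapE, hev, ← hP₀, map_mul, map_mul, hc₀E]
    ring
  have hyne : E₂ b - E₁ b ≠ 0 := by
    intro h0
    rw [h0, zero_mul] at hcmp
    rcases mul_eq_zero.mp hcmp with h | h
    · exact hc₀ (by rw [h]; exact 𝔫.zero_mem)
    · exact hu₀ne (sub_eq_zero.mp h)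
  -- the cofactor
  set G : B₁[X] := (g.map i₀) /ₘ (X - C b) with hGdef
  have hfac : (X - C b) * G = g.map i₀ := mul_divByMonic_eq_iff_isRoot.mpr hg
  have hGb : G.eval b = ((derivative g).map i₀).eval b := by
    rw [← derivative_map, ← hfac, derivative_mul]
    simp
  have hGroot : (G.map E₁).eval (E₂ b) = 0 := by
    have h1 : ((g.map i₀).map E₁).eval (E₂ b) = 0 := by
      rw [← hmapE, hev, hg, map_zero]
    rw [← hfac, Polynomial.map_mul, eval_mul] at h1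
    rcases mul_eq_zero.mp h1 with h | h
    · exfalso
      apply hyne
      simpa using h
    · exact h
  refine c2_abs hπ 𝔫 hGroot (by rw [hGb]; exact hθ) hc hlt ?_
  intro x hx
  have h1 := hu₀ x hx
  have hunit : (algebraMap B₂ F₂ (E₁ (i₀ c₀)))⁻¹ ∈ WVV := by
    have h2 : ¬ WVV.valuation (algebraMap B₂ F₂ (E₁ (i₀ c₀))) < 1 := fun h => hc₀ (hP _ h)
    have h3 : WVV.valuation (algebraMap B₂ F₂ (E₁ (i₀ c₀))) = 1 :=
      le_antisymm ((WVV.valuation_le_one_iff _).mpr (hsub _)) (not_lt.mp h2)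
    rw [← WVV.valuation_le_one_iff, map_inv₀, h3, inv_one]
  have e0 : algebraMap B₂ F₂ (E₁ (i₀ c₀)) ≠ 0 := by
    intro h
    apply hc₀
    rw [hinj (h.trans (map_zero _).symm)]
    exact 𝔫.zero_mem
  have e1 : algebraMap B₂ F₂ (E₂ u₀ - E₁ u₀) ≠ 0 := by
    intro h
    exact hu₀ne (sub_eq_zero.mp (hinj (h.trans (map_zero _).symm)))
  have e2 : algebraMap B₂ F₂ (E₂ b - E₁ b) ≠ 0 := by
    intro h
    exact hyne (hinj (h.trans (map_zero _).symm))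
  have hcmp' := congrArg (algebraMap B₂ F₂) hcmp
  rw [map_mul, map_mul] at hcmp'
  have h4 : x / algebraMap B₂ F₂ (E₂ b - E₁ b) =
      x / algebraMap B₂ F₂ (E₂ u₀ - E₁ u₀) * algebraMap B₂ F₂ Q *
        (algebraMap B₂ F₂ (E₁ (i₀ c₀)))⁻¹ := by
    field_simp
    linear_combination x * hcmp'
  rw [h4]
  exact WVV.mul_mem _ _ (WVV.mul_mem _ _ h1 (hsub _)) hunit

end Fermat.Agent.CARlib.C
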