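import Mathlib
import Fermat.Agent.CAR.C2Mid

set_option autoImplicit false

open IsLocalRing Polynomial

namespace Fermat.Agent.CARlib.C

section Datum

variable {B₀ O₀ B₁ S₁ : Type*} [CommRing B₀] [CommRing O₀] [CommRing B₁] [CommRing S₁]
  [Algebra B₀ O₀] [Algebra B₀ B₁] [Algebra O₀ S₁] [Algebra B₁ S₁] [Algebra B₀ S₁]
  [IsScalarTower B₀ O₀ S₁] [IsScalarTower B₀ B₁ S₁]

/-- evaluation of a polynomial with cleared denominators -/
theorem c2_clear (M : Submonoid B₀) [IsLocalization M O₀] (p : O₀[X]) (b : B₁) :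
    ∃ c ∈ M, ∃ P : B₀[X], algebraMap B₁ S₁ ((P.map (algebraMap B₀ B₁)).eval b) =
        algebraMap B₀ S₁ c * aeval (algebraMap B₁ S₁ b) p ∧
      algebraMap B₁ S₁ (((derivative P).map (algebraMap B₀ B₁)).eval b) =
        algebraMap B₀ S₁ c * aeval (algebraMap B₁ S₁ b) (derivative p) := by
  obtain ⟨c, hc, hP⟩ := IsLocalization.integerNormalization_spec M p
  have key : ∀ (P : B₀[X]) (p : O₀[X]), P.map (algebraMap B₀ O₀) = c • p →
      algebraMap B₁ S₁ ((P.map (algebraMap B₀ B₁)).eval b) =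
        algebraMap B₀ S₁ c * aeval (algebraMap B₁ S₁ b) p := by
    intro P p hP
    have h1 : algebraMap B₁ S₁ ((P.map (algebraMap B₀ B₁)).eval b) =
        aeval (algebraMap B₁ S₁ b) P := by
      rw [eval_map, ← aeval_def, aeval_algebraMap_apply]
    have h2 : aeval (algebraMap B₁ S₁ b) P = aeval (algebraMap B₁ S₁ b) (P.map (algebraMap B₀ O₀)) := by
      rw [aeval_map_algebraMap]
    rw [h1, h2, hP, ← IsScalarTower.algebraMap_smul O₀ c p, map_smul, Algebra.smul_def,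
      ← IsScalarTower.algebraMap_apply]
  refine ⟨c, hc, IsLocalization.integerNormalization M p, key _ _ hP, key _ _ ?_⟩
  rw [← derivative_map, hP, derivative_smul]

/-- **global datum for (C2)** from the local monogenic presentation `S₁ = O₀[b]`, `θ aF = π`. -/
theorem c2_datum (M : Submonoid B₀) [IsLocalization M O₀]
    (hinj : Function.Injective (algebraMap B₁ S₁))
    (hdict : ∀ x : S₁, ∃ m ∈ M, ∃ x' : B₁, algebraMap B₁ S₁ x' = algebraMap B₀ S₁ m * x)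
    {b : B₁} (hb : Algebra.adjoin O₀ {algebraMap B₁ S₁ b} = ⊤) {g' : O₀[X]}
    (hg' : aeval (algebraMap B₁ S₁ b) g' = 0) {aF : S₁} {π₀ : B₀}
    (haF : aF * aeval (algebraMap B₁ S₁ b) (derivative g') = algebraMap B₀ S₁ π₀) :
    ∃ (g : B₀[X]) (d : B₁) (c : B₀), c ∈ M ∧ (g.map (algebraMap B₀ B₁)).eval b = 0 ∧
      ((derivative g).map (algebraMap B₀ B₁)).eval b * d =
        algebraMap B₀ B₁ π₀ * algebraMap B₀ B₁ c ∧
      ∀ u : B₁, ∃ c₀ ∈ M, ∃ P : B₀[X],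
        algebraMap B₀ B₁ c₀ * u = (P.map (algebraMap B₀ B₁)).eval b := by
  obtain ⟨c₁, hc₁, g, hg1, hg2⟩ := c2_clear (S₁ := S₁) M g' b
  obtain ⟨m, hm, d, hd⟩ := hdict aF
  refine ⟨g, d, c₁ * m, M.mul_mem hc₁ hm, ?_, ?_, ?_⟩
  · apply hinj
    rw [hg1, hg', mul_zero, map_zero]
  · apply hinj
    rw [map_mul, hg2, hd, map_mul, ← IsScalarTower.algebraMap_apply,
      ← IsScalarTower.algebraMap_apply, ← haF, map_mul]
    ring
  · intro u
    have hu : algebraMap B₁ S₁ u ∈ Algebra.adjoin O₀ {algebraMap B₁ S₁ b} := by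
      rw [hb]; exact Algebra.mem_top
    rw [Algebra.adjoin_singleton_eq_range_aeval] at hu
    obtain ⟨p, hp⟩ := hu
    obtain ⟨c₀, hc₀, P, hP, -⟩ := c2_clear (S₁ := S₁) M p b
    refine ⟨c₀, hc₀, P, ?_⟩
    apply hinj
    rw [hP, map_mul, ← IsScalarTower.algebraMap_apply]
    congr 1
    exact hp.symm

/-- a unit multiple of a generator is a generator -/
theorem c2_adjoin_smul {b : S₁} (hb : Algebra.adjoin O₀ {b} = ⊤) {m : O₀} (hm : IsUnit m) :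
    Algebra.adjoin O₀ {algebraMap O₀ S₁ m * b} = ⊤ := by
  obtain ⟨m', hm'⟩ := hm.exists_left_inv
  rw [eq_top_iff, ← hb]
  apply Algebra.adjoin_le
  rintro x rfl
  have h1 : x = algebraMap O₀ S₁ m' * (algebraMap O₀ S₁ m * x) := by
    rw [← mul_assoc, ← map_mul, hm', map_one, one_mul]
  have h2 : algebraMap O₀ S₁ m' * (algebraMap O₀ S₁ m * x) ∈
      Algebra.adjoin O₀ {algebraMap O₀ S₁ m * x} :=
    Subalgebra.mul_mem _ (Subalgebra.algebraMap_mem _ _)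
      (Algebra.subset_adjoin (Set.mem_singleton _))
  rw [← h1] at h2
  exact h2

end Datum


section Diag

/-- **the two degeneracy maps agree on the middle component**: if `x = P(J)` with `P` integral
over the common base and `e₂ J ≡ e₁ J`, then `e₂ x ≡ e₁ x`. -/
theorem c2_diag {F₀ F₁ F₂ : Type*} [Field F₀] [Field F₁] [Field F₂] (i : F₀ →+* F₁)
    (e₁ e₂ : F₁ →+* F₂) (hE : e₁.comp i = e₂.comp i) (W : ValuationSubring F₂) {J : F₁}
    (hJ1 : e₁ J ∈ W) (hJ2 : e₂ J ∈ W) (hY : W.valuation (e₂ J - e₁ J) < 1) (P : F₀[X])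
    (hP : ∀ k, e₁ (i (P.coeff k)) ∈ W) :
    W.valuation (e₂ ((P.map i).eval J) - e₁ ((P.map i).eval J)) < 1 := by
  have hEi : ∀ a, e₂ (i a) = e₁ (i a) := fun a => by
    have := congrArg (fun f => f a) hE
    simpa using this.symm
  have h1 : ∀ e : F₁ →+* F₂, e ((P.map i).eval J) = ∑ k ∈ P.support, e (i (P.coeff k)) * e J ^ k := by
    intro e
    rw [eval_map, eval₂_eq_sum, Polynomial.sum, map_sum]
    refine Finset.sum_congr rfl fun k _ => ?_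
    rw [map_mul, map_pow]
  rw [h1 e₂, h1 e₁, ← Finset.sum_sub_distrib]
  refine Valuation.map_sum_lt _ one_ne_zero fun k _ => ?_
  rw [hEi, ← mul_sub, map_mul]
  have h2 : W.valuation (e₁ (i (P.coeff k))) ≤ 1 := (W.valuation_le_one_iff _).mpr (hP k)
  have h3 : W.valuation (e₂ J ^ k - e₁ J ^ k) < 1 := by
    rw [← (Commute.all (e₂ J) (e₁ J)).mul_geom_sum₂ k, map_mul]
    have h4 : W.valuation (∑ i ∈ Finset.range k, e₂ J ^ i * e₁ J ^ (k - 1 - i)) ≤ 1 := by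
      rw [W.valuation_le_one_iff]
      exact sum_mem fun i _ => W.mul_mem _ _ (pow_mem hJ2 _) (pow_mem hJ1 _)
    exact mul_lt_one_of_lt_of_le hY h4
  rw [mul_comm]
  exact mul_lt_one_of_lt_of_le h3 h2

/-- a unit multiple of a uniformiser is a uniformiser -/
theorem c2_unif_mul {F : Type*} [Field F] (W : ValuationSubring F) {Y c : F}
    (hY : ∀ x : F, W.valuation x < 1 → x / Y ∈ W) (hc : c⁻¹ ∈ W) :
    ∀ x : F, W.valuation x < 1 → x / (c * Y) ∈ W := by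
  intro x hx
  have : x / (c * Y) = x / Y * c⁻¹ := by
    rw [div_mul_eq_div_div_swap, div_eq_mul_inv (x / Y)]
  rw [this]
  exact W.mul_mem _ _ (hY x hx) hc

end Diag

section Final

variable {B₀ O₀ B₁ S₁ B₂ F₂ : Type*} [CommRing B₀] [CommRing O₀] [CommRing B₁] [CommRing S₁]
  [Algebra B₀ O₀] [Algebra B₀ B₁] [Algebra O₀ S₁] [Algebra B₁ S₁] [Algebra B₀ S₁]
  [IsScalarTower B₀ O₀ S₁] [IsScalarTower B₀ B₁ S₁] [CommRing B₂] [Field F₂] [Algebra B₂ F₂]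
  {E₁ E₂ : B₁ →+* B₂} {WVV : ValuationSubring F₂}

/-- **(C2)**: `CMid` at a middle point `𝔫` over a point `𝔫₀` of level 0 at which level 1 is monogenic
(`S₁ = O₀[b]`, B3) of thickness one (`θ aF = π`, B5). -/
theorem c2_hmid (hE : E₁.comp (algebraMap B₀ B₁) = E₂.comp (algebraMap B₀ B₁))
    (hinj₂ : Function.Injective (algebraMap B₂ F₂))
    (hsub : ∀ x : B₂, algebraMap B₂ F₂ x ∈ WVV)
    (𝔫 : Ideal B₂)
    (hP : ∀ x : B₂, WVV.valuation (algebraMap B₂ F₂ x) < 1 → x ∈ 𝔫)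
    (M : Submonoid B₀) [IsLocalization M O₀]
    (hM : ∀ m ∈ M, E₁ (algebraMap B₀ B₁ m) ∉ 𝔫)
    (hinj : Function.Injective (algebraMap B₁ S₁))
    (hdict : ∀ x : S₁, ∃ m ∈ M, ∃ x' : B₁, algebraMap B₁ S₁ x' = algebraMap B₀ S₁ m * x)
    {b : B₁} (hb : Algebra.adjoin O₀ {algebraMap B₁ S₁ b} = ⊤) {g' : O₀[X]}
    (hg' : aeval (algebraMap B₁ S₁ b) g' = 0) {aF : S₁} {π₀ : B₀}
    (haF : aF * aeval (algebraMap B₁ S₁ b) (derivative g') = algebraMap B₀ S₁ π₀)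
    (hdiag : WVV.valuation (algebraMap B₂ F₂ (E₂ b - E₁ b)) < 1)
    {u₀ : B₁} (hu₀ne : E₂ u₀ ≠ E₁ u₀)
    (hu₀ : ∀ x : F₂, WVV.valuation x < 1 → x / algebraMap B₂ F₂ (E₂ u₀ - E₁ u₀) ∈ WVV) :
    CMid (E₁ (algebraMap B₀ B₁ π₀)) WVV 𝔫 := by
  obtain ⟨g, d, c, hc, hg, hθ, hgen⟩ := c2_datum M hinj hdict hb hg' haF
  obtain ⟨c₀, hc₀, P, hP₀⟩ := hgen u₀
  exact c2_mid (algebraMap B₀ B₁) hE hinj₂ hsub rfl 𝔫 hP hg hθ (hM c hc)
    ⟨c₀, hM c₀ hc₀, P, hP₀⟩ hu₀ne hu₀ hdiag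

end Final

end Fermat.Agent.CARlib.C
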