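import Mathlib
import Fermat.Agent.CAR.C2Datum

set_option autoImplicit false
set_option linter.unusedSectionVars false

open IsLocalRing Polynomial

namespace Fermat.Agent.CARlib.C

section Final2

variable {B₀ O₀ B₁ S₁ B₂ F₂ : Type*} [CommRing B₀] [CommRing O₀] [CommRing B₁] [CommRing S₁]
  [Algebra B₀ O₀] [Algebra B₀ B₁] [Algebra O₀ S₁] [Algebra B₁ S₁] [Algebra B₀ S₁]
  [IsScalarTower B₀ O₀ S₁] [IsScalarTower B₀ B₁ S₁] [CommRing B₂] [Field F₂] [Algebra B₂ F₂]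
  {E₁ E₂ : B₁ →+* B₂} {WVV : ValuationSubring F₂}

/-- moving the local generator `b : S₁` into `B₁` -/
theorem c2_move (M : Submonoid B₀) [IsLocalization M O₀]
    (hdict : ∀ x : S₁, ∃ m ∈ M, ∃ x' : B₁, algebraMap B₁ S₁ x' = algebraMap B₀ S₁ m * x)
    {b : S₁} (hb : Algebra.adjoin O₀ {b} = ⊤) {g' : O₀[X]}
    (hg' : aeval b g' = 0) {aF : S₁} {π₀ : B₀}
    (haF : aF * aeval b (derivative g') = algebraMap B₀ S₁ π₀) :
    ∃ (b₁ : B₁) (g₁ : O₀[X]) (a₁ : S₁), Algebra.adjoin O₀ {algebraMap B₁ S₁ b₁} = ⊤ ∧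
      aeval (algebraMap B₁ S₁ b₁) g₁ = 0 ∧
      a₁ * aeval (algebraMap B₁ S₁ b₁) (derivative g₁) = algebraMap B₀ S₁ π₀ := by
  obtain ⟨m, hm, b₁, hb₁⟩ := hdict b
  have hu : IsUnit (algebraMap B₀ O₀ m) := IsLocalization.map_units O₀ (⟨m, hm⟩ : M)
  obtain ⟨m', hm'⟩ := hu.exists_left_inv
  have hmS : algebraMap B₀ S₁ m = algebraMap O₀ S₁ (algebraMap B₀ O₀ m) :=
    IsScalarTower.algebraMap_apply B₀ O₀ S₁ m
  have hback : algebraMap O₀ S₁ m' * algebraMap B₁ S₁ b₁ = b := by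
    rw [hb₁, hmS, ← mul_assoc, ← map_mul, hm', map_one, one_mul]
  have hcomp : ∀ p : O₀[X], aeval (algebraMap B₁ S₁ b₁) (p.comp (C m' * X)) = aeval b p := by
    intro p
    rw [aeval_comp, map_mul, aeval_C, aeval_X, hback]
  refine ⟨b₁, g'.comp (C m' * X), algebraMap B₀ S₁ m * aF, ?_, ?_, ?_⟩
  · rw [hb₁, hmS]
    exact c2_adjoin_smul hb hu
  · rw [hcomp, hg']
  · rw [derivative_comp, map_mul, hcomp]
    have h1 : aeval (algebraMap B₁ S₁ b₁) (derivative (C m' * X : O₀[X])) = algebraMap O₀ S₁ m' := by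
      simp
    have h2 : algebraMap O₀ S₁ m' * algebraMap B₀ S₁ m = 1 := by
      rw [hmS, ← map_mul, hm', map_one]
    rw [h1, ← haF]
    linear_combination (aF * aeval b (derivative g')) * h2

/-- **(C2)**, final abstract form: the generator `b` of `S₁ = O₀[b]` is any element of `S₁`. -/
theorem c2_hmid' (hE : E₁.comp (algebraMap B₀ B₁) = E₂.comp (algebraMap B₀ B₁))
    (hinj₂ : Function.Injective (algebraMap B₂ F₂))
    (hsub : ∀ x : B₂, algebraMap B₂ F₂ x ∈ WVV)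
    (𝔫 : Ideal B₂)
    (hP : ∀ x : B₂, WVV.valuation (algebraMap B₂ F₂ x) < 1 → x ∈ 𝔫)
    (M : Submonoid B₀) [IsLocalization M O₀]
    (hM : ∀ m ∈ M, E₁ (algebraMap B₀ B₁ m) ∉ 𝔫)
    (hinj : Function.Injective (algebraMap B₁ S₁))
    (hdict : ∀ x : S₁, ∃ m ∈ M, ∃ x' : B₁, algebraMap B₁ S₁ x' = algebraMap B₀ S₁ m * x)
    {b : S₁} (hb : Algebra.adjoin O₀ {b} = ⊤) {g' : O₀[X]}
    (hg' : aeval b g' = 0) {aF : S₁} {π₀ : B₀}
    (haF : aF * aeval b (derivative g') = algebraMap B₀ S₁ π₀)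
    (hdiag : ∀ x : B₁, WVV.valuation (algebraMap B₂ F₂ (E₂ x - E₁ x)) < 1)
    {u₀ : B₁} (hu₀ne : E₂ u₀ ≠ E₁ u₀)
    (hu₀ : ∀ x : F₂, WVV.valuation x < 1 → x / algebraMap B₂ F₂ (E₂ u₀ - E₁ u₀) ∈ WVV) :
    CMid (E₁ (algebraMap B₀ B₁ π₀)) WVV 𝔫 := by
  obtain ⟨b₁, g₁, a₁, h1, h2, h3⟩ := c2_move (B₁ := B₁) M hdict hb hg' haF
  exact c2_hmid hE hinj₂ hsub 𝔫 hP M hM hinj hdict h1 h2 h3 (hdiag b₁) hu₀ne hu₀

end Final2

end Fermat.Agent.CARlib.C
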