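import Fermat.Agent.CAR.CInst
import Fermat.Agent.CAR.C2Move

set_option autoImplicit false
set_option linter.unusedSectionVars false
set_option linter.style.haveILetI false

open IsLocalRing Polynomial

namespace Fermat.Agent.CARlib.C

/-- integrality only depends on the image of the base ring -/
theorem c2d_isIntegralElem_of_range {A A' F : Type*} [CommRing A] [CommRing A'] [CommRing F]
    (f : A' →+* F) (g : A →+* F) (h : ∀ a, f a ∈ Set.range g) {x : F} (hx : f.IsIntegralElem x) :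
    g.IsIntegralElem x := by
  obtain ⟨p, hp, hpx⟩ := hx
  have h1 : p.map f ∈ lifts g := (lifts_iff_coeff_lifts _).2 (fun n => by rw [coeff_map]; exact h _)
  obtain ⟨q, hq, -, hqm⟩ := lifts_and_natDegree_eq_and_monic h1 (hp.map f)
  exact ⟨q, hqm, by rw [← eval_map, hq, eval_map, hpx]⟩

section dict

variable {R F₀ F₁ : Type*} [CommRing R] [Field F₀] [Field F₁] [Algebra R F₀] [Algebra R F₁]
  [Algebra F₀ F₁] [IsScalarTower R F₀ F₁] {T₀ : F₀}

/-- `B₀ → B₁` -/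
noncomputable def c2I0 : integralClosure (Algebra.adjoin R {T₀}) F₀ →+*
    integralClosure (Algebra.adjoin R {algebraMap F₀ F₁ T₀}) F₁ :=
  cE (IsScalarTower.toAlgHom R F₀ F₁) rfl

theorem coe_c2I0 (x : integralClosure (Algebra.adjoin R {T₀}) F₀) :
    ((c2I0 (R := R) (T₀ := T₀) (F₁ := F₁) x : integralClosure (Algebra.adjoin R {algebraMap F₀ F₁ T₀}) F₁) : F₁) =
      algebraMap F₀ F₁ (x : F₀) := rfl

theorem c2d_mem_adjoin_iff (a : F₁) : a ∈ Algebra.adjoin R {algebraMap F₀ F₁ T₀} ↔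
    ∃ a₀ ∈ Algebra.adjoin R {T₀}, algebraMap F₀ F₁ a₀ = a := by
  have : Algebra.adjoin R {algebraMap F₀ F₁ T₀} =
      (Algebra.adjoin R {T₀}).map (IsScalarTower.toAlgHom R F₀ F₁) := by
    rw [AlgHom.map_adjoin, Set.image_singleton]; rfl
  rw [this]
  rfl

variable (z' : Ideal (integralClosure (Algebra.adjoin R {T₀}) F₀)) [z'.IsPrime]
  (O₀ S₁ : Type*) [CommRing O₀]
  [Algebra (integralClosure (Algebra.adjoin R {T₀}) F₀) O₀] [IsLocalization.AtPrime O₀ z']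
  [Algebra O₀ F₀] [IsScalarTower (integralClosure (Algebra.adjoin R {T₀}) F₀) O₀ F₀]
  [Algebra O₀ F₁] [IsScalarTower O₀ F₀ F₁] [CommRing S₁] [Algebra O₀ S₁] [Algebra S₁ F₁]
  [IsScalarTower O₀ S₁ F₁] [IsIntegralClosure S₁ O₀ F₁]

theorem c2d_algebraMap_O₀ (x : integralClosure (Algebra.adjoin R {T₀}) F₀) :
    algebraMap O₀ F₁ (algebraMap _ O₀ x) = algebraMap F₀ F₁ (x : F₀) := by
  rw [IsScalarTower.algebraMap_apply O₀ F₀ F₁, ← IsScalarTower.algebraMap_apply _ O₀ F₀]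
  rfl

/-- elements of `B₁` are integral over `O₀` -/
theorem c2d_isIntegral (x : integralClosure (Algebra.adjoin R {algebraMap F₀ F₁ T₀}) F₁) :
    IsIntegral O₀ (x : F₁) := by
  refine c2d_isIntegralElem_of_range (algebraMap (Algebra.adjoin R {algebraMap F₀ F₁ T₀}) F₁)
    (algebraMap O₀ F₁) ?_ x.2
  rintro ⟨a, ha⟩
  obtain ⟨a₀, ha₀, rfl⟩ := (c2d_mem_adjoin_iff a).mp ha
  refine ⟨algebraMap _ O₀ (algebraMap (Algebra.adjoin R {T₀})
    (integralClosure (Algebra.adjoin R {T₀}) F₀) ⟨a₀, ha₀⟩), ?_⟩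
  rw [c2d_algebraMap_O₀]
  rfl

/-- `B₁ → S₁` -/
noncomputable def c2J : integralClosure (Algebra.adjoin R {algebraMap F₀ F₁ T₀}) F₁ →+* S₁ where
  toFun x := IsIntegralClosure.mk' S₁ (x : F₁) (c2d_isIntegral O₀ x)
  map_one' := by
    apply IsIntegralClosure.algebraMap_injective S₁ O₀ F₁
    rw [IsIntegralClosure.algebraMap_mk', map_one]; rfl
  map_mul' x y := by
    apply IsIntegralClosure.algebraMap_injective S₁ O₀ F₁
    rw [map_mul, IsIntegralClosure.algebraMap_mk', IsIntegralClosure.algebraMap_mk',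
      IsIntegralClosure.algebraMap_mk']; rfl
  map_zero' := by
    apply IsIntegralClosure.algebraMap_injective S₁ O₀ F₁
    rw [IsIntegralClosure.algebraMap_mk', map_zero]; rfl
  map_add' x y := by
    apply IsIntegralClosure.algebraMap_injective S₁ O₀ F₁
    rw [map_add, IsIntegralClosure.algebraMap_mk', IsIntegralClosure.algebraMap_mk',
      IsIntegralClosure.algebraMap_mk']; rfl

theorem algebraMap_c2J (x : integralClosure (Algebra.adjoin R {algebraMap F₀ F₁ T₀}) F₁) :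
    algebraMap S₁ F₁ (c2J (R := R) (T₀ := T₀) (F₁ := F₁) O₀ S₁ x) = (x : F₁) :=
  IsIntegralClosure.algebraMap_mk' S₁ (x : F₁) (c2d_isIntegral O₀ x)

theorem c2J_injective : Function.Injective (c2J (T₀ := T₀) (R := R) (F₁ := F₁) O₀ S₁) := by
  intro x y h
  apply Subtype.ext
  rw [← algebraMap_c2J O₀ S₁ x, ← algebraMap_c2J O₀ S₁ y, h]

include O₀ in
/-- **dictionary** `S₁ ↔ B₁` -/
theorem c2d_dict (x : S₁) : ∃ m : integralClosure (Algebra.adjoin R {T₀}) F₀, m ∉ z' ∧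
    ∃ x' : integralClosure (Algebra.adjoin R {algebraMap F₀ F₁ T₀}) F₁,
      (x' : F₁) = algebraMap F₀ F₁ (m : F₀) * algebraMap S₁ F₁ x := by
  have hy : IsIntegral O₀ (algebraMap S₁ F₁ x) :=
    (IsIntegralClosure.isIntegral_iff (A := S₁)).mpr ⟨x, rfl⟩
  have : IsScalarTower (integralClosure (Algebra.adjoin R {T₀}) F₀) O₀ F₁ :=
    IsScalarTower.of_algebraMap_eq (fun b => (c2d_algebraMap_O₀ O₀ b).symm)
  obtain ⟨m, hm⟩ := IsIntegral.exists_multiple_integral_of_isLocalization z'.primeCompl _ hy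
  have h2 : IsIntegral (Algebra.adjoin R {T₀}) (m • algebraMap S₁ F₁ x) := isIntegral_trans _ hm
  have h3 : IsIntegral (Algebra.adjoin R {algebraMap F₀ F₁ T₀}) (m • algebraMap S₁ F₁ x) := by
    refine c2d_isIntegralElem_of_range (algebraMap (Algebra.adjoin R {T₀}) F₁)
      (algebraMap (Algebra.adjoin R {algebraMap F₀ F₁ T₀}) F₁) ?_ h2
    rintro ⟨a₀, ha₀⟩
    exact ⟨⟨algebraMap F₀ F₁ a₀, (c2d_mem_adjoin_iff _).mpr ⟨a₀, ha₀, rfl⟩⟩, rfl⟩
  refine ⟨m.1, m.2, ⟨_, h3⟩, ?_⟩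
  show m • algebraMap S₁ F₁ x = _
  rw [Submonoid.smul_def, Algebra.smul_def]
  rfl

end dict

section conc

variable {R F₀ F₁ F₂ : Type*} [CommRing R] [Field F₀] [Field F₁] [Field F₂] [Algebra R F₀]
  [Algebra R F₁] [Algebra R F₂] [Algebra F₀ F₁] [IsScalarTower R F₀ F₁] {T₀ : F₀} {t2 : F₂}

/-- **(C2) in the frame of `CInst` (level 2) and `B6` (level 1)**: `CMid` at a maximal ideal `𝔫` of
`B₂` on the middle component, over a point `z'` of level 0 where level 1 is monogenic of thickness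
one and `J` (`= j_r`) is integral (non-cuspidal). -/
theorem c2_conc (e₁ e₂ : F₁ →ₐ[R] F₂) (he₁ : e₁ (algebraMap F₀ F₁ T₀) = t2)
    (he₂ : e₂ (algebraMap F₀ F₁ T₀) = t2) (hE : ∀ x : F₀, e₁ (algebraMap F₀ F₁ x) = e₂ (algebraMap F₀ F₁ x))
    {WVV : ValuationSubring F₂}
    (hsub : ∀ x : integralClosure (Algebra.adjoin R {t2}) F₂, (x : F₂) ∈ WVV)
    (𝔫 : Ideal (integralClosure (Algebra.adjoin R {t2}) F₂))
    (hP : cCen (integralClosure (Algebra.adjoin R {t2}) F₂) WVV ≤ 𝔫)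
    (z' : Ideal (integralClosure (Algebra.adjoin R {T₀}) F₀)) [z'.IsPrime]
    (hz' : z' = 𝔫.comap ((cE e₁ he₁).comp c2I0))
    (O₀ S₁ : Type*) [CommRing O₀]
    [Algebra (integralClosure (Algebra.adjoin R {T₀}) F₀) O₀] [IsLocalization.AtPrime O₀ z']
    [Algebra O₀ F₀] [IsScalarTower (integralClosure (Algebra.adjoin R {T₀}) F₀) O₀ F₀]
    [Algebra O₀ F₁] [IsScalarTower O₀ F₀ F₁] [CommRing S₁] [Algebra O₀ S₁] [Algebra S₁ F₁]
    [IsScalarTower O₀ S₁ F₁] [IsIntegralClosure S₁ O₀ F₁]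
    {b : S₁} (hb : Algebra.adjoin O₀ {b} = ⊤) {g' : O₀[X]} (hg' : aeval b g' = 0) {aF : S₁} {π : R}
    (haF : aF * aeval b (derivative g') = algebraMap O₀ S₁ (algebraMap _ O₀
      (algebraMap R (integralClosure (Algebra.adjoin R {T₀}) F₀) π)))
    (hdiag : ∀ x : integralClosure (Algebra.adjoin R {algebraMap F₀ F₁ T₀}) F₁,
      WVV.valuation (e₂ (x : F₁) - e₁ (x : F₁)) < 1)
    {J : F₁} (hJ : IsIntegral O₀ J) (hJne : e₂ J ≠ e₁ J)
    (hJu : ∀ x : F₂, WVV.valuation x < 1 → x / (e₂ J - e₁ J) ∈ WVV) :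
    CMid (algebraMap R (integralClosure (Algebra.adjoin R {t2}) F₂) π) WVV 𝔫 := by
  classical
  letI algB₀B₁ : Algebra (integralClosure (Algebra.adjoin R {T₀}) F₀)
      (integralClosure (Algebra.adjoin R {algebraMap F₀ F₁ T₀}) F₁) :=
    (c2I0 (R := R) (T₀ := T₀) (F₁ := F₁)).toAlgebra
  letI algB₁S₁ : Algebra (integralClosure (Algebra.adjoin R {algebraMap F₀ F₁ T₀}) F₁) S₁ :=
    (c2J (R := R) (T₀ := T₀) (F₁ := F₁) O₀ S₁).toAlgebra
  letI algB₀S₁ : Algebra (integralClosure (Algebra.adjoin R {T₀}) F₀) S₁ :=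
    ((algebraMap O₀ S₁).comp (algebraMap (integralClosure (Algebra.adjoin R {T₀}) F₀) O₀)).toAlgebra
  have hS₁inj : Function.Injective (algebraMap S₁ F₁) :=
    IsIntegralClosure.algebraMap_injective S₁ O₀ F₁
  have hB₀S₁ : ∀ x : integralClosure (Algebra.adjoin R {T₀}) F₀,
      algebraMap S₁ F₁ (algebraMap _ S₁ x) = algebraMap F₀ F₁ (x : F₀) := by
    intro x
    show algebraMap S₁ F₁ (algebraMap O₀ S₁ (algebraMap _ O₀ x)) = _
    rw [← IsScalarTower.algebraMap_apply O₀ S₁ F₁, c2d_algebraMap_O₀]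
  have hB₁S₁ : ∀ x : integralClosure (Algebra.adjoin R {algebraMap F₀ F₁ T₀}) F₁,
      algebraMap S₁ F₁ (algebraMap _ S₁ x) = (x : F₁) := fun x => algebraMap_c2J O₀ S₁ x
  haveI tw1 : IsScalarTower (integralClosure (Algebra.adjoin R {T₀}) F₀) O₀ S₁ :=
    IsScalarTower.of_algebraMap_eq (fun _ => rfl)
  haveI tw2 : IsScalarTower (integralClosure (Algebra.adjoin R {T₀}) F₀)
      (integralClosure (Algebra.adjoin R {algebraMap F₀ F₁ T₀}) F₁) S₁ :=
    IsScalarTower.of_algebraMap_eq (fun x => by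
      apply hS₁inj
      rw [hB₀S₁, hB₁S₁]
      rfl)
  have hmemP := mem_cCen (B := integralClosure (Algebra.adjoin R {t2}) F₂) (W := WVV) hsub
  -- the test element
  obtain ⟨Js, hJs⟩ := (IsIntegralClosure.isIntegral_iff (A := S₁)).mp hJ
  obtain ⟨m, hm, u₀, hu₀⟩ := c2d_dict (F₁ := F₁) z' O₀ S₁ Js
  rw [hJs] at hu₀
  have hmn : cE e₁ he₁ (c2I0 (R := R) (T₀ := T₀) (F₁ := F₁) m) ∉ 𝔫 := by
    intro h
    apply hm
    rw [hz']
    exact h
  have hdiff : algebraMap (integralClosure (Algebra.adjoin R {t2}) F₂) F₂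
      (cE e₂ he₂ u₀ - cE e₁ he₁ u₀) =
      algebraMap (integralClosure (Algebra.adjoin R {t2}) F₂) F₂ (cE e₁ he₁ (c2I0 (R := R) (T₀ := T₀) (F₁ := F₁) m)) *
        (e₂ J - e₁ J) := by
    rw [map_sub, coe_cE, coe_cE, coe_cE]
    show e₂ (u₀ : F₁) - e₁ (u₀ : F₁) = e₁ (algebraMap F₀ F₁ (m : F₀)) * _
    rw [hu₀, map_mul, map_mul, ← hE]
    ring
  have hcinv : (algebraMap (integralClosure (Algebra.adjoin R {t2}) F₂) F₂
      (cE e₁ he₁ (c2I0 (R := R) (T₀ := T₀) (F₁ := F₁) m)))⁻¹ ∈ WVV :=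
    inv_mem_of_not_mem hmemP (fun h => hmn (hP h))
  have hc0 : algebraMap (integralClosure (Algebra.adjoin R {t2}) F₂) F₂
      (cE e₁ he₁ (c2I0 (R := R) (T₀ := T₀) (F₁ := F₁) m)) ≠ 0 := by
    intro h
    apply hmn
    have : cE e₁ he₁ (c2I0 (R := R) (T₀ := T₀) (F₁ := F₁) m) = 0 := Subtype.ext h
    rw [this]
    exact 𝔫.zero_mem
  have key := c2_hmid' (B₀ := integralClosure (Algebra.adjoin R {T₀}) F₀) (O₀ := O₀)
    (B₁ := integralClosure (Algebra.adjoin R {algebraMap F₀ F₁ T₀}) F₁) (S₁ := S₁)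
    (E₁ := cE e₁ he₁) (E₂ := cE e₂ he₂) (WVV := WVV)
    (by
      ext x
      exact hE (x : F₀))
    Subtype.val_injective hsub 𝔫 (fun x hx => hP ((hmemP x).mpr hx)) z'.primeCompl
    (by
      intro m hm h
      apply hm
      rw [hz']
      exact h)
    (c2J_injective (F₁ := F₁) O₀ S₁)
    (by
      intro x
      obtain ⟨m, hm, x', hx'⟩ := c2d_dict (F₁ := F₁) z' O₀ S₁ x
      refine ⟨m, hm, x', ?_⟩
      apply hS₁inj
      rw [hB₁S₁, map_mul, hB₀S₁, hx'])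
    hb hg' (π₀ := algebraMap R _ π) haF
    (by
      intro x
      rw [map_sub, coe_cE, coe_cE]
      exact hdiag x)
    (u₀ := u₀)
    (by
      intro h
      have h2 : algebraMap (integralClosure (Algebra.adjoin R {t2}) F₂) F₂
          (cE e₂ he₂ u₀ - cE e₁ he₁ u₀) = 0 := by rw [h, sub_self, map_zero]
      rw [hdiff] at h2
      rcases mul_eq_zero.mp h2 with h3 | h3
      · exact hc0 h3
      · exact hJne (sub_eq_zero.mp h3))
    (by
      rw [hdiff]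
      exact c2_unif_mul WVV hJu hcinv)
  have hπ : cE e₁ he₁ (algebraMap (integralClosure (Algebra.adjoin R {T₀}) F₀)
      (integralClosure (Algebra.adjoin R {algebraMap F₀ F₁ T₀}) F₁) (algebraMap R _ π)) =
      algebraMap R _ π := by
    show cE e₁ he₁ (c2I0 (R := R) (T₀ := T₀) (F₁ := F₁) (algebraMap R _ π)) = _
    rw [c2I0, cE_algebraMap, cE_algebraMap]
  rw [hπ] at key
  exact key

end conc

end Fermat.Agent.CARlib.C
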