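import Mathlib

/-
T-CAR, rows (A3) + (A4) + abstract core of (C2).  Mathlib only.
`c2_isLocalization` : (A3) in localisation form.
`c2_main` : (A4) + (A3), monic form.
The statement (A1) enters as the hypothesis `hA1` (only "integrally closed" is used).
-/

set_option autoImplicit false
set_option linter.unusedSectionVars false
open Polynomial IsLocalRing

namespace Fermat.Agent.CARlib

section Root

variable {A : Type*} [CommRing A] {P : A[X]} {π w : A}

/-- evaluation at `0` modulo `π` on `A[X]/(P)`, when `π ∣ P(0)` -/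
noncomputable def c2Psi (hP0 : P.coeff 0 = π * w) : AdjoinRoot P →+* A ⧸ Ideal.span {π} :=
  AdjoinRoot.lift (Ideal.Quotient.mk (Ideal.span {π})) 0 (by
    rw [eval₂_at_zero, hP0, Ideal.Quotient.eq_zero_iff_mem]
    exact Ideal.mul_mem_right _ _ (Ideal.mem_span_singleton_self π))

theorem c2Psi_mk (hP0 : P.coeff 0 = π * w) (h : A[X]) :
    c2Psi hP0 (AdjoinRoot.mk P h) = Ideal.Quotient.mk (Ideal.span {π}) (h.coeff 0) := by
  rw [c2Psi, AdjoinRoot.lift_mk, eval₂_at_zero]

theorem c2_mk_eq (h : A[X]) :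
    AdjoinRoot.mk P h = AdjoinRoot.of P (h.coeff 0) + AdjoinRoot.root P * AdjoinRoot.mk P h.divX := by
  conv_lhs => rw [← divX_mul_X_add h]
  rw [map_add, map_mul, AdjoinRoot.mk_X, AdjoinRoot.mk_C]
  ring

theorem c2_of_pi_mem (hP0 : P.coeff 0 = π * w) (hw : IsUnit w) :
    AdjoinRoot.of P π ∈ Ideal.span {AdjoinRoot.root P} := by
  obtain ⟨w', hw'⟩ := hw.exists_right_inv
  have h1 := c2_mk_eq (P := P) P
  rw [AdjoinRoot.mk_self, hP0, map_mul] at h1
  have h2 : AdjoinRoot.of P π = AdjoinRoot.root P *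
      (- AdjoinRoot.mk P P.divX * AdjoinRoot.of P w') := by
    have h3 : AdjoinRoot.of P w * AdjoinRoot.of P w' = 1 := by rw [← map_mul, hw', map_one]
    have h4 : AdjoinRoot.of P π * AdjoinRoot.of P w = - (AdjoinRoot.root P * AdjoinRoot.mk P P.divX) := by
      linear_combination -h1
    calc AdjoinRoot.of P π = AdjoinRoot.of P π * (AdjoinRoot.of P w * AdjoinRoot.of P w') := by
          rw [h3, mul_one]
      _ = (AdjoinRoot.of P π * AdjoinRoot.of P w) * AdjoinRoot.of P w' := by ring
      _ = _ := by rw [h4]; ring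
  rw [h2]
  exact Ideal.mul_mem_right _ _ (Ideal.mem_span_singleton_self _)

theorem c2_ker_psi (hP0 : P.coeff 0 = π * w) (hw : IsUnit w) :
    RingHom.ker (c2Psi hP0) = Ideal.span {AdjoinRoot.root P} := by
  apply le_antisymm
  · intro x hx
    obtain ⟨h, rfl⟩ := AdjoinRoot.mk_surjective x
    rw [RingHom.mem_ker, c2Psi_mk, Ideal.Quotient.eq_zero_iff_mem, Ideal.mem_span_singleton] at hx
    obtain ⟨a, ha⟩ := hx
    rw [c2_mk_eq h, ha, map_mul]
    exact Ideal.add_mem _ (Ideal.mul_mem_right _ _ (c2_of_pi_mem hP0 hw))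
      (Ideal.mul_mem_right _ _ (Ideal.mem_span_singleton_self _))
  · rw [Ideal.span_singleton_le_iff_mem, RingHom.mem_ker, ← AdjoinRoot.mk_X, c2Psi_mk]
    simp

theorem c2_span_root_isPrime (hπ : Prime π) (hP0 : P.coeff 0 = π * w) (hw : IsUnit w) :
    (Ideal.span {AdjoinRoot.root P}).IsPrime := by
  have : (Ideal.span {π}).IsPrime := (Ideal.span_singleton_prime hπ.ne_zero).mpr hπ
  rw [← c2_ker_psi hP0 hw]
  exact RingHom.ker_isPrime _

theorem c2_dvd_of_of_mem (hP0 : P.coeff 0 = π * w) (hw : IsUnit w) {a : A}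
    (ha : AdjoinRoot.of P a ∈ Ideal.span {AdjoinRoot.root P}) : π ∣ a := by
  rw [← c2_ker_psi hP0 hw, RingHom.mem_ker, ← AdjoinRoot.mk_C, c2Psi_mk, coeff_C_zero,
    Ideal.Quotient.eq_zero_iff_mem, Ideal.mem_span_singleton] at ha
  exact ha

/-- a proper ideal containing `root`, over the maximal ideal `(π, s)` -/
theorem c2_ideal_eq [IsLocalRing A] {s : A} (hm : maximalIdeal A = Ideal.span {π, s})
    (hP0 : P.coeff 0 = π * w) (hw : IsUnit w) (q : Ideal (AdjoinRoot P)) (hq : q ≠ ⊤)
    (hroot : AdjoinRoot.root P ∈ q) (hs : AdjoinRoot.of P s ∈ q) :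
    q = Ideal.span {AdjoinRoot.root P, AdjoinRoot.of P s} := by
  apply le_antisymm
  · intro x hx
    obtain ⟨h, rfl⟩ := AdjoinRoot.mk_surjective x
    rw [c2_mk_eq h] at hx ⊢
    have h1 : AdjoinRoot.of P (h.coeff 0) ∈ q := by
      have := q.sub_mem hx (q.mul_mem_right (AdjoinRoot.mk P h.divX) hroot)
      simpa using this
    have h2 : h.coeff 0 ∈ maximalIdeal A := by
      by_contra hcon
      have hu : IsUnit (h.coeff 0) := by
        by_contra hnu
        exact hcon ((mem_maximalIdeal _).mpr hnu)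
      exact hq (Ideal.eq_top_of_isUnit_mem _ h1 (hu.map _))
    rw [hm, Ideal.mem_span_pair] at h2
    obtain ⟨α, β, hαβ⟩ := h2
    have hle : Ideal.span {AdjoinRoot.root P} ≤ Ideal.span {AdjoinRoot.root P, AdjoinRoot.of P s} :=
      Ideal.span_mono (by simp)
    refine Ideal.add_mem _ ?_ (Ideal.mul_mem_right _ _ (Ideal.subset_span (by simp)))
    rw [← hαβ, map_add, map_mul, map_mul]
    exact Ideal.add_mem _ (Ideal.mul_mem_left _ _ (hle (c2_of_pi_mem hP0 hw)))
      (Ideal.mul_mem_left _ _ (Ideal.subset_span (by simp)))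
  · rw [Ideal.span_le]
    intro x hx
    rcases hx with rfl | rfl
    · exact hroot
    · exact hs

end Root


section Minpoly

variable {A O : Type*} [CommRing A] [IsDomain A] [IsLocalRing A] [IsIntegrallyClosed A]
  [CommRing O] [IsDomain O] [IsLocalRing O] [Algebra A O]

/-- the constant coefficient of the minimal polynomial is again `π * unit` -/
theorem c2_minpoly_coeff_zero (hinj : Function.Injective (algebraMap A O))
    {π : A} (hπ : Prime π) {y : O} (hy : y ∈ maximalIdeal O) {Q : A[X]} (hQ : Q.Monic)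
    (hQy : aeval y Q = 0) (hQ0 : ∃ u : A, IsUnit u ∧ Q.coeff 0 = π * u) :
    ∃ w : A, IsUnit w ∧ (minpoly A y).coeff 0 = π * w := by
  have : Module.IsTorsionFree A O := by
    have : FaithfulSMul A O := (faithfulSMul_iff_algebraMap_injective A O).mpr hinj
    infer_instance
  have hint : IsIntegral A y := ⟨Q, hQ, hQy⟩
  obtain ⟨R, hR⟩ := minpoly.isIntegrallyClosed_dvd hint hQy
  obtain ⟨u, hu, hQu⟩ := hQ0
  have h0 : (minpoly A y).coeff 0 * R.coeff 0 = π * u := by
    rw [← hQu, hR, mul_coeff_zero]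
  have hnu : ¬ IsUnit ((minpoly A y).coeff 0) := by
    intro hcon
    have h1 : aeval y (minpoly A y) = 0 := minpoly.aeval A y
    rw [← divX_mul_X_add (minpoly A y), map_add, map_mul, aeval_X, aeval_C] at h1
    have h2 : algebraMap A O ((minpoly A y).coeff 0) ∈ maximalIdeal O := by
      have : algebraMap A O ((minpoly A y).coeff 0) = - (aeval y (minpoly A y).divX) * y := by
        linear_combination h1
      rw [this]
      exact Ideal.mul_mem_left _ _ hy
    exact (mem_maximalIdeal _).mp h2 (hcon.map _)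
  have hirr : Irreducible (π * u) := by
    obtain ⟨u', rfl⟩ := hu
    exact (irreducible_mul_units u').mpr hπ.irreducible
  rcases hirr.isUnit_or_isUnit h0.symm with h | h
  · exact absurd h hnu
  · obtain ⟨r', hr'⟩ := h.exists_right_inv
    refine ⟨u * r', hu.mul (IsUnit.of_mul_eq_one _ (by rw [mul_comm]; exact hr')), ?_⟩
    calc (minpoly A y).coeff 0 = (minpoly A y).coeff 0 * (R.coeff 0 * r') := by rw [hr', mul_one]
      _ = ((minpoly A y).coeff 0 * R.coeff 0) * r' := by ring
      _ = π * (u * r') := by rw [h0]; ring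

/-- the evaluation `A[X]/(minpoly) → O` -/
noncomputable def c2Phi (y : O) : AdjoinRoot (minpoly A y) →+* O :=
  AdjoinRoot.lift (algebraMap A O) y (minpoly.aeval A y)

theorem c2Phi_mk (y : O) (h : A[X]) : c2Phi (A := A) y (AdjoinRoot.mk _ h) = aeval y h := by
  rw [c2Phi, AdjoinRoot.lift_mk]; rfl

theorem c2Phi_root (y : O) : c2Phi (A := A) y (AdjoinRoot.root _) = y := by
  rw [c2Phi, AdjoinRoot.lift_root]

theorem c2Phi_of (y : O) (a : A) : c2Phi (A := A) y (AdjoinRoot.of _ a) = algebraMap A O a := by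
  rw [c2Phi, AdjoinRoot.lift_of]

theorem c2Phi_injective (hinj : Function.Injective (algebraMap A O)) {y : O}
    (hint : IsIntegral A y) : Function.Injective (c2Phi (A := A) y) := by
  have : Module.IsTorsionFree A O := by
    have : FaithfulSMul A O := (faithfulSMul_iff_algebraMap_injective A O).mpr hinj
    infer_instance
  rw [injective_iff_map_eq_zero]
  intro x hx
  obtain ⟨h, rfl⟩ := AdjoinRoot.mk_surjective x
  rw [c2Phi_mk] at hx
  exact AdjoinRoot.mk_eq_zero.mpr (minpoly.isIntegrallyClosed_dvd hint hx)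

theorem c2Phi_range (y : O) (x : O) (hx : x ∈ Algebra.adjoin A {y}) :
    ∃ x' : AdjoinRoot (minpoly A y), c2Phi (A := A) y x' = x := by
  rw [Algebra.adjoin_singleton_eq_range_aeval] at hx
  obtain ⟨h, rfl⟩ := hx
  exact ⟨AdjoinRoot.mk _ h, c2Phi_mk y h⟩

end Minpoly


section Loc

universe u v w

variable {B : Type u} {O : Type v}
  [CommRing B] [IsDomain B] [IsNoetherianRing B]
  [CommRing O] [IsDomain O] [IsLocalRing O] [Algebra B O]

/-- (A3) in localisation form: `O` is the localisation of `B` at the contraction of its maximal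
ideal as soon as that localisation is "A1-regular". -/
theorem c2_isLocalization (hinj : Function.Injective (algebraMap B O)) {ρ σ : B}
    (hq : (maximalIdeal O).comap (algebraMap B O) = Ideal.span {ρ, σ}) (hρ : Prime ρ)
    (hfrac : ∀ x : O, ∃ a b : B, algebraMap B O b ≠ 0 ∧ x * algebraMap B O b = algebraMap B O a)
    (hloc : ∀ x : O, ∃ a b : O, IsIntegral B a ∧ IsIntegral B b ∧ IsUnit b ∧ x * b = a)
    (hA1 : ∀ (O' : Type u) [CommRing O'] [IsDomain O'] [IsLocalRing O'] [IsNoetherianRing O']
      (a t : O'), maximalIdeal O' = Ideal.span {a, t} → Prime a → IsIntegrallyClosed O') :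
    IsLocalization.AtPrime O ((maximalIdeal O).comap (algebraMap B O)) := by
  classical
  set q : Ideal B := (maximalIdeal O).comap (algebraMap B O) with hqdef
  have hqprime : q.IsPrime := Ideal.comap_isPrime _ _
  have hunit : ∀ b : q.primeCompl, IsUnit (algebraMap B O b) := by
    intro b
    by_contra hcon
    exact b.2 ((mem_maximalIdeal _).mpr hcon)
  let O' := Localization.AtPrime q
  have hdomO' : IsDomain O' :=
    IsLocalization.isDomain_localization (M := q.primeCompl) q.primeCompl_le_nonZeroDivisors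
  have hnoeO' : IsNoetherianRing O' := IsLocalization.isNoetherianRing q.primeCompl O' inferInstance
  have hmaxO' : maximalIdeal O' = Ideal.span {algebraMap B O' ρ, algebraMap B O' σ} := by
    rw [← Localization.AtPrime.map_eq_maximalIdeal]
    exact (congrArg (Ideal.map (algebraMap B O')) hq).trans
      (by rw [Ideal.map_span, Set.image_pair])
  have hρq : ρ ∈ q := by rw [hq]; exact Ideal.subset_span (by simp)
  have hrootprime : (Ideal.span {ρ}).IsPrime := (Ideal.span_singleton_prime hρ.ne_zero).mpr hρ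
  have hdisj : Disjoint (q.primeCompl : Set B) (Ideal.span {ρ} : Ideal B) := by
    rw [Set.disjoint_left]
    intro x hx hx'
    exact hx ((Ideal.span_singleton_le_iff_mem _).mpr hρq hx')
  have hprimeO' : Prime (algebraMap B O' ρ) := by
    have h1 := IsLocalization.isPrime_of_isPrime_disjoint q.primeCompl O' _ hrootprime hdisj
    rw [Ideal.map_span, Set.image_singleton] at h1
    refine (Ideal.span_singleton_prime ?_).mp h1
    intro h
    exact hρ.ne_zero ((IsLocalization.injective O' q.primeCompl_le_nonZeroDivisors)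
      (by rw [h, map_zero]))
  have hicO' : IsIntegrallyClosed O' := hA1 O' _ _ hmaxO' hprimeO'
  -- the map to `O`
  let ι : O' →+* O := IsLocalization.lift (M := q.primeCompl) (g := algebraMap B O) hunit
  have hιalg : ∀ b : B, ι (algebraMap B O' b) = algebraMap B O b := fun b =>
    IsLocalization.lift_eq hunit b
  have hιinj : Function.Injective ι := by
    rw [IsLocalization.lift_injective_iff]
    intro a b
    constructor
    · intro h
      rw [(IsLocalization.injective O' q.primeCompl_le_nonZeroDivisors) h]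
    · intro h
      rw [hinj h]
  have hιloc : ∀ x : O', IsUnit (ι x) → IsUnit x := by
    intro x hx
    obtain ⟨a, b, rfl⟩ := IsLocalization.exists_mk'_eq q.primeCompl x
    have h1 : ι (IsLocalization.mk' O' a b) * algebraMap B O b = algebraMap B O a := by
      rw [← hιalg, ← hιalg, ← map_mul, IsLocalization.mk'_spec]
    have h2 : IsUnit (algebraMap B O a) := by rw [← h1]; exact hx.mul (hunit b)
    rw [IsLocalization.AtPrime.isUnit_mk'_iff O' q]
    intro hcon
    exact (mem_maximalIdeal _).mp hcon h2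
  -- `F` is the fraction field of `O'`
  let F := FractionRing O
  let algO'F : Algebra O' F := ((algebraMap O F).comp ι).toAlgebra
  have halgO'F : ∀ x : O', algebraMap O' F x = algebraMap O F (ι x) := fun _ => rfl
  have hOF : Function.Injective (algebraMap O F) := IsFractionRing.injective O F
  have hfaith : FaithfulSMul O' F := by
    rw [faithfulSMul_iff_algebraMap_injective]
    intro a b h
    exact hιinj (hOF h)
  have hfracO' : IsFractionRing O' F := by
    apply IsFractionRing.of_field
    intro z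
    obtain ⟨x1, x2, hx2, rfl⟩ := IsFractionRing.div_surjective (A := O) z
    obtain ⟨a1, b1, hb1, h1⟩ := hfrac x1
    obtain ⟨a2, b2, hb2, h2⟩ := hfrac x2
    have hx2' : x2 ≠ 0 := nonZeroDivisors.ne_zero hx2
    have ha2 : algebraMap B O a2 ≠ 0 := by rw [← h2]; exact mul_ne_zero hx2' hb2
    refine ⟨algebraMap B O' (a1 * b2), algebraMap B O' (b1 * a2), ?_⟩
    rw [halgO'F, halgO'F, hιalg, hιalg, map_mul (algebraMap B O), map_mul (algebraMap B O), ← h1, ← h2]
    have e1 : algebraMap O F (algebraMap B O b1) ≠ 0 := fun h => hb1 (hOF (by rw [h, map_zero]))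
    have e2 : algebraMap O F (algebraMap B O b2) ≠ 0 := fun h => hb2 (hOF (by rw [h, map_zero]))
    have e3 : algebraMap O F x2 ≠ 0 := fun h => hx2' (hOF (by rw [h, map_zero]))
    simp only [map_mul]
    rw [div_eq_div_iff e3 (mul_ne_zero e1 (mul_ne_zero e3 e2))]
    ring
  -- integral elements lie in the image
  have hintim : ∀ x : O, IsIntegral B x → ∃ x' : O', ι x' = x := by
    intro x hx
    obtain ⟨p, hp, hpx⟩ := hx
    have h1 : IsIntegral O' (algebraMap O F x) := by
      refine ⟨p.map (algebraMap B O'), hp.map _, ?_⟩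
      rw [eval₂_map]
      have h2 : (algebraMap O' F).comp (algebraMap B O') = (algebraMap O F).comp (algebraMap B O) := by
        ext b
        simp only [RingHom.comp_apply, halgO'F, hιalg]
      rw [h2, ← hom_eval₂, hpx, map_zero]
    obtain ⟨x', hx'⟩ := IsIntegrallyClosed.isIntegral_iff.mp h1
    exact ⟨x', hOF (by rw [← halgO'F, hx'])⟩
  have hsurj : ∀ x : O, ∃ x' : O', ι x' = x := by
    intro x
    obtain ⟨a, b, ha, hb, hbu, hab⟩ := hloc x
    obtain ⟨a', rfl⟩ := hintim a ha
    obtain ⟨b', rfl⟩ := hintim b hb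
    obtain ⟨c', hc'⟩ := (hιloc b' hbu).exists_right_inv
    refine ⟨a' * c', ?_⟩
    rw [map_mul, ← hab, mul_assoc, ← map_mul, hc', map_one, mul_one]
  refine ⟨?_, ?_, ?_⟩
  · exact hunit
  · intro z
    obtain ⟨z', rfl⟩ := hsurj z
    obtain ⟨⟨a, b⟩, hab⟩ := IsLocalization.surj q.primeCompl z'
    refine ⟨(a, b), ?_⟩
    rw [← hιalg, ← hιalg, ← map_mul, hab]
  · intro a b hab
    exact ⟨1, by rw [hinj hab]⟩

end Loc


section Main

universe u v

variable {A : Type u} {O : Type v}
  [CommRing A] [IsDomain A] [IsLocalRing A] [IsNoetherianRing A] [IsIntegrallyClosed A]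
  [CommRing O] [IsDomain O] [IsLocalRing O] [Algebra A O] [IsLocalHom (algebraMap A O)]

/-- (A4) + (A3), monic form: `O ⊇ A[y]`, `y` a root of a monic `Q` with `Q(0) = π * unit`. -/
theorem c2_main (hinj : Function.Injective (algebraMap A O))
    {π s : A} (hm : maximalIdeal A = Ideal.span {π, s}) (hπ : Prime π)
    {y : O} (hy : y ∈ maximalIdeal O) {Q : A[X]} (hQ : Q.Monic) (hQy : aeval y Q = 0)
    (hQ0 : ∃ u : A, IsUnit u ∧ Q.coeff 0 = π * u)
    (hfrac : ∀ x : O, ∃ a b : O, a ∈ Algebra.adjoin A {y} ∧ b ∈ Algebra.adjoin A {y} ∧ b ≠ 0 ∧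
      x * b = a)
    (hloc : ∀ x : O, ∃ a b : O, IsIntegral A a ∧ IsIntegral A b ∧ IsUnit b ∧ x * b = a)
    (hA1 : ∀ (O' : Type u) [CommRing O'] [IsDomain O'] [IsLocalRing O'] [IsNoetherianRing O']
      (a t : O'), maximalIdeal O' = Ideal.span {a, t} → Prime a → IsIntegrallyClosed O') :
    IsNoetherianRing O ∧ maximalIdeal O = Ideal.span {y, algebraMap A O s} ∧ Prime y ∧
      y ∣ algebraMap A O π ∧ (∀ a : A, y ∣ algebraMap A O a → π ∣ a) ∧
      (∀ x : O, ∃ a : A, y ∣ x - algebraMap A O a) := by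
  classical
  have hint : IsIntegral A y := ⟨Q, hQ, hQy⟩
  obtain ⟨w, hw, hP0⟩ := c2_minpoly_coeff_zero hinj hπ hy hQ hQy hQ0
  have hTF : Module.IsTorsionFree A O := by
    have : FaithfulSMul A O := (faithfulSMul_iff_algebraMap_injective A O).mpr hinj
    infer_instance
  set P : A[X] := minpoly A y with hPdef
  have hPprime : Prime P := minpoly.prime_of_isIntegrallyClosed hint
  have hdomB : IsDomain (AdjoinRoot P) := AdjoinRoot.isDomain_of_prime hPprime
  have hnoeB : IsNoetherianRing (AdjoinRoot P) :=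
    isNoetherianRing_of_surjective A[X] (AdjoinRoot P) (AdjoinRoot.mk P) AdjoinRoot.mk_surjective
  set φ : AdjoinRoot P →+* O := c2Phi (A := A) y with hφdef
  have hφinj : Function.Injective φ := c2Phi_injective hinj hint
  have hφroot : φ (AdjoinRoot.root P) = y := c2Phi_root y
  have hφof : ∀ a, φ (AdjoinRoot.of P a) = algebraMap A O a := c2Phi_of y
  let algBO : Algebra (AdjoinRoot P) O := φ.toAlgebra
  have halg : algebraMap (AdjoinRoot P) O = φ := rfl
  -- the prime
  set q : Ideal (AdjoinRoot P) := (maximalIdeal O).comap (algebraMap (AdjoinRoot P) O) with hqdef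
  have hqprime : q.IsPrime := Ideal.comap_isPrime _ _
  have hsO : algebraMap A O s ∈ maximalIdeal O := by
    rw [mem_maximalIdeal, mem_nonunits_iff]
    intro hcon
    have hs1 : IsUnit s := isUnit_of_map_unit (algebraMap A O) s hcon
    have hs2 : s ∈ maximalIdeal A := by rw [hm]; exact Ideal.subset_span (by simp)
    exact (mem_maximalIdeal _).mp hs2 hs1
  have hrootq : AdjoinRoot.root P ∈ q := by rw [hqdef, Ideal.mem_comap, halg, hφroot]; exact hy
  have hsq : AdjoinRoot.of P s ∈ q := by rw [hqdef, Ideal.mem_comap, halg, hφof]; exact hsO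
  have hqeq : q = Ideal.span {AdjoinRoot.root P, AdjoinRoot.of P s} :=
    c2_ideal_eq hm hP0 hw q hqprime.ne_top hrootq hsq
  have hy0 : y ≠ 0 := by
    intro h0
    obtain ⟨u, hu, hQu⟩ := hQ0
    rw [h0, ← divX_mul_X_add Q, map_add, map_mul, aeval_X, mul_zero, zero_add, aeval_C, hQu] at hQy
    have h1 : π * u = 0 := hinj (by rw [hQy, map_zero])
    exact hπ.ne_zero (hu.mul_left_eq_zero.mp h1)
  have hroot0 : AdjoinRoot.root P ≠ 0 := by
    intro h
    apply hy0
    rw [← hφroot, h, map_zero]
  have hrootprimeI : (Ideal.span {AdjoinRoot.root P}).IsPrime := c2_span_root_isPrime hπ hP0 hw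
  have hrootprime : Prime (AdjoinRoot.root P) := (Ideal.span_singleton_prime hroot0).mp hrootprimeI
  have hL : IsLocalization.AtPrime O q := by
    refine c2_isLocalization hφinj hqeq hrootprime ?_ ?_ hA1
    · intro x
      obtain ⟨a, b, ha, hb, hb0, hab⟩ := hfrac x
      obtain ⟨a', rfl⟩ := c2Phi_range y a ha
      obtain ⟨b', rfl⟩ := c2Phi_range y b hb
      exact ⟨a', b', hb0, hab⟩
    · intro x
      obtain ⟨a, b, ha, hb, hbu, hab⟩ := hloc x
      have key : ∀ z : O, IsIntegral A z → IsIntegral (AdjoinRoot P) z := by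
        rintro z ⟨p, hp, hpz⟩
        refine ⟨p.map (AdjoinRoot.of P), hp.map _, ?_⟩
        rw [eval₂_map]
        have h2 : (algebraMap (AdjoinRoot P) O).comp (AdjoinRoot.of P) = algebraMap A O := by
          ext b
          simp only [RingHom.comp_apply, halg, hφof]
        rw [h2, hpz]
      exact ⟨a, b, key a ha, key b hb, hbu, hab⟩
  have hdisj : Disjoint (q.primeCompl : Set (AdjoinRoot P))
      (Ideal.span {AdjoinRoot.root P} : Ideal (AdjoinRoot P)) := by
    rw [Set.disjoint_left]
    intro x hx hx'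
    exact hx ((Ideal.span_singleton_le_iff_mem _).mpr hrootq hx')
  have hmapspan : Ideal.map (algebraMap (AdjoinRoot P) O) (Ideal.span {AdjoinRoot.root P})
      = Ideal.span {y} := by
    rw [Ideal.map_span, Set.image_singleton, halg, hφroot]
  refine ⟨IsLocalization.isNoetherianRing q.primeCompl O hnoeB, ?_, ?_, ?_, ?_, ?_⟩
  · rw [← IsLocalization.AtPrime.map_eq_maximalIdeal q O, hqeq, Ideal.map_span, Set.image_pair,
      halg, hφroot, hφof]
  · have h1 := IsLocalization.isPrime_of_isPrime_disjoint q.primeCompl O _ hrootprimeI hdisj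
    rw [hmapspan] at h1
    exact (Ideal.span_singleton_prime hy0).mp h1
  · have h1 := Ideal.mem_span_singleton.mp (c2_of_pi_mem hP0 hw)
    have h2 := map_dvd φ h1
    rwa [hφroot, hφof] at h2
  · intro a ha
    have h1 := IsLocalization.under_map_of_isPrime_disjoint q.primeCompl O hrootprimeI hdisj
    apply c2_dvd_of_of_mem hP0 hw
    rw [← h1, Ideal.under_def, Ideal.mem_comap, hmapspan, halg, hφof, Ideal.mem_span_singleton]
    exact ha
  · intro x
    obtain ⟨⟨h, t⟩, hht⟩ := IsLocalization.surj q.primeCompl x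
    simp only [halg] at hht
    obtain ⟨h', rfl⟩ := AdjoinRoot.mk_surjective h
    obtain ⟨t', ht'⟩ := AdjoinRoot.mk_surjective (t : AdjoinRoot P)
    have htu : IsUnit (φ t) := IsLocalization.map_units O t
    have ht0 : IsUnit (t'.coeff 0) := by
      by_contra hcon
      apply t.2
      rw [← ht', c2_mk_eq t']
      refine q.add_mem ?_ (q.mul_mem_right _ hrootq)
      have h3 : t'.coeff 0 ∈ maximalIdeal A := (mem_maximalIdeal _).mpr hcon
      rw [hqdef, Ideal.mem_comap, halg, hφof, mem_maximalIdeal, mem_nonunits_iff]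
      intro hu
      exact hcon (isUnit_of_map_unit (algebraMap A O) _ hu)
    obtain ⟨c, hc⟩ := ht0.exists_right_inv
    refine ⟨h'.coeff 0 * c, ?_⟩
    have h4 : y ∣ (x - algebraMap A O (h'.coeff 0 * c)) * φ t := by
      rw [sub_mul, hht, ← ht', c2_mk_eq h', c2_mk_eq t']
      simp only [map_add, map_mul, hφof, hφroot]
      refine ⟨φ (AdjoinRoot.mk P h'.divX) - algebraMap A O (h'.coeff 0) * algebraMap A O c *
        φ (AdjoinRoot.mk P t'.divX), ?_⟩
      have h5 : algebraMap A O (t'.coeff 0) * algebraMap A O c = 1 := by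
        rw [← map_mul, hc, map_one]
      linear_combination (- algebraMap A O (h'.coeff 0)) * h5
    exact (htu.dvd_mul_right).mp h4

end Main

end Fermat.Agent.CARlib
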