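import Fermat.Agent.CAR.VDefs

/-!
# T-CAR, block V: `VCore` = the part of `VData` which is about `W_VV` alone
-/

set_option autoImplicit false
set_option linter.unusedSectionVars false
set_option linter.unusedVariables false

open ModularCurve Polynomial

namespace Fermat.Agent.CARlib

open Fermat.Agent.ESlib Fermat.Agent.UNIlib

noncomputable section

variable {R K : Type} [CommRing R] [IsDomain R] [IsDiscreteValuationRing R] [Field K]
  [Algebra R K] [IsFractionRing R K] [Algebra ℚ K] [CharZero K] [Algebra K ℂ] [IsScalarTower ℚ K ℂ]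
  {N r : ℕ} [NeZero N] [NeZero r] [NeZero (N * r)] [NeZero (N * r * r)]
  [Algebra R (FK K (N * r * r))] [IsScalarTower R K (FK K (N * r * r))]

/-- the third valuation ring `W = W_VV` (fields of `VData`, verbatim) -/
structure VCore (hr : r.Prime) (hrN : ¬ r ∣ N) (π : R) (W : ValuationSubring (FK K (N * r * r))) :
    Prop where
  /-- `W_VV` lies over `V_F` along `i12` (over `V_V` along `e₁ = i12 ∘ wr`) -/
  vv_incl : ∀ x : FK K (N * r), i12 K N r x ∈ W ↔ x ∈ VF1 R K N r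
  /-- `sw` fixes `W_VV` -/
  vv_w2 : ∀ x, w2 K hr hrN x ∈ W ↔ x ∈ W
  vv_y : vY K N r ∈ W ∧ (vY K N r)⁻¹ ∉ W
  /-- `y` is a uniformiser -/
  vv_unif : ∀ z ∈ W, z⁻¹ ∈ W ∨ z / vY K N r ∈ W
  /-- `e = r - 1` -/
  vv_pow : vY K N r ^ (r - 1) / algebraMap R (FK K (N * r * r)) π ∈ W ∧
    algebraMap R (FK K (N * r * r)) π / vY K N r ^ (r - 1) ∈ W
  /-- `f = 1` -/
  vv_res : ∀ z ∈ W, ∃ c ∈ VF1 R K N r, (z - i12 K N r c) / vY K N r ∈ W
  /-- `W_VF ∩ W_VV = ⊕ V_F Y^i` -/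
  basis_F : ∀ c : Fin r → FK K (N * r),
    ∑ i, i12 K N r (c i) * vJ2 K N r ^ (i : ℕ) ∈ WVF R K N r →
    ∑ i, i12 K N r (c i) * vJ2 K N r ^ (i : ℕ) ∈ W → ∀ i, c i ∈ VF1 R K N r

end

end Fermat.Agent.CARlib
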