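import Fermat.Agent.CAR.C2Datum
import Fermat.Agent.CAR.VDefs2
import Fermat.Agent.CAR.V1Emb

set_option autoImplicit false
set_option linter.unusedSectionVars false

open ModularCurve Polynomial

namespace Fermat.Agent.CARlib

open Fermat.Agent.ESlib Fermat.Agent.UNIlib

section conc

variable {R K : Type} [CommRing R] [IsDomain R] [IsDiscreteValuationRing R] [Field K]
  [Algebra R K] [IsFractionRing R K] [Algebra ℚ K] [CharZero K] [Algebra K ℂ] [IsScalarTower ℚ K ℂ]
  {N r : ℕ} [NeZero N] [NeZero r] [NeZero (N * r)] [NeZero (N * r * r)]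
  [Algebra R (FK K N)] [IsScalarTower R K (FK K N)]
  [Algebra R (FK K (N * r))] [IsScalarTower R K (FK K (N * r))]
  [Algebra R (FK K (N * r * r))] [IsScalarTower R K (FK K (N * r * r))]
  [CharP (IsLocalRing.ResidueField R) r]

theorem c2v_e2_jr_sub (hr : r.Prime) (hrN : ¬ r ∣ N) :
    e2 K N r (jr K N r) - e1 K hr hrN (jr K N r) = vY K N r := by
  rw [e1_jr, e2_jr]
  congr 1
  exact Jgen_ext K (by simp)

theorem c2v_val_vY {hr : r.Prime} {hrN : ¬ r ∣ N} {π : R} {W : ValuationSubring (FK K (N * r * r))}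
    (D : VCore hr hrN π W) : W.valuation (vY K N r) < 1 := by
  rw [C.val_lt_one_iff]
  exact Or.inr D.vv_y.2

theorem c2v_unif {hr : r.Prime} {hrN : ¬ r ∣ N} {π : R} {W : ValuationSubring (FK K (N * r * r))}
    (D : VCore hr hrN π W) (x : FK K (N * r * r)) (hx : W.valuation x < 1) :
    x / vY K N r ∈ W := by
  rcases (C.val_lt_one_iff W x).mp hx with rfl | h
  · rw [zero_div]; exact W.zero_mem
  · rcases D.vv_unif x (C.mem_of_val_lt_one hx) with h' | h'
    · exact absurd h' h
    · exact h'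

/-- **the two degeneracy maps agree on the middle component** -/
theorem c2v_diag {hr : r.Prime} {hrN : ¬ r ∣ N} (hN : (N : IsLocalRing.ResidueField R) ≠ 0) {π : R}
    {W : ValuationSubring (FK K (N * r * r))} (D : VCore hr hrN π W) (x : FK K (N * r))
    (h1 : x ∈ gaussSub R K (N * r)) (h2 : wr K hr hrN x ∈ gaussSub R K (N * r)) :
    W.valuation (e2 K N r x - e1 K hr hrN x) < 1 := by
  obtain ⟨c, hdeg, rfl⟩ := exists_eval₂_jr_eq R hr hrN hN x
  have hc := coeff_mem_gaussSub_of_eval₂ hr hrN c hdeg h1 h2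
  have hJ1 : e1 K hr hrN (jr K N r) ∈ W := by
    rw [e1_apply]
    exact (D.vv_incl _).mpr (by
      rw [mem_gaussVal_iff, wr_jr]
      exact Jgen_mem_gaussSub _)
  have hJ2 : e2 K N r (jr K N r) ∈ W := by
    have : e2 K N r (jr K N r) = vY K N r + e1 K hr hrN (jr K N r) := by
      rw [← c2v_e2_jr_sub hr hrN]; ring
    rw [this]
    exact W.add_mem _ _ D.vv_y.1 hJ1
  have key := C.c2_diag (iF K N r) (e1 K hr hrN : FK K (N * r) →+* FK K (N * r * r))
    (e2 K N r : FK K (N * r) →+* FK K (N * r * r)) (by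
      ext y
      simp only [RingHom.comp_apply, RingHom.coe_coe, iF_apply]
      rw [e1_inclF, e2_inclF]) W hJ1 hJ2 (by
      have := c2v_val_vY D
      rwa [← c2v_e2_jr_sub hr hrN] at this) c (by
      intro k
      simp only [RingHom.coe_coe, iF_apply]
      rw [e1_apply]
      exact (D.vv_incl _).mpr (tv_wr_incl_mem hr hrN (hc k)))
  rw [eval_map] at key
  exact key

end conc

end Fermat.Agent.CARlib
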