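import Fermat.Agent.CAR.CInst
import Fermat.Agent.CAR.VDefs2
import Fermat.Agent.CAR.V1Emb
import Fermat.Agent.UNI.NormaliseFK

/-!
# T-CAR, block C: instantiation of `CPull` (twice), `CMidV` (twice) from block V (`VCore`)
-/

set_option autoImplicit false
set_option linter.unusedSectionVars false
set_option linter.unusedVariables false

open ModularCurve Polynomial

namespace Fermat.Agent.CARlib.C

open Fermat.Agent.ESlib Fermat.Agent.UNIlib Fermat.Agent.CARlib

/-! ### general valuation lemmas -/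

theorem comap_eq_of {F₁ F₂ : Type*} [Field F₁] [Field F₂] {W : ValuationSubring F₂}
    {V : ValuationSubring F₁} {e : F₁ →+* F₂} (h1 : ∀ u ∈ V, e u ∈ W)
    (h2 : ∀ u, V.valuation u < 1 → W.valuation (e u) < 1) : W.comap e = V := by
  ext u
  rw [ValuationSubring.mem_comap]
  refine ⟨fun h => ?_, h1 u⟩
  by_contra hu
  have hu0 : u ≠ 0 := fun h0 => hu (h0 ▸ V.zero_mem)
  have h3 : V.valuation u⁻¹ < 1 := by
    rw [val_lt_one_iff, inv_inv]; exact Or.inr hu
  have h4 := h2 _ h3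
  rw [val_lt_one_iff, map_inv₀, inv_inv] at h4
  rcases h4 with h4 | h4
  · exact hu0 (by simpa using h4)
  · exact h4 h

theorem val_lt_one_of_div {F : Type*} [Field F] {W : ValuationSubring F} {x ϖ : F}
    (h0 : ϖ ≠ 0) (hϖ : W.valuation ϖ < 1) (h : x / ϖ ∈ W) : W.valuation x < 1 := by
  have : x = x / ϖ * ϖ := by field_simp
  rw [this, map_mul]
  calc W.valuation (x / ϖ) * W.valuation ϖ ≤ 1 * W.valuation ϖ :=
        mul_le_mul_left ((W.valuation_le_one_iff _).2 h) _
    _ < 1 := by rwa [one_mul]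

/-- `unif` in the form of `VCore.vv_unif` gives the form of `CMid` -/
theorem div_mem_of_val_lt_one {F : Type*} [Field F] {W : ValuationSubring F} {ϖ : F}
    (h : ∀ z ∈ W, z⁻¹ ∈ W ∨ z / ϖ ∈ W) {x : F} (hx : W.valuation x < 1) : x / ϖ ∈ W := by
  rcases h x (mem_of_val_lt_one hx) with h1 | h1
  · rcases (val_lt_one_iff W x).1 hx with h2 | h2
    · rw [h2, zero_div]; exact W.zero_mem
    · exact absurd h1 h2
  · exact h1

/-! ### the Gauss valuation has uniformiser `π` -/

section gauss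

variable {R K : Type} [CommRing R] [IsDomain R] [IsDiscreteValuationRing R] [Field K]
  [Algebra R K] [IsFractionRing R K] [Algebra ℚ K] {M : ℕ} [NeZero M]
  [Algebra R (FK K M)] [IsScalarTower R K (FK K M)]

theorem cg_unif' {π : R} (hπ : Irreducible π) (z : FK K M) (hz : z ∈ gaussVal R K M) :
    z⁻¹ ∈ gaussVal R K M ∨ z / algebraMap R (FK K M) π ∈ gaussVal R K M := by
  by_cases hz0 : z = 0
  · right; rw [hz0, zero_div]; exact (gaussVal R K M).zero_mem
  have hS := redSetup_of_dvr (K := K) hπ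
  have hz' : (z : LaurentSeries K) ≠ 0 := fun h => hz0 (Subtype.ext h)
  obtain ⟨a, b, u, hu, hu', hu0, hrel⟩ := (isBdd_of_mem_FK (R := R) z.2).exists_unit hS hz'
  have hc := redSetup_C_unif_ne_zero hS
  have hcm : (HahnSeries.C (algebraMap R K π) : LaurentSeries K) ∈
      LamR (algebraMap R K) (IsLocalRing.residue R) := C_unif_mem_LamR
  rcases lt_or_ge a b with hab | hab
  · right
    obtain ⟨c, rfl⟩ : ∃ c, b = a + (c + 1) := ⟨b - a - 1, by omega⟩
    rw [mem_gaussVal_iff, mem_gaussSub_iff]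
    have hcoe : ((z / algebraMap R (FK K M) π : FK K M) : LaurentSeries K)
        = (z : LaurentSeries K) / (HahnSeries.C (algebraMap R K π) : LaurentSeries K) := by
      rw [← coe_algebraMap_R (N := M)]; rfl
    have : (z : LaurentSeries K) =
        (HahnSeries.C (algebraMap R K π) : LaurentSeries K) ^ (c + 1) * u := by
      apply mul_left_cancel₀ (pow_ne_zero a hc)
      rw [hrel, pow_add, mul_assoc]
    rw [hcoe, this, pow_succ, mul_assoc, mul_div_assoc, mul_comm _ u, mul_div_assoc,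
      div_self hc, mul_one]
    exact mul_mem (pow_mem hcm c) hu
  · left
    obtain ⟨c, rfl⟩ := Nat.exists_eq_add_of_le hab
    rw [mem_gaussVal_iff, mem_gaussSub_iff]
    have : ((z : LaurentSeries K))⁻¹ =
        (HahnSeries.C (algebraMap R K π) : LaurentSeries K) ^ c * u⁻¹ := by
      rw [pow_add, mul_assoc] at hrel
      have h2 := mul_left_cancel₀ (pow_ne_zero b hc) hrel
      rw [← h2, mul_inv, mul_inv_cancel_left₀ (pow_ne_zero c hc)]
    show ((z : LaurentSeries K))⁻¹ ∈ _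
    rw [this]
    exact mul_mem (pow_mem hcm c) hu'

theorem cg_unif {π : R} (hπ : Irreducible π) (z : FK K M)
    (hz : (gaussVal R K M).valuation z < 1) :
    z / algebraMap R (FK K M) π ∈ gaussVal R K M :=
  div_mem_of_val_lt_one (cg_unif' hπ) hz

theorem cg_val_pi {π : R} (hπ : Irreducible π) :
    (gaussVal R K M).valuation (algebraMap R (FK K M) π) < 1 := by
  rw [val_lt_one_iff]
  exact Or.inr (inv_unif_notMem_gaussSub hπ)

end gauss

/-! ### the modular setting -/

section main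

variable {R K : Type} [CommRing R] [IsDomain R] [IsDiscreteValuationRing R] [Field K]
  [Algebra R K] [IsFractionRing R K] [Algebra ℚ K] [CharZero K] [Algebra K ℂ] [IsScalarTower ℚ K ℂ]
  {N r : ℕ} [NeZero N] [NeZero r] [NeZero (N * r)] [NeZero (N * r * r)]
  [Algebra R (FK K (N * r))] [IsScalarTower R K (FK K (N * r))]
  [Algebra R (FK K (N * r * r))] [IsScalarTower R K (FK K (N * r * r))]

variable (R K) in
/-- `e₁` as an `R`-algebra map -/
noncomputable abbrev cE1 (hr : r.Prime) (hrN : ¬ r ∣ N) : FK K (N * r) →ₐ[R] FK K (N * r * r) :=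
  (e1 K hr hrN).restrictScalars R

variable (R K N r) in
/-- `e₂` as an `R`-algebra map -/
noncomputable abbrev cE2 : FK K (N * r) →ₐ[R] FK K (N * r * r) := (e2 K N r).restrictScalars R

variable (hr : r.Prime) (hrN : ¬ r ∣ N) {π : R}

theorem w2_algebraMap_R (a : R) :
    w2 K hr hrN (algebraMap R (FK K (N * r * r)) a) = algebraMap R (FK K (N * r * r)) a := by
  rw [IsScalarTower.algebraMap_apply R K (FK K (N * r * r)), AlgEquiv.commutes]

theorem wr_algebraMap_R (a : R) :
    wr K hr hrN (algebraMap R (FK K (N * r)) a) = algebraMap R (FK K (N * r)) a := by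
  rw [IsScalarTower.algebraMap_apply R K (FK K (N * r)), AlgEquiv.commutes]

/-- `W_VF | V_F` along `e₂` -/
theorem comap_WVF_e2 :
    (WVF R K N r).comap ((cE2 R K N r : FK K (N * r) →ₐ[R] FK K (N * r * r)) :
      FK K (N * r) →+* FK K (N * r * r)) = VF1 R K N r := by
  obtain ⟨π, hπ⟩ := IsDiscreteValuationRing.exists_irreducible R
  have h1 : ∀ u ∈ VF1 R K N r, e2 K N r u ∈ WVF R K N r := by
    intro u hu
    rw [mem_gaussVal_iff, mem_gaussSub_iff, coe_e2]
    exact qExpand_mem_LamR r hu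
  apply comap_eq_of h1
  intro u hu
  have h2 := h1 _ (cg_unif hπ u hu)
  rw [map_div₀] at h2
  have h3 : e2 K N r (algebraMap R (FK K (N * r)) π) = algebraMap R (FK K (N * r * r)) π :=
    (cE2 R K N r).commutes π
  rw [h3] at h2
  exact val_lt_one_of_div (algebraMap_unif_ne_zero hπ) (cg_val_pi hπ) h2

/-- `W_VF | V_V` along `e₁` -/
theorem comap_WVF_e1 :
    (WVF R K N r).comap ((cE1 R K hr hrN : FK K (N * r) →ₐ[R] FK K (N * r * r)) :
      FK K (N * r) →+* FK K (N * r * r)) = VV1 R hr hrN := by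
  ext u
  rw [ValuationSubring.mem_comap, ValuationSubring.mem_comap]
  show e1 K hr hrN u ∈ gaussVal R K (N * r * r) ↔ wr K hr hrN u ∈ gaussVal R K (N * r)
  rw [e1_apply, mem_gaussVal_iff, mem_gaussVal_iff, mem_gaussSub_iff, coe_inclF, mem_gaussSub_iff]

/-- `W_FV | V_F` along `e₁` -/
theorem comap_WFV_e1 :
    (WFV R hr hrN).comap ((cE1 R K hr hrN : FK K (N * r) →ₐ[R] FK K (N * r * r)) :
      FK K (N * r) →+* FK K (N * r * r)) = VF1 R K N r := by
  rw [← comap_WVF_e2 (R := R) (K := K) (N := N) (r := r)]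
  ext u
  simp only [ValuationSubring.mem_comap]
  show w2 K hr hrN (e1 K hr hrN u) ∈ _ ↔ e2 K N r u ∈ _
  rw [w2_e1]

/-- `W_FV | V_V` along `e₂` -/
theorem comap_WFV_e2 :
    (WFV R hr hrN).comap ((cE2 R K N r : FK K (N * r) →ₐ[R] FK K (N * r * r)) :
      FK K (N * r) →+* FK K (N * r * r)) = VV1 R hr hrN := by
  rw [← comap_WVF_e1 (R := R) hr hrN]
  ext u
  simp only [ValuationSubring.mem_comap]
  show w2 K hr hrN (e2 K N r u) ∈ _ ↔ e1 K hr hrN u ∈ _
  rw [w2_e2]

theorem cg_unif_WFV (hπ : Irreducible π) (x : FK K (N * r * r)) (hx : (WFV R hr hrN).valuation x < 1) :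
    x / algebraMap R (FK K (N * r * r)) π ∈ WFV R hr hrN := by
  have h1 : (WVF R K N r).valuation (w2 K hr hrN x) < 1 :=
    (val_comap_lt_one_iff (W := WVF R K N r) (V := WFV R hr hrN)
      (e := (w2 K hr hrN : FK K (N * r * r) →+* FK K (N * r * r))) rfl x).2 hx
  have h2 := cg_unif hπ _ h1
  rw [ValuationSubring.mem_comap]
  show w2 K hr hrN _ ∈ _
  rw [map_div₀, w2_algebraMap_R]
  exact h2

theorem cg_val_pi_WFV (hπ : Irreducible π) : (WFV R hr hrN).valuation (algebraMap R (FK K (N * r * r)) π) < 1 := by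
  rw [← val_comap_lt_one_iff (W := WVF R K N r) (V := WFV R hr hrN)
      (e := (w2 K hr hrN : FK K (N * r * r) →+* FK K (N * r * r))) rfl]
  show (WVF R K N r).valuation (w2 K hr hrN _) < 1
  rw [w2_algebraMap_R]
  exact cg_val_pi hπ

theorem wr_mem_VV1 {c : FK K (N * r)} (hc : c ∈ VF1 R K N r) : wr K hr hrN c ∈ VV1 R hr hrN := by
  rw [ValuationSubring.mem_comap]
  show wr K hr hrN (wr K hr hrN c) ∈ _
  rw [wr_wr]; exact hc

section core

variable {W : ValuationSubring (FK K (N * r * r))} (D : VCore hr hrN π W)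

include D

theorem comap_W_e1 :
    W.comap ((cE1 R K hr hrN : FK K (N * r) →ₐ[R] FK K (N * r * r)) :
      FK K (N * r) →+* FK K (N * r * r)) = VV1 R hr hrN := by
  ext u
  rw [ValuationSubring.mem_comap, ValuationSubring.mem_comap]
  show e1 K hr hrN u ∈ W ↔ wr K hr hrN u ∈ gaussVal R K (N * r)
  rw [e1_apply]
  exact D.vv_incl _

theorem comap_W_w2 : W.comap (w2 K hr hrN : FK K (N * r * r) →+* FK K (N * r * r)) = W := by
  ext u
  rw [ValuationSubring.mem_comap]
  exact D.vv_w2 u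

theorem comap_W_e2 :
    W.comap ((cE2 R K N r : FK K (N * r) →ₐ[R] FK K (N * r * r)) :
      FK K (N * r) →+* FK K (N * r * r)) = VV1 R hr hrN := by
  rw [← comap_W_e1 hr hrN D]
  ext u
  simp only [ValuationSubring.mem_comap]
  show e2 K N r u ∈ W ↔ e1 K hr hrN u ∈ W
  rw [← w2_e1 K hr hrN, D.vv_w2]

theorem val_vY : W.valuation (vY K N r) < 1 := by
  rw [val_lt_one_iff]; exact Or.inr D.vv_y.2

theorem vY_ne_zero : vY K N r ≠ 0 := by
  intro h
  apply D.vv_y.2
  rw [h, inv_zero]; exact W.zero_mem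

theorem unif_vY (x : FK K (N * r * r)) (hx : W.valuation x < 1) : x / vY K N r ∈ W :=
  div_mem_of_val_lt_one D.vv_unif hx

theorem ram_W (x : FK K (N * r * r)) (hx : W.valuation x < 1) :
    x ^ (r - 1) / algebraMap R (FK K (N * r * r)) π ∈ W := by
  have h1 := W.pow_mem (unif_vY hr hrN D x hx) (r - 1)
  have h2 := W.mul_mem _ _ h1 D.vv_pow.1
  have hY := vY_ne_zero hr hrN D
  have : x ^ (r - 1) / algebraMap R (FK K (N * r * r)) π =
      (x / vY K N r) ^ (r - 1) * (vY K N r ^ (r - 1) / algebraMap R (FK K (N * r * r)) π) := by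
    rw [div_pow]; field_simp
  rw [this]; exact h2

theorem val_pi_W (hπ : Irreducible π) : W.valuation (algebraMap R (FK K (N * r * r)) π) < 1 := by
  have hY := vY_ne_zero hr hrN D
  have h2 : 1 ≤ r - 1 := by have := hr.two_le; omega
  have h3 : W.valuation (vY K N r ^ (r - 1)) < 1 := by
    rw [map_pow]
    exact pow_lt_one₀ zero_le (val_vY hr hrN D) (by omega)
  exact val_lt_one_of_div (pow_ne_zero _ hY) h3 D.vv_pow.2

theorem res_W_e1 (z : FK K (N * r * r)) (hz : z ∈ W) :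
    ∃ u ∈ VV1 R hr hrN, W.valuation (z - e1 K hr hrN u) < 1 := by
  obtain ⟨c, hc, h⟩ := D.vv_res z hz
  refine ⟨wr K hr hrN c, wr_mem_VV1 hr hrN hc, ?_⟩
  rw [e1_wr]
  exact val_lt_one_of_div (vY_ne_zero hr hrN D) (val_vY hr hrN D) h

theorem res_W_e2 (z : FK K (N * r * r)) (hz : z ∈ W) :
    ∃ u ∈ VV1 R hr hrN, W.valuation (z - e2 K N r u) < 1 := by
  obtain ⟨u, hu, h⟩ := res_W_e1 hr hrN D (w2 K hr hrN z) ((D.vv_w2 z).2 hz)
  refine ⟨u, hu, ?_⟩
  rw [← val_comap_lt_one_iff (comap_W_w2 hr hrN D)]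
  show W.valuation (w2 K hr hrN _) < 1
  rw [map_sub, w2_e2]
  exact h

end core

/-! ### the bundles -/

section bundles

variable {W : ValuationSubring (FK K (N * r * r))} (hπ : Irreducible π) (D : VCore hr hrN π W)
  (hvf : ∀ z ∈ WVF R K N r, ∃ c ∈ VF1 R K N r,
    (z - i12 K N r c) / algebraMap R (FK K (N * r * r)) π ∈ WVF R K N r)
  {T₁ : FK K (N * r)} {t2 : FK K (N * r * r)} (he₁ : cE1 R K hr hrN T₁ = t2)
  (he₂ : cE2 R K N r T₁ = t2) (ht2 : Transcendental K t2)
  (hPi : ∀ x, PiInt π t2 x ↔ x ∈ WVF R K N r ∧ x ∈ WFV R hr hrN ∧ x ∈ W)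

include hπ D hvf ht2 hPi

/-- the component `W_FV` -/
theorem cInstV_H1 :
    CPull (algebraMap R (integralClosure (Algebra.adjoin R {T₁}) (FK K (N * r))) π)
      (algebraMap R (integralClosure (Algebra.adjoin R {t2}) (FK K (N * r * r))) π)
      (cE (cE1 R K hr hrN) he₁) (cE (cE2 R K N r) he₂)
      (cE1 R K hr hrN : FK K (N * r) →+* FK K (N * r * r))
      (cE2 R K N r : FK K (N * r) →+* FK K (N * r * r)) (VF1 R K N r) (VV1 R hr hrN)
      (WFV R hr hrN) (WVF R K N r) W
      (cCen (integralClosure (Algebra.adjoin R {t2}) (FK K (N * r * r)))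
        (WFV R hr hrN : ValuationSubring (FK K (N * r * r)))) := by
  refine cInst_pull (K := K) hπ.prime ht2 (cE1 R K hr hrN) (cE2 R K N r) he₁ he₂
    (fun x => (hPi x).trans ⟨fun h => ⟨h.2.1, h.1, h.2.2⟩, fun h => ⟨h.2.1, h.1, h.2.2⟩⟩)
    (cg_unif_WFV hr hrN hπ) (comap_WFV_e1 hr hrN) (comap_WVF_e1 hr hrN) (comap_W_e1 hr hrN D)
    (comap_WFV_e2 hr hrN) ?_
  intro x hx
  obtain ⟨c, hc, h⟩ := hvf (w2 K hr hrN x) hx
  refine ⟨wr K hr hrN c, wr_mem_VV1 hr hrN hc, ?_⟩
  rw [← val_comap_lt_one_iff (W := WVF R K N r) (V := WFV R hr hrN)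
      (e := (w2 K hr hrN : FK K (N * r * r) →+* FK K (N * r * r))) rfl]
  show (WVF R K N r).valuation (w2 K hr hrN (x - e2 K N r (wr K hr hrN c))) < 1
  rw [map_sub, w2_e2, e1_wr]
  exact val_lt_one_of_div (algebraMap_unif_ne_zero hπ) (cg_val_pi hπ) h

/-- the component `W_VF` -/
theorem cInstV_H2 :
    CPull (algebraMap R (integralClosure (Algebra.adjoin R {T₁}) (FK K (N * r))) π)
      (algebraMap R (integralClosure (Algebra.adjoin R {t2}) (FK K (N * r * r))) π)
      (cE (cE2 R K N r) he₂) (cE (cE1 R K hr hrN) he₁)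
      (cE2 R K N r : FK K (N * r) →+* FK K (N * r * r))
      (cE1 R K hr hrN : FK K (N * r) →+* FK K (N * r * r)) (VF1 R K N r) (VV1 R hr hrN)
      (WVF R K N r) (WFV R hr hrN) W
      (cCen (integralClosure (Algebra.adjoin R {t2}) (FK K (N * r * r))) (WVF R K N r)) := by
  refine cInst_pull (K := K) hπ.prime ht2 (cE2 R K N r) (cE1 R K hr hrN) he₂ he₁ hPi
    (cg_unif hπ) comap_WVF_e2 (comap_WFV_e2 hr hrN) (comap_W_e2 hr hrN D)
    (comap_WVF_e1 hr hrN) ?_
  intro x hx
  obtain ⟨c, hc, h⟩ := hvf x hx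
  refine ⟨wr K hr hrN c, wr_mem_VV1 hr hrN hc, ?_⟩
  show (WVF R K N r).valuation (x - e1 K hr hrN (wr K hr hrN c)) < 1
  rw [e1_wr]
  exact val_lt_one_of_div (algebraMap_unif_ne_zero hπ) (cg_val_pi hπ) h

omit hvf ht2 in
/-- the middle component, along `e₁` -/
theorem cInstV_M1 :
    CMidV (algebraMap R (integralClosure (Algebra.adjoin R {t2}) (FK K (N * r * r))) π)
      (cE (cE1 R K hr hrN) he₁) (cE1 R K hr hrN : FK K (N * r) →+* FK K (N * r * r)) (VV1 R hr hrN) W
      (cCen (integralClosure (Algebra.adjoin R {t2}) (FK K (N * r * r))) W) :=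
  cInst_mid hπ.prime (cE1 R K hr hrN) he₁ (fun x hx => ((hPi x).1 hx).2.2)
    (comap_W_e1 hr hrN D) (res_W_e1 hr hrN D) ⟨r - 1, ram_W hr hrN D⟩

omit hvf ht2 in
/-- the middle component, along `e₂` -/
theorem cInstV_M2 :
    CMidV (algebraMap R (integralClosure (Algebra.adjoin R {t2}) (FK K (N * r * r))) π)
      (cE (cE2 R K N r) he₂) (cE2 R K N r : FK K (N * r) →+* FK K (N * r * r)) (VV1 R hr hrN) W
      (cCen (integralClosure (Algebra.adjoin R {t2}) (FK K (N * r * r))) W) :=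
  cInst_mid hπ.prime (cE2 R K N r) he₂ (fun x hx => ((hPi x).1 hx).2.2)
    (comap_W_e2 hr hrN D) (res_W_e2 hr hrN D) ⟨r - 1, ram_W hr hrN D⟩

omit hvf ht2 in
/-- `π` lies in the three centres -/
theorem cInstV_pi :
    algebraMap R (integralClosure (Algebra.adjoin R {t2}) (FK K (N * r * r))) π ∈
      cCen (integralClosure (Algebra.adjoin R {t2}) (FK K (N * r * r)))
        (WFV R hr hrN : ValuationSubring (FK K (N * r * r))) ∧
    algebraMap R (integralClosure (Algebra.adjoin R {t2}) (FK K (N * r * r))) π ∈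
      cCen (integralClosure (Algebra.adjoin R {t2}) (FK K (N * r * r))) (WVF R K N r) ∧
    algebraMap R (integralClosure (Algebra.adjoin R {t2}) (FK K (N * r * r))) π ∈
      cCen (integralClosure (Algebra.adjoin R {t2}) (FK K (N * r * r))) W := by
  have hsub : ∀ b : integralClosure (Algebra.adjoin R {t2}) (FK K (N * r * r)),
      (b : FK K (N * r * r)) ∈ WVF R K N r ∧ (b : FK K (N * r * r)) ∈ WFV R hr hrN ∧
        (b : FK K (N * r * r)) ∈ W := fun b => (hPi _).1 (PiInt.of_isIntegral hπ.prime b.2)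
  refine ⟨?_, ?_, ?_⟩
  · rw [mem_cCen fun b => (hsub b).2.1]; exact cg_val_pi_WFV hr hrN hπ
  · rw [mem_cCen fun b => (hsub b).1]; exact cg_val_pi hπ
  · rw [mem_cCen fun b => (hsub b).2.2]
    exact (val_pi_W hr hrN D hπ : W.valuation (algebraMap R (FK K (N * r * r)) π) < 1)

end bundles

end main

end Fermat.Agent.CARlib.C
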