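import Fermat.Agent.CAR.C2Conc
import Fermat.Agent.CAR.C2V
import Fermat.Agent.CAR.CInstV
import Fermat.Agent.CAR.V3Diff

set_option autoImplicit false
set_option linter.unusedSectionVars false
set_option linter.unusedVariables false

open ModularCurve Polynomial

namespace Fermat.Agent.CARlib.C

open Fermat.Agent.ESlib Fermat.Agent.UNIlib Fermat.Agent.CARlib

section main

variable {R K : Type} [CommRing R] [IsDomain R] [IsDiscreteValuationRing R] [Field K]
  [Algebra R K] [IsFractionRing R K] [Algebra ℚ K] [CharZero K] [Algebra K ℂ] [IsScalarTower ℚ K ℂ]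
  {N r : ℕ} [NeZero N] [NeZero r] [NeZero (N * r)] [NeZero (N * r * r)]
  [Algebra R (FK K N)] [IsScalarTower R K (FK K N)]
  [Algebra R (FK K (N * r))] [IsScalarTower R K (FK K (N * r))]
  [Algebra R (FK K (N * r * r))] [IsScalarTower R K (FK K (N * r * r))]
  [CharP (IsLocalRing.ResidueField R) r]

/-- `j_r` is integral over any ring containing `j` -/
theorem c2m_isIntegral_jr (hr : r.Prime) {O₀ : Type*} [CommRing O₀] [Algebra O₀ (FK K (N * r))]
    (c : O₀) (hc : algebraMap O₀ (FK K (N * r)) c = J1 K (N * r)) :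
    IsIntegral O₀ (jr K N r) := by
  obtain ⟨Φ, hΦ, -⟩ := v3_exists_Phi hr
  refine ⟨Φ.map ((aeval c : ℤ[X] →ₐ[ℤ] O₀) : ℤ[X] →+* O₀), hΦ.monic.map _, ?_⟩
  rw [eval₂_map]
  have h1 : (algebraMap O₀ (FK K (N * r))).comp ((aeval c : ℤ[X] →ₐ[ℤ] O₀) : ℤ[X] →+* O₀) =
      ((aeval (J1 K (N * r)) : ℤ[X] →ₐ[ℤ] FK K (N * r)) : ℤ[X] →+* FK K (N * r)) := by
    apply Polynomial.ringHom_ext
    · intro a
      simp
    · simp [hc]
  rw [h1]
  exact v3_evZ_Phi_eq_zero hΦ

/-- **(C2), modular form**: `CMid` at every maximal ideal on the middle component over a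
NON-CUSPIDAL point `z'` of level 0 (`j ∈ O₀`) where `S₁ = O₀[b]`, `g'(b) ∣ π`. -/
theorem c2_mod [Algebra (FK K N) (FK K (N * r))] [IsScalarTower R (FK K N) (FK K (N * r))]
    (halg : ∀ x, algebraMap (FK K N) (FK K (N * r)) x = inclF K (dvd_mul_right N r) x)
    (hr : r.Prime) (hrN : ¬ r ∣ N) (hN : (N : IsLocalRing.ResidueField R) ≠ 0) {π : R}
    {W : ValuationSubring (FK K (N * r * r))} (D : VCore hr hrN π W)
    {T₀ : FK K N} {t2 : FK K (N * r * r)}
    (he₁ : cE1 R K hr hrN (algebraMap (FK K N) (FK K (N * r)) T₀) = t2)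
    (he₂ : cE2 R K N r (algebraMap (FK K N) (FK K (N * r)) T₀) = t2)
    (hsub : ∀ x : integralClosure (Algebra.adjoin R {t2}) (FK K (N * r * r)),
      (x : FK K (N * r * r)) ∈ W)
    (hB₁ : ∀ x : integralClosure (Algebra.adjoin R {algebraMap (FK K N) (FK K (N * r)) T₀})
        (FK K (N * r)),
      (x : FK K (N * r)) ∈ gaussSub R K (N * r) ∧
        wr K hr hrN (x : FK K (N * r)) ∈ gaussSub R K (N * r))
    (𝔫 : Ideal (integralClosure (Algebra.adjoin R {t2}) (FK K (N * r * r))))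
    (hP : cCen (integralClosure (Algebra.adjoin R {t2}) (FK K (N * r * r))) W ≤ 𝔫)
    (z' : Ideal (integralClosure (Algebra.adjoin R {T₀}) (FK K N))) [z'.IsPrime]
    (hz' : z' = 𝔫.comap ((cE (cE1 R K hr hrN) he₁).comp c2I0))
    (O₀ S₁ : Type*) [CommRing O₀]
    [Algebra (integralClosure (Algebra.adjoin R {T₀}) (FK K N)) O₀] [IsLocalization.AtPrime O₀ z']
    [Algebra O₀ (FK K N)] [IsScalarTower (integralClosure (Algebra.adjoin R {T₀}) (FK K N)) O₀ (FK K N)]
    [Algebra O₀ (FK K (N * r))] [IsScalarTower O₀ (FK K N) (FK K (N * r))] [CommRing S₁]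
    [Algebra O₀ S₁] [Algebra S₁ (FK K (N * r))]
    [IsScalarTower O₀ S₁ (FK K (N * r))] [IsIntegralClosure S₁ O₀ (FK K (N * r))]
    (hJ : ∃ c : O₀, algebraMap O₀ (FK K N) c = J1 K N)
    {b aF : S₁} (hb : Algebra.adjoin O₀ {b} = ⊤)
    (haF : aF * aeval b (derivative (minpoly O₀ b)) = algebraMap O₀ S₁ (algebraMap _ O₀
      (algebraMap R (integralClosure (Algebra.adjoin R {T₀}) (FK K N)) π))) :
    CMid (algebraMap R (integralClosure (Algebra.adjoin R {t2}) (FK K (N * r * r))) π) W 𝔫 := by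
  obtain ⟨c, hc⟩ := hJ
  have hc' : algebraMap O₀ (FK K (N * r)) c = J1 K (N * r) := by
    rw [IsScalarTower.algebraMap_apply O₀ (FK K N) (FK K (N * r)), hc, halg, ← iF_apply, v3_iF_J1]
  have hY : (cE2 R K N r) (jr K N r) - (cE1 R K hr hrN) (jr K N r) = vY K N r :=
    c2v_e2_jr_sub hr hrN
  refine c2_conc (cE1 R K hr hrN) (cE2 R K N r) he₁ he₂ ?_ hsub 𝔫 hP z' hz' O₀ S₁ hb
    (minpoly.aeval O₀ b) haF ?_ (c2m_isIntegral_jr hr c hc') ?_ ?_
  · intro x
    rw [halg]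
    show e1 K hr hrN _ = e2 K N r _
    rw [e1_inclF, e2_inclF]
  · intro x
    exact c2v_diag hN D _ (hB₁ x).1 (hB₁ x).2
  · intro h
    have h0 : vY K N r = 0 := by rw [← hY, h, sub_self]
    apply D.vv_y.2
    rw [h0, inv_zero]
    exact W.zero_mem
  · rw [hY]
    exact c2v_unif D

end main

end Fermat.Agent.CARlib.C
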