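import Fermat.Agent.UNI.TwoValCore
import Fermat.Agent.S28.Tower

/-!
# T-CAR, block C, row C3: the Kronecker congruence `Φ_p ≡ (x^p - y)(x - y^p) mod p`
-/

set_option autoImplicit false

open ModularCurve Polynomial
open Fermat.Agent.S28lib

namespace Fermat.Agent.CARlib

open Fermat.Agent.UNIlib

noncomputable section

/-- `(x ^ p - y) (x - y ^ p)` in `A[y][x]` -/
def c3K (A : Type*) [CommRing A] (p : ℕ) : A[X][X] := (X ^ p - C X) * (X - C (X ^ p))

theorem c3K_monic (A : Type*) [CommRing A] [Nontrivial A] {p : ℕ} (hp : p ≠ 0) :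
    (c3K A p).Monic :=
  (monic_X_pow_sub_C _ hp).mul (monic_X_sub_C _)

theorem c3K_natDegree (A : Type*) [CommRing A] [Nontrivial A] {p : ℕ} (hp : p ≠ 0) :
    (c3K A p).natDegree = p + 1 := by
  rw [c3K, (monic_X_pow_sub_C _ hp).natDegree_mul (monic_X_sub_C _), natDegree_X_pow_sub_C,
    natDegree_X_sub_C]

theorem c3K_map {A B : Type*} [CommRing A] [CommRing B] (f : A →+* B) (p : ℕ) :
    (c3K A p).map (mapRingHom f) = c3K B p := by
  simp [c3K]

theorem ev2_c3K {A : Type*} [CommRing A] (p : ℕ) (x y : LaurentSeries A) :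
    ev2 (c3K A p) x y = (x ^ p - y) * (x - y ^ p) := by
  simp only [ev2, c3K, eval₂_mul, eval₂_sub, eval₂_pow, eval₂_X, eval₂_C, map_pow, evY_X]

/-- **Kronecker congruence**, modulo `p` -/
theorem c3_kronecker_mod {p : ℕ} [NeZero p] (hp : p.Prime) {Φ : ℤ[X][X]} (hm : Φ.Monic)
    (hd : Φ.natDegree = p + 1) (h1 : ev2 Φ (jAd ℤ p) (jA ℤ) = 0)
    (h2 : ev2 Φ (jA ℤ) (jAd ℤ p) = 0) :
    Φ.map (mapRingHom (Int.castRingHom (ZMod p))) = c3K (ZMod p) p := by
  have : Fact p.Prime := ⟨hp⟩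
  set κ := ZMod p
  set f := Int.castRingHom κ
  set Φb := Φ.map (mapRingHom f) with hΦb
  have hΦbm : Φb.Monic := hm.map _
  have hΦbd : Φb.natDegree = p + 1 := by rw [hΦb, hm.natDegree_map, hd]
  set D := Φb - c3K κ p with hD
  have hDdeg : D.natDegree ≤ p := by
    rw [natDegree_le_iff_coeff_eq_zero]
    intro N hN
    rw [hD, coeff_sub]
    rcases Nat.lt_or_ge (p + 1) N with h | h
    · rw [coeff_eq_zero_of_natDegree_lt (by rw [hΦbd]; exact h),
        coeff_eq_zero_of_natDegree_lt (by rw [c3K_natDegree κ hp.ne_zero]; exact h), sub_zero]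
    · have hN' : N = p + 1 := by omega
      have e1 : Φb.coeff N = 1 := by rw [hN', ← hΦbd]; exact hΦbm.coeff_natDegree
      have e2 : (c3K κ p).coeff N = 1 := by
        rw [hN', ← c3K_natDegree κ hp.ne_zero]; exact (c3K_monic κ hp.ne_zero).coeff_natDegree
      rw [e1, e2, sub_self]
  have e1 : ev2 Φb (jAd κ p) (jA κ) = 0 := by
    have := congrArg (coeffMap f) h1
    rwa [coeffMap_ev2, coeffMap_jAd, coeffMap_jA, map_zero] at this
  have e2 : ev2 Φb (jA κ) (jAd κ p) = 0 := by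
    have := congrArg (coeffMap f) h2
    rwa [coeffMap_ev2, coeffMap_jAd, coeffMap_jA, map_zero] at this
  have hsub : ∀ x y : LaurentSeries κ, ev2 D x y = ev2 Φb x y - ev2 (c3K κ p) x y := by
    intro x y
    rw [hD, ev2, eval₂_sub]; rfl
  set G := specialize D (jA κ) with hG
  have hG0 : G = 0 := by
    apply eq_zero_of_eval_eq_zero p G
    · exact natDegree_map_le.trans hDdeg
    · rw [hG, eval_specialize, hsub, e1, ev2_c3K, ← jA_pow_char p, sub_self, mul_zero, sub_zero]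
    · have : G.map (qExpand κ p) = specialize D (jAd κ p) := by
        rw [hG, specialize, specialize, Polynomial.map_map]
        congr 1
        refine RingHom.ext fun P => ?_
        rw [RingHom.comp_apply, qExpand_evY]
      rw [this, eval_specialize, hsub, e2, ev2_c3K, jA_pow_char p, sub_self, zero_mul, sub_zero]
  have hD0 : D = 0 :=
    Polynomial.map_injective _ evY_jA_injective (by rw [Polynomial.map_zero]; exact hG0)
  exact sub_eq_zero.1 hD0

/-- **Kronecker congruence** over `ℤ` -/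
theorem c3_kronecker {p : ℕ} [NeZero p] (hp : p.Prime) {Φ : ℤ[X][X]} (hm : Φ.Monic)
    (hd : Φ.natDegree = p + 1) (h1 : ev2 Φ (jAd ℤ p) (jA ℤ) = 0)
    (h2 : ev2 Φ (jA ℤ) (jAd ℤ p) = 0) :
    ∃ Ψ : ℤ[X][X], Φ = c3K ℤ p + C (C (p : ℤ)) * Ψ := by
  have h := c3_kronecker_mod hp hm hd h1 h2
  have hdvd : C (C (p : ℤ)) ∣ Φ - c3K ℤ p := by
    rw [C_dvd_iff_dvd_coeff]
    intro i
    rw [C_dvd_iff_dvd_coeff]
    intro k
    rw [← ZMod.intCast_zmod_eq_zero_iff_dvd]
    have h3 := congrArg (fun P : (ZMod p)[X][X] => (P.coeff i).coeff k) h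
    rw [← c3K_map (Int.castRingHom (ZMod p)) p, coeff_map, coeff_map, coe_mapRingHom, coeff_map,
      coeff_map] at h3
    rw [coeff_sub, coeff_sub, Int.cast_sub, sub_eq_zero]
    exact h3
  obtain ⟨Ψ, hΨ⟩ := hdvd
  exact ⟨Ψ, by rw [← hΨ]; ring⟩

end

end Fermat.Agent.CARlib
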