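import Fermat.Agent.CAR.C3W
import Fermat.Agent.CAR.C3Kron

/-!
# T-CAR, block C, row C3: the algebraic core at a cuspidal middle point

`Φ = (x^r - y)(x - y^r) + r Ψ`, `Φ(X, Y₁) = Φ(X, Y₂) = 0`, `J = 1 / Y₁`, `ψ = X / Y₁ ^ r`,
`ω = Y₂ / Y₁`.  Then `r U = (ω - 1) h` with `U, h ∈ ℤ[ψ, J, ω]`, `U ≡ -1 mod (J, ψ - 1)`.
-/

set_option autoImplicit false

open Polynomial

namespace Fermat.Agent.CARlib

open Fermat.Agent.UNIlib (PhiShape evZ)

section evZ

variable {F : Type*} [Field F]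

theorem evZ_add (P Q : ℤ[X][X]) (x y : F) : evZ (P + Q) x y = evZ P x y + evZ Q x y := by
  rw [evZ, evZ, evZ, eval₂_add]

theorem evZ_CC_mul (n : ℤ) (P : ℤ[X][X]) (x y : F) :
    evZ (C (C n) * P) x y = (n : F) * evZ P x y := by
  rw [evZ, evZ, eval₂_mul, eval₂_C, RingHom.coe_coe, aeval_C, eq_intCast]

theorem evZ_c3K (r : ℕ) (x y : F) : evZ (c3K ℤ r) x y = (x ^ r - y) * (x - y ^ r) := by
  simp only [evZ, c3K, eval₂_mul, eval₂_sub, eval₂_pow, eval₂_X, eval₂_C, RingHom.coe_coe, aeval_X,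
    map_pow]

end evZ

section weights

variable {r : ℕ} {Φ Ψ : ℤ[X][X]}

theorem c3Wt_Phi (hΦ : PhiShape r Φ) (hr : 1 ≤ r) : C3Wt r Φ (r * (r + 1)) := by
  intro i k hc
  have hk : k ≤ (Φ.coeff i).natDegree := le_natDegree_of_ne_zero hc
  have hi : i ≤ r + 1 := by
    rw [← hΦ.natDegree]
    exact le_natDegree_of_ne_zero (fun h => hc (by rw [h, coeff_zero]))
  rcases Nat.eq_zero_or_pos i with h0 | h0
  · rw [h0] at hk
    have := hΦ.deg0
    nlinarith
  · rcases Nat.lt_or_ge i (r + 1) with h1 | h1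
    · have h2 := hΦ.deg i h0
      have h3 : r * i ≤ r * r := Nat.mul_le_mul_left r (by omega)
      nlinarith
    · have hi' : i = r + 1 := by omega
      have h2 : Φ.coeff i = 1 := by
        rw [hi', ← hΦ.natDegree]; exact hΦ.monic.coeff_natDegree
      rw [h2, natDegree_one] at hk
      rw [hi']; omega

theorem c3K_eq (r : ℕ) :
    c3K ℤ r = X ^ (r + 1) - C (X ^ r) * X ^ r - C X * X + C (X ^ (r + 1)) := by
  rw [c3K, pow_succ (X : ℤ[X]) r, C_mul]
  ring

theorem c3K_coeff (r i : ℕ) :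
    (c3K ℤ r).coeff i = (if i = r + 1 then 1 else 0) - (if i = r then X ^ r else 0)
      - (if i = 1 then X else 0) + (if i = 0 then X ^ (r + 1) else 0) := by
  rw [c3K_eq, coeff_add, coeff_sub, coeff_sub, coeff_X_pow, coeff_C_mul, coeff_X_pow, coeff_C_mul,
    coeff_X, coeff_C]
  congr 1
  · congr 1
    · congr 1
      split_ifs <;> simp
    · by_cases h : i = 1
      · simp [h]
      · rw [if_neg h, if_neg (fun h' => h h'.symm), mul_zero]

theorem c3Wt_Psi (hΦ : PhiShape r Φ) (hr : 2 ≤ r) (hK : Φ = c3K ℤ r + C (C (r : ℤ)) * Ψ) :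
    C3Wt r Ψ (r * (r + 1) - 1) := by
  intro i k hc
  by_contra hlt
  have hw : r * (r + 1) ≤ r * i + k := by
    have : 1 ≤ r * (r + 1) := by nlinarith
    omega
  have hne : (Φ.coeff i).coeff k ≠ ((c3K ℤ r).coeff i).coeff k := by
    rw [hK, coeff_add, coeff_add, coeff_C_mul, coeff_C_mul]
    intro h
    have h0 : (r : ℤ) * (Ψ.coeff i).coeff k = 0 := by linarith
    rcases mul_eq_zero.1 h0 with h1 | h1
    · have : (r : ℤ) ≠ 0 := by exact_mod_cast (by omega : r ≠ 0)
      exact this h1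
    · exact hc h1
  apply hne
  rw [c3K_coeff]
  rcases Nat.lt_or_ge (r + 1) i with h1 | h1
  · have h0 : Φ.coeff i = 0 := coeff_eq_zero_of_natDegree_lt (by rw [hΦ.natDegree]; exact h1)
    rw [h0, if_neg (by omega), if_neg (by omega), if_neg (by omega), if_neg (by omega)]
    simp
  rcases Nat.lt_or_ge i (r + 1) with h2 | h2
  swap
  · have hi : i = r + 1 := by omega
    have h3 : Φ.coeff i = 1 := by rw [hi, ← hΦ.natDegree]; exact hΦ.monic.coeff_natDegree
    rw [h3, if_pos hi, if_neg (by omega), if_neg (by omega), if_neg (by omega)]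
    simp
  rcases Nat.lt_or_ge i r with h3 | h3
  · -- `i ≤ r - 1`, so `k ≥ 2 r`
    have hk : 2 * r ≤ k := by
      have : r * i ≤ r * (r - 1) := Nat.mul_le_mul_left r (by omega)
      obtain ⟨s, rfl⟩ : ∃ s, r = s + 1 := ⟨r - 1, by omega⟩
      simp only [Nat.add_sub_cancel] at this
      nlinarith
    have hdeg : (Φ.coeff i).natDegree ≤ r + 1 := by
      rcases Nat.eq_zero_or_pos i with h0 | h0
      · rw [h0]; exact hΦ.deg0
      · exact (hΦ.deg i h0).trans (by omega)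
    rw [coeff_eq_zero_of_natDegree_lt (by omega), if_neg (by omega), if_neg (by omega)]
    simp only [sub_zero, zero_sub, coeff_add, coeff_neg]
    split_ifs <;> simp [coeff_X, coeff_X_pow] <;> omega
  · have hi : i = r := by omega
    have hk : r ≤ k := by rw [hi] at hw; nlinarith
    rw [if_neg (by omega), if_pos hi, if_neg (by omega), if_neg (by omega)]
    simp only [zero_sub, sub_zero, add_zero, coeff_neg, coeff_X_pow]
    rcases hk.eq_or_lt with h4 | h4
    · rw [if_pos h4.symm, hi, ← h4]; exact hΦ.top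
    · rw [if_neg (by omega), neg_zero]
      exact coeff_eq_zero_of_natDegree_lt (lt_of_le_of_lt (hΦ.deg i (by omega)) h4)

end weights

section core

variable {A F : Type*} [CommRing A] [Field F] [Infinite F] [Algebra A F] {r : ℕ} {Φ Ψ : ℤ[X][X]}

omit [Infinite F] in
theorem c3_arith {r n : ℕ} (hn : r * r = n + 1) (Xm Y t Z : F) (hY : Y ≠ 0) :
    ((Xm ^ r - Y * t) * (Xm - (Y * t) ^ r) + ((r : ℤ) : F) * Z) / Y ^ (n + 1 + r) =
      ((Xm / Y ^ r) ^ r - Y⁻¹ ^ n * t) * (Xm / Y ^ r - t ^ r) +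
        (r : F) * Y⁻¹ * (Z / Y ^ (n + r)) := by
  rw [div_pow, ← pow_mul, hn, mul_pow, inv_pow, Int.cast_natCast]
  field_simp
  ring

theorem c3_poly_identity (hinj : Function.Injective (algebraMap A F)) (hΦ : PhiShape r Φ)
    (hr : 2 ≤ r) (hK : Φ = c3K ℤ r + C (C (r : ℤ)) * Ψ) (Xm : F) {Y : F} (hY : Y ≠ 0) {J ψ : A}
    (hJ : algebraMap A F J = Y⁻¹) (hψ : algebraMap A F ψ = Xm / Y ^ r) :
    c3W r Φ (r * (r + 1)) (C ψ) (C J) (X : A[X]) =
      (C (ψ ^ r) - C (J ^ (r * r - 1)) * X) * (C ψ - X ^ r) +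
        C ((r : A) * J) * c3W r Ψ (r * (r + 1) - 1) (C ψ) (C J) (X : A[X]) := by
  apply Polynomial.map_injective _ hinj
  apply Polynomial.funext
  intro t
  have key : ∀ P : A[X], (P.map (algebraMap A F)).eval t = eval₂RingHom (algebraMap A F) t P :=
    fun P => by rw [eval_map]; rfl
  rw [key, key, map_add, map_mul, map_mul, map_sub, map_sub, map_mul, map_pow, c3W_map, c3W_map]
  simp only [coe_eval₂RingHom, eval₂_C, eval₂_X, map_mul, map_pow, map_natCast, hJ, hψ]
  rw [c3W_field (c3Wt_Phi hΦ (by omega)) Xm hY t, c3W_field (c3Wt_Psi hΦ hr hK) Xm hY t]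
  conv_lhs => rw [hK, evZ_add, evZ_CC_mul, evZ_c3K]
  obtain ⟨n, hn⟩ : ∃ n, r * r = n + 1 := ⟨r * r - 1, by have : 1 ≤ r * r := by nlinarith
                                                        omega⟩
  have e1 : r * (r + 1) = n + 1 + r := by rw [mul_add, hn, mul_one]
  have e2 : r * (r + 1) - 1 = n + r := by omega
  have e3 : r * r - 1 = n := by omega
  rw [e2, e1, e3]
  exact c3_arith hn Xm Y t _ hY

/-- **C3, algebraic core** -/
theorem c3_core (hinj : Function.Injective (algebraMap A F)) (hΦ : PhiShape r Φ)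
    (hr : 2 ≤ r) (hK : Φ = c3K ℤ r + C (C (r : ℤ)) * Ψ) {Xm Y₁ Y₂ : F} (hY : Y₁ ≠ 0)
    (h₁ : evZ Φ Xm Y₁ = 0) (h₂ : evZ Φ Xm Y₂ = 0) (hne : Y₂ ≠ Y₁) {J ψ ω : A}
    (hJ : algebraMap A F J = Y₁⁻¹) (hψ : algebraMap A F ψ = Xm / Y₁ ^ r)
    (hω : algebraMap A F ω = Y₂ / Y₁) :
    ∃ U h : A, (r : A) * U = (ω - 1) * h ∧ U + 1 ∈ Ideal.span {J, ψ - 1} := by
  set w := r * (r + 1) with hw
  set P : A[X] := c3W r Φ w (C ψ) (C J) X with hP
  set PΨ : A[X] := c3W r Ψ (w - 1) (C ψ) (C J) X with hPΨ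
  have hid : P = (C (ψ ^ r) - C (J ^ (r * r - 1)) * X) * (C ψ - X ^ r) + C ((r : A) * J) * PΨ :=
    c3_poly_identity hinj hΦ hr hK Xm hY hJ hψ
  have heval : ∀ a : A, algebraMap A F (P.eval a) =
      evZ Φ Xm (Y₁ * algebraMap A F a) / Y₁ ^ w := by
    intro a
    have : algebraMap A F (P.eval a) = ((algebraMap A F).comp (evalRingHom a)) P := rfl
    rw [this, hP, c3W_map]
    simp only [RingHom.comp_apply, coe_evalRingHom, eval_C, eval_X, hJ, hψ]
    exact c3W_field (c3Wt_Phi hΦ (by omega)) Xm hY _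
  have hP1 : P.eval 1 = 0 := by
    apply hinj
    rw [heval, map_one, mul_one, h₁, zero_div, map_zero]
  have hPω : P.eval ω = 0 := by
    apply hinj
    rw [heval, hω, mul_div_cancel₀ _ hY, h₂, zero_div, map_zero]
  set Q := P /ₘ (X - C 1) with hQ
  have hPQ : (X - C 1) * Q = P := mul_divByMonic_eq_iff_isRoot.2 hP1
  have hω1 : ω - 1 ≠ 0 := by
    intro h0
    have h3 := congrArg (algebraMap A F) (sub_eq_zero.1 h0)
    rw [hω, map_one, div_eq_one_iff_eq hY] at h3
    exact hne h3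
  have hdom : ∀ a b : A, a ≠ 0 → a * b = 0 → b = 0 := by
    intro a b ha hab
    apply hinj
    have h3 := congrArg (algebraMap A F) hab
    rw [map_mul, map_zero] at h3
    rw [map_zero]
    exact (mul_eq_zero.1 h3).resolve_left (fun h4 => ha (hinj (by rw [h4, map_zero])))
  have hQω : Q.eval ω = 0 := by
    apply hdom (ω - 1) _ hω1
    have := hPω
    rw [← hPQ, eval_mul, eval_sub, eval_X, eval_C] at this
    exact this
  have hQ1 : Q.eval 1 = (derivative P).eval 1 := by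
    rw [← hPQ, derivative_mul]
    simp
  obtain ⟨h₀, hh₀⟩ : ω - 1 ∣ Q.eval ω - Q.eval 1 := sub_dvd_eval_sub ω 1 Q
  -- values at `1`
  set D := ψ ^ r - J ^ (r * r - 1) with hD
  set Ψ₀ := PΨ.eval 1 with hΨ₀
  set Ψ₁ := (derivative PΨ).eval 1 with hΨ₁
  have hv : D * (ψ - 1) + (r : A) * J * Ψ₀ = 0 := by
    have := hP1
    rw [hid] at this
    simpa using this
  have hd : (derivative P).eval 1 =
      -J ^ (r * r - 1) * (ψ - 1) - (r : A) * D + (r : A) * J * Ψ₁ := by
    rw [hid]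
    simp only [derivative_add, derivative_mul, derivative_sub, derivative_C, derivative_X,
      derivative_X_pow, eval_add, eval_mul, eval_sub, eval_C, eval_X, eval_pow, one_pow, mul_one,
      zero_mul, zero_sub, zero_add, map_natCast, eval_natCast, eval_neg]
    rw [hD, hΨ₁]
    ring
  obtain ⟨n, hn⟩ : ∃ n, r * r = n + 1 := ⟨r * r - 1, by have : 1 ≤ r * r := by nlinarith
                                                        omega⟩
  have e3 : r * r - 1 = n := by omega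
  refine ⟨J ^ (r * r) * Ψ₀ - D ^ 2 + J * D * Ψ₁, -(D * h₀), ?_, ?_⟩
  · have h5 : (ω - 1) * h₀ = -(derivative P).eval 1 := by rw [← hh₀, hQω, hQ1, zero_sub]
    have h6 : (ω - 1) * -(D * h₀) = D * (derivative P).eval 1 := by
      have : (ω - 1) * -(D * h₀) = -(D * ((ω - 1) * h₀)) := by ring
      rw [this, h5]; ring
    rw [h6, hd, e3, hn]
    have hv' : D * (ψ - 1) = -((r : A) * J * Ψ₀) := by linear_combination hv
    have : D * (-J ^ n * (ψ - 1) - (r : A) * D + (r : A) * J * Ψ₁) =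
        -J ^ n * (D * (ψ - 1)) - (r : A) * D ^ 2 + (r : A) * J * D * Ψ₁ := by ring
    rw [this, hv']
    ring
  · set I : Ideal A := Ideal.span {J, ψ - 1} with hI
    have hJI : J ∈ I := Ideal.subset_span (by simp)
    have hψI : ψ - 1 ∈ I := Ideal.subset_span (by simp)
    have hψr : ψ ^ r - 1 ∈ I := by
      obtain ⟨c, hc⟩ := sub_dvd_pow_sub_pow ψ 1 r
      rw [one_pow] at hc
      rw [hc]; exact I.mul_mem_right _ hψI
    have hn0 : 0 < n := by nlinarith
    have hD1 : D - 1 ∈ I := by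
      have : D - 1 = (ψ ^ r - 1) - J ^ n := by rw [hD, e3]; ring
      rw [this]
      exact I.sub_mem hψr (Ideal.pow_mem_of_mem I hJI n hn0)
    have : J ^ (r * r) * Ψ₀ - D ^ 2 + J * D * Ψ₁ + 1 =
        J ^ (r * r) * Ψ₀ + J * (D * Ψ₁) - (D - 1) * (D + 1) := by ring
    rw [this]
    refine I.sub_mem (I.add_mem (I.mul_mem_right _ (Ideal.pow_mem_of_mem I hJI _ (by omega)))
      (I.mul_mem_right _ hJI)) (I.mul_mem_right _ hD1)

end core

end Fermat.Agent.CARlib
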