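import Fermat.Agent.CAR.C3Inst

/-!
# T-CAR, block C: the dichotomy cuspidal / non-cuspidal at a closed point of level 2
-/

set_option autoImplicit false
set_option linter.unusedSectionVars false

open ModularCurve Polynomial IsLocalRing

namespace Fermat.Agent.CARlib

open Fermat.Agent.ESlib Fermat.Agent.UNIlib
open Fermat.Agent.S24lib (Dv)
open Fermat.Agent.CARlib.C

section loc

variable {B F F₁ : Type*} [CommRing B] [Field F] [Algebra B F] [Field F₁] {𝔫 : Ideal B}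
  [h𝔫 : 𝔫.IsPrime]

theorem c3_isUnit_comap (e : F₁ →+* F) (x : (cLoc F 𝔫).comap e) (hx : e x ∉ cLocM F 𝔫) :
    IsUnit x := by
  have hx0 : (x : F₁) ≠ 0 := by
    intro h0
    apply hx
    rw [h0, map_zero]
    exact (cLocM F 𝔫).zero_mem
  have hi : (x : F₁)⁻¹ ∈ (cLoc F 𝔫).comap e := by
    rw [Subring.mem_comap, map_inv₀]
    exact inv_mem_cLoc x.2 hx
  exact isUnit_iff_exists_inv.2 ⟨⟨_, hi⟩, Subtype.ext (mul_inv_cancel₀ hx0)⟩

theorem c3_isLocalRing_comap (hinj : Function.Injective (algebraMap B F)) (e : F₁ →+* F) :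
    IsLocalRing ((cLoc F 𝔫).comap e) := by
  refine IsLocalRing.of_isUnit_or_isUnit_one_sub_self fun x => ?_
  by_cases hx : e x ∈ cLocM F 𝔫
  · right
    apply c3_isUnit_comap
    intro h
    apply one_not_mem_cLocM (𝔫 := 𝔫) hinj
    have h1 : e ((1 - x : (cLoc F 𝔫).comap e) : F₁) = 1 - e x := by
      show e (1 - (x : F₁)) = _
      rw [map_sub, map_one]
    rw [h1] at h
    have := (cLocM F 𝔫).add_mem h hx
    rwa [sub_add_cancel] at this
  · exact Or.inl (c3_isUnit_comap e x hx)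

theorem c3_mem_cLocM_of_not_isUnit (e : F₁ →+* F) (x : (cLoc F 𝔫).comap e) (hx : ¬ IsUnit x) :
    e x ∈ cLocM F 𝔫 := by
  by_contra h
  exact hx (c3_isUnit_comap e x h)

end loc

section sub

variable {K : Type} [Field K] [Algebra ℚ K] [CharZero K] {M : ℕ} [NeZero M]
  (a : ℕ) [NeZero a] (ha : a = 2 ∨ a = 3) (haM : a ∣ M)

/-- helper2's dichotomy for a local subring of `F_K(M)` -/
theorem c3_dich_sub (O : Subring (FK K M)) [IsLocalRing O] (hu : IsUnit ((a : ℕ) : O))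
    (ht : tF K M a ha haM ∈ O ∨ (tF K M a ha haM)⁻¹ ∈ O) :
    J1 K M ∈ O ∨ (∃ c ∈ maximalIdeal O, (c : FK K M) = (J1 K M)⁻¹) := by
  let _ : Algebra O (FK K M) := O.subtype.toAlgebra
  rcases ht with ht | ht
  · rcases b7_dich_tF (K := K) a ha haM hu ⟨_, ht⟩ rfl with ⟨c, hc⟩ | ⟨c, hcm, hc⟩
    · left
      rw [← hc]
      exact c.2
    · exact Or.inr ⟨c, hcm, hc⟩
  · rcases b7_dich_tF_inv (K := K) a ha haM (⟨_, ht⟩ : O) rfl with ⟨c, hc⟩ | ⟨c, hcm, hc⟩
    · left
      rw [← hc]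
      exact c.2
    · exact Or.inr ⟨c, hcm, hc⟩

end sub

section conc

variable {K : Type} [Field K] [Algebra ℚ K] [CharZero K] [Algebra K ℂ] [IsScalarTower ℚ K ℂ]
  {N r : ℕ} [NeZero N] [NeZero r] [NeZero (N * r)] [NeZero (N * r * r)]
  (a : ℕ) [NeZero a] (ha : a = 2 ∨ a = 3) (haN : a ∣ N)

theorem c3_e2_J1 : e2 K N r (J1 K (N * r)) = vJ1 K N r :=
  (e2_J1 K).trans (Jgen_ext K (one_mul r).symm)

/-- **every closed point of level 2 is cuspidal or non-cuspidal** (any model `B` whose local ring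
at `𝔫` contains the chart `t2` or `1 / t2`) -/
theorem c3_dich {B : Type*} [CommRing B] [Algebra B (FK K (N * r * r))]
    (hinj : Function.Injective (algebraMap B (FK K (N * r * r)))) (𝔫 : Ideal B) [𝔫.IsPrime]
    (hu : ((a : ℕ) : FK K (N * r * r))⁻¹ ∈ cLoc (FK K (N * r * r)) 𝔫)
    (ht : vT2 K r a ha haN ∈ cLoc (FK K (N * r * r)) 𝔫 ∨
      (vT2 K r a ha haN)⁻¹ ∈ cLoc (FK K (N * r * r)) 𝔫) :
    vJ1 K N r ∈ cLoc (FK K (N * r * r)) 𝔫 ∨ (vJ1 K N r)⁻¹ ∈ cLocM (FK K (N * r * r)) 𝔫 := by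
  have hloc : IsLocalRing ((cLoc (FK K (N * r * r)) 𝔫).comap (e2 K N r).toRingHom) :=
    c3_isLocalRing_comap hinj _
  have hJ : (e2 K N r).toRingHom (J1 K (N * r)) = vJ1 K N r := c3_e2_J1
  have hua : IsUnit ((a : ℕ) : (cLoc (FK K (N * r * r)) 𝔫).comap (e2 K N r).toRingHom) := by
    apply c3_isUnit_comap
    intro h
    rw [Subring.coe_natCast, map_natCast] at h
    have h2 := mul_mem_cLocM hu h
    rw [inv_mul_cancel₀ (Nat.cast_ne_zero.2 (NeZero.ne a))] at h2
    exact one_not_mem_cLocM hinj h2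
  have ht' : tF K (N * r) a ha (haN.mul_right r) ∈
      (cLoc (FK K (N * r * r)) 𝔫).comap (e2 K N r).toRingHom ∨
      (tF K (N * r) a ha (haN.mul_right r))⁻¹ ∈
        (cLoc (FK K (N * r * r)) 𝔫).comap (e2 K N r).toRingHom := by
    rcases ht with ht | ht
    · exact Or.inl (Subring.mem_comap.2 ht)
    · right
      rw [Subring.mem_comap, map_inv₀]
      exact ht
  rcases c3_dich_sub a ha (haN.mul_right r) _ hua ht' with h | ⟨c, hcm, hc⟩
  · left
    rw [← hJ]
    exact Subring.mem_comap.1 h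
  · right
    have h1 := c3_mem_cLocM_of_not_isUnit _ c hcm
    rwa [hc, map_inv₀, hJ] at h1

end conc

section top

variable {R K : Type} [CommRing R] [IsDomain R] [IsDiscreteValuationRing R] [Field K]
  [Algebra R K] [IsFractionRing R K] [Algebra ℚ K] [CharZero K] [Algebra K ℂ] [IsScalarTower ℚ K ℂ]
  {N r : ℕ} [NeZero N] [NeZero r] [NeZero (N * r)] [NeZero (N * r * r)]
  [Algebra R (FK K N)] [IsScalarTower R K (FK K N)]
  [Algebra R (FK K (N * r))] [IsScalarTower R K (FK K (N * r))]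
  [Algebra R (FK K (N * r * r))] [IsScalarTower R K (FK K (N * r * r))]
  [CharP (IsLocalRing.ResidueField R) r]
  (a : ℕ) [NeZero a] (ha : a = 2 ∨ a = 3) (haN : a ∣ N)
  {hr : r.Prime} {hrN : ¬ r ∣ N} {π : R} {W : ValuationSubring (FK K (N * r * r))}

/-- the dichotomy for the two charts `t2`, `1 / t2` -/
theorem c3_dich_chart (hua : IsUnit ((a : ℕ) : R)) {t : FK K (N * r * r)}
    (ht : t = vT2 K r a ha haN ∨ t = (vT2 K r a ha haN)⁻¹)
    (𝔫 : Ideal (integralClosure (Algebra.adjoin R {t}) (FK K (N * r * r)))) [𝔫.IsPrime] :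
    vJ1 K N r ∈ cLoc (FK K (N * r * r)) 𝔫 ∨ (vJ1 K N r)⁻¹ ∈ cLocM (FK K (N * r * r)) 𝔫 := by
  have htB : t ∈ cLoc (FK K (N * r * r)) 𝔫 := by
    have h1 : IsIntegral (Algebra.adjoin R {t}) t :=
      isIntegral_algebraMap (x := (⟨t, Algebra.subset_adjoin rfl⟩ : Algebra.adjoin R {t}))
    exact algebraMap_mem_cLoc
      (⟨t, h1⟩ : integralClosure (Algebra.adjoin R {t}) (FK K (N * r * r)))
  refine c3_dich a ha haN Subtype.val_injective 𝔫 ?_ ?_
  · obtain ⟨u, hu⟩ := hua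
    have h1 : ((a : ℕ) : FK K (N * r * r))⁻¹ =
        algebraMap (integralClosure (Algebra.adjoin R {t}) (FK K (N * r * r))) (FK K (N * r * r))
          (algebraMap R _ ((u⁻¹ : Rˣ) : R)) := by
      apply inv_eq_of_mul_eq_one_right
      have h2 : algebraMap (integralClosure (Algebra.adjoin R {t}) (FK K (N * r * r)))
          (FK K (N * r * r)) (algebraMap R _ ((u⁻¹ : Rˣ) : R)) =
          algebraMap R (FK K (N * r * r)) ((u⁻¹ : Rˣ) : R) := rfl
      have h3 : ((a : ℕ) : FK K (N * r * r)) = algebraMap R (FK K (N * r * r)) (u : R) := by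
        rw [hu, map_natCast]
      rw [h2, h3, ← map_mul, Units.mul_inv, map_one]
    rw [h1]
    exact algebraMap_mem_cLoc _
  · rcases ht with rfl | rfl
    · exact Or.inl htB
    · exact Or.inr htB

/-- **`hmid` of `c_all` is reduced to the non-cuspidal points** -/
theorem c3_hmid (hπ : Irreducible π) (hπr : Associated π (r : R)) (D : VCore hr hrN π W)
    (hua : IsUnit ((a : ℕ) : R)) {t : FK K (N * r * r)}
    (ht : t = vT2 K r a ha haN ∨ t = (vT2 K r a ha haN)⁻¹)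
    (hsub : ∀ b : integralClosure (Algebra.adjoin R {t}) (FK K (N * r * r)),
      (b : FK K (N * r * r)) ∈ W)
    (𝔫 : Ideal (integralClosure (Algebra.adjoin R {t}) (FK K (N * r * r)))) [𝔫.IsPrime]
    (hP : cCen (integralClosure (Algebra.adjoin R {t}) (FK K (N * r * r))) W ≤ 𝔫)
    (hnc : vJ1 K N r ∈ cLoc (FK K (N * r * r)) 𝔫 →
      CMid (algebraMap R (integralClosure (Algebra.adjoin R {t}) (FK K (N * r * r))) π) W 𝔫) :
    CMid (algebraMap R (integralClosure (Algebra.adjoin R {t}) (FK K (N * r * r))) π) W 𝔫 := by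
  rcases c3_dich_chart a ha haN hua ht 𝔫 with h | h
  · exact hnc h
  · exact c3_inst hπ hπr D hsub 𝔫 hP h

end top

end Fermat.Agent.CARlib
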