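import Fermat.Agent.CAR.V1Fin

/-!
# T-CAR, block V, (V2): `PiInt π t2 x ↔ x ∈ W_VF ∩ W_FV ∩ W_VV`
-/

set_option autoImplicit false
set_option linter.unusedSectionVars false
set_option linter.unusedVariables false
set_option linter.style.haveILetI false

open ModularCurve Polynomial

namespace Fermat.Agent.CARlib

open Fermat.Agent.ESlib Fermat.Agent.UNIlib
open Fermat.Agent.S24lib (Dv)

noncomputable section

variable {R K : Type} [CommRing R] [IsDomain R] [IsDiscreteValuationRing R] [Field K]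
  [Algebra R K] [IsFractionRing R K] [Algebra ℚ K] [CharZero K] [Algebra K ℂ] [IsScalarTower ℚ K ℂ]
  {N r : ℕ} [NeZero N] [NeZero r] [NeZero (N * r)] [NeZero (N * r * r)]
  [Algebra R (FK K N)] [IsScalarTower R K (FK K N)]
  [Algebra R (FK K (N * r))] [IsScalarTower R K (FK K (N * r))]
  [Algebra R (FK K (N * r * r))] [IsScalarTower R K (FK K (N * r * r))]

variable (a : ℕ) [NeZero a] (ha : a = 2 ∨ a = 3) (haN : a ∣ N)

theorem vT2_eq_eps : vT2 K r a ha haN = eps K N r (tF K N a ha haN) := by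
  rw [eps_apply, tv_incl_tF]
  rfl

theorem vT2_eq_e1 (hr : r.Prime) (hrN : ¬ r ∣ N) :
    vT2 K r a ha haN = e1 K hr hrN (tF K (N * r) a ha (haN.mul_right r)) := by
  rw [vT2_eq_eps, ← tv_incl_tF, e1_inclF]

theorem v2_aeval_vT2 (P : R[X]) :
    aeval (vT2 K r a ha haN) P = eps K N r (aeval (tF K N a ha haN) P) := by
  rw [vT2_eq_eps]
  exact aeval_algHom_apply ((eps K N r).restrictScalars R) (tF K N a ha haN) P

theorem transcendental_vT2 : Transcendental K (vT2 K r a ha haN) := by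
  rw [vT2_eq_eps]
  intro h
  exact transcendental_tF K N a ha haN
    ((isAlgebraic_algHom_iff (eps K N r) (eps_injective K)).1 h)

/-- a valuation ring of `F₂` containing `ε (gaussSub N)` contains the `π`-integral elements -/
theorem v2_mem_of_piInt (W : ValuationSubring (FK K (N * r * r)))
    (hW : ∀ c : FK K N, c ∈ gaussSub R K N → eps K N r c ∈ W) {π : R} (hπ : Irreducible π)
    {x : FK K (N * r * r)} (hx : PiInt π (vT2 K r a ha haN) x) : x ∈ W := by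
  obtain ⟨P, hP, hPx⟩ := hx
  have hP0 : P ≠ 0 := by
    rintro rfl
    exact hP (dvd_zero _)
  have h0 : aeval (vT2 K r a ha haN) P ≠ 0 := by
    rw [v2_aeval_vT2]
    exact (map_ne_zero_iff _ (eps_injective K)).2 (tv_aeval_tF_ne_zero a ha N haN hP0)
  have h1 : aeval (vT2 K r a ha haN) P * x ∈ W := by
    rw [isIntegral_adjoin_singleton_iff] at hPx
    refine mem_valuationSubring_of_isIntegralElem W _ (fun p => ?_) hPx
    rw [ValuationSubring.valuation_le_one_iff]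
    show aeval (vT2 K r a ha haN) p ∈ W
    rw [v2_aeval_vT2]
    exact hW _ (aeval_tF_mem_gaussSub N a ha haN p)
  have h2 : (aeval (vT2 K r a ha haN) P)⁻¹ ∈ W := by
    rw [v2_aeval_vT2, ← map_inv₀]
    exact hW _ (inv_aeval_tF_mem_gaussSub N a ha haN hπ hP)
  have h3 := W.mul_mem _ _ h2 h1
  rwa [inv_mul_cancel_left₀ h0] at h3

theorem v2_eps_mem_WVF {c : FK K N} (hc : c ∈ gaussSub R K N) : eps K N r c ∈ WVF R K N r := by
  show ((eps K N r c : FK K (N * r * r)) : LaurentSeries K) ∈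
    LamR (algebraMap R K) (IsLocalRing.residue R)
  rw [coe_eps]
  exact qExpand_mem_LamR r hc

theorem v2_eps_mem_WFV (hr : r.Prime) (hrN : ¬ r ∣ N) {c : FK K N} (hc : c ∈ gaussSub R K N) :
    eps K N r c ∈ WFV R hr hrN := by
  show w2 K hr hrN (eps K N r c) ∈ gaussVal R K (N * r * r)
  rw [w2_eps]
  exact v2_eps_mem_WVF hc

theorem VCore.eps_mem {hr : r.Prime} {hrN : ¬ r ∣ N} {π : R}
    {W : ValuationSubring (FK K (N * r * r))} (D : VCore hr hrN π W) {c : FK K N}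
    (hc : c ∈ gaussSub R K N) : eps K N r c ∈ W := by
  rw [← e1_inclF K hr hrN, e1_apply]
  exact (D.vv_incl _).2 (tv_wr_incl_mem hr hrN hc)

/-- **(V2)**, `⇒` -/
theorem VCore.three_of_piInt {hr : r.Prime} {hrN : ¬ r ∣ N} {π : R}
    {W : ValuationSubring (FK K (N * r * r))} (D : VCore hr hrN π W) (hπ : Irreducible π)
    {x : FK K (N * r * r)} (hx : PiInt π (vT2 K r a ha haN) x) :
    x ∈ WVF R K N r ∧ x ∈ WFV R hr hrN ∧ x ∈ W :=
  ⟨v2_mem_of_piInt a ha haN _ (fun _ hc => v2_eps_mem_WVF hc) hπ hx,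
    v2_mem_of_piInt a ha haN _ (fun _ hc => v2_eps_mem_WFV hr hrN hc) hπ hx,
    v2_mem_of_piInt a ha haN _ (fun _ hc => D.eps_mem hc) hπ hx⟩

variable [CharP (IsLocalRing.ResidueField R) r]

/-- `i12 (V_F ∩ V_V)` is `π`-integral for the chart `t2` -/
theorem v2_piInt_i12 (hr : r.Prime) (hrN : ¬ r ∣ N) (hN : (N : IsLocalRing.ResidueField R) ≠ 0)
    {π : R} (hπ : Irreducible π) {c : FK K (N * r)} (h1 : c ∈ VF1 R K N r)
    (h2 : c ∈ VV1 R hr hrN) : PiInt π (vT2 K r a ha haN) (i12 K N r c) := by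
  have h2' : wr K hr hrN c ∈ gaussSub R K (N * r) := h2
  have h1' : wr K hr hrN (wr K hr hrN c) ∈ gaussSub R K (N * r) := by rw [wr_wr]; exact h1
  obtain ⟨P, hP, hint⟩ := piInt_of_two a ha haN hr hrN hN hπ h2' h1'
  refine ⟨P, hP, ?_⟩
  have h := ak12_isIntegral_adjoin_singleton_map ((e1 K hr hrN).restrictScalars R) hint
  have h3 : e1 K hr hrN (aeval (tF K (N * r) a ha (haN.mul_right r)) P) =
      aeval (vT2 K r a ha haN) P := by
    rw [vT2_eq_e1 a ha haN hr hrN]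
    exact (aeval_algHom_apply ((e1 K hr hrN).restrictScalars R) _ P).symm
  have h4 : ((e1 K hr hrN).restrictScalars R) (tF K (N * r) a ha (haN.mul_right r)) =
      vT2 K r a ha haN := (vT2_eq_e1 a ha haN hr hrN).symm
  have h5 : ((e1 K hr hrN).restrictScalars R)
      (aeval (tF K (N * r) a ha (haN.mul_right r)) P * wr K hr hrN c) =
      aeval (vT2 K r a ha haN) P * i12 K N r c := by
    rw [AlgHom.restrictScalars_apply, map_mul, e1_wr, h3]
  rw [h4, h5] at h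
  exact h

theorem vJ2_mem_WVF : vJ2 K N r ∈ WVF R K N r := Jgen_mem_gaussSub _

theorem vJ2_mem_WFV (hr : r.Prime) (hrN : ¬ r ∣ N) : vJ2 K N r ∈ WFV R hr hrN := by
  show w2 K hr hrN (vJ2 K N r) ∈ gaussVal R K (N * r * r)
  rw [v1_w2_vJ2]
  exact Jgen_mem_gaussSub _

theorem i12_J1 : i12 K N r (J1 K (N * r)) = vJ0 K N r := tv_incl_J1

theorem VCore.vJ0_mem {hr : r.Prime} {hrN : ¬ r ∣ N} {π : R}
    {W : ValuationSubring (FK K (N * r * r))} (D : VCore hr hrN π W) : vJ0 K N r ∈ W := by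
  rw [← i12_J1]
  exact (D.vv_incl _).2 (Jgen_mem_gaussSub _)

theorem VCore.vJ2_mem {hr : r.Prime} {hrN : ¬ r ∣ N} {π : R}
    {W : ValuationSubring (FK K (N * r * r))} (D : VCore hr hrN π W) : vJ2 K N r ∈ W := by
  have := W.add_mem _ _ D.vv_y.1 D.vJ0_mem
  rwa [sub_add_cancel] at this

/-- the integral basis theorem -/
theorem VCore.exists_coeffs {hr : r.Prime} {hrN : ¬ r ∣ N} {π : R}
    {W : ValuationSubring (FK K (N * r * r))} (D : VCore hr hrN π W)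
    (hN : (N : IsLocalRing.ResidueField R) ≠ 0)
    (hBV : ∀ c : Fin r → FK K (N * r),
      ∑ i, i12 K N r (c i) * vJ2 K N r ^ (i : ℕ) ∈ WFV R hr hrN → ∀ i, c i ∈ VV1 R hr hrN)
    {x : FK K (N * r * r)} (h1 : x ∈ WVF R K N r) (h2 : x ∈ WFV R hr hrN) (h3 : x ∈ W) :
    ∃ c : Fin r → FK K (N * r), (∀ i, c i ∈ VF1 R K N r) ∧ (∀ i, c i ∈ VV1 R hr hrN) ∧
      x = ∑ i, i12 K N r (c i) * vJ2 K N r ^ (i : ℕ) := by
  obtain ⟨c, rfl⟩ := v1_span R hr hrN hN x
  exact ⟨c, D.basis_F c h1 h3, hBV c h2, rfl⟩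

/-- `Y = j(q^(r^2))` is `π`-integral -/
theorem VCore.piInt_vJ2 {hr : r.Prime} {hrN : ¬ r ∣ N} {π : R}
    {W : ValuationSubring (FK K (N * r * r))} (D : VCore hr hrN π W)
    (hN : (N : IsLocalRing.ResidueField R) ≠ 0)
    (hBV : ∀ c : Fin r → FK K (N * r),
      ∑ i, i12 K N r (c i) * vJ2 K N r ^ (i : ℕ) ∈ WFV R hr hrN → ∀ i, c i ∈ VV1 R hr hrN)
    (hπ : Irreducible π) : PiInt π (vT2 K r a ha haN) (vJ2 K N r) := by
  classical
  obtain ⟨c, hc1, hc2, hrel⟩ := D.exists_coeffs hN hBV (x := vJ2 K N r ^ r)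
    (pow_mem vJ2_mem_WVF _) (pow_mem (vJ2_mem_WFV hr hrN) _) (pow_mem D.vJ2_mem _)
  set q : (FK K (N * r * r))[X] := ∑ i : Fin r, C (i12 K N r (c i)) * X ^ (i : ℕ) with hq
  have hdeg : q.degree < (r : WithBot ℕ) := degree_sum_fin_lt (fun i : Fin r => i12 K N r (c i))
  refine PiInt.of_monic hπ.prime (X ^ r - q) (monic_X_pow_sub hdeg) (fun k => ?_) ?_
  · rw [coeff_sub, coeff_X_pow, hq, finsetSum_coeff]
    refine PiInt.sub hπ.prime ?_ (ak12_piInt_sum hπ.prime _ _ fun i _ => ?_)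
    · split_ifs
      · exact PiInt.of_isIntegral hπ.prime isIntegral_one
      · exact PiInt.of_isIntegral hπ.prime isIntegral_zero
    · rw [coeff_C_mul_X_pow]
      split_ifs
      · exact v2_piInt_i12 a ha haN hr hrN hN hπ (hc1 i) (hc2 i)
      · exact PiInt.of_isIntegral hπ.prime isIntegral_zero
  · rw [eval_sub, eval_pow, eval_X, hq, eval_finsetSum, hrel, sub_eq_zero]
    refine Finset.sum_congr rfl fun i _ => ?_
    rw [eval_mul, eval_C, eval_pow, eval_X]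

/-- **(V2)**, `⇐` -/
theorem VCore.piInt_of_three {hr : r.Prime} {hrN : ¬ r ∣ N} {π : R}
    {W : ValuationSubring (FK K (N * r * r))} (D : VCore hr hrN π W)
    (hN : (N : IsLocalRing.ResidueField R) ≠ 0)
    (hBV : ∀ c : Fin r → FK K (N * r),
      ∑ i, i12 K N r (c i) * vJ2 K N r ^ (i : ℕ) ∈ WFV R hr hrN → ∀ i, c i ∈ VV1 R hr hrN)
    (hπ : Irreducible π)
    {x : FK K (N * r * r)} (h1 : x ∈ WVF R K N r) (h2 : x ∈ WFV R hr hrN) (h3 : x ∈ W) :
    PiInt π (vT2 K r a ha haN) x := by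
  obtain ⟨c, hc1, hc2, rfl⟩ := D.exists_coeffs hN hBV h1 h2 h3
  exact ak12_piInt_sum hπ.prime _ _ fun i _ =>
    (v2_piInt_i12 a ha haN hr hrN hN hπ (hc1 i) (hc2 i)).mul hπ.prime
      ((D.piInt_vJ2 a ha haN hN hBV hπ).pow hπ.prime _)

/-- **(V2)** -/
theorem VCore.piInt_iff {hr : r.Prime} {hrN : ¬ r ∣ N} {π : R}
    {W : ValuationSubring (FK K (N * r * r))} (D : VCore hr hrN π W)
    (hN : (N : IsLocalRing.ResidueField R) ≠ 0)
    (hBV : ∀ c : Fin r → FK K (N * r),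
      ∑ i, i12 K N r (c i) * vJ2 K N r ^ (i : ℕ) ∈ WFV R hr hrN → ∀ i, c i ∈ VV1 R hr hrN)
    (hπ : Irreducible π) (x : FK K (N * r * r)) :
    PiInt π (vT2 K r a ha haN) x ↔ x ∈ WVF R K N r ∧ x ∈ WFV R hr hrN ∧ x ∈ W :=
  ⟨fun h => D.three_of_piInt a ha haN hπ h,
    fun h => D.piInt_of_three a ha haN hN hBV hπ h.1 h.2.1 h.2.2⟩

/-- **(V2)**, chart `t2⁻¹` -/
theorem VCore.piInt_inv_iff {hr : r.Prime} {hrN : ¬ r ∣ N} {π : R}
    {W : ValuationSubring (FK K (N * r * r))} (D : VCore hr hrN π W)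
    (hN : (N : IsLocalRing.ResidueField R) ≠ 0)
    (hBV : ∀ c : Fin r → FK K (N * r),
      ∑ i, i12 K N r (c i) * vJ2 K N r ^ (i : ℕ) ∈ WFV R hr hrN → ∀ i, c i ∈ VV1 R hr hrN)
    (hπ : Irreducible π) (x : FK K (N * r * r)) :
    PiInt π (vT2 K r a ha haN)⁻¹ x ↔ x ∈ WVF R K N r ∧ x ∈ WFV R hr hrN ∧ x ∈ W := by
  rw [ESlib.piInt_inv_iff hπ.prime (transcendental_vT2 a ha haN)]
  exact D.piInt_iff a ha haN hN hBV hπ x

end

end Fermat.Agent.CARlib
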