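import Fermat.Agent.CAR.C3Mid
import Fermat.Agent.CAR.C2V
import Fermat.Agent.CAR.V2Pi
import Fermat.Agent.CAR.B7Conc
import Fermat.Agent.CAR.CInst

/-!
# T-CAR, block C, row C3: the concrete instance (from `VCore`)
-/

set_option autoImplicit false
set_option linter.unusedSectionVars false

open ModularCurve Polynomial

namespace Fermat.Agent.CARlib

open Fermat.Agent.ESlib Fermat.Agent.UNIlib
open Fermat.Agent.S24lib (Dv)

/-- `Φ_r` with its shape, the Kronecker congruence and the modular relations -/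
theorem c3_exists_Phi {r : ℕ} (hr : r.Prime) :
    ∃ Φ Ψ : ℤ[X][X], PhiShape r Φ ∧ Φ = c3K ℤ r + C (C (r : ℤ)) * Ψ ∧
      ∀ (K : Type) [Field K] [Algebra ℚ K] (M : ℕ) [NeZero M] (e : ℕ) (he : e ∣ M)
        (her : e * r ∣ M),
        evZ Φ (Jgen K M ⟨e * r, her⟩) (Jgen K M ⟨e, he⟩) = 0 ∧
          evZ Φ (Jgen K M ⟨e, he⟩) (Jgen K M ⟨e * r, her⟩) = 0 := by
  have : NeZero r := ⟨hr.ne_zero⟩
  obtain ⟨Φ, h1, h2, h3, h4, h5, h6, h7⟩ := exists_PhiZ hr
  obtain ⟨Ψ, hΨ⟩ := c3_kronecker hr h1 h2 h3 h4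
  refine ⟨Φ, Ψ, ⟨h1, h2, h5, h6, h7⟩, hΨ, ?_⟩
  intro K _ _ M _ e he her
  have hinj : Function.Injective (algebraMap (FK K M) (LaurentSeries K)) :=
    (algebraMap (FK K M) (LaurentSeries K)).injective
  have : NeZero e := ⟨fun h0 => NeZero.ne M (by rw [h0] at he; exact Nat.eq_zero_of_zero_dvd he)⟩
  have : NeZero (e * r) := ⟨mul_ne_zero (NeZero.ne e) (NeZero.ne r)⟩
  have c1 : algebraMap (FK K M) (LaurentSeries K) (Jgen K M ⟨e, he⟩) = S28lib.jAd K e :=
    coe_Jgen_jAd K M ⟨e, he⟩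
  have c2 : algebraMap (FK K M) (LaurentSeries K) (Jgen K M ⟨e * r, her⟩) = S28lib.jAd K (e * r) :=
    coe_Jgen_jAd K M ⟨e * r, her⟩
  constructor
  · apply hinj
    rw [map_evZ, map_zero, c1, c2]
    exact ev2_PhiK_up h3 K e
  · apply hinj
    rw [map_evZ, map_zero, c1, c2]
    exact ev2_PhiK_down h4 K e

theorem c3_isIntegral_of_closure {A F : Type*} [CommRing A] [CommRing F] [Algebra A F] {x : F}
    (hx : IsIntegral (integralClosure A F) x) : IsIntegral A x :=
  isIntegral_trans x hx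

section conc

variable {R K : Type} [CommRing R] [IsDomain R] [IsDiscreteValuationRing R] [Field K]
  [Algebra R K] [IsFractionRing R K] [Algebra ℚ K] [CharZero K] [Algebra K ℂ] [IsScalarTower ℚ K ℂ]
  {N r : ℕ} [NeZero N] [NeZero r] [NeZero (N * r)] [NeZero (N * r * r)]
  [Algebra R (FK K N)] [IsScalarTower R K (FK K N)]
  [Algebra R (FK K (N * r))] [IsScalarTower R K (FK K (N * r))]
  [Algebra R (FK K (N * r * r))] [IsScalarTower R K (FK K (N * r * r))]
  [CharP (IsLocalRing.ResidueField R) r]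

theorem c3_i12_jr : i12 K N r (jr K N r) = vJ1 K N r := by
  rw [inclF_Jgen]
  exact Jgen_ext K (one_mul r).symm

theorem c3_i12_algebraMap (a : R) :
    i12 K N r (algebraMap R (FK K (N * r)) a) = algebraMap R (FK K (N * r * r)) a := by
  rw [IsScalarTower.algebraMap_apply R K (FK K (N * r)),
    IsScalarTower.algebraMap_apply R K (FK K (N * r * r))]
  exact (i12 K N r).commutes _

theorem c3_w2_algebraMap (hr : r.Prime) (hrN : ¬ r ∣ N) (a : R) :
    w2 K hr hrN (algebraMap R (FK K (N * r * r)) a) = algebraMap R (FK K (N * r * r)) a := by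
  rw [IsScalarTower.algebraMap_apply R K (FK K (N * r * r))]
  exact (w2 K hr hrN).commutes _

theorem c3_w2_vJ1 (hr : r.Prime) (hrN : ¬ r ∣ N) : w2 K hr hrN (vJ1 K N r) = vJ1 K N r :=
  w2_Jgen_one K hr hrN (one_dvd N)

variable {hr : r.Prime} {hrN : ¬ r ∣ N} {π : R} {W : ValuationSubring (FK K (N * r * r))}

theorem c3_val_pi (D : VCore hr hrN π W) :
    W.valuation (algebraMap R (FK K (N * r * r)) π) < 1 := by
  have hy := c2v_val_vY D
  have hy0 : vY K N r ≠ 0 := by
    intro h0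
    apply D.vv_y.2
    rw [h0, inv_zero]
    exact W.zero_mem
  have h1 : W.valuation (algebraMap R (FK K (N * r * r)) π / vY K N r ^ (r - 1)) ≤ 1 :=
    (W.valuation_le_one_iff _).2 D.vv_pow.2
  have h2 : algebraMap R (FK K (N * r * r)) π =
      algebraMap R (FK K (N * r * r)) π / vY K N r ^ (r - 1) * vY K N r ^ (r - 1) := by
    rw [div_mul_cancel₀ _ (pow_ne_zero _ hy0)]
  rw [h2, map_mul, map_pow]
  have h3 : W.valuation (vY K N r) ^ (r - 1) < 1 :=
    pow_lt_one₀ zero_le hy (by have := hr.two_le; omega)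
  calc _ ≤ 1 * W.valuation (vY K N r) ^ (r - 1) := mul_le_mul_left h1 _
    _ < 1 := by rwa [one_mul]

/-- `(j(q^r) / j(q)^r - 1) / π ∈ W_VV` -/
theorem c3_psi₁_div_mem (hπ : Irreducible π) (D : VCore hr hrN π W) :
    (vJ1 K N r / vJ0 K N r ^ r - 1) / algebraMap R (FK K (N * r * r)) π ∈ W := by
  have h1 : (jr K N r - J1 K (N * r) ^ r) / algebraMap R (FK K (N * r)) π *
      (J1 K (N * r))⁻¹ ^ r ∈ gaussSub R K (N * r) :=
    mul_mem (tv_jr_sub (R := R) (K := K) (N := N) hr hπ) (pow_mem (b7_inv_Jgen_mem _ _) r)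
  have h2 := (D.vv_incl _).2 (mem_gaussVal_iff.2 h1)
  have hj0 : vJ0 K N r ≠ 0 := b7_Jgen_ne_zero _ _
  rw [map_mul, map_div₀, map_sub, map_pow, map_pow, map_inv₀, c3_i12_jr, i12_J1,
    c3_i12_algebraMap] at h2
  have : (vJ1 K N r / vJ0 K N r ^ r - 1) / algebraMap R (FK K (N * r * r)) π =
      (vJ1 K N r - vJ0 K N r ^ r) / algebraMap R (FK K (N * r * r)) π * (vJ0 K N r)⁻¹ ^ r := by
    have e0 : vJ0 K N r ^ r * (vJ0 K N r)⁻¹ ^ r = 1 := by
      rw [← mul_pow, mul_inv_cancel₀ hj0, one_pow]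
    rw [div_mul_eq_mul_div, sub_mul, e0, div_eq_mul_inv (vJ1 K N r), inv_pow]
  rw [this]
  exact h2

theorem c3_psi₂_div_mem (hπ : Irreducible π) (D : VCore hr hrN π W) :
    (vJ1 K N r / vJ2 K N r ^ r - 1) / algebraMap R (FK K (N * r * r)) π ∈ W := by
  have h := (D.vv_w2 _).2 (c3_psi₁_div_mem hπ D)
  rwa [map_div₀, map_sub, map_div₀, map_pow, map_one, c3_w2_vJ1, v1_w2_vJ0,
    c3_w2_algebraMap] at h

theorem c3_algebraMap_ne_zero (hπ : Irreducible π) :
    algebraMap R (FK K (N * r * r)) π ≠ 0 := by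
  rw [IsScalarTower.algebraMap_apply R K (FK K (N * r * r))]
  intro h0
  exact hπ.ne_zero (IsFractionRing.injective R K
    ((algebraMap K (FK K (N * r * r))).injective (by rw [h0, map_zero, map_zero])))

theorem c3_val_lt_of_div_mem (hπ : Irreducible π) (D : VCore hr hrN π W) {x : FK K (N * r * r)}
    (hx : x / algebraMap R (FK K (N * r * r)) π ∈ W) : W.valuation x < 1 := by
  have hπ1 := c3_val_pi D
  have : x = x / algebraMap R (FK K (N * r * r)) π * algebraMap R (FK K (N * r * r)) π := by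
    rw [div_mul_cancel₀ _ (c3_algebraMap_ne_zero hπ)]
  rw [this, map_mul]
  calc _ ≤ 1 * W.valuation (algebraMap R (FK K (N * r * r)) π) :=
        mul_le_mul_left ((W.valuation_le_one_iff _).2 hx) _
    _ < 1 := by rwa [one_mul]

theorem c3_vJ0_inv_mem (D : VCore hr hrN π W) : (vJ0 K N r)⁻¹ ∈ W := by
  rw [← i12_J1, ← map_inv₀]
  exact (D.vv_incl _).2 (mem_gaussVal_iff.2 (b7_inv_Jgen_mem _ _))

/-- **C3, concrete form**: `CMid` at every cuspidal point of the middle component, for any chart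
`t` whose normal model lies in `W_VV`. -/
theorem c3_inst (hπ : Irreducible π) (hπr : Associated π (r : R)) (D : VCore hr hrN π W)
    {t : FK K (N * r * r)}
    (hsub : ∀ b : integralClosure (Algebra.adjoin R {t}) (FK K (N * r * r)),
      (b : FK K (N * r * r)) ∈ W)
    (𝔫 : Ideal (integralClosure (Algebra.adjoin R {t}) (FK K (N * r * r)))) [𝔫.IsPrime]
    (hP : C.cCen (integralClosure (Algebra.adjoin R {t}) (FK K (N * r * r))) W ≤ 𝔫)
    (hc : (vJ1 K N r)⁻¹ ∈ C.cLocM (FK K (N * r * r)) 𝔫) :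
    C.CMid (algebraMap R (integralClosure (Algebra.adjoin R {t}) (FK K (N * r * r))) π) W 𝔫 := by
  obtain ⟨Φ, Ψ, hΦ, hK, hrel⟩ := c3_exists_Phi hr
  obtain ⟨u, hu⟩ := hπr
  have hj0 : vJ0 K N r ≠ 0 := b7_Jgen_ne_zero _ _
  have hy0 : vY K N r ≠ 0 := by
    intro h0
    apply D.vv_y.2
    rw [h0, inv_zero]
    exact W.zero_mem
  have hω : vJ2 K N r / vJ0 K N r - 1 = vY K N r * (vJ0 K N r)⁻¹ := by
    field_simp
  have : Infinite (FK K (N * r * r)) := by
    have : CharZero (FK K (N * r * r)) := charZero_of_injective_algebraMap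
      (algebraMap K (FK K (N * r * r))).injective
    infer_instance
  refine c3_mid (PVV := C.cCen (integralClosure (Algebra.adjoin R {t}) (FK K (N * r * r))) W)
    (v := algebraMap R (FK K (N * r * r)) u) Subtype.val_injective ?_ hsub (C.mem_cCen hsub) hP hΦ
    hr.two_le hK (b7_Jgen_ne_zero _ _) hj0 (b7_Jgen_ne_zero _ _) ?_
    (hrel K (N * r * r) 1 (one_dvd _) _).1 (hrel K (N * r * r) (1 * r) _ _).2 hc ?_ ?_ ?_
    (c3_val_lt_of_div_mem hπ D (c3_psi₁_div_mem hπ D))
    (c3_val_lt_of_div_mem hπ D (c3_psi₂_div_mem hπ D)) ?_ ?_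
  · intro x hx
    exact ⟨⟨x, c3_isIntegral_of_closure hx⟩, rfl⟩
  · intro h
    apply hy0
    exact sub_eq_zero.2 h
  · have : (r : FK K (N * r * r)) = algebraMap R (FK K (N * r * r)) (r : R) := by
      rw [map_natCast]
    rw [this, ← hu, map_mul]
    rfl
  · intro h0
    have h1 : algebraMap R (FK K (N * r * r)) ((u : R) * ((u⁻¹ : Rˣ) : R)) = 0 := by
      rw [map_mul, h0, zero_mul]
    rw [Units.mul_inv, map_one] at h1
    exact one_ne_zero h1
  · have h1 : (algebraMap R (FK K (N * r * r)) u)⁻¹ =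
        algebraMap (integralClosure (Algebra.adjoin R {t}) (FK K (N * r * r))) (FK K (N * r * r))
          (algebraMap R _ ((u⁻¹ : Rˣ) : R)) := by
      apply inv_eq_of_mul_eq_one_right
      have : algebraMap (integralClosure (Algebra.adjoin R {t}) (FK K (N * r * r)))
          (FK K (N * r * r)) (algebraMap R _ ((u⁻¹ : Rˣ) : R)) =
          algebraMap R (FK K (N * r * r)) ((u⁻¹ : Rˣ) : R) := rfl
      rw [this, ← map_mul, Units.mul_inv, map_one]
    rw [h1]
    exact C.algebraMap_mem_cLoc _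
  · rw [hω, map_mul]
    calc _ ≤ W.valuation (vY K N r) * 1 :=
          mul_le_mul_right ((W.valuation_le_one_iff _).2 (c3_vJ0_inv_mem D)) _
      _ < 1 := by rw [mul_one]; exact c2v_val_vY D
  · intro x hx
    have : x / (vJ2 K N r / vJ0 K N r - 1) = x / vY K N r * vJ0 K N r := by
      rw [hω]; field_simp
    rw [this]
    exact W.mul_mem _ _ (c2v_unif D x hx) D.vJ0_mem

end conc

end Fermat.Agent.CARlib
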