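import Fermat.Agent.CAR.C3Kron
import Fermat.Agent.CAR.V3Diff
import Fermat.Agent.CAR.V1Emb
import Fermat.Agent.CAR.VDefs

/-!
# T-CAR, row C3 (instantiation): the polynomial inputs of `c3_mid`

`Φ = Φ_r`, `Xm = j(q^r)`, `Y₁ = j(q)`, `Y₂ = j(q^(r^2))`.
-/

set_option autoImplicit false
set_option linter.unusedSectionVars false

open ModularCurve Polynomial
open Fermat.Agent.S28lib (ev2 evY jA jAd)

namespace Fermat.Agent.CARlib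

open Fermat.Agent.UNIlib Fermat.Agent.ESlib

variable {K : Type} [Field K] [Algebra ℚ K] [Algebra K ℂ] [IsScalarTower ℚ K ℂ]
  {N r : ℕ} [NeZero N] [NeZero r] [NeZero (N * r)] [NeZero (N * r * r)]

theorem c3i_evZ_J1_jr {Φ : ℤ[X][X]} (hΦ : V3Phi r Φ) : evZ Φ (J1 K (N * r)) (jr K N r) = 0 := by
  apply Subtype.ext
  rw [v3_coe_evZ Φ (v3_coe_J1 _) v3_coe_jr, hΦ.ev₂, map_zero]
  rfl

theorem c3i_evZ_vJ1_vJ0 {Φ : ℤ[X][X]} (hΦ : V3Phi r Φ) :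
    evZ Φ (vJ1 K N r) (vJ0 K N r) = 0 := by
  have h := congrArg (i12 K N r) (v3_evZ_Phi_eq_zero (K := K) (N := N) hΦ)
  rw [map_zero] at h
  have h2 := v3_map_evZ (i12 K N r : FK K (N * r) →+* FK K (N * r * r)) Φ (jr K N r)
    (J1 K (N * r))
  have e1 : (i12 K N r : FK K (N * r) →+* FK K (N * r * r)) (jr K N r) = vJ1 K N r :=
    (inclF_Jgen K (dvd_mul_right (N * r) r) _).trans (Jgen_ext K (one_mul r).symm)
  have e2 : (i12 K N r : FK K (N * r) →+* FK K (N * r * r)) (J1 K (N * r)) = vJ0 K N r :=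
    inclF_Jgen K (dvd_mul_right (N * r) r) _
  rw [e1, e2] at h2
  rw [← h2]
  exact h

theorem c3i_evZ_vJ1_vJ2 {Φ : ℤ[X][X]} (hΦ : V3Phi r Φ) :
    evZ Φ (vJ1 K N r) (vJ2 K N r) = 0 := by
  have h := congrArg (e2 K N r) (c3i_evZ_J1_jr (K := K) (N := N) hΦ)
  rw [map_zero] at h
  have h2 := v3_map_evZ (e2 K N r : FK K (N * r) →+* FK K (N * r * r)) Φ (J1 K (N * r))
    (jr K N r)
  have e1 : (e2 K N r : FK K (N * r) →+* FK K (N * r * r)) (J1 K (N * r)) = vJ1 K N r :=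
    (e2_J1 K).trans (Jgen_ext K (one_mul r).symm)
  have e2' : (e2 K N r : FK K (N * r) →+* FK K (N * r * r)) (jr K N r) = vJ2 K N r :=
    (e2_jr K).trans (Jgen_ext K (by show r * r = 1 * r * r; rw [one_mul]))
  rw [e1, e2'] at h2
  rw [← h2]
  exact h

/-- **the polynomial inputs of `c3_mid`** -/
theorem c3i_phi (hr : r.Prime) :
    ∃ Φ Ψ : ℤ[X][X], PhiShape r Φ ∧ Φ = c3K ℤ r + C (C (r : ℤ)) * Ψ ∧
      evZ Φ (vJ1 K N r) (vJ0 K N r) = 0 ∧ evZ Φ (vJ1 K N r) (vJ2 K N r) = 0 := by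
  obtain ⟨Φ, hΦ, h1, h2, h3⟩ := v3_exists_Phi hr
  obtain ⟨Ψ, hΨ⟩ := c3_kronecker hr hΦ.monic hΦ.natDegree hΦ.ev₁ hΦ.ev₂
  exact ⟨Φ, Ψ, ⟨hΦ.monic, hΦ.natDegree, h1, h2, h3⟩, hΨ, c3i_evZ_vJ1_vJ0 hΦ, c3i_evZ_vJ1_vJ2 hΦ⟩

end Fermat.Agent.CARlib
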