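import Mathlib
import Fermat.Agent.UNI.Normalise

/-!
# T-CAR, block N (norms): definitions

Subring style of T-UNI.  `IsDV V ϖ` : `V ⊆ F` is a discrete valuation ring of the field `F` with
uniformiser `ϖ`.  `nU V x` : `x` is a unit of `V`.  Congruences `x ≡ 1 mod ϖ V` are
`UNIlib.Normalise.OneMod V ϖ x` (`(x - 1) / ϖ ∈ V`).

`NHalf r e N VF VV π₁ Wi Wu Wr y` : the behaviour of the norm `N : F₂ → F₁` along the embedding
`e : F₁ → F₂` of degree `r` with respect to the valuation rings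
`Wi | VF` (`e = 1`, `f = r` purely inseparable), `Wu | VV` (`e = f = 1`),
`Wr | VV` (`e = r - 1`, `f = 1`, uniformiser `y`).
For `e₁` : `(Wi, Wu, Wr) = (W_FV, W_VF, W_VV)`; for `e₂` : `(W_VF, W_FV, W_VV)`.
-/

set_option autoImplicit false

namespace Fermat.Agent.CARlib

open Fermat.Agent.UNIlib.Normalise

/-- `V ⊆ F` is a discrete valuation ring of `F` with uniformiser `ϖ`. -/
structure IsDV {F : Type*} [Field F] (V : Subring F) (ϖ : F) : Prop where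
  total : ∀ x : F, x ∈ V ∨ x⁻¹ ∈ V
  unif_mem : ϖ ∈ V
  unif_inv : ϖ⁻¹ ∉ V
  max : ∀ x ∈ V, x⁻¹ ∈ V ∨ x / ϖ ∈ V
  arch : ∀ x : F, ∃ k : ℕ, ϖ ^ k * x ∈ V

/-- `x` is a unit of the subring `V` of the field `F`. -/
def nU {F : Type*} [Field F] (V : Subring F) (x : F) : Prop := x ≠ 0 ∧ x ∈ V ∧ x⁻¹ ∈ V

/-- norm data along one embedding `e : F₁ → F₂` of degree `r`. -/
structure NHalf {F₁ F₂ : Type*} [Field F₁] [Field F₂] (r : ℕ) (e : F₁ →+* F₂) (N : F₂ →*₀ F₁)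
    (VF VV : Subring F₁) (π₁ : F₁) (Wi Wu Wr : Subring F₂) (y : F₂) : Prop where
  /-- `N ∘ e = r`-th power -/
  N_e : ∀ z : F₁, N (e z) = z ^ r
  /-- `V_F (N x) = r W_i (x)` -/
  ordF : ∀ (x : F₂) (n : ℤ), nU Wi (x / (e π₁) ^ n) → nU VF (N x / π₁ ^ ((r : ℤ) * n))
  /-- `V_V (N x) = W_u (x) + W_r (x)` -/
  ordV : ∀ (x : F₂) (a b : ℤ), nU Wu (x / (e π₁) ^ a) → nU Wr (x / y ^ b) →
    nU VV (N x / π₁ ^ (a + b))
  /-- residue of `N x` at `V_F` is `x̄ ^ r` -/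
  resF : ∀ x : F₂, nU Wi x → OneMod Wi (e π₁) (x ^ r / e (N x))
  /-- residue of `N x` at `V_V` is `x̄_u x̄_r ^ (r - 1)` -/
  resV : ∀ (x : F₂) (y₁ y₂ : F₁), nU VV y₁ → nU VV y₂ → OneMod Wu (e π₁) (x / e y₁) →
    OneMod Wr y (x / e y₂) → OneMod VV π₁ (N x / (y₁ * y₂ ^ (r - 1)))
  /-- `W_u ∩ e F₁ = e V_V` -/
  memU : ∀ z : F₁, e z ∈ Wu ↔ z ∈ VV
  /-- `e V_V ⊆ W_r` -/
  memR : ∀ z : F₁, z ∈ VV → e z ∈ Wr
  /-- residue degree one -/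
  liftU : ∀ x : F₂, nU Wu x → ∃ z : F₁, nU VV z ∧ OneMod Wu (e π₁) (x / e z)
  liftR : ∀ x : F₂, nU Wr x → ∃ z : F₁, nU VV z ∧ OneMod Wr y (x / e z)

end Fermat.Agent.CARlib
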