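import Mathlib

/-!
# T-CAR, row V3: weak approximation for a finite family of valuation subrings (Mathlib only)

`F` a field, `W : ι → ValuationSubring F` a finite family of pairwise incomparable valuation
subrings which are *archimedean* (`V3Arch`, e.g. discrete valuation rings).  Then for all
`s : ι → F` and all precisions `ε : ι → F` (nonzero) there is `G : F` with
`(G - s i) / ε i ∈ W i` for all `i`.
-/

set_option autoImplicit false

namespace Fermat.Agent.CARlib

variable {F : Type*} [Field F]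

/-- the valuation subring `W` is archimedean (rank at most one): powers of a nonunit become
divisible by every nonzero element -/
def V3Arch (W : ValuationSubring F) : Prop :=
  ∀ x : F, x ∈ W → x⁻¹ ∉ W → ∀ y : F, y ≠ 0 → ∃ n : ℕ, x ^ n / y ∈ W

theorem v3_arch_aux {W : ValuationSubring F} (h : V3Arch W) {x : F} (hx : W.valuation x < 1)
    (z : F) : ∀ᶠ m : ℕ in Filter.atTop, W.valuation x ^ m * W.valuation z < 1 := by
  rw [Filter.eventually_atTop]
  by_cases hx0 : x = 0
  · refine ⟨1, fun m hm => ?_⟩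
    rw [hx0, map_zero, zero_pow (by omega), zero_mul]
    exact zero_lt_one
  by_cases hz0 : z = 0
  · refine ⟨0, fun m _ => ?_⟩
    rw [hz0, map_zero, mul_zero]
    exact zero_lt_one
  have hxW : x ∈ W := (W.valuation_le_one_iff x).1 hx.le
  have hxW' : x⁻¹ ∉ W := by
    intro h1
    have h2 := (W.valuation_le_one_iff _).2 h1
    rw [map_inv₀] at h2
    have h3 : W.valuation x ≠ 0 := (Valuation.ne_zero_iff _).2 hx0
    have h4 : 1 ≤ W.valuation x := (inv_le_one₀ (zero_lt_iff.2 h3)).1 h2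
    exact absurd hx (not_lt.2 h4)
  obtain ⟨n, hn⟩ := h x hxW hxW' z⁻¹ (inv_ne_zero hz0)
  have hn' := (W.valuation_le_one_iff _).2 hn
  rw [div_inv_eq_mul, map_mul, map_pow] at hn'
  refine ⟨n + 1, fun m hm => ?_⟩
  obtain ⟨k, rfl⟩ : ∃ k, m = n + (k + 1) := ⟨m - n - 1, by omega⟩
  have h5 : W.valuation x ^ (k + 1) < 1 := pow_lt_one₀ zero_le hx (by omega)
  calc W.valuation x ^ (n + (k + 1)) * W.valuation z
      = W.valuation x ^ (k + 1) * (W.valuation x ^ n * W.valuation z) := by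
        rw [pow_add, mul_comm (W.valuation x ^ n), mul_assoc]
    _ ≤ W.valuation x ^ (k + 1) * 1 := mul_le_mul' le_rfl hn'
    _ < 1 := by rwa [mul_one]


theorem v3_pair {W₁ W₂ : ValuationSubring F} (h12 : ¬ W₁ ≤ W₂) (h21 : ¬ W₂ ≤ W₁) :
    ∃ c : F, W₁.valuation c < 1 ∧ 1 < W₂.valuation c := by
  obtain ⟨a, ha1, ha2⟩ := SetLike.not_le_iff_exists.1 h12
  obtain ⟨b, hb2, hb1⟩ := SetLike.not_le_iff_exists.1 h21
  have ha1' := (W₁.valuation_le_one_iff a).2 ha1
  have hb2' := (W₂.valuation_le_one_iff b).2 hb2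
  have ha2' : 1 < W₂.valuation a := not_le.1 fun h => ha2 ((W₂.valuation_le_one_iff a).1 h)
  have hb1' : 1 < W₁.valuation b := not_le.1 fun h => hb1 ((W₁.valuation_le_one_iff b).1 h)
  have hb0 : b ≠ 0 := by
    rintro rfl
    exact hb1 (zero_mem _)
  have hb2'' : 0 < W₂.valuation b := zero_lt_iff.2 ((Valuation.ne_zero_iff _).2 hb0)
  refine ⟨a / b, ?_, ?_⟩
  · rw [map_div₀, div_lt_one₀ (lt_trans zero_lt_one hb1')]
    exact lt_of_le_of_lt ha1' hb1'
  · rw [map_div₀, one_lt_div₀ hb2'']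
    exact lt_of_le_of_lt hb2' ha2'


theorem v3_val_big {Γ : Type*} [LinearOrderedCommGroupWithZero Γ] (v : Valuation F Γ) {a : F}
    (ha : 1 < v a) {m : ℕ} (hm : 1 ≤ m) : v (1 + a ^ m) = v a ^ m := by
  have h1 : 1 < v a ^ m := one_lt_pow₀ ha (by omega)
  have h2 : v (1 : F) < v (a ^ m) := by rw [map_one, map_pow]; exact h1
  rw [Valuation.map_add_eq_of_lt_right v h2, map_pow]

theorem v3_val_small {Γ : Type*} [LinearOrderedCommGroupWithZero Γ] (v : Valuation F Γ) {a : F}
    (ha : v a < 1) {m : ℕ} (hm : 1 ≤ m) : v (1 + a ^ m) = 1 := by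
  have h1 : v a ^ m < 1 := pow_lt_one₀ zero_le ha (by omega)
  have h2 : v (a ^ m) < v (1 : F) := by rw [map_one, map_pow]; exact h1
  rw [Valuation.map_add_eq_of_lt_left v h2, map_one]

theorem v3_one_many {ι : Type*} [DecidableEq ι] (W : ι → ValuationSubring F)
    (hW : ∀ i j, i ≠ j → ¬ W i ≤ W j) (harch : ∀ i, V3Arch (W i)) (hne : ∀ i, W i ≠ ⊤) (i : ι)
    (S : Finset ι) (hi : i ∉ S) :
    ∃ c : F, 1 < (W i).valuation c ∧ ∀ j ∈ S, (W j).valuation c < 1 := by
  induction S using Finset.induction_on with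
  | empty =>
    obtain ⟨c, hc⟩ : ∃ c, c ∉ W i := by
      by_contra h
      exact hne i (eq_top_iff.2 fun x _ => by_contra fun hx => h ⟨x, hx⟩)
    exact ⟨c, not_le.1 fun h => hc (((W i).valuation_le_one_iff c).1 h), by simp⟩
  | insert k S hk ih =>
    rw [Finset.mem_insert, not_or] at hi
    obtain ⟨a, hai, haS⟩ := ih hi.2
    obtain ⟨b, hbk, hbi⟩ := v3_pair (hW k i (Ne.symm hi.1)) (hW i k hi.1)
    have hev : ∀ᶠ m : ℕ in Filter.atTop,
        ∀ j ∈ S, (W j).valuation a ^ m * (W j).valuation b < 1 :=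
      (Filter.eventually_all_finset S).2 fun j hj => v3_arch_aux (harch j) (haS j hj) b
    obtain ⟨m, hm, hm1⟩ := (hev.and (Filter.eventually_ge_atTop 1)).exists
    by_cases hak : (W k).valuation a ≤ 1
    · refine ⟨a ^ m * b, ?_, ?_⟩
      · rw [map_mul, map_pow]
        calc 1 < (W i).valuation b := hbi
          _ = 1 * (W i).valuation b := (one_mul _).symm
          _ ≤ _ := mul_le_mul' (one_le_pow₀ hai.le) le_rfl
      · intro j hj
        rw [Finset.mem_insert] at hj
        rcases hj with rfl | hj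
        · rw [map_mul, map_pow]
          calc _ ≤ 1 * (W j).valuation b := mul_le_mul' (pow_le_one₀ zero_le hak) le_rfl
            _ < 1 := by rwa [one_mul]
        · rw [map_mul, map_pow]; exact hm j hj
    · rw [not_le] at hak
      have hbig : ∀ l : ι, 1 < (W l).valuation a →
          (W l).valuation (a ^ m * b / (1 + a ^ m)) = (W l).valuation b := by
        intro l hl
        have h0 : (W l).valuation a ^ m ≠ 0 := pow_ne_zero _ (ne_of_gt (lt_trans zero_lt_one hl))
        rw [map_div₀, v3_val_big _ hl hm1, map_mul, map_pow, mul_comm, mul_div_assoc,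
          div_self h0, mul_one]
      refine ⟨a ^ m * b / (1 + a ^ m), ?_, ?_⟩
      · rw [hbig i hai]; exact hbi
      · intro j hj
        rw [Finset.mem_insert] at hj
        rcases hj with rfl | hj
        · rw [hbig j hak]; exact hbk
        · rw [map_div₀, v3_val_small _ (haS j hj) hm1, div_one, map_mul, map_pow]
          exact hm j hj

/-- approximate idempotents -/
theorem v3_idem {ι : Type*} [Finite ι] (W : ι → ValuationSubring F)
    (hW : ∀ i j, i ≠ j → ¬ W i ≤ W j) (harch : ∀ i, V3Arch (W i)) (hne : ∀ i, W i ≠ ⊤) (i : ι)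
    (δ : ι → F) (hδ : ∀ j, δ j ≠ 0) :
    ∃ e : F, (W i).valuation (e - 1) ≤ (W i).valuation (δ i) ∧
      ∀ j, j ≠ i → (W j).valuation e ≤ (W j).valuation (δ j) := by
  classical
  cases nonempty_fintype ι
  obtain ⟨c, hci, hcS⟩ := v3_one_many W hW harch hne i (Finset.univ.erase i)
    (Finset.notMem_erase i _)
  have hc0 : c ≠ 0 := by
    rintro rfl
    rw [map_zero] at hci
    exact absurd hci (not_lt.2 zero_le_one)
  have hpos : ∀ j, 0 < (W j).valuation (δ j) := fun j =>
    zero_lt_iff.2 ((Valuation.ne_zero_iff _).2 (hδ j))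
  have hci' : (W i).valuation c⁻¹ < 1 := by
    rw [map_inv₀]
    exact inv_lt_one_of_one_lt₀ hci
  have hev : ∀ᶠ m : ℕ in Filter.atTop,
      ∀ j ∈ Finset.univ.erase i, (W j).valuation c ^ m * (W j).valuation (δ j)⁻¹ < 1 :=
    (Filter.eventually_all_finset _).2 fun j hj => v3_arch_aux (harch j) (hcS j hj) _
  obtain ⟨m, ⟨hm, hmi⟩, hm1⟩ := ((hev.and (v3_arch_aux (harch i) hci' (δ i)⁻¹)).and
    (Filter.eventually_ge_atTop 1)).exists
  have hne1 : (1 : F) + c ^ m ≠ 0 := by
    intro h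
    have := v3_val_big (W i).valuation hci hm1
    rw [h, map_zero] at this
    exact pow_ne_zero m (ne_of_gt (lt_trans zero_lt_one hci)) this.symm
  refine ⟨c ^ m / (1 + c ^ m), ?_, ?_⟩
  · have h1 : c ^ m / (1 + c ^ m) - 1 = -(1 + c ^ m)⁻¹ := by
      field_simp
      ring
    rw [h1, Valuation.map_neg, map_inv₀, v3_val_big _ hci hm1, ← inv_pow, ← map_inv₀]
    rw [map_inv₀ _ (δ i), ← div_eq_mul_inv, div_lt_one₀ (hpos i)] at hmi
    exact hmi.le
  · intro j hj
    have h2 := hm j (Finset.mem_erase.2 ⟨hj, Finset.mem_univ _⟩)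
    rw [map_inv₀, ← div_eq_mul_inv, div_lt_one₀ (hpos j)] at h2
    rw [map_div₀, v3_val_small _ (hcS j (Finset.mem_erase.2 ⟨hj, Finset.mem_univ _⟩)) hm1,
      div_one, map_pow]
    exact h2.le


/-- **weak approximation**, general precision -/
theorem v3_weakApprox {ι : Type*} [Finite ι] (W : ι → ValuationSubring F)
    (hW : ∀ i j, i ≠ j → ¬ W i ≤ W j) (harch : ∀ i, V3Arch (W i)) (hne : ∀ i, W i ≠ ⊤)
    (s ε : ι → F) (hε : ∀ i, ε i ≠ 0) :
    ∃ G : F, ∀ i, (G - s i) / ε i ∈ W i := by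
  classical
  cases nonempty_fintype ι
  have hex : ∀ j : ι, ∃ e : F, (W j).valuation ((e - 1) * s j) ≤ (W j).valuation (ε j) ∧
      ∀ i, i ≠ j → (W i).valuation (e * s j) ≤ (W i).valuation (ε i) := by
    intro j
    by_cases hs : s j = 0
    · exact ⟨0, by rw [hs, mul_zero, map_zero]; exact zero_le,
        fun i _ => by rw [zero_mul, map_zero]; exact zero_le⟩
    · obtain ⟨e, he1, he2⟩ := v3_idem W hW harch hne j (fun i => ε i / s j)
        (fun i => div_ne_zero (hε i) hs)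
      have hpos : ∀ i, 0 < (W i).valuation (s j) := fun i =>
        zero_lt_iff.2 ((Valuation.ne_zero_iff _).2 hs)
      refine ⟨e, ?_, fun i hi => ?_⟩
      · rw [map_mul]
        rw [map_div₀, le_div_iff₀ (hpos j)] at he1
        exact he1
      · have := he2 i hi
        rw [map_mul]
        rw [map_div₀, le_div_iff₀ (hpos i)] at this
        exact this
  choose e he1 he2 using hex
  refine ⟨∑ j, e j * s j, fun i => ?_⟩
  rw [← ValuationSubring.valuation_le_one_iff, map_div₀,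
    div_le_one₀ (zero_lt_iff.2 ((Valuation.ne_zero_iff _).2 (hε i)))]
  have h1 : ∑ j, e j * s j - s i = (e i - 1) * s i + ∑ j ∈ Finset.univ.erase i, e j * s j := by
    rw [← Finset.add_sum_erase _ _ (Finset.mem_univ i)]
    ring
  rw [h1]
  refine Valuation.map_add_le _ (he1 i) (Valuation.map_sum_le _ fun j hj => ?_)
  exact he2 j i (Finset.ne_of_mem_erase hj).symm

/-- weak approximation with precision `π` -/
theorem v3_weakApprox_pi {ι : Type*} [Finite ι] (W : ι → ValuationSubring F)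
    (hW : ∀ i j, i ≠ j → ¬ W i ≤ W j) (harch : ∀ i, V3Arch (W i)) (hne : ∀ i, W i ≠ ⊤)
    {π : F} (hπ : π ≠ 0) (s : ι → F) :
    ∃ G : F, ∀ i, (G - s i) / π ∈ W i :=
  v3_weakApprox W hW harch hne s (fun _ => π) (fun _ => hπ)

/-- weak approximation, multiplicative form: `G = s i * (1 + π * w)`, `w ∈ W i`, for all `i` -/
theorem v3_weakApprox_mul {ι : Type*} [Finite ι] [Nonempty ι] (W : ι → ValuationSubring F)
    (hW : ∀ i j, i ≠ j → ¬ W i ≤ W j) (harch : ∀ i, V3Arch (W i)) (hne : ∀ i, W i ≠ ⊤)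
    {π : F} (hπ : π ≠ 0) (hπW : ∀ i, π ∈ W i ∧ π⁻¹ ∉ W i) (s : ι → F) (hs : ∀ i, s i ≠ 0) :
    ∃ G : F, G ≠ 0 ∧ ∀ i, (G / s i - 1) / π ∈ W i := by
  obtain ⟨G, hG⟩ := v3_weakApprox W hW harch hne s (fun i => π * s i)
    (fun i => mul_ne_zero hπ (hs i))
  have hG' : ∀ i, (G / s i - 1) / π ∈ W i := fun i => by
    have h1 : (G / s i - 1) / π = (G - s i) / (π * s i) := by
      have := hs i
      field_simp
    rw [h1]; exact hG i
  refine ⟨G, ?_, hG'⟩
  rintro rfl
  obtain ⟨i⟩ := ‹Nonempty ι›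
  have h2 := hG' i
  rw [zero_div, zero_sub, neg_div, one_div] at h2
  exact (hπW i).2 (by simpa using neg_mem h2)

/-- a discrete valuation subring is archimedean -/
theorem v3_arch_of_dvr (W : ValuationSubring F) [IsDiscreteValuationRing W] : V3Arch W := by
  intro x hx hx' y hy
  obtain ⟨ϖ, hϖ⟩ := IsDiscreteValuationRing.exists_irreducible W
  rcases W.mem_or_inv_mem y with hyW | hyW
  · have hy' : (⟨y, hyW⟩ : W) ≠ 0 := fun h => hy (congrArg Subtype.val h)
    obtain ⟨n, u, hu⟩ := IsDiscreteValuationRing.eq_unit_mul_pow_irreducible hy' hϖ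
    have hxn : ¬ IsUnit (⟨x, hx⟩ : W) := by
      intro h
      obtain ⟨z, hz⟩ := h.exists_right_inv
      have hz' : x * (z : F) = 1 := congrArg Subtype.val hz
      apply hx'
      rw [← eq_inv_of_mul_eq_one_right hz']
      exact z.2
    have hmem : (⟨x, hx⟩ : W) ∈ IsLocalRing.maximalIdeal W := (IsLocalRing.mem_maximalIdeal _).2 hxn
    rw [hϖ.maximalIdeal_eq, Ideal.mem_span_singleton] at hmem
    obtain ⟨z, hz⟩ := hmem
    refine ⟨n, ?_⟩
    have h1 : (⟨x, hx⟩ : W) ^ n = ⟨y, hyW⟩ * (((u⁻¹ : Wˣ) : W) * z ^ n) := by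
      rw [hz, hu, mul_pow]
      calc ϖ ^ n * z ^ n = ((u : W) * ((u⁻¹ : Wˣ) : W)) * (ϖ ^ n * z ^ n) := by
            rw [Units.mul_inv, one_mul]
        _ = _ := by ring
    have h2 : x ^ n = y * ((((u⁻¹ : Wˣ) : W) * z ^ n : W) : F) := congrArg Subtype.val h1
    rw [h2, mul_div_assoc, mul_comm, div_mul_cancel₀ _ hy]
    exact (((u⁻¹ : Wˣ) : W) * z ^ n : W).2
  · exact ⟨0, by rw [pow_zero, one_div]; exact hyW⟩

end Fermat.Agent.CARlib
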