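import Fermat.Agent.CAR.V2Pi
import Fermat.Agent.CAR.NDefs
import Fermat.Agent.CAR.V3Approx

/-!
# T-CAR, block V: the five valuation rings are discrete (`IsDV`), archimedean (`V3Arch`)
-/

set_option autoImplicit false
set_option linter.unusedSectionVars false
set_option linter.unusedVariables false
set_option linter.style.haveILetI false

open ModularCurve Polynomial

namespace Fermat.Agent.CARlib

open Fermat.Agent.ESlib Fermat.Agent.UNIlib
open Fermat.Agent.S24lib (Dv)

noncomputable section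

section abs

variable {F : Type*} [Field F]

theorem IsDV.comap_equiv {V : Subring F} {ϖ : F} (d : IsDV V ϖ) (σ : F ≃+* F) (hσ : σ ϖ = ϖ) :
    IsDV (V.comap (σ : F →+* F)) ϖ where
  total x := by
    rcases d.total (σ x) with h | h
    · exact Or.inl h
    · refine Or.inr ?_
      show σ x⁻¹ ∈ V
      rwa [map_inv₀]
  unif_mem := by
    show σ ϖ ∈ V
    rw [hσ]; exact d.unif_mem
  unif_inv := by
    intro h
    have h' : σ ϖ⁻¹ ∈ V := h
    rw [map_inv₀, hσ] at h'
    exact d.unif_inv h'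
  max x hx := by
    rcases d.max (σ x) hx with h | h
    · refine Or.inl ?_
      show σ x⁻¹ ∈ V
      rwa [map_inv₀]
    · refine Or.inr ?_
      show σ (x / ϖ) ∈ V
      rwa [map_div₀, hσ]
  arch x := by
    obtain ⟨k, hk⟩ := d.arch (σ x)
    refine ⟨k, ?_⟩
    show σ (ϖ ^ k * x) ∈ V
    rwa [map_mul, map_pow, hσ]

theorem v3Arch_of_isDV {W : ValuationSubring F} {ϖ : F} (d : IsDV W.toSubring ϖ) : V3Arch W := by
  intro x hx hx' y hy
  have h1 : x / ϖ ∈ W := (d.max x hx).resolve_left hx'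
  obtain ⟨k, hk⟩ := d.arch y⁻¹
  refine ⟨k, ?_⟩
  have hϖ : ϖ ≠ 0 := by
    rintro rfl
    exact d.unif_inv (by rw [inv_zero]; exact W.zero_mem)
  have : x ^ k / y = (x / ϖ) ^ k * (ϖ ^ k * y⁻¹) := by
    rw [div_pow]; field_simp
  rw [this]
  exact W.mul_mem _ _ (pow_mem h1 k) hk

theorem ne_top_of_isDV {W : ValuationSubring F} {ϖ : F} (d : IsDV W.toSubring ϖ) : W ≠ ⊤ := by
  rintro rfl
  exact d.unif_inv trivial

end abs

variable {R K : Type} [CommRing R] [IsDomain R] [IsDiscreteValuationRing R] [Field K]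
  [Algebra R K] [IsFractionRing R K] [Algebra ℚ K] [CharZero K] [Algebra K ℂ] [IsScalarTower ℚ K ℂ]

/-- the Gauss valuation ring of `F_K(M)` is discrete with uniformiser `π` -/
theorem v2_isDV_gauss (M : ℕ) [NeZero M] [Algebra R (FK K M)] [IsScalarTower R K (FK K M)]
    {π : R} (hπ : Irreducible π) :
    IsDV (gaussVal R K M).toSubring (algebraMap R (FK K M) π) := by
  have hS := redSetup_of_dvr (K := K) hπ
  have hϖ0 : algebraMap R (FK K M) π ≠ 0 := tv_unif_ne_zero M hπ
  have hcoe : ((algebraMap R (FK K M) π : FK K M) : LaurentSeries K) =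
      HahnSeries.C (algebraMap R K π) := coe_algebraMap_R π
  have hmax : ∀ x ∈ (gaussVal R K M).toSubring, x⁻¹ ∈ (gaussVal R K M).toSubring ∨
      x / algebraMap R (FK K M) π ∈ (gaussVal R K M).toSubring := by
    intro x hx
    have hx' : (x : LaurentSeries K) ∈ LamR (algebraMap R K) (IsLocalRing.residue R) :=
      mem_gaussSub_iff.1 hx
    by_cases h0 : redR hS.inj ⟨_, hx'⟩ = 0
    · right
      obtain ⟨x', hx''⟩ := exists_eq_mul_of_redR_eq_zero hS h0
      have h1 : (x : LaurentSeries K) = HahnSeries.C (algebraMap R K π) * (x' : LaurentSeries K) :=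
        congrArg Subtype.val hx''
      show x / algebraMap R (FK K M) π ∈ gaussSub R K M
      rw [mem_gaussSub_iff]
      have h2 : ((x / algebraMap R (FK K M) π : FK K M) : LaurentSeries K) =
          (x : LaurentSeries K) / ((algebraMap R (FK K M) π : FK K M) : LaurentSeries K) := rfl
      rw [h2, hcoe, h1, mul_div_cancel_left₀ _ (redSetup_C_unif_ne_zero hS)]
      exact x'.2
    · left
      show x⁻¹ ∈ gaussSub R K M
      rw [mem_gaussSub_iff]
      have h3 := inv_mem_LamR_of_redR_ne_zero hS.inj h0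
      have h4 : ((x⁻¹ : FK K M) : LaurentSeries K) = ((x : LaurentSeries K))⁻¹ := rfl
      rw [h4]
      exact h3
  refine ⟨fun x => (gaussVal R K M).mem_or_inv_mem x, tv_unif_mem M π, ?_, hmax, ?_⟩
  · intro h
    have h'' : (algebraMap R (FK K M) π)⁻¹ ∈ gaussSub R K M := h
    rw [mem_gaussSub_iff] at h''
    have h' : ((algebraMap R (FK K M) π : FK K M) : LaurentSeries K)⁻¹ ∈
        LamR (algebraMap R K) (IsLocalRing.residue R) := h''
    rw [hcoe] at h'
    have h1 : (⟨HahnSeries.C (algebraMap R K π), C_unif_mem_LamR⟩ :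
        LamR (algebraMap R K) (IsLocalRing.residue R)) * ⟨_, h'⟩ = 1 :=
      Subtype.ext (mul_inv_cancel₀ (redSetup_C_unif_ne_zero hS))
    have h2 := congrArg (redR hS.inj) h1
    rw [map_mul, redR_C_unif hS, zero_mul, map_one] at h2
    exact zero_ne_one h2
  · intro x
    obtain ⟨k, hk⟩ := (isBdd_of_mem_FK (R := R) x.2).exists_pow_mul_mem hS
    refine ⟨k, ?_⟩
    show algebraMap R (FK K M) π ^ k * x ∈ gaussSub R K M
    rw [mem_gaussSub_iff]
    convert hk using 1
    show ((algebraMap R (FK K M) π : FK K M) : LaurentSeries K) ^ k * _ = _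
    rw [hcoe]

variable {N r : ℕ} [NeZero N] [NeZero r] [NeZero (N * r)] [NeZero (N * r * r)]
  [Algebra R (FK K N)] [IsScalarTower R K (FK K N)]
  [Algebra R (FK K (N * r))] [IsScalarTower R K (FK K (N * r))]
  [Algebra R (FK K (N * r * r))] [IsScalarTower R K (FK K (N * r * r))]

theorem v2_isDV_VF1 {π : R} (hπ : Irreducible π) :
    IsDV (VF1 R K N r).toSubring (algebraMap R (FK K (N * r)) π) := v2_isDV_gauss (N * r) hπ

theorem v2_wr_algebraMap (hr : r.Prime) (hrN : ¬ r ∣ N) (c : R) :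
    wr K hr hrN (algebraMap R (FK K (N * r)) c) = algebraMap R (FK K (N * r)) c := by
  rw [IsScalarTower.algebraMap_apply R K (FK K (N * r)), AlgEquiv.commutes]

theorem v2_w2_algebraMap (hr : r.Prime) (hrN : ¬ r ∣ N) (c : R) :
    w2 K hr hrN (algebraMap R (FK K (N * r * r)) c) = algebraMap R (FK K (N * r * r)) c := by
  rw [IsScalarTower.algebraMap_apply R K (FK K (N * r * r)), AlgEquiv.commutes]

theorem v2_i12_algebraMap (c : R) :
    i12 K N r (algebraMap R (FK K (N * r)) c) = algebraMap R (FK K (N * r * r)) c := by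
  rw [IsScalarTower.algebraMap_apply R K (FK K (N * r)), AlgHom.commutes,
    ← IsScalarTower.algebraMap_apply R K (FK K (N * r * r))]

theorem v2_isDV_VV1 (hr : r.Prime) (hrN : ¬ r ∣ N) {π : R} (hπ : Irreducible π) :
    IsDV (VV1 R hr hrN).toSubring (algebraMap R (FK K (N * r)) π) :=
  (v2_isDV_gauss (N * r) hπ).comap_equiv (wr K hr hrN).toRingEquiv (v2_wr_algebraMap hr hrN π)

theorem v2_isDV_WVF {π : R} (hπ : Irreducible π) :
    IsDV (WVF R K N r).toSubring (algebraMap R (FK K (N * r * r)) π) :=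
  v2_isDV_gauss (N * r * r) hπ

theorem v2_isDV_WFV (hr : r.Prime) (hrN : ¬ r ∣ N) {π : R} (hπ : Irreducible π) :
    IsDV (WFV R hr hrN).toSubring (algebraMap R (FK K (N * r * r)) π) :=
  (v2_isDV_gauss (N * r * r) hπ).comap_equiv (w2 K hr hrN).toRingEquiv (v2_w2_algebraMap hr hrN π)

variable [CharP (IsLocalRing.ResidueField R) r]

theorem VCore.vY_ne_zero {hr : r.Prime} {hrN : ¬ r ∣ N} {π : R}
    {W : ValuationSubring (FK K (N * r * r))} (D : VCore hr hrN π W) : vY K N r ≠ 0 := by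
  intro h
  exact D.vv_y.2 (by rw [h, inv_zero]; exact W.zero_mem)

/-- `π^k x ∈ W_VV` for `k` large -/
theorem VCore.exists_pow_mul_mem {hr : r.Prime} {hrN : ¬ r ∣ N} {π : R}
    {W : ValuationSubring (FK K (N * r * r))} (D : VCore hr hrN π W)
    (hN : (N : IsLocalRing.ResidueField R) ≠ 0) (hπ : Irreducible π) (x : FK K (N * r * r)) :
    ∃ k : ℕ, algebraMap R (FK K (N * r * r)) π ^ k * x ∈ W := by
  classical
  obtain ⟨c, rfl⟩ := v1_span R hr hrN hN x
  have d1 := v2_isDV_VF1 (K := K) (N := N) (r := r) hπ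
  choose k hk using fun i => d1.arch (c i)
  refine ⟨∑ i, k i, ?_⟩
  rw [Finset.mul_sum]
  refine sum_mem fun i _ => ?_
  have h1 : algebraMap R (FK K (N * r)) π ^ (∑ i, k i) * c i ∈ VF1 R K N r := by
    have : ∑ i, k i = (∑ i, k i - k i) + k i :=
      (Nat.sub_add_cancel (Finset.single_le_sum (fun _ _ => Nat.zero_le _) (Finset.mem_univ i))).symm
    rw [this, pow_add, mul_assoc]
    exact (VF1 R K N r).mul_mem _ _ (pow_mem d1.unif_mem _) (hk i)
  have h2 := (D.vv_incl _).2 h1
  rw [map_mul, map_pow, v2_i12_algebraMap] at h2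
  rw [← mul_assoc]
  exact W.mul_mem _ _ h2 (pow_mem D.vJ2_mem _)

/-- `W_VV` is discrete with uniformiser `vY` -/
theorem VCore.isDV {hr : r.Prime} {hrN : ¬ r ∣ N} {π : R}
    {W : ValuationSubring (FK K (N * r * r))} (D : VCore hr hrN π W)
    (hN : (N : IsLocalRing.ResidueField R) ≠ 0) (hπ : Irreducible π) :
    IsDV W.toSubring (vY K N r) where
  total x := W.mem_or_inv_mem x
  unif_mem := D.vv_y.1
  unif_inv := D.vv_y.2
  max := D.vv_unif
  arch x := by
    obtain ⟨k, hk⟩ := D.exists_pow_mul_mem hN hπ x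
    refine ⟨(r - 1) * k, ?_⟩
    have hϖ0 : algebraMap R (FK K (N * r * r)) π ≠ 0 := tv_unif_ne_zero (N * r * r) hπ
    have : vY K N r ^ ((r - 1) * k) * x =
        (vY K N r ^ (r - 1) / algebraMap R (FK K (N * r * r)) π) ^ k *
          (algebraMap R (FK K (N * r * r)) π ^ k * x) := by
      rw [pow_mul, div_pow]; field_simp
    rw [this]
    exact W.mul_mem _ _ (pow_mem D.vv_pow.1 k) hk

/-- `π ∈ W_VV`, `π⁻¹ ∉ W_VV` -/
theorem VCore.unif_mem {hr : r.Prime} {hrN : ¬ r ∣ N} {π : R}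
    {W : ValuationSubring (FK K (N * r * r))} (D : VCore hr hrN π W) (c : R) :
    algebraMap R (FK K (N * r * r)) c ∈ W := by
  rw [← v2_i12_algebraMap]
  exact (D.vv_incl _).2 (tv_unif_mem (N * r) c)

theorem VCore.unif_inv_not_mem {hr : r.Prime} {hrN : ¬ r ∣ N} {π : R}
    {W : ValuationSubring (FK K (N * r * r))} (D : VCore hr hrN π W) (hπ : Irreducible π) :
    (algebraMap R (FK K (N * r * r)) π)⁻¹ ∉ W := by
  rw [← v2_i12_algebraMap, ← map_inv₀, D.vv_incl]
  exact (v2_isDV_VF1 (K := K) (N := N) (r := r) hπ).unif_inv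

/-- **(RAM)** -/
theorem VCore.ram {hr : r.Prime} {hrN : ¬ r ∣ N} {π : R}
    {W : ValuationSubring (FK K (N * r * r))} (D : VCore hr hrN π W) (hπ : Irreducible π)
    {x : FK K (N * r * r)} (hx : x ∈ W) (hx' : x⁻¹ ∉ W) :
    x ^ (r - 1) / algebraMap R (FK K (N * r * r)) π ∈ W := by
  have h1 : x / vY K N r ∈ W := (D.vv_unif x hx).resolve_left hx'
  have hy0 := D.vY_ne_zero
  have : x ^ (r - 1) / algebraMap R (FK K (N * r * r)) π =
      (x / vY K N r) ^ (r - 1) * (vY K N r ^ (r - 1) / algebraMap R (FK K (N * r * r)) π) := by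
    rw [div_pow]; field_simp
  rw [this]
  exact W.mul_mem _ _ (pow_mem h1 _) D.vv_pow.1

end

end Fermat.Agent.CARlib
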