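import Fermat.Agent.CAR.V2Pi

/-!
# T-CAR, block V: residue fields of `W_FV | V_V` (purely inseparable) and `W_VF | V_F` (`f = 1`)
-/

set_option autoImplicit false
set_option linter.unusedSectionVars false
set_option linter.unusedVariables false

open ModularCurve Polynomial

namespace Fermat.Agent.CARlib

open Fermat.Agent.ESlib Fermat.Agent.UNIlib
open Fermat.Agent.S24lib (Dv)

noncomputable section

/-! ### abstract congruences modulo `π W` -/

section abs

variable {F : Type*} [Field F] (W : ValuationSubring F) {π : F}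

/-- Frobenius is additive modulo `π` -/
theorem v2r_sum_pow {r : ℕ} (hr : r.Prime) (hrπ : (r : F) / π ∈ W) {ι : Type*} (s : Finset ι)
    (a : ι → F) (ha : ∀ i ∈ s, a i ∈ W) :
    ((∑ i ∈ s, a i) ^ r - ∑ i ∈ s, a i ^ r) / π ∈ W := by
  classical
  induction s using Finset.induction_on with
  | empty => simp [hr.ne_zero, W.zero_mem]
  | insert i s hi ih =>
    have hs : ∀ j ∈ s, a j ∈ W := fun j hj => ha j (Finset.mem_insert_of_mem hj)
    have hai : a i ∈ W := ha i (Finset.mem_insert_self i s)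
    have hsum : ∑ j ∈ s, a j ∈ W := sum_mem hs
    obtain ⟨t, ht⟩ := exists_add_pow_prime_eq hr (⟨a i, hai⟩ : W) ⟨_, hsum⟩
    have ht' : (a i + ∑ j ∈ s, a j) ^ r =
        a i ^ r + (∑ j ∈ s, a j) ^ r + r * a i * (∑ j ∈ s, a j) * (t : F) := by
      have := congrArg (fun w : W => (w : F)) ht
      simpa using this
    rw [Finset.sum_insert hi, Finset.sum_insert hi, ht']
    have e : (a i ^ r + (∑ j ∈ s, a j) ^ r + r * a i * (∑ j ∈ s, a j) * (t : F) -
        (a i ^ r + ∑ j ∈ s, a j ^ r)) / π =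
        ((∑ j ∈ s, a j) ^ r - ∑ j ∈ s, a j ^ r) / π +
          (r : F) / π * (a i * (∑ j ∈ s, a j) * (t : F)) := by
      ring
    rw [e]
    exact W.add_mem _ _ (ih hs) (W.mul_mem _ _ hrπ (W.mul_mem _ _ (W.mul_mem _ _ hai hsum) t.2))

theorem v2r_pow_congr {u v : F} (hu : u ∈ W) (hv : v ∈ W) (h : (u - v) / π ∈ W) (n : ℕ) :
    (u ^ n - v ^ n) / π ∈ W := by
  obtain ⟨t, ht⟩ := sub_dvd_pow_sub_pow (⟨u, hu⟩ : W) ⟨v, hv⟩ n
  have ht' : u ^ n - v ^ n = (u - v) * (t : F) := by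
    have := congrArg (fun w : W => (w : F)) ht
    simpa using this
  rw [ht', mul_div_right_comm]
  exact W.mul_mem _ _ h t.2

theorem v2r_mul_congr {u v c : F} (hc : c ∈ W) (h : (u - v) / π ∈ W) :
    (c * u - c * v) / π ∈ W := by
  rw [← mul_sub, mul_div_assoc]
  exact W.mul_mem _ _ hc h

theorem v2r_sum_congr {ι : Type*} (s : Finset ι) (u v : ι → F)
    (h : ∀ i ∈ s, (u i - v i) / π ∈ W) : (∑ i ∈ s, u i - ∑ i ∈ s, v i) / π ∈ W := by
  rw [← Finset.sum_sub_distrib, Finset.sum_div]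
  exact sum_mem h

theorem v2r_trans {u v w : F} (h1 : (u - v) / π ∈ W) (h2 : (v - w) / π ∈ W) :
    (u - w) / π ∈ W := by
  have : (u - w) / π = (u - v) / π + (v - w) / π := by ring
  rw [this]
  exact W.add_mem _ _ h1 h2

end abs

variable {R K : Type} [CommRing R] [IsDomain R] [IsDiscreteValuationRing R] [Field K]
  [Algebra R K] [IsFractionRing R K] [Algebra ℚ K] [CharZero K] [Algebra K ℂ] [IsScalarTower ℚ K ℂ]
  {N r : ℕ} [NeZero N] [NeZero r] [NeZero (N * r)] [NeZero (N * r * r)]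
  [Algebra R (FK K N)] [IsScalarTower R K (FK K N)]
  [Algebra R (FK K (N * r))] [IsScalarTower R K (FK K (N * r))]
  [Algebra R (FK K (N * r * r))] [IsScalarTower R K (FK K (N * r * r))]

theorem v2r_algebraMap_mem_WVF (c : R) : algebraMap R (FK K (N * r * r)) c ∈ WVF R K N r :=
  tv_unif_mem (N * r * r) c

theorem v2r_w2_algebraMap (hr : r.Prime) (hrN : ¬ r ∣ N) (c : R) :
    w2 K hr hrN (algebraMap R (FK K (N * r * r)) c) = algebraMap R (FK K (N * r * r)) c := by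
  rw [IsScalarTower.algebraMap_apply R K (FK K (N * r * r)), AlgEquiv.commutes]

theorem v2r_algebraMap_mem_WFV (hr : r.Prime) (hrN : ¬ r ∣ N) (c : R) :
    algebraMap R (FK K (N * r * r)) c ∈ WFV R hr hrN := by
  show w2 K hr hrN _ ∈ gaussVal R K (N * r * r)
  rw [v2r_w2_algebraMap]
  exact tv_unif_mem (N * r * r) c

/-- `i12` maps `V_V` into `W_FV` -/
theorem v2r_i12_mem_WFV (hr : r.Prime) (hrN : ¬ r ∣ N) {c : FK K (N * r)}
    (hc : c ∈ VV1 R hr hrN) : i12 K N r c ∈ WFV R hr hrN := by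
  show w2 K hr hrN (i12 K N r c) ∈ gaussVal R K (N * r * r)
  rw [w2_inclF]
  show _ ∈ gaussSub R K (N * r * r)
  rw [mem_gaussSub_iff, coe_e2]
  exact qExpand_mem_LamR r hc

/-- `i12` maps `V_F` into `W_VF` -/
theorem v2r_i12_mem_WVF {c : FK K (N * r)} (hc : c ∈ VF1 R K N r) :
    i12 K N r c ∈ WVF R K N r := by
  show _ ∈ gaussSub R K (N * r * r)
  rw [mem_gaussSub_iff, coe_inclF]
  exact hc

variable [CharP (IsLocalRing.ResidueField R) r]

theorem v2r_dvd_r {π : R} (hπ : Irreducible π) : π ∣ ((r : ℕ) : R) := by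
  have h1 : IsLocalRing.residue R ((r : ℕ) : R) = 0 := by
    rw [map_natCast]
    exact CharP.cast_eq_zero _ r
  rw [IsLocalRing.residue_eq_zero_iff, hπ.maximalIdeal_eq, Ideal.mem_span_singleton] at h1
  exact h1

theorem v2r_r_div_mem_WVF {π : R} (hπ : Irreducible π) :
    ((r : ℕ) : FK K (N * r * r)) / algebraMap R (FK K (N * r * r)) π ∈ WVF R K N r := by
  obtain ⟨t, ht⟩ := v2r_dvd_r (r := r) hπ
  have hπ0 : algebraMap R (FK K (N * r * r)) π ≠ 0 := by
    rw [IsScalarTower.algebraMap_apply R K (FK K (N * r * r))]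
    simpa using hπ.ne_zero
  have h1 : ((r : ℕ) : FK K (N * r * r)) = algebraMap R (FK K (N * r * r)) π *
      algebraMap R (FK K (N * r * r)) t := by
    rw [← map_mul, ← ht, map_natCast]
  rw [h1, mul_div_cancel_left₀ _ hπ0]
  exact v2r_algebraMap_mem_WVF t

theorem v2r_r_div_mem_WFV (hr : r.Prime) (hrN : ¬ r ∣ N) {π : R} (hπ : Irreducible π) :
    ((r : ℕ) : FK K (N * r * r)) / algebraMap R (FK K (N * r * r)) π ∈ WFV R hr hrN := by
  obtain ⟨t, ht⟩ := v2r_dvd_r (r := r) hπ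
  have hπ0 : algebraMap R (FK K (N * r * r)) π ≠ 0 := by
    rw [IsScalarTower.algebraMap_apply R K (FK K (N * r * r))]
    simpa using hπ.ne_zero
  have h1 : ((r : ℕ) : FK K (N * r * r)) = algebraMap R (FK K (N * r * r)) π *
      algebraMap R (FK K (N * r * r)) t := by
    rw [← map_mul, ← ht, map_natCast]
  rw [h1, mul_div_cancel_left₀ _ hπ0]
  exact v2r_algebraMap_mem_WFV hr hrN t

/-- `i12` of a congruence modulo `π V_F` is a congruence modulo `π W_VF` -/
theorem v2r_i12_div_mem_WVF {π : R} {c : FK K (N * r)}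
    (hc : c / algebraMap R (FK K (N * r)) π ∈ VF1 R K N r) :
    i12 K N r c / algebraMap R (FK K (N * r * r)) π ∈ WVF R K N r := by
  have h := v2r_i12_mem_WVF hc
  rwa [map_div₀, IsScalarTower.algebraMap_apply R K (FK K (N * r)), AlgHom.commutes,
    ← IsScalarTower.algebraMap_apply R K (FK K (N * r * r))] at h

/-- `j(q^r) = j(q)^r` modulo `π W_VF` -/
theorem v2r_vJ1_sub (hr : r.Prime) {π : R} (hπ : Irreducible π) :
    (vJ1 K N r - vJ0 K N r ^ r) / algebraMap R (FK K (N * r * r)) π ∈ WVF R K N r := by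
  have h := v2r_i12_div_mem_WVF (tv_jr_sub (R := R) (K := K) (N := N) hr hπ)
  rw [map_sub, map_pow, i12_J1] at h
  have h2 : i12 K N r (jr K N r) = vJ1 K N r := by
    rw [inclF_Jgen]
    exact Jgen_ext K (one_mul r).symm
  rwa [h2] at h

/-- `j(q^(r^2))^r = j(q^r)` modulo `π W_FV` -/
theorem v2r_vJ2_pow_sub (hr : r.Prime) (hrN : ¬ r ∣ N) {π : R} (hπ : Irreducible π) :
    (vJ2 K N r ^ r - i12 K N r (jr K N r)) / algebraMap R (FK K (N * r * r)) π ∈
      WFV R hr hrN := by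
  show w2 K hr hrN _ ∈ gaussVal R K (N * r * r)
  rw [map_div₀, map_sub, map_pow, v1_w2_vJ2, w2_inclF, wr_jr, e2_J1, v2r_w2_algebraMap]
  have h := v2r_vJ1_sub (R := R) (K := K) (N := N) hr hπ
  have h2 : Jgen K (N * r * r) ⟨r, (dvd_mul_left r N).mul_right r⟩ = vJ1 K N r :=
    Jgen_ext K (one_mul r).symm
  rw [h2]
  have h3 := (WVF R K N r).neg_mem _ h
  rwa [← neg_div, neg_sub] at h3

theorem v2r_jr_mem_VV1 (hr : r.Prime) (hrN : ¬ r ∣ N) : jr K N r ∈ VV1 R hr hrN := by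
  show wr K hr hrN (jr K N r) ∈ gaussVal R K (N * r)
  rw [wr_jr]
  exact Jgen_mem_gaussSub _

/-- **`W_FV | V_V` is purely inseparable of degree `r` on residue fields** (`hBV` = `v2_basis_V`) -/
theorem v2_fv_res_of (hr : r.Prime) (hrN : ¬ r ∣ N) (hN : (N : IsLocalRing.ResidueField R) ≠ 0)
    (hBV : ∀ c : Fin r → FK K (N * r),
      ∑ i, i12 K N r (c i) * vJ2 K N r ^ (i : ℕ) ∈ WFV R hr hrN → ∀ i, c i ∈ VV1 R hr hrN)
    {π : R} (hπ : Irreducible π) (z : FK K (N * r * r)) (hz : z ∈ WFV R hr hrN) :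
    ∃ c ∈ VV1 R hr hrN,
      (z ^ r - i12 K N r c) / algebraMap R (FK K (N * r * r)) π ∈ WFV R hr hrN := by
  obtain ⟨c, rfl⟩ := v1_span R hr hrN hN z
  have hc := hBV c hz
  refine ⟨∑ i, c i ^ r * jr K N r ^ (i : ℕ),
    sum_mem fun i _ => mul_mem (pow_mem (hc i) r) (pow_mem (v2r_jr_mem_VV1 hr hrN) _), ?_⟩
  have h1 := v2r_sum_pow (WFV R hr hrN) hr (v2r_r_div_mem_WFV hr hrN hπ) Finset.univ
    (fun i : Fin r => i12 K N r (c i) * vJ2 K N r ^ (i : ℕ))
    (fun i _ => mul_mem (v2r_i12_mem_WFV hr hrN (hc i)) (pow_mem (vJ2_mem_WFV hr hrN) _))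
  refine v2r_trans _ h1 ?_
  rw [map_sum]
  refine v2r_sum_congr _ _ _ _ fun i _ => ?_
  rw [mul_pow, map_mul, map_pow, map_pow, ← pow_mul, mul_comm (i : ℕ) r, pow_mul]
  exact v2r_mul_congr _ (pow_mem (v2r_i12_mem_WFV hr hrN (hc i)) r)
    (v2r_pow_congr _ (pow_mem (vJ2_mem_WFV hr hrN) r)
      (v2r_i12_mem_WFV hr hrN (v2r_jr_mem_VV1 hr hrN)) (v2r_vJ2_pow_sub hr hrN hπ) i)

/-- `j(q^(r^2)) = j(q^r)^r` modulo `π W_VF` -/
theorem v2r_vJ2_sub (hr : r.Prime) {π : R} (hπ : Irreducible π) :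
    (vJ2 K N r - vJ1 K N r ^ r) / algebraMap R (FK K (N * r * r)) π ∈ WVF R K N r := by
  have h := tv_jr_sub (R := R) (K := K) (N := N) hr hπ
  have h1 : e2 K N r ((jr K N r - J1 K (N * r) ^ r) / algebraMap R (FK K (N * r)) π) ∈
      gaussSub R K (N * r * r) := by
    rw [mem_gaussSub_iff, coe_e2]
    exact qExpand_mem_LamR r h
  rw [map_div₀, map_sub, map_pow, e2_jr, e2_J1, IsScalarTower.algebraMap_apply R K (FK K (N * r)),
    AlgHom.commutes, ← IsScalarTower.algebraMap_apply R K (FK K (N * r * r))] at h1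
  have h2 : Jgen K (N * r * r) ⟨r, (dvd_mul_left r N).mul_right r⟩ = vJ1 K N r :=
    Jgen_ext K (one_mul r).symm
  rw [h2] at h1
  rw [vJ2_eq_jrr]
  exact h1

/-- `j(q^(r^2)) = j(q)^(r^2)` modulo `π W_VF` -/
theorem v2r_vJ2_sub' (hr : r.Prime) {π : R} (hπ : Irreducible π) :
    (vJ2 K N r - i12 K N r (J1 K (N * r) ^ (r * r))) / algebraMap R (FK K (N * r * r)) π ∈
      WVF R K N r := by
  refine v2r_trans _ (v2r_vJ2_sub hr hπ) ?_
  rw [map_pow, i12_J1, pow_mul]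
  exact v2r_pow_congr _ (Jgen_mem_gaussSub _) (pow_mem (Jgen_mem_gaussSub _) r)
    (v2r_vJ1_sub hr hπ) r

/-- **`W_VF | V_F` has `f = 1`** (`happ` = the weak approximation clause) -/
theorem VCore.vf_res {hr : r.Prime} {hrN : ¬ r ∣ N} {π : R}
    {W : ValuationSubring (FK K (N * r * r))} (D : VCore hr hrN π W)
    (hN : (N : IsLocalRing.ResidueField R) ≠ 0) (hπ : Irreducible π)
    (z : FK K (N * r * r)) (hz : z ∈ WVF R K N r)
    (happ : ∃ G : FK K (N * r * r),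
      (G - z) / algebraMap R (FK K (N * r * r)) π ∈ WVF R K N r ∧ G ∈ W) :
    ∃ c ∈ VF1 R K N r, (z - i12 K N r c) / algebraMap R (FK K (N * r * r)) π ∈ WVF R K N r := by
  obtain ⟨G, hG1, hG2⟩ := happ
  have hπ0 : algebraMap R (FK K (N * r * r)) π ≠ 0 := by
    rw [IsScalarTower.algebraMap_apply R K (FK K (N * r * r))]
    simpa using hπ.ne_zero
  have hG : G ∈ WVF R K N r := by
    have : G = z + algebraMap R (FK K (N * r * r)) π *
        ((G - z) / algebraMap R (FK K (N * r * r)) π) := by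
      field_simp
      ring
    rw [this]
    exact add_mem hz (mul_mem (v2r_algebraMap_mem_WVF π) hG1)
  have hzG : (z - G) / algebraMap R (FK K (N * r * r)) π ∈ WVF R K N r := by
    have h3 := (WVF R K N r).neg_mem _ hG1
    rwa [← neg_div, neg_sub] at h3
  obtain ⟨c, rfl⟩ := v1_span R hr hrN hN G
  have hc := D.basis_F c hG hG2
  refine ⟨∑ i, c i * (J1 K (N * r) ^ (r * r)) ^ (i : ℕ),
    sum_mem fun i _ => mul_mem (hc i) (pow_mem (pow_mem (Jgen_mem_gaussSub _) _) _), ?_⟩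
  refine v2r_trans _ hzG ?_
  rw [map_sum]
  refine v2r_sum_congr _ _ _ _ fun i _ => ?_
  rw [map_mul, map_pow]
  exact v2r_mul_congr _ (v2r_i12_mem_WVF (hc i))
    (v2r_pow_congr _ vJ2_mem_WVF (v2r_i12_mem_WVF (pow_mem (Jgen_mem_gaussSub _) _))
      (v2r_vJ2_sub' hr hπ) i)

end

end Fermat.Agent.CARlib
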