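import Fermat.Agent.CAR.C2V
import Fermat.Agent.CAR.V2DV
import Fermat.Agent.CAR.V2Res
import Fermat.Agent.CAR.B7Conc

/-!
# T-CAR, block C, row C3Inst: the valuation inputs of `c3_mid` from `VCore`
-/

set_option autoImplicit false
set_option linter.unusedSectionVars false
set_option linter.unusedVariables false

open ModularCurve Polynomial

namespace Fermat.Agent.CARlib

open Fermat.Agent.ESlib Fermat.Agent.UNIlib

section conc

variable {R K : Type} [CommRing R] [IsDomain R] [IsDiscreteValuationRing R] [Field K]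
  [Algebra R K] [IsFractionRing R K] [Algebra ℚ K] [CharZero K] [Algebra K ℂ] [IsScalarTower ℚ K ℂ]
  {N r : ℕ} [NeZero N] [NeZero r] [NeZero (N * r)] [NeZero (N * r * r)]
  [Algebra R (FK K N)] [IsScalarTower R K (FK K N)]
  [Algebra R (FK K (N * r))] [IsScalarTower R K (FK K (N * r))]
  [Algebra R (FK K (N * r * r))] [IsScalarTower R K (FK K (N * r * r))]
  [CharP (IsLocalRing.ResidueField R) r]

theorem c3i_vJ0_ne_zero : vJ0 K N r ≠ 0 := b7_Jgen_ne_zero _ _

theorem c3i_vJ1_ne_zero : vJ1 K N r ≠ 0 := b7_Jgen_ne_zero _ _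

theorem c3i_vJ2_ne_zero : vJ2 K N r ≠ 0 := b7_Jgen_ne_zero _ _

theorem c3i_vJ2_ne_vJ0 {hr : r.Prime} {hrN : ¬ r ∣ N} {π : R}
    {W : ValuationSubring (FK K (N * r * r))} (D : VCore hr hrN π W) :
    vJ2 K N r ≠ vJ0 K N r := fun h => D.vY_ne_zero (sub_eq_zero.2 h)

theorem c3i_vJ0_mem {hr : r.Prime} {hrN : ¬ r ∣ N} {π : R}
    {W : ValuationSubring (FK K (N * r * r))} (D : VCore hr hrN π W) : vJ0 K N r ∈ W := by
  rw [← i12_J1]
  exact (D.vv_incl _).2 (Jgen_mem_gaussSub _)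

theorem c3i_vJ0_inv_mem {hr : r.Prime} {hrN : ¬ r ∣ N} {π : R}
    {W : ValuationSubring (FK K (N * r * r))} (D : VCore hr hrN π W) : (vJ0 K N r)⁻¹ ∈ W := by
  rw [← i12_J1, ← map_inv₀]
  exact (D.vv_incl _).2 (b7_inv_Jgen_mem (R := R) (N * r) _)

theorem c3i_val_w2 {hr : r.Prime} {hrN : ¬ r ∣ N} {π : R}
    {W : ValuationSubring (FK K (N * r * r))} (D : VCore hr hrN π W) (x : FK K (N * r * r)) :
    W.valuation (w2 K hr hrN x) < 1 ↔ W.valuation x < 1 := by
  rw [C.val_lt_one_iff, C.val_lt_one_iff, ← map_inv₀, D.vv_w2, map_eq_zero_iff _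
    (w2 K hr hrN).injective]

theorem c3i_val_pi {hr : r.Prime} {hrN : ¬ r ∣ N} {π : R}
    {W : ValuationSubring (FK K (N * r * r))} (D : VCore hr hrN π W) (hπ : Irreducible π) :
    W.valuation (algebraMap R (FK K (N * r * r)) π) < 1 := by
  rw [C.val_lt_one_iff]
  exact Or.inr (D.unif_inv_not_mem hπ)

theorem c3i_val_mul_lt {F : Type*} [Field F] (W : ValuationSubring F) {x y : F}
    (hx : W.valuation x < 1) (hy : y ∈ W) : W.valuation (x * y) < 1 := by
  rw [map_mul]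
  calc W.valuation x * W.valuation y ≤ W.valuation x * 1 :=
        mul_le_mul_right ((W.valuation_le_one_iff _).2 hy) _
    _ < 1 := by rwa [mul_one]

/-- (i) `j(q^r) / j(q)^r = 1` on the middle component -/
theorem c3i_psi1 {hr : r.Prime} {hrN : ¬ r ∣ N} {π : R}
    {W : ValuationSubring (FK K (N * r * r))} (D : VCore hr hrN π W) (hπ : Irreducible π) :
    W.valuation (vJ1 K N r / vJ0 K N r ^ r - 1) < 1 := by
  have h := (D.vv_incl _).2 (tv_jr_sub (R := R) (K := K) (N := N) hr hπ)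
  rw [map_div₀, map_sub, map_pow, i12_J1, v2_i12_algebraMap] at h
  have h2 : i12 K N r (jr K N r) = vJ1 K N r := by
    rw [inclF_Jgen]
    exact Jgen_ext K (one_mul r).symm
  rw [h2] at h
  have hπ0 : algebraMap R (FK K (N * r * r)) π ≠ 0 := tv_unif_ne_zero (N * r * r) hπ
  have h0 : vJ0 K N r ≠ 0 := c3i_vJ0_ne_zero
  have : vJ1 K N r / vJ0 K N r ^ r - 1 = algebraMap R (FK K (N * r * r)) π *
      ((vJ1 K N r - vJ0 K N r ^ r) / algebraMap R (FK K (N * r * r)) π *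
        (vJ0 K N r)⁻¹ ^ r) := by
    rw [inv_pow]
    field_simp
  rw [this]
  exact c3i_val_mul_lt W (c3i_val_pi D hπ) (W.mul_mem _ _ h (pow_mem (c3i_vJ0_inv_mem D) r))

/-- (ii) `j(q^r) / j(q^(r^2))^r = 1` on the middle component -/
theorem c3i_psi2 {hr : r.Prime} {hrN : ¬ r ∣ N} {π : R}
    {W : ValuationSubring (FK K (N * r * r))} (D : VCore hr hrN π W) (hπ : Irreducible π) :
    W.valuation (vJ1 K N r / vJ2 K N r ^ r - 1) < 1 := by
  have h := (c3i_val_w2 D _).2 (c3i_psi1 D hπ)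
  rw [map_sub, map_div₀, map_pow, map_one, v1_w2_vJ0] at h
  have h1 : w2 K hr hrN (vJ1 K N r) = vJ1 K N r := w2_Jgen_one K hr hrN (one_dvd N)
  rwa [h1] at h

/-- (iii) -/
theorem c3i_lt {hr : r.Prime} {hrN : ¬ r ∣ N} {π : R}
    {W : ValuationSubring (FK K (N * r * r))} (D : VCore hr hrN π W) :
    W.valuation (vJ2 K N r / vJ0 K N r - 1) < 1 := by
  have h0 : vJ0 K N r ≠ 0 := c3i_vJ0_ne_zero
  have : vJ2 K N r / vJ0 K N r - 1 = vY K N r * (vJ0 K N r)⁻¹ := by
    field_simp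
  rw [this]
  exact c3i_val_mul_lt W (c2v_val_vY D) (c3i_vJ0_inv_mem D)

/-- (iv) -/
theorem c3i_unif {hr : r.Prime} {hrN : ¬ r ∣ N} {π : R}
    {W : ValuationSubring (FK K (N * r * r))} (D : VCore hr hrN π W) (x : FK K (N * r * r))
    (hx : W.valuation x < 1) : x / (vJ2 K N r / vJ0 K N r - 1) ∈ W := by
  have h0 : vJ0 K N r ≠ 0 := c3i_vJ0_ne_zero
  have hy0 : vJ2 K N r - vJ0 K N r ≠ 0 := D.vY_ne_zero
  have : x / (vJ2 K N r / vJ0 K N r - 1) = x / vY K N r * vJ0 K N r := by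
    have h1 : vJ2 K N r / vJ0 K N r - 1 = vY K N r / vJ0 K N r := by
      field_simp
    rw [h1]
    field_simp
  rw [this]
  exact W.mul_mem _ _ (c2v_unif D x hx) (c3i_vJ0_mem D)

end conc

end Fermat.Agent.CARlib
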