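import Fermat.Agent.CAR.CDefs

/-!
# T-CAR, block C: the local ring `cLoc 𝔫 = B_𝔫 ⊆ F` as a subring of the field, and `cMid_of_loc`
-/

set_option autoImplicit false

open IsLocalRing Polynomial

namespace Fermat.Agent.CARlib.C

section loc

variable {B F : Type*} [CommRing B] [Field F] [Algebra B F]

variable (F) in
/-- the local ring of `B` at the prime `𝔫`, inside `F` -/
def cLoc (𝔫 : Ideal B) [h𝔫 : 𝔫.IsPrime] : Subring F where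
  carrier := {x | ∃ s : B, s ∉ 𝔫 ∧ ∃ b : B, algebraMap B F s * x = algebraMap B F b}
  mul_mem' := by
    rintro x x' ⟨s, hs, b, hb⟩ ⟨s', hs', b', hb'⟩
    refine ⟨s * s', fun h => (h𝔫.mem_or_mem h).elim hs hs', b * b', ?_⟩
    rw [map_mul, map_mul, ← hb, ← hb']; ring
  one_mem' := ⟨1, (Ideal.ne_top_iff_one _).1 h𝔫.ne_top, 1, by simp⟩
  add_mem' := by
    rintro x x' ⟨s, hs, b, hb⟩ ⟨s', hs', b', hb'⟩
    refine ⟨s * s', fun h => (h𝔫.mem_or_mem h).elim hs hs', s' * b + s * b', ?_⟩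
    rw [map_mul, map_add, map_mul, map_mul, ← hb, ← hb']; ring
  zero_mem' := ⟨1, (Ideal.ne_top_iff_one _).1 h𝔫.ne_top, 0, by simp⟩
  neg_mem' := by
    rintro x ⟨s, hs, b, hb⟩
    exact ⟨s, hs, -b, by rw [map_neg, ← hb]; ring⟩

variable (F) in
/-- the maximal ideal of `cLoc 𝔫`, as an additive subgroup of `F` -/
def cLocM (𝔫 : Ideal B) [h𝔫 : 𝔫.IsPrime] : AddSubgroup F where
  carrier := {x | ∃ s : B, s ∉ 𝔫 ∧ ∃ b ∈ 𝔫, algebraMap B F s * x = algebraMap B F b}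
  add_mem' := by
    rintro x x' ⟨s, hs, b, hb𝔫, hb⟩ ⟨s', hs', b', hb𝔫', hb'⟩
    refine ⟨s * s', fun h => (h𝔫.mem_or_mem h).elim hs hs', s' * b + s * b',
      𝔫.add_mem (𝔫.mul_mem_left _ hb𝔫) (𝔫.mul_mem_left _ hb𝔫'), ?_⟩
    rw [map_mul, map_add, map_mul, map_mul, ← hb, ← hb']; ring
  zero_mem' := ⟨1, (Ideal.ne_top_iff_one _).1 h𝔫.ne_top, 0, 𝔫.zero_mem, by simp⟩
  neg_mem' := by
    rintro x ⟨s, hs, b, hb𝔫, hb⟩
    exact ⟨s, hs, -b, 𝔫.neg_mem hb𝔫, by rw [map_neg, ← hb]; ring⟩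

variable {𝔫 : Ideal B} [h𝔫 : 𝔫.IsPrime]

theorem mem_cLoc {x : F} :
    x ∈ cLoc F 𝔫 ↔ ∃ s : B, s ∉ 𝔫 ∧ ∃ b : B, algebraMap B F s * x = algebraMap B F b := Iff.rfl

theorem mem_cLocM {x : F} :
    x ∈ cLocM F 𝔫 ↔ ∃ s : B, s ∉ 𝔫 ∧ ∃ b ∈ 𝔫, algebraMap B F s * x = algebraMap B F b := Iff.rfl

theorem algebraMap_mem_cLoc (b : B) : algebraMap B F b ∈ cLoc F 𝔫 :=
  ⟨1, (Ideal.ne_top_iff_one _).1 h𝔫.ne_top, b, by simp⟩

theorem algebraMap_mem_cLocM {b : B} (hb : b ∈ 𝔫) : algebraMap B F b ∈ cLocM F 𝔫 :=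
  ⟨1, (Ideal.ne_top_iff_one _).1 h𝔫.ne_top, b, hb, by simp⟩

theorem cLocM_le_cLoc {x : F} (hx : x ∈ cLocM F 𝔫) : x ∈ cLoc F 𝔫 := by
  obtain ⟨s, hs, b, _, hb⟩ := hx
  exact ⟨s, hs, b, hb⟩

theorem mul_mem_cLocM {x y : F} (hx : x ∈ cLoc F 𝔫) (hy : y ∈ cLocM F 𝔫) : x * y ∈ cLocM F 𝔫 := by
  obtain ⟨s, hs, b, hb⟩ := hx
  obtain ⟨s', hs', b', hb𝔫', hb'⟩ := hy
  refine ⟨s * s', fun h => (h𝔫.mem_or_mem h).elim hs hs', b * b', 𝔫.mul_mem_left _ hb𝔫', ?_⟩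
  rw [map_mul, map_mul, ← hb, ← hb']; ring

theorem one_not_mem_cLocM (hinj : Function.Injective (algebraMap B F)) :
    (1 : F) ∉ cLocM F 𝔫 := by
  rintro ⟨s, hs, b, hb𝔫, hb⟩
  rw [mul_one] at hb
  exact hs (hinj hb ▸ hb𝔫)

/-- `cLoc 𝔫` is local with maximal ideal `cLocM 𝔫` -/
theorem inv_mem_cLoc {x : F} (hx : x ∈ cLoc F 𝔫) (hx' : x ∉ cLocM F 𝔫) : x⁻¹ ∈ cLoc F 𝔫 := by
  obtain ⟨s, hs, b, hb⟩ := hx
  have hb𝔫 : b ∉ 𝔫 := fun h => hx' ⟨s, hs, b, h, hb⟩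
  have hx0 : x ≠ 0 := fun h => hx' (h ▸ (cLocM F 𝔫).zero_mem)
  refine ⟨b, hb𝔫, s, ?_⟩
  rw [← hb, mul_assoc, mul_inv_cancel₀ hx0, mul_one]

/-- `x ≡ u mod 𝔪` with `u` a unit `⇒` `x` is a unit -/
theorem inv_mem_cLoc_of_sub {x u : F} (hu : u ∈ cLoc F 𝔫) (hu' : u ∉ cLocM F 𝔫)
    (hx : x - u ∈ cLocM F 𝔫) : x⁻¹ ∈ cLoc F 𝔫 := by
  apply inv_mem_cLoc
  · have := (cLoc F 𝔫).add_mem (cLocM_le_cLoc hx) hu
    rwa [sub_add_cancel] at this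
  · intro h
    apply hu'
    have := (cLocM F 𝔫).sub_mem h hx
    rwa [sub_sub_cancel] at this

theorem neg_one_not_mem_cLocM (hinj : Function.Injective (algebraMap B F)) :
    (-1 : F) ∉ cLocM F 𝔫 := fun h =>
  one_not_mem_cLocM hinj (by simpa using (cLocM F 𝔫).neg_mem h)

/-- common denominators -/
theorem exists_common_cLoc {ι : Type*} (S : Finset ι) (f : ι → F) (hf : ∀ i ∈ S, f i ∈ cLoc F 𝔫) :
    ∃ s : B, s ∉ 𝔫 ∧ ∀ i ∈ S, ∃ b : B, algebraMap B F s * f i = algebraMap B F b := by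
  classical
  induction S using Finset.induction_on with
  | empty => exact ⟨1, (Ideal.ne_top_iff_one _).1 h𝔫.ne_top, by simp⟩
  | insert a S ha ih =>
    obtain ⟨s, hs, h⟩ := ih fun i hi => hf i (Finset.mem_insert_of_mem hi)
    obtain ⟨s', hs', b', hb'⟩ := hf a (Finset.mem_insert_self _ _)
    refine ⟨s * s', fun h => (h𝔫.mem_or_mem h).elim hs hs', fun i hi => ?_⟩
    rcases Finset.mem_insert.1 hi with rfl | hi
    · exact ⟨s * b', by rw [map_mul, map_mul, ← hb']; ring⟩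
    · obtain ⟨b, hb⟩ := h i hi
      exact ⟨s' * b, by rw [map_mul, map_mul, ← hb]; ring⟩

/-- `cLoc 𝔫` is integrally closed in `F` if `B` is -/
theorem mem_cLoc_of_monic (hcl : ∀ x : F, IsIntegral B x → ∃ b : B, algebraMap B F b = x)
    {x : F} (p : F[X]) (hp : p.Monic) (hc : ∀ i, p.coeff i ∈ cLoc F 𝔫) (hx : p.eval x = 0) :
    x ∈ cLoc F 𝔫 := by
  obtain ⟨s, hs, h⟩ := exists_common_cLoc (Finset.range p.natDegree) p.coeff fun i _ => hc i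
  have hlift : p.scaleRoots (algebraMap B F s) ∈ lifts (algebraMap B F) := by
    rw [lifts_iff_coeff_lifts]
    intro i
    rw [coeff_scaleRoots]
    rcases lt_trichotomy i p.natDegree with hi | hi | hi
    · obtain ⟨m, hm⟩ : ∃ m, p.natDegree - i = m + 1 := ⟨p.natDegree - i - 1, by omega⟩
      obtain ⟨b, hb⟩ := h i (Finset.mem_range.2 hi)
      refine ⟨s ^ m * b, ?_⟩
      rw [hm, pow_succ, map_mul, map_pow, ← hb]; ring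
    · rw [hi, Nat.sub_self, pow_zero, mul_one, hp.coeff_natDegree]
      exact ⟨1, map_one _⟩
    · rw [coeff_eq_zero_of_natDegree_lt hi, zero_mul]
      exact ⟨0, map_zero _⟩
  obtain ⟨P, hP, _, hPm⟩ := lifts_and_natDegree_eq_and_monic hlift
    ((monic_scaleRoots_iff _).2 hp)
  have hint : IsIntegral B (algebraMap B F s * x) := by
    refine ⟨P, hPm, ?_⟩
    rw [← eval_map, hP, scaleRoots_eval_mul, hx, mul_zero]
  obtain ⟨b, hb⟩ := hcl _ hint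
  exact ⟨s, hs, b, hb.symm⟩

end loc

section map

variable {B₁ B₂ F₁ F₂ : Type*} [CommRing B₁] [CommRing B₂] [Field F₁] [Field F₂]
  [Algebra B₁ F₁] [Algebra B₂ F₂] {E : B₁ →+* B₂} {e : F₁ →+* F₂}

theorem map_mem_cLoc (hE : ∀ b, algebraMap B₂ F₂ (E b) = e (algebraMap B₁ F₁ b))
    (𝔫 : Ideal B₂) [𝔫.IsPrime] {x : F₁} (hx : x ∈ cLoc F₁ (𝔫.comap E)) : e x ∈ cLoc F₂ 𝔫 := by
  obtain ⟨s, hs, b, hb⟩ := hx
  exact ⟨E s, hs, E b, by rw [hE, hE, ← hb, map_mul]⟩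

theorem map_mem_cLocM (hE : ∀ b, algebraMap B₂ F₂ (E b) = e (algebraMap B₁ F₁ b))
    (𝔫 : Ideal B₂) [𝔫.IsPrime] {x : F₁} (hx : x ∈ cLocM F₁ (𝔫.comap E)) : e x ∈ cLocM F₂ 𝔫 := by
  obtain ⟨s, hs, b, hb𝔫, hb⟩ := hx
  exact ⟨E s, hs, E b, hb𝔫, by rw [hE, hE, ← hb, map_mul]⟩

end map

/-- **from the local ring to `CMid`**: `π u = y' h'`, `y', h', u⁻¹ ∈ B_𝔫`, `y'` a uniformiser of
`W_VV` -/
theorem cMid_of_loc {B₂ F₂ : Type*} [CommRing B₂] [Field F₂] [Algebra B₂ F₂] {π₂ : B₂}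
    {WVV : ValuationSubring F₂} {PVV : Ideal B₂} (hinj : Function.Injective (algebraMap B₂ F₂))
    (hsub : ∀ b : B₂, algebraMap B₂ F₂ b ∈ WVV)
    (hmem : ∀ b : B₂, b ∈ PVV ↔ WVV.valuation (algebraMap B₂ F₂ b) < 1)
    (𝔫 : Ideal B₂) [h𝔫 : 𝔫.IsPrime] (hP : PVV ≤ 𝔫) {y' h' u : F₂} (hy' : y' ∈ cLoc F₂ 𝔫)
    (hh' : h' ∈ cLoc F₂ 𝔫) (hu0 : u ≠ 0) (hu : u⁻¹ ∈ cLoc F₂ 𝔫)
    (h : algebraMap B₂ F₂ π₂ * u = y' * h') (hlt : WVV.valuation y' < 1)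
    (hunif : ∀ x : F₂, WVV.valuation x < 1 → x / y' ∈ WVV) : CMid π₂ WVV 𝔫 := by
  obtain ⟨s₁, hs₁, y, hy⟩ := hy'
  obtain ⟨s₂, hs₂, k, hk⟩ := hh'
  obtain ⟨s₃, hs₃, d, hd⟩ := hu
  set ι := algebraMap B₂ F₂ with hι
  have hs₁0 : ι s₁ ≠ 0 := by
    intro h0
    apply hs₁
    have : s₁ = 0 := hinj (by rw [h0, map_zero])
    rw [this]; exact 𝔫.zero_mem
  refine ⟨y, k * d, s₁ * s₂ * s₃, ?_, ?_, ?_, ?_⟩
  · intro hm
    rcases h𝔫.mem_or_mem hm with hm | hm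
    · exact (h𝔫.mem_or_mem hm).elim hs₁ hs₂
    · exact hs₃ hm
  · apply hinj
    show ι _ = ι _
    have hs₃' : ι s₃ = ι d * u := by
      rw [← hd, mul_assoc, inv_mul_cancel₀ hu0, mul_one]
    simp only [map_mul]
    rw [← hy, ← hk, hs₃']
    calc ι π₂ * (ι s₁ * ι s₂ * (ι d * u)) = ι s₁ * ι s₂ * ι d * (ι π₂ * u) := by ring
      _ = ι s₁ * ι s₂ * ι d * (y' * h') := by rw [h]
      _ = _ := by ring
  · rw [← hy, map_mul]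
    calc WVV.valuation (ι s₁) * WVV.valuation y' ≤ 1 * WVV.valuation y' :=
          mul_le_mul_left ((WVV.valuation_le_one_iff _).2 (hsub s₁)) _
      _ < 1 := by rwa [one_mul]
  · intro x hx
    have h1 := hunif x hx
    have h2 : (ι s₁)⁻¹ ∈ WVV := inv_mem_of_not_mem hmem fun hm => hs₁ (hP hm)
    have : x / ι y = x / y' * (ι s₁)⁻¹ := by
      rw [← hy]; field_simp
    rw [this]
    exact WVV.mul_mem _ _ h1 h2

end Fermat.Agent.CARlib.C
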