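import Fermat.Agent.CAR.C3Alg
import Fermat.Agent.CAR.CLoc

/-!
# T-CAR, block C, row C3: `CMid` at a cuspidal middle point
-/

set_option autoImplicit false

open Polynomial

namespace Fermat.Agent.CARlib

open Fermat.Agent.UNIlib (PhiShape evZ evZ_eq_sum)
open Fermat.Agent.CARlib.C

section int

variable {B F : Type*} [CommRing B] [Field F] [Algebra B F] {𝔫 : Ideal B} [h𝔫 : 𝔫.IsPrime]

/-- integrality in equational form -/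
theorem c3_mem_cLoc_of_eq (hcl : ∀ x : F, IsIntegral B x → ∃ b : B, algebraMap B F b = x)
    {x : F} (n N : ℕ) (a : ℕ → F) (e : ℕ → ℕ) (ha : ∀ k ∈ Finset.range N, a k ∈ cLoc F 𝔫)
    (he : ∀ k ∈ Finset.range N, e k < n)
    (h : x ^ n + ∑ k ∈ Finset.range N, a k * x ^ e k = 0) : x ∈ cLoc F 𝔫 := by
  refine mem_cLoc_of_monic hcl (X ^ n + ∑ k ∈ Finset.range N, C (a k) * X ^ e k) ?_ ?_ ?_
  · apply monic_X_pow_add
    refine lt_of_le_of_lt (degree_sum_le _ _) ?_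
    rw [Finset.sup_lt_iff (WithBot.bot_lt_coe _)]
    intro k hk
    exact lt_of_le_of_lt (degree_C_mul_X_pow_le _ _) (by exact_mod_cast he k hk)
  · intro i
    rw [coeff_add, coeff_X_pow, finsetSum_coeff]
    refine (cLoc F 𝔫).add_mem ?_ (Subring.sum_mem _ fun k hk => ?_)
    · split_ifs
      · exact (cLoc F 𝔫).one_mem
      · exact (cLoc F 𝔫).zero_mem
    · rw [coeff_C_mul, coeff_X_pow]
      split_ifs
      · rw [mul_one]; exact ha k hk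
      · rw [mul_zero]; exact (cLoc F 𝔫).zero_mem
  · rw [eval_add, eval_pow, eval_X, eval_finsetSum, ← h]
    simp only [eval_mul, eval_C, eval_pow, eval_X]

theorem c3_aeval_mem (O : Subring F) {Y : F} (hY : Y ∈ O) (g : ℤ[X]) : aeval Y g ∈ O := by
  rw [aeval_eq_sum_range]
  refine Subring.sum_mem _ fun k _ => ?_
  rw [zsmul_eq_mul]
  exact O.mul_mem (intCast_mem O _) (O.pow_mem hY _)

/-- `g(Y) / Y ^ n ∈ ℤ[1 / Y]` -/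
theorem c3_aeval_div_mem (O : Subring F) {Y : F} (hY : Y ≠ 0) (hJ : Y⁻¹ ∈ O) (g : ℤ[X]) {n : ℕ}
    (hn : g.natDegree ≤ n) : aeval Y g / Y ^ n ∈ O := by
  rw [aeval_eq_sum_range, Finset.sum_div]
  refine Subring.sum_mem _ fun k hk => ?_
  have hk' : k ≤ n := by have := Finset.mem_range.1 hk; omega
  obtain ⟨d, rfl⟩ : ∃ d, n = k + d := ⟨n - k, by omega⟩
  have : (g.coeff k) • Y ^ k / Y ^ (k + d) = ((g.coeff k : ℤ) : F) * Y⁻¹ ^ d := by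
    rw [zsmul_eq_mul, pow_add, inv_pow]; field_simp
  rw [this]
  exact O.mul_mem (intCast_mem O _) (O.pow_mem hJ _)

/-- `g(Y) / Y ^ n` as a polynomial in `1 / Y` -/
theorem c3_aeval_div_eq {Y : F} (hY : Y ≠ 0) (g : ℤ[X]) {n : ℕ} (hn : g.natDegree ≤ n) :
    aeval Y g / Y ^ n = ∑ k ∈ Finset.range (n + 1), ((g.coeff k : ℤ) : F) * Y⁻¹ ^ (n - k) := by
  rw [aeval_eq_sum_range' (Nat.lt_succ_of_le hn), Finset.sum_div]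
  refine Finset.sum_congr rfl fun k hk => ?_
  have hk' : k ≤ n := by have := Finset.mem_range.1 hk; omega
  obtain ⟨d, rfl⟩ : ∃ d, n = k + d := ⟨n - k, by omega⟩
  rw [zsmul_eq_mul, pow_add, inv_pow, Nat.add_sub_cancel_left]; field_simp

end int

section steps

variable {B F : Type*} [CommRing B] [Field F] [Algebra B F] {𝔫 : Ideal B} [h𝔫 : 𝔫.IsPrime]
  {r : ℕ} {Φ : ℤ[X][X]}

theorem c3_deg_le (hΦ : PhiShape r Φ) (i : ℕ) : (Φ.coeff i).natDegree ≤ r + 1 := by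
  rcases Nat.eq_zero_or_pos i with rfl | hi
  · exact hΦ.deg0
  · exact (hΦ.deg i hi).trans (Nat.le_succ r)

theorem c3_evZ_sum (hΦ : PhiShape r Φ) (x y : F) :
    evZ Φ x y = ∑ i ∈ Finset.range (r + 2), aeval y (Φ.coeff i) * x ^ i := by
  rw [evZ, eval₂_eq_sum_range, hΦ.natDegree]; rfl

/-- (S1a) `1 / X ∈ 𝔪`, `Φ(X, Y) = 0` `⇒` `1 / Y ∈ O` -/
theorem c3_inv_mem_cLoc (hinj : Function.Injective (algebraMap B F))
    (hcl : ∀ x : F, IsIntegral B x → ∃ b : B, algebraMap B F b = x) (hΦ : PhiShape r Φ)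
    {Xm Y : F} (hX : Xm ≠ 0) (hY : Y ≠ 0) (hc : Xm⁻¹ ∈ cLocM F 𝔫) (h : evZ Φ Xm Y = 0) :
    Y⁻¹ ∈ cLoc F 𝔫 := by
  set O := cLoc F 𝔫 with hO
  set γ : ℕ → F := fun k => ∑ i ∈ Finset.range (r + 2),
    (((Φ.coeff i).coeff k : ℤ) : F) * Xm⁻¹ ^ (r + 1 - i) with hγ
  have hγO : ∀ k, γ k ∈ O := fun k => Subring.sum_mem _ fun i _ =>
    O.mul_mem (intCast_mem O _) (O.pow_mem (cLocM_le_cLoc hc) _)
  have hγ0 : γ 0 - 1 ∈ cLocM F 𝔫 := by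
    have : γ 0 - 1 = ∑ i ∈ Finset.range (r + 1),
        (((Φ.coeff i).coeff 0 : ℤ) : F) * Xm⁻¹ ^ (r + 1 - i) := by
      simp only [hγ]
      rw [Finset.sum_range_succ]
      have : Φ.coeff (r + 1) = 1 := by rw [← hΦ.natDegree]; exact hΦ.monic.coeff_natDegree
      rw [this]; simp
    rw [this]
    refine AddSubgroup.sum_mem _ fun i hi => ?_
    obtain ⟨d, hd⟩ : ∃ d, r + 1 - i = d + 1 := ⟨r - i, by have := Finset.mem_range.1 hi; omega⟩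
    rw [hd, pow_succ, ← mul_assoc]
    exact mul_mem_cLocM (O.mul_mem (intCast_mem O _) (O.pow_mem (cLocM_le_cLoc hc) _)) hc
  have hγ0' : (γ 0)⁻¹ ∈ O := inv_mem_cLoc_of_sub O.one_mem (one_not_mem_cLocM hinj) hγ0
  have hγ0ne : γ 0 ≠ 0 := by
    intro h0
    rw [h0, zero_sub] at hγ0
    exact neg_one_not_mem_cLocM hinj hγ0
  have key : ∑ k ∈ Finset.range (r + 2), γ k * Y⁻¹ ^ (r + 1 - k) = 0 := by
    have h1 : evZ Φ Xm Y / (Xm ^ (r + 1) * Y ^ (r + 1)) =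
        ∑ k ∈ Finset.range (r + 2), γ k * Y⁻¹ ^ (r + 1 - k) := by
      rw [c3_evZ_sum hΦ, Finset.sum_div]
      simp only [hγ, Finset.sum_mul]
      rw [Finset.sum_comm]
      refine Finset.sum_congr rfl fun i hi => ?_
      have : aeval Y (Φ.coeff i) * Xm ^ i / (Xm ^ (r + 1) * Y ^ (r + 1)) =
          (aeval Y (Φ.coeff i) / Y ^ (r + 1)) * Xm⁻¹ ^ (r + 1 - i) := by
        obtain ⟨d, hd⟩ : ∃ d, r + 1 = i + d := ⟨r + 1 - i, by have := Finset.mem_range.1 hi; omega⟩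
        rw [hd, Nat.add_sub_cancel_left, pow_add Xm, inv_pow]
        field_simp
      rw [this, c3_aeval_div_eq hY _ (c3_deg_le hΦ i), Finset.sum_mul]
      refine Finset.sum_congr rfl fun k _ => by ring
    rw [← h1, h, zero_div]
  rw [Finset.sum_range_succ'] at key
  refine c3_mem_cLoc_of_eq hcl (r + 1) (r + 1) (fun k => (γ 0)⁻¹ * γ (k + 1))
    (fun k => r + 1 - (k + 1)) (fun k _ => O.mul_mem hγ0' (hγO _)) (fun k _ => by omega) ?_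
  have : Y⁻¹ ^ (r + 1) + ∑ k ∈ Finset.range (r + 1), (γ 0)⁻¹ * γ (k + 1) * Y⁻¹ ^ (r + 1 - (k + 1)) =
      (γ 0)⁻¹ * (∑ k ∈ Finset.range (r + 1), γ (k + 1) * Y⁻¹ ^ (r + 1 - (k + 1)) +
        γ 0 * Y⁻¹ ^ (r + 1 - 0)) := by
    rw [mul_add, Finset.mul_sum, Nat.sub_zero, ← mul_assoc, inv_mul_cancel₀ hγ0ne, one_mul, add_comm]
    congr 1
    refine Finset.sum_congr rfl fun k _ => by ring
  rw [this, key, mul_zero]

/-- integrality of `X` over `ℤ[Y]` -/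
theorem c3_mem_of_mem (hcl : ∀ x : F, IsIntegral B x → ∃ b : B, algebraMap B F b = x)
    (hΦ : PhiShape r Φ) {Xm Y : F} (hY : Y ∈ cLoc F 𝔫) (h : evZ Φ Xm Y = 0) : Xm ∈ cLoc F 𝔫 := by
  rw [evZ_eq_sum hΦ] at h
  exact c3_mem_cLoc_of_eq hcl (r + 1) (r + 1) (fun i => aeval Y (Φ.coeff i)) (fun i => i)
    (fun i _ => c3_aeval_mem _ hY _) (fun i hi => Finset.mem_range.1 hi) h

/-- (S1b) `1 / X ∈ 𝔪`, `Φ(X, Y) = 0` `⇒` `1 / Y ∈ 𝔪` -/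
theorem c3_inv_mem_cLocM (hinj : Function.Injective (algebraMap B F))
    (hcl : ∀ x : F, IsIntegral B x → ∃ b : B, algebraMap B F b = x) (hΦ : PhiShape r Φ)
    {Xm Y : F} (hX : Xm ≠ 0) (hY : Y ≠ 0) (hc : Xm⁻¹ ∈ cLocM F 𝔫) (h : evZ Φ Xm Y = 0) :
    Y⁻¹ ∈ cLocM F 𝔫 := by
  by_contra hn
  have h1 := inv_mem_cLoc (c3_inv_mem_cLoc hinj hcl hΦ hX hY hc h) hn
  rw [inv_inv] at h1
  have h2 := mul_mem_cLocM (c3_mem_of_mem hcl hΦ h1 h) hc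
  rw [mul_inv_cancel₀ hX] at h2
  exact one_not_mem_cLocM hinj h2

/-- (S2) `ψ = X / Y ^ r ∈ O` -/
theorem c3_psi_mem (hcl : ∀ x : F, IsIntegral B x → ∃ b : B, algebraMap B F b = x)
    (hΦ : PhiShape r Φ) (hr : 1 ≤ r) {Xm Y : F} (hY : Y ≠ 0) (hJ : Y⁻¹ ∈ cLoc F 𝔫)
    (h : evZ Φ Xm Y = 0) : Xm / Y ^ r ∈ cLoc F 𝔫 := by
  rw [evZ_eq_sum hΦ] at h
  refine c3_mem_cLoc_of_eq hcl (r + 1) (r + 1)
    (fun i => aeval Y (Φ.coeff i) / Y ^ (r * (r + 1 - i))) (fun i => i)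
    (fun i hi => c3_aeval_div_mem _ hY hJ _ ?_) (fun i hi => Finset.mem_range.1 hi) ?_
  · have hi' := Finset.mem_range.1 hi
    rcases Nat.eq_zero_or_pos i with rfl | hi0
    · refine hΦ.deg0.trans ?_
      rw [Nat.sub_zero]
      exact Nat.le_mul_of_pos_left _ hr
    · refine (hΦ.deg i hi0).trans ?_
      exact Nat.le_mul_of_pos_right _ (by omega)
  · have : (Xm / Y ^ r) ^ (r + 1) + ∑ i ∈ Finset.range (r + 1),
        aeval Y (Φ.coeff i) / Y ^ (r * (r + 1 - i)) * (Xm / Y ^ r) ^ i =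
        (Xm ^ (r + 1) + ∑ i ∈ Finset.range (r + 1), aeval Y (Φ.coeff i) * Xm ^ i) /
          Y ^ (r * (r + 1)) := by
      rw [add_div, Finset.sum_div, div_pow, ← pow_mul]
      congr 1
      refine Finset.sum_congr rfl fun i hi => ?_
      obtain ⟨d, hd⟩ : ∃ d, r + 1 = i + d := ⟨r + 1 - i, by have := Finset.mem_range.1 hi; omega⟩
      rw [hd, Nat.add_sub_cancel_left, div_pow, ← pow_mul, mul_add, pow_add]
      field_simp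
    rw [this, h, zero_div]

/-- (S3) `ω = Y₂ / Y₁ ∈ O` -/
theorem c3_omega_mem (hcl : ∀ x : F, IsIntegral B x → ∃ b : B, algebraMap B F b = x)
    (hr : 1 ≤ r) {Xm Y₁ Y₂ : F} (hX : Xm ≠ 0) (hY₁ : Y₁ ≠ 0)
    (h₁ : Xm / Y₁ ^ r ∈ cLoc F 𝔫) (h₂ : (Xm / Y₂ ^ r)⁻¹ ∈ cLoc F 𝔫) : Y₂ / Y₁ ∈ cLoc F 𝔫 := by
  refine c3_mem_cLoc_of_eq hcl r 1 (fun _ => -(Xm / Y₁ ^ r * (Xm / Y₂ ^ r)⁻¹)) (fun _ => 0)
    (fun _ _ => (cLoc F 𝔫).neg_mem ((cLoc F 𝔫).mul_mem h₁ h₂)) (fun _ _ => hr) ?_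
  rw [Finset.sum_range_one, pow_zero, mul_one, div_pow]
  field_simp
  ring

end steps

section final

variable {B₂ F₂ : Type*} [CommRing B₂] [Field F₂] [Algebra B₂ F₂] {π₂ : B₂}
    {WVV : ValuationSubring F₂} {PVV : Ideal B₂} {𝔫 : Ideal B₂} [h𝔫 : 𝔫.IsPrime]

/-- (S0) -/
theorem c3_mem_cLocM_of_val (hsub : ∀ b : B₂, algebraMap B₂ F₂ b ∈ WVV)
    (hmem : ∀ b : B₂, b ∈ PVV ↔ WVV.valuation (algebraMap B₂ F₂ b) < 1)
    (hP : PVV ≤ 𝔫) {x : F₂} (hx : x ∈ cLoc F₂ 𝔫) (hv : WVV.valuation x < 1) :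
    x ∈ cLocM F₂ 𝔫 := by
  obtain ⟨s, hs, b, hb⟩ := hx
  refine ⟨s, hs, b, hP ((hmem b).2 ?_), hb⟩
  rw [← hb, map_mul]
  calc WVV.valuation (algebraMap B₂ F₂ s) * WVV.valuation x ≤ 1 * WVV.valuation x :=
        mul_le_mul_left ((WVV.valuation_le_one_iff _).2 (hsub s)) _
    _ < 1 := by rwa [one_mul]

/-- **C3**: `CMid` at a cuspidal closed point `𝔫` of the middle component.
`Xm = j(q^r)`, `Y₁ = j(q)`, `Y₂ = j(q^(r^2))`, `Φ = Φ_r`. -/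
theorem c3_mid [Infinite F₂] (hinj : Function.Injective (algebraMap B₂ F₂))
    (hcl : ∀ x : F₂, IsIntegral B₂ x → ∃ b : B₂, algebraMap B₂ F₂ b = x)
    (hsub : ∀ b : B₂, algebraMap B₂ F₂ b ∈ WVV)
    (hmem : ∀ b : B₂, b ∈ PVV ↔ WVV.valuation (algebraMap B₂ F₂ b) < 1)
    (hP : PVV ≤ 𝔫) {r : ℕ} {Φ Ψ : ℤ[X][X]} (hΦ : PhiShape r Φ) (hr : 2 ≤ r)
    (hK : Φ = c3K ℤ r + C (C (r : ℤ)) * Ψ) {Xm Y₁ Y₂ v : F₂} (hX : Xm ≠ 0) (hY₁ : Y₁ ≠ 0)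
    (hY₂ : Y₂ ≠ 0) (hne : Y₂ ≠ Y₁) (h₁ : evZ Φ Xm Y₁ = 0) (h₂ : evZ Φ Xm Y₂ = 0)
    (hc : Xm⁻¹ ∈ cLocM F₂ 𝔫) (hv : (r : F₂) = algebraMap B₂ F₂ π₂ * v) (hv0 : v ≠ 0)
    (hv' : v⁻¹ ∈ cLoc F₂ 𝔫) (hψ₁ : WVV.valuation (Xm / Y₁ ^ r - 1) < 1)
    (hψ₂ : WVV.valuation (Xm / Y₂ ^ r - 1) < 1) (hlt : WVV.valuation (Y₂ / Y₁ - 1) < 1)
    (hunif : ∀ x : F₂, WVV.valuation x < 1 → x / (Y₂ / Y₁ - 1) ∈ WVV) : CMid π₂ WVV 𝔫 := by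
  have hr1 : 1 ≤ r := by omega
  have hJ₁ := c3_inv_mem_cLocM hinj hcl hΦ hX hY₁ hc h₁
  have hJ₂ := c3_inv_mem_cLocM hinj hcl hΦ hX hY₂ hc h₂
  have hp₁ := c3_psi_mem hcl hΦ hr1 hY₁ (cLocM_le_cLoc hJ₁) h₁
  have hp₂ := c3_psi_mem hcl hΦ hr1 hY₂ (cLocM_le_cLoc hJ₂) h₂
  have hm₁ := c3_mem_cLocM_of_val hsub hmem hP
    ((cLoc F₂ 𝔫).sub_mem hp₁ (cLoc F₂ 𝔫).one_mem) hψ₁
  have hm₂ := c3_mem_cLocM_of_val hsub hmem hP
    ((cLoc F₂ 𝔫).sub_mem hp₂ (cLoc F₂ 𝔫).one_mem) hψ₂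
  have hp₂' := inv_mem_cLoc_of_sub (cLoc F₂ 𝔫).one_mem (one_not_mem_cLocM hinj) hm₂
  have hω := c3_omega_mem hcl hr1 hX hY₁ hp₁ hp₂'
  obtain ⟨U, h, hU, hU1⟩ := c3_core (A := cLoc F₂ 𝔫) (F := F₂) Subtype.val_injective hΦ hr hK hY₁
    h₁ h₂ hne (J := ⟨_, cLocM_le_cLoc hJ₁⟩) (ψ := ⟨_, hp₁⟩) (ω := ⟨_, hω⟩) rfl rfl rfl
  obtain ⟨a, b, hab⟩ := Ideal.mem_span_pair.1 hU1
  have hab' : (a : F₂) * Y₁⁻¹ + (b : F₂) * (Xm / Y₁ ^ r - 1) = (U : F₂) + 1 :=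
    congrArg Subtype.val hab
  have hU' : (r : F₂) * (U : F₂) = (Y₂ / Y₁ - 1) * (h : F₂) := congrArg Subtype.val hU
  have hUM : (U : F₂) - (-1) ∈ cLocM F₂ 𝔫 := by
    rw [sub_neg_eq_add, ← hab']
    exact (cLocM F₂ 𝔫).add_mem (mul_mem_cLocM a.2 hJ₁) (mul_mem_cLocM b.2 hm₁)
  have hUi := inv_mem_cLoc_of_sub ((cLoc F₂ 𝔫).neg_mem (cLoc F₂ 𝔫).one_mem)
    (neg_one_not_mem_cLocM hinj) hUM
  have hU0 : (U : F₂) ≠ 0 := by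
    intro h0
    rw [h0, zero_sub, neg_neg] at hUM
    exact one_not_mem_cLocM hinj hUM
  refine cMid_of_loc hinj hsub hmem 𝔫 hP (y' := Y₂ / Y₁ - 1) (h' := h) (u := v * U)
    ((cLoc F₂ 𝔫).sub_mem hω (cLoc F₂ 𝔫).one_mem) h.2 (mul_ne_zero hv0 hU0) ?_ ?_ hlt hunif
  · rw [mul_inv]
    exact (cLoc F₂ 𝔫).mul_mem hv' hUi
  · rw [← mul_assoc, ← hv, hU']

end final

end Fermat.Agent.CARlib
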