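import Fermat.Agent.UNI.NewtonPhi

/-!
# T-CAR, block C, row C3: the polynomial `P(ω) = Φ_r(Y₁ ω, X) / X ^ (r + 1)` at a cusp

`A ⊆ F`, `X, Y₁, Y₂ ∈ F`, `Φ(Y₁, X) = Φ(Y₂, X) = 0`, `J = 1 / Y₁ ∈ A`, `φ = Y₁ ^ r / X ∈ A`.  Then
`P ∈ A[ω]`, `P(1) = 0 = P(Y₂ / Y₁)`, and `Q̃(T) := (P / (ω - 1))(1 + T) ∈ A[T]` kills `Y₂ / Y₁ - 1` and
has constant term `Y₁ Φ_x(Y₁, X) / X ^ (r + 1)`.
-/

set_option autoImplicit false

open Polynomial

namespace Fermat.Agent.CARlib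

open Fermat.Agent.UNIlib (PhiShape evZ)

variable {A F : Type*} [CommRing A] [Field F] [Algebra A F] {r : ℕ} {Φ : ℤ[X][X]}

/-- the coefficient of `ω ^ i` -/
noncomputable def c3Coeff (r : ℕ) (Φ : ℤ[X][X]) (J φ : A) (i : ℕ) : A :=
  ∑ k ∈ Finset.range (r + 2),
    (((Φ.coeff i).coeff k : ℤ) : A) * (φ ^ (r + 1 - k) * J ^ (r * (r + 1 - k) - i))

/-- `P(ω) = Φ(Y₁ ω, X) / X ^ (r + 1)` -/
noncomputable def c3P (r : ℕ) (Φ : ℤ[X][X]) (J φ : A) : A[X] :=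
  ∑ i ∈ Finset.range (r + 2), C (c3Coeff r Φ J φ i) * X ^ i

theorem c3P_coeff (J φ : A) (i : ℕ) :
    (c3P r Φ J φ).coeff i = if i < r + 2 then c3Coeff r Φ J φ i else 0 := by
  rw [c3P, finsetSum_coeff]
  simp only [coeff_C_mul, coeff_X_pow, mul_ite, mul_one, mul_zero]
  rw [Finset.sum_ite_eq]
  simp only [Finset.mem_range]

theorem c3_term {Xm Y₁ : F} (hX : Xm ≠ 0) (hY : Y₁ ≠ 0) {i k : ℕ} (hk : k ≤ r + 1)
    (hi : i ≤ r * (r + 1 - k)) :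
    (Y₁ ^ r / Xm) ^ (r + 1 - k) * (Y₁⁻¹) ^ (r * (r + 1 - k) - i) =
      Xm ^ k * Y₁ ^ i / Xm ^ (r + 1) := by
  obtain ⟨e, he⟩ : ∃ e, r + 1 = k + e := ⟨r + 1 - k, by omega⟩
  have he' : r + 1 - k = e := by omega
  rw [he'] at hi ⊢
  obtain ⟨d, hd⟩ : ∃ d, r * e = i + d := ⟨r * e - i, by omega⟩
  have hd' : r * e - i = d := by omega
  rw [hd', he, div_pow, ← pow_mul, hd, pow_add, pow_add, inv_pow]
  field_simp

theorem c3_algebraMap_coeff (hΦ : PhiShape r Φ) (hr : 1 ≤ r) {Xm Y₁ : F} (hX : Xm ≠ 0)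
    (hY : Y₁ ≠ 0) {J φ : A} (hJ : algebraMap A F J = Y₁⁻¹) (hφ : algebraMap A F φ = Y₁ ^ r / Xm)
    {i : ℕ} (hi : i < r + 2) :
    algebraMap A F (c3Coeff r Φ J φ i) = aeval Xm (Φ.coeff i) * Y₁ ^ i / Xm ^ (r + 1) := by
  have hdeg : (Φ.coeff i).natDegree < r + 2 := by
    rcases Nat.eq_zero_or_pos i with h0 | h0
    · rw [h0]; have := hΦ.deg0; omega
    · have := hΦ.deg i h0; omega
  rw [aeval_eq_sum_range' hdeg, c3Coeff, map_sum, Finset.sum_mul, Finset.sum_div]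
  refine Finset.sum_congr rfl fun k hk => ?_
  have hk' : k ≤ r + 1 := by have := Finset.mem_range.1 hk; omega
  rw [map_mul, map_intCast, zsmul_eq_mul, map_mul, map_pow, map_pow, hJ, hφ]
  by_cases hc : (Φ.coeff i).coeff k = 0
  · rw [hc]; simp
  have hkd : k ≤ (Φ.coeff i).natDegree := le_natDegree_of_ne_zero hc
  have hik : i ≤ r * (r + 1 - k) := by
    rcases Nat.eq_zero_or_pos i with h0 | h0
    · omega
    · rcases Nat.lt_or_ge i (r + 1) with h1 | h1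
      · have h2 := hΦ.deg i h0
        have h3 : 1 ≤ r + 1 - k := by omega
        calc i ≤ r * 1 := by omega
          _ ≤ r * (r + 1 - k) := Nat.mul_le_mul_left r h3
      · have hi' : i = r + 1 := by omega
        have h2 : Φ.coeff i = 1 := by
          rw [hi', ← hΦ.natDegree]; exact hΦ.monic.coeff_natDegree
        rw [h2, natDegree_one] at hkd
        have hk0 : k = 0 := by omega
        rw [hk0, hi', Nat.sub_zero]
        nlinarith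
  rw [c3_term hX hY hk' hik]
  ring

theorem c3P_map (hΦ : PhiShape r Φ) (hr : 1 ≤ r) {Xm Y₁ : F} (hX : Xm ≠ 0)
    (hY : Y₁ ≠ 0) {J φ : A} (hJ : algebraMap A F J = Y₁⁻¹) (hφ : algebraMap A F φ = Y₁ ^ r / Xm) :
    (c3P r Φ J φ).map (algebraMap A F) =
      C (Xm ^ (r + 1))⁻¹ *
        (Φ.map ((aeval Xm : ℤ[X] →ₐ[ℤ] F) : ℤ[X] →+* F)).comp (C Y₁ * X) := by
  ext i
  rw [coeff_map, c3P_coeff, coeff_C_mul, comp_C_mul_X_coeff, coeff_map]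
  split_ifs with hi
  · rw [c3_algebraMap_coeff hΦ hr hX hY hJ hφ hi]
    simp only [RingHom.coe_coe]
    field_simp
  · have : Φ.coeff i = 0 := coeff_eq_zero_of_natDegree_lt (by rw [hΦ.natDegree]; omega)
    rw [this]; simp

theorem c3P_aeval (hΦ : PhiShape r Φ) (hr : 1 ≤ r) {Xm Y₁ : F} (hX : Xm ≠ 0)
    (hY : Y₁ ≠ 0) {J φ : A} (hJ : algebraMap A F J = Y₁⁻¹) (hφ : algebraMap A F φ = Y₁ ^ r / Xm)
    (t : F) : aeval t (c3P r Φ J φ) = evZ Φ (Y₁ * t) Xm / Xm ^ (r + 1) := by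
  rw [aeval_def, ← eval_map, c3P_map hΦ hr hX hY hJ hφ, eval_mul, eval_C, eval_comp, eval_mul,
    eval_C, eval_X, eval_map, evZ]
  field_simp

theorem c3P_derivative (hΦ : PhiShape r Φ) (hr : 1 ≤ r) {Xm Y₁ : F} (hX : Xm ≠ 0)
    (hY : Y₁ ≠ 0) {J φ : A} (hJ : algebraMap A F J = Y₁⁻¹) (hφ : algebraMap A F φ = Y₁ ^ r / Xm) :
    algebraMap A F ((derivative (c3P r Φ J φ)).eval 1) =
      Y₁ * evZ (derivative Φ) Y₁ Xm / Xm ^ (r + 1) := by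
  have h1 : algebraMap A F ((derivative (c3P r Φ J φ)).eval 1) =
      ((derivative (c3P r Φ J φ)).map (algebraMap A F)).eval 1 := by
    rw [eval_map, eval₂_at_one]
  rw [h1, ← derivative_map, c3P_map hΦ hr hX hY hJ hφ, derivative_C_mul, derivative_comp,
    derivative_C_mul, derivative_X, mul_one, eval_mul, eval_C, eval_mul, eval_C, eval_comp, eval_mul,
    eval_C, eval_X, mul_one, derivative_map, eval_map, evZ]
  field_simp

/-- **C3, polynomial part.**  `Q̃ ∈ A[T]` with `Q̃(Y₂ / Y₁ - 1) = 0` and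
`Q̃(0) = Y₁ Φ_x(Y₁, X) / X ^ (r + 1)`. -/
theorem c3_exists_poly (hinj : Function.Injective (algebraMap A F)) (hΦ : PhiShape r Φ) (hr : 1 ≤ r)
    {Xm Y₁ Y₂ : F} (hX : Xm ≠ 0) (hY : Y₁ ≠ 0) (h₁ : evZ Φ Y₁ Xm = 0) (h₂ : evZ Φ Y₂ Xm = 0)
    (hne : Y₂ ≠ Y₁) {J φ : A} (hJ : algebraMap A F J = Y₁⁻¹)
    (hφ : algebraMap A F φ = Y₁ ^ r / Xm) :
    ∃ Q : A[X], aeval (Y₂ / Y₁ - 1) Q = 0 ∧
      algebraMap A F (Q.coeff 0) = Y₁ * evZ (derivative Φ) Y₁ Xm / Xm ^ (r + 1) := by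
  set P := c3P r Φ J φ with hP
  have hroot : P.IsRoot 1 := by
    apply hinj
    have := c3P_aeval hΦ hr hX hY hJ hφ 1
    rw [mul_one, h₁, zero_div, aeval_def, eval₂_at_one] at this
    rw [this, map_zero]
  set Q := P /ₘ (X - C 1) with hQ
  have hPQ : (X - C 1) * Q = P := mul_divByMonic_eq_iff_isRoot.2 hroot
  refine ⟨taylor 1 Q, ?_, ?_⟩
  · have h3 : aeval (Y₂ / Y₁) P = 0 := by
      rw [hP, c3P_aeval hΦ hr hX hY hJ hφ, mul_div_cancel₀ _ hY, h₂, zero_div]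
    rw [← hPQ, map_mul, map_sub, aeval_X, aeval_C, map_one] at h3
    have h4 : Y₂ / Y₁ - 1 ≠ 0 := by
      rw [sub_ne_zero, Ne, div_eq_one_iff_eq hY]; exact hne
    have h5 := (mul_eq_zero.1 h3).resolve_left h4
    rw [taylor_apply, aeval_comp, map_add, aeval_X, aeval_C, map_one, sub_add_cancel]
    exact h5
  · rw [taylor_coeff_zero, ← c3P_derivative hΦ hr hX hY hJ hφ, ← hP, ← hPQ, derivative_mul]
    simp

end Fermat.Agent.CARlib
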