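import Mathlib

/-!
# T-CAR, block C, row C3: abstract lemmas (Mathlib only)

* `c3_isUnit_of_rational`: an element `E` of a local domain `Λ ⊇ k[J]`, `J ∈ 𝔪`, which is a rational
  function of `J` and has valuation `1` for a valuation with `v J < 1`, trivial on `k`, is a unit.
* `c3_sub_one_mem`: `ω ^ r ≡ 1`, characteristic `r` residue field `⇒ ω ≡ 1`.
-/

set_option autoImplicit false

open Polynomial IsLocalRing

namespace Fermat.Agent.CARlib

section val

variable {k Λ Γ : Type*} [Field k] [CommRing Λ] [Algebra k Λ]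
  [LinearOrderedCommGroupWithZero Γ] (v : Valuation Λ Γ)

theorem c3_val_aeval_le_one (hk : ∀ c : k, v (algebraMap k Λ c) ≤ 1) {J : Λ} (hJ : v J ≤ 1)
    (a : k[X]) : v (aeval J a) ≤ 1 := by
  rw [aeval_eq_sum_range]
  apply Valuation.map_sum_le
  intro i _
  rw [Algebra.smul_def, map_mul, map_pow]
  exact mul_le_one' (hk _) (pow_le_one₀ zero_le hJ)

theorem c3_aeval_eq (J : Λ) (a : k[X]) :
    aeval J a = algebraMap k Λ (a.coeff 0) + J * aeval J a.divX := by
  conv_lhs => rw [← divX_mul_X_add a]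
  rw [map_add, map_mul, aeval_X, aeval_C]
  ring

theorem c3_val_aeval_eq_one (hk : ∀ c : k, c ≠ 0 → v (algebraMap k Λ c) = 1) {J : Λ}
    (hJ : v J < 1) {a : k[X]} (ha : a.coeff 0 ≠ 0) : v (aeval J a) = 1 := by
  have hk' : ∀ c : k, v (algebraMap k Λ c) ≤ 1 := by
    intro c
    by_cases hc : c = 0
    · rw [hc, map_zero, map_zero]; exact zero_le
    · exact (hk c hc).le
  rw [c3_aeval_eq, ← hk _ ha]
  apply Valuation.map_add_eq_of_lt_left
  rw [hk _ ha, map_mul]
  calc v J * v (aeval J a.divX) ≤ v J * 1 :=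
        mul_le_mul' le_rfl (c3_val_aeval_le_one v hk' hJ.le _)
    _ = v J := mul_one _
    _ < 1 := hJ

end val

theorem c3_isUnit_aeval {k Λ : Type*} [Field k] [CommRing Λ] [IsLocalRing Λ] [Algebra k Λ] {J : Λ}
    (hJ : J ∈ maximalIdeal Λ) {a : k[X]} (ha : a.coeff 0 ≠ 0) : IsUnit (aeval J a) := by
  by_contra h
  have h1 : aeval J a ∈ maximalIdeal Λ := (mem_maximalIdeal _).2 h
  have h2 : algebraMap k Λ (a.coeff 0) ∈ maximalIdeal Λ := by
    have : algebraMap k Λ (a.coeff 0) = aeval J a - J * aeval J a.divX := by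
      rw [c3_aeval_eq J a]; ring
    rw [this]
    exact Ideal.sub_mem _ h1 (Ideal.mul_mem_right _ _ hJ)
  exact (mem_maximalIdeal _).1 h2 ((isUnit_iff_ne_zero.2 ha).map (algebraMap k Λ))

/-- **the unit lemma of C3** -/
theorem c3_isUnit_of_rational {k Λ Γ : Type*} [Field k] [CommRing Λ] [IsDomain Λ] [IsLocalRing Λ]
    [Algebra k Λ] [LinearOrderedCommGroupWithZero Γ] (v : Valuation Λ Γ)
    (hk : ∀ c : k, c ≠ 0 → v (algebraMap k Λ c) = 1) {J E : Λ} (hJm : J ∈ maximalIdeal Λ)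
    (hJ0 : v J ≠ 0) (hJ1 : v J < 1) (hE : v E = 1) {a b : k[X]} (hb : b ≠ 0)
    (h : aeval J b * E = aeval J a) : IsUnit E := by
  have hJne : J ≠ 0 := fun h0 => hJ0 (by rw [h0, map_zero])
  obtain ⟨b₁, hb₁, hb₁'⟩ := exists_eq_pow_rootMultiplicity_mul_and_not_dvd b hb 0
  set n := rootMultiplicity 0 b
  rw [C_0, sub_zero] at hb₁ hb₁'
  have hb0 : b₁.coeff 0 ≠ 0 := fun h0 => hb₁' (X_dvd_iff.2 h0)
  have hvb : v (aeval J b) = v J ^ n := by
    rw [hb₁, map_mul, map_pow, aeval_X, map_mul, map_pow, c3_val_aeval_eq_one v hk hJ1 hb0, mul_one]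
  have ha : a ≠ 0 := by
    intro h0
    rw [h0, map_zero] at h
    have := congrArg v h
    rw [map_mul, hvb, hE, mul_one, map_zero] at this
    exact hJ0 (eq_zero_of_pow_eq_zero this)
  obtain ⟨a₁, ha₁, ha₁'⟩ := exists_eq_pow_rootMultiplicity_mul_and_not_dvd a ha 0
  set m := rootMultiplicity 0 a
  rw [C_0, sub_zero] at ha₁ ha₁'
  have ha0 : a₁.coeff 0 ≠ 0 := fun h0 => ha₁' (X_dvd_iff.2 h0)
  have hva : v (aeval J a) = v J ^ m := by
    rw [ha₁, map_mul, map_pow, aeval_X, map_mul, map_pow, c3_val_aeval_eq_one v hk hJ1 ha0, mul_one]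
  have hnm : n = m := by
    have h1 := congrArg v h
    rw [map_mul, hvb, hE, mul_one, hva] at h1
    have hpos : 0 < v J := zero_lt_iff.2 hJ0
    rcases lt_trichotomy n m with h2 | h2 | h2
    · exact absurd h1 (ne_of_gt (pow_lt_pow_right_of_lt_one₀ hpos hJ1 h2))
    · exact h2
    · exact absurd h1 (ne_of_lt (pow_lt_pow_right_of_lt_one₀ hpos hJ1 h2))
  have h3 : aeval J b₁ * E = aeval J a₁ := by
    have h4 : J ^ n * (aeval J b₁ * E) = J ^ n * aeval J a₁ := by
      have e1 : aeval J b = J ^ n * aeval J b₁ := by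
        conv_lhs => rw [hb₁]
        rw [map_mul, map_pow, aeval_X]
      have e2 : aeval J a = J ^ n * aeval J a₁ := by
        conv_lhs => rw [ha₁]
        rw [map_mul, map_pow, aeval_X, hnm]
      rw [← mul_assoc, ← e1, h, e2]
    exact mul_left_cancel₀ (pow_ne_zero n hJne) h4
  have h5 : IsUnit (aeval J b₁ * E) := by rw [h3]; exact c3_isUnit_aeval hJm ha0
  exact isUnit_of_mul_isUnit_right h5

/-- `ω ^ r ≡ 1` and residue characteristic `r` give `ω ≡ 1` -/
theorem c3_sub_one_mem {O : Type*} [CommRing O] [IsLocalRing O] {r : ℕ} (hr : r.Prime)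
    (hrO : (r : O) ∈ maximalIdeal O) {ω : O} (hω : ω ^ r - 1 ∈ maximalIdeal O) :
    ω - 1 ∈ maximalIdeal O := by
  have : Fact r.Prime := ⟨hr⟩
  have hchar : CharP (ResidueField O) r := by
    have h0 : ((r : ℕ) : ResidueField O) = 0 := by
      have := (residue_eq_zero_iff (r : O)).2 hrO
      rwa [map_natCast] at this
    exact (CharP.charP_iff_prime_eq_zero hr).2 h0
  have h1 : (residue O ω - 1) ^ r = 0 := by
    rw [sub_pow_char, one_pow, ← map_pow, ← map_one (residue O), ← map_sub]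
    exact (residue_eq_zero_iff _).2 hω
  have h2 : residue O ω - 1 = 0 := pow_eq_zero_iff hr.ne_zero |>.1 h1
  rw [← map_one (residue O), ← map_sub] at h2
  exact (residue_eq_zero_iff _).1 h2

end Fermat.Agent.CARlib
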