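import Fermat.Agent.UNI.NewtonPhi

/-!
# T-CAR, block C, row C3: weighted normalisation of a bivariate polynomial

`G ∈ ℤ[y][x]` all of whose monomials `x ^ i y ^ k` have weight `r i + k ≤ w`.  With `J = 1 / Y`,
`ψ = X / Y ^ r`:  `G(X, Y t) / Y ^ w = ∑ c_{ik} ψ ^ i J ^ (w - r i - k) t ^ k`.
-/

set_option autoImplicit false

open Polynomial

namespace Fermat.Agent.CARlib

open Fermat.Agent.UNIlib (PhiShape evZ)

/-- all monomials `x ^ i y ^ k` of `G` have weight `r i + k ≤ w` -/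
def C3Wt (r : ℕ) (G : ℤ[X][X]) (w : ℕ) : Prop :=
  ∀ i k, (G.coeff i).coeff k ≠ 0 → r * i + k ≤ w

/-- `∑ c_{ik} ψ ^ i J ^ (w - r i - k) t ^ k` -/
noncomputable def c3W {A : Type*} [CommRing A] (r : ℕ) (G : ℤ[X][X]) (w : ℕ) (ψ J t : A) : A :=
  ∑ i ∈ G.support, ∑ k ∈ (G.coeff i).support,
    (((G.coeff i).coeff k : ℤ) : A) * (ψ ^ i * J ^ (w - (r * i + k)) * t ^ k)

theorem c3W_map {A B : Type*} [CommRing A] [CommRing B] (f : A →+* B) (r : ℕ) (G : ℤ[X][X])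
    (w : ℕ) (ψ J t : A) : f (c3W r G w ψ J t) = c3W r G w (f ψ) (f J) (f t) := by
  simp only [c3W, map_sum, map_mul, map_pow, map_intCast]

theorem c3W_field {F : Type*} [Field F] {r : ℕ} {G : ℤ[X][X]} {w : ℕ} (hG : C3Wt r G w)
    (Xm : F) {Y : F} (hY : Y ≠ 0) (t : F) :
    c3W r G w (Xm / Y ^ r) Y⁻¹ t = evZ G Xm (Y * t) / Y ^ w := by
  rw [evZ, eval₂_eq_sum, sum_def, Finset.sum_div, c3W]
  refine Finset.sum_congr rfl fun i _ => ?_
  rw [RingHom.coe_coe, aeval_def, eval₂_eq_sum, sum_def, Finset.sum_mul, Finset.sum_div]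
  refine Finset.sum_congr rfl fun k hk => ?_
  have hc : (G.coeff i).coeff k ≠ 0 := mem_support_iff.1 hk
  obtain ⟨d, hd⟩ : ∃ d, w = r * i + k + d := ⟨w - (r * i + k), by have := hG i k hc; omega⟩
  have hd' : w - (r * i + k) = d := by omega
  rw [hd', hd, eq_intCast, div_pow, ← pow_mul, pow_add, pow_add, inv_pow, mul_pow]
  field_simp

theorem c3W_mem {F : Type*} [Field F] (O : Subring F) (r : ℕ) (G : ℤ[X][X]) (w : ℕ) {ψ J t : F}
    (hψ : ψ ∈ O) (hJ : J ∈ O) (ht : t ∈ O) : c3W r G w ψ J t ∈ O :=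
  Subring.sum_mem _ fun _ _ => Subring.sum_mem _ fun _ _ =>
    O.mul_mem (intCast_mem O _) (O.mul_mem (O.mul_mem (O.pow_mem hψ _) (O.pow_mem hJ _))
      (O.pow_mem ht _))

end Fermat.Agent.CARlib
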