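import Fermat.Agent.CAR.CDefs

/-!
# T-CAR, block C: classification (C0), (GEN) at the middle points (`c2_abs` is in `C2Mid.lean`)
-/

set_option autoImplicit false

open IsLocalRing Polynomial

namespace Fermat.Agent.CARlib.C

variable {B₁ B₂ F₁ F₂ : Type*} [CommRing B₁] [CommRing B₂] [Field F₁] [Field F₂]
  [Algebra B₁ F₁] [Algebra B₂ F₂] {π₁ : B₁} {π₂ : B₂} {E₁ E₂ : B₁ →+* B₂} {e₁ e₂ : F₁ →+* F₂}
  {VF VV : ValuationSubring F₁} {WFV WVF WVV : ValuationSubring F₂} {PFV PVF PVV : Ideal B₂}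
  {pF pV : Ideal B₁}

/-- **(C0)** every maximal ideal `∋ π` lies on one of the three components -/
theorem c0_class (H₁ : CPull π₁ π₂ E₁ E₂ e₁ e₂ VF VV WFV WVF WVV PFV)
    (H₂ : CPull π₁ π₂ E₂ E₁ e₂ e₁ VF VV WVF WFV WVV PVF) (M : CMidV π₂ E₁ e₁ VV WVV PVV)
    (𝔫 : Ideal B₂) (h𝔫 : 𝔫.IsMaximal) (hπ : π₂ ∈ 𝔫) : PFV ≤ 𝔫 ∨ PVF ≤ 𝔫 ∨ PVV ≤ 𝔫 := by
  by_contra hcon
  rw [not_or, not_or] at hcon
  obtain ⟨h1, h2, h3⟩ := hcon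
  obtain ⟨x₁, hx₁, hx₁'⟩ := SetLike.not_le_iff_exists.1 h1
  obtain ⟨x₂, hx₂, hx₂'⟩ := SetLike.not_le_iff_exists.1 h2
  obtain ⟨x₃, hx₃, hx₃'⟩ := SetLike.not_le_iff_exists.1 h3
  obtain ⟨N, hN⟩ := M.ram
  set ι := algebraMap B₂ F₂ with hι
  have hπ0 : ι π₂ ≠ 0 := fun h => H₁.pi_ne (H₁.inj₂ (by rw [h, map_zero]))
  have hz : ∃ b : B₂, ι b = ι (x₁ * x₂ * x₃ ^ N) / ι π₂ := by
    apply H₁.KC
    · exact ⟨x₁ * x₂ * x₃ ^ N, (mul_div_cancel₀ _ hπ0).symm⟩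
    · have := H₁.unif _ ((H₁.memP x₁).1 hx₁)
      have h' : ι (x₁ * x₂ * x₃ ^ N) / ι π₂ = ι x₁ / ι π₂ * ι (x₂ * x₃ ^ N) := by
        simp only [map_mul]; ring
      rw [h']
      exact WFV.mul_mem _ _ this (H₁.sub _)
    · have := H₂.unif _ ((H₂.memP x₂).1 hx₂)
      have h' : ι (x₁ * x₂ * x₃ ^ N) / ι π₂ = ι x₂ / ι π₂ * ι (x₁ * x₃ ^ N) := by
        simp only [map_mul]; ring
      rw [h']
      exact WVF.mul_mem _ _ this (H₂.sub _)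
    · have := hN _ ((M.memP x₃).1 hx₃)
      have h' : ι (x₁ * x₂ * x₃ ^ N) / ι π₂ = ι x₃ ^ N / ι π₂ * ι (x₁ * x₂) := by
        simp only [map_mul, map_pow]; ring
      rw [h']
      exact WVV.mul_mem _ _ this (M.sub _)
  obtain ⟨b, hb⟩ := hz
  have heq : x₁ * x₂ * x₃ ^ N = π₂ * b := by
    apply H₁.inj₂
    show ι _ = ι _
    rw [map_mul ι π₂ b, hb, mul_div_cancel₀ _ hπ0]
  have hmem : x₁ * x₂ * x₃ ^ N ∈ 𝔫 := by rw [heq]; exact 𝔫.mul_mem_right _ hπ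
  have hp := h𝔫.isPrime
  rcases hp.mem_or_mem hmem with h | h
  · rcases hp.mem_or_mem h with h | h
    · exact hx₁' h
    · exact hx₂' h
  · exact hx₃' (hp.mem_of_pow_mem _ h)

/-- **(GEN)** at a middle point a `CMid` datum generates `P_VV` -/
theorem c_mid_gen (H₁ : CPull π₁ π₂ E₁ E₂ e₁ e₂ VF VV WFV WVF WVV PFV)
    (H₂ : CPull π₁ π₂ E₂ E₁ e₂ e₁ VF VV WVF WFV WVV PVF) (M : CMidV π₂ E₁ e₁ VV WVV PVV)
    (𝔫 : Ideal B₂) (h𝔫 : 𝔫.IsMaximal) (h1 : ¬ PFV ≤ 𝔫) (h2 : ¬ PVF ≤ 𝔫)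
    {y h c : B₂} (hc : c ∉ 𝔫) (hyh : π₂ * c = y * h)
    (hy : ∀ x : F₂, WVV.valuation x < 1 → x / algebraMap B₂ F₂ y ∈ WVV) {x : B₂} (hx : x ∈ PVV) :
    ∃ s, s ∉ 𝔫 ∧ ∃ z, s * x = y * z := by
  obtain ⟨x₁, hx₁, hx₁'⟩ := SetLike.not_le_iff_exists.1 h1
  obtain ⟨x₂, hx₂, hx₂'⟩ := SetLike.not_le_iff_exists.1 h2
  set ι := algebraMap B₂ F₂ with hι
  have hπ0 : ι π₂ ≠ 0 := fun h => H₁.pi_ne (H₁.inj₂ (by rw [h, map_zero]))
  have hc0 : c ≠ 0 := fun h => hc (by rw [h]; exact 𝔫.zero_mem)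
  have hιc0 : ι c ≠ 0 := fun h => hc0 (H₁.inj₂ (by rw [h, map_zero]))
  have hyh' : ι π₂ * ι c = ι y * ι h := by rw [← map_mul, hyh, map_mul]
  have hy0 : ι y ≠ 0 := by
    intro h0; rw [h0, zero_mul] at hyh'; exact mul_ne_zero hπ0 hιc0 hyh'
  have hh0 : ι h ≠ 0 := by
    intro h0; rw [h0, mul_zero] at hyh'; exact mul_ne_zero hπ0 hιc0 hyh'
  have hz : ∃ b : B₂, ι b = ι (x₁ * x₂ * x * h) / ι π₂ := by
    apply H₁.KC
    · exact ⟨x₁ * x₂ * x * h, (mul_div_cancel₀ _ hπ0).symm⟩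
    · have := H₁.unif _ ((H₁.memP x₁).1 hx₁)
      have h' : ι (x₁ * x₂ * x * h) / ι π₂ = ι x₁ / ι π₂ * ι (x₂ * x * h) := by
        simp only [map_mul]; ring
      rw [h']
      exact WFV.mul_mem _ _ this (H₁.sub _)
    · have := H₂.unif _ ((H₂.memP x₂).1 hx₂)
      have h' : ι (x₁ * x₂ * x * h) / ι π₂ = ι x₂ / ι π₂ * ι (x₁ * x * h) := by
        simp only [map_mul]; ring
      rw [h']
      exact WVF.mul_mem _ _ this (H₂.sub _)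
    · have := hy _ ((M.memP x).1 hx)
      have h' : ι (x₁ * x₂ * x * h) / ι π₂ = ι x / ι y * ι (x₁ * x₂ * c) := by
        simp only [map_mul]
        rw [div_mul_eq_mul_div, div_eq_div_iff hπ0 hy0]
        calc ι x₁ * ι x₂ * ι x * ι h * ι y = ι x₁ * ι x₂ * ι x * (ι y * ι h) := by ring
          _ = ι x₁ * ι x₂ * ι x * (ι π₂ * ι c) := by rw [hyh']
          _ = _ := by ring
      rw [h']
      exact WVV.mul_mem _ _ this (M.sub _)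
  obtain ⟨z, hz⟩ := hz
  have hp := h𝔫.isPrime
  refine ⟨x₁ * x₂ * c, ?_, z, ?_⟩
  · intro hmem
    rcases hp.mem_or_mem hmem with h | h
    · rcases hp.mem_or_mem h with h | h
      · exact hx₁' h
      · exact hx₂' h
    · exact hc h
  · apply H₁.inj₂
    show ι _ = ι _
    rw [map_mul ι y z, hz]
    simp only [map_mul]
    rw [mul_div_assoc', eq_div_iff hπ0]
    calc ι x₁ * ι x₂ * ι c * ι x * ι π₂ = ι x₁ * ι x₂ * ι x * (ι π₂ * ι c) := by ring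
      _ = ι x₁ * ι x₂ * ι x * (ι y * ι h) := by rw [hyh']
      _ = _ := by ring

end Fermat.Agent.CARlib.C
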