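import Fermat.Agent.CAR.C1Pull
import Fermat.Agent.CAR.CMidGen
import Fermat.Agent.CAR.CGen

/-!
# T-CAR, block C: OUTPUT (abstract form)
-/

set_option autoImplicit false

open IsLocalRing Polynomial

namespace Fermat.Agent.CARlib.C

variable {B₁ B₂ F₁ F₂ : Type*} [CommRing B₁] [CommRing B₂] [Field F₁] [Field F₂]
  [Algebra B₁ F₁] [Algebra B₂ F₂] {π₁ : B₁} {π₂ : B₂} {E₁ E₂ : B₁ →+* B₂} {e₁ e₂ : F₁ →+* F₂}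
  {VF VV : ValuationSubring F₁} {WFV WVF WVV : ValuationSubring F₂} {PFV PVF PVV : Ideal B₂}
  {pF pV : Ideal B₁}

/-- **BLOCK C, OUTPUT** -/
theorem c_all (L : CLev1 π₁ VF VV pF pV) (H₁ : CPull π₁ π₂ E₁ E₂ e₁ e₂ VF VV WFV WVF WVV PFV)
    (H₂ : CPull π₁ π₂ E₂ E₁ e₂ e₁ VF VV WVF WFV WVV PVF) (M : CMidV π₂ E₁ e₁ VV WVV PVV)
    (hπ₁ : π₂ ∈ PFV) (hπ₂ : π₂ ∈ PVF)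
    (hmid : ∀ 𝔫 : Ideal B₂, 𝔫.IsMaximal → PVV ≤ 𝔫 → ¬ PFV ≤ 𝔫 → ¬ PVF ≤ 𝔫 → CMid π₂ WVV 𝔫)
    (𝔫 : Ideal B₂) (h𝔫 : 𝔫.IsMaximal) (hπ : π₂ ∈ 𝔫) :
    (∃ P : Ideal B₂, P.IsPrime ∧ (P = PFV ∨ P = PVF ∨ P = PVV) ∧ P ≤ 𝔫 ∧
      ∃ a t : B₂, a ≠ 0 ∧ CReg 𝔫 P a t) ∧
    (PFV ≤ 𝔫 → CDvr 𝔫 PFV) ∧ (PVF ≤ 𝔫 → CDvr 𝔫 PVF) ∧ (PVV ≤ 𝔫 → CDvr 𝔫 PVV) := by
  refine ⟨?_, c1_dvr L H₁ 𝔫 h𝔫, c1_dvr L H₂ 𝔫 h𝔫, c1_dvr_mid L M 𝔫 h𝔫⟩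
  by_cases h1 : PFV ≤ 𝔫
  · exact ⟨PFV, isPrime_of_mem H₁.sub H₁.memP, Or.inl rfl, h1, c1_pull L H₁ hπ₁ 𝔫 h𝔫 h1⟩
  by_cases h2 : PVF ≤ 𝔫
  · exact ⟨PVF, isPrime_of_mem H₂.sub H₂.memP, Or.inr (Or.inl rfl), h2, c1_pull L H₂ hπ₂ 𝔫 h𝔫 h2⟩
  have h3 : PVV ≤ 𝔫 := by
    rcases c0_class H₁ H₂ M 𝔫 h𝔫 hπ with h | h | h
    · exact absurd h h1
    · exact absurd h h2
    · exact h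
  obtain ⟨y, h, c, hc, hyh, hlt, hy⟩ := hmid 𝔫 h𝔫 h3 h1 h2
  obtain ⟨t, ht, hdvr⟩ := c1_dvr_mid L M 𝔫 h𝔫 h3
  have hdom : IsDomain B₂ := H₁.inj₂.isDomain (algebraMap B₂ F₂)
  refine ⟨PVV, isPrime_of_mem M.sub M.memP, Or.inr (Or.inr rfl), h3, y, t, ?_, ?_⟩
  · rintro rfl
    rw [zero_mul] at hyh
    rcases mul_eq_zero.1 hyh with h0 | h0
    · exact H₁.pi_ne h0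
    · exact hc (h0 ▸ 𝔫.zero_mem)
  · exact
    { a_mem := (M.memP y).2 hlt
      t_mem := ht
      gen := fun x hx => c_mid_gen H₁ H₂ M 𝔫 h𝔫 h1 h2 hc hyh hy hx
      dvr := hdvr }

/-- the same in the form of the hypotheses of A1 -/
theorem c_all_loc [IsDomain B₂] (L : CLev1 π₁ VF VV pF pV)
    (H₁ : CPull π₁ π₂ E₁ E₂ e₁ e₂ VF VV WFV WVF WVV PFV)
    (H₂ : CPull π₁ π₂ E₂ E₁ e₂ e₁ VF VV WVF WFV WVV PVF) (M : CMidV π₂ E₁ e₁ VV WVV PVV)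
    (hπ₁ : π₂ ∈ PFV) (hπ₂ : π₂ ∈ PVF)
    (hmid : ∀ 𝔫 : Ideal B₂, 𝔫.IsMaximal → PVV ≤ 𝔫 → ¬ PFV ≤ 𝔫 → ¬ PVF ≤ 𝔫 → CMid π₂ WVV 𝔫)
    (𝔫 : Ideal B₂) [h𝔫 : 𝔫.IsMaximal] (hπ : π₂ ∈ 𝔫) :
    ∃ a t : Localization.AtPrime 𝔫, Prime a ∧
      maximalIdeal (Localization.AtPrime 𝔫) = Ideal.span {a, t} := by
  obtain ⟨⟨P, hP, -, hle, a, t, ha, hreg⟩, -⟩ := c_all L H₁ H₂ M hπ₁ hπ₂ hmid 𝔫 h𝔫 hπ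
  exact ⟨_, _, c_gen 𝔫 P hle ha hreg⟩

end Fermat.Agent.CARlib.C
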