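import Fermat.Agent.CAR.B7Conc
import Fermat.Agent.CAR.CLoc
import Fermat.Agent.CAR.V2Pi

/-!
# T-CAR, block C: the dichotomy cuspidal / non-cuspidal at the closed points of level 2
-/

set_option autoImplicit false
set_option linter.unusedSectionVars false
set_option linter.unusedVariables false

open ModularCurve Polynomial

namespace Fermat.Agent.CARlib

open Fermat.Agent.ESlib Fermat.Agent.UNIlib
open Fermat.Agent.S24lib (Dv)

section abs

variable {B F : Type*} [CommRing B] [Field F] [Algebra B F]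

/-- `j T ^ e = A(T)`, `A(0) ∉ 𝔫`, `T ∈ B` ⇒ `j ∈ B_𝔫` or `1 / j ∈ 𝔫 B_𝔫` -/
theorem c_dich_abs (𝔫 : Ideal B) [h𝔫 : 𝔫.IsPrime] {j T : F} {A : B[X]} {e : ℕ} (he : 0 < e)
    (hA0 : A.coeff 0 ∉ 𝔫) (hrel : j * T ^ e = aeval T A) (T' : B) (hT : algebraMap B F T' = T) :
    j ∈ C.cLoc F 𝔫 ∨ j⁻¹ ∈ C.cLocM F 𝔫 := by
  have hev : aeval T A = algebraMap B F (A.eval T') := by
    rw [← hT, aeval_algebraMap_apply]
    rfl
  by_cases hu : T' ∈ 𝔫
  · right
    have hAu : A.eval T' ∉ 𝔫 := by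
      intro hAm
      have h2 : A.eval T' = A.divX.eval T' * T' + A.coeff 0 := by
        conv_lhs => rw [← divX_mul_X_add A]
        simp
      apply hA0
      have := 𝔫.sub_mem hAm (𝔫.mul_mem_left (A.divX.eval T') hu)
      rwa [h2, add_sub_cancel_left] at this
    rcases eq_or_ne j 0 with rfl | hj
    · rw [inv_zero]
      exact (C.cLocM F 𝔫).zero_mem
    refine ⟨A.eval T', hAu, T' ^ e, 𝔫.pow_mem_of_mem hu e he, ?_⟩
    rw [← hev, ← hrel, map_pow, hT]
    field_simp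
  · left
    exact ⟨T' ^ e, fun h => hu (h𝔫.mem_of_pow_mem e h), A.eval T', by
      rw [← hev, ← hrel, map_pow, hT, mul_comm]⟩

/-- the relation in the chart `1 / T` -/
theorem c_dich_rel_inv {O : Type*} [CommRing O] [Algebra O F] {j T : F} {A : O[X]} {e : ℕ}
    (he : e < A.natDegree) (hT0 : T ≠ 0) (hrel : j * T ^ e = aeval T A) :
    j * T⁻¹ ^ (A.natDegree - e) = aeval T⁻¹ A.reverse := by
  let _ : Invertible T := invertibleOfNonzero hT0
  have h1 := eval₂_reverse_mul_pow (algebraMap O F) T A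
  rw [invOf_eq_inv] at h1
  have h2 : aeval T⁻¹ A.reverse * T ^ A.natDegree = j * T ^ e := by
    rw [hrel]; exact h1
  obtain ⟨k, hk⟩ := Nat.exists_eq_add_of_lt he
  have hk' : A.natDegree - e = k + 1 := by omega
  have hk'' : A.natDegree = e + (k + 1) := by omega
  rw [hk', inv_pow]
  rw [hk'', pow_add] at h2
  have hTe : T ^ e ≠ 0 := pow_ne_zero _ hT0
  have hTk : T ^ (k + 1) ≠ 0 := pow_ne_zero _ hT0
  have h3 : aeval T⁻¹ A.reverse * T ^ (k + 1) * T ^ e = j * T ^ e := by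
    rw [← h2]; ring
  rw [← mul_right_cancel₀ hTe h3, mul_assoc, mul_inv_cancel₀ hTk, mul_one]

/-- the dichotomy for `B = ` integral closure of `R[T]` -/
theorem c_dich_chart {R : Type*} [CommRing R] [Algebra R F] {j T : F} {A : R[X]} {e : ℕ}
    (he : 0 < e) (hA0 : IsUnit (A.coeff 0)) (hrel : j * T ^ e = aeval T A)
    (𝔫 : Ideal (integralClosure (Algebra.adjoin R {T}) F)) [h𝔫 : 𝔫.IsPrime] :
    j ∈ C.cLoc F 𝔫 ∨ j⁻¹ ∈ C.cLocM F 𝔫 := by
  have hTi : IsIntegral (Algebra.adjoin R {T}) T :=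
    isIntegral_algebraMap (x := (⟨T, Algebra.subset_adjoin (Set.mem_singleton T)⟩ :
      Algebra.adjoin R {T}))
  refine c_dich_abs 𝔫 (T := T)
    (A := A.map (algebraMap R (integralClosure (Algebra.adjoin R {T}) F))) he ?_ ?_ ⟨T, hTi⟩ rfl
  · rw [coeff_map]
    intro h
    exact h𝔫.ne_top (Ideal.eq_top_of_isUnit_mem _ h (hA0.map _))
  · rw [hrel, aeval_map_algebraMap]

end abs

section conc

variable {R K : Type} [CommRing R] [IsDomain R] [IsDiscreteValuationRing R] [Field K]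
  [Algebra R K] [IsFractionRing R K] [Algebra ℚ K] [CharZero K] [Algebra K ℂ] [IsScalarTower ℚ K ℂ]
  {N r : ℕ} [NeZero N] [NeZero r] [NeZero (N * r)] [NeZero (N * r * r)]
  [Algebra R (FK K N)] [IsScalarTower R K (FK K N)]
  [Algebra R (FK K (N * r))] [IsScalarTower R K (FK K (N * r))]
  [Algebra R (FK K (N * r * r))] [IsScalarTower R K (FK K (N * r * r))]

variable (a : ℕ) [NeZero a] (ha : a = 2 ∨ a = 3) (haN : a ∣ N)

theorem c_eps_J1 : eps K N r (J1 K N) = vJ1 K N r := by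
  rw [eps_apply, tv_incl_J1, e2_J1]
  exact Jgen_ext K (one_mul r).symm

/-- the relation between `j(q^r)` and the chart `t2` -/
theorem c_exists_vT2_rel (hu : IsUnit (a : R)) :
    ∃ (A : R[X]) (e : ℕ), A.Monic ∧ 0 < e ∧ e < A.natDegree ∧ IsUnit (A.coeff 0) ∧
      vJ1 K N r * vT2 K r a ha haN ^ e = aeval (vT2 K r a ha haN) A := by
  obtain ⟨A, e, hA, he, he', hA0, hrel⟩ := b7_exists_tF_rel (K := K) (N := N) R a ha haN hu
  refine ⟨A, e, hA, he, he', hA0, ?_⟩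
  rw [v2_aeval_vT2, ← hrel, map_mul, map_pow, c_eps_J1, ← vT2_eq_eps]

/-- **dichotomy**, chart `t2` -/
theorem c_dich_vT2 (hu : IsUnit (a : R))
    (𝔫 : Ideal (integralClosure (Algebra.adjoin R {vT2 K r a ha haN}) (FK K (N * r * r))))
    [𝔫.IsPrime] :
    vJ1 K N r ∈ C.cLoc (FK K (N * r * r)) 𝔫 ∨ (vJ1 K N r)⁻¹ ∈ C.cLocM (FK K (N * r * r)) 𝔫 := by
  obtain ⟨A, e, hA, he, he', hA0, hrel⟩ := c_exists_vT2_rel (K := K) (N := N) (r := r) a ha haN hu
  exact c_dich_chart he hA0 hrel 𝔫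

/-- **dichotomy**, chart `1 / t2` -/
theorem c_dich_vT2_inv (hu : IsUnit (a : R))
    (𝔫 : Ideal (integralClosure (Algebra.adjoin R {(vT2 K r a ha haN)⁻¹}) (FK K (N * r * r))))
    [𝔫.IsPrime] :
    vJ1 K N r ∈ C.cLoc (FK K (N * r * r)) 𝔫 ∨ (vJ1 K N r)⁻¹ ∈ C.cLocM (FK K (N * r * r)) 𝔫 := by
  obtain ⟨A, e, hA, he, he', hA0, hrel⟩ := c_exists_vT2_rel (K := K) (N := N) (r := r) a ha haN hu
  have hT0 : vT2 K r a ha haN ≠ 0 := fun h0 =>
    transcendental_vT2 (K := K) (N := N) (r := r) a ha haN (h0 ▸ isAlgebraic_zero)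
  refine c_dich_chart (A := A.reverse) (e := A.natDegree - e) (by omega) ?_
    (c_dich_rel_inv he' hT0 hrel) 𝔫
  rw [coeff_zero_reverse, hA.leadingCoeff]
  exact isUnit_one

end conc

end Fermat.Agent.CARlib
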