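import Fermat.Agent.CAR.CAll
import Fermat.Agent.CAR.CInstV
import Fermat.Agent.CAR.V2Pi

/-!
# T-CAR, block C: OUTPUT in the modular setting (`c_all ∘ cInstV_*`), chart facts
-/

set_option autoImplicit false
set_option linter.unusedSectionVars false
set_option linter.unusedVariables false

open ModularCurve Polynomial

namespace Fermat.Agent.CARlib.C

open Fermat.Agent.ESlib Fermat.Agent.UNIlib Fermat.Agent.CARlib

variable {R K : Type} [CommRing R] [IsDomain R] [IsDiscreteValuationRing R] [Field K]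
  [Algebra R K] [IsFractionRing R K] [Algebra ℚ K] [CharZero K] [Algebra K ℂ] [IsScalarTower ℚ K ℂ]
  {N r : ℕ} [NeZero N] [NeZero r] [NeZero (N * r)] [NeZero (N * r * r)]
  [Algebra R (FK K (N * r))] [IsScalarTower R K (FK K (N * r))]
  [Algebra R (FK K (N * r * r))] [IsScalarTower R K (FK K (N * r * r))]

/-- **BLOCK C, OUTPUT, modular setting, any chart pair `(T₁, t2)`** -/
theorem c_final (hr : r.Prime) (hrN : ¬ r ∣ N) {π : R}
    {W : ValuationSubring (FK K (N * r * r))} (hπ : Irreducible π) (D : VCore hr hrN π W)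
    (hvf : ∀ z ∈ WVF R K N r, ∃ c ∈ VF1 R K N r,
      (z - i12 K N r c) / algebraMap R (FK K (N * r * r)) π ∈ WVF R K N r)
    {T₁ : FK K (N * r)} {t2 : FK K (N * r * r)} (he₁ : cE1 R K hr hrN T₁ = t2)
    (he₂ : cE2 R K N r T₁ = t2) (ht2 : Transcendental K t2)
    (hPi : ∀ x, PiInt π t2 x ↔ x ∈ WVF R K N r ∧ x ∈ WFV R hr hrN ∧ x ∈ W)
    {pF pV : Ideal (integralClosure (Algebra.adjoin R {T₁}) (FK K (N * r)))}
    (L : CLev1 (algebraMap R (integralClosure (Algebra.adjoin R {T₁}) (FK K (N * r))) π)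
      (VF1 R K N r) (VV1 R hr hrN) pF pV)
    (hmid : ∀ 𝔫 : Ideal (integralClosure (Algebra.adjoin R {t2}) (FK K (N * r * r))),
      𝔫.IsMaximal → cCen (integralClosure (Algebra.adjoin R {t2}) (FK K (N * r * r))) W ≤ 𝔫 →
      CMid (algebraMap R (integralClosure (Algebra.adjoin R {t2}) (FK K (N * r * r))) π) W 𝔫)
    (𝔫 : Ideal (integralClosure (Algebra.adjoin R {t2}) (FK K (N * r * r)))) (h𝔫 : 𝔫.IsMaximal)
    (hπ𝔫 : algebraMap R (integralClosure (Algebra.adjoin R {t2}) (FK K (N * r * r))) π ∈ 𝔫) :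
    (∃ P : Ideal (integralClosure (Algebra.adjoin R {t2}) (FK K (N * r * r))), P.IsPrime ∧
      (P = cCen _ (WFV R hr hrN : ValuationSubring (FK K (N * r * r))) ∨
        P = cCen _ (WVF R K N r) ∨ P = cCen _ W) ∧ P ≤ 𝔫 ∧ ∃ a t, a ≠ 0 ∧ CReg 𝔫 P a t) ∧
    (cCen _ (WFV R hr hrN : ValuationSubring (FK K (N * r * r))) ≤ 𝔫 →
      CDvr 𝔫 (cCen _ (WFV R hr hrN : ValuationSubring (FK K (N * r * r))))) ∧
    (cCen _ (WVF R K N r) ≤ 𝔫 → CDvr 𝔫 (cCen _ (WVF R K N r))) ∧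
    (cCen _ W ≤ 𝔫 → CDvr 𝔫 (cCen _ W)) :=
  c_all L (cInstV_H1 hr hrN hπ D hvf he₁ he₂ ht2 hPi) (cInstV_H2 hr hrN hπ D hvf he₁ he₂ ht2 hPi)
    (cInstV_M1 hr hrN hπ D he₁ hPi) (cInstV_pi hr hrN hπ D hPi).1 (cInstV_pi hr hrN hπ D hPi).2.1
    (fun 𝔫 h𝔫 h _ _ => hmid 𝔫 h𝔫 h) 𝔫 h𝔫 hπ𝔫

/-! ### the two charts -/

section charts

variable [Algebra R (FK K N)] [IsScalarTower R K (FK K N)]
  (a : ℕ) [NeZero a] (ha : a = 2 ∨ a = 3) (haN : a ∣ N) (hr : r.Prime) (hrN : ¬ r ∣ N)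

theorem cE1_chart :
    cE1 R K hr hrN (inclF K (dvd_mul_right N r) (tF K N a ha haN)) = vT2 K r a ha haN := by
  show e1 K hr hrN _ = _
  rw [tv_incl_tF, ← vT2_eq_e1]

theorem cE2_chart :
    cE2 R K N r (inclF K (dvd_mul_right N r) (tF K N a ha haN)) = vT2 K r a ha haN := by
  show e2 K N r _ = _
  rw [tv_incl_tF]
  rfl

theorem cE1_chart_inv :
    cE1 R K hr hrN (inclF K (dvd_mul_right N r) (tF K N a ha haN)⁻¹) = (vT2 K r a ha haN)⁻¹ := by
  rw [map_inv₀, map_inv₀, cE1_chart]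

theorem cE2_chart_inv :
    cE2 R K N r (inclF K (dvd_mul_right N r) (tF K N a ha haN)⁻¹) = (vT2 K r a ha haN)⁻¹ := by
  rw [map_inv₀, map_inv₀, cE2_chart]

theorem transcendental_vT2_inv : Transcendental K (vT2 K r a ha haN)⁻¹ := by
  intro h
  exact transcendental_vT2 a ha haN (by simpa using h.inv)

end charts

end Fermat.Agent.CARlib.C
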