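import Fermat.Agent.CAR.C2Mod
import Fermat.Agent.CAR.C3Inst
import Fermat.Agent.CAR.CDich
import Fermat.Agent.CAR.CLev1Top
import Fermat.Agent.CAR.CFinal
import Fermat.Agent.CAR.BInstFK

/-!
# T-CAR, block C, row (CHmid): the hypothesis `hmid` of `c_all` / `c_final` in the modular setting

`z' := 𝔫 ∩ B₀`; dichotomy at `z'` (`c_dich_chart`): either `j ∈ O₀` (non-cuspidal: `c2_mod` fed with
the output of BTop) or `1 / j ∈ 𝔪 O₀` (cuspidal: `c3_inst`).
-/

set_option autoImplicit false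
set_option linter.unusedSectionVars false
set_option linter.unusedVariables false
set_option linter.style.haveILetI false

open ModularCurve Polynomial

namespace Fermat.Agent.CARlib.C

open Fermat.Agent.ESlib Fermat.Agent.UNIlib Fermat.Agent.CARlib

/-- an element of `cLoc F₀ z'` comes from the concrete local ring `CO₀ F₀ z'` -/
theorem cHmid_exists_CO₀ {B₀ F₀ : Type*} [CommRing B₀] [IsDomain B₀] [Field F₀] [Algebra B₀ F₀]
    [IsFractionRing B₀ F₀] (z' : Ideal B₀) [z'.IsPrime] {x : F₀} (hx : x ∈ cLoc F₀ z') :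
    ∃ c : CO₀ F₀ z', algebraMap (CO₀ F₀ z') F₀ c = x := by
  obtain ⟨s, hs, b, hb⟩ := hx
  refine ⟨IsLocalization.mk' (CO₀ F₀ z') b (⟨s, hs⟩ : z'.primeCompl), ?_⟩
  have h1 := IsLocalization.mk'_spec (CO₀ F₀ z') b (⟨s, hs⟩ : z'.primeCompl)
  have h2 := congrArg (algebraMap (CO₀ F₀ z') F₀) h1
  rw [map_mul, ← IsScalarTower.algebraMap_apply B₀ (CO₀ F₀ z') F₀,
    ← IsScalarTower.algebraMap_apply B₀ (CO₀ F₀ z') F₀, ← hb] at h2
  have hs0 : algebraMap B₀ F₀ s ≠ 0 := by
    intro h0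
    apply hs
    have : s = 0 := IsFractionRing.injective B₀ F₀ (by rw [h0, map_zero])
    rw [this]
    exact z'.zero_mem
  have h3 : algebraMap (CO₀ F₀ z') F₀ (IsLocalization.mk' (CO₀ F₀ z') b (⟨s, hs⟩ : z'.primeCompl)) *
      algebraMap B₀ F₀ s = x * algebraMap B₀ F₀ s := by
    rw [h2, mul_comm]
  exact mul_right_cancel₀ hs0 h3

section main

variable {R K : Type} [CommRing R] [IsDomain R] [IsDiscreteValuationRing R] [Field K]
  [Algebra R K] [IsFractionRing R K] [Algebra ℚ K] [CharZero K] [Algebra K ℂ] [IsScalarTower ℚ K ℂ]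
  {N r : ℕ} [NeZero N] [NeZero r] [NeZero (N * r)] [NeZero (N * r * r)]
  [Algebra R (FK K N)] [IsScalarTower R K (FK K N)]
  [Algebra R (FK K (N * r))] [IsScalarTower R K (FK K (N * r))]
  [Algebra R (FK K (N * r * r))] [IsScalarTower R K (FK K (N * r * r))]
  [CharP (IsLocalRing.ResidueField R) r]

set_option maxHeartbeats 2000000 in
/-- **(CHmid), any chart `T₀` with `j T₀ ^ e = A(T₀)`, `A(0)` a unit** -/
theorem cHmid_gen [Algebra (FK K N) (FK K (N * r))] [IsScalarTower R (FK K N) (FK K (N * r))]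
    (halg : ∀ x, algebraMap (FK K N) (FK K (N * r)) x = inclF K (dvd_mul_right N r) x)
    (hr : r.Prime) (hrN : ¬ r ∣ N) (hN : (N : IsLocalRing.ResidueField R) ≠ 0) {π : R}
    {W : ValuationSubring (FK K (N * r * r))} (hπ : Irreducible π) (hπr : Associated π (r : R))
    (D : VCore hr hrN π W)
    {T₀ : FK K N} {t2 : FK K (N * r * r)}
    [IsFractionRing (integralClosure (Algebra.adjoin R {T₀}) (FK K N)) (FK K N)]
    (he₁ : cE1 R K hr hrN (algebraMap (FK K N) (FK K (N * r)) T₀) = t2)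
    (he₂ : cE2 R K N r (algebraMap (FK K N) (FK K (N * r)) T₀) = t2)
    (hsub : ∀ x : integralClosure (Algebra.adjoin R {t2}) (FK K (N * r * r)),
      (x : FK K (N * r * r)) ∈ W)
    (hB₁ : ∀ x : integralClosure (Algebra.adjoin R {algebraMap (FK K N) (FK K (N * r)) T₀})
        (FK K (N * r)),
      (x : FK K (N * r)) ∈ gaussSub R K (N * r) ∧
        wr K hr hrN (x : FK K (N * r)) ∈ gaussSub R K (N * r))
    {A : R[X]} {e : ℕ} (he : 0 < e) (hA0 : IsUnit (A.coeff 0))
    (hrel : J1 K N * T₀ ^ e = aeval T₀ A)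
    (hBTop : ∀ (z' : Ideal (integralClosure (Algebra.adjoin R {T₀}) (FK K N))) [z'.IsMaximal],
      algebraMap R _ π ∈ z' → (∃ c : CO₀ (FK K N) z', algebraMap _ (FK K N) c = J1 K N) →
      ∃ (b aF : CS₁ (FK K N) (FK K (N * r)) z'), Algebra.adjoin (CO₀ (FK K N) z') {b} = ⊤ ∧
        aF * aeval b (derivative (minpoly (CO₀ (FK K N) z') b)) =
          algebraMap (CO₀ (FK K N) z') (CS₁ (FK K N) (FK K (N * r)) z')
            (algebraMap (integralClosure (Algebra.adjoin R {T₀}) (FK K N)) (CO₀ (FK K N) z')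
              (algebraMap R (integralClosure (Algebra.adjoin R {T₀}) (FK K N)) π)))
    (𝔫 : Ideal (integralClosure (Algebra.adjoin R {t2}) (FK K (N * r * r)))) (h𝔫 : 𝔫.IsMaximal)
    (hP : cCen (integralClosure (Algebra.adjoin R {t2}) (FK K (N * r * r))) W ≤ 𝔫) :
    CMid (algebraMap R (integralClosure (Algebra.adjoin R {t2}) (FK K (N * r * r))) π) W 𝔫 := by
  obtain ⟨E, hE⟩ : ∃ E : integralClosure (Algebra.adjoin R {T₀}) (FK K N) →+*
      integralClosure (Algebra.adjoin R {t2}) (FK K (N * r * r)),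
      E = (cE (cE1 R K hr hrN) he₁).comp c2I0 := ⟨_, rfl⟩
  have hEint : E.IsIntegral := by
    rw [hE]
    exact RingHom.IsIntegral.trans _ _ (cE_isIntegral _ _) (cE_isIntegral _ _)
  have hcoe : ∀ b, algebraMap (integralClosure (Algebra.adjoin R {t2}) (FK K (N * r * r)))
      (FK K (N * r * r)) (E b) =
      (((cE1 R K hr hrN : FK K (N * r) →ₐ[R] FK K (N * r * r)) : FK K (N * r) →+*
        FK K (N * r * r)).comp (algebraMap (FK K N) (FK K (N * r))))
        (algebraMap (integralClosure (Algebra.adjoin R {T₀}) (FK K N)) (FK K N) b) := by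
    intro b
    rw [hE]
    rfl
  have hmax : (𝔫.comap E).IsMaximal :=
    Ideal.isMaximal_comap_of_isIntegral_of_isMaximal' E hEint 𝔫
  have hπW : W.valuation (algebraMap R (FK K (N * r * r)) π) < 1 := c3_val_pi D
  have hπ𝔫 : algebraMap R (integralClosure (Algebra.adjoin R {T₀}) (FK K N)) π ∈ 𝔫.comap E := by
    have h1 : E (algebraMap R (integralClosure (Algebra.adjoin R {T₀}) (FK K N)) π) =
        algebraMap R (integralClosure (Algebra.adjoin R {t2}) (FK K (N * r * r))) π := by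
      apply Subtype.ext
      refine (hcoe _).trans ?_
      show cE1 R K hr hrN (algebraMap (FK K N) (FK K (N * r)) (algebraMap R (FK K N) π)) =
        algebraMap R (FK K (N * r * r)) π
      rw [← IsScalarTower.algebraMap_apply R (FK K N) (FK K (N * r)), AlgHom.commutes]
    rw [Ideal.mem_comap, h1]
    exact hP ((mem_cCen hsub _).2 hπW)
  rcases c_dich_chart he hA0 hrel (𝔫.comap E) with h | h
  · obtain ⟨b, aF, hb, haF⟩ := hBTop (𝔫.comap E) hπ𝔫 (cHmid_exists_CO₀ _ h)
    exact c2_mod halg hr hrN hN D he₁ he₂ hsub hB₁ 𝔫 hP (𝔫.comap E) (by rw [hE])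
      (CO₀ (FK K N) (𝔫.comap E)) (CS₁ (FK K N) (FK K (N * r)) (𝔫.comap E))
      (cHmid_exists_CO₀ _ h) hb haF
  · refine c3_inst hπ hπr D hsub 𝔫 hP ?_
    have hcoe' : ∀ b, algebraMap (integralClosure (Algebra.adjoin R {t2}) (FK K (N * r * r)))
        (FK K (N * r * r)) (E b) = ((eps K N r : FK K N →ₐ[K] FK K (N * r * r)) : FK K N →+*
          FK K (N * r * r))
          (algebraMap (integralClosure (Algebra.adjoin R {T₀}) (FK K N)) (FK K N) b) := by
      intro b
      refine (hcoe b).trans ?_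
      show e1 K hr hrN (algebraMap (FK K N) (FK K (N * r)) (b : FK K N)) = eps K N r (b : FK K N)
      rw [halg, e1_inclF]
    have h1 := map_mem_cLocM hcoe' 𝔫 h
    have h2 : ((eps K N r : FK K N →ₐ[K] FK K (N * r * r)) : FK K N →+*
          FK K (N * r * r)) (J1 K N)⁻¹ = (vJ1 K N r)⁻¹ := by
      show eps K N r (J1 K N)⁻¹ = _
      rw [map_inv₀, c_eps_J1]
    rw [h2] at h1
    exact h1

/-! ### the two charts -/

section charts

variable (a : ℕ) [NeZero a] (ha : a = 2 ∨ a = 3) (haN : a ∣ N) {hr : r.Prime} {hrN : ¬ r ∣ N}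
  {W : ValuationSubring (FK K (N * r * r))}

set_option maxHeartbeats 2000000 in
/-- **(CHmid), chart `t`** (literal type of `hmid` in `XFinal`) -/
theorem cHmid_tF (hN : (N : IsLocalRing.ResidueField R) ≠ 0) (hπ : Irreducible ((r : ℕ) : R))
    (D : VCore hr hrN ((r : ℕ) : R) W) (hu : IsUnit ((a : ℕ) : R))
    (hPi : ∀ x, PiInt ((r : ℕ) : R) (vT2 K r a ha haN) x ↔
      x ∈ WVF R K N r ∧ x ∈ WFV R hr hrN ∧ x ∈ W)
    {q : ℕ} {ρ : FK K (N * r) →+* FK K (N * r)}
    (Hn : NodeHyp ((r : ℕ) : R) (inclF K (dvd_mul_right N r) (tF K N a ha haN)) (VF1 R K N r)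
      (VV1 R hr hrN) q ρ)
    (hBTop : letI : Algebra (FK K N) (FK K (N * r)) := (oldI K N r).toAlgebra
      haveI := binst_isFractionRing_tF K R N a ha haN
      ∀ (z' : Ideal (integralClosure (Algebra.adjoin R {tF K N a ha haN}) (FK K N)))
        [z'.IsMaximal],
      algebraMap R _ ((r : ℕ) : R) ∈ z' →
      (∃ c : CO₀ (FK K N) z', algebraMap _ (FK K N) c = J1 K N) →
      ∃ (b aF : CS₁ (FK K N) (FK K (N * r)) z'), Algebra.adjoin (CO₀ (FK K N) z') {b} = ⊤ ∧
        aF * aeval b (derivative (minpoly (CO₀ (FK K N) z') b)) =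
          algebraMap (CO₀ (FK K N) z') (CS₁ (FK K N) (FK K (N * r)) z')
            (algebraMap (integralClosure (Algebra.adjoin R {tF K N a ha haN}) (FK K N))
              (CO₀ (FK K N) z')
              (algebraMap R (integralClosure (Algebra.adjoin R {tF K N a ha haN}) (FK K N))
                ((r : ℕ) : R)))) :
    ∀ 𝔫 : Ideal (integralClosure (Algebra.adjoin R {vT2 K r a ha haN}) (FK K (N * r * r))),
      𝔫.IsMaximal →
      cCen (integralClosure (Algebra.adjoin R {vT2 K r a ha haN}) (FK K (N * r * r))) W ≤ 𝔫 →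
      CMid (algebraMap R
        (integralClosure (Algebra.adjoin R {vT2 K r a ha haN}) (FK K (N * r * r)))
          ((r : ℕ) : R)) W 𝔫 := by
  letI : Algebra (FK K N) (FK K (N * r)) := (oldI K N r).toAlgebra
  haveI := binst_isScalarTower K (N := N) (r := r) R
  haveI := binst_isFractionRing_tF K R N a ha haN
  obtain ⟨A, e, hA, he, he', hA0, hrel⟩ := b7_exists_tF_rel (K := K) (N := N) R a ha haN hu
  intro 𝔫 h𝔫 hP
  exact cHmid_gen (fun _ => rfl) hr hrN hN hπ (Associated.refl _) D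
    (cE1_chart a ha haN hr hrN) (cE2_chart a ha haN)
    (fun b => ((hPi _).1 (PiInt.of_isIntegral hπ.prime b.2)).2.2)
    (fun x => ⟨Hn.int_mem₁ x x.2, Hn.int_mem₂ x x.2⟩) he hA0 hrel hBTop 𝔫 h𝔫 hP

set_option maxHeartbeats 2000000 in
/-- **(CHmid), chart `1 / t`** (literal type of `hmidinv` in `XFinal`) -/
theorem cHmid_tF_inv (hN : (N : IsLocalRing.ResidueField R) ≠ 0) (hπ : Irreducible ((r : ℕ) : R))
    (D : VCore hr hrN ((r : ℕ) : R) W) (hu : IsUnit ((a : ℕ) : R))
    (hPi : ∀ x, PiInt ((r : ℕ) : R) (vT2 K r a ha haN)⁻¹ x ↔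
      x ∈ WVF R K N r ∧ x ∈ WFV R hr hrN ∧ x ∈ W)
    {q : ℕ} {ρ : FK K (N * r) →+* FK K (N * r)}
    (Hn : NodeHyp ((r : ℕ) : R) (inclF K (dvd_mul_right N r) (tF K N a ha haN)⁻¹) (VF1 R K N r)
      (VV1 R hr hrN) q ρ)
    (hBTop : letI : Algebra (FK K N) (FK K (N * r)) := (oldI K N r).toAlgebra
      haveI := binst_isFractionRing_tF_inv K R N a ha haN
      ∀ (z' : Ideal (integralClosure (Algebra.adjoin R {(tF K N a ha haN)⁻¹}) (FK K N)))
        [z'.IsMaximal],
      algebraMap R _ ((r : ℕ) : R) ∈ z' →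
      (∃ c : CO₀ (FK K N) z', algebraMap _ (FK K N) c = J1 K N) →
      ∃ (b aF : CS₁ (FK K N) (FK K (N * r)) z'), Algebra.adjoin (CO₀ (FK K N) z') {b} = ⊤ ∧
        aF * aeval b (derivative (minpoly (CO₀ (FK K N) z') b)) =
          algebraMap (CO₀ (FK K N) z') (CS₁ (FK K N) (FK K (N * r)) z')
            (algebraMap (integralClosure (Algebra.adjoin R {(tF K N a ha haN)⁻¹}) (FK K N))
              (CO₀ (FK K N) z')
              (algebraMap R (integralClosure (Algebra.adjoin R {(tF K N a ha haN)⁻¹}) (FK K N))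
                ((r : ℕ) : R)))) :
    ∀ 𝔫 : Ideal (integralClosure (Algebra.adjoin R {(vT2 K r a ha haN)⁻¹}) (FK K (N * r * r))),
      𝔫.IsMaximal →
      cCen (integralClosure (Algebra.adjoin R {(vT2 K r a ha haN)⁻¹}) (FK K (N * r * r))) W ≤ 𝔫 →
      CMid (algebraMap R
        (integralClosure (Algebra.adjoin R {(vT2 K r a ha haN)⁻¹}) (FK K (N * r * r)))
          ((r : ℕ) : R)) W 𝔫 := by
  letI : Algebra (FK K N) (FK K (N * r)) := (oldI K N r).toAlgebra
  haveI := binst_isScalarTower K (N := N) (r := r) R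
  haveI := binst_isFractionRing_tF_inv K R N a ha haN
  obtain ⟨A, e, hA, he, he', hA0, hrel⟩ := b7_exists_tF_rel (K := K) (N := N) R a ha haN hu
  have hA0' : IsUnit (A.reverse.coeff 0) := by
    rw [coeff_zero_reverse, hA.leadingCoeff]
    exact isUnit_one
  intro 𝔫 h𝔫 hP
  exact cHmid_gen (fun _ => rfl) hr hrN hN hπ (Associated.refl _) D
    (cE1_chart_inv a ha haN hr hrN) (cE2_chart_inv a ha haN)
    (fun b => ((hPi _).1 (PiInt.of_isIntegral hπ.prime b.2)).2.2)
    (fun x => ⟨Hn.int_mem₁ x x.2, Hn.int_mem₂ x x.2⟩) (e := A.natDegree - e) (by omega) hA0'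
    (c_dich_rel_inv he' (tF_ne_zero K N a ha haN) hrel) hBTop 𝔫 h𝔫 hP

end charts

end main

end Fermat.Agent.CARlib.C
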