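import Mathlib

/-!
# T-CAR, block C (level 2: every closed point is A1-regular): interface

ABSTRACT, ELEMENTWISE FORM (Mathlib only).  No local rings, no A3, no A4.

`B₁ ⊆ F₁`, `B₂ ⊆ F₂` normal models (global: integral closures of `R[T]`, `R[t2]`; or semilocal:
`S₁`, `S₂`), `e₁ e₂ : F₁ → F₂` the two degeneracy maps, `E₁ E₂ : B₁ → B₂` their restrictions,
`VF VV` the vertical valuation rings of `F₁`, `WFV WVF WVV` those of `F₂`.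

Rows: `c_gen`, `c0_*`, `c_all` (helper6), `c1_*` (helper11), `c2_*` (helper27), `c3_*` (helper19).
-/

set_option autoImplicit false

open IsLocalRing Polynomial

namespace Fermat.Agent.CARlib

/-- **elementwise A1-regularity** of `B` at the maximal ideal `𝔫`: the prime `P ≤ 𝔫` is generated by
`a` near `𝔫`, and `𝔫 / P` is generated by `t` near `𝔫`. -/
structure CReg {B : Type*} [CommRing B] (𝔫 P : Ideal B) (a t : B) : Prop where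
  a_mem : a ∈ P
  t_mem : t ∈ 𝔫
  gen : ∀ x ∈ P, ∃ s, s ∉ 𝔫 ∧ ∃ y, s * x = a * y
  dvr : ∀ x ∈ 𝔫, ∃ s, s ∉ 𝔫 ∧ ∃ y, s * x - t * y ∈ P

/-- `B / P` is a DVR (or a field) near `𝔫` -/
def CDvr {B : Type*} [CommRing B] (𝔫 P : Ideal B) : Prop :=
  ∃ t ∈ 𝔫, ∀ x ∈ 𝔫, ∃ s, s ∉ 𝔫 ∧ ∃ y, s * x - t * y ∈ P

/-- **(C-gen)** translation to the hypotheses of A1 (`ESlib.ufd_of_regular_two`) -/
theorem c_gen {B : Type*} [CommRing B] [IsDomain B] (𝔫 : Ideal B) [𝔫.IsMaximal] (P : Ideal B)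
    [P.IsPrime] (hP : P ≤ 𝔫) {a t : B} (ha : a ≠ 0) (h : CReg 𝔫 P a t) :
    Prime (algebraMap B (Localization.AtPrime 𝔫) a) ∧
    maximalIdeal (Localization.AtPrime 𝔫) =
      Ideal.span {algebraMap B (Localization.AtPrime 𝔫) a,
        algebraMap B (Localization.AtPrime 𝔫) t} := by
  sorry

/-- **level 1 bundle** (from T-UNI + block B) -/
structure CLev1 {B₁ F₁ : Type*} [CommRing B₁] [Field F₁] [Algebra B₁ F₁] (π₁ : B₁)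
    (VF VV : ValuationSubring F₁) (pF pV : Ideal B₁) : Prop where
  memF : ∀ b : B₁, b ∈ pF ↔ VF.valuation (algebraMap B₁ F₁ b) < 1
  memV : ∀ b : B₁, b ∈ pV ↔ VV.valuation (algebraMap B₁ F₁ b) < 1
  /-- `π` is a uniformiser of `VV` -/
  unifV : ∀ x : F₁, VV.valuation x < 1 → x / algebraMap B₁ F₁ π₁ ∈ VV
  /-- `B₁ / pV` is integrally closed in the residue field of `VV` (`NodeHyp.norm₂`) -/
  normV : ∀ Z ∈ VV, ∀ p : B₁[X], p.Monic → VV.valuation (aeval Z p) < 1 →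
    ∃ x : B₁, VV.valuation (Z - algebraMap B₁ F₁ x) < 1
  /-- `B₁ / pV` is a Dedekind domain -/
  dvrV : ∀ 𝔫₁ : Ideal B₁, 𝔫₁.IsMaximal → pV ≤ 𝔫₁ → CDvr 𝔫₁ pV
  /-- **thickness one** at the nodes (B5): `a = π/θ`, `b = θ` up to a local unit `c` -/
  thick : ∀ 𝔫₁ : Ideal B₁, 𝔫₁.IsMaximal → pF ≤ 𝔫₁ → pV ≤ 𝔫₁ →
    ∃ a b c : B₁, a * b = π₁ * c ∧ c ∉ 𝔫₁ ∧ a ∈ pF ∧ b ∈ pV

/-- **one component `W` of level 2 of type FV/VF**: `W | VF` along `ea`, `W | VV` with `e = f = 1`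
along `eb`; `W'`, `W''` are the other two vertical valuations, both over `VV` along `ea`.
(`WFV`: `ea = e₁`, `eb = e₂`; `WVF`: `ea = e₂`, `eb = e₁`.) -/
structure CPull {B₁ B₂ F₁ F₂ : Type*} [CommRing B₁] [CommRing B₂] [Field F₁] [Field F₂]
    [Algebra B₁ F₁] [Algebra B₂ F₂] (π₁ : B₁) (π₂ : B₂) (Ea Eb : B₁ →+* B₂) (ea eb : F₁ →+* F₂)
    (VF VV : ValuationSubring F₁) (W W' W'' : ValuationSubring F₂) (P : Ideal B₂) : Prop where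
  inj₂ : Function.Injective (algebraMap B₂ F₂)
  pi_ne : π₂ ≠ 0
  hEa : ∀ b, algebraMap B₂ F₂ (Ea b) = ea (algebraMap B₁ F₁ b)
  hEb : ∀ b, algebraMap B₂ F₂ (Eb b) = eb (algebraMap B₁ F₁ b)
  hπa : Ea π₁ = π₂
  intA : Ea.IsIntegral
  intB : Eb.IsIntegral
  sub : ∀ b : B₂, algebraMap B₂ F₂ b ∈ W
  sub' : ∀ b : B₂, algebraMap B₂ F₂ b ∈ W'
  sub'' : ∀ b : B₂, algebraMap B₂ F₂ b ∈ W''
  memP : ∀ b : B₂, b ∈ P ↔ W.valuation (algebraMap B₂ F₂ b) < 1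
  /-- key criterion (V2 + `isIntegral_of_piInt`) -/
  KC : ∀ x : F₂, (∃ b : B₂, algebraMap B₂ F₂ b = algebraMap B₂ F₂ π₂ * x) → x ∈ W → x ∈ W' →
    x ∈ W'' → ∃ b : B₂, algebraMap B₂ F₂ b = x
  unif : ∀ x : F₂, W.valuation x < 1 → x / algebraMap B₂ F₂ π₂ ∈ W
  comap_a : W.comap ea = VF
  comap_a' : W'.comap ea = VV
  comap_a'' : W''.comap ea = VV
  comap_b : W.comap eb = VV
  /-- residue degree one along `eb` -/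
  res : ∀ x ∈ W, ∃ u ∈ VV, W.valuation (x - eb u) < 1

section pull

variable {B₁ B₂ F₁ F₂ : Type*} [CommRing B₁] [CommRing B₂] [Field F₁] [Field F₂]
  [Algebra B₁ F₁] [Algebra B₂ F₂] {π₁ : B₁} {π₂ : B₂} {Ea Eb : B₁ →+* B₂} {ea eb : F₁ →+* F₂}
  {VF VV : ValuationSubring F₁} {W W' W'' : ValuationSubring F₂} {P : Ideal B₂} {pF pV : Ideal B₁}

/-- **(C1-i)** `x ∈ P`, `a b = π c`, `a ∈ pF`, `b ∈ pV` ⇒ `Ea c * x = Ea a * y`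
(`y := x * ea b / π ∈ B₂` by `KC`) -/
theorem c1_pull_gen (L : CLev1 π₁ VF VV pF pV) (H : CPull π₁ π₂ Ea Eb ea eb VF VV W W' W'' P)
    {a b c : B₁} (habc : a * b = π₁ * c) (hb : b ∈ pV) {x : B₂} (hx : x ∈ P) :
    ∃ y : B₂, Ea c * x = Ea a * y := by
  sorry

/-- **(C1-RES)** `B₂ = Eb B₁ + P` -/
theorem c1_res (L : CLev1 π₁ VF VV pF pV) (H : CPull π₁ π₂ Ea Eb ea eb VF VV W W' W'' P)
    (x : B₂) : ∃ u : B₁, x - Eb u ∈ P := by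
  sorry

/-- **(C1-ii)** `B₂ / P` is a DVR near every maximal ideal -/
theorem c1_dvr (L : CLev1 π₁ VF VV pF pV) (H : CPull π₁ π₂ Ea Eb ea eb VF VV W W' W'' P)
    (𝔫 : Ideal B₂) (h𝔫 : 𝔫.IsMaximal) (hP : P ≤ 𝔫) : CDvr 𝔫 P := by
  sorry

/-- **(C1, PULL)** every maximal ideal on the component `W` is A1-regular -/
theorem c1_pull (L : CLev1 π₁ VF VV pF pV) (H : CPull π₁ π₂ Ea Eb ea eb VF VV W W' W'' P)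
    (𝔫 : Ideal B₂) (h𝔫 : 𝔫.IsMaximal) (hP : P ≤ 𝔫) : ∃ a t : B₂, a ≠ 0 ∧ CReg 𝔫 P a t := by
  sorry

/-- **(C0-a)** if `pr_a 𝔫` lies on `C_F` then `𝔫` lies on the component `W` -/
theorem c1_le_of_comap (L : CLev1 π₁ VF VV pF pV)
    (H : CPull π₁ π₂ Ea Eb ea eb VF VV W W' W'' P)
    (𝔫 : Ideal B₂) (h𝔫 : 𝔫.IsMaximal) (h : pF ≤ 𝔫.comap Ea) : P ≤ 𝔫 := by
  sorry

end pull

/-- **the middle component** `WVV` (`e = r - 1`, `f = 1` along `e₁`) -/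
structure CMidV {B₁ B₂ F₁ F₂ : Type*} [CommRing B₁] [CommRing B₂] [Field F₁] [Field F₂]
    [Algebra B₁ F₁] [Algebra B₂ F₂] (π₂ : B₂) (E₁ : B₁ →+* B₂) (e₁ : F₁ →+* F₂)
    (VV : ValuationSubring F₁) (WVV : ValuationSubring F₂) (PVV : Ideal B₂) : Prop where
  hE₁ : ∀ b, algebraMap B₂ F₂ (E₁ b) = e₁ (algebraMap B₁ F₁ b)
  int₁ : E₁.IsIntegral
  sub : ∀ b : B₂, algebraMap B₂ F₂ b ∈ WVV
  memP : ∀ b : B₂, b ∈ PVV ↔ WVV.valuation (algebraMap B₂ F₂ b) < 1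
  comap₁ : WVV.comap e₁ = VV
  res : ∀ x ∈ WVV, ∃ u ∈ VV, WVV.valuation (x - e₁ u) < 1
  /-- finite ramification -/
  ram : ∃ N : ℕ, ∀ x : F₂, WVV.valuation x < 1 → x ^ N / algebraMap B₂ F₂ π₂ ∈ WVV

/-- **local generator of `P_VV`** at `𝔫` (output of C2, C3) -/
def CMid {B₂ F₂ : Type*} [CommRing B₂] [Field F₂] [Algebra B₂ F₂] (π₂ : B₂)
    (WVV : ValuationSubring F₂) (𝔫 : Ideal B₂) : Prop :=
  ∃ y h c : B₂, c ∉ 𝔫 ∧ π₂ * c = y * h ∧ WVV.valuation (algebraMap B₂ F₂ y) < 1 ∧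
    ∀ x : F₂, WVV.valuation x < 1 → x / algebraMap B₂ F₂ y ∈ WVV

section all

variable {B₁ B₂ F₁ F₂ : Type*} [CommRing B₁] [CommRing B₂] [Field F₁] [Field F₂]
  [Algebra B₁ F₁] [Algebra B₂ F₂] {π₁ : B₁} {π₂ : B₂} {E₁ E₂ : B₁ →+* B₂} {e₁ e₂ : F₁ →+* F₂}
  {VF VV : ValuationSubring F₁} {WFV WVF WVV : ValuationSubring F₂} {PFV PVF PVV : Ideal B₂}
  {pF pV : Ideal B₁}

/-- `B₂ / P_VV` is a DVR near every maximal ideal (same proof as `c1_dvr`) -/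
theorem c1_dvr_mid (L : CLev1 π₁ VF VV pF pV) (M : CMidV π₂ E₁ e₁ VV WVV PVV)
    (𝔫 : Ideal B₂) (h𝔫 : 𝔫.IsMaximal) (hP : PVV ≤ 𝔫) : CDvr 𝔫 PVV := by
  sorry

/-- **(C0)** every maximal ideal `∋ π` lies on one of the three components -/
theorem c0_class (H₁ : CPull π₁ π₂ E₁ E₂ e₁ e₂ VF VV WFV WVF WVV PFV)
    (H₂ : CPull π₁ π₂ E₂ E₁ e₂ e₁ VF VV WVF WFV WVV PVF) (M : CMidV π₂ E₁ e₁ VV WVV PVV)
    (𝔫 : Ideal B₂) (h𝔫 : 𝔫.IsMaximal) (hπ : π₂ ∈ 𝔫) : PFV ≤ 𝔫 ∨ PVF ≤ 𝔫 ∨ PVV ≤ 𝔫 := by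
  sorry

/-- **(GEN)** at a middle point a `CMid` datum generates `P_VV` -/
theorem c_mid_gen (H₁ : CPull π₁ π₂ E₁ E₂ e₁ e₂ VF VV WFV WVF WVV PFV)
    (H₂ : CPull π₁ π₂ E₂ E₁ e₂ e₁ VF VV WVF WFV WVV PVF) (M : CMidV π₂ E₁ e₁ VV WVV PVV)
    (𝔫 : Ideal B₂) (h𝔫 : 𝔫.IsMaximal) (h1 : ¬ PFV ≤ 𝔫) (h2 : ¬ PVF ≤ 𝔫)
    {y h c : B₂} (hc : c ∉ 𝔫) (hyh : π₂ * c = y * h)
    (hy : ∀ x : F₂, WVV.valuation x < 1 → x / algebraMap B₂ F₂ y ∈ WVV) {x : B₂} (hx : x ∈ PVV) :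
    ∃ s, s ∉ 𝔫 ∧ ∃ z, s * x = y * z := by
  sorry

/-- **(C2, abstract core)**: `G = g / (Y - b)`, `θ = G(b)`, `θ d = π c` -/
theorem c2_abs (hπ : E₁ π₁ = π₂) (𝔫 : Ideal B₂) {b d c : B₁} {G : B₁[X]}
    (hG : (G.map E₁).eval (E₂ b) = 0) (hθ : G.eval b * d = π₁ * c) (hc : E₁ c ∉ 𝔫)
    (hlt : WVV.valuation (algebraMap B₂ F₂ (E₂ b - E₁ b)) < 1)
    (hy : ∀ x : F₂, WVV.valuation x < 1 → x / algebraMap B₂ F₂ (E₂ b - E₁ b) ∈ WVV) :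
    CMid π₂ WVV 𝔫 := by
  sorry

/-- **BLOCK C, OUTPUT** -/
theorem c_all (L : CLev1 π₁ VF VV pF pV) (H₁ : CPull π₁ π₂ E₁ E₂ e₁ e₂ VF VV WFV WVF WVV PFV)
    (H₂ : CPull π₁ π₂ E₂ E₁ e₂ e₁ VF VV WVF WFV WVV PVF) (M : CMidV π₂ E₁ e₁ VV WVV PVV)
    (hmid : ∀ 𝔫 : Ideal B₂, 𝔫.IsMaximal → PVV ≤ 𝔫 → ¬ PFV ≤ 𝔫 → ¬ PVF ≤ 𝔫 → CMid π₂ WVV 𝔫)
    (𝔫 : Ideal B₂) (h𝔫 : 𝔫.IsMaximal) (hπ : π₂ ∈ 𝔫) :
    (∃ P : Ideal B₂, (P = PFV ∨ P = PVF ∨ P = PVV) ∧ P ≤ 𝔫 ∧ ∃ a t : B₂, a ≠ 0 ∧ CReg 𝔫 P a t) ∧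
    (PFV ≤ 𝔫 → CDvr 𝔫 PFV) ∧ (PVF ≤ 𝔫 → CDvr 𝔫 PVF) ∧ (PVV ≤ 𝔫 → CDvr 𝔫 PVV) := by
  sorry

end all

end Fermat.Agent.CARlib
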