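import Fermat.Agent.CAR.CDefs
import Fermat.Agent.ES.C.AK12

/-!
# T-CAR, block C: `CLev1.dvrV` and `CLev1.thick` for the GLOBAL ring `B₁` from the semilocal data
of block B (`BData` + `b5_TH1`).

`B₀ → B₁` global rings (`i₀`), `𝔫₁` a maximal ideal of `B₁`, `O₀` = local ring of `B₀` at
`𝔫₁ ∩ B₀` (`l₀ : B₀ → O₀`), `S₁` = integral closure of `O₀` in `F₁`.
The dictionary `CDict` says that `S₁ = (B₀ ∖ 𝔫₀)⁻¹ B₁` inside `F₁`, elementwise.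
-/

set_option autoImplicit false

open IsLocalRing Polynomial

namespace Fermat.Agent.CARlib.C

/-- **dictionary** between the global ring `B₁` near `𝔫₁` and the semilocal ring `S₁ ⊆ F₁` -/
structure CDict {B₀ B₁ O₀ S₁ F₁ : Type*} [CommRing B₀] [CommRing B₁] [CommRing O₀] [IsLocalRing O₀]
    [CommRing S₁] [Field F₁] [Algebra B₁ F₁] [Algebra O₀ S₁] [Algebra S₁ F₁]
    (i₀ : B₀ →+* B₁) (l₀ : B₀ →+* O₀) (𝔫₁ : Ideal B₁) : Prop where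
  inj₁ : Function.Injective (algebraMap B₁ F₁)
  injS : Function.Injective (algebraMap S₁ F₁)
  compat : ∀ m : B₀, algebraMap S₁ F₁ (algebraMap O₀ S₁ (l₀ m)) = algebraMap B₁ F₁ (i₀ m)
  up : ∀ b : B₁, ∃ x : S₁, algebraMap S₁ F₁ x = algebraMap B₁ F₁ b
  down : ∀ x : S₁, ∃ m : B₀, i₀ m ∉ 𝔫₁ ∧
    ∃ b : B₁, algebraMap B₁ F₁ b = algebraMap B₁ F₁ (i₀ m) * algebraMap S₁ F₁ x
  down₀ : ∀ a : O₀, ∃ m : B₀, i₀ m ∉ 𝔫₁ ∧ ∃ a' : B₀, l₀ a' = l₀ m * a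
  unit : ∀ m : B₀, i₀ m ∉ 𝔫₁ → IsUnit (l₀ m)
  nonunit : ∀ m : B₀, i₀ m ∈ 𝔫₁ → l₀ m ∈ maximalIdeal O₀

section core

variable {B₀ B₁ O₀ S₁ F₁ : Type*} [CommRing B₀] [CommRing B₁] [CommRing O₀] [IsLocalRing O₀]
  [CommRing S₁] [Field F₁] [Algebra B₁ F₁] [Algebra O₀ S₁] [Algebra S₁ F₁]
  {i₀ : B₀ →+* B₁} {l₀ : B₀ →+* O₀} {𝔫₁ : Ideal B₁}

/-- **thickness one**, global form -/
theorem cLev1Of_thick (H : CDict (S₁ := S₁) (F₁ := F₁) i₀ l₀ 𝔫₁) [𝔫₁.IsPrime] {π₀ : B₀}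
    {pF pV : Ideal B₁} {pF' pV' : Ideal S₁}
    (hF : ∀ (b : B₁) (x : S₁), algebraMap S₁ F₁ x = algebraMap B₁ F₁ b → x ∈ pF' → b ∈ pF)
    (hV : ∀ (b : B₁) (x : S₁), algebraMap S₁ F₁ x = algebraMap B₁ F₁ b → x ∈ pV' → b ∈ pV)
    {aF θ : S₁} (haθ : aF * θ = algebraMap O₀ S₁ (l₀ π₀)) (haF : aF ∈ pF') (hθ : θ ∈ pV') :
    ∃ a b c : B₁, a * b = i₀ π₀ * c ∧ c ∉ 𝔫₁ ∧ a ∈ pF ∧ b ∈ pV := by
  obtain ⟨m, hm, a, ha⟩ := H.down aF
  obtain ⟨m', hm', b, hb⟩ := H.down θ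
  refine ⟨a, b, i₀ m * i₀ m', ?_, ?_, ?_, ?_⟩
  · apply H.inj₁
    rw [map_mul, map_mul, map_mul, ha, hb, ← H.compat π₀, ← haθ, map_mul]
    ring
  · intro h
    rcases Ideal.IsPrime.mem_or_mem ‹_› h with h | h
    · exact hm h
    · exact hm' h
  · refine hF a (algebraMap O₀ S₁ (l₀ m) * aF) ?_ (pF'.mul_mem_left _ haF)
    rw [map_mul, H.compat, ha]
  · refine hV b (algebraMap O₀ S₁ (l₀ m') * θ) ?_ (pV'.mul_mem_left _ hθ)
    rw [map_mul, H.compat, hb]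

/-- **`B₁ / pV` is a DVR near `𝔫₁`**, global form -/
theorem cLev1Of_dvrV (H : CDict (S₁ := S₁) (F₁ := F₁) i₀ l₀ 𝔫₁) [𝔫₁.IsPrime]
    {pV : Ideal B₁} {pV' : Ideal S₁} (hle : pV ≤ 𝔫₁)
    (hV : ∀ (b : B₁) (x : S₁), algebraMap S₁ F₁ x = algebraMap B₁ F₁ b → x ∈ pV' → b ∈ pV)
    {π t : O₀} (hmax : maximalIdeal O₀ = Ideal.span {π, t}) (hπ : algebraMap O₀ S₁ π ∈ pV')
    {s : S₁} {r : ℕ} (hr : 0 < r)
    (surjV : ∀ x : S₁, ∃ (a : O₀) (y : S₁), x - algebraMap O₀ S₁ a - s * y ∈ pV')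
    (s_pow : s ^ r - algebraMap O₀ S₁ t ∈ pV') : CDvr 𝔫₁ pV := by
  -- the global version `σ` of `s`
  obtain ⟨m₂, hm₂, σ, hσ⟩ := H.down s
  have ht : t ∈ maximalIdeal O₀ := by
    rw [hmax]; exact Ideal.subset_span (by simp)
  -- `σ ∈ 𝔫₁`
  have hσ𝔫 : σ ∈ 𝔫₁ := by
    obtain ⟨m₄, hm₄, t', ht'⟩ := H.down₀ t
    have ht'𝔫 : i₀ t' ∈ 𝔫₁ := by
      by_contra hcon
      have h1 := H.unit t' hcon
      rw [ht'] at h1
      exact (IsLocalRing.mem_maximalIdeal _).1 ht (isUnit_of_mul_isUnit_right h1)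
    have h2 : i₀ m₄ * σ ^ r - i₀ m₂ ^ r * i₀ t' ∈ pV := by
      refine hV _ (algebraMap O₀ S₁ (l₀ m₄) * algebraMap O₀ S₁ (l₀ m₂) ^ r *
        (s ^ r - algebraMap O₀ S₁ t)) ?_ (pV'.mul_mem_left _ s_pow)
      rw [map_mul, map_mul, map_pow, map_sub, map_pow, H.compat, H.compat, map_sub, map_mul,
        map_mul, map_pow, map_pow, hσ, ← H.compat t', ht', map_mul, map_mul, H.compat]
      ring
    have h3 : i₀ m₄ * σ ^ r ∈ 𝔫₁ := by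
      have := 𝔫₁.add_mem (hle h2) (𝔫₁.mul_mem_left (i₀ m₂ ^ r) ht'𝔫)
      rwa [sub_add_cancel] at this
    rcases Ideal.IsPrime.mem_or_mem ‹_› h3 with h | h
    · exact absurd h hm₄
    · exact Ideal.IsPrime.mem_of_pow_mem ‹_› r h
  refine ⟨σ, hσ𝔫, fun x hx => ?_⟩
  obtain ⟨x', hx'⟩ := H.up x
  obtain ⟨a, y, hay⟩ := surjV x'
  -- `a ∈ 𝔪₀`
  have ha : a ∈ maximalIdeal O₀ := by
    obtain ⟨m₁, hm₁, a', ha'⟩ := H.down₀ a
    obtain ⟨m₃, hm₃, η, hη⟩ := H.down y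
    have h2 : i₀ m₁ * i₀ m₂ * i₀ m₃ * x - i₀ m₂ * i₀ m₃ * i₀ a' - i₀ m₁ * σ * η ∈ pV := by
      refine hV _ (algebraMap O₀ S₁ (l₀ m₁) * algebraMap O₀ S₁ (l₀ m₂) * algebraMap O₀ S₁ (l₀ m₃) *
        (x' - algebraMap O₀ S₁ a - s * y)) ?_ (pV'.mul_mem_left _ hay)
      simp only [map_mul, map_sub, H.compat, hx', hσ, hη]
      rw [← H.compat a', ha', map_mul, map_mul, H.compat]
      ring
    have h3 : i₀ m₂ * i₀ m₃ * i₀ a' ∈ 𝔫₁ := by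
      have h4 := 𝔫₁.sub_mem (𝔫₁.sub_mem (𝔫₁.mul_mem_left (i₀ m₁ * i₀ m₂ * i₀ m₃) hx)
        (𝔫₁.mul_mem_right η (𝔫₁.mul_mem_left (i₀ m₁) hσ𝔫))) (hle h2)
      convert h4 using 1
      ring
    have h5 : i₀ a' ∈ 𝔫₁ := by
      rcases Ideal.IsPrime.mem_or_mem ‹_› h3 with h | h
      · rcases Ideal.IsPrime.mem_or_mem ‹_› h with h | h
        · exact absurd h hm₂
        · exact absurd h hm₃
      · exact h
    have h6 := H.nonunit a' h5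
    rw [ha'] at h6
    rcases Ideal.IsPrime.mem_or_mem (inferInstance : (maximalIdeal O₀).IsPrime) h6 with h | h
    · exact absurd (H.unit m₁ hm₁) ((IsLocalRing.mem_maximalIdeal _).1 h)
    · exact h
  rw [hmax, Ideal.mem_span_pair] at ha
  obtain ⟨a₁, a₂, rfl⟩ := ha
  -- `x' ≡ s * y'` modulo `pV'`
  obtain ⟨k, rfl⟩ : ∃ k, r = k + 1 := ⟨r - 1, by omega⟩
  set y' : S₁ := y + s ^ k * algebraMap O₀ S₁ a₂ with hy'
  have h7 : x' - s * y' ∈ pV' := by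
    have h8 := pV'.add_mem (pV'.sub_mem hay (pV'.mul_mem_left (algebraMap O₀ S₁ a₂) s_pow))
      (pV'.mul_mem_left (algebraMap O₀ S₁ a₁) hπ)
    convert h8 using 1
    rw [hy', map_add, map_mul, map_mul]
    ring
  obtain ⟨m₃, hm₃, η, hη⟩ := H.down y'
  refine ⟨i₀ m₂ * i₀ m₃, ?_, η, ?_⟩
  · intro h
    rcases Ideal.IsPrime.mem_or_mem ‹_› h with h | h
    · exact hm₂ h
    · exact hm₃ h
  · refine hV _ (algebraMap O₀ S₁ (l₀ m₂) * algebraMap O₀ S₁ (l₀ m₃) * (x' - s * y')) ?_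
      (pV'.mul_mem_left _ h7)
    simp only [map_mul, map_sub, H.compat, hx', hσ, hη]
    ring

end core

section core2
variable {B₀ B₁ O₀ S₁ F₁ : Type*} [CommRing B₀] [CommRing B₁] [CommRing O₀] [IsLocalRing O₀]
  [CommRing S₁] [Field F₁] [Algebra B₁ F₁] [Algebra O₀ S₁] [Algebra S₁ F₁]
  {i₀ : B₀ →+* B₁} {l₀ : B₀ →+* O₀} {𝔫₁ : Ideal B₁}

/-- a node of `B₁` is a node of `S₁` -/
theorem cLev1Of_sup_ne_top (H : CDict (S₁ := S₁) (F₁ := F₁) i₀ l₀ 𝔫₁) [𝔫₁.IsPrime]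
    {pF pV : Ideal B₁} {pF' pV' : Ideal S₁} (hleF : pF ≤ 𝔫₁) (hleV : pV ≤ 𝔫₁)
    (hF : ∀ (b : B₁) (x : S₁), algebraMap S₁ F₁ x = algebraMap B₁ F₁ b → x ∈ pF' → b ∈ pF)
    (hV : ∀ (b : B₁) (x : S₁), algebraMap S₁ F₁ x = algebraMap B₁ F₁ b → x ∈ pV' → b ∈ pV) :
    pF' ⊔ pV' ≠ ⊤ := by
  intro htop
  have h1 : (1 : S₁) ∈ pF' ⊔ pV' := by rw [htop]; trivial
  obtain ⟨f, hf, v, hv, hfv⟩ := Submodule.mem_sup.1 h1
  obtain ⟨m, hm, a, ha⟩ := H.down f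
  obtain ⟨m', hm', b, hb⟩ := H.down v
  have h2 : i₀ m' * a ∈ pF := by
    refine hF _ (algebraMap O₀ S₁ (l₀ m') * algebraMap O₀ S₁ (l₀ m) * f) ?_ (pF'.mul_mem_left _ hf)
    rw [map_mul, map_mul, map_mul, H.compat, H.compat, ha]; ring
  have h3 : i₀ m * b ∈ pV := by
    refine hV _ (algebraMap O₀ S₁ (l₀ m) * algebraMap O₀ S₁ (l₀ m') * v) ?_ (pV'.mul_mem_left _ hv)
    rw [map_mul, map_mul, map_mul, H.compat, H.compat, hb]; ring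
  have h4 : i₀ m * i₀ m' = i₀ m' * a + i₀ m * b := by
    apply H.inj₁
    rw [map_add, map_mul, map_mul, map_mul, ha, hb]
    have : algebraMap S₁ F₁ f + algebraMap S₁ F₁ v = 1 := by rw [← map_add, hfv, map_one]
    linear_combination (-(algebraMap B₁ F₁ (i₀ m) * algebraMap B₁ F₁ (i₀ m'))) * this
  have h5 : i₀ m * i₀ m' ∈ 𝔫₁ := by
    rw [h4]; exact 𝔫₁.add_mem (hleF h2) (hleV h3)
  rcases Ideal.IsPrime.mem_or_mem ‹_› h5 with h | h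
  · exact hm h
  · exact hm' h

end core2

/-- `z / ϖ ∈ V`, `ϖ` a non unit ⇒ `v(z) < 1` -/
theorem val_lt_one_of_div_mem {F : Type*} [Field F] {V : ValuationSubring F} {ϖ z : F}
    (hϖ : ϖ⁻¹ ∉ V) (h : z / ϖ ∈ V) : V.valuation z < 1 := by
  have hϖ0 : ϖ ≠ 0 := by
    rintro rfl
    exact hϖ (by rw [inv_zero]; exact V.zero_mem)
  have h1 : V.valuation ϖ < 1 := (val_lt_one_iff V ϖ).2 (Or.inr hϖ)
  have h2 : z = z / ϖ * ϖ := by field_simp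
  rw [h2, map_mul]
  calc V.valuation (z / ϖ) * V.valuation ϖ ≤ 1 * V.valuation ϖ :=
        mul_le_mul_left ((V.valuation_le_one_iff _).2 h) _
    _ < 1 := by rwa [one_mul]

/-- the dictionary for `O₀` = localisation of `B₀` at `𝔫₁ ∩ B₀`, `S₁` = integral closure of `O₀`,
`B₁` = integral closure of `B₀` (elementwise) -/
theorem cDict_of_isLocalization {B₀ B₁ O₀ S₁ F₁ : Type*} [CommRing B₀] [CommRing B₁] [CommRing O₀]
    [IsLocalRing O₀] [CommRing S₁] [Field F₁] [Algebra B₁ F₁] [Algebra O₀ S₁] [Algebra S₁ F₁]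
    [Algebra B₀ O₀] [Algebra B₀ F₁] [Algebra O₀ F₁] [IsScalarTower B₀ O₀ F₁]
    [IsScalarTower O₀ S₁ F₁] [IsIntegralClosure S₁ O₀ F₁]
    (i₀ : B₀ →+* B₁) (𝔫₁ : Ideal B₁) [𝔫₁.IsPrime] [IsLocalization.AtPrime O₀ (𝔫₁.comap i₀)]
    (hi₀ : ∀ m, algebraMap B₁ F₁ (i₀ m) = algebraMap B₀ F₁ m)
    (inj₁ : Function.Injective (algebraMap B₁ F₁))
    (hint : ∀ b : B₁, IsIntegral B₀ (algebraMap B₁ F₁ b))
    (hcl : ∀ z : F₁, IsIntegral B₀ z → ∃ b : B₁, algebraMap B₁ F₁ b = z) :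
    CDict (S₁ := S₁) (F₁ := F₁) i₀ (algebraMap B₀ O₀) 𝔫₁ where
  inj₁ := inj₁
  injS := IsIntegralClosure.algebraMap_injective S₁ O₀ F₁
  compat m := by
    rw [← IsScalarTower.algebraMap_apply O₀ S₁ F₁, ← IsScalarTower.algebraMap_apply B₀ O₀ F₁, hi₀]
  up b := IsIntegralClosure.isIntegral_iff.1 ((hint b).tower_top (A := O₀))
  down x := by
    have hx : IsIntegral O₀ (algebraMap S₁ F₁ x) := IsIntegralClosure.isIntegral_iff.2 ⟨x, rfl⟩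
    obtain ⟨m, hm⟩ := IsIntegral.exists_multiple_integral_of_isLocalization
      (𝔫₁.comap i₀).primeCompl (algebraMap S₁ F₁ x) hx
    obtain ⟨b, hb⟩ := hcl _ hm
    refine ⟨m, fun h => m.2 (Ideal.mem_comap.2 h), b, ?_⟩
    rw [hb, hi₀, Submonoid.smul_def, Algebra.smul_def]
  down₀ a := by
    obtain ⟨⟨a', m⟩, h⟩ := IsLocalization.surj (𝔫₁.comap i₀).primeCompl a
    exact ⟨m, fun h => m.2 (Ideal.mem_comap.2 h), a', by rw [← h, mul_comm]⟩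
  unit m hm := IsLocalization.map_units O₀ (⟨m, fun h => hm (Ideal.mem_comap.1 h)⟩ :
    (𝔫₁.comap i₀).primeCompl)
  nonunit m hm := (IsLocalization.AtPrime.to_map_mem_maximal_iff O₀ (𝔫₁.comap i₀) m).2
    (Ideal.mem_comap.2 hm)

open Fermat.Agent.ESlib

section concrete

variable {R F₀ F₁ : Type*} [CommRing R] [Field F₀] [Field F₁] [Algebra R F₀] [Algebra R F₁]
  [Algebra F₀ F₁] [IsScalarTower R F₀ F₁]

/-- the inclusion `B₀ → B₁` of the integral closures of `R[T₀]` -/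
def cI₀ (R : Type*) {F₀ : Type*} (F₁ : Type*) [CommRing R] [Field F₀] [Field F₁] [Algebra R F₀]
    [Algebra R F₁] [Algebra F₀ F₁] [IsScalarTower R F₀ F₁] (T₀ : F₀) :
    integralClosure (Algebra.adjoin R {T₀}) F₀ →+*
      integralClosure (Algebra.adjoin R {algebraMap F₀ F₁ T₀}) F₁ :=
  ((algebraMap F₀ F₁).comp (integralClosure (Algebra.adjoin R {T₀}) F₀).val.toRingHom).codRestrict
    (integralClosure (Algebra.adjoin R {algebraMap F₀ F₁ T₀}) F₁)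
    (fun x => ak12_isIntegral_adjoin_singleton_map (IsScalarTower.toAlgHom R F₀ F₁) x.2)

theorem coe_cI₀ (T₀ : F₀) (x : integralClosure (Algebra.adjoin R {T₀}) F₀) :
    ((cI₀ R F₁ T₀ x : integralClosure (Algebra.adjoin R {algebraMap F₀ F₁ T₀}) F₁) : F₁) =
      algebraMap F₀ F₁ (x : F₀) := rfl

theorem cI₀_algebraMap (T₀ : F₀) (c : R) :
    cI₀ R F₁ T₀ (algebraMap R _ c) = algebraMap R _ c := by
  apply Subtype.ext
  rw [coe_cI₀]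
  exact (IsScalarTower.algebraMap_apply R F₀ F₁ c).symm

theorem cI₀_isIntegral (T₀ : F₀)
    (b : integralClosure (Algebra.adjoin R {algebraMap F₀ F₁ T₀}) F₁) :
    IsIntegral (integralClosure (Algebra.adjoin R {T₀}) F₀) (b : F₁) := by
  obtain ⟨p, hp, hb⟩ := b.2
  set φ : integralClosure (Algebra.adjoin R {T₀}) F₀ →+* F₁ := algebraMap _ F₁ with hφ
  have hl : p.map (algebraMap (Algebra.adjoin R {algebraMap F₀ F₁ T₀}) F₁) ∈ Polynomial.lifts φ := by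
    rw [Polynomial.lifts_iff_coeff_lifts]
    intro n
    rw [coeff_map]
    obtain ⟨c, hc⟩ := p.coeff n
    rw [Algebra.adjoin_singleton_eq_range_aeval] at hc
    obtain ⟨g, rfl⟩ := hc
    refine ⟨algebraMap (Algebra.adjoin R {T₀}) _ ⟨aeval T₀ g, ?_⟩, ?_⟩
    · rw [Algebra.adjoin_singleton_eq_range_aeval]; exact ⟨g, rfl⟩
    · exact (aeval_algebraMap_apply F₁ T₀ g).symm
  obtain ⟨q, hq, -, hqm⟩ := Polynomial.lifts_and_natDegree_eq_and_monic hl (hp.map _)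
  refine ⟨q, hqm, ?_⟩
  rw [← eval_map, hq, eval_map]
  exact hb

theorem cI₀_closed (T₀ : F₀) (z : F₁)
    (hz : IsIntegral (integralClosure (Algebra.adjoin R {T₀}) F₀) z) :
    IsIntegral (Algebra.adjoin R {algebraMap F₀ F₁ T₀}) z := by
  have h1 : IsIntegral (Algebra.adjoin R {T₀}) z := isIntegral_trans z hz
  obtain ⟨p, hp, hz⟩ := h1
  have hmem : ∀ c : Algebra.adjoin R {T₀},
      algebraMap F₀ F₁ (c : F₀) ∈ Algebra.adjoin R {algebraMap F₀ F₁ T₀} := by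
    rintro ⟨c, hc⟩
    rw [Algebra.adjoin_singleton_eq_range_aeval] at hc ⊢
    obtain ⟨g, rfl⟩ := hc
    exact ⟨g, aeval_algebraMap_apply F₁ T₀ g⟩
  let ψ : Algebra.adjoin R {T₀} →+* Algebra.adjoin R {algebraMap F₀ F₁ T₀} :=
    ((algebraMap F₀ F₁).comp (Algebra.adjoin R {T₀}).val.toRingHom).codRestrict _ hmem
  refine ⟨p.map ψ, hp.map _, ?_⟩
  rw [eval₂_map]
  exact hz

end concrete

end Fermat.Agent.CARlib.C
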