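import Fermat.Agent.CAR.NDefs

/-!
# T-CAR, block N : basic lemmas on `IsDV`, `nU`, `HasOrd`, `OneMod`
-/

set_option autoImplicit false

namespace Fermat.Agent.CARlib

open Fermat.Agent.UNIlib.Normalise

variable {F : Type*} [Field F] {V : Subring F} {ϖ : F}

theorem nU.one : nU V (1 : F) := ⟨one_ne_zero, V.one_mem, by simp⟩

theorem nU.mul {x y : F} (hx : nU V x) (hy : nU V y) : nU V (x * y) :=
  ⟨mul_ne_zero hx.1 hy.1, V.mul_mem hx.2.1 hy.2.1, by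
    rw [mul_inv]; exact V.mul_mem hx.2.2 hy.2.2⟩

theorem nU.inv {x : F} (hx : nU V x) : nU V x⁻¹ :=
  ⟨inv_ne_zero hx.1, hx.2.2, by rw [inv_inv]; exact hx.2.1⟩

theorem nU.div {x y : F} (hx : nU V x) (hy : nU V y) : nU V (x / y) := by
  rw [div_eq_mul_inv]; exact hx.mul hy.inv

theorem nU.pow {x : F} (hx : nU V x) (n : ℕ) : nU V (x ^ n) := by
  induction n with
  | zero => rw [pow_zero]; exact nU.one
  | succ n ih => rw [pow_succ]; exact ih.mul hx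

theorem nU.zpow {x : F} (hx : nU V x) (n : ℤ) : nU V (x ^ n) := by
  cases n with
  | ofNat n => simpa using hx.pow n
  | negSucc n => rw [zpow_negSucc]; exact (hx.pow _).inv

theorem nU.neg {x : F} (hx : nU V x) : nU V (-x) :=
  ⟨neg_ne_zero.2 hx.1, V.neg_mem hx.2.1, by rw [inv_neg]; exact V.neg_mem hx.2.2⟩

theorem IsDV.unif_ne_zero (d : IsDV V ϖ) : ϖ ≠ 0 := by
  rintro rfl
  exact d.unif_inv (by simp)

theorem IsDV.nU_of_pow (d : IsDV V ϖ) {x : F} {m : ℕ} (hm : 0 < m) (h : nU V (x ^ m)) :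
    nU V x := by
  have hx0 : x ≠ 0 := by
    rintro rfl
    exact h.1 (zero_pow hm.ne')
  obtain ⟨n, rfl⟩ : ∃ n, m = n + 1 := ⟨m - 1, by omega⟩
  rcases d.total x with hx | hx
  · refine ⟨hx0, hx, ?_⟩
    have : x⁻¹ = x ^ n * (x ^ (n + 1))⁻¹ := by
      rw [pow_succ]; field_simp
    rw [this]; exact V.mul_mem (V.pow_mem hx n) h.2.2
  · refine ⟨hx0, ?_, hx⟩
    have : x = x⁻¹ ^ n * x ^ (n + 1) := by
      rw [pow_succ, inv_pow]; field_simp
    rw [this]; exact V.mul_mem (V.pow_mem hx n) h.2.1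

/-- `x` has order `a` -/
def HasOrd (V : Subring F) (ϖ x : F) (a : ℤ) : Prop := nU V (x / ϖ ^ a)

theorem HasOrd.ne_zero {x : F} {a : ℤ} (h : HasOrd V ϖ x a) : x ≠ 0 := by
  rintro rfl
  exact h.1 (zero_div _)

theorem hasOrd_zero_iff {x : F} : HasOrd V ϖ x 0 ↔ nU V x := by
  rw [HasOrd, zpow_zero, div_one]

theorem HasOrd.mul {x y : F} {a b : ℤ} (d : IsDV V ϖ) (hx : HasOrd V ϖ x a)
    (hy : HasOrd V ϖ y b) : HasOrd V ϖ (x * y) (a + b) := by
  have := nU.mul hx hy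
  rw [HasOrd, zpow_add₀ d.unif_ne_zero]
  rwa [div_mul_div_comm] at this

theorem HasOrd.inv {x : F} {a : ℤ} (hx : HasOrd V ϖ x a) : HasOrd V ϖ x⁻¹ (-a) := by
  have := nU.inv hx
  rw [HasOrd, zpow_neg]
  rwa [inv_div, ← inv_div_inv] at this

theorem HasOrd.pow {x : F} {a : ℤ} (hx : HasOrd V ϖ x a) (n : ℕ) :
    HasOrd V ϖ (x ^ n) (n * a) := by
  have := nU.pow hx n
  rw [HasOrd, mul_comm, zpow_mul, zpow_natCast]
  rwa [div_pow] at this

theorem HasOrd.zpow {x : F} {a : ℤ} (hx : HasOrd V ϖ x a) (n : ℤ) :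
    HasOrd V ϖ (x ^ n) (n * a) := by
  have := nU.zpow hx n
  rw [HasOrd, mul_comm, zpow_mul]
  rwa [div_zpow] at this

theorem IsDV.hasOrd_zpow (d : IsDV V ϖ) (k : ℤ) : HasOrd V ϖ (ϖ ^ k) k := by
  rw [HasOrd, div_self (zpow_ne_zero _ d.unif_ne_zero)]
  exact nU.one

theorem IsDV.eq_zero_of_nU_zpow (d : IsDV V ϖ) {n : ℤ} (h : nU V (ϖ ^ n)) : n = 0 := by
  have h0 := d.unif_ne_zero
  have key : ∀ k : ℕ, (ϖ ^ (k + 1))⁻¹ ∉ V := by
    intro k hk
    apply d.unif_inv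
    have : ϖ⁻¹ = ϖ ^ k * (ϖ ^ (k + 1))⁻¹ := by
      rw [pow_succ]; field_simp
    rw [this]; exact V.mul_mem (V.pow_mem d.unif_mem k) hk
  rcases lt_trichotomy n 0 with hn | hn | hn
  · exfalso
    obtain ⟨k, rfl⟩ : ∃ k : ℕ, n = -((k : ℤ) + 1) := ⟨(-n - 1).toNat, by omega⟩
    apply key k
    have := h.2.1
    rwa [zpow_neg, ← Nat.cast_succ, zpow_natCast] at this
  · exact hn
  · exfalso
    obtain ⟨k, rfl⟩ : ∃ k : ℕ, n = (k : ℤ) + 1 := ⟨(n - 1).toNat, by omega⟩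
    apply key k
    have := h.2.2
    rwa [← Nat.cast_succ, zpow_natCast] at this

theorem HasOrd.unique {x : F} {a b : ℤ} (d : IsDV V ϖ) (ha : HasOrd V ϖ x a)
    (hb : HasOrd V ϖ x b) : a = b := by
  have h := nU.div hb ha
  have hx := ha.ne_zero
  have h0 := d.unif_ne_zero
  have : x / ϖ ^ b / (x / ϖ ^ a) = ϖ ^ (a - b) := by
    rw [zpow_sub₀ h0]
    have h1 := zpow_ne_zero a h0
    have h2 := zpow_ne_zero b h0
    field_simp
  rw [this] at h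
  have := d.eq_zero_of_nU_zpow h
  omega

theorem IsDV.exists_hasOrd (d : IsDV V ϖ) {x : F} (hx : x ≠ 0) : ∃ a : ℤ, HasOrd V ϖ x a := by
  have h0 := d.unif_ne_zero
  have key : ∀ k : ℕ, ∀ z : F, z ≠ 0 → z ∈ V → ϖ ^ k * z⁻¹ ∈ V → ∃ n : ℕ, nU V (z / ϖ ^ n) := by
    intro k
    induction k with
    | zero =>
      intro z hz hzV h
      have hu : nU V z := ⟨hz, hzV, by simpa using h⟩
      exact ⟨0, by rw [pow_zero, div_one]; exact hu⟩
    | succ k ih =>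
      intro z hz hzV h
      rcases d.max z hzV with h1 | h1
      · have hu : nU V z := ⟨hz, hzV, h1⟩
        exact ⟨0, by rw [pow_zero, div_one]; exact hu⟩
      · obtain ⟨n, hn⟩ := ih (z / ϖ) (div_ne_zero hz h0) h1 (by
          have : ϖ ^ k * (z / ϖ)⁻¹ = ϖ ^ (k + 1) * z⁻¹ := by
            rw [pow_succ]; field_simp
          rw [this]; exact h)
        refine ⟨n + 1, ?_⟩
        have : z / ϖ ^ (n + 1) = z / ϖ / ϖ ^ n := by
          rw [pow_succ]; field_simp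
        rw [this]; exact hn
  rcases d.total x with h | h
  · obtain ⟨k, hk⟩ := d.arch x⁻¹
    obtain ⟨n, hn⟩ := key k x hx h hk
    exact ⟨n, by rw [HasOrd, zpow_natCast]; exact hn⟩
  · obtain ⟨k, hk⟩ := d.arch x
    obtain ⟨n, hn⟩ := key k x⁻¹ (inv_ne_zero hx) h (by rwa [inv_inv])
    have h2 : HasOrd V ϖ x⁻¹ n := by rw [HasOrd, zpow_natCast]; exact hn
    exact ⟨-n, by simpa using h2.inv⟩

theorem IsDV.nU_of_oneMod (d : IsDV V ϖ) {x : F} (h : OneMod V ϖ x) : nU V x := by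
  have h0 := d.unif_ne_zero
  obtain ⟨z, hz, rfl⟩ := (oneMod_iff h0).1 h
  have hV : 1 + ϖ * z ∈ V := V.add_mem V.one_mem (V.mul_mem d.unif_mem hz)
  have hne : 1 + ϖ * z ≠ 0 := h.ne_zero d.unif_inv
  refine ⟨hne, hV, ?_⟩
  rcases d.max _ hV with h1 | h1
  · exact h1
  · exfalso
    apply d.unif_inv
    have : ϖ⁻¹ = (1 + ϖ * z) / ϖ - z := by field_simp; ring
    rw [this]; exact V.sub_mem h1 hz

theorem IsDV.oneMod_inv (d : IsDV V ϖ) {x : F} (h : OneMod V ϖ x) : OneMod V ϖ x⁻¹ := by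
  have h0 := d.unif_ne_zero
  have hu := d.nU_of_oneMod h
  have : (x⁻¹ - 1) / ϖ = -((x - 1) / ϖ) * x⁻¹ := by
    have := hu.1
    field_simp
    ring
  rw [OneMod, this]
  exact V.mul_mem (V.neg_mem h) hu.2.2

theorem IsDV.oneMod_mul (d : IsDV V ϖ) {x y : F} (hx : OneMod V ϖ x) (hy : OneMod V ϖ y) :
    OneMod V ϖ (x * y) := hx.mul d.unif_ne_zero d.unif_mem hy

theorem IsDV.oneMod_div (d : IsDV V ϖ) {x y : F} (hx : OneMod V ϖ x) (hy : OneMod V ϖ y) :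
    OneMod V ϖ (x / y) := by
  rw [div_eq_mul_inv]; exact d.oneMod_mul hx (d.oneMod_inv hy)

theorem IsDV.oneMod_pow (d : IsDV V ϖ) {x : F} (hx : OneMod V ϖ x) (n : ℕ) :
    OneMod V ϖ (x ^ n) := hx.pow d.unif_ne_zero d.unif_mem n

theorem IsDV.oneMod_zpow (d : IsDV V ϖ) {x : F} (hx : OneMod V ϖ x) (n : ℤ) :
    OneMod V ϖ (x ^ n) := by
  cases n with
  | ofNat n => simpa using d.oneMod_pow hx n
  | negSucc n => rw [zpow_negSucc]; exact d.oneMod_inv (d.oneMod_pow hx _)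

/-- a non unit of `V` is divisible by `ϖ` -/
theorem IsDV.div_mem_of_not_nU (d : IsDV V ϖ) {x : F} (hx : x ∈ V) (h : ¬ nU V x) :
    x / ϖ ∈ V := by
  by_cases h0 : x = 0
  · rw [h0, zero_div]; exact V.zero_mem
  rcases d.max x hx with h1 | h1
  · exact absurd ⟨h0, hx, h1⟩ h
  · exact h1

end Fermat.Agent.CARlib
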