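import Fermat.Agent.CAR.V2DV
import Fermat.Agent.CAR.NBasic

/-!
# T-CAR, block V, (V3) instantiated: the three valuation rings of `F₂` are pairwise incomparable;
weak approximation (additive, multiplicative)
-/

set_option autoImplicit false
set_option linter.unusedSectionVars false
set_option linter.unusedVariables false
set_option linter.style.haveILetI false

open ModularCurve Polynomial

namespace Fermat.Agent.CARlib

open Fermat.Agent.ESlib Fermat.Agent.UNIlib Fermat.Agent.UNIlib.Normalise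
open Fermat.Agent.S28lib (jA jAd)
open Fermat.Agent.S24lib (Dv)

noncomputable section

variable {R K : Type} [CommRing R] [IsDomain R] [IsDiscreteValuationRing R] [Field K]
  [Algebra R K] [IsFractionRing R K] [Algebra ℚ K] [CharZero K] [Algebra K ℂ] [IsScalarTower ℚ K ℂ]
  {N r : ℕ} [NeZero N] [NeZero r] [NeZero (N * r)] [NeZero (N * r * r)]
  [Algebra R (FK K N)] [IsScalarTower R K (FK K N)]
  [Algebra R (FK K (N * r))] [IsScalarTower R K (FK K (N * r))]
  [Algebra R (FK K (N * r * r))] [IsScalarTower R K (FK K (N * r * r))]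

/-- `vY = j(q^(r^2)) - j(q)` is a unit of `W_VF` -/
theorem vY_inv_mem_WVF (hr : r.Prime) : (vY K N r)⁻¹ ∈ WVF R K N r := by
  haveI : NeZero (1 * r * r) := ⟨by rw [one_mul]; exact mul_ne_zero hr.ne_zero hr.ne_zero⟩
  refine inv_mem_gaussSub_of_eq_coeffMap (jAd R (1 * r * r) - jAd R 1) ?_ ?_
  · rw [map_sub, S28lib.coeffMap_jAd, S28lib.coeffMap_jAd]
    show ((vJ2 K N r : FK K (N * r * r)) : LaurentSeries K) -
      ((vJ0 K N r : FK K (N * r * r)) : LaurentSeries K) = _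
    rw [coe_Jgen_jAd, coe_Jgen_jAd]
  · rw [map_sub, S28lib.coeffMap_jAd, S28lib.coeffMap_jAd]
    intro h
    have h1 := congrArg HahnSeries.order (sub_eq_zero.1 h)
    rw [order_jAd, order_jAd] at h1
    have h2 : (2 : ℤ) ≤ r := by exact_mod_cast hr.two_le
    push_cast at h1
    nlinarith

theorem vY_mem_WVF : vY K N r ∈ WVF R K N r :=
  (WVF R K N r).sub_mem (Jgen_mem_gaussSub _) (Jgen_mem_gaussSub _)

theorem v2_i12_mem_WVF_iff (x : FK K (N * r)) : i12 K N r x ∈ WVF R K N r ↔ x ∈ VF1 R K N r := by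
  show i12 K N r x ∈ gaussSub R K (N * r * r) ↔ x ∈ gaussSub R K (N * r)
  rw [mem_gaussSub_iff, mem_gaussSub_iff, coe_inclF]

theorem v2_i12_mem_WFV_iff (hr : r.Prime) (hrN : ¬ r ∣ N) (x : FK K (N * r)) :
    i12 K N r x ∈ WFV R hr hrN ↔ x ∈ VV1 R hr hrN := by
  show w2 K hr hrN (i12 K N r x) ∈ gaussSub R K (N * r * r) ↔
    wr K hr hrN x ∈ gaussSub R K (N * r)
  rw [v1_w2_incl, mem_gaussSub_iff, mem_gaussSub_iff, coe_heckeBetaBar]
  constructor
  · intro h
    obtain ⟨π, hπ⟩ := IsDiscreteValuationRing.exists_irreducible R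
    have d := v2_isDV_gauss (K := K) (N * r) hπ
    by_contra hx
    -- `(wr x)⁻¹ / π` is integral
    have h1 : (wr K hr hrN x)⁻¹ ∈ (gaussVal R K (N * r)).toSubring :=
      (d.total _).resolve_left hx
    have h2 : (wr K hr hrN x)⁻¹ / algebraMap R (FK K (N * r)) π ∈
        (gaussVal R K (N * r)).toSubring :=
      (d.max _ h1).resolve_left (by rw [inv_inv]; exact hx)
    have h3 : qExpand K r (((wr K hr hrN x)⁻¹ / algebraMap R (FK K (N * r)) π : FK K (N * r)) :
        LaurentSeries K) ∈ LamR (algebraMap R K) (IsLocalRing.residue R) :=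
      qExpand_mem_LamR r (mem_gaussSub_iff.1 h2)
    have h4 := mul_mem h h3
    rw [← map_mul] at h4
    have hx0 : wr K hr hrN x ≠ 0 := by
      intro h0
      exact hx (by rw [h0]; exact zero_mem _)
    have h5 : ((wr K hr hrN x : FK K (N * r)) : LaurentSeries K) *
        (((wr K hr hrN x)⁻¹ / algebraMap R (FK K (N * r)) π : FK K (N * r)) : LaurentSeries K) =
        (((algebraMap R (FK K (N * r)) π)⁻¹ : FK K (N * r)) : LaurentSeries K) := by
      rw [← MulMemClass.coe_mul]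
      congr 1
      field_simp
    rw [h5] at h4
    have h6 : qExpand K r ((((algebraMap R (FK K (N * r)) π)⁻¹ : FK K (N * r)) :
        LaurentSeries K)) = (((algebraMap R (FK K (N * r)) π)⁻¹ : FK K (N * r)) :
        LaurentSeries K) := by
      have : (((algebraMap R (FK K (N * r)) π)⁻¹ : FK K (N * r)) : LaurentSeries K) =
          (HahnSeries.C (algebraMap R K π))⁻¹ := by
        rw [← coe_algebraMap_R (N := N * r)]; rfl
      rw [this, map_inv₀, qExpand_C]
    rw [h6] at h4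
    exact d.unif_inv (mem_gaussSub_iff.2 h4)
  · exact fun h => qExpand_mem_LamR r h

variable [CharP (IsLocalRing.ResidueField R) r]

/-- an element of `V_F` which is not in `V_V` -/
theorem v2_exists_VF_not_VV (hr : r.Prime) (hrN : ¬ r ∣ N) :
    ∃ x : FK K (N * r), x ∈ VF1 R K N r ∧ x ∉ VV1 R hr hrN := by
  obtain ⟨π, hπ⟩ := IsDiscreteValuationRing.exists_irreducible R
  have d := v2_isDV_VF1 (K := K) (N := N) (r := r) hπ
  have h1 : OneMod (VF1 R K N r).toSubring (algebraMap R (FK K (N * r)) π) (waE K N r) :=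
    wa_sub_one_div_mem hr hπ
  have h2 : wr K hr hrN (waE K N r) / algebraMap R (FK K (N * r)) π ∈ VF1 R K N r :=
    wa_wr_div_mem hr hrN hπ
  obtain ⟨h0, -, h3⟩ := d.nU_of_oneMod h1
  refine ⟨(waE K N r)⁻¹, h3, fun h4 => ?_⟩
  have h5 : wr K hr hrN (waE K N r)⁻¹ ∈ VF1 R K N r := h4
  have h6 := (VF1 R K N r).mul_mem _ _ h5 h2
  have h7 : wr K hr hrN (waE K N r) ≠ 0 := (map_ne_zero_iff _ (wr K hr hrN).injective).2 h0
  rw [map_inv₀, ← mul_div_assoc, inv_mul_cancel₀ h7, one_div] at h6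
  exact d.unif_inv h6

/-- an element of `V_V` which is not in `V_F` -/
theorem v2_exists_VV_not_VF (hr : r.Prime) (hrN : ¬ r ∣ N) :
    ∃ x : FK K (N * r), x ∈ VV1 R hr hrN ∧ x ∉ VF1 R K N r := by
  obtain ⟨x, h1, h2⟩ := v2_exists_VF_not_VV (R := R) (K := K) hr hrN
  refine ⟨wr K hr hrN x, ?_, h2⟩
  show wr K hr hrN (wr K hr hrN x) ∈ VF1 R K N r
  rw [wr_wr]; exact h1

/-- the family `(W_VF, W_FV, W_VV)` -/
def vFam (R : Type) {K : Type} [CommRing R] [IsDomain R] [IsDiscreteValuationRing R] [Field K]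
    [Algebra R K] [IsFractionRing R K] [Algebra ℚ K] [Algebra K ℂ] [IsScalarTower ℚ K ℂ]
    {N r : ℕ} [NeZero (N * r * r)] (hr : r.Prime) (hrN : ¬ r ∣ N)
    (W : ValuationSubring (FK K (N * r * r))) : Fin 3 → ValuationSubring (FK K (N * r * r)) :=
  ![WVF R K N r, WFV R hr hrN, W]

theorem VCore.incomparable {hr : r.Prime} {hrN : ¬ r ∣ N} {π : R}
    {W : ValuationSubring (FK K (N * r * r))} (D : VCore hr hrN π W) :
    ∀ i j, i ≠ j → ¬ vFam R hr hrN W i ≤ vFam R hr hrN W j := by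
  obtain ⟨x, hx1, hx2⟩ := v2_exists_VF_not_VV (R := R) (K := K) hr hrN
  obtain ⟨z, hz1, hz2⟩ := v2_exists_VV_not_VF (R := R) (K := K) hr hrN
  have h01 : ¬ WVF R K N r ≤ WFV R hr hrN := fun h =>
    hx2 ((v2_i12_mem_WFV_iff hr hrN x).1 (h ((v2_i12_mem_WVF_iff x).2 hx1)))
  have h21 : ¬ W ≤ WFV R hr hrN := fun h =>
    hx2 ((v2_i12_mem_WFV_iff hr hrN x).1 (h ((D.vv_incl x).2 hx1)))
  have h10 : ¬ WFV R hr hrN ≤ WVF R K N r := fun h =>
    hz2 ((v2_i12_mem_WVF_iff z).1 (h ((v2_i12_mem_WFV_iff hr hrN z).2 hz1)))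
  have h12 : ¬ WFV R hr hrN ≤ W := fun h =>
    hz2 ((D.vv_incl z).1 (h ((v2_i12_mem_WFV_iff hr hrN z).2 hz1)))
  have h02 : ¬ WVF R K N r ≤ W := fun h => D.vv_y.2 (h (vY_inv_mem_WVF hr))
  have h20 : ¬ W ≤ WVF R K N r := by
    intro h
    apply h21
    intro y hy
    show w2 K hr hrN y ∈ WVF R K N r
    exact h ((D.vv_w2 y).2 hy)
  intro i j hij
  fin_cases i <;> fin_cases j <;> first | exact absurd rfl hij | assumption

theorem VCore.fam_isDV_arch {hr : r.Prime} {hrN : ¬ r ∣ N} {π : R}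
    {W : ValuationSubring (FK K (N * r * r))} (D : VCore hr hrN π W)
    (hN : (N : IsLocalRing.ResidueField R) ≠ 0) (hπ : Irreducible π) :
    (∀ i, V3Arch (vFam R hr hrN W i)) ∧ (∀ i, vFam R hr hrN W i ≠ ⊤) := by
  have d0 := v2_isDV_WVF (K := K) (N := N) (r := r) hπ
  have d1 := v2_isDV_WFV (K := K) hr hrN hπ
  have d2 := D.isDV hN hπ
  constructor
  · intro i
    fin_cases i
    · exact v3Arch_of_isDV d0
    · exact v3Arch_of_isDV d1
    · exact v3Arch_of_isDV d2
  · intro i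
    fin_cases i
    · exact ne_top_of_isDV d0
    · exact ne_top_of_isDV d1
    · exact ne_top_of_isDV d2

/-- **(V3)** weak approximation with precision `π` -/
theorem VCore.approx {hr : r.Prime} {hrN : ¬ r ∣ N} {π : R}
    {W : ValuationSubring (FK K (N * r * r))} (D : VCore hr hrN π W)
    (hN : (N : IsLocalRing.ResidueField R) ≠ 0) (hπ : Irreducible π)
    (s₁ s₂ s₃ : FK K (N * r * r)) : ∃ G : FK K (N * r * r),
      (G - s₁) / algebraMap R (FK K (N * r * r)) π ∈ WVF R K N r ∧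
      (G - s₂) / algebraMap R (FK K (N * r * r)) π ∈ WFV R hr hrN ∧
      (G - s₃) / algebraMap R (FK K (N * r * r)) π ∈ W := by
  obtain ⟨ha, hn⟩ := D.fam_isDV_arch hN hπ
  obtain ⟨G, hG⟩ := v3_weakApprox_pi (vFam R hr hrN W) D.incomparable ha hn
    (tv_unif_ne_zero (N * r * r) hπ) ![s₁, s₂, s₃]
  exact ⟨G, hG 0, hG 1, hG 2⟩

/-- `π / vY ∈ W_VV` -/
theorem VCore.unif_div_vY_mem {hr : r.Prime} {hrN : ¬ r ∣ N} {π : R}
    {W : ValuationSubring (FK K (N * r * r))} (D : VCore hr hrN π W) :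
    algebraMap R (FK K (N * r * r)) π / vY K N r ∈ W := by
  have hy0 := D.vY_ne_zero
  have h2 : 2 ≤ r := hr.two_le
  have : algebraMap R (FK K (N * r * r)) π / vY K N r =
      (algebraMap R (FK K (N * r * r)) π / vY K N r ^ (r - 1)) * vY K N r ^ (r - 2) := by
    have h3 : r - 1 = (r - 2) + 1 := by omega
    rw [h3, pow_succ]
    field_simp
  rw [this]
  exact W.mul_mem _ _ D.vv_pow.2 (pow_mem D.vv_y.1 _)

/-- **(V3)**, multiplicative form (`happ` of `n_main`) -/
theorem VCore.approx_mul {hr : r.Prime} {hrN : ¬ r ∣ N} {π : R}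
    {W : ValuationSubring (FK K (N * r * r))} (D : VCore hr hrN π W)
    (hN : (N : IsLocalRing.ResidueField R) ≠ 0) (hπ : Irreducible π)
    (x₁ x₂ x₃ : FK K (N * r * r)) (h₁ : x₁ ≠ 0) (h₂ : x₂ ≠ 0) (h₃ : x₃ ≠ 0) :
    ∃ S : FK K (N * r * r), S ≠ 0 ∧
      OneMod (WVF R K N r).toSubring (algebraMap R (FK K (N * r * r)) π) (S / x₁) ∧
      OneMod (WFV R hr hrN).toSubring (algebraMap R (FK K (N * r * r)) π) (S / x₂) ∧
      OneMod W.toSubring (algebraMap R (FK K (N * r * r)) π) (S / x₃) ∧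
      OneMod W.toSubring (vY K N r) (S / x₃) := by
  obtain ⟨ha, hn⟩ := D.fam_isDV_arch hN hπ
  have d0 := v2_isDV_WVF (K := K) (N := N) (r := r) hπ
  have d1 := v2_isDV_WFV (K := K) hr hrN hπ
  have hϖ0 : algebraMap R (FK K (N * r * r)) π ≠ 0 := tv_unif_ne_zero (N * r * r) hπ
  obtain ⟨G, hG0, hG⟩ := v3_weakApprox_mul (vFam R hr hrN W) D.incomparable ha hn hϖ0
    (by
      intro i
      fin_cases i
      · exact ⟨d0.unif_mem, d0.unif_inv⟩
      · exact ⟨d1.unif_mem, d1.unif_inv⟩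
      · exact ⟨D.unif_mem π, D.unif_inv_not_mem hπ⟩) ![x₁, x₂, x₃]
    (by
      intro i
      fin_cases i
      · exact h₁
      · exact h₂
      · exact h₃)
  refine ⟨G, hG0, hG 0, hG 1, hG 2, ?_⟩
  have h3 : (G / x₃ - 1) / algebraMap R (FK K (N * r * r)) π ∈ W := hG 2
  have hy0 := D.vY_ne_zero
  show (G / x₃ - 1) / vY K N r ∈ W
  have : (G / x₃ - 1) / vY K N r = (G / x₃ - 1) / algebraMap R (FK K (N * r * r)) π *
      (algebraMap R (FK K (N * r * r)) π / vY K N r) := by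
    field_simp
  rw [this]
  exact W.mul_mem _ _ h3 D.unif_div_vY_mem

end

end Fermat.Agent.CARlib
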