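import Fermat.Agent.CAR.VDefs

/-!
# T-CAR, block V, row V2b: the integral basis at `W_FV`, on Laurent series
-/

set_option autoImplicit false
set_option linter.unusedSectionVars false

open ModularCurve Polynomial

namespace Fermat.Agent.CARlib

open Fermat.Agent.ESlib Fermat.Agent.UNIlib
open Fermat.Agent.S28lib (RedSetup jA jAd)

noncomputable section

section red

variable {κ : Type*} [Field κ] {r : ℕ} [NeZero r]

/-- `1, j, …, j^(r-1)` are linearly independent over `κ((q^r))` -/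
theorem v2_eq_zero_of_eval_jA (hr : r.Prime) (G : (LaurentSeries κ)[X]) (hdeg : G.natDegree < r)
    (h : (G.map (qExpand κ r)).eval (jA κ) = 0) : G = 0 := by
  by_contra hne
  have hne' : G.map (qExpand κ r) ≠ 0 := fun h0 =>
    hne (Polynomial.map_injective _ (qExpand_injective (R := κ) (N := r))
      (by rw [h0, Polynomial.map_zero]))
  have h3 := S28lib.natDegree_ge_of_root hr (jA κ) S28lib.jA_ne_zero
    (by
      rw [S28lib.order_jA]
      intro hd
      have := Int.natAbs_dvd_natAbs.2 hd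
      simp only [Int.natAbs_natCast, Int.natAbs_neg, Int.natAbs_one, Nat.dvd_one] at this
      exact hr.one_lt.ne' this)
    (G.map (qExpand κ r)) hne' (fun i => ⟨G.coeff i, by rw [coeff_map]⟩) h
  have h4 : (G.map (qExpand κ r)).natDegree ≤ G.natDegree := natDegree_map_le
  omega

end red

section lam

variable {R K κ : Type*} [CommRing R] [Field K] [Field κ] {ι : R →+* K} {ρ : R →+* κ} {ϖ : R}
  {r : ℕ} [NeZero r]

theorem v2_map_redR_eq_zero (hr : r.Prime) (h : RedSetup ι ρ ϖ) (c : (LamR ι ρ)[X])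
    (hdeg : c.natDegree < r)
    (h2 : redR h.inj ((c.map (qExpL ι ρ r)).eval ⟨jA K, jA_mem_LamR⟩) = 0) :
    c.map (redR h.inj) = 0 := by
  apply v2_eq_zero_of_eval_jA hr _ (natDegree_map_le.trans_lt hdeg)
  rw [Polynomial.map_map, ← redR_comp_qExpL, ← Polynomial.map_map, ← redR_jA h.inj, eval_map,
    eval₂_at_apply, h2]

/-- polynomial form of `v2_basis_zero` -/
theorem v2_coeff_mem_LamR_zero (hr : r.Prime) (h : RedSetup ι ρ ϖ) (c : (LaurentSeries K)[X])
    (hdeg : c.natDegree < r) (hb : ∀ i, IsBdd ι (c.coeff i))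
    (h2 : (c.map (qExpand K r)).eval (jA K) ∈ LamR ι ρ) :
    ∀ i, c.coeff i ∈ LamR ι ρ := by
  classical
  set ϖK : LaurentSeries K := HahnSeries.C (ι ϖ) with hϖK
  have hϖ0 : ϖK ≠ 0 := redSetup_C_unif_ne_zero h
  have hϖm : ϖK ∈ LamR ι ρ := C_unif_mem_LamR
  have hex : ∃ a : ℕ, ∀ i, ϖK ^ a * c.coeff i ∈ LamR ι ρ := by
    choose a ha using fun i => (hb i).exists_pow_mul_mem h
    refine ⟨∑ i ∈ Finset.range r, a i, fun i => ?_⟩
    by_cases hi : i ∈ Finset.range r
    · obtain ⟨k, hk⟩ := Nat.exists_eq_add_of_le (Finset.single_le_sum (f := a)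
        (fun _ _ => Nat.zero_le _) hi)
      rw [hk, pow_add, mul_comm (ϖK ^ a i), mul_assoc]
      exact mul_mem (pow_mem hϖm k) (ha i)
    · rw [Finset.mem_range, not_lt] at hi
      rw [coeff_eq_zero_of_natDegree_lt (by omega), mul_zero]
      exact zero_mem _
  have hfind := Nat.find_spec hex
  rcases Nat.eq_zero_or_pos (Nat.find hex) with h0 | hpos
  · intro i
    have := hfind i
    rwa [h0, pow_zero, one_mul] at this
  exfalso
  obtain ⟨a', ha'⟩ : ∃ a', Nat.find hex = a' + 1 := ⟨Nat.find hex - 1, by omega⟩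
  rw [ha'] at hfind
  set c' : (LaurentSeries K)[X] := C (ϖK ^ (a' + 1)) * c with hc'
  have hsub : (↑c'.coeffs : Set (LaurentSeries K)) ⊆ (LamR ι ρ : Set (LaurentSeries K)) := by
    intro z hz
    obtain ⟨i, -, rfl⟩ := (mem_coeffs_iff.1 (Finset.mem_coe.1 hz))
    rw [hc', coeff_C_mul]
    exact hfind i
  set cL : (LamR ι ρ)[X] := c'.toSubring (LamR ι ρ) hsub with hcL
  have hmap : cL.map (LamR ι ρ).subtype = c' := map_toSubring c' (LamR ι ρ) hsub
  have hdegL : cL.natDegree < r := by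
    rw [hcL, natDegree_toSubring, hc']
    exact (natDegree_C_mul_le _ _).trans_lt hdeg
  have hu0 : redR h.inj ((unifL ι ρ ϖ) ^ (a' + 1)) = 0 := by
    rw [map_pow, redR_C_unif h, zero_pow (Nat.succ_ne_zero a')]
  have e2 : (cL.map (qExpL ι ρ r)).eval ⟨jA K, jA_mem_LamR⟩ =
      (unifL ι ρ ϖ) ^ (a' + 1) * ⟨_, h2⟩ := by
    apply Subtype.ext
    have : (((cL.map (qExpL ι ρ r)).eval ⟨jA K, jA_mem_LamR⟩ : LamR ι ρ) : LaurentSeries K) =
        ((cL.map (qExpL ι ρ r)).map (LamR ι ρ).subtype).eval (jA K) := by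
      rw [eval_map ((LamR ι ρ).subtype)]
      exact (eval₂_at_apply (LamR ι ρ).subtype (⟨jA K, jA_mem_LamR⟩ : LamR ι ρ)).symm
    have hcomp : ((LamR ι ρ).subtype).comp (qExpL ι ρ r) =
        (qExpand K r).comp (LamR ι ρ).subtype := RingHom.ext fun _ => rfl
    rw [this, Polynomial.map_map, hcomp, ← Polynomial.map_map, hmap, hc', Polynomial.map_mul, map_C,
      eval_mul, eval_C, map_pow, hϖK, qExpand_C]
    rfl
  have hz := v2_map_redR_eq_zero hr h cL hdegL (by rw [e2, map_mul, hu0, zero_mul])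
  refine Nat.find_min hex (m := a') (by omega) fun i => ?_
  have h3 : redR h.inj (cL.coeff i) = 0 := by
    have := congrArg (fun p => p.coeff i) hz
    simpa [coeff_map] using this
  obtain ⟨z, hz'⟩ := exists_eq_mul_of_redR_eq_zero h h3
  have h4 : ϖK ^ (a' + 1) * c.coeff i = ϖK * (z : LaurentSeries K) := by
    have := congrArg (Subtype.val) hz'
    rw [hcL, coeff_toSubring, hc', coeff_C_mul] at this
    exact this
  have h5 : ϖK ^ a' * c.coeff i = (z : LaurentSeries K) := by
    apply mul_left_cancel₀ hϖ0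
    rw [← h4, pow_succ]
    ring
  rw [h5]
  exact z.2

/-- **(V2b-0)** `1, j, …, j^(r-1)` are an integral basis over `q ↦ q^r` -/
theorem v2_basis_zero (hr : r.Prime) (h : RedSetup ι ρ ϖ) (d : Fin r → LaurentSeries K)
    (hd : ∀ i, IsBdd ι (d i))
    (hx : ∑ i, qExpand K r (d i) * jA K ^ (i : ℕ) ∈ LamR ι ρ) : ∀ i, d i ∈ LamR ι ρ := by
  classical
  set c : (LaurentSeries K)[X] := ∑ i : Fin r, C (d i) * X ^ (i : ℕ) with hc
  have hcoeff : ∀ k : Fin r, c.coeff (k : ℕ) = d k := by
    intro k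
    rw [hc, finsetSum_coeff, Finset.sum_eq_single k]
    · rw [coeff_C_mul_X_pow, if_pos rfl]
    · intro k' _ hk'
      rw [coeff_C_mul_X_pow, if_neg (fun h => hk' (Fin.ext h.symm))]
    · intro h; exact absurd (Finset.mem_univ k) h
  have hdeg : c.natDegree < r := by
    have h1 : c.degree < (r : WithBot ℕ) := degree_sum_fin_lt d
    by_cases hc0 : c = 0
    · rw [hc0, natDegree_zero]; exact Nat.pos_of_ne_zero (NeZero.ne r)
    · exact (natDegree_lt_iff_degree_lt hc0).2 h1
  have hb : ∀ i, IsBdd ι (c.coeff i) := by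
    intro i
    by_cases hi : i < r
    · rw [hcoeff ⟨i, hi⟩]; exact hd _
    · rw [coeff_eq_zero_of_natDegree_lt (by omega)]
      have := IsBdd.of_coeffMap (ι := ι) (0 : LaurentSeries R)
      rwa [map_zero] at this
  have hev : (c.map (qExpand K r)).eval (jA K) = ∑ i, qExpand K r (d i) * jA K ^ (i : ℕ) := by
    rw [hc, Polynomial.map_sum, eval_finsetSum]
    refine Finset.sum_congr rfl fun i _ => ?_
    rw [Polynomial.map_mul, Polynomial.map_pow, map_X, map_C, eval_mul, eval_pow, eval_X, eval_C]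
  intro i
  rw [← hcoeff i]
  exact v2_coeff_mem_LamR_zero hr h c hdeg hb (by rw [hev]; exact hx) i

end lam

end

end Fermat.Agent.CARlib
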