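import Fermat.Agent.CAR.V1Fin
import Fermat.Agent.CAR.V2Basis
import Fermat.Agent.UNI.NormaliseFK

/-!
# T-CAR, block V: `v2_basis_V` (`W_FV = ⊕ V_V Y^i`) and `v2_over_w2`
-/

set_option autoImplicit false
set_option linter.unusedSectionVars false
set_option linter.unusedVariables false
set_option linter.style.haveILetI false

open ModularCurve Polynomial

namespace Fermat.Agent.CARlib

open Fermat.Agent.ESlib Fermat.Agent.UNIlib
open Fermat.Agent.S28lib (RedSetup jA jAd)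
open Fermat.Agent.S24lib (Dv)

noncomputable section

variable {R K : Type} [CommRing R] [IsDomain R] [IsDiscreteValuationRing R] [Field K]
  [Algebra R K] [IsFractionRing R K] [Algebra ℚ K] [CharZero K] [Algebra K ℂ] [IsScalarTower ℚ K ℂ]
  {N r : ℕ} [NeZero N] [NeZero r] [NeZero (N * r)] [NeZero (N * r * r)]

/-- `w2 (∑ i12 (c_i) Y^i) = ∑ e2 (wr c_i) j^i` -/
theorem v2w_w2_sum (hr : r.Prime) (hrN : ¬ r ∣ N) (c : Fin r → FK K (N * r)) :
    w2 K hr hrN (∑ i, i12 K N r (c i) * vJ2 K N r ^ (i : ℕ)) =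
      ∑ i, e2 K N r (wr K hr hrN (c i)) * vJ0 K N r ^ (i : ℕ) := by
  rw [map_sum]
  refine Finset.sum_congr rfl fun i _ => ?_
  rw [map_mul, map_pow, v1_w2_vJ2, v1_w2_incl]
  rfl

theorem v2w_coe_sum (d : Fin r → FK K (N * r)) :
    ((∑ i, e2 K N r (d i) * vJ0 K N r ^ (i : ℕ) : FK K (N * r * r)) : LaurentSeries K) =
      ∑ i, qExpand K r (d i : LaurentSeries K) * jA K ^ (i : ℕ) := by
  rw [← IntermediateField.algebraMap_apply, map_sum]
  refine Finset.sum_congr rfl fun i _ => ?_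
  rw [map_mul, map_pow, IntermediateField.algebraMap_apply, IntermediateField.algebraMap_apply,
    coe_e2, vJ0_eq_J1, coe_J1_jA]

/-- **(26-a)** `W_FV = ⊕ V_V Y^i` -/
theorem v2_basis_V (hr : r.Prime) (hrN : ¬ r ∣ N) (c : Fin r → FK K (N * r))
    (h : ∑ i, i12 K N r (c i) * vJ2 K N r ^ (i : ℕ) ∈ WFV R hr hrN) :
    ∀ i, c i ∈ VV1 R hr hrN := by
  obtain ⟨π, hπ⟩ := IsDiscreteValuationRing.exists_irreducible R
  have hS := redSetup_of_dvr (K := K) hπ
  have h1 : w2 K hr hrN (∑ i, i12 K N r (c i) * vJ2 K N r ^ (i : ℕ)) ∈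
      gaussSub R K (N * r * r) := h
  rw [v2w_w2_sum, mem_gaussSub_iff, v2w_coe_sum] at h1
  intro i
  exact v2_basis_zero hr hS (fun i => ((wr K hr hrN (c i) : FK K (N * r)) : LaurentSeries K))
    (fun i => isBdd_of_mem_FK (R := R) (wr K hr hrN (c i)).2) h1 i

/-! ### (26-b) -/

theorem v2w_val_lt_one {L : Type*} [Field L] (B : ValuationSubring L) {x : L}
    (hx' : x⁻¹ ∉ B) : B.valuation x < 1 := by
  by_cases hx : x = 0
  · rw [hx, map_zero]; exact zero_lt_one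
  rw [← B.valuation_le_one_iff, not_le, B.valuation.one_lt_val_iff (inv_ne_zero hx), inv_inv] at hx'
  exact hx'

theorem v2w_val_eq_one {L : Type*} [Field L] (B : ValuationSubring L) {x : L} (hx0 : x ≠ 0)
    (hx : x ∈ B) (hx' : x⁻¹ ∈ B) : B.valuation x = 1 := by
  by_contra hne
  have h1 : B.valuation x < 1 := lt_of_le_of_ne ((B.valuation_le_one_iff x).2 hx) hne
  have h2 : 1 < B.valuation x⁻¹ := by
    rw [B.valuation.one_lt_val_iff (inv_ne_zero hx0), inv_inv]
    exact h1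
  exact absurd ((B.valuation_le_one_iff x⁻¹).2 hx') (not_le.2 h2)

section unif

variable {M : ℕ} [NeZero M] [Algebra R (FK K M)] [IsScalarTower R K (FK K M)]

/-- `π` is a uniformiser of the Gauss valuation -/
theorem v2w_unif {π : R} (hπ : Irreducible π) {z : FK K M} (hz : z ∈ gaussSub R K M)
    (hz' : z⁻¹ ∉ gaussSub R K M) : z / algebraMap R (FK K M) π ∈ gaussSub R K M := by
  have hS := redSetup_of_dvr (K := K) hπ
  have h0 : redR hS.inj ⟨(z : LaurentSeries K), hz⟩ = 0 := by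
    by_contra h
    exact hz' (inv_mem_LamR_of_redR_ne_zero hS.inj (x := ⟨(z : LaurentSeries K), hz⟩) h)
  obtain ⟨x', hx'⟩ := exists_eq_mul_of_redR_eq_zero hS h0
  have h1 : (z : LaurentSeries K) = HahnSeries.C (algebraMap R K π) * (x' : LaurentSeries K) :=
    congrArg Subtype.val hx'
  rw [mem_gaussSub_iff]
  show (z : LaurentSeries K) / ((algebraMap R (FK K M) π : FK K M) : LaurentSeries K) ∈ _
  rw [coe_algebraMap_R, h1, mul_div_cancel_left₀ _ (redSetup_C_unif_ne_zero hS)]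
  exact x'.2

end unif

section ovr

variable [Algebra R (FK K N)] [IsScalarTower R K (FK K N)]
  [Algebra R (FK K (N * r))] [IsScalarTower R K (FK K (N * r))]
  [CharP (IsLocalRing.ResidueField R) r]

/-- `u = j - j_r^r` is a unit of `V_F` -/
theorem v2w_u_mem : J1 K (N * r) - jr K N r ^ r ∈ gaussSub R K (N * r) :=
  sub_mem (Jgen_mem_gaussSub _) (pow_mem (Jgen_mem_gaussSub _) r)

theorem v2w_u_coe :
    ((J1 K (N * r) - jr K N r ^ r : FK K (N * r)) : LaurentSeries K) =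
      coeffMap (algebraMap R K) (jA R - jAd R r ^ r) := by
  rw [map_sub, map_pow, S28lib.coeffMap_jAd, S28lib.coeffMap_jA,
    ← coe_Jgen_jAd K (N * r) ⟨r, dvd_mul_left r N⟩, ← coe_J1_jA K (N * r)]
  rfl

theorem v2w_u_red_ne (hr : r.Prime) :
    coeffMap (IsLocalRing.residue R) (jA R - jAd R r ^ r) ≠ 0 := by
  rw [map_sub, map_pow, S28lib.coeffMap_jAd, S28lib.coeffMap_jA]
  intro h0
  have h7 := congrArg HahnSeries.order (sub_eq_zero.1 h0)
  rw [HahnSeries.order_pow, order_jAd, S28lib.order_jA] at h7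
  have h8 : (2 : ℤ) ≤ r := by exact_mod_cast hr.two_le
  simp only [nsmul_eq_mul] at h7
  nlinarith

theorem v2w_u_inv_mem (hr : r.Prime) : (J1 K (N * r) - jr K N r ^ r)⁻¹ ∈ gaussSub R K (N * r) :=
  inv_mem_gaussSub_of_eq_coeffMap _ v2w_u_coe (v2w_u_red_ne hr)

theorem v2w_u_ne_zero (hr : r.Prime) : J1 K (N * r) - jr K N r ^ r ≠ 0 := by
  intro h
  have h1 : ((J1 K (N * r) : FK K (N * r)) : LaurentSeries K) =
      ((jr K N r : FK K (N * r)) : LaurentSeries K) ^ r :=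
    congrArg Subtype.val (sub_eq_zero.1 h)
  rw [coe_J1_jA, coe_Jgen_jAd] at h1
  have h7 := congrArg HahnSeries.order h1
  rw [HahnSeries.order_pow, order_jAd, S28lib.order_jA] at h7
  have h8 : (2 : ℤ) ≤ r := by exact_mod_cast hr.two_le
  simp only [nsmul_eq_mul] at h7
  nlinarith

theorem v2w_wr_J1 (hr : r.Prime) (hrN : ¬ r ∣ N) : wr K hr hrN (J1 K (N * r)) = jr K N r := by
  rw [← wr_jr hr hrN, wr_wr]

/-- `e2 (j_r - j^r) = y + i12 (j - j_r^r)` -/
theorem v2w_e2_s :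
    e2 K N r (jr K N r - J1 K (N * r) ^ r) =
      vY K N r + i12 K N r (J1 K (N * r) - jr K N r ^ r) := by
  have h1 : i12 K N r (J1 K (N * r)) = J1 K (N * r * r) := rfl
  have h2 : i12 K N r (jr K N r) = Jgen K (N * r * r) ⟨r, (dvd_mul_left r N).mul_right r⟩ := rfl
  have hY : vY K N r = e2 K N r (jr K N r) - J1 K (N * r * r) := by
    rw [e2_jr]
    show vJ2 K N r - vJ0 K N r = _
    rw [vJ2_eq_jrr, vJ0_eq_J1]
  rw [map_sub, map_pow, map_sub, map_pow, e2_J1, hY, h1, h2]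
  ring

theorem v2w_over_aux (hr : r.Prime) (hrN : ¬ r ∣ N) (hN : (N : IsLocalRing.ResidueField R) ≠ 0)
    {π : R} (hπ : Irreducible π) (W : ValuationSubring (FK K (N * r * r)))
    (hinc : ∀ x : FK K (N * r), i12 K N r x ∈ W ↔ x ∈ VF1 R K N r)
    (hy : vY K N r ∈ W ∧ (vY K N r)⁻¹ ∉ W) {x : FK K (N * r)} (hx : x ∈ VF1 R K N r) :
    w2 K hr hrN (i12 K N r x) ∈ W := by
  rw [v1_w2_incl]
  show e2 K N r (wr K hr hrN x) ∈ W
  set x' := wr K hr hrN x with hx'
  set s : FK K (N * r) := jr K N r - J1 K (N * r) ^ r with hs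
  set u : FK K (N * r) := J1 K (N * r) - jr K N r ^ r with hu
  set ϖ : FK K (N * r) := algebraMap R (FK K (N * r)) π with hϖ
  have hϖ0 : ϖ ≠ 0 := tv_unif_ne_zero (N * r) hπ
  have hwrs : wr K hr hrN s = u := by
    rw [hs, map_sub, map_pow, wr_jr, v2w_wr_J1]
  obtain ⟨k, hk⟩ := exists_pow_mul_mem_gaussSub hπ x'
  -- `z = s^k x'` lies in `V_F ∩ V_V`
  have hz1 : s ^ k * x' ∈ gaussSub R K (N * r) := by
    have : s ^ k * x' = (s / ϖ) ^ k * (ϖ ^ k * x') := by
      rw [div_pow]; field_simp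
    rw [this]
    exact mul_mem (pow_mem (tv_jr_sub hr hπ) k) hk
  have hz2 : wr K hr hrN (s ^ k * x') ∈ gaussSub R K (N * r) := by
    rw [map_mul, map_pow, hwrs, hx', wr_wr]
    exact mul_mem (pow_mem v2w_u_mem k) hx
  obtain ⟨c, hc, hz⟩ := exists_gauss_coeffs hr hrN hN _ hz1 hz2
  have hJ0 : vJ0 K N r ∈ W := (hinc (J1 K (N * r))).2 (Jgen_mem_gaussSub _)
  have hJ2 : e2 K N r (jr K N r) ∈ W := by
    have h0 : e2 K N r (jr K N r) = vJ2 K N r := (e2_jr K).trans vJ2_eq_jrr.symm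
    have : vJ2 K N r = vY K N r + vJ0 K N r := by ring
    rw [h0, this]
    exact add_mem hy.1 hJ0
  have hez : e2 K N r (s ^ k * x') ∈ W := by
    rw [hz, map_sum]
    refine sum_mem fun i _ => ?_
    rw [map_mul, map_pow]
    refine mul_mem ?_ (pow_mem hJ2 _)
    rw [e2_inclF, ← e1_inclF K hr hrN, e1_apply]
    exact (hinc _).2 (tv_wr_incl_mem hr hrN (hc i))
  -- `e2 s` is a unit of `W`
  have hu0 : u ≠ 0 := v2w_u_ne_zero hr
  have hiu : W.valuation (i12 K N r u) = 1 := by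
    apply v2w_val_eq_one W ((_root_.map_ne_zero _).2 hu0) ((hinc u).2 v2w_u_mem)
    rw [← map_inv₀]
    exact (hinc _).2 (v2w_u_inv_mem hr)
  have hvy : W.valuation (vY K N r) < 1 := v2w_val_lt_one W hy.2
  have hes : W.valuation (e2 K N r s) = 1 := by
    rw [hs, v2w_e2_s]
    exact (Valuation.map_add_eq_of_lt_right _ (by rw [hiu]; exact hvy)).trans hiu
  have hes0 : e2 K N r s ≠ 0 := by
    intro h
    rw [h, map_zero] at hes
    exact zero_ne_one hes
  have hesi : (e2 K N r s)⁻¹ ∈ W := by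
    rw [← W.valuation_le_one_iff, map_inv₀, hes, inv_one]
  have : e2 K N r x' = e2 K N r (s ^ k * x') * ((e2 K N r s)⁻¹) ^ k := by
    rw [map_mul, map_pow, inv_pow]
    field_simp
  rw [this]
  exact mul_mem hez (pow_mem hesi k)

/-- **(26-b)** a valuation ring `W` over `V_F` along `i12` in which `y` is a non-unit lies over
`V_F` along `w2 ∘ i12` too -/
theorem v2_over_w2 (hr : r.Prime) (hrN : ¬ r ∣ N) (hN : (N : IsLocalRing.ResidueField R) ≠ 0)
    {π : R} (hπ : Irreducible π) (W : ValuationSubring (FK K (N * r * r)))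
    (hinc : ∀ x : FK K (N * r), i12 K N r x ∈ W ↔ x ∈ VF1 R K N r)
    (hy : vY K N r ∈ W ∧ (vY K N r)⁻¹ ∉ W) (x : FK K (N * r)) :
    w2 K hr hrN (i12 K N r x) ∈ W ↔ x ∈ VF1 R K N r := by
  refine ⟨fun h => ?_, fun h => v2w_over_aux hr hrN hN hπ W hinc hy h⟩
  by_contra hx
  have hx0 : x ≠ 0 := by
    rintro rfl
    exact hx (zero_mem _)
  have hxi : x⁻¹ ∈ gaussSub R K (N * r) :=
    ((gaussVal R K (N * r)).mem_or_inv_mem x).resolve_left hx
  have h1 : x⁻¹ / algebraMap R (FK K (N * r)) π ∈ gaussSub R K (N * r) :=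
    v2w_unif hπ hxi (by rw [inv_inv]; exact hx)
  have h2 := v2w_over_aux hr hrN hN hπ W hinc hy (x := x⁻¹ / algebraMap R (FK K (N * r)) π) h1
  have h3 := mul_mem h h2
  rw [← map_mul, ← map_mul, mul_div_assoc', mul_inv_cancel₀ hx0, one_div,
    IsScalarTower.algebraMap_apply R K (FK K (N * r)), ← map_inv₀ (algebraMap K (FK K (N * r))),
    AlgHom.commutes, AlgEquiv.commutes, ← AlgHom.commutes (i12 K N r), hinc, map_inv₀,
    ← IsScalarTower.algebraMap_apply R K (FK K (N * r))] at h3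
  exact inv_unif_notMem_gaussSub hπ h3

end ovr

end

end Fermat.Agent.CARlib
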