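import Fermat.Agent.CAR.CFinal
import Fermat.Agent.CAR.V2Res
import Fermat.Agent.CAR.V2App
import Fermat.Agent.CAR.V2W2

/-!
# T-CAR, block C: the bundles and the output for the two charts `vT2`, `vT2⁻¹`, from `VCore` alone
(+ `L : CLev1` from block B and `hmid` from `CHmid`)
-/

set_option autoImplicit false
set_option linter.unusedSectionVars false
set_option linter.unusedVariables false

open ModularCurve Polynomial

namespace Fermat.Agent.CARlib.C

open Fermat.Agent.ESlib Fermat.Agent.UNIlib Fermat.Agent.CARlib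

variable {R K : Type} [CommRing R] [IsDomain R] [IsDiscreteValuationRing R] [Field K]
  [Algebra R K] [IsFractionRing R K] [Algebra ℚ K] [CharZero K] [Algebra K ℂ] [IsScalarTower ℚ K ℂ]
  {N r : ℕ} [NeZero N] [NeZero r] [NeZero (N * r)] [NeZero (N * r * r)]
  [Algebra R (FK K N)] [IsScalarTower R K (FK K N)]
  [Algebra R (FK K (N * r))] [IsScalarTower R K (FK K (N * r))]
  [Algebra R (FK K (N * r * r))] [IsScalarTower R K (FK K (N * r * r))]
  [CharP (IsLocalRing.ResidueField R) r]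

/-- `v2_vf_res` from `VCore` -/
theorem c_hvf {hr : r.Prime} {hrN : ¬ r ∣ N} {π : R} {W : ValuationSubring (FK K (N * r * r))}
    (D : VCore hr hrN π W) (hN : (N : IsLocalRing.ResidueField R) ≠ 0) (hπ : Irreducible π)
    (z : FK K (N * r * r)) (hz : z ∈ WVF R K N r) :
    ∃ c ∈ VF1 R K N r, (z - i12 K N r c) / algebraMap R (FK K (N * r * r)) π ∈ WVF R K N r := by
  refine D.vf_res hN hπ z hz ?_
  obtain ⟨G, h1, -, h3⟩ := D.approx hN hπ z 0 0
  refine ⟨G, h1, ?_⟩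
  rw [sub_zero] at h3
  exact mem_of_val_lt_one
    (val_lt_one_of_div (algebraMap_unif_ne_zero hπ) (val_pi_W hr hrN D hπ) h3)

variable (a : ℕ) [NeZero a] (ha : a = 2 ∨ a = 3) (haN : a ∣ N)

/-- **OUTPUT, chart `vT2`** -/
theorem c_top {hr : r.Prime} {hrN : ¬ r ∣ N} {π : R} {W : ValuationSubring (FK K (N * r * r))}
    (D : VCore hr hrN π W) (hN : (N : IsLocalRing.ResidueField R) ≠ 0) (hπ : Irreducible π)
    {pF pV : Ideal (integralClosure
      (Algebra.adjoin R {inclF K (dvd_mul_right N r) (tF K N a ha haN)}) (FK K (N * r)))}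
    (L : CLev1 (algebraMap R (integralClosure
      (Algebra.adjoin R {inclF K (dvd_mul_right N r) (tF K N a ha haN)}) (FK K (N * r))) π)
      (VF1 R K N r) (VV1 R hr hrN) pF pV)
    (hmid : ∀ 𝔫 : Ideal (integralClosure (Algebra.adjoin R {vT2 K r a ha haN}) (FK K (N * r * r))),
      𝔫.IsMaximal →
      cCen (integralClosure (Algebra.adjoin R {vT2 K r a ha haN}) (FK K (N * r * r))) W ≤ 𝔫 →
      CMid (algebraMap R
        (integralClosure (Algebra.adjoin R {vT2 K r a ha haN}) (FK K (N * r * r))) π) W 𝔫)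
    (𝔫 : Ideal (integralClosure (Algebra.adjoin R {vT2 K r a ha haN}) (FK K (N * r * r))))
    (h𝔫 : 𝔫.IsMaximal)
    (hπ𝔫 : algebraMap R
      (integralClosure (Algebra.adjoin R {vT2 K r a ha haN}) (FK K (N * r * r))) π ∈ 𝔫) :
    (∃ P : Ideal (integralClosure (Algebra.adjoin R {vT2 K r a ha haN}) (FK K (N * r * r))),
      P.IsPrime ∧ (P = cCen _ (WFV R hr hrN : ValuationSubring (FK K (N * r * r))) ∨
        P = cCen _ (WVF R K N r) ∨ P = cCen _ W) ∧ P ≤ 𝔫 ∧ ∃ a t, a ≠ 0 ∧ CReg 𝔫 P a t) ∧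
    (cCen _ (WFV R hr hrN : ValuationSubring (FK K (N * r * r))) ≤ 𝔫 →
      CDvr 𝔫 (cCen _ (WFV R hr hrN : ValuationSubring (FK K (N * r * r))))) ∧
    (cCen _ (WVF R K N r) ≤ 𝔫 → CDvr 𝔫 (cCen _ (WVF R K N r))) ∧
    (cCen _ W ≤ 𝔫 → CDvr 𝔫 (cCen _ W)) :=
  c_final hr hrN hπ D (c_hvf D hN hπ) (cE1_chart a ha haN hr hrN) (cE2_chart a ha haN)
    (transcendental_vT2 a ha haN) (D.piInt_iff a ha haN hN (v2_basis_V hr hrN) hπ) L hmid 𝔫 h𝔫 hπ𝔫

/-- **OUTPUT, chart `vT2⁻¹`** -/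
theorem c_top_inv {hr : r.Prime} {hrN : ¬ r ∣ N} {π : R} {W : ValuationSubring (FK K (N * r * r))}
    (D : VCore hr hrN π W) (hN : (N : IsLocalRing.ResidueField R) ≠ 0) (hπ : Irreducible π)
    {pF pV : Ideal (integralClosure
      (Algebra.adjoin R {inclF K (dvd_mul_right N r) (tF K N a ha haN)⁻¹}) (FK K (N * r)))}
    (L : CLev1 (algebraMap R (integralClosure
      (Algebra.adjoin R {inclF K (dvd_mul_right N r) (tF K N a ha haN)⁻¹}) (FK K (N * r))) π)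
      (VF1 R K N r) (VV1 R hr hrN) pF pV)
    (hmid : ∀ 𝔫 : Ideal
        (integralClosure (Algebra.adjoin R {(vT2 K r a ha haN)⁻¹}) (FK K (N * r * r))),
      𝔫.IsMaximal →
      cCen (integralClosure (Algebra.adjoin R {(vT2 K r a ha haN)⁻¹}) (FK K (N * r * r))) W ≤ 𝔫 →
      CMid (algebraMap R
        (integralClosure (Algebra.adjoin R {(vT2 K r a ha haN)⁻¹}) (FK K (N * r * r))) π) W 𝔫)
    (𝔫 : Ideal (integralClosure (Algebra.adjoin R {(vT2 K r a ha haN)⁻¹}) (FK K (N * r * r))))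
    (h𝔫 : 𝔫.IsMaximal)
    (hπ𝔫 : algebraMap R
      (integralClosure (Algebra.adjoin R {(vT2 K r a ha haN)⁻¹}) (FK K (N * r * r))) π ∈ 𝔫) :
    (∃ P : Ideal (integralClosure (Algebra.adjoin R {(vT2 K r a ha haN)⁻¹}) (FK K (N * r * r))),
      P.IsPrime ∧ (P = cCen _ (WFV R hr hrN : ValuationSubring (FK K (N * r * r))) ∨
        P = cCen _ (WVF R K N r) ∨ P = cCen _ W) ∧ P ≤ 𝔫 ∧ ∃ a t, a ≠ 0 ∧ CReg 𝔫 P a t) ∧
    (cCen _ (WFV R hr hrN : ValuationSubring (FK K (N * r * r))) ≤ 𝔫 →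
      CDvr 𝔫 (cCen _ (WFV R hr hrN : ValuationSubring (FK K (N * r * r))))) ∧
    (cCen _ (WVF R K N r) ≤ 𝔫 → CDvr 𝔫 (cCen _ (WVF R K N r))) ∧
    (cCen _ W ≤ 𝔫 → CDvr 𝔫 (cCen _ W)) :=
  c_final hr hrN hπ D (c_hvf D hN hπ) (cE1_chart_inv a ha haN hr hrN) (cE2_chart_inv a ha haN)
    (transcendental_vT2_inv a ha haN) (D.piInt_inv_iff a ha haN hN (v2_basis_V hr hrN) hπ) L hmid
    𝔫 h𝔫 hπ𝔫

end Fermat.Agent.CARlib.C
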