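import Fermat.Agent.S13.Minkowski
import Fermat.Agent.CAR.DDefs

/-!
# T-CAR, block D, row D1a: the fixed field `K = inF A` of the inertia group of `A`

`A ∩ K` is a discrete valuation ring with uniformiser `r`.
-/

set_option autoImplicit false
set_option synthInstance.maxHeartbeats 200000
set_option linter.unusedSectionVars false
open scoped Pointwise NumberField
open Polynomial IntermediateField

namespace Fermat.Agent.CARlib

open Fermat.Agent.FrobExists Fermat.Agent.S13lib Fermat.Agent.ESlib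

noncomputable section

/-! ### finite level -/

/-- the inertia field is unramified over `ℚ` -/
theorem d1_ramificationIdx_eq_one (L : Type*) [Field L] [NumberField L] [IsGalois ℚ L]
    (P : Ideal (𝓞 L)) [P.IsPrime] (hP : P ≠ ⊥) :
    (P.under (𝓞 (FixedPoints.intermediateField (P.inertia Gal(L/ℚ)) :
      IntermediateField ℚ L))).ramificationIdx ℤ = 1 := by
  set H := P.inertia Gal(L/ℚ) with hH
  set E : IntermediateField ℚ L := FixedPoints.intermediateField H with hE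
  have i1 : IsGaloisGroup H E L := IsGaloisGroup.subgroup Gal(L/ℚ) ℚ L H
  have i2 : IsGaloisGroup H (𝓞 E) (𝓞 L) := .of_isFractionRing _ _ _ E L
  have hpne : P.under ℤ ≠ ⊥ := Ideal.under_ne_bot _ hP
  have : (P.under ℤ).IsMaximal := Ideal.IsPrime.isMaximal inferInstance hpne
  have hEne : P.under (𝓞 E) ≠ ⊥ := Ideal.under_ne_bot _ hP
  have : (P.under (𝓞 E)).IsMaximal := Ideal.IsPrime.isMaximal inferInstance hEne
  have h1 := Ideal.card_inertia_eq_ramificationIdxIn (G := Gal(L/ℚ)) (P.under ℤ) P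
  rw [Ideal.ramificationIdxIn_eq_ramificationIdx (P.under ℤ) P Gal(L/ℚ)] at h1
  have h2 := Ideal.card_inertia_eq_ramificationIdxIn (G := H) (P.under (𝓞 E)) P
  rw [Ideal.ramificationIdxIn_eq_ramificationIdx (P.under (𝓞 E)) P H] at h2
  have h3 := Ideal.ramificationIdx_tower (R := ℤ) (P.under (𝓞 E)) P
  have h4 : P.inertia H = ⊤ := by
    rw [eq_top_iff]
    intro σ _ x
    exact σ.2 x
  rw [h4, Nat.card_congr Subgroup.topEquiv.toEquiv] at h2
  rw [← h1, ← h2] at h3
  have h5 : 0 < Nat.card H := Nat.card_pos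
  exact (Nat.eq_of_mul_eq_mul_right h5 (by rw [one_mul]; exact h3)).symm

/-- `e = 1` in terms of elements -/
theorem d1_exists_mul_eq (E : Type*) [Field E] [NumberField E] (Q : Ideal (𝓞 E)) [Q.IsPrime]
    {r : ℕ} (hr : r.Prime) (hrQ : (r : 𝓞 E) ∈ Q) (he : Q.ramificationIdx ℤ = 1)
    (a : 𝓞 E) (ha : a ∈ Q) : ∃ c d : 𝓞 E, c ∉ Q ∧ c * a = r * d := by
  have hQ0 : Q ≠ ⊥ := by
    intro h
    rw [h, Ideal.mem_bot] at hrQ
    exact hr.ne_zero (by exact_mod_cast hrQ)
  have hQm : Q.IsMaximal := Ideal.IsPrime.isMaximal inferInstance hQ0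
  have hunder : Q.under ℤ = Ideal.span {(r : ℤ)} := by
    have h1 : Ideal.span {(r : ℤ)} ≤ Q.under ℤ := by
      rw [Ideal.span_singleton_le_iff_mem, Ideal.mem_comap]
      simpa using hrQ
    have h2 : (Ideal.span {(r : ℤ)}).IsMaximal :=
      Ideal.IsPrime.isMaximal ((Ideal.span_singleton_prime (by exact_mod_cast hr.ne_zero)).2
        (Nat.prime_iff_prime_int.1 hr)) (by simpa using hr.ne_zero)
    exact (h2.eq_of_le (Ideal.IsPrime.ne_top inferInstance) h1).symm
  have hmap : (Q.under ℤ).map (algebraMap ℤ (𝓞 E)) = Ideal.span {(r : 𝓞 E)} := by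
    rw [hunder, Ideal.map_span, Set.image_singleton]
    simp
  have hne : (Q.under ℤ).map (algebraMap ℤ (𝓞 E)) ≠ ⊥ := by
    rw [hmap, Ne, Ideal.span_singleton_eq_bot]
    exact_mod_cast hr.ne_zero
  obtain ⟨I, hI, h⟩ := Ideal.eq_prime_pow_mul_coprime hne Q
  rw [← Ideal.IsDedekindDomain.ramificationIdx_eq_normalizedFactors_count (Q.under ℤ) Q hne, he,
    pow_one, hmap] at h
  obtain ⟨c, hcI, hcQ⟩ : ∃ c ∈ I, c ∉ Q := by
    by_contra hcon
    push Not at hcon
    have : I ≤ Q := hcon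
    rw [sup_of_le_left this] at hI
    exact hQm.ne_top hI
  have h1 : a * c ∈ Ideal.span {(r : 𝓞 E)} := h ▸ Ideal.mul_mem_mul ha hcI
  obtain ⟨d, hd⟩ := Ideal.mem_span_singleton'.1 h1
  exact ⟨c, d, hcQ, by rw [mul_comm c a, ← hd, mul_comm]⟩

/-! ### valuation subrings -/

theorem d1_mem_nonunits_iff {F : Type*} [Field F] (B : ValuationSubring F) (x : F) :
    x ∈ B.nonunits ↔ x = 0 ∨ x⁻¹ ∉ B := by
  rw [ValuationSubring.mem_nonunits_iff, ← ValuationSubring.valuation_le_one_iff]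
  rcases eq_or_ne x 0 with rfl | hx
  · simp
  · simp only [hx, false_or, map_inv₀, not_le]
    rw [one_lt_inv₀ (zero_lt_iff.2 ((_root_.map_ne_zero _).2 hx))]

theorem d1_mem_nonunits_comap {F F' : Type*} [Field F] [Field F'] (f : F →+* F')
    (B : ValuationSubring F') (x : F) : x ∈ (B.comap f).nonunits ↔ f x ∈ B.nonunits := by
  rw [d1_mem_nonunits_iff, d1_mem_nonunits_iff, ValuationSubring.mem_comap, map_inv₀,
    map_eq_zero]

theorem d1_inv_mem {F : Type*} [Field F] (B : ValuationSubring F) {x : F}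
    (hx' : x ∉ B.nonunits) : x⁻¹ ∈ B := by
  rw [d1_mem_nonunits_iff] at hx'
  push Not at hx'
  exact hx'.2

open Fermat.Agent.S24lib (Kb)

attribute [local instance] isAlgebraicQb isAlgClosureQb normalQb isGaloisQb isInvariantZb
  topZb discZb contZb algK smulCommK isInvariantK compactK nfK

variable (A : ValuationSubring Kb) {r : ℕ}

/-- **`e = 1`**: the core of D1. -/
theorem d1_div_mem (hr : r.Prime) (hA : A.LiesOverPrime r) {x : Kb} (hx : x ∈ inF A)
    (hx' : x ∈ A.nonunits) : x / r ∈ A := by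
  classical
  -- the finite Galois level
  let L : IntermediateField ℚ Kb := IntermediateField.normalClosure ℚ (ℚ⟮x⟯) Kb
  have hfin0 : FiniteDimensional ℚ ℚ⟮x⟯ :=
    IntermediateField.adjoin.finiteDimensional (Algebra.IsIntegral.isIntegral x)
  have hfin : FiniteDimensional ℚ L := inferInstance
  have hnor : Normal ℚ L := normalClosure.normal ℚ (ℚ⟮x⟯) Kb
  have hgal : IsGalois ℚ L := ⟨⟩
  have hxL : x ∈ L :=
    (IntermediateField.le_normalClosure ℚ⟮x⟯) (IntermediateField.mem_adjoin_simple_self ℚ x)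
  clear_value L
  -- the prime of `L`
  set P : Ideal (𝓞 L) := (primeOf A).under (𝓞 L) with hPdef
  have hmemP : ∀ y : 𝓞 L, y ∈ P ↔ (((y : L) : Kb)) ∈ A.nonunits := fun y => by
    rw [hPdef, Ideal.mem_comap, mem_primeOf]
    rfl
  have hP0 : P ≠ ⊥ := by
    intro h
    have h1 : (r : 𝓞 L) ∈ P := by
      rw [hmemP]
      have h2 : (((r : 𝓞 L) : L) : Kb) = (r : Kb) := by simp
      rw [h2]
      exact hA
    rw [h, Ideal.mem_bot] at h1
    exact hr.ne_zero (by exact_mod_cast h1)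
  set H := P.inertia Gal(L/ℚ) with hH
  set E : IntermediateField ℚ L := FixedPoints.intermediateField H with hE
  have he := d1_ramificationIdx_eq_one L P hP0
  rw [← hH, ← hE] at he
  -- `x ∈ E`
  have hxE : (⟨x, hxL⟩ : L) ∈ E := by
    intro τ
    obtain ⟨σ, hσP, hσb, hσL⟩ := exists_lift_inertia L (primeOf A) (τ : Gal(L/ℚ)) τ.2
    have h1 := mem_inertiaSubgroupIn A hr hA σ hσP hσb
    have h2 := (mem_inF_iff A x).1 hx σ h1
    have h3 := hσL ⟨x, hxL⟩
    apply Subtype.ext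
    exact h3.symm.trans h2
  -- the valuation ring of `E`
  let ι : E →+* Kb := (algebraMap L Kb).comp (algebraMap E L)
  let AE : ValuationSubring E := A.comap ι
  have hAE : AE.LiesOverPrime r := by
    show (r : E) ∈ AE.nonunits
    rw [d1_mem_nonunits_comap, map_natCast]
    exact hA
  let xE : E := ⟨⟨x, hxL⟩, hxE⟩
  have hιx : ι xE = x := rfl
  have hxAE : xE ∈ AE := by
    show ι xE ∈ A
    rw [hιx]
    exact A.nonunits_subset hx'
  have halg : IsAlgebraic ℤ xE :=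
    (IsFractionRing.isAlgebraic_iff ℤ ℚ E).mpr (Algebra.IsAlgebraic.isAlgebraic xE)
  obtain ⟨b, hb, hbn, hbx⟩ := exists_mul_isIntegral AE hr hAE xE hxAE halg
  rw [d1_mem_nonunits_comap] at hbn
  set Q : Ideal (𝓞 E) := P.under (𝓞 E) with hQdef
  have hmemQ : ∀ y : 𝓞 E, y ∈ Q ↔ ι (y : E) ∈ A.nonunits := fun y => by
    rw [hQdef, Ideal.mem_comap, hmemP]
    rfl
  have hrQ : (r : 𝓞 E) ∈ Q := by
    rw [hmemQ]
    have h2 : ι ((r : 𝓞 E) : E) = (r : Kb) := by simp
    rw [h2]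
    exact hA
  obtain ⟨a, ha⟩ : ∃ a : 𝓞 E, (a : E) = b * xE := ⟨⟨b * xE, hbx⟩, rfl⟩
  have haQ : a ∈ Q := by
    rw [hmemQ, ha]
    rw [map_mul, hιx, mul_comm]
    have hbA : ι b ∈ A := mem_of_isIntegral_int A (hb.map (ι : E →+* Kb).toIntAlgHom)
    rw [ValuationSubring.mem_nonunits_iff] at hx' ⊢
    rw [map_mul]
    exact mul_lt_one_of_lt_of_le hx' ((A.valuation_le_one_iff _).2 hbA)
  obtain ⟨c, d, hcQ, hcd⟩ := d1_exists_mul_eq E Q hr hrQ he a haQ
  rw [hmemQ] at hcQ
  have hcd' : ι (c : E) * (ι b * x) = r * ι (d : E) := by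
    have := congrArg (fun z : 𝓞 E => ι (z : E)) hcd
    simp only [map_mul, map_natCast, ha, hιx] at this
    exact this
  have hr0 : (r : Kb) ≠ 0 := by exact_mod_cast hr.ne_zero
  have hc0 : ι (c : E) ≠ 0 := fun h => hcQ (by rw [h]; exact (d1_mem_nonunits_iff A 0).2 (Or.inl rfl))
  have hb0 : ι b ≠ 0 := fun h => hbn (by rw [h]; exact (d1_mem_nonunits_iff A 0).2 (Or.inl rfl))
  have hfin : x / r = ι (d : E) * (ι (c : E))⁻¹ * (ι b)⁻¹ := by
    field_simp
    linear_combination hcd'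
  rw [hfin]
  have hdA : ι (d : E) ∈ A :=
    mem_of_isIntegral_int A ((d.2 : IsIntegral ℤ (d : E)).map (ι : E →+* Kb).toIntAlgHom)
  exact A.mul_mem _ _ (A.mul_mem _ _ hdA (d1_inv_mem A hcQ)) (d1_inv_mem A hbn)

theorem d1_not_isUnit_iff (K : IntermediateField ℚ Kb) (a : RA A K) :
    ¬ IsUnit a ↔ (((a : K) : Kb)) ∈ A.nonunits := by
  rw [← mem_nonunits_iff, ← IsLocalRing.mem_maximalIdeal]
  have h := mem_nonunits_RA_iff A K (a : K)
  rw [ValuationSubring.mem_nonunits_iff_exists_mem_maximalIdeal] at h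
  constructor
  · intro ha
    exact h.1 ⟨a.2, ha⟩
  · intro ha
    obtain ⟨_, h2⟩ := h.2 ha
    exact h2

theorem d1_isUnit_natCast (hr : r.Prime) (hA : A.LiesOverPrime r) {m : ℕ} (hm : ¬ r ∣ m) :
    IsUnit ((m : ℕ) : RA A (inF A)) := by
  by_contra h
  rw [d1_not_isUnit_iff] at h
  have h1 : ((((m : ℕ) : RA A (inF A)) : inF A) : Kb) = ((m : ℤ) : Kb) := by simp
  rw [h1] at h
  exact intCast_not_mem_nonunits A hr hA (m := (m : ℤ)) (by exact_mod_cast hm) h

/-- every nonunit of `A ∩ K` is divisible by `r` -/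
theorem d1_dvd_of_not_isUnit (hr : r.Prime) (hA : A.LiesOverPrime r) {a : RA A (inF A)}
    (ha : ¬ IsUnit a) : ((r : ℕ) : RA A (inF A)) ∣ a := by
  rw [d1_not_isUnit_iff] at ha
  have h1 := d1_div_mem A hr hA (a : inF A).2 ha
  have h2 : (((a : inF A) : Kb)) / r ∈ inF A := div_mem (a : inF A).2 (_root_.natCast_mem _ r)
  refine ⟨⟨⟨_, h2⟩, h1⟩, ?_⟩
  apply Subtype.ext
  apply Subtype.ext
  have hr0 : (r : Kb) ≠ 0 := by exact_mod_cast hr.ne_zero
  show ((a : inF A) : Kb) = ((((r : ℕ) : RA A (inF A)) : inF A) : Kb) * (((a : inF A) : Kb) / r)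
  have h3 : ((((r : ℕ) : RA A (inF A)) : inF A) : Kb) = (r : Kb) := by simp
  rw [h3]
  field_simp

theorem d1_irreducible (hr : r.Prime) (hA : A.LiesOverPrime r) :
    Irreducible ((r : ℕ) : RA A (inF A)) := by
  have hr0 : ((r : ℕ) : RA A (inF A)) ≠ 0 := by exact_mod_cast hr.ne_zero
  refine ⟨?_, ?_⟩
  · rw [d1_not_isUnit_iff]
    have h3 : ((((r : ℕ) : RA A (inF A)) : inF A) : Kb) = (r : Kb) := by simp
    rw [h3]
    exact hA
  · intro a b hab
    by_contra hcon
    push Not at hcon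
    obtain ⟨a', rfl⟩ := d1_dvd_of_not_isUnit A hr hA hcon.1
    have h1 : ((r : ℕ) : RA A (inF A)) * 1 = ((r : ℕ) : RA A (inF A)) * (a' * b) := by
      rw [mul_one, ← mul_assoc]
      exact hab
    have h2 := mul_left_cancel₀ hr0 h1
    exact hcon.2 (IsUnit.of_mul_eq_one a' (by rw [mul_comm]; exact h2.symm))

theorem d1_exists_associated (hr : r.Prime) (hA : A.LiesOverPrime r) {x : RA A (inF A)}
    (hx : x ≠ 0) : ∃ n : ℕ, Associated (((r : ℕ) : RA A (inF A)) ^ n) x := by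
  have hr0 : ((r : ℕ) : RA A (inF A)) ≠ 0 := by exact_mod_cast hr.ne_zero
  -- divisors of powers of `r`
  have key : ∀ k : ℕ, ∀ y : RA A (inF A), y ∣ ((r : ℕ) : RA A (inF A)) ^ k →
      ∃ n : ℕ, Associated (((r : ℕ) : RA A (inF A)) ^ n) y := by
    intro k
    induction k with
    | zero =>
      intro y hy
      rw [pow_zero] at hy
      exact ⟨0, by rw [pow_zero]; exact (associated_one_iff_isUnit.2 (isUnit_of_dvd_one hy)).symm⟩
    | succ k ih =>
      intro y hy
      by_cases hu : IsUnit y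
      · exact ⟨0, by rw [pow_zero]; exact (associated_one_iff_isUnit.2 hu).symm⟩
      · obtain ⟨y', rfl⟩ := d1_dvd_of_not_isUnit A hr hA hu
        rw [pow_succ', mul_dvd_mul_iff_left hr0] at hy
        obtain ⟨n, hn⟩ := ih y' hy
        exact ⟨n + 1, by rw [pow_succ']; exact hn.mul_left _⟩
  -- `x` divides a nonzero integer
  have hx0 : (((x : inF A) : Kb)) ≠ 0 := by
    intro h
    exact hx (Subtype.ext (Subtype.ext h))
  have halg : IsAlgebraic ℤ (((x : inF A) : Kb))⁻¹ :=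
    (IsFractionRing.isAlgebraic_iff ℤ ℚ Kb).mpr (Algebra.IsAlgebraic.isAlgebraic _)
  obtain ⟨N, hN0, hN⟩ := halg.exists_integral_multiple
  have hNA := mem_of_isIntegral_int A hN
  have hNK : N • (((x : inF A) : Kb))⁻¹ ∈ inF A := by
    rw [zsmul_eq_mul]
    exact mul_mem (_root_.intCast_mem _ N) (inv_mem (x : inF A).2)
  have hdvd : x ∣ ((N : ℤ) : RA A (inF A)) := by
    refine ⟨⟨⟨_, hNK⟩, hNA⟩, ?_⟩
    apply Subtype.ext
    apply Subtype.ext
    show ((((N : ℤ) : RA A (inF A)) : inF A) : Kb) =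
      ((x : inF A) : Kb) * (N • (((x : inF A) : Kb))⁻¹)
    have h3 : ((((N : ℤ) : RA A (inF A)) : inF A) : Kb) = (N : Kb) := by simp
    rw [h3, zsmul_eq_mul]
    field_simp
  -- `N = r ^ k * m`
  obtain ⟨k, m, hm, hNk⟩ : ∃ (k : ℕ) (m : ℕ), ¬ r ∣ m ∧ N.natAbs = r ^ k * m := by
    obtain ⟨k, m, hm, h⟩ := Nat.exists_eq_pow_mul_and_not_dvd (Int.natAbs_ne_zero.2 hN0) r hr.ne_one
    exact ⟨k, m, hm, h⟩
  have hdvd2 : x ∣ ((r : ℕ) : RA A (inF A)) ^ k := by
    have h1 : x ∣ ((N.natAbs : ℕ) : RA A (inF A)) := by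
      rcases Int.natAbs_eq N with h | h
      · rw [h] at hdvd
        simpa using hdvd
      · rw [h] at hdvd
        simpa using hdvd
    rw [hNk, Nat.cast_mul, Nat.cast_pow] at h1
    exact ((d1_isUnit_natCast A hr hA hm).dvd_mul_right).1 h1
  exact key k x hdvd2

theorem d1_isDVR (hr : r.Prime) (hA : A.LiesOverPrime r) :
    IsDiscreteValuationRing (RA A (inF A)) :=
  IsDiscreteValuationRing.ofHasUnitMulPowIrreducibleFactorization
    ⟨_, d1_irreducible A hr hA, fun hx => d1_exists_associated A hr hA hx⟩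

end

end Fermat.Agent.CARlib
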