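import Fermat.Agent.CAR.D1Unit

/-!
# T-CAR, block D, row D1b: the residue field of `A ∩ ℚ̄^{I_A}` is algebraically closed
-/

set_option autoImplicit false
set_option linter.unusedSectionVars false
set_option linter.style.haveILetI false

open ModularCurve AlgebraicCurve Polynomial

namespace Fermat.Agent.CARlib

open Fermat.Agent.ESlib Fermat.Agent.UNIlib
open Fermat.Agent.S24lib (Kb)

variable (A : ValuationSubring Kb) {r : ℕ}

/-- every element of `ℚ̄` is a root of a primitive integral polynomial -/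
theorem d1_exists_primitive (a : Kb) : ∃ P : ℤ[X], P.IsPrimitive ∧ aeval a P = 0 := by
  have : Algebra.IsAlgebraic ℚ Kb := AlgebraicClosure.isAlgebraic ℚ
  have h1 : IsAlgebraic ℚ a := Algebra.IsAlgebraic.isAlgebraic a
  have h2 : IsAlgebraic ℤ a := (IsFractionRing.isAlgebraic_iff ℤ ℚ Kb).2 h1
  obtain ⟨P, hP0, hP⟩ := h2
  refine ⟨P.primPart, P.isPrimitive_primPart, ?_⟩
  have h3 := P.eq_C_content_mul_primPart
  rw [h3, map_mul, aeval_C] at hP
  refine (mul_eq_zero.1 hP).resolve_left ?_
  have h4 : P.content ≠ 0 := by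
    rwa [Ne, content_eq_zero_iff]
  simpa using h4

/-- the residue field of `RA A K` is algebraic over `𝔽_r` -/
theorem d1_isAlgebraic_res (K : IntermediateField ℚ Kb) (hr : r.Prime) (hA : A.LiesOverPrime r) :
    letI := d1_charP A K hr hA
    letI := ZMod.algebra (IsLocalRing.ResidueField (RA A K)) r
    Algebra.IsAlgebraic (ZMod r) (IsLocalRing.ResidueField (RA A K)) := by
  letI := d1_charP A K hr hA
  letI := ZMod.algebra (IsLocalRing.ResidueField (RA A K)) r
  refine ⟨fun x => ?_⟩
  obtain ⟨a, rfl⟩ := IsLocalRing.residue_surjective x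
  obtain ⟨P, hprim, hP⟩ := d1_exists_primitive ((a : K) : Kb)
  refine ⟨P.map (Int.castRingHom (ZMod r)), ?_, ?_⟩
  · intro h0
    have h1 : C (r : ℤ) ∣ P := by
      rw [C_dvd_iff_dvd_coeff]
      intro i
      have h2 := congrArg (fun Q => Q.coeff i) h0
      simp only [coeff_map, coeff_zero, eq_intCast] at h2
      exact (ZMod.intCast_zmod_eq_zero_iff_dvd _ _).1 h2
    have h3 := hprim _ h1
    rw [Int.isUnit_iff] at h3
    have := hr.two_le
    omega
  · have h1 : aeval a P = 0 := by
      apply Subtype.ext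
      apply Subtype.ext
      refine Eq.trans ?_ hP
      have e1 : (((aeval a P : RA A K) : K) : Kb)
          = ((algebraMap K Kb).comp (RA A K).subtype) (aeval a P) := rfl
      rw [e1, aeval_def, hom_eval₂, aeval_def]
      congr 1
    rw [aeval_def, eval₂_map]
    have h2 := congrArg (IsLocalRing.residue (RA A K)) h1
    rw [map_zero, aeval_def, hom_eval₂] at h2
    rw [← h2]
    congr 1
    exact RingHom.ext_int _ _

theorem d1_perfectField_res (K : IntermediateField ℚ Kb) (hr : r.Prime)
    (hA : A.LiesOverPrime r) : PerfectField (IsLocalRing.ResidueField (RA A K)) := by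
  letI := d1_charP A K hr hA
  letI := ZMod.algebra (IsLocalRing.ResidueField (RA A K)) r
  haveI := d1_isAlgebraic_res A K hr hA
  haveI : Fact r.Prime := ⟨hr⟩
  exact Algebra.IsAlgebraic.perfectField (ZMod r)

/-- a root in `ℚ̄` of a monic polynomial over `R = A ∩ ℚ̄^{I_A}` with separable reduction lies
in `R` -/
theorem d1_root_mem_of_separable (P : (RA A (inF A))[X]) (hP : P.Monic)
    (hsep : (P.map (IsLocalRing.residue (RA A (inF A)))).Separable) {x : Kb}
    (hx : eval₂ ((algebraMap (inF A) Kb).comp (RA A (inF A)).subtype) x P = 0) :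
    x ∈ A ∧ x ∈ inF A := by
  have := isLocalHom_RAincl A (inF A)
  set ι : RA A (inF A) →+* A := RAincl A (inF A) with hι
  have hcomp : (algebraMap (inF A) Kb).comp (RA A (inF A)).subtype = A.subtype.comp ι := rfl
  have hxint : IsIntegral A x := by
    refine ⟨P.map ι, hP.map _, ?_⟩
    rw [eval₂_map]
    exact hx
  obtain ⟨a, ha⟩ := IsIntegrallyClosed.isIntegral_iff.1 hxint
  have ha' : (a : Kb) = x := ha
  have hxA : x ∈ A := ha' ▸ a.2
  refine ⟨hxA, ?_⟩
  -- `a` is a root of `P.map ι`
  have hroot : ∀ b : A, eval₂ ((algebraMap (inF A) Kb).comp (RA A (inF A)).subtype) (b : Kb) P = 0 →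
      eval b (P.map ι) = 0 := by
    intro b hb
    apply Subtype.ext
    rw [ZeroMemClass.coe_zero, ← hb, hcomp, eval_map]
    exact hom_eval₂ P ι A.subtype b
  have ha0 : eval a (P.map ι) = 0 := hroot a (ha'.symm ▸ hx)
  -- the derivative at `a` is a unit
  have hunit : IsUnit (eval a (derivative (P.map ι))) := by
    by_contra hnu
    have h1 : IsLocalRing.residue A (eval a (derivative (P.map ι))) = 0 :=
      (IsLocalRing.residue_eq_zero_iff _).2 hnu
    have hκ : (IsLocalRing.residue A).comp ι
        = (IsLocalRing.ResidueField.map ι).comp (IsLocalRing.residue (RA A (inF A))) := rfl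
    have h2 : ∀ Q : (RA A (inF A))[X], IsLocalRing.residue A (eval a (Q.map ι))
        = eval₂ (IsLocalRing.ResidueField.map ι) (IsLocalRing.residue A a)
            (Q.map (IsLocalRing.residue (RA A (inF A)))) := by
      intro Q
      rw [eval_map, hom_eval₂, hκ, eval₂_map]
    rw [derivative_map, h2, ← derivative_map] at h1
    refine hsep.eval₂_derivative_ne_zero (IsLocalRing.ResidueField.map ι) ?_ h1
    rw [← h2, ha0, map_zero]
  rw [mem_inF_iff]
  intro σ hσ
  have hy := d1_inertia_sub_mem A hσ hxA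
  obtain ⟨hyA, hym⟩ := ValuationSubring.mem_nonunits_iff_exists_mem_maximalIdeal.1 hy
  set y : A := ⟨σ x - x, hyA⟩ with hydef
  have hσroot : eval₂ ((algebraMap (inF A) Kb).comp (RA A (inF A)).subtype) (σ x) P = 0 := by
    have h1 := congrArg (σ : Kb →+* Kb) hx
    rw [map_zero, hom_eval₂] at h1
    rw [← h1]
    congr 1
    ext c
    exact ((mem_inF_iff A _).1 (c : inF A).2 σ hσ).symm
  have hay : ((a + y : A) : Kb) = σ x := by
    show (a : Kb) + (σ x - x) = σ x
    rw [ha']
    ring
  have h3 : eval (a + y) (P.map ι) = 0 := hroot (a + y) (hay.symm ▸ hσroot)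
  obtain ⟨k, hk⟩ := binomExpansion (P.map ι) a y
  rw [h3, ha0, zero_add] at hk
  have h4 : (eval a (derivative (P.map ι)) + k * y) * y = 0 := by
    rw [hk]
    ring
  have h5 : IsUnit (eval a (derivative (P.map ι)) + k * y) := by
    by_contra hnu
    have h6 : eval a (derivative (P.map ι)) + k * y ∈ IsLocalRing.maximalIdeal A := hnu
    have h7 := (IsLocalRing.maximalIdeal A).sub_mem h6
      ((IsLocalRing.maximalIdeal A).mul_mem_left k hym)
    rw [add_sub_cancel_right] at h7
    exact h7 hunit
  have h8 : y = 0 := by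
    rcases mul_eq_zero.1 h4 with h | h
    · exact absurd h h5.ne_zero
    · exact h
  have h9 : σ x - x = 0 := congrArg (fun z : A => (z : Kb)) h8
  exact sub_eq_zero.1 h9

/-- **D1b** -/
theorem d1_isAlgClosed (hr : r.Prime) (hA : A.LiesOverPrime r) :
    IsAlgClosed (IsLocalRing.ResidueField (RA A (inF A))) := by
  have := d1_perfectField_res A (inF A) hr hA
  apply IsAlgClosed.of_exists_root
  intro p hp hirr
  obtain ⟨P, hPmap, hPdeg, hPmonic⟩ := lifts_and_degree_eq_and_monic
    ((mem_lifts p).2 (map_surjective _ IsLocalRing.residue_surjective p)) hp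
  have hdeg : (P.map ((algebraMap (inF A) Kb).comp (RA A (inF A)).subtype)).degree ≠ 0 := by
    rw [hPmonic.degree_map, hPdeg]
    exact hirr.degree_pos.ne'
  obtain ⟨x, hx⟩ := IsAlgClosed.exists_root _ hdeg
  rw [IsRoot.def, eval_map] at hx
  obtain ⟨hxA, hxF⟩ := d1_root_mem_of_separable A P hPmonic
    (hPmap ▸ PerfectField.separable_of_irreducible hirr) hx
  refine ⟨IsLocalRing.residue _ (⟨⟨x, hxF⟩, hxA⟩ : RA A (inF A)), ?_⟩
  rw [← hPmap, eval_map, eval₂_hom]
  have h0 : P.eval (⟨⟨x, hxF⟩, hxA⟩ : RA A (inF A)) = 0 := by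
    apply Subtype.ext
    apply Subtype.ext
    refine Eq.trans ?_ hx
    exact (eval₂_hom (p := P) ((algebraMap (inF A) Kb).comp (RA A (inF A)).subtype)
      (⟨⟨x, hxF⟩, hxA⟩ : RA A (inF A))).symm
  rw [h0, map_zero]

end Fermat.Agent.CARlib
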