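import Fermat.Agent.CAR.DDefs

/-!
# T-CAR, block D, rows D1b, D1c, D1d

`R = RA A (inF A) = A ∩ ℚ̄^{I_A}`:
* `d1_charP`       : the residue field of `RA A K` has characteristic `r` (ANY `K`, no normality);
* `d1_root_mem`    : roots of unity of order prime to `r` lie in `inF A`;
* `d1_exists_pow_eq` : units of `R` are `m`-th powers, `r ∤ m`;
* `d1_isAlgClosed` : the residue field of `R` is algebraically closed.
-/

set_option autoImplicit false
set_option linter.unusedSectionVars false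

open ModularCurve AlgebraicCurve

namespace Fermat.Agent.CARlib

open Fermat.Agent.ESlib Fermat.Agent.UNIlib
open Fermat.Agent.S24lib (Kb)

variable (A : ValuationSubring Kb) {r : ℕ}

/-- inertia moves the elements of `A` by elements of the maximal ideal -/
theorem d1_inertia_sub_mem {σ : Kb ≃ₐ[ℚ] Kb} (hI : σ ∈ A.inertiaSubgroupIn ℚ) {x : Kb}
    (hx : x ∈ A) : σ x - x ∈ A.nonunits := by
  obtain ⟨g, hg, rfl⟩ := Subgroup.mem_map.mp hI
  have h1 : IsLocalRing.residue A (g • (⟨x, hx⟩ : A)) = IsLocalRing.residue A ⟨x, hx⟩ := by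
    rw [IsLocalRing.ResidueField.residue_smul]
    exact congrArg (fun f => f (IsLocalRing.residue A ⟨x, hx⟩)) (MonoidHom.mem_ker.mp hg)
  rw [← sub_eq_zero, ← map_sub, IsLocalRing.residue_eq_zero_iff] at h1
  exact ValuationSubring.coe_mem_nonunits_iff.2 h1

theorem d1_charP_A (hr : r.Prime) (hA : A.LiesOverPrime r) :
    CharP (IsLocalRing.ResidueField A) r := by
  rw [CharP.charP_iff_prime_eq_zero hr]
  have h1 : ((r : ℕ) : A) ∈ IsLocalRing.maximalIdeal A := by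
    rw [← ValuationSubring.coe_mem_nonunits_iff]
    have h0 : (((r : ℕ) : A) : Kb) = (r : Kb) := by simp
    rw [h0]
    exact hA
  rw [← map_natCast (IsLocalRing.residue A)]
  exact (IsLocalRing.residue_eq_zero_iff _).2 h1

/-- `charP_resField_RA` without the normality hypothesis -/
theorem d1_charP (K : IntermediateField ℚ Kb) (hr : r.Prime) (hA : A.LiesOverPrime r) :
    CharP (IsLocalRing.ResidueField (RA A K)) r := by
  rw [CharP.charP_iff_prime_eq_zero hr]
  have h1 : ((r : ℕ) : RA A K) ∈ IsLocalRing.maximalIdeal (RA A K) := by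
    have h2 : ((r : ℕ) : K) ∈ (RA A K).nonunits := by
      rw [mem_nonunits_RA_iff, map_natCast]
      exact hA
    obtain ⟨h3, h4⟩ := ValuationSubring.mem_nonunits_iff_exists_mem_maximalIdeal.1 h2
    exact h4
  rw [← map_natCast (IsLocalRing.residue (RA A K))]
  exact (IsLocalRing.residue_eq_zero_iff _).2 h1

/-- **key lemma**: a root of unity of order prime to `r` which is `≡ 1` is `1` -/
theorem d1_root_eq_one (hr : r.Prime) (hA : A.LiesOverPrime r) {m : ℕ} (hrm : ¬ r ∣ m) {ζ : Kb}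
    (hζ : ζ ^ m = 1) (h1 : ζ - 1 ∈ A.nonunits) : ζ = 1 := by
  by_contra hne
  have := d1_charP_A A hr hA
  have hsum : ∑ i ∈ Finset.range m, ζ ^ i = 0 := by
    have h := geom_sum_mul ζ m
    rw [hζ, sub_self] at h
    exact (mul_eq_zero.1 h).resolve_right (sub_ne_zero.2 hne)
  have hz : ζ ∈ A := by
    have h2 : ζ - 1 ∈ A := ValuationSubring.nonunits_subset h1
    have h3 := A.add_mem _ _ h2 A.one_mem
    rwa [sub_add_cancel] at h3
  have hres : IsLocalRing.residue A ⟨ζ, hz⟩ = 1 := by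
    rw [← sub_eq_zero, ← map_one (IsLocalRing.residue A), ← map_sub,
      IsLocalRing.residue_eq_zero_iff, ← ValuationSubring.coe_mem_nonunits_iff]
    exact h1
  have hsumA : ∑ i ∈ Finset.range m, (⟨ζ, hz⟩ : A) ^ i = 0 := by
    apply Subtype.ext
    rw [ZeroMemClass.coe_zero, ← hsum]
    simp
  have h4 := congrArg (IsLocalRing.residue A) hsumA
  rw [map_sum, map_zero] at h4
  simp only [map_pow, hres, one_pow, Finset.sum_const, Finset.card_range, nsmul_eq_mul,
    mul_one] at h4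
  exact hrm ((CharP.cast_eq_zero_iff _ r m).1 h4)

/-- an `m`-th root of an inertia-fixed unit of `A` is fixed by inertia -/
theorem d1_root_fixed (hr : r.Prime) (hA : A.LiesOverPrime r) {m : ℕ} (hrm : ¬ r ∣ m) {x : Kb}
    (hx : x ∈ A) (hx' : x⁻¹ ∈ A) (hx0 : x ≠ 0) {σ : Kb ≃ₐ[ℚ] Kb}
    (hI : σ ∈ A.inertiaSubgroupIn ℚ) (hfix : σ (x ^ m) = x ^ m) : σ x = x := by
  have h1 : (σ x / x) ^ m = 1 := by
    rw [div_pow, ← map_pow, hfix, div_self (pow_ne_zero _ hx0)]
  have h2 : σ x / x - 1 ∈ A.nonunits := by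
    have h3 : σ x / x - 1 = x⁻¹ * (σ x - x) := by
      field_simp
    rw [h3]
    have h4 := d1_inertia_sub_mem A hI hx
    obtain ⟨h5, h6⟩ := ValuationSubring.mem_nonunits_iff_exists_mem_maximalIdeal.1 h4
    have h7 := (IsLocalRing.maximalIdeal A).mul_mem_left ⟨x⁻¹, hx'⟩ h6
    exact ValuationSubring.coe_mem_nonunits_iff.2 h7
  have h8 := d1_root_eq_one A hr hA hrm h1 h2
  rwa [div_eq_one_iff_eq hx0] at h8

theorem d1_mem_of_pow_mem {m : ℕ} (hm : 0 < m) {x : Kb} (hx : x ^ m ∈ A) : x ∈ A := by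
  have hint : IsIntegral A x := by
    refine ⟨Polynomial.X ^ m - Polynomial.C (⟨x ^ m, hx⟩ : A),
      Polynomial.monic_X_pow_sub_C _ hm.ne', ?_⟩
    simp [Polynomial.eval₂_sub]
  obtain ⟨a, ha⟩ := IsIntegrallyClosed.isIntegral_iff.1 hint
  rw [← ha]
  exact a.2

/-- **D1d** -/
theorem d1_root_mem (hr : r.Prime) (hA : A.LiesOverPrime r) {m : ℕ} (hm : 0 < m)
    (hrm : ¬ r ∣ m) {ζ : Kb} (hζ : ζ ^ m = 1) : ζ ∈ inF A := by
  rw [mem_inF_iff]
  intro σ hσ
  have h0 : ζ ≠ 0 := by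
    rintro rfl
    rw [zero_pow hm.ne'] at hζ
    exact zero_ne_one hζ
  refine d1_root_fixed A hr hA hrm (d1_mem_of_pow_mem A hm (hζ ▸ A.one_mem))
    (d1_mem_of_pow_mem A hm ?_) h0 hσ ?_
  · rw [inv_pow, hζ, inv_one]
    exact A.one_mem
  · rw [hζ, map_one]

/-- **D1c** -/
theorem d1_exists_pow_eq (hr : r.Prime) (hA : A.LiesOverPrime r) {m : ℕ} (hm : 0 < m)
    (hrm : ¬ r ∣ m) (u : (RA A (inF A))ˣ) : ∃ w : (RA A (inF A))ˣ, w ^ m = u := by
  obtain ⟨x, hx⟩ := IsAlgClosed.exists_pow_nat_eq (((u : RA A (inF A)) : inF A) : Kb) hm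
  have hu : (((u : RA A (inF A)) : inF A) : Kb) ∈ A := (u : RA A (inF A)).2
  have hu' : ((((u⁻¹ : (RA A (inF A))ˣ) : RA A (inF A)) : inF A) : Kb) ∈ A :=
    ((u⁻¹ : (RA A (inF A))ˣ) : RA A (inF A)).2
  have huu : (((u : RA A (inF A)) : inF A) : Kb) *
      ((((u⁻¹ : (RA A (inF A))ˣ) : RA A (inF A)) : inF A) : Kb) = 1 := by
    have h := u.mul_inv
    exact congrArg (fun z : RA A (inF A) => ((z : inF A) : Kb)) h
  have hu0 : (((u : RA A (inF A)) : inF A) : Kb) ≠ 0 := left_ne_zero_of_mul_eq_one huu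
  have hx0 : x ≠ 0 := by
    rintro rfl
    rw [zero_pow hm.ne'] at hx
    exact hu0 hx.symm
  have hxA : x ∈ A := d1_mem_of_pow_mem A hm (hx ▸ hu)
  have hxA' : x⁻¹ ∈ A := by
    apply d1_mem_of_pow_mem A hm
    rw [inv_pow, hx, inv_eq_of_mul_eq_one_right huu]
    exact hu'
  have hxF : x ∈ inF A := by
    rw [mem_inF_iff]
    intro σ hσ
    refine d1_root_fixed A hr hA hrm hxA hxA' hx0 hσ ?_
    rw [hx]
    exact (mem_inF_iff A _).1 ((u : RA A (inF A)) : inF A).2 σ hσ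
  have hxF' : x⁻¹ ∈ inF A := (inF A).inv_mem hxF
  refine ⟨⟨⟨⟨x, hxF⟩, hxA⟩, ⟨⟨x⁻¹, hxF'⟩, hxA'⟩, ?_, ?_⟩, ?_⟩
  · apply Subtype.ext
    apply Subtype.ext
    exact mul_inv_cancel₀ hx0
  · apply Subtype.ext
    apply Subtype.ext
    exact inv_mul_cancel₀ hx0
  · apply Units.ext
    apply Subtype.ext
    apply Subtype.ext
    exact hx

end Fermat.Agent.CARlib
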