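import Fermat.Agent.CAR.D2H90
import Fermat.Agent.UNI.DescentF

/-!
# T-CAR, row D2: Hilbert 90 with a normalised cocycle on `F_L(N)`

`L` a normal number field, `G` a subgroup of `Gal(ℚ̄/ℚ)`, `f ∈ F_L(N)` with leading coefficient `1`
and `σ f = f h_σ ^ m` (`h_σ ∈ F_L(N)`) for all `σ ∈ G`.  Then `f u ^ m` is `G`-fixed for some
`u ∈ F_L(N)ˣ`.
-/

set_option autoImplicit false
set_option linter.unusedSectionVars false

open ModularCurve IntermediateField AlgebraicCurve
open Fermat.Agent.S24lib Fermat.Agent.ESlib Fermat.Agent.UNIlib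

namespace Fermat.Agent.CARlib

section

variable (L : IntermediateField ℚ Kb) [Normal ℚ L] (N : ℕ)

/-- `galK` as a group homomorphism -/
noncomputable def d2GalHom : (Kb ≃ₐ[ℚ] Kb) →* (FK L N ≃+* FK L N) :=
  MonoidHom.mk' (galK L N) fun σ τ => RingEquiv.ext fun x => galK_mul L N σ τ x

@[simp] theorem d2GalHom_apply (σ : Kb ≃ₐ[ℚ] Kb) : d2GalHom L N σ = galK L N σ := rfl

theorem d2_finite_map [FiniteDimensional ℚ L] (G : Subgroup (Kb ≃ₐ[ℚ] Kb)) :
    Finite (G.map (d2GalHom L N)) := by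
  have h : ((G.map (d2GalHom L N) : Subgroup (FK L N ≃+* FK L N)) : Set (FK L N ≃+* FK L N)) ⊆
      Set.range (arithmeticRingAut (L := L) (modularFunctionFieldFull N)) := by
    rintro _ ⟨σ, -, rfl⟩
    exact ⟨resK L σ, rfl⟩
  exact (Set.finite_range _).subset h

variable {L N}

/-- normalised = leading coefficient one -/
def D2Nm (x : FK L N) : Prop := (x : LaurentSeries L).leadingCoeff = 1

theorem D2Nm.ne_zero {x : FK L N} (h : D2Nm x) : x ≠ 0 := by
  rintro rfl
  have : (0 : L) = 1 := by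
    have h' : ((0 : FK L N) : LaurentSeries L).leadingCoeff = 1 := h
    simp at h'
  exact zero_ne_one this

theorem d2_lc_mul (x y : FK L N) : ((x * y : FK L N) : LaurentSeries L).leadingCoeff =
    (x : LaurentSeries L).leadingCoeff * (y : LaurentSeries L).leadingCoeff :=
  HahnSeries.leadingCoeff_mul _ _

theorem d2_lc_pow (x : FK L N) (n : ℕ) : ((x ^ n : FK L N) : LaurentSeries L).leadingCoeff =
    (x : LaurentSeries L).leadingCoeff ^ n :=
  leadingCoeff_pow_laurent _ n

theorem d2_lc_galK (σ : Kb ≃ₐ[ℚ] Kb) (x : FK L N) :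
    ((galK L N σ x : FK L N) : LaurentSeries L).leadingCoeff =
      resK L σ (x : LaurentSeries L).leadingCoeff := by
  have hinj : Function.Injective (((resK L σ : L ≃ₐ[ℚ] L) : L →+* L)) := (resK L σ).injective
  rw [coe_galK, leadingCoeff_coeffMap_of_injective_top _ hinj]
  rfl

theorem d2_lc_algebraMap (c : L) :
    ((algebraMap L (FK L N) c : FK L N) : LaurentSeries L).leadingCoeff = c := by
  rw [coe_algebraMap_FK]
  exact HahnSeries.leadingCoeff_of_single

/-- **(D2)** -/
theorem d2_exists_fixed [FiniteDimensional ℚ L] (G : Subgroup (Kb ≃ₐ[ℚ] Kb)) {m : ℕ} (hm : 0 < m)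
    {f : FK L N} (hlc : (f : LaurentSeries L).leadingCoeff = 1)
    (h : ∀ σ ∈ G, ∃ h : FK L N, galK L N σ f = f * h ^ m) :
    ∃ u : FK L N, u ≠ 0 ∧ ∀ σ ∈ G, galK L N σ (f * u ^ m) = f * u ^ m := by
  have hfin := d2_finite_map L N G
  have hmL : (m : L) ≠ 0 := by exact_mod_cast hm.ne'
  obtain ⟨u, hu0, hu⟩ := d2_descent (G.map (d2GalHom L N)) (m := m) (D2Nm (L := L) (N := N))
    (fun x y hx hy => by
      show ((x * y : FK L N) : LaurentSeries L).leadingCoeff = 1
      rw [d2_lc_mul, hx, hy, one_mul])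
    (fun x hx => hx.ne_zero)
    (by
      rintro _ ⟨σ, -, rfl⟩ x hx
      show ((galK L N σ x : FK L N) : LaurentSeries L).leadingCoeff = 1
      rw [d2_lc_galK, hx, map_one])
    (fun x y hx hy hxy => by
      have hy0 := hy.ne_zero
      have h1 : (x / y) ^ m = 1 := by
        rw [div_pow, hxy, div_self (pow_ne_zero _ hy0)]
      have h2 : ((x / y : FK L N) : LaurentSeries L).leadingCoeff = 1 := by
        have h3 := d2_lc_mul (x / y) y
        rw [div_mul_cancel₀ _ hy0, hx, hy, mul_one] at h3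
        exact h3.symm
      have h4 : ((x / y : FK L N) : LaurentSeries L) = 1 :=
        d2_laurent_eq_one hmL (by exact_mod_cast congrArg Subtype.val h1) h2
      have h5 : x / y = 1 := Subtype.ext h4
      exact (div_eq_one_iff_eq hy0).1 h5)
    (fun h₀ hh => by
      have hc : (h₀ : LaurentSeries L).leadingCoeff ^ m = 1 := by
        rw [← d2_lc_pow]; exact hh
      have hc0 : (h₀ : LaurentSeries L).leadingCoeff ≠ 0 := by
        intro h0
        rw [h0, zero_pow hm.ne'] at hc
        exact zero_ne_one hc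
      refine ⟨h₀ * algebraMap L (FK L N) ((h₀ : LaurentSeries L).leadingCoeff)⁻¹, ?_, ?_⟩
      · show ((_ * _ : FK L N) : LaurentSeries L).leadingCoeff = 1
        rw [d2_lc_mul, d2_lc_algebraMap, mul_inv_cancel₀ hc0]
      · rw [mul_pow, ← map_pow, inv_pow, hc, inv_one, map_one, mul_one])
    (fun x z hx hxz => by
      have h3 := d2_lc_mul x z
      rw [hx, one_mul] at h3
      exact h3.symm.trans hxz)
    (f := f) hlc
    (by
      rintro _ ⟨σ, hσ, rfl⟩
      exact h σ hσ)
  exact ⟨u, hu0, fun σ hσ => hu _ ⟨σ, hσ, rfl⟩⟩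

end

end Fermat.Agent.CARlib
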