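import Mathlib

/-!
# T-CAR, row D2 (abstract part): Hilbert 90 for a finite group of field automorphisms,
and the descent of a class `f mod m`-th powers with a normalised cocycle.
-/

set_option autoImplicit false

namespace Fermat.Agent.CARlib

section h90

variable {E : Type*} [Field E]

/-- **Hilbert 90** for a finite subgroup of `E ≃+* E` (independence of characters). -/
theorem d2_hilbert90 (Γ : Subgroup (E ≃+* E)) [Finite Γ] (h : Γ → E) (h0 : ∀ σ, h σ ≠ 0)
    (hc : ∀ σ τ : Γ, h (σ * τ) = h σ * (σ : E ≃+* E) (h τ)) :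
    ∃ u : E, u ≠ 0 ∧ ∀ σ : Γ, h σ * (σ : E ≃+* E) u = u := by
  classical
  have : Fintype Γ := Fintype.ofFinite Γ
  -- the characters
  let χ : Γ → (E →* E) := fun σ => ((σ : E ≃+* E) : E →+* E)
  have hχinj : Function.Injective χ := by
    intro σ τ hστ
    apply Subtype.ext
    apply RingEquiv.ext
    intro x
    exact DFunLike.congr_fun hστ x
  have hli : LinearIndependent E (fun σ : Γ => (χ σ : E → E)) :=
    (linearIndependent_monoidHom E E).comp χ hχinj
  -- some value of the Poincaré series is non zero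
  have hex : ∃ x : E, ∑ σ : Γ, h σ * (σ : E ≃+* E) x ≠ 0 := by
    by_contra hcon
    push Not at hcon
    have hz : ∑ σ : Γ, h σ • (χ σ : E → E) = 0 := by
      funext x
      simp only [Finset.sum_apply, Pi.smul_apply, smul_eq_mul, Pi.zero_apply]
      exact hcon x
    have := Fintype.linearIndependent_iff.1 hli h hz 1
    exact h0 1 this
  obtain ⟨x, hx⟩ := hex
  refine ⟨_, hx, fun ρ => ?_⟩
  rw [map_sum, Finset.mul_sum]
  rw [← Equiv.sum_comp (Equiv.mulLeft ρ) (fun σ : Γ => h σ * (σ : E ≃+* E) x)]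
  refine Finset.sum_congr rfl fun σ _ => ?_
  simp only [Equiv.coe_mulLeft, map_mul, hc ρ σ, Subgroup.coe_mul]
  rw [mul_assoc]
  rfl

/-- **descent of a class modulo `m`-th powers.**  `Nm` = "normalised". -/
theorem d2_descent (Γ : Subgroup (E ≃+* E)) [Finite Γ] {m : ℕ} (Nm : E → Prop)
    (P1 : ∀ x y, Nm x → Nm y → Nm (x * y)) (P2 : ∀ x, Nm x → x ≠ 0)
    (P3 : ∀ σ ∈ Γ, ∀ x, Nm x → Nm (σ x))
    (P4 : ∀ x y, Nm x → Nm y → x ^ m = y ^ m → x = y)
    (P5 : ∀ h, Nm (h ^ m) → ∃ h', Nm h' ∧ h' ^ m = h ^ m)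
    (P6 : ∀ x z, Nm x → Nm (x * z) → Nm z)
    {f : E} (hf : Nm f) (h : ∀ σ ∈ Γ, ∃ h : E, σ f = f * h ^ m) :
    ∃ u : E, u ≠ 0 ∧ ∀ σ ∈ Γ, σ (f * u ^ m) = f * u ^ m := by
  classical
  have hf0 : f ≠ 0 := P2 f hf
  have hex : ∀ σ : Γ, ∃ H : E, Nm H ∧ (σ : E ≃+* E) f = f * H ^ m := by
    intro σ
    obtain ⟨h₀, hh₀⟩ := h σ σ.2
    have h1 : Nm (h₀ ^ m) := P6 f _ hf (hh₀ ▸ P3 σ σ.2 f hf)
    obtain ⟨H, hH, hHm⟩ := P5 h₀ h1
    exact ⟨H, hH, by rw [hHm]; exact hh₀⟩
  choose H hHN hH using hex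
  have hc : ∀ σ τ : Γ, H (σ * τ) = H σ * (σ : E ≃+* E) (H τ) := by
    intro σ τ
    refine P4 _ _ (hHN _) (P1 _ _ (hHN σ) (P3 σ σ.2 _ (hHN τ))) ?_
    have h1 : ((σ * τ : Γ) : E ≃+* E) f = (σ : E ≃+* E) ((τ : E ≃+* E) f) := rfl
    rw [hH (σ * τ), hH τ, map_mul, map_pow, hH σ, mul_assoc, ← mul_pow] at h1
    exact mul_left_cancel₀ hf0 h1
  obtain ⟨u, hu0, hu⟩ := d2_hilbert90 Γ H (fun σ => P2 _ (hHN σ)) hc
  refine ⟨u, hu0, fun σ hσ => ?_⟩
  have h1 := hu ⟨σ, hσ⟩
  have h2 := hH ⟨σ, hσ⟩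
  simp only at h1 h2
  rw [map_mul, map_pow, h2, mul_assoc, ← mul_pow, h1]

end h90

section laurent

variable {k : Type*} [Field k]

/-- an `m`-th root of unity in `k((q))` with leading coefficient `1` is `1` -/
theorem d2_laurent_eq_one {m : ℕ} (hm : (m : k) ≠ 0) {x : LaurentSeries k} (hx : x ^ m = 1)
    (hlc : x.leadingCoeff = 1) : x = 1 := by
  have hm0 : m ≠ 0 := by rintro rfl; simp at hm
  have hx0 : x ≠ 0 := by
    rintro rfl
    rw [zero_pow hm0] at hx
    exact zero_ne_one hx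
  have hord : x.order = 0 := by
    have h1 := congrArg HahnSeries.order hx
    rw [HahnSeries.order_pow, HahnSeries.order_one, nsmul_eq_mul] at h1
    rcases mul_eq_zero.1 h1 with h2 | h2
    · exact absurd (by exact_mod_cast h2) hm0
    · exact h2
  set w := x.powerSeriesPart with hw
  have hxw : x = HahnSeries.ofPowerSeries ℤ k w := by
    have := LaurentSeries.single_order_mul_powerSeriesPart x
    rw [hord] at this
    rw [← this]
    have h1 : (HahnSeries.single (0 : ℤ) (1 : k)) = 1 := rfl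
    rw [h1, one_mul]
  have hcw : PowerSeries.constantCoeff w = 1 := by
    rw [← hlc, ← PowerSeries.coeff_zero_eq_constantCoeff_apply, hw,
      LaurentSeries.powerSeriesPart_coeff]
    simp [HahnSeries.leadingCoeff_eq]
  have hwm : w ^ m = 1 := by
    apply HahnSeries.ofPowerSeries_injective (Γ := ℤ) (R := k)
    rw [map_pow, ← hxw, hx, map_one]
  have hgeom : (∑ i ∈ Finset.range m, w ^ i) * (w - 1) = 0 := by
    rw [geom_sum_mul, hwm, sub_self]
  have hne : (∑ i ∈ Finset.range m, w ^ i) ≠ 0 := by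
    intro h0
    have := congrArg PowerSeries.constantCoeff h0
    rw [map_sum] at this
    simp only [map_pow, hcw, one_pow, Finset.sum_const, Finset.card_range, nsmul_eq_mul, mul_one,
      map_zero] at this
    exact hm this
  have hw1 : w = 1 := by
    rcases mul_eq_zero.1 hgeom with h | h
    · exact absurd h hne
    · exact sub_eq_zero.1 h
  rw [hxw, hw1, map_one]

end laurent

end Fermat.Agent.CARlib
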