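import Fermat.Agent.CAR.DDefs

/-!
# T-CAR, block D, (D-A): Galois descent of a class fixed by a subgroup

The canonical representative (`IsCan`, ES/B/Canon) of a class in `F_ℚ̄(N)^× / m` which is fixed by a
subgroup `H` of `Gal(ℚ̄/ℚ)` is fixed by `H`, hence it is defined over the fixed field of `H`.
-/

set_option autoImplicit false
set_option linter.unusedSectionVars false

open ModularCurve AlgebraicCurve

namespace Fermat.Agent.CARlib

open Fermat.Agent.ESlib Fermat.Agent.UNIlib
open Fermat.Agent.S24lib (Kb)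

/-- an element of `F_ℚ̄(N)` fixed by `H` is defined over the fixed field of `H` -/
theorem d_exists_bc_of_fixed (H : Subgroup (Kb ≃ₐ[ℚ] Kb)) {N : ℕ} (x : FK Kb N)
    (hx : ∀ σ ∈ H, galF N σ x = x) :
    ∃ g : FK (IntermediateField.fixedField H) N,
      bc (IntermediateField.fixedField H) Kb (modularFunctionFieldFull N) g = x := by
  refine exists_bc_eq_of_coeff_mem (IntermediateField.fixedField H) Kb (modularFunctionFieldFull N) x
    fun k => ?_
  have hk : (x : LaurentSeries Kb).coeff k ∈ IntermediateField.fixedField H := by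
    rw [IntermediateField.mem_fixedField_iff]
    intro σ hσ
    have h1 := congrArg (fun y : FK Kb N => (y : LaurentSeries Kb).coeff k) (hx σ hσ)
    exact h1
  exact ⟨⟨_, hk⟩, rfl⟩

/-- **(D-A)** -/
theorem d_exists_descent (H : Subgroup (Kb ≃ₐ[ℚ] Kb)) {N : ℕ} [NeZero N] {m : ℕ} (hm : 0 < m)
    {f : FK Kb N} (hf0 : f ≠ 0) (hI : ∀ σ ∈ H, SameClass m f (galF N σ f)) :
    ∃ (g : FK (IntermediateField.fixedField H) N) (Ψ : FK Kb N), Ψ ≠ 0 ∧
      bc (IntermediateField.fixedField H) Kb (modularFunctionFieldFull N) g = f * Ψ ^ m := by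
  have hFF := isFF_FKK Kb N
  obtain ⟨ψ, hψ⟩ := exists_isCan hFF (J1 Kb N) (transcendental_J1K Kb N) hm hf0
  have hcan : ∀ σ : Kb ≃ₐ[ℚ] Kb, IsCan (J1 Kb N) m
      (arithmeticGalois (modularFunctionFieldFull N) σ • f)
      (arithmeticGalois (modularFunctionFieldFull N) σ • ψ) := by
    intro σ
    refine hψ.smul (arithmeticGalois (modularFunctionFieldFull N) σ) ?_ ?_ ?_
    · apply Subtype.ext
      rw [coe_arithmeticGalois_smul]
      exact coeffMap_coeffEmb σ _
    · intro x
      rw [coe_arithmeticGalois_smul]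
      exact order_coeffMap_of_injective _ σ.injective _
    · intro x
      rw [coe_arithmeticGalois_smul, baseAut_arithmeticGalois]
      exact leadingCoeff_coeffMap_of_injective _ σ.injective _
  have hfix : ∀ σ ∈ H, galF N σ ψ = ψ := by
    intro σ hσ
    have h1 : IsCan (J1 Kb N) m f (arithmeticGalois (modularFunctionFieldFull N) σ • ψ) :=
      (hcan σ).congr (hI σ hσ).symm
    exact IsCan.unique hm hf0 h1 hψ
  obtain ⟨g, hg⟩ := d_exists_bc_of_fixed H ψ hfix
  obtain ⟨Ψ, hΨ0, hΨ⟩ := hψ.cls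
  exact ⟨g, Ψ, hΨ0, hg.trans hΨ⟩

end Fermat.Agent.CARlib
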