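import Fermat.Agent.CAR.EIface

/-!
# T-CAR: the interface `CarK` between block X (geometry over an abstract `(R, K)`) and block D

`R` a discrete valuation ring with uniformiser `r`, algebraically closed residue field,
`K = Frac R ⊆ ℂ`.  Level `N * r * r`, lower level `N * r`,
`α = heckeAlphaBar K (N * r) r` (inclusion), `β = heckeBetaBar K (N * r) r` (`x(q) ↦ x(q ^ r)`).
-/

set_option autoImplicit false
set_option linter.unusedSectionVars false

open ModularCurve AlgebraicCurve

namespace Fermat.Agent.CARlib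

open Fermat.Agent.ESlib Fermat.Agent.UNIlib

/-- the exponent (depends on `r` only; block X may enlarge it, it only has to be positive) -/
def carExp (r : ℕ) : ℕ := (r + 1) * (r - 1) * (r ^ 2 - 1)

theorem carExp_pos {r : ℕ} (hr : r.Prime) : 0 < carExp r := by
  have h2 := hr.two_le
  have h3 : 2 ^ 2 ≤ r ^ 2 := Nat.pow_le_pow_left h2 2
  exact Nat.mul_pos (Nat.mul_pos (by omega) (by omega)) (by omega)

/-- the statement over a field `K`: an `m`-divisible `g` of level `N r²` both of whose norms to level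
`N r` are (constant) × (`m`-th power) has `g ^ c` = (constant) × (`m`-th power). -/
def CarKAt (N r m : ℕ) [NeZero (N * r)] [NeZero r] (K : Type) [Field K] [Algebra ℚ K] (c : ℕ) :
    Prop :=
  ∀ g : FK K (N * r * r), MDiv K m g →
    (∃ (lam : K) (a : FK K (N * r)),
      normAlong (heckeAlphaBar K (N * r) r) g = algebraMap K (FK K (N * r)) lam * a ^ m) →
    (∃ (lam : K) (a : FK K (N * r)),
      normAlong (heckeBetaBar K (N * r) r) g = algebraMap K (FK K (N * r)) lam * a ^ m) →
    ∃ (lam : K) (ψ : FK K (N * r * r)), g ^ c = algebraMap K (FK K (N * r * r)) lam * ψ ^ m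

/-- **`CarK`**: what block X proves, for an abstract `(R, K)` (same instance list as
`UNIlib.nodeHyp_of_gamma`).  `s`, `sR` = the semilinear "inverse Frobenius". -/
def CarK : Prop :=
  ∀ (R K : Type) [CommRing R] [IsDomain R] [IsDiscreteValuationRing R] [Field K] [Algebra R K]
    [IsFractionRing R K] [CharZero K] [Algebra ℚ K] [Algebra K ℂ] [IsScalarTower ℚ K ℂ]
    [Algebra R ℂ] [IsScalarTower R K ℂ] (N r m : ℕ) [NeZero N] [NeZero r] [NeZero (N * r)]
    [CharP (IsLocalRing.ResidueField R) r] [IsAlgClosed (IsLocalRing.ResidueField R)],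
    r.Prime → ¬ r ∣ N → (4 ∣ N ∨ 9 ∣ N) → 0 < m → ¬ r ∣ m →
    Irreducible ((r : ℕ) : R) → IsUnit ((N : ℕ) : R) → IsUnit ((m : ℕ) : R) →
    (∀ u : Rˣ, ∃ w : Rˣ, w ^ m = u) →
    (∃ ζ : R, IsPrimitiveRoot ζ m) →
    (∃ z : K, IsPrimitiveRoot z N) →
    (∃ (s : K ≃ₐ[ℚ] K) (sR : R →+* R), (∀ c, s (algebraMap R K c) = algebraMap R K (sR c)) ∧
      ∀ c, ((r : ℕ) : R) ∣ sR c ^ r - c) →
    CarKAt N r m K (carExp r)

end Fermat.Agent.CARlib
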