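import Fermat.Agent.CAR.DDescent
import Fermat.Agent.CAR.XIface

/-!
# T-CAR, block D: `CarHaupt` at `(N, r, p, A)` from the statement over `K = inF A`
-/

set_option autoImplicit false
set_option linter.unusedSectionVars false

open ModularCurve AlgebraicCurve

namespace Fermat.Agent.CARlib

open Fermat.Agent.ESlib Fermat.Agent.UNIlib
open Fermat.Agent.S24lib (Kb)

/-- the statement over `ℚ̄` -/
def CarHauptAt (N r m : ℕ) [NeZero (N * r)] [NeZero r] (A : ValuationSubring Kb) (c : ℕ) : Prop :=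
  ∀ f : FK Kb (N * r * r), MDiv Kb m f →
    (∀ σ ∈ A.inertiaSubgroupIn ℚ, SameClass m f (galF (N * r * r) σ f)) →
    SameClass m 1 (normAlong (heckeAlphaBar Kb (N * r) r) f) →
    SameClass m 1 (normAlong (heckeBetaBar Kb (N * r) r) f) →
    SameClass m 1 (f ^ c)

/-- the norm commutes with base change (hypothesis of `carHauptAt_of_carKAt`) -/
def NormBC (K : IntermediateField ℚ Kb) (M r : ℕ) [NeZero M] [NeZero r] : Prop :=
  (∀ g : FK K (M * r), bc K Kb (modularFunctionFieldFull M) (normAlong (heckeAlphaBar K M r) g) =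
    normAlong (heckeAlphaBar Kb M r) (bc K Kb (modularFunctionFieldFull (M * r)) g)) ∧
  (∀ g : FK K (M * r), bc K Kb (modularFunctionFieldFull M) (normAlong (heckeBetaBar K M r) g) =
    normAlong (heckeBetaBar Kb M r) (bc K Kb (modularFunctionFieldFull (M * r)) g))

/-- `D-B`, as a hypothesis -/
def PowDesc (K : IntermediateField ℚ Kb) (M m : ℕ) : Prop :=
  ∀ (y : FK K M) (a : FK Kb M), bc K Kb (modularFunctionFieldFull M) y = a ^ m →
    ∃ (lam : K) (a₀ : FK K M), y = algebraMap K (FK K M) lam * a₀ ^ m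

theorem carHauptAt_of_carKAt {N r m : ℕ} [NeZero (N * r)] [NeZero r] (hm : 0 < m)
    (A : ValuationSubring Kb) {c : ℕ} (hN : NormBC (inF A) (N * r) r)
    (hP : PowDesc (inF A) (N * r) m) (H : CarKAt N r m (inF A) c) : CarHauptAt N r m A c := by
  have : NeZero (N * r * r) := ⟨Nat.mul_ne_zero (NeZero.ne (N * r)) (NeZero.ne r)⟩
  intro f hf hI hα hβ
  obtain ⟨g, Ψ, hΨ0, hg⟩ := d_exists_descent (A.inertiaSubgroupIn ℚ) hm hf.1 hI
  have : Algebra.IsAlgebraic ℚ Kb := AlgebraicClosure.isAlgebraic ℚ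
  have : Algebra.IsAlgebraic (inF A) Kb := Algebra.IsAlgebraic.tower_top (K := ℚ) (inF A)
  have hgm : MDiv (inF A) m g := by
    apply mDiv_of_mDiv_bc (inF A) Kb (N * r * r)
    rw [hg]
    exact hf.sameClass ⟨Ψ, hΨ0, rfl⟩
  have key : ∀ φ : FK Kb (N * r) →ₐ[Kb] FK Kb (N * r * r), SameClass m 1 (normAlong φ f) →
      ∃ a : FK Kb (N * r), normAlong φ (f * Ψ ^ m) = a ^ m := by
    intro φ h
    obtain ⟨b, -, hb⟩ := h
    refine ⟨b * normAlong φ Ψ, ?_⟩
    rw [map_mul, map_pow, hb, one_mul, mul_pow]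
  obtain ⟨a₁, ha₁⟩ := key _ hα
  obtain ⟨a₂, ha₂⟩ := key _ hβ
  obtain ⟨lam, ψ, hψ⟩ := H g hgm (hP _ a₁ (by rw [hN.1, hg, ha₁])) (hP _ a₂ (by rw [hN.2, hg, ha₂]))
  have h1 := congrArg (bc (inF A) Kb (modularFunctionFieldFull (N * r * r))) hψ
  rw [map_pow, hg, map_mul, map_pow, bc_algebraMap] at h1
  obtain ⟨d, hd⟩ := IsAlgClosed.exists_pow_nat_eq (algebraMap (inF A) Kb lam) hm
  have hfc : f ^ c ≠ 0 := pow_ne_zero _ hf.1
  set ψ' := bc (inF A) Kb (modularFunctionFieldFull (N * r * r)) ψ with hψ'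
  have h2 : f ^ c = (algebraMap Kb (FK Kb (N * r * r)) d * ψ' / Ψ ^ c) ^ m := by
    rw [div_pow, mul_pow, ← map_pow, hd, ← h1, mul_pow, ← pow_mul, ← pow_mul, mul_comm m c]
    field_simp
  refine ⟨algebraMap Kb (FK Kb (N * r * r)) d * ψ' / Ψ ^ c, ?_, by rw [one_mul]; exact h2⟩
  intro h0
  rw [h0, zero_pow hm.ne'] at h2
  exact hfc h2

end Fermat.Agent.CARlib
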