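import Fermat.Agent.CAR.DNormBC
import Fermat.Agent.CAR.DTop

/-!
# T-CAR, row D5: `NormBC`: the norms along `α`, `β` commute with the base change `K → ℚ̄`
-/

set_option autoImplicit false
set_option linter.unusedSectionVars false
set_option linter.style.haveILetI false

open ModularCurve AlgebraicCurve

namespace Fermat.Agent.CARlib

open Fermat.Agent.ESlib Fermat.Agent.UNIlib
open Fermat.Agent.S24lib (Kb)

/-- general form: `K ⊆ K'` arbitrary fields of characteristic zero -/
theorem d_norm_bc_alpha (K K' : Type) [Field K] [Field K'] [CharZero K] [Algebra ℚ K]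
    [Algebra ℚ K'] [Algebra K K'] [IsScalarTower ℚ K K'] (M r : ℕ) [NeZero M] [NeZero r]
    (g : FK K (M * r)) :
    bc K K' (modularFunctionFieldFull M) (normAlong (heckeAlphaBar K M r) g) =
      normAlong (heckeAlphaBar K' M r) (bc K K' (modularFunctionFieldFull (M * r)) g) := by
  have : NeZero (M * r) := ⟨Nat.mul_ne_zero (NeZero.ne M) (NeZero.ne r)⟩
  refine dn_norm_bc K K' (heckeAlphaBar K M r) (heckeAlphaBar K' M r) (fun x => Subtype.ext ?_)
    (Fermat.Agent.S37lib.finiteAlong_of_isFF (isFF_FKK K M) (isFF_FKK K (M * r)) _) g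
  rw [coe_bc, coe_heckeAlphaBar, coe_heckeAlphaBar, coe_bc]

theorem d_norm_bc_beta (K K' : Type) [Field K] [Field K'] [CharZero K] [Algebra ℚ K]
    [Algebra ℚ K'] [Algebra K K'] [IsScalarTower ℚ K K'] (M r : ℕ) [NeZero M] [NeZero r]
    (g : FK K (M * r)) :
    bc K K' (modularFunctionFieldFull M) (normAlong (heckeBetaBar K M r) g) =
      normAlong (heckeBetaBar K' M r) (bc K K' (modularFunctionFieldFull (M * r)) g) := by
  have : NeZero (M * r) := ⟨Nat.mul_ne_zero (NeZero.ne M) (NeZero.ne r)⟩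
  refine dn_norm_bc K K' (heckeBetaBar K M r) (heckeBetaBar K' M r) (fun x => Subtype.ext ?_)
    (Fermat.Agent.S37lib.finiteAlong_of_isFF (isFF_FKK K M) (isFF_FKK K (M * r)) _) g
  rw [coe_bc, coe_heckeBetaBar, coe_heckeBetaBar, coe_bc, coeffMap_qExpand]

/-- **row D5** -/
theorem d_normBC (K : IntermediateField ℚ Kb) (M r : ℕ) [NeZero M] [NeZero r] : NormBC K M r :=
  ⟨d_norm_bc_alpha K Kb M r, d_norm_bc_beta K Kb M r⟩

end Fermat.Agent.CARlib
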