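import Fermat.Agent.CAR.E2CoreU
import Fermat.Agent.UNI.S35Glue

/-!
# T-CAR, block E: from functions to the finite level operators

Level `N * r` (in the application `N = N₀ * r`, so that the level is `N₀ r²` and `N` is the lower
level `M / r`).  `w2` is an abstract ring endomorphism of the function field of level `N * r`
(in the application the Atkin-Lehner involution `W_{r²}`).
-/

set_option autoImplicit false
set_option linter.unusedSectionVars false

open ModularCurve AlgebraicCurve Fermat.Agent.S28lib CongruenceSubgroup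
open scoped TensorProduct

namespace Fermat.Agent.CARlib

open Fermat.Agent.UNIlib Fermat.Agent.ESlib Fermat.Agent.ESlib.PartD IsLocalRing
  Fermat.Agent.S24lib

noncomputable section

variable {N r p : ℕ} [NeZero N] [NeZero r] [NeZero (N * r)]

variable (w2 : modularFunctionFieldBar (N * r) →+* modularFunctionFieldBar (N * r))
  (hw2 : ∀ (m : ℕ) (f : modularFunctionFieldBar (N * r)), MDiv Qb m f → MDiv Qb m (w2 f))

/-- the action of `w2` on `Λ / p ^ n` -/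
def wAct2 (D : ThetaSys (N * r) p) (n : ℕ) : Module.End ℤ (D.Λ ⧸ powSub D.Λ p n) :=
  (D.isTheta n).act w2 (hw2 (p ^ n))

theorem wAct2_cls (D : ThetaSys (N * r) p) (n : ℕ)
    {f : modularFunctionFieldBar (N * r)} (hf : MDiv Qb (p ^ n) f) :
    wAct2 w2 hw2 D n (cls (D.isTheta n) f hf) = cls (D.isTheta n) (w2 f) (hw2 _ f hf) :=
  act_cls (D.isTheta n) _ _ hf

theorem wAct2_compat (D : ThetaSys (N * r) p) (n : ℕ) (x y : D.Λ)
    (h : wAct2 w2 hw2 D (n + 1) (Submodule.Quotient.mk x) = Submodule.Quotient.mk y) :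
    wAct2 w2 hw2 D n (Submodule.Quotient.mk x) = Submodule.Quotient.mk y :=
  act_compat D w2 (fun n f hf => hw2 (p ^ n) f hf) n x y h

/-- `w2` commutes with `T_ℓ` on functions -/
def CommW2T : Prop :=
  ∀ (ℓ : ℕ) [NeZero ℓ], ℓ.Prime → ¬ ℓ ∣ N * r → ∀ ζ : Qbˣ, IsPrimitiveRoot ζ ℓ →
    ∀ (f : modularFunctionFieldBar (N * r))
      (h : heckeTS ℓ ζ (f : LaurentSeries Qb) ∈ modularFunctionFieldBar (N * r)),
      ((w2 ⟨_, h⟩ : modularFunctionFieldBar (N * r)) : LaurentSeries Qb) =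
        heckeTS ℓ ζ ((w2 f : modularFunctionFieldBar (N * r)) : LaurentSeries Qb)

theorem wAct2_T (D : ThetaSys (N * r) p) (hc : CommW2T w2) (n : ℕ) (i : GoodPrime (N * r)) :
    wAct2 w2 hw2 D n * famOf p (D.hecke (goodEval (dvd_refl (N * r)) (MvPolynomial.X i))) n =
      famOf p (D.hecke (goodEval (dvd_refl (N * r)) (MvPolynomial.X i))) n * wAct2 w2 hw2 D n := by
  have : NeZero i.1 := ⟨i.2.1.ne_zero⟩
  obtain ⟨ζ, hζ⟩ := ThetaSys.exists_primitiveRoot_Qb i.1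
  refine LinearMap.ext fun ξ => ?_
  obtain ⟨f, hf, rfl⟩ := exists_cls (D.isTheta n) ξ
  obtain ⟨x, hx⟩ := (D.isTheta n).exists_right hf
  obtain ⟨y, hy⟩ := (D.isTheta n).exists_right (hw2 _ f hf)
  rw [Module.End.mul_apply, Module.End.mul_apply, goodEval_X, wAct2_cls,
    T_cls D n i.2.1 i.2.2 hζ hf (D.T_rel n i.2.1 i.2.2 hζ hf hx).1,
    T_cls D n i.2.1 i.2.2 hζ _ (D.T_rel n i.2.1 i.2.2 hζ (hw2 _ f hf) hy).1, wAct2_cls]
  exact cls_congr _ _ _ (Subtype.ext (hc i.1 i.2.1 i.2.2 ζ hζ f _))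

/-- `U_r` lowers the level: `normU r ζ f` is a function of level `N` -/
def LowerU (N r : ℕ) [NeZero N] [NeZero r] [NeZero (N * r)] : Prop :=
  ∀ ζ : Qbˣ, IsPrimitiveRoot ζ r → ∀ (m : ℕ) (f : modularFunctionFieldBar (N * r)), MDiv Qb m f →
    ∃ f' : modularFunctionFieldBar N, MDiv Qb m f' ∧
      (f' : LaurentSeries Qb) = normU r ζ (f : LaurentSeries Qb)

section main

variable (hr : r.Prime) (D : ThetaSys (N * r) p)

theorem killU_of_fun (D' : ThetaSys N p) (hU : LowerU N r)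
    (F : MvPolynomial (GoodPrime (N * r)) ℤ) (hF : goodEval (dvd_mul_right N r) F = 0) (n : ℕ) :
    famOf p (D.hecke (goodEval (dvd_refl (N * r)) F)) n * famOf p (D.hecke (UrH hr)) n = 0 := by
  obtain ⟨ζ, hζ⟩ := ThetaSys.exists_primitiveRoot_Qb r
  refine LinearMap.ext fun ξ => ?_
  obtain ⟨f, hf, rfl⟩ := exists_cls (D.isTheta n) ξ
  obtain ⟨f', hf', e⟩ := hU ζ hζ (p ^ n) f hf
  have e1 : UrF hr D hζ f = LevelU.incl (dvd_mul_right N r) f' := by
    apply Subtype.ext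
    rw [LevelU.coe_incl, e]
    rfl
  rw [Module.End.mul_apply, UrF_cls hr D n hζ hf,
    cls_congr _ _ (LevelU.mDiv_incl (dvd_mul_right N r) hf') e1, ← resLevel_cls D D' n hf',
    LinearMap.zero_apply]
  have h1 := res_goodEval (dvd_mul_right N r) ((famHom p n).comp D.hecke)
    ((famHom p n).comp D'.hecke) (resLevel D D' n) (resLevel_T D D' n) F
    (cls (D'.isTheta n) f' hf')
  rw [hF, map_zero, LinearMap.zero_apply, map_zero] at h1
  exact h1.symm

/-- the statement on functions (`CarHaupt` in the `q`-series form): `J` = inertia -/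
def CarFun (J : Set GQ) (c : ℕ) : Prop :=
  ∀ (n : ℕ) (ζ : Qbˣ) (hζ : IsPrimitiveRoot ζ r) (f : modularFunctionFieldBar (N * r)),
    MDiv Qb (p ^ n) f → (∀ σ ∈ J, SameClass (p ^ n) f (galF (N * r) σ f)) →
    SameClass (p ^ n) 1 (UrF hr D hζ (w2 f)) → SameClass (p ^ n) 1 (UrF hr D hζ f) →
    SameClass (p ^ n) 1 (f ^ c)

theorem car_fin_of_fun (J : Set GQ) (c : ℕ) (hF : CarFun w2 hr D J c) (n : ℕ)
    (ξ : D.Λ ⧸ powSub D.Λ p n) (h0 : ∀ σ ∈ J, D.gal n σ ξ = ξ)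
    (h1 : (famOf p (D.hecke (UrH hr)) n * wAct2 w2 hw2 D n) ξ = 0)
    (h2 : famOf p (D.hecke (UrH hr)) n ξ = 0) : (c : ℤ) • ξ = 0 := by
  obtain ⟨ζ, hζ⟩ := ThetaSys.exists_primitiveRoot_Qb r
  obtain ⟨f, hf, rfl⟩ := exists_cls (D.isTheta n) ξ
  rw [Module.End.mul_apply, wAct2_cls, UrF_cls hr D n hζ, cls_eq_zero_iff] at h1
  rw [UrF_cls hr D n hζ, cls_eq_zero_iff] at h2
  rw [← cls_pow, cls_eq_zero_iff]
  refine hF n ζ hζ f hf (fun σ hσ => ?_) h1 h2
  have h3 := h0 σ hσ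
  rw [gal_cls, cls_eq_iff] at h3
  exact h3.symm

include hw2 in
/-- **`CarAll` from the function level facts.** -/
theorem car_of_fun (hp : p.Prime)
    (hK : ∀ ℓ : ℕ, ℓ.Prime → ¬ ℓ ∣ N * r → ℓ ≠ p → ∀ A : ValuationSubring Qb, A.LiesOverPrime ℓ →
      KILAt (N * r) A p) (D' : ThetaSys N p)
    {O : Type} [CommRing O] [IsDomain O] [IsDiscreteValuationRing O]
    [IsAdicComplete (maximalIdeal O) O] [CharZero O] (hpO : (p : O) ∈ maximalIdeal O)
    {g : CuspForm (Gamma0 (N * r)) 2} (hg : g.IsNewform) (lam : FullHecke (N * r) →+* O)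
    (hlam : ∀ t, lam t = 0 → eigenCharC hg.1 ∅ t = 0)
    (hc : CommW2T w2) (hU : LowerU N r) (J : Set GQ) (c : ℕ) (hc0 : c ≠ 0)
    (hF : CarFun w2 hr D J c)
    (v : O ⊗[ℤ] D.Λ) (hv : v ∈ eigenO (D.tateDatum hp.pos hK) lam)
    (hfix : ∀ σ ∈ J, rhoM (D.tateDatum hp.pos hK) hpO σ v = v) : v = 0 := by
  have hne : N ≠ N * r := by
    intro h
    have h1 : N * 1 = N * r := by rw [mul_one]; exact h
    exact hr.one_lt.ne (Nat.eq_of_mul_eq_mul_left (Nat.pos_of_ne_zero (NeZero.ne N)) h1)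
  exact car_of_kill_U (D.tateDatum hp.pos hK) hpO hp.ne_zero (dvd_mul_right N r) hne hg lam hlam
    (UrH hr) (wAct2 w2 hw2 D) (wAct2_compat w2 hw2 D) (wAct2_T w2 hw2 D hc)
    (killU_of_fun hr D D' hU) J (c : ℤ) (Int.natCast_ne_zero.2 hc0)
    (fun n ξ h0 h1 h2 => car_fin_of_fun w2 hw2 hr D J c hF n ξ h0 h1 h2) v hv hfix

end main

end

end Fermat.Agent.CARlib
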