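import Fermat.Agent.UNI.AL2

/-!
# T-CAR, row E3: the Atkin–Lehner involution `W_Q` on the function field of `X₀(M)`, `M = N Q`,
`gcd(Q, N) = 1`

`wQ K hM hc : FK K M ≃ₐ[K] FK K M` maps `j(q^{e s})` to `j(q^{e Q / s})` for `e ∣ N`, `s ∣ Q`.
-/

set_option autoImplicit false
set_option linter.unusedSectionVars false
set_option linter.style.haveILetI false

open UpperHalfPlane hiding I
open ModularForm MatrixGroups Filter Topology ModularCurve Complex
open scoped Manifold Real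
open Fermat.Agent.S24lib Fermat.Agent.ESlib Fermat.Agent.UNIlib

namespace Fermat.Agent.CARlib

section analytic

/-- `j(e s W τ) = j(e t τ)` for `e ∣ N`, `Q = s t` -/
theorem e3_jd_mul_alMap {N s t : ℕ} (hs : s ≠ 0) (ht : t ≠ 0) (w z : ℤ)
    (h : ((s * t : ℕ) : ℤ) * w - N * z = 1) {e : ℕ} (he0 : e ≠ 0) (he : e ∣ N) (τ : ℍ) :
    jd (e * s) (alMap N (s * t) w z h τ) = jd (e * t) τ := by
  obtain ⟨f, rfl⟩ := he
  have hω := coe_alMap_mul (mul_ne_zero hs ht) w z h τ
  let γ : SL(2, ℤ) := ⟨!![s, e; f * z, t * w], by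
    rw [Matrix.det_fin_two_of]; push_cast at h; linarith⟩
  rw [jd, jd]
  refine jfun_ofComplex_eq_of_moebius γ (im_natCast_mul_pos (mul_ne_zero he0 ht) τ) ?_
  simp only [γ, Matrix.of_apply, Matrix.cons_val', Matrix.cons_val_zero, Matrix.cons_val_one,
    Matrix.cons_val_fin_one]
  have hs' : (s : ℂ) ≠ 0 := Nat.cast_ne_zero.2 hs
  apply mul_left_cancel₀ hs'
  push_cast at hω ⊢
  linear_combination ((e : ℂ) * s) * hω

end analytic

section perm

variable {M N Q : ℕ}

/-- the permutation `e s ↦ e (Q / s)` (`e ∣ N`, `s ∣ Q`) of the divisors of `M = N Q` -/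
def alPermQ (hM : M = N * Q) (d : Dv M) : Dv M :=
  ⟨Nat.gcd d.1 N * (Q / Nat.gcd d.1 Q),
    (Nat.mul_dvd_mul (Nat.gcd_dvd_right _ _) (Nat.div_dvd_of_dvd (Nat.gcd_dvd_right _ _))).trans
      (dvd_of_eq hM.symm)⟩

theorem coe_alPermQ (hM : M = N * Q) (d : Dv M) :
    (alPermQ hM d).1 = Nat.gcd d.1 N * (Q / Nat.gcd d.1 Q) := rfl

theorem e3_gcd_mul_gcd (hM : M = N * Q) (hc : Nat.Coprime Q N) (d : Dv M) :
    Nat.gcd d.1 N * Nat.gcd d.1 Q = d.1 := by
  rw [← Nat.Coprime.gcd_mul d.1 hc.symm, ← hM]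
  exact Nat.gcd_eq_left d.2

theorem alPermQ_alPermQ [NeZero M] (hM : M = N * Q) (hc : Nat.Coprime Q N) (d : Dv M) :
    alPermQ hM (alPermQ hM d) = d := by
  apply Subtype.ext
  have hQ0 : Q ≠ 0 := by
    rintro rfl
    exact NeZero.ne M (by rw [hM, mul_zero])
  set a := Nat.gcd d.1 N with ha
  set s := Nat.gcd d.1 Q with hs
  have hsQ : s ∣ Q := Nat.gcd_dvd_right _ _
  have haN : a ∣ N := Nat.gcd_dvd_right _ _
  obtain ⟨t, ht⟩ := hsQ
  have hs0 : 0 < s := Nat.pos_of_ne_zero (by rintro h0; rw [h0, zero_mul] at ht; exact hQ0 ht)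
  have ht0 : 0 < t := Nat.pos_of_ne_zero (by rintro h0; rw [h0, mul_zero] at ht; exact hQ0 ht)
  have hdiv : Q / s = t := by rw [ht, Nat.mul_div_cancel_left _ hs0]
  have htQ : t ∣ Q := ⟨s, by rw [ht, mul_comm]⟩
  have h1 : (alPermQ hM d).1 = a * t := by rw [coe_alPermQ, hdiv]
  have hctN : Nat.Coprime t N := Nat.Coprime.coprime_dvd_left htQ hc
  have hcaQ : Nat.Coprime a Q := (Nat.Coprime.coprime_dvd_right haN hc).symm
  have h2 : Nat.gcd (a * t) N = a := by
    rw [Nat.Coprime.gcd_mul_right_cancel a hctN]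
    exact Nat.gcd_eq_left haN
  have h3 : Nat.gcd (a * t) Q = t := by
    rw [Nat.Coprime.gcd_mul_left_cancel t hcaQ]
    exact Nat.gcd_eq_left htQ
  rw [coe_alPermQ, h1, h2, h3]
  have h4 : Q / t = s := by rw [ht, Nat.mul_div_cancel _ ht0]
  rw [h4]
  exact e3_gcd_mul_gcd hM hc d

theorem jd_alPermQ [NeZero M] (hM : M = N * Q) (hc : Nat.Coprime Q N) (w z : ℤ)
    (h : (Q : ℤ) * w - N * z = 1) (d : Dv M) (τ : ℍ) :
    jd (alPermQ hM d).1 τ = jd d.1 (alMap N Q w z h τ) := by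
  have hQ0 : Q ≠ 0 := by
    rintro rfl
    exact NeZero.ne M (by rw [hM, mul_zero])
  have hN0 : N ≠ 0 := by
    rintro rfl
    exact NeZero.ne M (by rw [hM, zero_mul])
  have hd := e3_gcd_mul_gcd hM hc d
  set a := Nat.gcd d.1 N with ha
  set s := Nat.gcd d.1 Q with hs
  have hsQ : s ∣ Q := Nat.gcd_dvd_right _ _
  have haN : a ∣ N := Nat.gcd_dvd_right _ _
  obtain ⟨t, ht⟩ := hsQ
  have hs0 : s ≠ 0 := by rintro h0; rw [h0, zero_mul] at ht; exact hQ0 ht
  have ht0 : t ≠ 0 := by rintro h0; rw [h0, mul_zero] at ht; exact hQ0 ht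
  have ha0 : a ≠ 0 := by rintro h0; rw [h0] at haN; exact hN0 (Nat.eq_zero_of_zero_dvd haN)
  have h1 : (alPermQ hM d).1 = a * t := by
    rw [coe_alPermQ, ← hs, ← ha, ht, Nat.mul_div_cancel_left _ (Nat.pos_of_ne_zero hs0)]
  rw [h1, ← hd]
  clear_value a s
  subst ht
  exact (e3_jd_mul_alMap hs0 ht0 w z h ha0 haN τ).symm

end perm

section kernel

variable {M N Q : ℕ} [NeZero M]

theorem evH_rename_alPermQ (hM : M = N * Q) (hc : Nat.Coprime Q N) (w z : ℤ)
    (h : (Q : ℤ) * w - N * z = 1) (P : MvPolynomial (Dv M) ℂ) (τ : ℍ) :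
    ESlib.evH ℂ M (MvPolynomial.rename (alPermQ hM) P) τ =
      ESlib.evH ℂ M P (alMap N Q w z h τ) := by
  induction P using MvPolynomial.induction_on with
  | C a => rw [MvPolynomial.rename_C, ESlib.evH_C]
  | add p q hp hq => rw [map_add, map_add, map_add, Pi.add_apply, Pi.add_apply, hp, hq]
  | mul_X p d hp =>
    rw [map_mul, map_mul, map_mul, MvPolynomial.rename_X, ESlib.evH_X, ESlib.evH_X, Pi.mul_apply,
      Pi.mul_apply, hp, jd_alPermQ hM hc w z h]

theorem evF_rename_alPermQ_eq_zero_complex (hM : M = N * Q) (hc : Nat.Coprime Q N)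
    (P : MvPolynomial (Dv M) ℂ) (hP : ESlib.evF ℂ M P = 0) :
    ESlib.evF ℂ M (MvPolynomial.rename (alPermQ hM) P) = 0 := by
  obtain ⟨w, z, h⟩ := exists_bezout hc
  rw [ESlib.evF_eq_zero_iff] at hP ⊢
  funext τ
  rw [evH_rename_alPermQ hM hc w z h, hP]
  rfl

variable (K : Type) [Field K] [Algebra ℚ K] [Algebra K ℂ] [IsScalarTower ℚ K ℂ]

theorem evF_rename_alPermQ_eq_zero (hM : M = N * Q) (hc : Nat.Coprime Q N)
    (P : MvPolynomial (Dv M) K) (hP : ESlib.evF K M P = 0) :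
    ESlib.evF K M (MvPolynomial.rename (alPermQ hM) P) = 0 := by
  apply bc_injective K ℂ (modularFunctionFieldFull M)
  rw [map_zero, bc_evF, MvPolynomial.map_rename]
  apply evF_rename_alPermQ_eq_zero_complex hM hc
  rw [← bc_evF, hP, map_zero]

theorem rename_alPermQ_rename_alPermQ (hM : M = N * Q) (hc : Nat.Coprime Q N)
    (P : MvPolynomial (Dv M) K) :
    MvPolynomial.rename (alPermQ hM) (MvPolynomial.rename (alPermQ hM) P) = P := by
  rw [MvPolynomial.rename_rename]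
  have : alPermQ hM ∘ alPermQ hM = (id : Dv M → Dv M) :=
    funext fun d => alPermQ_alPermQ hM hc d
  rw [this, MvPolynomial.rename_id_apply]

theorem evF_rename_alPermQ_eq_zero_iff (hM : M = N * Q) (hc : Nat.Coprime Q N)
    (P : MvPolynomial (Dv M) K) :
    ESlib.evF K M (MvPolynomial.rename (alPermQ hM) P) = 0 ↔ ESlib.evF K M P = 0 := by
  refine ⟨fun h => ?_, evF_rename_alPermQ_eq_zero K hM hc P⟩
  have := evF_rename_alPermQ_eq_zero K hM hc _ h
  rwa [rename_alPermQ_rename_alPermQ K hM hc] at this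

end kernel

section wQ

variable (K : Type) [Field K] [Algebra ℚ K] [Algebra K ℂ] [IsScalarTower ℚ K ℂ]
variable {M N Q : ℕ} [NeZero M]

theorem exists_wQHom (hM : M = N * Q) (hc : Nat.Coprime Q N) :
    ∃ e : FK K M →ₐ[K] FK K M, ∀ P : MvPolynomial (Dv M) K,
      e (ESlib.evF K M P) = ESlib.evF K M (MvPolynomial.rename (alPermQ hM) P) := by
  let φ : MvPolynomial (Dv M) K →ₐ[K] FK K M :=
    (ESlib.evF K M).comp (MvPolynomial.rename (alPermQ hM))
  have hφ : ∀ P, φ P = ESlib.evF K M (MvPolynomial.rename (alPermQ hM) P) := fun _ => rfl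
  have hker : ∀ P, φ P = 0 ↔ ESlib.evF K M P = 0 := fun P => by
    rw [hφ, evF_rename_alPermQ_eq_zero_iff K hM hc]
  let f : MvPolynomial (Dv M) K →ₐ[K] (ESlib.evF K M).range :=
    (ESlib.evF K M).rangeRestrict
  have hf : Function.Surjective f := (ESlib.evF K M).rangeRestrict_surjective
  have hfz : ∀ P, f P = 0 ↔ ESlib.evF K M P = 0 := fun P => by
    rw [← Subtype.coe_inj]; rfl
  let ψ : (ESlib.evF K M).range →ₐ[K] FK K M := AlgHom.liftOfSurjective f hf φ (by
    intro P hP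
    rw [RingHom.mem_ker] at hP ⊢
    exact (hker P).mpr ((hfz P).mp hP))
  have hψ : ∀ P, ψ (f P) = φ P := fun P => AlgHom.liftOfSurjective_apply f hf φ _ P
  have hinj : Function.Injective ψ := by
    rw [injective_iff_map_eq_zero]
    intro a ha
    obtain ⟨P, rfl⟩ := hf a
    rw [hψ, hker] at ha
    exact (hfz P).mpr ha
  have : IsFractionRing (ESlib.evF K M).range (FK K M) :=
    IsFractionRing.of_field _ _ (fun z => by
      obtain ⟨P, Q, -, h⟩ := exists_fracK K M z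
      exact ⟨f P, f Q, h⟩)
  refine ⟨IsFractionRing.liftAlgHom hinj, fun P => ?_⟩
  rw [IsFractionRing.liftAlgHom_apply]
  have h1 : ESlib.evF K M P =
    algebraMap (ESlib.evF K M).range (FK K M) (f P) := rfl
  rw [h1, IsFractionRing.lift_algebraMap]
  exact (hψ P).trans (hφ P)

/-- the Atkin–Lehner involution as an algebra endomorphism -/
noncomputable def wQHom (hM : M = N * Q) (hc : Nat.Coprime Q N) : FK K M →ₐ[K] FK K M :=
  (exists_wQHom K hM hc).choose

theorem wQHom_evF (hM : M = N * Q) (hc : Nat.Coprime Q N) (P : MvPolynomial (Dv M) K) :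
    wQHom K hM hc (ESlib.evF K M P) = ESlib.evF K M (MvPolynomial.rename (alPermQ hM) P) :=
  (exists_wQHom K hM hc).choose_spec P

theorem wQHom_Jgen (hM : M = N * Q) (hc : Nat.Coprime Q N) (d : Dv M) :
    wQHom K hM hc (ESlib.Jgen K M d) = ESlib.Jgen K M (alPermQ hM d) := by
  rw [← evF_X, wQHom_evF, MvPolynomial.rename_X, evF_X]

theorem wQHom_wQHom (hM : M = N * Q) (hc : Nat.Coprime Q N) (x : FK K M) :
    wQHom K hM hc (wQHom K hM hc x) = x := by
  have h : ((wQHom K hM hc).comp (wQHom K hM hc)).toRingHom =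
      (AlgHom.id K (FK K M)).toRingHom := by
    apply ringHom_ext_JgenK
    · intro a
      show wQHom K hM hc (wQHom K hM hc _) = _
      rw [AlgHom.commutes, AlgHom.commutes]
      rfl
    · intro d
      show wQHom K hM hc (wQHom K hM hc _) = _
      rw [wQHom_Jgen, wQHom_Jgen, alPermQ_alPermQ hM hc]
      rfl
  exact DFunLike.congr_fun h x

/-- **the Atkin–Lehner involution `W_Q`** of the function field of `X₀(M)`, `M = N Q` -/
noncomputable def wQ (hM : M = N * Q) (hc : Nat.Coprime Q N) : FK K M ≃ₐ[K] FK K M :=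
  AlgEquiv.ofAlgHom (wQHom K hM hc) (wQHom K hM hc)
    (AlgHom.ext (wQHom_wQHom K hM hc)) (AlgHom.ext (wQHom_wQHom K hM hc))

theorem wQ_Jgen (hM : M = N * Q) (hc : Nat.Coprime Q N) (d : Dv M) :
    wQ K hM hc (ESlib.Jgen K M d) = ESlib.Jgen K M (alPermQ hM d) :=
  wQHom_Jgen K hM hc d

theorem wQ_wQ (hM : M = N * Q) (hc : Nat.Coprime Q N) (x : FK K M) :
    wQ K hM hc (wQ K hM hc x) = x :=
  wQHom_wQHom K hM hc x

theorem wQ_symm (hM : M = N * Q) (hc : Nat.Coprime Q N) : (wQ K hM hc).symm = wQ K hM hc := rfl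

/-- `W_Q (j(q^d)) = j(q^{d'})` as soon as `d' = gcd(d, N) * (Q / gcd(d, Q))` -/
theorem wQ_Jgen_of_eq (hM : M = N * Q) (hc : Nat.Coprime Q N) (d d' : Dv M)
    (h : d'.1 = Nat.gcd d.1 N * (Q / Nat.gcd d.1 Q)) :
    wQ K hM hc (ESlib.Jgen K M d) = ESlib.Jgen K M d' := by
  rw [wQ_Jgen]
  congr 1
  exact Subtype.ext h.symm

/-- **functoriality** -/
theorem map_wQ (K' : Type) [Field K'] [Algebra ℚ K'] [Algebra K' ℂ] [IsScalarTower ℚ K' ℂ]
    (hM : M = N * Q) (hc : Nat.Coprime Q N) (s : FK K M →+* FK K' M) (σ : K →+* K')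
    (hK : ∀ a : K, s (algebraMap K _ a) = algebraMap K' _ (σ a))
    (hJ : ∀ d, s (ESlib.Jgen K M d) = ESlib.Jgen K' M d) (x : FK K M) :
    s (wQ K hM hc x) = wQ K' hM hc (s x) := by
  have h : s.comp (wQ K hM hc).toAlgHom.toRingHom =
      ((wQ K' hM hc).toAlgHom.toRingHom).comp s := by
    apply ringHom_ext_JgenK
    · intro a
      show s (wQ K hM hc _) = wQ K' hM hc (s _)
      rw [AlgEquiv.commutes, hK, AlgEquiv.commutes]
    · intro d
      show s (wQ K hM hc _) = wQ K' hM hc (s _)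
      rw [wQ_Jgen, hJ, hJ, wQ_Jgen]
  exact DFunLike.congr_fun h x

/-- `W_Q` commutes with base change -/
theorem bc_wQ (K' : Type) [Field K'] [Algebra ℚ K'] [Algebra K' ℂ] [IsScalarTower ℚ K' ℂ]
    [Algebra K K'] [IsScalarTower ℚ K K'] (hM : M = N * Q) (hc : Nat.Coprime Q N) (x : FK K M) :
    bc K K' (modularFunctionFieldFull M) (wQ K hM hc x) =
      wQ K' hM hc (bc K K' (modularFunctionFieldFull M) x) :=
  map_wQ K K' hM hc (bc K K' _) (algebraMap K K') (bc_algebraMap K K' _) (bc_Jgen K K' _) x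

/-- `W_Q` commutes with the (coefficientwise) Galois action -/
theorem arithmeticRingAut_wQ (hM : M = N * Q) (hc : Nat.Coprime Q N) (σ : K ≃ₐ[ℚ] K)
    (x : FK K M) :
    arithmeticRingAut (modularFunctionFieldFull M) σ (wQ K hM hc x) =
      wQ K hM hc (arithmeticRingAut (modularFunctionFieldFull M) σ x) :=
  map_wQ K K hM hc (arithmeticRingAut (modularFunctionFieldFull M) σ).toRingHom
    (σ : K →+* K) (arithmeticRingAut_algebraMap _ σ) (arithmeticRingAut_Jgen K _ σ) x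

open AlgebraicCurve in
theorem mDiv_wQ (hM : M = N * Q) (hc : Nat.Coprime Q N) {m : ℕ} {f : FK K M}
    (hf : MDiv K m f) : MDiv K m (wQ K hM hc f) := mDiv_algEquiv _ hf

open AlgebraicCurve in
theorem sameClass_wQ (hM : M = N * Q) (hc : Nat.Coprime Q N) {m : ℕ} {f g : FK K M}
    (h : SameClass m f g) : SameClass m (wQ K hM hc f) (wQ K hM hc g) :=
  h.map (wQ K hM hc).toAlgHom.toRingHom

end wQ

end Fermat.Agent.CARlib
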