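import Fermat.Agent.CAR.L1Level
import Fermat.Agent.CAR.E2Glue
import Fermat.Agent.CAR.E3AL

/-!
# T-CAR, row L1: level raising, `q`-series form

`W_Q` commutes with the inclusion `F(N Q) ⊆ F(N' Q)` (`N ∣ N'`), and `CarFun` at the level
`N a a r r` implies `CarFun` at the level `N r r`.
-/

set_option autoImplicit false
set_option linter.unusedSectionVars false
set_option linter.style.haveILetI false

open ModularCurve AlgebraicCurve Fermat.Agent.S28lib IntermediateField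

namespace Fermat.Agent.CARlib

open Fermat.Agent.UNIlib Fermat.Agent.ESlib Fermat.Agent.ESlib.PartD Fermat.Agent.S24lib

theorem l1_gcd_eq {N N' Q d : ℕ} (hN : N ∣ N') (hc' : Nat.Coprime Q N') (hd : d ∣ N * Q) :
    Nat.gcd d N' = Nat.gcd d N := by
  apply Nat.dvd_antisymm
  · apply Nat.dvd_gcd (Nat.gcd_dvd_left _ _)
    have h1 : Nat.gcd d N' ∣ N * Q := (Nat.gcd_dvd_left _ _).trans hd
    have h2 : Nat.Coprime (Nat.gcd d N') Q :=
      Nat.Coprime.coprime_dvd_left (Nat.gcd_dvd_right _ _) hc'.symm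
    exact h2.dvd_of_dvd_mul_right h1
  · exact Nat.gcd_dvd_gcd_of_dvd_right d hN

/-- `W_Q` commutes with the change of level -/
theorem l1_wQ_inclF (K : Type) [Field K] [Algebra ℚ K] [Algebra K ℂ] [IsScalarTower ℚ K ℂ]
    {M M' N N' Q : ℕ} [NeZero M] [NeZero M'] (hM : M = N * Q) (hM' : M' = N' * Q)
    (hc : Nat.Coprime Q N) (hc' : Nat.Coprime Q N') (hN : N ∣ N') (h : M ∣ M') (f : FK K M) :
    wQ K hM' hc' (inclF K h f) = inclF K h (wQ K hM hc f) := by
  have hh : ((wQ K hM' hc').toAlgHom.comp (inclF K h)).toRingHom =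
      ((inclF K h).comp (wQ K hM hc).toAlgHom).toRingHom := by
    apply ringHom_ext_JgenK
    · intro c
      show wQ K hM' hc' (inclF K h _) = inclF K h (wQ K hM hc _)
      rw [AlgHom.commutes, AlgEquiv.commutes, AlgEquiv.commutes, AlgHom.commutes]
    · intro d
      show wQ K hM' hc' (inclF K h _) = inclF K h (wQ K hM hc _)
      rw [wQ_Jgen, inclF_Jgen, inclF_Jgen]
      apply wQ_Jgen_of_eq
      show Nat.gcd d.1 N * (Q / Nat.gcd d.1 Q) = Nat.gcd d.1 N' * (Q / Nat.gcd d.1 Q)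
      rw [l1_gcd_eq hN hc' (hM ▸ d.2)]
  exact DFunLike.congr_fun hh f

/-- **change of level for `CarFun`**, abstract form -/
theorem l1_carFun_of_incl {N N' r p : ℕ} [NeZero N] [NeZero N'] [NeZero r] [NeZero (N * r)]
    [NeZero (N' * r)] (hNN' : N ∣ N')
    (w : modularFunctionFieldBar (N * r) →+* modularFunctionFieldBar (N * r))
    (w' : modularFunctionFieldBar (N' * r) →+* modularFunctionFieldBar (N' * r))
    (hww' : ∀ f, w' (LevelU.incl (Nat.mul_dvd_mul_right hNN' r) f) =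
      LevelU.incl (Nat.mul_dvd_mul_right hNN' r) (w f))
    (hr : r.Prime) (D : ThetaSys (N * r) p) (D' : ThetaSys (N' * r) p) {J : Set GQ} {c : ℕ}
    (H : CarFun w' hr D' J c) :
    CarFun w hr D J (c * l1Deg (Nat.mul_dvd_mul_right hNN' r)) := by
  intro n ζ hζ
  exact l1_carRel_of_incl (Nat.mul_dvd_mul_right hNN' r)
    (fun u hu => D.U_mem hr (dvd_mul_left r N) hζ u hu)
    (fun u hu => D'.U_mem hr (dvd_mul_left r N') hζ u hu) w w' hww' (H n ζ hζ)

/-- **change of level for `CarFun`**, `w = W_{r²}` (`wQ` of `CAR/E3AL`) -/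
theorem l1_carFun {N N' r p : ℕ} [NeZero (N * r)] [NeZero (N' * r)] [NeZero r]
    [NeZero (N * r * r)] [NeZero (N' * r * r)] (hNN' : N ∣ N')
    (hc : Nat.Coprime (r * r) N) (hc' : Nat.Coprime (r * r) N')
    (hr : r.Prime) (D : ThetaSys (N * r * r) p) (D' : ThetaSys (N' * r * r) p) {J : Set GQ}
    {c : ℕ}
    (H : CarFun (wQ Qb (Nat.mul_assoc N' r r) hc').toAlgHom.toRingHom hr D' J c) :
    CarFun (wQ Qb (Nat.mul_assoc N r r) hc).toAlgHom.toRingHom hr D J
      (c * l1Deg (Nat.mul_dvd_mul_right (Nat.mul_dvd_mul_right hNN' r) r)) :=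
  l1_carFun_of_incl (Nat.mul_dvd_mul_right hNN' r) _ _
    (fun f => l1_wQ_inclF Qb (Nat.mul_assoc N r r) (Nat.mul_assoc N' r r) hc hc' hNN'
      (Nat.mul_dvd_mul_right (Nat.mul_dvd_mul_right hNN' r) r) f) hr D D' H

/-- the auxiliary prime: `a ∈ {2, 3}`, `a ≠ r` -/
theorem l1_exists_aux (r : ℕ) : ∃ a : ℕ, (a = 2 ∨ a = 3) ∧ a.Prime ∧ a ≠ r := by
  by_cases h2 : r = 2
  · exact ⟨3, Or.inr rfl, Nat.prime_three, by omega⟩
  · exact ⟨2, Or.inl rfl, Nat.prime_two, fun h => h2 h.symm⟩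

end Fermat.Agent.CARlib
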