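import Fermat.Agent.CAR.ETop
import Fermat.Agent.CAR.L1Top
import Fermat.Agent.CAR.DTop

/-!
# T-CAR, block E: `CarAll` from `CarHauptAt` at the levels `N` with `4 ∣ N ∨ 9 ∣ N`
(assembly of E, L1)
-/

set_option autoImplicit false
set_option linter.unusedSectionVars false

open ModularCurve AlgebraicCurve Fermat.Agent.S28lib CongruenceSubgroup
open scoped TensorProduct

namespace Fermat.Agent.CARlib

open Fermat.Agent.UNIlib Fermat.Agent.ESlib Fermat.Agent.ESlib.PartD IsLocalRing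
  Fermat.Agent.S24lib Fermat.Agent.S37lib

/-- what blocks D + X deliver: `CarHauptAt` at the levels divisible by `4` or `9` -/
def CarHauptAux : Prop :=
  ∀ (N r p : ℕ) [NeZero (N * r)] [NeZero r], r.Prime → ¬ r ∣ N → (4 ∣ N ∨ 9 ∣ N) → p.Prime →
    r ≠ p → ∀ A : ValuationSubring Qb, A.LiesOverPrime r →
    ∃ c : ℕ, 0 < c ∧ ∀ n : ℕ, CarHauptAt N r (p ^ n) A c

/-- **blocks E + L1**: `CarAll` from `CarHauptAux` -/
theorem e5_carAll_of_carHauptAux (H : CarHauptAux) : CarAll := by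
  intro M _ p hp g hg O _ _ _ _ _ hpO lam hlam q hq hqp hq2 A hA v hv hfix
  obtain ⟨N, rfl, hqN⟩ := e5_exists_eq_mul_mul (NeZero.ne M) hq hq2
  have hN : NeZero N := ⟨fun h => NeZero.ne (N * q * q) (by rw [h, zero_mul, zero_mul])⟩
  have hq0 : NeZero q := ⟨hq.ne_zero⟩
  have hNq : NeZero (N * q) := ⟨Nat.mul_ne_zero hN.ne hq.ne_zero⟩
  obtain ⟨a, ha23, ha, haq⟩ := l1_exists_aux q
  have hqa : ¬ q ∣ a := fun h => haq ((Nat.prime_dvd_prime_iff_eq hq ha).1 h).symm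
  have hqN' : ¬ q ∣ N * a * a := fun h =>
    (hq.dvd_mul.1 h).elim (fun h' => (hq.dvd_mul.1 h').elim hqN hqa) hqa
  have hN' : NeZero (N * a * a) :=
    ⟨Nat.mul_ne_zero (Nat.mul_ne_zero hN.ne ha.ne_zero) ha.ne_zero⟩
  have hN'q : NeZero (N * a * a * q) := ⟨Nat.mul_ne_zero hN'.ne hq.ne_zero⟩
  have hN'qq : NeZero (N * a * a * q * q) := ⟨Nat.mul_ne_zero hN'q.ne hq.ne_zero⟩
  have h49 : 4 ∣ N * a * a ∨ 9 ∣ N * a * a := by
    rcases ha23 with rfl | rfl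
    · exact Or.inl ⟨N, by ring⟩
    · exact Or.inr ⟨N, by ring⟩
  obtain ⟨c, hc0, Hc⟩ := H (N * a * a) q p hq hqN' h49 hp hqp A hA
  have hNN' : N ∣ N * a * a := ⟨a * a, by ring⟩
  have h1 : CarFun (N := N * a * a * q) (e3WB hq hqN') hq (thetaSys (N * a * a * q * q) p hp.pos)
      (↑(A.inertiaSubgroupIn ℚ) : Set GQ) c :=
    e3_carFun hq hqN' hp hqp _ _ c (fun n f h1 h2 h3 h4 => Hc n f h1 h2 h3 h4)
  have h2 := l1_carFun hNN' (e3_coprime hq hqN) (e3_coprime hq hqN') hq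
    (thetaSys (N * q * q) p hp.pos) (thetaSys (N * a * a * q * q) p hp.pos) h1
  exact car_of_fun (N := N * q) (e3WB hq hqN) (mDiv_e3WB hq hqN) hq
    (thetaSys (N * q * q) p hp.pos) hp
    (fun ℓ hℓ hℓN hℓp A hA =>
      kilAt_of_kilHaupt hℓ (kilHaupt hℓ A hA) (N * q * q) hℓN p hp (fun h => hℓp h.symm))
    (thetaSys (N * q) p hp.pos) hpO hg lam hlam (e3_commW2T hq hqN) (e3_lowerU hq hqN)
    (↑(A.inertiaSubgroupIn ℚ) : Set GQ) _ (Nat.mul_ne_zero hc0.ne' (l1Deg_ne_zero _)) h2 v hv hfix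

end Fermat.Agent.CARlib
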