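import Fermat.Agent.CAR.DInst
import Fermat.Agent.CAR.D1
import Fermat.Agent.CAR.DNorm
import Fermat.Agent.CAR.ETop2

/-!
# T-CAR, block D: `CarAll` from `CarK`
-/

set_option autoImplicit false
set_option linter.unusedSectionVars false

open ModularCurve AlgebraicCurve

namespace Fermat.Agent.CARlib

open Fermat.Agent.ESlib Fermat.Agent.UNIlib
open Fermat.Agent.S24lib (Kb)

/-- **block D**: descent to the fixed field of inertia -/
theorem carHauptAux_of_carK (H : CarK) : CarHauptAux := by
  intro N r p _ _ hr hrN h49 hp hrp A hA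
  refine ⟨carExp r, carExp_pos hr, fun n => ?_⟩
  have h1 := d1_isDVR A hr hA
  have hm : 0 < p ^ n := pow_pos hp.pos n
  have hrm : ¬ r ∣ p ^ n := fun h => hrp ((Nat.prime_dvd_prime_iff_eq hr hp).1 (hr.dvd_of_dvd_pow h))
  exact carHauptAt_of_carKAt hm A (d_normBC _ _ _)
    (fun y a h => d_pow_descent (inF A) hm y a h)
    (carKAt_inF A H hr hrN h49 hm hrm hA (d1_irreducible A hr hA))

/-- **blocks D + E + L1** -/
theorem carAll_of_carK (H : CarK) : CarAll :=
  e5_carAll_of_carHauptAux (carHauptAux_of_carK H)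

end Fermat.Agent.CARlib
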