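import Fermat.Agent.CAR.DDefs

/-!
# T-CAR, block D: interface (descent to the fixed field of inertia)

`inF A` = fixed field of the inertia group of `A` in `ℚ̄`; `R = RA A (inF A) = A ∩ inF A`.

The statements below are the deliverables of block D.  Each of them is proved in its own file
(`CAR/D1*.lean`, `CAR/DDescent.lean`, `CAR/DPow.lean`) in the namespace `Fermat.Agent.CARlib`
under the SAME name; this file (namespace `Fermat.Agent.CARlib.DIface`) is only for consumers that
want to compile before the proofs land.  `inF` itself lives in `CAR/DDefs.lean`.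
-/

set_option autoImplicit false
set_option linter.unusedSectionVars false

open ModularCurve AlgebraicCurve

namespace Fermat.Agent.CARlib

open Fermat.Agent.ESlib Fermat.Agent.UNIlib
open Fermat.Agent.S24lib (Kb)

namespace DIface

variable (A : ValuationSubring Kb) {r : ℕ}

/-- **D1a** -/
theorem d1_isDVR (hr : r.Prime) (hA : A.LiesOverPrime r) :
    IsDiscreteValuationRing (RA A (inF A)) := by
  sorry

/-- **D1a'**: `r` is a uniformiser -/
theorem d1_irreducible (hr : r.Prime) (hA : A.LiesOverPrime r) :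
    Irreducible ((r : ℕ) : RA A (inF A)) := by
  sorry

/-- **D1b** -/
theorem d1_isAlgClosed (hr : r.Prime) (hA : A.LiesOverPrime r) :
    IsAlgClosed (IsLocalRing.ResidueField (RA A (inF A))) := by
  sorry

/-- **D1c** -/
theorem d1_exists_pow_eq (hr : r.Prime) (hA : A.LiesOverPrime r) {m : ℕ} (hm : 0 < m)
    (hrm : ¬ r ∣ m) (u : (RA A (inF A))ˣ) : ∃ w : (RA A (inF A))ˣ, w ^ m = u := by
  sorry

/-- **D1d** -/
theorem d1_root_mem (hr : r.Prime) (hA : A.LiesOverPrime r) {m : ℕ} (hm : 0 < m)
    (hrm : ¬ r ∣ m) {ζ : Kb} (hζ : ζ ^ m = 1) : ζ ∈ inF A := by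
  sorry

/-- **D-A** Galois descent of a class fixed by a subgroup `H` (no Hilbert 90: canonical
representatives `IsCan` of ES/B) -/
theorem d_exists_descent (H : Subgroup (Kb ≃ₐ[ℚ] Kb)) {N : ℕ} [NeZero N] {m : ℕ} (hm : 0 < m)
    {f : FK Kb N} (hf0 : f ≠ 0) (hI : ∀ σ ∈ H, SameClass m f (galF N σ f)) :
    ∃ (g : FK (IntermediateField.fixedField H) N) (Ψ : FK Kb N), Ψ ≠ 0 ∧
      bc (IntermediateField.fixedField H) Kb (modularFunctionFieldFull N) g = f * Ψ ^ m := by
  sorry

/-- **D-B** an element of `F_K` which is an `m`-th power over `ℚ̄` is a constant times an `m`-th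
power over `K` -/
theorem d_pow_descent (K : IntermediateField ℚ Kb) {M : ℕ} [NeZero M] {m : ℕ} (hm : 0 < m)
    (y : FK K M) (a : FK Kb M) (h : bc K Kb (modularFunctionFieldFull M) y = a ^ m) :
    ∃ (lam : K) (a₀ : FK K M), y = algebraMap K (FK K M) lam * a₀ ^ m := by
  sorry

end DIface

end Fermat.Agent.CARlib
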