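import Fermat.Agent.CAR.DDefs
import Fermat.Agent.CAR.D2H90
import Fermat.Agent.ES.B.Rational
import Fermat.Agent.ES.M.Root

/-!
# T-CAR, block D, row D-B: an element of `F_K` which is an `m`-th power over `ℚ̄` is a constant
times an `m`-th power over `K`
-/

set_option autoImplicit false
set_option linter.unusedSectionVars false

open ModularCurve AlgebraicCurve

namespace Fermat.Agent.CARlib

open Fermat.Agent.ESlib Fermat.Agent.UNIlib
open Fermat.Agent.S24lib (Kb)

/-- two Laurent series with the same `m`-th power and leading coefficient `1` are equal -/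
theorem dpow_eq_of_pow_eq {k : Type*} [Field k] {m : ℕ} (hm : (m : k) ≠ 0) {x y : LaurentSeries k}
    (h : x ^ m = y ^ m) (hx : x.leadingCoeff = 1) (hy : y.leadingCoeff = 1) : x = y := by
  have hy0 : y ≠ 0 := by
    rintro rfl
    rw [HahnSeries.leadingCoeff_zero] at hy
    exact zero_ne_one hy
  have h1 : x / y = 1 := by
    apply d2_laurent_eq_one hm
    · rw [div_pow, h, div_self (pow_ne_zero _ hy0)]
    · have h2 : (x / y * y).leadingCoeff = x.leadingCoeff := by rw [div_mul_cancel₀ _ hy0]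
      rw [HahnSeries.leadingCoeff_mul, hx, hy, mul_one] at h2
      exact h2
  rwa [div_eq_one_iff_eq hy0] at h1

/-- abstract form of (D-B) on Laurent series: `K ⊆ L` fields of characteristic zero -/
theorem dpow_laurent {K L : Type*} [Field K] [Field L] [Algebra K L] [CharZero K] {m : ℕ}
    (hm : 0 < m) {Y : LaurentSeries K} (hY : Y ≠ 0) {a : LaurentSeries L}
    (h : coeffMap (algebraMap K L) Y = a ^ m) :
    ∃ z : LaurentSeries K, Y = algebraMap K (LaurentSeries K) Y.leadingCoeff * z ^ m ∧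
      coeffMap (algebraMap K L) z = algebraMap L (LaurentSeries L) a.leadingCoeff⁻¹ * a := by
  have hinj : Function.Injective (algebraMap K L) := (algebraMap K L).injective
  have : CharZero L := charZero_of_injective_algebraMap hinj
  have hmK : (m : K) ≠ 0 := by exact_mod_cast hm.ne'
  have hmL : (m : L) ≠ 0 := by exact_mod_cast hm.ne'
  have ha0 : a ≠ 0 := by
    rintro rfl
    rw [zero_pow hm.ne'] at h
    exact hY (S28lib.coeffMap_injective hinj (by rw [h, map_zero]))
  set lam := Y.leadingCoeff with hlam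
  have hlam0 : lam ≠ 0 := HahnSeries.leadingCoeff_ne_zero.mpr hY
  set c := a.leadingCoeff with hc
  have hc0 : c ≠ 0 := HahnSeries.leadingCoeff_ne_zero.mpr ha0
  have hclam : c ^ m = algebraMap K L lam := by
    rw [hc, ← leadingCoeff_pow_laurent, ← h, leadingCoeff_coeffMap_of_injective _ hinj]
  have hord : (m : ℤ) ∣ Y.order := by
    rw [← order_coeffMap_of_injective _ hinj, h, HahnSeries.order_pow, nsmul_eq_mul]
    exact Dvd.intro _ rfl
  set Y1 : LaurentSeries K := algebraMap K (LaurentSeries K) lam⁻¹ * Y with hY1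
  have hY10 : Y1 ≠ 0 := mul_ne_zero ((map_ne_zero _).2 (inv_ne_zero hlam0)) hY
  have hY1lc : Y1.leadingCoeff = 1 := by
    rw [hY1, leadingCoeff_algebraMap_mul, ← hlam, inv_mul_cancel₀ hlam0]
  obtain ⟨z, hz⟩ := laurent_exists_pow_eq_of_leadingCoeff hmK Y1 hY10
    (by rw [hY1, order_algebraMap_mul (inv_ne_zero hlam0)]; exact hord) 1
    (by rw [one_pow, hY1lc])
  have hz0 : z ≠ 0 := by
    rintro rfl
    rw [zero_pow hm.ne'] at hz
    exact hY10 hz.symm
  set ω := z.leadingCoeff with hω
  have hω0 : ω ≠ 0 := HahnSeries.leadingCoeff_ne_zero.mpr hz0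
  have hωm : ω ^ m = 1 := by rw [hω, ← leadingCoeff_pow_laurent, hz, hY1lc]
  set z1 : LaurentSeries K := algebraMap K (LaurentSeries K) ω⁻¹ * z with hz1
  have hz1m : z1 ^ m = Y1 := by
    rw [hz1, mul_pow, ← map_pow, inv_pow, hωm, inv_one, map_one, one_mul, hz]
  have hz1lc : z1.leadingCoeff = 1 := by
    rw [hz1, leadingCoeff_algebraMap_mul, ← hω, inv_mul_cancel₀ hω0]
  refine ⟨z1, ?_, ?_⟩
  · rw [hz1m, hY1, ← mul_assoc, ← map_mul, mul_inv_cancel₀ hlam0, map_one, one_mul]
  · apply dpow_eq_of_pow_eq hmL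
    · rw [← map_pow, hz1m, hY1, map_mul, h, mul_pow, ← map_pow, inv_pow, hclam,
        coeffMap_algebraMap_algebraMap, map_inv₀]
    · rw [leadingCoeff_coeffMap_of_injective _ hinj, hz1lc, map_one]
    · rw [leadingCoeff_algebraMap_mul, ← hc, inv_mul_cancel₀ hc0]

/-- **D-B** an element of `F_K` which is an `m`-th power over `ℚ̄` is a constant times an `m`-th
power over `K` -/
theorem d_pow_descent (K : IntermediateField ℚ Kb) {M : ℕ} [NeZero M] {m : ℕ} (hm : 0 < m)
    (y : FK K M) (a : FK Kb M) (h : bc K Kb (modularFunctionFieldFull M) y = a ^ m) :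
    ∃ (lam : K) (a₀ : FK K M), y = algebraMap K (FK K M) lam * a₀ ^ m := by
  by_cases hy : y = 0
  · exact ⟨0, 1, by rw [hy, map_zero, zero_mul]⟩
  have hY : (y : LaurentSeries K) ≠ 0 := fun h0 => hy (Subtype.ext h0)
  have hrel : coeffMap (algebraMap K Kb) (y : LaurentSeries K) = (a : LaurentSeries Kb) ^ m :=
    congrArg Subtype.val h
  obtain ⟨z, hz1, hz2⟩ := dpow_laurent hm hY hrel
  have hmem : coeffMap (algebraMap K Kb) z ∈ laurentBaseChange Kb (modularFunctionFieldFull M) := by
    rw [hz2]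
    exact mul_mem ((laurentBaseChange Kb (modularFunctionFieldFull M)).algebraMap_mem _) a.2
  obtain ⟨a₀, ha₀⟩ := exists_bc_eq_of_coeff_mem K Kb (modularFunctionFieldFull M)
    ⟨_, hmem⟩ (fun k => ⟨z.coeff k, rfl⟩)
  have ha₀z : (a₀ : LaurentSeries K) = z := by
    apply S28lib.coeffMap_injective (algebraMap K Kb).injective
    exact congrArg Subtype.val ha₀
  refine ⟨(y : LaurentSeries K).leadingCoeff, a₀, Subtype.ext ?_⟩
  show (y : LaurentSeries K) = algebraMap K (LaurentSeries K) _ * (a₀ : LaurentSeries K) ^ m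
  rw [ha₀z]
  exact hz1

end Fermat.Agent.CARlib
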