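import Fermat.Agent.CAR.DTop
import Fermat.Agent.CAR.DPow
import Fermat.Agent.CAR.D1Res
import Fermat.Agent.S37.AsmGal

/-!
# T-CAR, block D: instantiation of `CarK` at `R = A ∩ inF A`, `K = inF A`
-/

set_option autoImplicit false
set_option linter.unusedSectionVars false
set_option linter.style.haveILetI false

open ModularCurve AlgebraicCurve
open scoped Pointwise

namespace Fermat.Agent.CARlib

open Fermat.Agent.ESlib Fermat.Agent.UNIlib
open Fermat.Agent.S24lib (Kb)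

variable (A : ValuationSubring Kb)

/-- the decomposition group normalises the inertia group -/
theorem d_conj_mem_inertia {τ g : Kb ≃ₐ[ℚ] Kb} (hτ : τ ∈ A.decompositionSubgroup ℚ)
    (hg : g ∈ A.inertiaSubgroupIn ℚ) : τ⁻¹ * g * τ ∈ A.inertiaSubgroupIn ℚ := by
  obtain ⟨g', hg', rfl⟩ := Subgroup.mem_map.mp hg
  refine Subgroup.mem_map.mpr ⟨(⟨τ, hτ⟩ : A.decompositionSubgroup ℚ)⁻¹ * g' * ⟨τ, hτ⟩, ?_, rfl⟩
  have hn : (A.inertiaSubgroup ℚ).Normal := by
    unfold ValuationSubring.inertiaSubgroup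
    infer_instance
  have := hn.conj_mem g' hg' (⟨τ, hτ⟩ : A.decompositionSubgroup ℚ)⁻¹
  rwa [inv_inv] at this

theorem d_map_mem_inF {τ : Kb ≃ₐ[ℚ] Kb} (hτ : τ ∈ A.decompositionSubgroup ℚ) {a : Kb}
    (ha : a ∈ inF A) : τ a ∈ inF A := by
  rw [mem_inF_iff] at ha ⊢
  intro g hg
  have h1 := ha _ (d_conj_mem_inertia A hτ hg)
  have h2 : τ ((τ⁻¹ * g * τ) a) = g (τ a) := by
    change τ (τ⁻¹ (g (τ a))) = g (τ a)
    exact τ.apply_symm_apply _
  rw [← h2, h1]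

/-- the restriction of an element of the decomposition group to `inF A` -/
noncomputable def dRes {τ : Kb ≃ₐ[ℚ] Kb} (hτ : τ ∈ A.decompositionSubgroup ℚ) :
    inF A ≃ₐ[ℚ] inF A :=
  AlgEquiv.ofAlgHom
    ((τ.toAlgHom.comp (inF A).val).codRestrict (inF A).toSubalgebra
      (fun a => d_map_mem_inF A hτ a.2))
    (((τ⁻¹ : Kb ≃ₐ[ℚ] Kb).toAlgHom.comp (inF A).val).codRestrict (inF A).toSubalgebra
      (fun a => d_map_mem_inF A (inv_mem hτ) a.2))
    (by
      ext a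
      exact τ.apply_symm_apply _)
    (by
      ext a
      exact τ.symm_apply_apply _)

theorem coe_dRes {τ : Kb ≃ₐ[ℚ] Kb} (hτ : τ ∈ A.decompositionSubgroup ℚ) (a : inF A) :
    ((dRes A hτ a : inF A) : Kb) = τ (a : Kb) := rfl

theorem dRes_mem_RA {τ : Kb ≃ₐ[ℚ] Kb} (hτ : τ ∈ A.decompositionSubgroup ℚ) {a : inF A}
    (ha : a ∈ RA A (inF A)) : dRes A hτ a ∈ RA A (inF A) := by
  show τ (a : Kb) ∈ A
  have h1 : τ • A = A := hτ
  have h2 : τ • (a : Kb) ∈ τ • A := ValuationSubring.smul_mem_pointwise_smul τ _ A ha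
  rw [h1] at h2
  exact h2

/-- the action of the decomposition group on `A ∩ inF A` -/
noncomputable def dResR {τ : Kb ≃ₐ[ℚ] Kb} (hτ : τ ∈ A.decompositionSubgroup ℚ) :
    RA A (inF A) →+* RA A (inF A) :=
  (((dRes A hτ : inF A ≃ₐ[ℚ] inF A) : inF A →+* inF A).comp (RA A (inF A)).subtype).codRestrict
    (RA A (inF A)).toSubring (fun a => dRes_mem_RA A hτ a.2)

theorem RAincl_dResR {τ : Kb ≃ₐ[ℚ] Kb} (hτ : τ ∈ A.decompositionSubgroup ℚ)
    (a : RA A (inF A)) :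
    RAincl A (inF A) (dResR A hτ a) = (⟨τ, hτ⟩ : A.decompositionSubgroup ℚ) • RAincl A (inF A) a :=
  rfl

/-- the semilinear "inverse Frobenius" of `CarK` -/
theorem d_exists_invFrob {r : ℕ} (hr : r.Prime) (hA : A.LiesOverPrime r)
    [IsDiscreteValuationRing (RA A (inF A))] (hirr : Irreducible ((r : ℕ) : RA A (inF A))) :
    ∃ (s : inF A ≃ₐ[ℚ] inF A) (sR : RA A (inF A) →+* RA A (inF A)),
      (∀ c, s (algebraMap (RA A (inF A)) (inF A) c) = algebraMap (RA A (inF A)) (inF A) (sR c)) ∧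
      ∀ c, ((r : ℕ) : RA A (inF A)) ∣ sR c ^ r - c := by
  obtain ⟨φ, hφ⟩ := Fermat.Agent.FrobExists.exists_isFrobeniusAt A hr hA
  have hD := hφ.mem_decompositionSubgroup
  refine ⟨dRes A (inv_mem hD), dResR A (inv_mem hD), fun c => rfl, fun c => ?_⟩
  rw [← Ideal.mem_span_singleton, ← (IsDiscreteValuationRing.irreducible_iff_uniformizer _).1 hirr,
    IsLocalRing.mem_maximalIdeal, mem_nonunits_iff]
  intro hu
  have h1 := hu.map (RAincl A (inF A))
  have h2 : IsLocalRing.residue A (RAincl A (inF A) (dResR A (inv_mem hD) c ^ r - c)) = 0 := by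
    rw [map_sub, map_sub, map_pow, map_pow, ← hφ.smul_residue_eq,
      ← IsLocalRing.ResidueField.residue_smul, RAincl_dResR, smul_smul]
    have : (⟨φ, hD⟩ : A.decompositionSubgroup ℚ) * ⟨φ⁻¹, inv_mem hD⟩ = 1 :=
      Subtype.ext (mul_inv_cancel φ)
    rw [this, one_smul, sub_self]
  exact ((IsLocalRing.residue_eq_zero_iff _).1 h2) h1

/-- `CarK` at `R = A ∩ inF A` -/
theorem carKAt_inF (H : CarK) {N r m : ℕ} [NeZero (N * r)] [NeZero r] (hr : r.Prime)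
    (hrN : ¬ r ∣ N) (h49 : 4 ∣ N ∨ 9 ∣ N) (hm : 0 < m) (hrm : ¬ r ∣ m) (hA : A.LiesOverPrime r)
    [IsDiscreteValuationRing (RA A (inF A))] (hirr : Irreducible ((r : ℕ) : RA A (inF A))) :
    CarKAt N r m (inF A) (carExp r) := by
  have hN0 : N ≠ 0 := fun h => NeZero.ne (N * r) (by rw [h, zero_mul])
  haveI : NeZero N := ⟨hN0⟩
  haveI := d1_charP A (inF A) hr hA
  haveI := d1_isAlgClosed A hr hA
  haveI : NeZero (m : Kb) := ⟨Nat.cast_ne_zero.2 hm.ne'⟩
  haveI : NeZero (N : Kb) := ⟨Nat.cast_ne_zero.2 hN0⟩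
  obtain ⟨zm, hzm⟩ := HasEnoughRootsOfUnity.exists_primitiveRoot Kb m
  obtain ⟨zN, hzN⟩ := HasEnoughRootsOfUnity.exists_primitiveRoot Kb N
  have hzmK : zm ∈ inF A := d1_root_mem A hr hA hm hrm hzm.pow_eq_one
  have hzNK : zN ∈ inF A := d1_root_mem A hr hA (Nat.pos_of_ne_zero hN0) hrN hzN.pow_eq_one
  exact H (RA A (inF A)) (inF A) N r m hr hrN h49 hm hrm hirr
    (isUnit_natCast_RA A hr hA (inF A) N hrN) (isUnit_natCast_RA A hr hA (inF A) m hrm)
    (d1_exists_pow_eq A hr hA hm hrm)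
    (exists_primitiveRoot_RA A (inF A) hm zm hzm hzmK)
    ⟨⟨zN, hzNK⟩, IsPrimitiveRoot.of_map_of_injective (f := algebraMap (inF A) Kb)
      (hf := (algebraMap (inF A) Kb).injective) hzN⟩
    (d_exists_invFrob A hr hA hirr)

/-- `CarHaupt` restricted to the levels with `4 ∣ N ∨ 9 ∣ N` -/
def CarHaupt4 : Prop :=
  ∀ (N r p : ℕ) [NeZero (N * r)] [NeZero r], r.Prime → ¬ r ∣ N → (4 ∣ N ∨ 9 ∣ N) → p.Prime →
    r ≠ p → ∀ A : ValuationSubring Kb, A.LiesOverPrime r →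
    ∀ n : ℕ, CarHauptAt N r (p ^ n) A (carExp r)

/-- block D, with the two pending inputs (`D1` = DVR with uniformiser `r`, `D5` = `NormBC`) as
hypotheses -/
theorem carHaupt4_of_carK_aux (H : CarK)
    (hD1 : ∀ (r : ℕ) (A : ValuationSubring Kb), r.Prime → A.LiesOverPrime r →
      IsDiscreteValuationRing (RA A (inF A)) ∧ Irreducible ((r : ℕ) : RA A (inF A)))
    (hD5 : ∀ (K : IntermediateField ℚ Kb) (M r : ℕ) [NeZero M] [NeZero r], r.Prime →
      NormBC K M r) : CarHaupt4 := by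
  intro N r p _ _ hr hrN h49 hp hrp A hA n
  obtain ⟨h1, h2⟩ := hD1 r A hr hA
  have hm : 0 < p ^ n := pow_pos hp.pos n
  have hrm : ¬ r ∣ p ^ n := fun h => hrp ((Nat.prime_dvd_prime_iff_eq hr hp).1 (hr.dvd_of_dvd_pow h))
  exact carHauptAt_of_carKAt hm A (hD5 _ _ _ hr)
    (fun y a h => d_pow_descent (inF A) hm y a h)
    (carKAt_inF A H hr hrN h49 hm hrm hA h2)

end Fermat.Agent.CARlib
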