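import Mathlib

/-!
# T-CAR, row D5 (abstract part): the norm commutes with a base change which maps a basis to a basis
-/

set_option autoImplicit false
set_option linter.unusedSectionVars false

namespace Fermat.Agent.CARlib

open Module

/-- If `j : E → E'` is semilinear over `i : F → F'` and maps a basis `b` of `E / F` to a basis of
`E' / F'`, then the norm commutes with `i`, `j`. -/
theorem dn_norm_map {F E F' E' : Type*} [Field F] [Field E] [Field F'] [Field E'] [Algebra F E]
    [Algebra F' E'] (i : F →+* F') (j : E →+* E')
    (hij : ∀ x, j (algebraMap F E x) = algebraMap F' E' (i x)) {ι : Type*} [Fintype ι]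
    [DecidableEq ι] (b : Basis ι F E) (hli : LinearIndependent F' (j ∘ b))
    (hsp : ⊤ ≤ Submodule.span F' (Set.range (j ∘ b))) (x : E) :
    Algebra.norm F' (j x) = i (Algebra.norm F x) := by
  set b' : Basis ι F' E' := Basis.mk hli hsp with hb'
  have hb'i : ∀ k, b' k = j (b k) := fun k => by rw [hb', Basis.mk_apply]; rfl
  have hrepr : ∀ (y : E) (l : ι), b'.repr (j y) l = i (b.repr y l) := by
    intro y l
    have h1 : j y = ∑ k, i (b.repr y k) • b' k := by
      conv_lhs => rw [← b.sum_repr y]
      rw [map_sum]
      refine Finset.sum_congr rfl fun k _ => ?_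
      rw [Algebra.smul_def, map_mul, hij, hb'i, Algebra.smul_def]
    rw [h1, b'.repr_sum_self]
  rw [Algebra.norm_eq_matrix_det b', Algebra.norm_eq_matrix_det b, RingHom.map_det]
  congr 1
  ext k l
  rw [RingHom.mapMatrix_apply, Matrix.map_apply, Algebra.leftMulMatrix_eq_repr_mul,
    Algebra.leftMulMatrix_eq_repr_mul, hb'i, ← map_mul, hrepr]

end Fermat.Agent.CARlib
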