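import Fermat.Agent.CAR.DNormAbs
import Fermat.Agent.ES.B.Rational
import Fermat.Prelude.Def_AlgebraicCurve_Correspondence

/-!
# T-CAR, row D5 (general part): the norm commutes with the base change `bc`

`L ⊆ L'` arbitrary fields of characteristic zero, `φ : F_L(F₀) → F_L(F₁)`,
`φ' : F_{L'}(F₀) → F_{L'}(F₁)` compatible with `bc`, `φ` finite.  Then the image under `bc` of a
basis is a basis, hence the norm commutes with `bc`.
-/

set_option autoImplicit false
set_option linter.unusedSectionVars false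
set_option linter.style.haveILetI false

open AlgebraicCurve ModularCurve Module

namespace Fermat.Agent.CARlib

open Fermat.Agent.ESlib

variable (L L' : Type*) [Field L] [Field L'] [Algebra ℚ L] [Algebra ℚ L'] [Algebra L L']
  [IsScalarTower ℚ L L']
variable (F₀ F₁ : IntermediateField ℚ (LaurentSeries ℚ))

theorem dn_lamMap_sum {ι : Type*} (s : Finset ι) (lam : L' →ₗ[L] L) (x : ι → LaurentSeries L') :
    lamMap lam (∑ i ∈ s, x i) = ∑ i ∈ s, lamMap lam (x i) := by
  classical
  induction s using Finset.induction_on with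
  | empty => simp [lamMap_zero]
  | insert a s ha ih => rw [Finset.sum_insert ha, Finset.sum_insert ha, lamMap_add, ih]

/-- the `L'`-algebra generated by the image of `bc` -/
noncomputable def dnA : Subalgebra L' (laurentBaseChange L' F₀) :=
  Algebra.adjoin L' (Set.range (bc L L' F₀))

theorem dn_toSubmodule :
    Subalgebra.toSubmodule (dnA L L' F₀) = Submodule.span L' (Set.range (bc L L' F₀)) := by
  have himg : Set.range (bc L L' F₀)
      = ((MonoidHom.mrange ((bc L L' F₀ : laurentBaseChange L F₀ →+* laurentBaseChange L' F₀) :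
            laurentBaseChange L F₀ →* laurentBaseChange L' F₀) :
          Submonoid (laurentBaseChange L' F₀)) : Set (laurentBaseChange L' F₀)) := rfl
  rw [dnA, Algebra.adjoin_eq_span, himg, Submonoid.closure_eq]

/-- every element of `F_{L'}` is a quotient of two elements of `dnA` -/
theorem dn_exists_den (c : laurentBaseChange L' F₀) :
    ∃ Q ∈ dnA L L' F₀, Q ≠ 0 ∧ c * Q ∈ dnA L L' F₀ := by
  obtain ⟨c, hc⟩ := c
  obtain ⟨P, hP, Q, hQ, hPQ⟩ := IntermediateField.mem_adjoin_iff_div.mp hc
  have hle : Algebra.adjoin L' (⇑(coeffEmb L') '' (F₀ : Set (LaurentSeries ℚ)))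
      ≤ (dnA L L' F₀).map (laurentBaseChange L' F₀).val := by
    rw [dnA, AlgHom.map_adjoin]
    apply Algebra.adjoin_mono
    rintro _ ⟨z, hz, rfl⟩
    refine ⟨bc L L' F₀ ⟨coeffEmb L z, coeffEmb_mem_laurentBaseChange L hz⟩, ⟨_, rfl⟩, ?_⟩
    exact coeffMap_coeffEmb_algebraMap L L' z
  obtain ⟨P', hP', rfl⟩ := hle hP
  obtain ⟨Q', hQ', rfl⟩ := hle hQ
  by_cases hQ0 : Q' = 0
  · refine ⟨1, one_mem _, one_ne_zero, ?_⟩
    have : (⟨c, hc⟩ : laurentBaseChange L' F₀) = 0 := by
      apply Subtype.ext
      show c = 0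
      rw [hPQ, hQ0]
      simp
    rw [this, zero_mul]
    exact zero_mem _
  · refine ⟨Q', hQ', hQ0, ?_⟩
    have : (⟨c, hc⟩ : laurentBaseChange L' F₀) * Q' = P' := by
      apply Subtype.ext
      have h0 : (laurentBaseChange L' F₀).val Q' ≠ 0 := by
        intro h
        exact hQ0 (Subtype.ext h)
      show c * (laurentBaseChange L' F₀).val Q' = (laurentBaseChange L' F₀).val P'
      rw [hPQ]
      exact div_mul_cancel₀ _ h0
    rw [this]
    exact hP'

variable {F₀ F₁}
variable (φ : laurentBaseChange L F₀ →ₐ[L] laurentBaseChange L F₁)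
  (φ' : laurentBaseChange L' F₀ →ₐ[L'] laurentBaseChange L' F₁)
  (hcomm : ∀ x, bc L L' F₁ (φ x) = φ' (bc L L' F₀ x))

include hcomm in
/-- the key property of `dnA` -/
theorem dn_key {P : laurentBaseChange L' F₀} (hP : P ∈ dnA L L' F₀) (lam : L' →ₗ[L] L) :
    ∃ y : laurentBaseChange L F₀, (y : LaurentSeries L) = lamMap lam (P : LaurentSeries L') ∧
      ∀ w : laurentBaseChange L F₁,
        lamMap lam ((bc L L' F₁ w : LaurentSeries L') * (φ' P : LaurentSeries L'))
          = (w : LaurentSeries L) * (φ y : LaurentSeries L) := by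
  rw [← Subalgebra.mem_toSubmodule, dn_toSubmodule] at hP
  have hadd : ∀ a b, φ (a + b) = φ a + φ b := fun a b => φ.toRingHom.map_add a b
  have hadd' : ∀ a b, φ' (a + b) = φ' a + φ' b := fun a b => φ'.toRingHom.map_add a b
  have hmul : ∀ a b, φ (a * b) = φ a * φ b := fun a b => φ.toRingHom.map_mul a b
  have hmul' : ∀ a b, φ' (a * b) = φ' a * φ' b := fun a b => φ'.toRingHom.map_mul a b
  have hz : φ 0 = 0 := φ.toRingHom.map_zero
  have hz' : φ' 0 = 0 := φ'.toRingHom.map_zero
  induction hP using Submodule.span_induction generalizing lam with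
  | mem x hx =>
    obtain ⟨u, rfl⟩ := hx
    refine ⟨algebraMap L _ (lam 1) * u, ?_, fun w => ?_⟩
    · rw [coe_bc, lamMap_coeffMap]
      rfl
    · rw [← hcomm, coe_bc, coe_bc, ← map_mul, lamMap_coeffMap, hmul, AlgHom.commutes]
      show _ = (w : LaurentSeries L) * (algebraMap L (LaurentSeries L) (lam 1) * _)
      ring
  | zero =>
    refine ⟨0, ?_, fun w => ?_⟩
    · show (0 : LaurentSeries L) = lamMap lam 0
      rw [lamMap_zero]
    · rw [hz, hz']
      show lamMap lam (_ * 0) = _ * 0
      rw [mul_zero, mul_zero, lamMap_zero]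
  | add x y _ _ hx hy =>
    obtain ⟨y₁, h₁, h₁'⟩ := hx lam
    obtain ⟨y₂, h₂, h₂'⟩ := hy lam
    refine ⟨y₁ + y₂, ?_, fun w => ?_⟩
    · show (y₁ : LaurentSeries L) + y₂ = lamMap lam ((x : LaurentSeries L') + y)
      rw [lamMap_add, h₁, h₂]
    · rw [hadd, hadd']
      show lamMap lam (_ * ((φ' x : LaurentSeries L') + (φ' y : LaurentSeries L')))
        = _ * ((φ y₁ : LaurentSeries L) + (φ y₂ : LaurentSeries L))
      rw [mul_add, lamMap_add, h₁', h₂', mul_add]
  | smul a x _ hx =>
    obtain ⟨y₁, h₁, h₁'⟩ := hx (lam.comp (LinearMap.mulLeft L a))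
    refine ⟨y₁, ?_, fun w => ?_⟩
    · rw [h₁, Algebra.smul_def]
      show _ = lamMap lam (algebraMap L' (LaurentSeries L') a * (x : LaurentSeries L'))
      rw [lamMap_smul]
    · rw [← h₁' w, Algebra.smul_def, hmul', AlgHom.commutes]
      show lamMap lam (_ * (algebraMap L' (LaurentSeries L') a * (φ' x : LaurentSeries L'))) = _
      rw [mul_left_comm, lamMap_smul]

theorem dn_eq_zero_of_lamMap {x : LaurentSeries L'}
    (h : ∀ lam : L' →ₗ[L] L, lamMap lam x = 0) : x = 0 := by
  ext k
  rw [HahnSeries.coeff_zero]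
  refine (Module.forall_dual_apply_eq_zero_iff L (x.coeff k)).mp fun lam => ?_
  have := congrArg (fun z => HahnSeries.coeff z k) (h lam)
  simpa using this

include hcomm in
/-- **independence** -/
theorem dn_linearIndependent {ι : Type*} [Fintype ι]
    (b : ι → laurentBaseChange L F₁)
    (hb : ∀ y : ι → laurentBaseChange L F₀, ∑ i, φ (y i) * b i = 0 → ∀ i, y i = 0)
    (c : ι → laurentBaseChange L' F₀) (hc : ∑ i, φ' (c i) * bc L L' F₁ (b i) = 0) (i : ι) :
    c i = 0 := by
  classical
  choose Q hQ hQ0 hcQ using dn_exists_den L L' F₀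
  set D : laurentBaseChange L' F₀ := ∏ k, Q (c k) with hD
  have hD0 : D ≠ 0 := Finset.prod_ne_zero_iff.2 fun k _ => hQ0 _
  have hmul' : ∀ a b, φ' (a * b) = φ' a * φ' b := fun a b => φ'.toRingHom.map_mul a b
  have hP : ∀ k, c k * D ∈ dnA L L' F₀ := by
    intro k
    rw [hD, ← Finset.mul_prod_erase Finset.univ (fun k => Q (c k)) (Finset.mem_univ k),
      ← mul_assoc]
    exact mul_mem (hcQ _) (Subalgebra.prod_mem _ fun l _ => hQ _)
  have hsum : ∑ k, (bc L L' F₁ (b k) : LaurentSeries L') * (φ' (c k * D) : LaurentSeries L') = 0 := by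
    have h1 : ∑ k, bc L L' F₁ (b k) * φ' (c k * D) = 0 := by
      have : ∀ k, bc L L' F₁ (b k) * φ' (c k * D) = φ' D * (φ' (c k) * bc L L' F₁ (b k)) := by
        intro k
        rw [hmul']
        ring
      rw [Finset.sum_congr rfl fun k _ => this k, ← Finset.mul_sum, hc, mul_zero]
    have h2 := congrArg (laurentBaseChange L' F₁).val h1
    rw [map_sum, map_zero] at h2
    exact h2
  have hzero : ∀ k, c k * D = 0 := by
    intro k
    apply Subtype.ext
    refine dn_eq_zero_of_lamMap L L' fun lam => ?_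
    choose y hy hy' using fun k => dn_key L L' φ φ' hcomm (hP k) lam
    have h3 := congrArg (lamMap lam) hsum
    rw [dn_lamMap_sum, lamMap_zero, Finset.sum_congr rfl fun k _ => hy' k (b k)] at h3
    have h4 : ∑ k, φ (y k) * b k = 0 := by
      apply Subtype.ext
      have h5 : ((∑ k, φ (y k) * b k : laurentBaseChange L F₁) : LaurentSeries L)
          = ∑ k, (laurentBaseChange L F₁).val (φ (y k) * b k) :=
        map_sum (laurentBaseChange L F₁).val _ _
      rw [h5]
      refine Eq.trans ?_ h3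
      refine Finset.sum_congr rfl fun k _ => ?_
      exact mul_comm _ _
    rw [← hy k, hb y h4 k]
    rfl
  exact (mul_eq_zero.1 (hzero i)).resolve_right hD0

set_option maxHeartbeats 1000000 in
include hcomm in
/-- **span** -/
theorem dn_span {ι : Type*} [Fintype ι] (b : ι → laurentBaseChange L F₁)
    (hb : ∀ x : laurentBaseChange L F₁, ∃ y : ι → laurentBaseChange L F₀, x = ∑ i, φ (y i) * b i) :
    letI := algebraAlong φ'
    ⊤ ≤ Submodule.span (laurentBaseChange L' F₀) (Set.range (bc L L' F₁ ∘ b)) := by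
  classical
  letI := algebraAlong φ'
  set S : Subalgebra (laurentBaseChange L' F₀) (laurentBaseChange L' F₁) :=
    Algebra.adjoin (laurentBaseChange L' F₀) (Set.range (bc L L' F₁)) with hS
  have hSsub : Subalgebra.toSubmodule S
      = Submodule.span (laurentBaseChange L' F₀) (Set.range (bc L L' F₁ ∘ b)) := by
    have himg : Set.range (bc L L' F₁)
        = ((MonoidHom.mrange ((bc L L' F₁ : laurentBaseChange L F₁ →+* laurentBaseChange L' F₁) :
              laurentBaseChange L F₁ →* laurentBaseChange L' F₁) :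
            Submonoid (laurentBaseChange L' F₁)) : Set (laurentBaseChange L' F₁)) := rfl
    rw [hS, Algebra.adjoin_eq_span, himg, Submonoid.closure_eq, ← himg]
    apply le_antisymm
    · rw [Submodule.span_le]
      rintro _ ⟨x, rfl⟩
      obtain ⟨y, rfl⟩ := hb x
      rw [map_sum]
      refine Submodule.sum_mem _ fun i _ => ?_
      rw [map_mul, hcomm]
      exact Submodule.smul_mem _ (bc L L' F₀ (y i)) (Submodule.subset_span ⟨i, rfl⟩)
    · apply Submodule.span_mono
      rintro _ ⟨i, rfl⟩
      exact ⟨b i, rfl⟩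
  have hfg : (Subalgebra.toSubmodule S).FG := by
    rw [hSsub]
    exact Submodule.fg_span (Set.finite_range _)
  have hinv : ∀ x ∈ S, x⁻¹ ∈ S := by
    intro x hx
    have hint : IsIntegral (laurentBaseChange L' F₀) x := IsIntegral.of_mem_of_fg S hfg x hx
    exact Subalgebra.inv_mem_of_algebraic S (x := ⟨x, hx⟩) hint.isAlgebraic
  have hall : ∀ x : LaurentSeries L', x ∈ laurentBaseChange L' F₁ →
      ∃ y : laurentBaseChange L' F₁, y ∈ S ∧ (y : LaurentSeries L') = x := by
    intro x hx
    rw [mem_laurentBaseChange_iff] at hx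
    induction hx using Subfield.closure_induction with
    | mem y hy =>
      rcases hy with ⟨a, rfl⟩ | ⟨z, hz, rfl⟩
      · refine ⟨algebraMap (laurentBaseChange L' F₀) (laurentBaseChange L' F₁)
              (algebraMap L' (laurentBaseChange L' F₀) a), S.algebraMap_mem _, ?_⟩
        exact congrArg Subtype.val (φ'.commutes a)
      · refine ⟨bc L L' F₁ ⟨coeffEmb L z, coeffEmb_mem_laurentBaseChange L hz⟩,
          Algebra.subset_adjoin ⟨_, rfl⟩, ?_⟩
        exact coeffMap_coeffEmb_algebraMap L L' z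
    | one => exact ⟨1, S.one_mem, rfl⟩
    | add x y _ _ hx hy =>
      obtain ⟨y₁, h₁, rfl⟩ := hx
      obtain ⟨y₂, h₂, rfl⟩ := hy
      exact ⟨y₁ + y₂, S.add_mem h₁ h₂, IntermediateField.coe_add _ _ _⟩
    | neg x _ hx =>
      obtain ⟨y₁, h₁, rfl⟩ := hx
      exact ⟨-y₁, S.neg_mem h₁, IntermediateField.coe_neg _ _⟩
    | inv x _ hx =>
      obtain ⟨y₁, h₁, rfl⟩ := hx
      exact ⟨y₁⁻¹, hinv _ h₁, IntermediateField.coe_inv _ _⟩
    | mul x y _ _ hx hy =>
      obtain ⟨y₁, h₁, rfl⟩ := hx
      obtain ⟨y₂, h₂, rfl⟩ := hy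
      exact ⟨y₁ * y₂, S.mul_mem h₁ h₂, IntermediateField.coe_mul _ _ _⟩
  rw [← hSsub]
  intro x _
  obtain ⟨y, hy, hyx⟩ := hall x.1 x.2
  have : y = x := Subtype.ext hyx
  rw [← this]
  exact hy

set_option synthInstance.maxHeartbeats 400000 in
set_option maxHeartbeats 1000000 in
include hcomm in
/-- **the norm commutes with the base change** -/
theorem dn_norm_bc (hfin : FiniteAlong L φ) (g : laurentBaseChange L F₁) :
    bc L L' F₀ ((letI := algebraAlong φ; Algebra.norm (laurentBaseChange L F₀)) g)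
      = (letI := algebraAlong φ'; Algebra.norm (laurentBaseChange L' F₀)) (bc L L' F₁ g) := by
  classical
  letI a1 := algebraAlong φ
  letI a2 := algebraAlong φ'
  haveI : Module.Finite (laurentBaseChange L F₀) (laurentBaseChange L F₁) := hfin
  set b := Module.finBasis (laurentBaseChange L F₀) (laurentBaseChange L F₁) with hb
  have hli : LinearIndependent (laurentBaseChange L' F₀) (bc L L' F₁ ∘ b) := by
    rw [Fintype.linearIndependent_iff]
    intro c hc i
    refine dn_linearIndependent L L' φ φ' hcomm b ?_ c hc i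
    intro y hy
    exact Fintype.linearIndependent_iff.1 b.linearIndependent y hy
  have hsp : ⊤ ≤ Submodule.span (laurentBaseChange L' F₀) (Set.range (bc L L' F₁ ∘ b)) := by
    refine dn_span L L' φ φ' hcomm b fun x => ⟨fun i => b.repr x i, ?_⟩
    exact (b.sum_repr x).symm
  exact (dn_norm_map (bc L L' F₀) (bc L L' F₁) (fun x => hcomm x) b hli hsp g).symm

end Fermat.Agent.CARlib
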