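import Fermat.Agent.UNI.S35Top

/-!
# T-CAR, block E, row E1: Kolchin in rank two and the statement of S36 from `CarAll`

`CarAll`: for every newform `g` of level `M`, every prime `q ≠ p` with `q ^ 2 ∥ M` and every place
`A` above `q`, the inertia group at `A` has no nonzero fixed vector in the `g`-eigenspace of the
Tate module.
-/

set_option autoImplicit false
set_option linter.unusedSectionVars false

open CongruenceSubgroup ModularFormClass CuspForm Polynomial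
open scoped TensorProduct

namespace Fermat.Agent.CARlib

open Fermat.Agent.UNIlib Fermat.Agent.ESlib Fermat.Agent.ESlib.PartD IsLocalRing

local notation "GalQ" => (AlgebraicClosure ℚ ≃ₐ[ℚ] AlgebraicClosure ℚ)

/-! ### Kolchin in rank two -/

/-- **Kolchin, rank two**: if `u`, `g` and `g * u` have trace `2` and `u`, `g` have determinant `1`,
then `(g - 1) (u - 1) = 0` (over a reduced ring). -/
theorem e1_kolchin_mat {O : Type*} [CommRing O] [IsReduced O] (u g : Matrix (Fin 2) (Fin 2) O)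
    (hu : u.trace = 2) (hud : u.det = 1) (hg : g.trace = 2) (hgd : g.det = 1)
    (hgu : (g * u).trace = 2) : (g - 1) * (u - 1) = 0 := by
  obtain ⟨a, b, c, d, rfl⟩ : ∃ a b c d, u = !![a, b; c, d] := ⟨_, _, _, _, Matrix.eta_fin_two u⟩
  obtain ⟨x, y, z, t, rfl⟩ : ∃ a b c d, g = !![a, b; c, d] := ⟨_, _, _, _, Matrix.eta_fin_two g⟩
  simp only [Matrix.trace_fin_two, Matrix.det_fin_two, Matrix.mul_apply, Fin.sum_univ_two,
    Matrix.of_apply, Matrix.cons_val', Matrix.cons_val_zero, Matrix.cons_val_one,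
    Matrix.cons_val_fin_one] at hu hud hg hgd hgu
  obtain rfl : d = 2 - a := by linear_combination hu
  obtain rfl : t = 2 - x := by linear_combination hg
  have H1 : (a - 1) ^ 2 + b * c = 0 := by linear_combination (-1 : O) * hud
  have H2 : (x - 1) ^ 2 + y * z = 0 := by linear_combination (-1 : O) * hgd
  have R : 2 * (x - 1) * (a - 1) + y * c + z * b = 0 := by linear_combination hgu
  have key : ∀ e : O, e ^ 2 = 0 → e = 0 := fun e he => pow_eq_zero_iff (two_ne_zero) |>.1 he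
  ext i j
  fin_cases i <;> fin_cases j <;>
    simp only [Matrix.mul_apply, Fin.sum_univ_two, Matrix.sub_apply, Matrix.one_apply,
      Matrix.of_apply, Matrix.cons_val', Matrix.cons_val_zero, Matrix.cons_val_one,
      Matrix.cons_val_fin_one, Matrix.zero_apply, Fin.zero_eta, Fin.mk_one, Fin.isValue,
      if_true, one_ne_zero, zero_ne_one, if_false, sub_zero] <;> apply key
  · linear_combination y * c * R + (x - 1) ^ 2 * H1 - b * c * H2
  · linear_combination b ^ 2 * H2 + y ^ 2 * H1 - y * b * R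
  · linear_combination z ^ 2 * H1 + c ^ 2 * H2 - z * c * R
  · linear_combination z * b * R + (x - 1) ^ 2 * H1 - b * c * H2

/-- comparison of coefficients -/
theorem e1_coeffs {O : Type*} [CommRing O] {t d : O}
    (h : (X ^ 2 - C t * X + C d : O[X]) = (X - 1) ^ 2) : t = 2 ∧ d = 1 := by
  have h0 := congrArg (fun f => Polynomial.coeff f 0) h
  have h1 := congrArg (fun f => Polynomial.coeff f 1) h
  have e : ((X - 1) ^ 2 : O[X]) = X ^ 2 - C 2 * X + C 1 := by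
    simp only [map_ofNat, map_one]; ring
  rw [e] at h0 h1
  simp only [coeff_add, coeff_sub, coeff_X_pow, coeff_C_mul, coeff_X_zero, coeff_X_one, coeff_C_zero,
    mul_zero, mul_one, sub_zero, coeff_C_succ, add_zero] at h0 h1
  norm_num at h0 h1
  exact ⟨h1, h0⟩

section rep

variable {O : Type} [CommRing O] [IsDomain O] [IsLocalRing O] (ρ : GaloisRepAdic O)

/-- a subgroup acting with characteristic polynomials `(X - 1) ^ 2` has a nonzero fixed vector -/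
theorem e1_exists_fixed (H : Subgroup GalQ)
    (h : ∀ σ ∈ H, LinearMap.charpoly (ρ.ρ σ) = (X - 1) ^ 2) :
    ∃ v : ρ.V, v ≠ 0 ∧ ∀ σ ∈ H, ρ.ρ σ v = v := by
  have htd : ∀ σ ∈ H, (mat ρ σ).trace = 2 ∧ (mat ρ σ).det = 1 := fun σ hσ =>
    e1_coeffs ((charpoly_eq_mat ρ σ).symm.trans (h σ hσ))
  by_cases hall : ∀ σ ∈ H, ρ.ρ σ = 1
  · exact ⟨rbasis ρ 0, (rbasis ρ).ne_zero 0, fun σ hσ => by rw [hall σ hσ]; rfl⟩
  · push Not at hall
    obtain ⟨τ, hτ, hne⟩ := hall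
    obtain ⟨e, he⟩ : ∃ e : ρ.V, ρ.ρ τ e - e ≠ 0 := by
      by_contra hcon
      push Not at hcon
      exact hne (LinearMap.ext fun e => sub_eq_zero.1 (hcon e))
    refine ⟨ρ.ρ τ e - e, he, fun σ hσ => ?_⟩
    have hk := e1_kolchin_mat (mat ρ τ) (mat ρ σ) (htd τ hτ).1 (htd τ hτ).2 (htd σ hσ).1
      (htd σ hσ).2 (by rw [← mat_mul]; exact (htd _ (H.mul_mem hσ hτ)).1)
    have h0 : LinearMap.toMatrix (rbasis ρ) (rbasis ρ) (1 : Module.End O ρ.V) = 1 :=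
      LinearMap.toMatrix_one _
    have hk' : (ρ.ρ σ - 1) * (ρ.ρ τ - 1) = 0 := by
      apply (LinearMap.toMatrix (rbasis ρ) (rbasis ρ)).injective
      rw [LinearMap.toMatrix_mul, map_sub, map_sub, h0, map_zero]
      exact hk
    have h2 := congrArg (fun f => f e) hk'
    simp only [Module.End.mul_apply, LinearMap.sub_apply, Module.End.one_apply,
      LinearMap.zero_apply] at h2
    exact sub_eq_zero.1 h2

end rep

/-! ### the two branches of Part D3b, with the inertia clause -/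

/-- `exists_rep_of_scalar` (ES/D/TwoDimA) with the inertia clause. -/
theorem e1_exists_rep_of_scalar (p : ℕ) [Fact p.Prime] (O : Type) [CommRing O] [IsDomain O]
    [IsLocalRing O] [IsAdicComplete (IsLocalRing.maximalIdeal O) O]
    (hp : (p : O) ∈ IsLocalRing.maximalIdeal O) (T : Finset ℕ) (hpT : p ∈ T) (a : ℕ → O)
    (ρ : GaloisRepAdic O) (hunr : ∀ ℓ : ℕ, ℓ.Prime → ℓ ∉ T → ρ.IsUnramifiedAt ℓ)
    (hfrob : ∀ ℓ : ℕ, ℓ.Prime → ℓ ∉ T → ∀ A : ValuationSubring (AlgebraicClosure ℚ),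
      A.LiesOverPrime ℓ → ∀ σ, A.IsFrobeniusAt σ ℓ →
        ρ.ρ σ * ρ.ρ σ - a ℓ • ρ.ρ σ + (ℓ : O) • 1 = 0)
    (hsc : ∀ σ, ∃ c : O, ρ.ρ σ = c • 1) :
    ∃ ρ' : GaloisRepAdic O, (∀ ℓ : ℕ, ℓ.Prime → ℓ ∉ T → ρ'.IsUnramifiedAt ℓ) ∧
      (∀ ℓ : ℕ, ℓ.Prime → ℓ ∉ T → ∀ A : ValuationSubring (AlgebraicClosure ℚ),
        A.LiesOverPrime ℓ → ∀ σ, A.IsFrobeniusAt σ ℓ →
          LinearMap.charpoly (ρ'.ρ σ) = X ^ 2 - C (a ℓ) * X + C ((ℓ : O))) ∧
      (∀ (q : ℕ), q.Prime → q ≠ p → ∀ A : ValuationSubring (AlgebraicClosure ℚ),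
        A.LiesOverPrime q → ∀ σ ∈ A.inertiaSubgroupIn ℚ,
          LinearMap.charpoly (ρ'.ρ σ) = (X - 1) ^ 2 → ρ.ρ σ = 1) := by
  classical
  let b : Module.Basis (Fin 2) O ρ.V := Module.finBasisOfFinrankEq O ρ.V ρ.finrank_eq
  let sc : Module.End O ρ.V → O := fun f => b.coord 0 (f (b 0))
  have hsc1 : ∀ c : O, sc (c • 1) = c := by
    intro c
    simp [sc]
  have hsc' : ∀ σ, ρ.ρ σ = sc (ρ.ρ σ) • 1 := by
    intro σ
    obtain ⟨c, hc⟩ := hsc σ
    rw [hc, hsc1]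
  let ψ₀ : GalQ →* O :=
    { toFun := fun σ => sc (ρ.ρ σ)
      map_one' := by
        have := hsc1 1
        rwa [one_smul, ← map_one ρ.ρ] at this
      map_mul' := fun σ τ => by
        have h1 : ρ.ρ (σ * τ) = (sc (ρ.ρ σ) * sc (ρ.ρ τ)) • 1 := by
          rw [map_mul]
          conv_lhs => rw [hsc' σ, hsc' τ]
          rw [smul_mul_smul_comm, one_mul]
        rw [h1, hsc1] }
  let ψ : GalQ →* Oˣ := ψ₀.toHomUnits
  have hψ : ∀ σ, ρ.ρ σ = ((ψ σ : Oˣ) : O) • 1 := hsc'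
  have hψc : CharCont ψ := by
    intro n
    obtain ⟨L, hL, h⟩ := ρ.isAdicContinuous n
    refine ⟨L, hL, fun σ hσ => ?_⟩
    have h1 := apply_mem_of_mem_smul_top _ (b.coord 0) (h σ hσ (b 0))
    have h2 : b.coord 0 (ρ.ρ σ (b 0) - b 0) = ((ψ σ : Oˣ) : O) - 1 := by
      rw [map_sub]
      congr 1
      simp
    rwa [h2] at h1
  obtain ⟨ι⟩ := exists_padicHom p O (maximalIdeal O) hp
  have hεc : CharCont (cycloO ι) := cycloO_sub_one_mem ι (maximalIdeal O) hp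
  have hne : ∀ ℓ : ℕ, ℓ ∉ T → ℓ ≠ p := fun ℓ hℓ h => hℓ (h ▸ hpT)
  have hψ1 : ∀ σ, ρ.ρ σ = 1 → ψ σ = 1 := by
    intro σ hσ
    apply Units.ext
    have h2 : ((ψ σ : Oˣ) : O) = sc (ρ.ρ σ) := rfl
    rw [h2, hσ, Units.val_one]
    have := hsc1 1
    rwa [one_smul] at this
  have key : ∀ x y : O, (X - C x) * (X - C y) = X ^ 2 - C (x + y) * X + C (x * y) := by
    intro x y
    simp only [map_add, map_mul]
    ring
  refine ⟨diagRep ψ (cycloO ι / ψ) hψc (hεc.div hψc), ?_, ?_, ?_⟩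
  · intro ℓ hℓ hℓT A hA σ hσ
    have h1 : ψ σ = 1 := hψ1 σ (hunr ℓ hℓ hℓT A hA σ hσ)
    refine diagRep_eq_one _ _ _ _ h1 ?_
    rw [MonoidHom.div_apply, h1, cycloO_inertia ι hℓ (hne ℓ hℓT) A hA σ hσ, div_one]
  · intro ℓ hℓ hℓT A hA σ hσ
    rw [charpoly_diagRep]
    have he : ((cycloO ι σ : Oˣ) : O) = ℓ := cycloO_frob ι hℓ (hne ℓ hℓT) A hA σ hσ
    have hrel : ((ψ σ : Oˣ) : O) * ((ψ σ : Oˣ) : O) - a ℓ * ((ψ σ : Oˣ) : O) + (ℓ : O) = 0 := by
      have h1 := hfrob ℓ hℓ hℓT A hA σ hσ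
      rw [hψ σ, smul_mul_smul_comm, one_mul, smul_smul, ← sub_smul, ← add_smul] at h1
      have h2 := hsc1 (((ψ σ : Oˣ) : O) * ((ψ σ : Oˣ) : O) - a ℓ * ((ψ σ : Oˣ) : O) + (ℓ : O))
      rw [h1] at h2
      rw [← h2]
      simp [sc]
    set c : Oˣ := ψ σ with hc
    have hd : (((cycloO ι / ψ) σ : Oˣ) : O) = (ℓ : O) * ((c⁻¹ : Oˣ) : O) := by
      rw [MonoidHom.div_apply, div_eq_mul_inv, Units.val_mul, he]
    have hcc : (c : O) * ((c⁻¹ : Oˣ) : O) = 1 := Units.mul_inv c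
    have hsum : (c : O) + (ℓ : O) * ((c⁻¹ : Oˣ) : O) = a ℓ := by
      linear_combination ((c⁻¹ : Oˣ) : O) * hrel + (a ℓ - (c : O)) * hcc
    have hprod : (c : O) * ((ℓ : O) * ((c⁻¹ : Oˣ) : O)) = ℓ := by
      linear_combination (ℓ : O) * hcc
    rw [hd, key, hsum, hprod]
  · intro q hq hqp A hA σ hσ hch
    rw [charpoly_diagRep, key] at hch
    obtain ⟨h1, -⟩ := e1_coeffs hch
    set c : Oˣ := ψ σ with hc
    have hd : (((cycloO ι / ψ) σ : Oˣ) : O) = ((c⁻¹ : Oˣ) : O) := by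
      rw [MonoidHom.div_apply, cycloO_inertia ι hq hqp A hA σ hσ, one_div]
    rw [hd] at h1
    have hcc : (c : O) * ((c⁻¹ : Oˣ) : O) = 1 := Units.mul_inv c
    have h2 : ((c : O) - 1) ^ 2 = 0 := by linear_combination (c : O) * h1 - hcc
    have h3 : (c : O) = 1 := sub_eq_zero.1 (pow_eq_zero_iff two_ne_zero |>.1 h2)
    rw [hψ σ, ← hc, h3, one_smul]

/-- `exists_rep_charpoly` (ES/D/TwoDim) with the inertia clause. -/
theorem e1_exists_rep_charpoly (p : ℕ) [Fact p.Prime] (O : Type) [CommRing O] [IsDomain O]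
    [IsDiscreteValuationRing O] [IsAdicComplete (IsLocalRing.maximalIdeal O) O] [CharZero O]
    (hp : (p : O) ∈ IsLocalRing.maximalIdeal O) (T : Finset ℕ) (hpT : p ∈ T) (a : ℕ → O)
    (ρ : GaloisRepAdic O) (hunr : ∀ ℓ : ℕ, ℓ.Prime → ℓ ∉ T → ρ.IsUnramifiedAt ℓ)
    (hfrob : ∀ ℓ : ℕ, ℓ.Prime → ℓ ∉ T → ∀ A : ValuationSubring (AlgebraicClosure ℚ),
      A.LiesOverPrime ℓ → ∀ σ, A.IsFrobeniusAt σ ℓ →
        ρ.ρ σ * ρ.ρ σ - a ℓ • ρ.ρ σ + (ℓ : O) • 1 = 0) :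
    ∃ ρ' : GaloisRepAdic O, (∀ ℓ : ℕ, ℓ.Prime → ℓ ∉ T → ρ'.IsUnramifiedAt ℓ) ∧
      (∀ ℓ : ℕ, ℓ.Prime → ℓ ∉ T → ∀ A : ValuationSubring (AlgebraicClosure ℚ),
        A.LiesOverPrime ℓ → ∀ σ, A.IsFrobeniusAt σ ℓ →
          LinearMap.charpoly (ρ'.ρ σ) = X ^ 2 - C (a ℓ) * X + C ((ℓ : O))) ∧
      (∀ (q : ℕ), q.Prime → q ≠ p → ∀ A : ValuationSubring (AlgebraicClosure ℚ),
        A.LiesOverPrime q →
        (∀ σ ∈ A.inertiaSubgroupIn ℚ, LinearMap.charpoly (ρ'.ρ σ) = (X - 1) ^ 2) →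
        ∃ v : ρ.V, v ≠ 0 ∧ ∀ σ ∈ A.inertiaSubgroupIn ℚ, ρ.ρ σ v = v) := by
  obtain ⟨ι⟩ := exists_padicHom p O (maximalIdeal O) hp
  have hne : ∀ ℓ : ℕ, ℓ ∉ T → ℓ ≠ p := fun ℓ hℓ h => hℓ (h ▸ hpT)
  rcases scalar_or_det p O hp T hpT a ρ hfrob ι with hsc | hdet
  · obtain ⟨ρ', h1, h2, h3⟩ := e1_exists_rep_of_scalar p O hp T hpT a ρ hunr hfrob hsc
    refine ⟨ρ', h1, h2, fun q hq hqp A hA hun => ?_⟩
    exact ⟨rbasis ρ 0, (rbasis ρ).ne_zero 0, fun σ hσ => by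
      rw [h3 q hq hqp A hA σ hσ (hun σ hσ)]; rfl⟩
  · refine ⟨ρ, hunr, ?_, fun q _ _ A _ hun => e1_exists_fixed ρ _ hun⟩
    intro ℓ hℓ hℓT A hA σ hσ
    have hd : (mat ρ σ).det = (ℓ : O) := by
      rw [hdet σ, cycloO_frob ι hℓ (hne ℓ hℓT) A hA σ hσ]
    obtain ⟨e1, e2, e3, e4⟩ := ch_sub (mat ρ σ) (a ℓ) (ℓ : O)
      (mat_relation ρ (hfrob ℓ hℓ hℓT A hA σ hσ))
    have ht : (mat ρ σ).trace - a ℓ = 0 := by
      by_contra ht
      rw [hd, sub_self] at e4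
      have z00 := (mul_eq_zero.mp e4).resolve_left ht
      have z01 := (mul_eq_zero.mp e1).resolve_left ht
      have hz : (mat ρ σ).det = 0 := by
        rw [Matrix.det_fin_two, z00, z01]
        ring
      rw [hdet σ] at hz
      exact (cycloO ι σ).ne_zero hz
    rw [charpoly_eq_mat, hd, sub_eq_zero.mp ht]

/-! ### `CarAll` and S36 -/

/-- **Carayol's statement on the Tate module**: no nonzero inertia invariants at `q`, `q ^ 2 ∥ M`,
in the eigenspace of a newform of level `M`. -/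
def CarAll : Prop :=
  ∀ (M : ℕ) [NeZero M] (p : ℕ) (hp : p.Prime) (g : CuspForm (Gamma0 M) 2) (hg : g.IsNewform)
    (O : Type) [CommRing O] [IsDomain O] [IsDiscreteValuationRing O]
    [IsAdicComplete (maximalIdeal O) O] [CharZero O] (hpO : (p : O) ∈ maximalIdeal O)
    (lam : FullHecke M →+* O) (_ : ∀ t, lam t = 0 → eigenCharC hg.1 ∅ t = 0)
    (q : ℕ), q.Prime → q ≠ p → M.factorization q = 2 →
    ∀ A : ValuationSubring (AlgebraicClosure ℚ), A.LiesOverPrime q →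
    ∀ v ∈ eigenO (tateD M p hp) lam,
      (∀ σ ∈ A.inertiaSubgroupIn ℚ, rhoM (tateD M p hp) hpO σ v = v) → v = 0

/-- the representation attached to a character of the full Hecke algebra, with the inertia
clause -/
theorem e1_exists_rep_of_fullHecke {N : ℕ} [NeZero N] {p : ℕ} [Fact p.Prime] (D : TateDatum N p)
    (O : Type) [CommRing O] [IsDomain O] [IsDiscreteValuationRing O]
    [IsAdicComplete (maximalIdeal O) O] [CharZero O] (hp : (p : O) ∈ maximalIdeal O)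
    (lam : FullHecke N →+* O) :
    ∃ ρ : GaloisRepAdic O,
      (∀ (ℓ : ℕ) (hℓ : ℓ.Prime) (hℓN : ¬ ℓ ∣ N), ℓ ≠ p →
        ∀ A : ValuationSubring (AlgebraicClosure ℚ), A.LiesOverPrime ℓ →
          ∀ σ : AlgebraicClosure ℚ ≃ₐ[ℚ] AlgebraicClosure ℚ, A.IsFrobeniusAt σ ℓ →
            LinearMap.charpoly (ρ.ρ σ) =
              X ^ 2 - C (lam (CuspForm.heckeAlgebra.T hℓ hℓN (Set.notMem_empty ℓ))) * X
                + C ((ℓ : O))) ∧
      (∀ (q : ℕ), q.Prime → q ≠ p →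
        ∀ A : ValuationSubring (AlgebraicClosure ℚ), A.LiesOverPrime q →
          (∀ σ ∈ A.inertiaSubgroupIn ℚ, LinearMap.charpoly (ρ.ρ σ) = (X - 1) ^ 2) →
          ∃ v ∈ eigenO D lam, v ≠ 0 ∧ ∀ σ ∈ A.inertiaSubgroupIn ℚ, rhoM D hp σ v = v) := by
  classical
  have : Module.Finite ℤ (FullHecke N) := Fermat.Agent.S22b.finite_heckeAlgebra N 2 ∅
  have hrank : Module.finrank O (eigenO D lam) = 2 := finrank_eigenO_eq_two D lam
  let T : Finset ℕ := insert p N.primeFactors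
  have hT : ∀ ℓ : ℕ, ℓ.Prime → ℓ ∉ T → ¬ ℓ ∣ N ∧ ℓ ≠ p := by
    intro ℓ hℓ hℓT
    rw [Finset.mem_insert, not_or] at hℓT
    refine ⟨fun hdvd => hℓT.2 ?_, hℓT.1⟩
    exact Nat.mem_primeFactors.mpr ⟨hℓ, hdvd, NeZero.ne N⟩
  have hT' : ∀ ℓ : ℕ, ℓ.Prime → ¬ ℓ ∣ N → ℓ ≠ p → ℓ ∉ T := by
    intro ℓ _ hℓN hℓp hℓT
    rcases Finset.mem_insert.mp hℓT with h | h
    · exact hℓp h
    · exact hℓN (Nat.dvd_of_mem_primeFactors h)
  let a : ℕ → O := fun ℓ =>
    if h : ℓ.Prime ∧ ¬ ℓ ∣ N then lam (CuspForm.heckeAlgebra.T h.1 h.2 (Set.notMem_empty ℓ)) else 0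
  have ha : ∀ (ℓ : ℕ) (hℓ : ℓ.Prime) (hℓN : ¬ ℓ ∣ N),
      a ℓ = lam (CuspForm.heckeAlgebra.T hℓ hℓN (Set.notMem_empty ℓ)) := by
    intro ℓ hℓ hℓN
    exact dif_pos ⟨hℓ, hℓN⟩
  obtain ⟨ρ', -, hch, hin⟩ := e1_exists_rep_charpoly p O hp T (Finset.mem_insert_self p _) a
    (repV D hp lam hrank)
    (fun ℓ hℓ hℓT => repV_unram D hp lam hrank hℓ (hT ℓ hℓ hℓT).1 (hT ℓ hℓ hℓT).2)
    (fun ℓ hℓ hℓT A hA σ hσ => by
      rw [ha ℓ hℓ (hT ℓ hℓ hℓT).1]
      exact repV_frob D hp lam hrank hℓ (hT ℓ hℓ hℓT).1 (hT ℓ hℓ hℓT).2 A hA σ hσ)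
  refine ⟨ρ', fun ℓ hℓ hℓN hℓp A hA σ hσ => ?_, fun q hq hqp A hA hun => ?_⟩
  · rw [hch ℓ hℓ (hT' ℓ hℓ hℓN hℓp) A hA σ hσ, ha ℓ hℓ hℓN]
  · obtain ⟨v, hv0, hv⟩ := hin q hq hqp A hA hun
    let v' : eigenO D lam := v
    refine ⟨(v' : O ⊗[ℤ] D.Λ), v'.2, fun h => hv0 (Subtype.ext h), fun σ hσ => ?_⟩
    exact congrArg Subtype.val (hv σ hσ)

/-- **S36** from `CarAll`. -/
theorem s36_of_carAll (H : CarAll)
    {M : ℕ} [NeZero M] {g : CuspForm (CongruenceSubgroup.Gamma0 M) 2} (hg : g.IsNewform)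
    (lam : ℕ) [Fact lam.Prime]
    (S : Finset ℕ)
    (O' : Type) [CommRing O'] [IsDomain O'] [IsDiscreteValuationRing O']
    [IsAdicComplete (IsLocalRing.maximalIdeal O') O'] [Finite (IsLocalRing.ResidueField O')]
    [CharZero O'] (hlamO' : (lam : O') ∈ IsLocalRing.maximalIdeal O')
    (chig : CuspForm.heckeAlgebra M 2 (↑S : Set ℕ) →+* ℂ)
    (hchig : ∀ (ℓ : ℕ) (hℓ : ℓ.Prime) (hℓM : ¬ ℓ ∣ M) (hℓS : ℓ ∉ (↑S : Set ℕ)),
      chig (CuspForm.heckeAlgebra.T hℓ hℓM hℓS) = ModularFormClass.qCoeff g ℓ)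
    (iota : chig.range →+* O')
    (hlamS : lam ∈ S) (hMS : ∀ q : ℕ, q.Prime → q ∣ M → q ∈ S) :
    ∃ (O'' : Type) (_ : CommRing O'') (_ : IsDomain O'') (_ : IsDiscreteValuationRing O'')
      (_ : IsAdicComplete (IsLocalRing.maximalIdeal O'') O'') (_ : Finite (IsLocalRing.ResidueField O''))
      (_ : CharZero O'') (_ : Algebra O' O'') (_ : Module.Finite O' O'') (_ : IsLocalHom (algebraMap O' O'')),
      Function.Injective (algebraMap O' O'') ∧
      ∃ ρ : GaloisRepAdic O'',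
        (∀ (ℓ : ℕ) (hℓ : ℓ.Prime) (hℓM : ¬ ℓ ∣ M) (hℓS : ℓ ∉ (↑S : Set ℕ)),
          ∀ A : ValuationSubring (AlgebraicClosure ℚ), A.LiesOverPrime ℓ →
            ∀ σ : AlgebraicClosure ℚ ≃ₐ[ℚ] AlgebraicClosure ℚ, A.IsFrobeniusAt σ ℓ →
              LinearMap.charpoly (ρ.ρ σ) =
                X ^ 2 - C (algebraMap O' O'' ((iota.comp chig.rangeRestrict) (CuspForm.heckeAlgebra.T hℓ hℓM hℓS))) * X
                  + C ((ℓ : O''))) ∧
        (∀ q : ℕ, q.Prime → q ≠ lam → M.factorization q = 2 → ¬ ρ.IsUnipotentOnInertiaAt q) := by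
  classical
  have hfin : Module.Finite ℤ (FullHecke M) := Fermat.Agent.S22b.finite_heckeAlgebra M 2 ∅
  set χ : FullHecke M →+* ℂ := eigenCharC hg.1 ∅ with hχ
  -- the range of `chig` is contained in the range of `χ`
  have hle : chig.range ≤ χ.range := by
    rintro _ ⟨t, rfl⟩
    obtain ⟨t, ht⟩ := t
    induction ht using Algebra.adjoin_induction with
    | mem t ht =>
      rcases ht with ⟨ℓ, hℓ, hℓM, hℓS, rfl⟩ | ⟨q, hqM, hq, hqS, rfl⟩
      · refine ⟨CuspForm.heckeAlgebra.T hℓ hℓM (Set.notMem_empty ℓ), ?_⟩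
        rw [hχ, eigenCharC_T]
        exact (hchig ℓ hℓ hℓM hℓS).symm
      · exact absurd (Finset.mem_coe.mpr (hMS q hq hqM)) hqS
    | algebraMap r =>
      have e : (⟨algebraMap ℤ _ r, Subalgebra.algebraMap_mem _ r⟩ :
          CuspForm.heckeAlgebra M 2 (↑S : Set ℕ)) = ((r : ℤ) : CuspForm.heckeAlgebra M 2 (↑S : Set ℕ)) := by
        apply Subtype.ext
        simp
      rw [e, map_intCast]
      exact intCast_mem _ r
    | add a b ha hb iha ihb =>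
      have e : (⟨a + b, add_mem ha hb⟩ : CuspForm.heckeAlgebra M 2 (↑S : Set ℕ)) =
          ⟨a, ha⟩ + ⟨b, hb⟩ := rfl
      rw [e, map_add]
      exact add_mem iha ihb
    | mul a b ha hb iha ihb =>
      have e : (⟨a * b, mul_mem ha hb⟩ : CuspForm.heckeAlgebra M 2 (↑S : Set ℕ)) =
          ⟨a, ha⟩ * ⟨b, hb⟩ := rfl
      rw [e, map_mul]
      exact mul_mem iha ihb
  let _ : Algebra chig.range χ.range := (Subring.inclusion hle).toAlgebra
  have hinjAB : Function.Injective (algebraMap chig.range χ.range) :=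
    Subring.inclusion_injective hle
  have hfinB : Module.Finite ℤ χ.range :=
    Module.Finite.of_surjective (χ.rangeRestrict.toAddMonoidHom.toIntLinearMap)
      χ.rangeRestrict_surjective
  obtain ⟨O'', i1, i2, i3, i4, i5, i6, i7, i8, i9, hinj, μ, hμ⟩ :=
    exists_extend_abstract (A := chig.range) (B := χ.range) hinjAB O' iota
  have hp'' : (lam : O'') ∈ maximalIdeal O'' := by
    have h1 : (lam : O'') = algebraMap O' O'' (lam : O') := by rw [map_natCast]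
    rw [h1]
    exact map_nonunit (algebraMap O' O'') _ hlamO'
  have hintB : Algebra.IsIntegral ℤ χ.range := Algebra.IsIntegral.of_finite ℤ χ.range
  have hμinj : Function.Injective μ := injective_of_isIntegral_int μ
  let L : FullHecke M →+* O'' := μ.comp χ.rangeRestrict
  have hL : ∀ t, L t = 0 → eigenCharC hg.1 ∅ t = 0 := by
    intro t ht
    have h1 : χ.rangeRestrict t = 0 := hμinj (by rw [map_zero]; exact ht)
    exact congrArg Subtype.val h1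
  obtain ⟨ρ, hch, hin⟩ := e1_exists_rep_of_fullHecke (tateD M lam Fact.out) O'' hp'' L
  refine ⟨O'', i1, i2, i3, i4, i5, i6, i7, i8, i9, hinj, ρ, ?_, ?_⟩
  · intro ℓ hℓ hℓM hℓS A hA σ hσ
    have hℓp : ℓ ≠ lam := by
      rintro rfl
      exact hℓS (Finset.mem_coe.mpr hlamS)
    rw [hch ℓ hℓ hℓM hℓp A hA σ hσ]
    have e : L (CuspForm.heckeAlgebra.T hℓ hℓM (Set.notMem_empty ℓ)) =
        algebraMap O' O'' ((iota.comp chig.rangeRestrict) (CuspForm.heckeAlgebra.T hℓ hℓM hℓS)) := by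
      show μ (χ.rangeRestrict _) = algebraMap O' O'' (iota (chig.rangeRestrict _))
      rw [← hμ]
      congr 1
      apply Subtype.ext
      show χ _ = chig _
      rw [hχ, eigenCharC_T, hchig]
    rw [e]
  · intro q hq hqp hq2 hun
    obtain ⟨A, hA⟩ := Fermat.Agent.FrobExists.exists_liesOverPrime q hq
    obtain ⟨v, hv, hv0, hfix⟩ := hin q hq hqp A hA (hun A hA)
    exact hv0 (H M lam Fact.out g hg O'' hp'' L hL q hq hqp hq2 A hA v hv hfix)

end Fermat.Agent.CARlib
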