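import Fermat.Agent.UNI.S35Lim

/-!
# T-CAR, row E2: passage to the limit with a FAMILY of hypotheses

`IsLimS.implication` (UNI/S35Lim) for an arbitrary family of hypotheses `(A i n) ξ = 0`, `i : ι`
(e.g. `(gal n σ - 1) ξ = 0`, `σ` in an inertia group), using that `Λ / p ^ n` is finite.
-/

set_option autoImplicit false
set_option linter.style.haveILetI false

namespace Fermat.Agent.CARlib

open Fermat.Agent.UNIlib Fermat.Agent.ESlib.PartD TensorProduct

section flat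

variable {O : Type} [CommRing O] [Module.Flat ℤ O]

/-- finite families -/
theorem e2_baseChange_finset {ι : Type*} (s : Finset ι) :
    ∀ {X Y Z : Type} [AddCommGroup X] [AddCommGroup Y] [AddCommGroup Z]
      (A : ι → X →ₗ[ℤ] Y) (C : X →ₗ[ℤ] Z), (∀ ξ, (∀ i ∈ s, A i ξ = 0) → C ξ = 0) →
      ∀ ξ : O ⊗[ℤ] X, (∀ i ∈ s, (A i).baseChange O ξ = 0) → C.baseChange O ξ = 0 := by
  classical
  induction s using Finset.induction_on with
  | empty =>
    intro X Y Z _ _ _ A C h ξ _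
    have h0 : C = 0 := LinearMap.ext fun x => h x (fun i hi => absurd hi (Finset.notMem_empty i))
    rw [h0]
    simp
  | insert a s _ ih =>
    intro X Y Z _ _ _ A C h ξ hξ
    obtain ⟨η, rfl⟩ := exists_of_baseChange_eq_zero (A a) ξ (hξ a (Finset.mem_insert_self a s))
    have e : ∀ (W : Type) [AddCommGroup W] (G : X →ₗ[ℤ] W),
        G.baseChange O ((LinearMap.ker (A a)).subtype.baseChange O η) =
          (G ∘ₗ (LinearMap.ker (A a)).subtype).baseChange O η := by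
      intro W _ G
      rw [LinearMap.baseChange_comp]
      rfl
    rw [e]
    refine ih (fun i => A i ∘ₗ (LinearMap.ker (A a)).subtype)
      (C ∘ₗ (LinearMap.ker (A a)).subtype) (fun x hx => h x ?_) η ?_
    · intro i hi
      rcases Finset.mem_insert.1 hi with rfl | hi
      · exact x.2
      · exact hx i hi
    · intro i hi
      rw [← e]
      exact hξ i (Finset.mem_insert_of_mem hi)

/-- arbitrary families of endomorphisms of a finite group -/
theorem e2_baseChange_family {ι : Type*} {X Z : Type} [AddCommGroup X] [Finite X]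
    [AddCommGroup Z] (A : ι → X →ₗ[ℤ] X) (C : X →ₗ[ℤ] Z)
    (h : ∀ ξ, (∀ i, A i ξ = 0) → C ξ = 0) (ξ : O ⊗[ℤ] X)
    (hξ : ∀ i, (A i).baseChange O ξ = 0) : C.baseChange O ξ = 0 := by
  classical
  haveI : Finite (X →ₗ[ℤ] X) := Finite.of_injective (fun f => (f : X → X)) DFunLike.coe_injective
  have hfin : (Set.range A).Finite := Set.toFinite _
  refine e2_baseChange_finset (O := O) hfin.toFinset (fun f : X →ₗ[ℤ] X => f) C ?_ ξ ?_
  · intro x hx
    exact h x (fun i => hx (A i) (hfin.mem_toFinset.2 ⟨i, rfl⟩))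
  · intro f hf
    obtain ⟨i, rfl⟩ := hfin.mem_toFinset.1 hf
    exact hξ i

end flat

section main

variable {Λ : Type} [AddCommGroup Λ] {p : ℕ}
variable {O : Type} [CommRing O]

theorem e2_finite_quot [Module.Finite ℤ Λ] (hp0 : p ≠ 0) (n : ℕ) :
    Finite (Λ ⧸ powSub Λ p n) := by
  refine Module.finite_of_fg_torsion _ ?_
  intro x
  refine ⟨⟨(p : ℤ) ^ n, mem_nonZeroDivisors_of_ne_zero (pow_ne_zero _ (by exact_mod_cast hp0))⟩, ?_⟩
  obtain ⟨y, rfl⟩ := Submodule.Quotient.mk_surjective _ x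
  show ((p : ℤ) ^ n) • (Submodule.Quotient.mk y : Λ ⧸ powSub Λ p n) = 0
  rw [← Submodule.Quotient.mk_smul, Submodule.Quotient.mk_eq_zero]
  exact ⟨y, rfl⟩

/-- **E2**: implications between kernels pass to the limit, with a family of hypotheses -/
theorem e2_implication_family [Module.Flat ℤ O] [Module.Finite ℤ Λ] (hp0 : p ≠ 0) {I : Ideal O}
    [IsHausdorff I (O ⊗[ℤ] Λ)] (hp : (p : O) ∈ I) {ι : Type*}
    {FA : ι → Module.End O (O ⊗[ℤ] Λ)} {A : ι → ∀ n : ℕ, Module.End ℤ (Λ ⧸ powSub Λ p n)}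
    {FC : Module.End O (O ⊗[ℤ] Λ)} {C : ∀ n : ℕ, Module.End ℤ (Λ ⧸ powSub Λ p n)}
    (hA : ∀ i, IsLimS (FA i) (A i)) (hC : IsLimS FC C)
    (h : ∀ n ξ, (∀ i, A i n ξ = 0) → C n ξ = 0) {v : O ⊗[ℤ] Λ} (h1 : ∀ i, FA i v = 0) :
    FC v = 0 := by
  refine IsHausdorff.haus ‹_› _ fun n => ?_
  rw [SModEq.zero]
  refine mem_powTop_of_redN_eq_zero hp ?_
  rw [hC n v]
  haveI := e2_finite_quot (Λ := Λ) hp0 n
  refine e2_baseChange_family (fun i => A i n) (C n) (h n) _ (fun i => ?_)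
  rw [← hA i n v, h1 i, map_zero]

/-- **E2'**: a family of hypotheses and two more hypotheses -/
theorem e2_implication_family₂ [Module.Flat ℤ O] [Module.Finite ℤ Λ] (hp0 : p ≠ 0) {I : Ideal O}
    [IsHausdorff I (O ⊗[ℤ] Λ)] (hp : (p : O) ∈ I) {ι : Type*}
    {FA : ι → Module.End O (O ⊗[ℤ] Λ)} {A : ι → ∀ n : ℕ, Module.End ℤ (Λ ⧸ powSub Λ p n)}
    {FB FB' FC : Module.End O (O ⊗[ℤ] Λ)} {B B' C : ∀ n : ℕ, Module.End ℤ (Λ ⧸ powSub Λ p n)}
    (hA : ∀ i, IsLimS (FA i) (A i)) (hB : IsLimS FB B) (hB' : IsLimS FB' B') (hC : IsLimS FC C)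
    (h : ∀ n ξ, (∀ i, A i n ξ = 0) → B n ξ = 0 → B' n ξ = 0 → C n ξ = 0) {v : O ⊗[ℤ] Λ}
    (h1 : ∀ i, FA i v = 0) (h2 : FB v = 0) (h3 : FB' v = 0) : FC v = 0 := by
  refine e2_implication_family hp0 hp (ι := Option (Option ι))
    (FA := fun j => j.elim FB (fun j' => j'.elim FB' FA))
    (A := fun j => j.elim B (fun j' => j'.elim B' A)) ?_ hC ?_ ?_
  · rintro (_ | _ | i)
    · exact hB
    · exact hB'
    · exact hA i
  · intro n ξ hξ
    exact h n ξ (fun i => hξ (some (some i))) (hξ none) (hξ (some none))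
  · rintro (_ | _ | i)
    · exact h2
    · exact h3
    · exact h1 i

end main

end Fermat.Agent.CARlib
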