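import Fermat.Agent.UNI.S35Core2
import Fermat.Agent.CAR.E2Lim

/-!
# T-CAR, block E: `CarAll` from the statement at finite levels (abstract form)

Analogue of `UNIlib.steinberg_of_kill`: `Pa`, `Pb` are the two operators `α ∘ Norm_α`,
`β ∘ Norm_β` on `Λ / p ^ n`; they commute with the good Hecke operators and factor through the
level `N = M / r`, so they kill the eigenspace of a newform of level `M`.
-/

set_option autoImplicit false
set_option linter.unusedSectionVars false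

open CongruenceSubgroup ModularFormClass CuspForm
open scoped TensorProduct

namespace Fermat.Agent.CARlib

open Fermat.Agent.UNIlib Fermat.Agent.ESlib Fermat.Agent.ESlib.PartD IsLocalRing

section core

variable {M N : ℕ} [NeZero M] [NeZero N] {p : ℕ} (D : TateDatum M p)
variable {O : Type} [CommRing O] [IsDomain O] [IsDiscreteValuationRing O]
  [IsAdicComplete (maximalIdeal O) O] [CharZero O] (hp : (p : O) ∈ maximalIdeal O)

include hp in
/-- an operator on the finite levels which commutes with the good Hecke operators and factors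
through a lower level kills the eigenspace of a newform -/
theorem car_kill_of_isNewform (hNM : N ∣ M) (hne : N ≠ M)
    {g : CuspForm (Gamma0 M) 2} (hg : g.IsNewform) (lam : FullHecke M →+* O)
    (hlam : ∀ t, lam t = 0 → eigenCharC hg.1 ∅ t = 0)
    (P : ∀ n : ℕ, Module.End ℤ (D.Λ ⧸ powSub D.Λ p n))
    {W : Module.End O (O ⊗[ℤ] D.Λ)} (hWS : IsLimS W P)
    (P_T : ∀ (n : ℕ) (i : GoodPrime M),
      P n * famOf p (D.hecke (goodEval (dvd_refl M) (MvPolynomial.X i))) n =
        famOf p (D.hecke (goodEval (dvd_refl M) (MvPolynomial.X i))) n * P n)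
    (hkill : ∀ F : MvPolynomial (GoodPrime M) ℤ, goodEval hNM F = 0 → ∀ n : ℕ,
      famOf p (D.hecke (goodEval (dvd_refl M) F)) n * P n = 0)
    (v : O ⊗[ℤ] D.Λ) (hv : v ∈ eigenO D lam) : W v = 0 := by
  have hWT : ∀ i : GoodPrime M, W * heckeO D O (goodEval (dvd_refl M) (MvPolynomial.X i)) =
      heckeO D O (goodEval (dvd_refl M) (MvPolynomial.X i)) * W := fun i =>
    (hWS.mul (isLimS_heckeO D _)).eq_of_forall hp ((isLimS_heckeO D _).mul hWS) (fun n => P_T n i)
  have hve := (mem_eigenO D lam).mp hv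
  refine eq_zero_of_isNewform_kill hNM hne hg D.hecke lam hlam _ (fun F hF => ?_) (fun i => ?_)
  · have h0 : heckeO D O (goodEval (dvd_refl M) F) * W = 0 :=
      ((isLimS_heckeO D _).mul hWS).eq_of_forall hp isLimS_zero (hkill F hF)
    exact congrArg (fun f => f v) h0
  · have h4 := congrArg (fun f => f v) (hWT i)
    simp only [Module.End.mul_apply] at h4
    show heckeO D O (goodEval (dvd_refl M) (MvPolynomial.X i)) (W v) = _
    rw [← h4, hve, map_smul]

/-- **`CarAll`, abstract form**: no nonzero vector of the eigenspace of a newform of level `M` is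
fixed by `J` (= an inertia group at `r`, `r ^ 2 ∥ M`, `N = M / r`). -/
theorem car_of_kill (hp0 : p ≠ 0) (hNM : N ∣ M) (hne : N ≠ M)
    {g : CuspForm (Gamma0 M) 2} (hg : g.IsNewform) (lam : FullHecke M →+* O)
    (hlam : ∀ t, lam t = 0 → eigenCharC hg.1 ∅ t = 0)
    -- the two operators `α ∘ Norm_α`, `β ∘ Norm_β`
    (Pa Pb : ∀ n : ℕ, Module.End ℤ (D.Λ ⧸ powSub D.Λ p n))
    (Pa_compat : ∀ (n : ℕ) (x y : D.Λ),
      Pa (n + 1) (Submodule.Quotient.mk x) = Submodule.Quotient.mk y →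
      Pa n (Submodule.Quotient.mk x) = Submodule.Quotient.mk y)
    (Pb_compat : ∀ (n : ℕ) (x y : D.Λ),
      Pb (n + 1) (Submodule.Quotient.mk x) = Submodule.Quotient.mk y →
      Pb n (Submodule.Quotient.mk x) = Submodule.Quotient.mk y)
    (Pa_T : ∀ (n : ℕ) (i : GoodPrime M),
      Pa n * famOf p (D.hecke (goodEval (dvd_refl M) (MvPolynomial.X i))) n =
        famOf p (D.hecke (goodEval (dvd_refl M) (MvPolynomial.X i))) n * Pa n)
    (Pb_T : ∀ (n : ℕ) (i : GoodPrime M),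
      Pb n * famOf p (D.hecke (goodEval (dvd_refl M) (MvPolynomial.X i))) n =
        famOf p (D.hecke (goodEval (dvd_refl M) (MvPolynomial.X i))) n * Pb n)
    (hkill_a : ∀ F : MvPolynomial (GoodPrime M) ℤ, goodEval hNM F = 0 → ∀ n : ℕ,
      famOf p (D.hecke (goodEval (dvd_refl M) F)) n * Pa n = 0)
    (hkill_b : ∀ F : MvPolynomial (GoodPrime M) ℤ, goodEval hNM F = 0 → ∀ n : ℕ,
      famOf p (D.hecke (goodEval (dvd_refl M) F)) n * Pb n = 0)
    -- inertia
    (J : Set GQ) (c : ℤ) (hc : c ≠ 0)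
    (hcar : ∀ n ξ, (∀ σ ∈ J, D.gal n σ ξ = ξ) → Pa n ξ = 0 → Pb n ξ = 0 → c • ξ = 0)
    (v : O ⊗[ℤ] D.Λ) (hv : v ∈ eigenO D lam) (hfix : ∀ σ ∈ J, rhoM D hp σ v = v) : v = 0 := by
  obtain ⟨Wa, hWa⟩ := exists_isLim (O := O) hp Pa Pa_compat
  obtain ⟨Wb, hWb⟩ := exists_isLim (O := O) hp Pb Pb_compat
  have hWaS : IsLimS (Wa : Module.End O (O ⊗[ℤ] D.Λ)) Pa :=
    isLimS_of_isLim (Nat.cast_ne_zero.mpr hp0) hWa Pa_compat
  have hWbS : IsLimS (Wb : Module.End O (O ⊗[ℤ] D.Λ)) Pb :=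
    isLimS_of_isLim (Nat.cast_ne_zero.mpr hp0) hWb Pb_compat
  have ha : (Wa : Module.End O (O ⊗[ℤ] D.Λ)) v = 0 :=
    car_kill_of_isNewform D hp hNM hne hg lam hlam Pa hWaS Pa_T hkill_a v hv
  have hb : (Wb : Module.End O (O ⊗[ℤ] D.Λ)) v = 0 :=
    car_kill_of_isNewform D hp hNM hne hg lam hlam Pb hWbS Pb_T hkill_b v hv
  have hC : IsLimS ((c : O) • (1 : Module.End O (O ⊗[ℤ] D.Λ)))
      (fun n => c • (1 : Module.End ℤ (D.Λ ⧸ powSub D.Λ p n))) := IsLimS.one.zsmul c
  have h3 : ((c : O) • (1 : Module.End O (O ⊗[ℤ] D.Λ))) v = 0 := by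
    refine e2_implication_family₂ hp0 hp (ι := J)
      (FA := fun σ => rhoM D hp σ.1 - 1) (A := fun σ n => D.gal n σ.1 - 1)
      (fun σ => (isLimS_rhoM D hp hp0 σ.1).sub IsLimS.one) hWaS hWbS hC ?_ ?_ ha hb
    · intro n ξ h1 h2 h3
      exact hcar n ξ (fun σ hσ => sub_eq_zero.1 (h1 ⟨σ, hσ⟩)) h2 h3
    · intro σ
      show rhoM D hp σ.1 v - v = 0
      rw [hfix σ.1 σ.2, sub_self]
  have h4 : (c : O) • v = 0 := h3
  exact (smul_eq_zero.mp h4).resolve_left (Int.cast_ne_zero.mpr hc)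

end core

end Fermat.Agent.CARlib
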