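import Fermat.Agent.CAR.E2Core

/-!
# T-CAR, block E: `car_of_kill` with `P_β = U_r`, `P_α = U_r ∘ w` (`w` = Atkin-Lehner `W_{r²}`)
-/

set_option autoImplicit false
set_option linter.unusedSectionVars false

open CongruenceSubgroup ModularFormClass CuspForm
open scoped TensorProduct

namespace Fermat.Agent.CARlib

open Fermat.Agent.UNIlib Fermat.Agent.ESlib Fermat.Agent.ESlib.PartD IsLocalRing

theorem e2_powSub_succ_le (Λ : Type) [AddCommGroup Λ] (p n : ℕ) :
    powSub Λ p (n + 1) ≤ powSub Λ p n := by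
  rintro _ ⟨y, rfl⟩
  refine ⟨(p : ℤ) • y, ?_⟩
  simp only [LinearMap.lsmul_apply, smul_smul, pow_succ]

theorem e2_famOf_compat {Λ : Type} [AddCommGroup Λ] {p : ℕ} (T : Module.End ℤ Λ) (n : ℕ)
    (x y : Λ) (h : famOf p T (n + 1) (Submodule.Quotient.mk x) = Submodule.Quotient.mk y) :
    famOf p T n (Submodule.Quotient.mk x) = Submodule.Quotient.mk y := by
  rw [famOf_mk, Submodule.Quotient.eq] at h ⊢
  exact e2_powSub_succ_le Λ p n h

section core

variable {M N : ℕ} [NeZero M] [NeZero N] {p : ℕ} (D : TateDatum M p)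
variable {O : Type} [CommRing O] [IsDomain O] [IsDiscreteValuationRing O]
  [IsAdicComplete (maximalIdeal O) O] [CharZero O] (hp : (p : O) ∈ maximalIdeal O)

/-- **`CarAll`, abstract form**, with `P_β = U`, `P_α = U ∘ w`. -/
theorem car_of_kill_U (hp0 : p ≠ 0) (hNM : N ∣ M) (hne : N ≠ M)
    {g : CuspForm (Gamma0 M) 2} (hg : g.IsNewform) (lam : FullHecke M →+* O)
    (hlam : ∀ t, lam t = 0 → eigenCharC hg.1 ∅ t = 0)
    (Uq : FullHecke M)
    -- the Atkin-Lehner involution
    (w : ∀ n : ℕ, Module.End ℤ (D.Λ ⧸ powSub D.Λ p n))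
    (w_compat : ∀ (n : ℕ) (x y : D.Λ),
      w (n + 1) (Submodule.Quotient.mk x) = Submodule.Quotient.mk y →
      w n (Submodule.Quotient.mk x) = Submodule.Quotient.mk y)
    (w_T : ∀ (n : ℕ) (i : GoodPrime M),
      w n * famOf p (D.hecke (goodEval (dvd_refl M) (MvPolynomial.X i))) n =
        famOf p (D.hecke (goodEval (dvd_refl M) (MvPolynomial.X i))) n * w n)
    -- `U` factors through the lower level
    (hkill : ∀ F : MvPolynomial (GoodPrime M) ℤ, goodEval hNM F = 0 → ∀ n : ℕ,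
      famOf p (D.hecke (goodEval (dvd_refl M) F)) n * famOf p (D.hecke Uq) n = 0)
    -- inertia
    (J : Set GQ) (c : ℤ) (hc : c ≠ 0)
    (hcar : ∀ n ξ, (∀ σ ∈ J, D.gal n σ ξ = ξ) → (famOf p (D.hecke Uq) n * w n) ξ = 0 →
      famOf p (D.hecke Uq) n ξ = 0 → c • ξ = 0)
    (v : O ⊗[ℤ] D.Λ) (hv : v ∈ eigenO D lam) (hfix : ∀ σ ∈ J, rhoM D hp σ v = v) : v = 0 := by
  have hUT : ∀ (n : ℕ) (t : FullHecke M),
      famOf p (D.hecke Uq) n * famOf p (D.hecke t) n =
        famOf p (D.hecke t) n * famOf p (D.hecke Uq) n := by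
    intro n t
    rw [← famHom_apply, ← famHom_apply, ← map_mul, ← map_mul, ← map_mul, ← map_mul, mul_comm]
  refine car_of_kill D hp hp0 hNM hne hg lam hlam
    (fun n => famOf p (D.hecke Uq) n * w n) (fun n => famOf p (D.hecke Uq) n)
    ?_ (fun n x y h => e2_famOf_compat _ n x y h) ?_ (fun n i => hUT n _) ?_ hkill J c hc hcar
    v hv hfix
  · intro n x y h
    obtain ⟨z, hz⟩ := Submodule.Quotient.mk_surjective _ (w (n + 1) (Submodule.Quotient.mk x))
    rw [Module.End.mul_apply, ← hz] at h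
    rw [Module.End.mul_apply, w_compat n x z hz.symm]
    exact e2_famOf_compat _ n z y h
  · intro n i
    rw [mul_assoc, w_T n i, ← mul_assoc, hUT, mul_assoc]
  · intro F hF n
    rw [← mul_assoc, hkill F hF n, zero_mul]

end core

end Fermat.Agent.CARlib
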