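import Fermat.Agent.CAR.E3AL
import Fermat.Agent.UNI.S35Comm

/-!
# T-CAR, row E3: the Atkin-Lehner involution `W_Q` commutes with the Hecke operators `T_ℓ`, `ℓ ∤ M`
-/

set_option autoImplicit false
set_option linter.unusedSectionVars false
set_option linter.style.haveILetI false

open ModularCurve AlgebraicCurve Fermat.Agent.S24lib Fermat.Agent.ESlib Fermat.Agent.S37lib
  Fermat.Agent.UNIlib

namespace Fermat.Agent.CARlib

section comm

variable {M N Q ℓ : ℕ} [NeZero M] [NeZero ℓ]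

/-- **`W_Q` commutes with `T_ℓ`**, `ℓ ∤ M`, on the function field of `X₀(M)` over `ℚ̄`. -/
theorem wQ_heckeTS (hM : M = N * Q) (hc : Nat.Coprime Q N) (hℓ : ℓ.Prime) (hℓM : ¬ ℓ ∣ M)
    {ζ : Kbˣ} (hζ : IsPrimitiveRoot ζ ℓ) (f : modularFunctionFieldBar M) :
    wQ Kb hM hc ⟨heckeTS ℓ ζ (f : LaurentSeries Kb), heckeTS_mem_bar hℓ hℓM hζ _ f.2⟩ =
      ⟨heckeTS ℓ ζ ((wQ Kb hM hc f : modularFunctionFieldBar M) : LaurentSeries Kb),
        heckeTS_mem_bar hℓ hℓM hζ _ (wQ Kb hM hc f).2⟩ := by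
  have hℓQ : Nat.Coprime ℓ Q := (Nat.Prime.coprime_iff_not_dvd hℓ).2
    (fun h => hℓM (by rw [hM]; exact h.mul_left N))
  have hM' : M * ℓ = (N * ℓ) * Q := by rw [hM]; ring
  have hc' : Nat.Coprime Q (N * ℓ) := Nat.Coprime.mul_right hc hℓQ.symm
  have hdℓ : ∀ d : Dv M, Nat.Coprime d.1 ℓ := fun d =>
    ((Nat.Prime.coprime_iff_not_dvd hℓ).2 (fun h => hℓM (h.trans d.2))).symm
  set W := wQ Kb hM' hc' with hW
  have hα : (W.toRingEquiv : _ →+* _).comp (heckeAlphaBar Kb M ℓ).toRingHom =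
      (heckeAlphaBar Kb M ℓ).toRingHom.comp (wQ Kb hM hc).toAlgHom.toRingHom := by
    apply ringHom_ext_JgenK
    · intro a
      show W (heckeAlphaBar Kb M ℓ _) = heckeAlphaBar Kb M ℓ (wQ Kb hM hc _)
      rw [AlgHom.commutes, AlgEquiv.commutes, AlgEquiv.commutes, AlgHom.commutes]
    · intro d
      show W (heckeAlphaBar Kb M ℓ _) = heckeAlphaBar Kb M ℓ (wQ Kb hM hc _)
      rw [wQ_Jgen, alphaBar_Jgen_comm, alphaBar_Jgen_comm]
      apply wQ_Jgen_of_eq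
      show (alPermQ hM d).1 = Nat.gcd d.1 (N * ℓ) * (Q / Nat.gcd d.1 Q)
      rw [coe_alPermQ, Nat.Coprime.gcd_mul_right_cancel_right N (hdℓ d).symm]
  have hβ : (W.toRingEquiv : _ →+* _).comp (heckeBetaBar Kb M ℓ).toRingHom =
      (heckeBetaBar Kb M ℓ).toRingHom.comp (wQ Kb hM hc).toAlgHom.toRingHom := by
    apply ringHom_ext_JgenK
    · intro a
      show W (heckeBetaBar Kb M ℓ _) = heckeBetaBar Kb M ℓ (wQ Kb hM hc _)
      rw [AlgHom.commutes, AlgEquiv.commutes, AlgEquiv.commutes, AlgHom.commutes]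
    · intro d
      show W (heckeBetaBar Kb M ℓ _) = heckeBetaBar Kb M ℓ (wQ Kb hM hc _)
      rw [wQ_Jgen, betaBar_Jgen_comm, betaBar_Jgen_comm]
      apply wQ_Jgen_of_eq
      show (alPermQ hM d).1 * ℓ = Nat.gcd (d.1 * ℓ) (N * ℓ) * (Q / Nat.gcd (d.1 * ℓ) Q)
      rw [coe_alPermQ, Nat.gcd_mul_right, Nat.Coprime.gcd_mul_right_cancel d.1 hℓQ]
      ring
  letI := algebraAlong (heckeAlphaBar Kb M ℓ)
  have h1 := Algebra.norm_eq_of_equiv_equiv (A₁ := modularFunctionFieldBar M)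
    (B₁ := modularFunctionFieldBar (M * ℓ)) (A₂ := modularFunctionFieldBar M)
    (B₂ := modularFunctionFieldBar (M * ℓ)) (wQ Kb hM hc).toRingEquiv W.toRingEquiv hα.symm
    (heckeBetaBar Kb M ℓ f)
  have h2 : W.toRingEquiv (heckeBetaBar Kb M ℓ f) =
      heckeBetaBar Kb M ℓ (wQ Kb hM hc f) := DFunLike.congr_fun hβ f
  rw [h2, norm_alpha_beta hℓ hℓM hζ, norm_alpha_beta hℓ hℓM hζ] at h1
  rw [h1]
  exact (wQ Kb hM hc).toRingEquiv.apply_symm_apply _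

end comm

end Fermat.Agent.CARlib
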