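import Fermat.Agent.CAR.E3Comm
import Fermat.Agent.CAR.E2Glue
import Fermat.Agent.UNI.S35Norm

/-!
# T-CAR, row E3: the norms from level `N r²` to level `N r`

`α` = inclusion, `β = B_r : x(q) ↦ x(q^r)`, `W = W_{r²}`, `w = w_r` (level `N r`).
* `W ∘ α = β ∘ w`, `W ∘ β = α ∘ w`;
* `[F(N r²) : α F(N r)] = [F(N r²) : β F(N r)] = r`;
* `Norm_β f = U_r f` (`q`-series `normU r ζ f`), `Norm_α f = w (U_r (W f))`.
-/

set_option autoImplicit false
set_option linter.unusedSectionVars false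
set_option linter.style.haveILetI false

open ModularCurve AlgebraicCurve Fermat.Agent.S24lib Fermat.Agent.S28lib Fermat.Agent.ESlib
  Fermat.Agent.S37lib Fermat.Agent.UNIlib

namespace Fermat.Agent.CARlib

section rel

variable (K : Type) [Field K] [Algebra ℚ K] [Algebra K ℂ] [IsScalarTower ℚ K ℂ]
variable {N r : ℕ} [NeZero r] [NeZero (N * r)] [NeZero (N * r * r)]

theorem e3_coprime (hr : r.Prime) (hrN : ¬ r ∣ N) : Nat.Coprime (r * r) N :=
  Nat.Coprime.mul_left ((Nat.Prime.coprime_iff_not_dvd hr).2 hrN)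
    ((Nat.Prime.coprime_iff_not_dvd hr).2 hrN)

/-- the involution `W_{r²}` at level `N r²` -/
noncomputable def e3W (hr : r.Prime) (hrN : ¬ r ∣ N) : FK K (N * r * r) ≃ₐ[K] FK K (N * r * r) :=
  wQ K (Nat.mul_assoc N r r) (e3_coprime hr hrN)

theorem e3W_e3W (hr : r.Prime) (hrN : ¬ r ∣ N) (x : FK K (N * r * r)) :
    e3W K hr hrN (e3W K hr hrN x) = x := wQ_wQ K _ _ x

theorem e3_alpha_Jgen (d : Dv (N * r)) :
    heckeAlphaBar K (N * r) r (ESlib.Jgen K (N * r) d) =
      ESlib.Jgen K (N * r * r) ⟨d.1, d.2.mul_right r⟩ :=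
  Subtype.ext (coe_heckeAlphaBar (N * r) r _)

theorem e3_beta_Jgen (d : Dv (N * r)) :
    heckeBetaBar K (N * r) r (ESlib.Jgen K (N * r) d) =
      ESlib.Jgen K (N * r * r) ⟨d.1 * r, Nat.mul_dvd_mul_right d.2 r⟩ := by
  apply Subtype.ext
  rw [coe_heckeBetaBar]
  show qExpand K r (coeffEmb K (qExpand ℚ d.1 jq)) = coeffEmb K (qExpand ℚ (d.1 * r) jq)
  rw [← coeffEmb_qExpand, qExpand_qExpand]
  congr 1
  exact qExpand_congr (mul_comm _ _) _

/-- `W ∘ α = β ∘ w` -/
theorem e3W_alpha (hr : r.Prime) (hrN : ¬ r ∣ N) (x : FK K (N * r)) :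
    e3W K hr hrN (heckeAlphaBar K (N * r) r x) = heckeBetaBar K (N * r) r (wr K hr hrN x) := by
  have h : ((e3W K hr hrN).toAlgHom.toRingHom).comp (heckeAlphaBar K (N * r) r).toRingHom =
      (heckeBetaBar K (N * r) r).toRingHom.comp (wr K hr hrN).toAlgHom.toRingHom := by
    apply ringHom_ext_JgenK
    · intro a
      show e3W K hr hrN (heckeAlphaBar K (N * r) r _) = heckeBetaBar K (N * r) r (wr K hr hrN _)
      rw [AlgHom.commutes, AlgEquiv.commutes, AlgEquiv.commutes, AlgHom.commutes]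
    · intro d
      show e3W K hr hrN (heckeAlphaBar K (N * r) r _) = heckeBetaBar K (N * r) r (wr K hr hrN _)
      rw [wr_Jgen, e3_alpha_Jgen, e3_beta_Jgen]
      apply wQ_Jgen_of_eq
      show (alPerm hr d).1 * r = Nat.gcd d.1 N * (r * r / Nat.gcd d.1 (r * r))
      have hcr : Nat.Coprime r N := (Nat.Prime.coprime_iff_not_dvd hr).2 hrN
      by_cases hd : r ∣ d.1
      · rw [alPerm_of_dvd hr d hd, Nat.div_mul_cancel hd]
        have h1 := div_dvd_of_dvd_mul hr hd d.2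
        obtain ⟨e, he⟩ := hd
        rw [he, Nat.mul_div_cancel_left _ hr.pos] at h1
        have hce : Nat.Coprime r e := Nat.Coprime.coprime_dvd_right h1 hcr
        have h2 : Nat.gcd (r * e) N = e := by
          rw [Nat.Coprime.gcd_mul_left_cancel e hcr]
          exact Nat.gcd_eq_left h1
        have h3 : Nat.gcd (r * e) (r * r) = r := by
          rw [Nat.gcd_mul_left, Nat.Coprime.gcd_eq_one hce.symm, mul_one]
        rw [he, h2, h3, Nat.mul_div_cancel _ hr.pos, mul_comm]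
      · rw [alPerm_of_not_dvd hr d hd]
        have h1 := dvd_of_not_dvd_of_dvd_mul hr hd d.2
        have hcd : Nat.Coprime d.1 r := ((Nat.Prime.coprime_iff_not_dvd hr).2 hd).symm
        have h3 : Nat.gcd d.1 (r * r) = 1 := Nat.Coprime.mul_right hcd hcd
        rw [Nat.gcd_eq_left h1, h3, Nat.div_one, mul_assoc]
  exact DFunLike.congr_fun h x

/-- `W ∘ β = α ∘ w` -/
theorem e3W_beta (hr : r.Prime) (hrN : ¬ r ∣ N) (x : FK K (N * r)) :
    e3W K hr hrN (heckeBetaBar K (N * r) r x) = heckeAlphaBar K (N * r) r (wr K hr hrN x) := by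
  have h := e3W_alpha K hr hrN (wr K hr hrN x)
  rw [wr_wr] at h
  rw [← h, e3W_e3W]

end rel

section degree

variable {N r : ℕ} [NeZero r] [NeZero (N * r)] [NeZero (N * r * r)]

/-- `[F(N₁ r) : F(N₁)] = r` for a prime `r ∣ N₁`. -/
theorem e3_finrank_level_dvd (N₁ r : ℕ) [NeZero N₁] [NeZero r] [NeZero (N₁ * r)] (hr : r.Prime)
    (hrN : r ∣ N₁) :
    letI := algebraAlong (heckeAlphaBar Kb N₁ r)
    Module.finrank (modularFunctionFieldBar N₁) (modularFunctionFieldBar (N₁ * r)) = r := by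
  letI : Algebra (modularFunctionFieldBar N₁) (modularFunctionFieldBar (N₁ * r)) :=
    algebraAlong (heckeAlphaBar Kb N₁ r)
  haveI : IsScalarTower Kb (modularFunctionFieldBar N₁) (modularFunctionFieldBar (N₁ * r)) :=
    IsScalarTower.of_algebraMap_eq fun _ => rfl
  have h1 := Level.finrank_tower (K := Kb) (F := modularFunctionFieldBar N₁)
    (F' := modularFunctionFieldBar (N₁ * r)) (S24lib.J1 N₁)
  have h2 : algebraMap (modularFunctionFieldBar N₁) (modularFunctionFieldBar (N₁ * r))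
      (S24lib.J1 N₁) = S24lib.J1 (N₁ * r) := rfl
  rw [h2, S24lib.finrank_J1, S24lib.finrank_J1,
    S20lib.dedekindPsi_mul_prime_of_dvd (NeZero.ne N₁) hr hrN] at h1
  have h3 : dedekindPsi N₁ ≠ 0 := by
    rw [← S24lib.finrank_J1 N₁]
    haveI := S24lib.finiteDimensional_J1 N₁
    exact Module.finrank_pos.ne'
  rw [mul_comm] at h1
  exact Nat.eq_of_mul_eq_mul_right (Nat.pos_of_ne_zero h3) h1

theorem e3_finrank_alpha (hr : r.Prime) :
    letI := algebraAlong (heckeAlphaBar Kb (N * r) r)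
    Module.finrank (modularFunctionFieldBar (N * r)) (modularFunctionFieldBar (N * r * r)) = r :=
  e3_finrank_level_dvd (N * r) r hr (dvd_mul_left r N)

theorem e3_finrank_beta (hr : r.Prime) (hrN : ¬ r ∣ N) :
    letI := algebraAlong (heckeBetaBar Kb (N * r) r)
    Module.finrank (modularFunctionFieldBar (N * r)) (modularFunctionFieldBar (N * r * r)) = r := by
  refine Eq.trans ?_ (e3_finrank_alpha (N := N) hr)
  refine @Algebra.finrank_eq_of_equiv_equiv (modularFunctionFieldBar (N * r))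
    (modularFunctionFieldBar (N * r * r)) _ _ (algebraAlong (heckeBetaBar Kb (N * r) r))
    (modularFunctionFieldBar (N * r)) (modularFunctionFieldBar (N * r * r)) _ _
    (algebraAlong (heckeAlphaBar Kb (N * r) r)) (wr Kb hr hrN).toRingEquiv
    (e3W Kb hr hrN).toRingEquiv ?_
  exact RingHom.ext fun x => (e3W_beta Kb hr hrN x).symm

end degree

section norm

variable {N r : ℕ} [NeZero r] [NeZero (N * r)] [NeZero (N * r * r)]

local notation "F₁" => modularFunctionFieldBar (N * r)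
local notation "F₂" => modularFunctionFieldBar (N * r * r)

/-- the embeddings `x ↦ x(ζ^b q)` of `F(N r²)` in `ℚ̄((q))` -/
noncomputable def e3Emb (N r : ℕ) (ζ : Kbˣ) (b : Fin r) :
    modularFunctionFieldBar (N * r * r) →+* LaurentSeries Kb :=
  (scale (ζ ^ (b : ℕ))).comp (algebraMap (modularFunctionFieldBar (N * r * r)) (LaurentSeries Kb))

theorem e3Emb_apply (ζ : Kbˣ) (b : Fin r) (x : F₂) :
    e3Emb N r ζ b x = scale (ζ ^ (b : ℕ)) (x : LaurentSeries Kb) := rfl

theorem e3Emb_beta {ζ : Kbˣ} (hζ : ζ ^ r = 1) (b : Fin r) (a : F₁) :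
    e3Emb N r ζ b (heckeBetaBar Kb (N * r) r a) = qExpand Kb r (a : LaurentSeries Kb) := by
  rw [e3Emb_apply, coe_heckeBetaBar]
  exact scale_qExpand_of_pow_eq_one (by rw [← pow_mul, mul_comm, pow_mul, hζ, one_pow]) _

theorem e3Emb_injective {ζ : Kbˣ} (hζ : IsPrimitiveRoot ζ r) :
    Function.Injective (e3Emb N r ζ) := by
  have h2 : ∀ b : Fin r, (e3Emb N r ζ b (ESlib.J1 Kb (N * r * r))).coeff (-1) =
      (((ζ ^ (b : ℕ))⁻¹ : Kbˣ) : Kb) := by
    intro b
    rw [e3Emb_apply, coeff_scale, coe_J1, coeff_jqModC_neg_one, mul_one, zpow_neg_one]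
  intro b b' h
  have h3 : (e3Emb N r ζ b (ESlib.J1 Kb (N * r * r))).coeff (-1) =
      (e3Emb N r ζ b' (ESlib.J1 Kb (N * r * r))).coeff (-1) := by rw [h]
  rw [h2, h2] at h3
  have h4 : ζ ^ (b : ℕ) = ζ ^ (b' : ℕ) := inv_injective (Units.ext h3)
  exact Fin.ext (hζ.pow_inj b.2 b'.2 h4)

/-- **`Norm_β = U_r`** -/
theorem e3_coe_norm_beta (hr : r.Prime) (hrN : ¬ r ∣ N) {ζ : Kbˣ} (hζ : IsPrimitiveRoot ζ r)
    (x : F₂) :
    letI := algebraAlong (heckeBetaBar Kb (N * r) r)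
    ((Algebra.norm F₁ x : F₁) : LaurentSeries Kb) = normU r ζ (x : LaurentSeries Kb) := by
  letI : Algebra F₁ F₂ := algebraAlong (heckeBetaBar Kb (N * r) r)
  have hfr : Module.finrank F₁ F₂ = r := e3_finrank_beta hr hrN
  haveI : FiniteDimensional F₁ F₂ :=
    Module.finite_of_finrank_pos (by rw [hfr]; exact hr.pos)
  have h := norm_eq_prod_of_embeddings (F := F₁) (E := F₂)
    (e3Emb N r ζ) ((qExpand Kb r).comp (algebraMap F₁ (LaurentSeries Kb)))
    (fun i a => e3Emb_beta hζ.pow_eq_one i a) (e3Emb_injective hζ)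
    (by rw [Fintype.card_fin, hfr]) x
  apply qExpand_injective (R := Kb) r
  rw [qExpand_normU hζ, rotProd, ← Fin.prod_univ_eq_prod_range]
  exact h

/-- `Norm_α = w ∘ Norm_β ∘ W` -/
theorem e3_norm_alpha (hr : r.Prime) (hrN : ¬ r ∣ N) (x : F₂) :
    (letI := algebraAlong (heckeAlphaBar Kb (N * r) r); Algebra.norm F₁ x) =
      wr Kb hr hrN (letI := algebraAlong (heckeBetaBar Kb (N * r) r);
        Algebra.norm F₁ (e3W Kb hr hrN x)) :=
  @Algebra.norm_eq_of_equiv_equiv F₁ F₂ F₁ F₂ _ _ _ _ (algebraAlong (heckeAlphaBar Kb (N * r) r))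
    (algebraAlong (heckeBetaBar Kb (N * r) r)) (wr Kb hr hrN).toRingEquiv
    (e3W Kb hr hrN).toRingEquiv (RingHom.ext fun a => (e3W_alpha Kb hr hrN a).symm) x

/-- **`U_r` lowers the level** -/
theorem e3_lowerU [NeZero N] (hr : r.Prime) (hrN : ¬ r ∣ N) : LowerU (N * r) r := by
  intro ζ hζ m f hf
  letI : Algebra F₁ F₂ := algebraAlong (heckeBetaBar Kb (N * r) r)
  haveI : IsScalarTower Kb F₁ F₂ := isScalarTower_along (heckeBetaBar Kb (N * r) r)
  have hfr : Module.finrank F₁ F₂ = r := e3_finrank_beta hr hrN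
  haveI : FiniteDimensional F₁ F₂ :=
    Module.finite_of_finrank_pos (by rw [hfr]; exact hr.pos)
  exact ⟨Algebra.norm F₁ f, mDiv_norm_of_isFF (isFF_FK (N * r)) (isFF_FK (N * r * r)) hf,
    e3_coe_norm_beta hr hrN hζ f⟩

/-- an element of `F(N r)` which is an `m`-th power in `F(N r²)` is an `m`-th power in `F(N r)`
(`gcd(m, r) = 1`). -/
theorem e3_sameClass_of_alpha (hr : r.Prime) {m : ℕ} (hm : 0 < m) (hmr : Nat.Coprime m r)
    {x y : F₁} (hx : x ≠ 0) (hy : y ≠ 0)
    (h : SameClass m (heckeAlphaBar Kb (N * r) r x) (heckeAlphaBar Kb (N * r) r y)) :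
    SameClass m x y := by
  letI : Algebra F₁ F₂ := algebraAlong (heckeAlphaBar Kb (N * r) r)
  have hd : Module.finrank F₁ F₂ = r := e3_finrank_alpha hr
  obtain ⟨ψ, hψ0, hψ⟩ := h
  have hψ' : algebraMap F₁ F₂ y = algebraMap F₁ F₂ x * ψ ^ m := hψ
  have hn := congrArg (Algebra.norm F₁) hψ'
  rw [map_mul, map_pow, Algebra.norm_algebraMap, Algebra.norm_algebraMap, hd] at hn
  obtain ⟨φ, hφ⟩ := Level.exists_pow_eq_of_coprime hm hmr (x := y * x⁻¹)
    (η := Algebra.norm F₁ ψ) (mul_ne_zero hy (inv_ne_zero hx)) (by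
      have hxr : x ^ r ≠ 0 := pow_ne_zero _ hx
      rw [mul_pow, hn, inv_pow]
      generalize Algebra.norm F₁ ψ ^ m = t
      field_simp)
  refine ⟨φ, ?_, ?_⟩
  · rintro rfl
    rw [zero_pow hm.ne'] at hφ
    exact mul_ne_zero hy (inv_ne_zero hx) hφ.symm
  · rw [hφ, mul_comm y, ← mul_assoc, mul_inv_cancel₀ hx, one_mul]

end norm

end Fermat.Agent.CARlib
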