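import Fermat.Agent.CAR.E3Norm

/-!
# T-CAR, row E3: the function level inputs of `E2Glue.car_of_fun`

`w2 := W_{r²}` (`e3WB`): `CommW2T`, `LowerU` (in `E3Norm`), and `CarFun` from the conclusion of
`CarHaupt` (norms along `α = heckeAlphaBar`, `β = heckeBetaBar`).
-/

set_option autoImplicit false
set_option linter.unusedSectionVars false
set_option linter.style.haveILetI false

open ModularCurve AlgebraicCurve Fermat.Agent.S24lib Fermat.Agent.S28lib Fermat.Agent.ESlib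
  Fermat.Agent.S37lib Fermat.Agent.UNIlib Fermat.Agent.ESlib.PartD

namespace Fermat.Agent.CARlib

variable {N r p : ℕ} [NeZero N] [NeZero r] [NeZero (N * r)] [NeZero (N * r * r)]

local notation "F₁" => modularFunctionFieldBar (N * r)
local notation "F₂" => modularFunctionFieldBar (N * r * r)

/-- `W_{r²}` over `ℚ̄`, as a ring homomorphism -/
noncomputable def e3WB (hr : r.Prime) (hrN : ¬ r ∣ N) : F₂ →+* F₂ :=
  (e3W Kb hr hrN).toAlgHom.toRingHom

theorem e3WB_apply (hr : r.Prime) (hrN : ¬ r ∣ N) (f : F₂) : e3WB hr hrN f = e3W Kb hr hrN f := rfl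

theorem mDiv_e3WB (hr : r.Prime) (hrN : ¬ r ∣ N) (m : ℕ) (f : F₂) (hf : MDiv Kb m f) :
    MDiv Kb m (e3WB hr hrN f) := mDiv_wQ Kb _ _ hf

theorem e3_commW2T (hr : r.Prime) (hrN : ¬ r ∣ N) :
    CommW2T (N := N * r) (r := r) (e3WB hr hrN) := by
  intro ℓ _ hℓ hℓN ζ hζ f h
  exact congrArg Subtype.val (wQ_heckeTS (Nat.mul_assoc N r r) (e3_coprime hr hrN) hℓ hℓN hζ f)

theorem e3_mDiv_norm_beta (hr : r.Prime) (hrN : ¬ r ∣ N) {m : ℕ} {f : F₂} (hf : MDiv Kb m f) :
    MDiv Kb m (letI := algebraAlong (heckeBetaBar Kb (N * r) r); Algebra.norm F₁ f) := by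
  letI : Algebra F₁ F₂ := algebraAlong (heckeBetaBar Kb (N * r) r)
  haveI : IsScalarTower Kb F₁ F₂ := isScalarTower_along (heckeBetaBar Kb (N * r) r)
  have hfr : Module.finrank F₁ F₂ = r := e3_finrank_beta hr hrN
  haveI : FiniteDimensional F₁ F₂ :=
    Module.finite_of_finrank_pos (by rw [hfr]; exact hr.pos)
  exact mDiv_norm_of_isFF (isFF_FK (N * r)) (isFF_FK (N * r * r)) hf

/-- `U_r f ~ 1` at level `N r²` implies `Norm_β f ~ 1` at level `N r` -/
theorem e3_sameClass_norm_beta (hr : r.Prime) (hrN : ¬ r ∣ N) (D : ThetaSys (N * r * r) p)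
    {m : ℕ} (hm : 0 < m) (hmr : Nat.Coprime m r) {ζ : Kbˣ} (hζ : IsPrimitiveRoot ζ r) {f : F₂}
    (hf : MDiv Kb m f) (h : SameClass m 1 (UrF (N := N * r) hr D hζ f)) :
    SameClass m 1 (letI := algebraAlong (heckeBetaBar Kb (N * r) r); Algebra.norm F₁ f) := by
  have e : UrF (N := N * r) hr D hζ f = heckeAlphaBar Kb (N * r) r
      (letI := algebraAlong (heckeBetaBar Kb (N * r) r); Algebra.norm F₁ f) := by
    apply Subtype.ext
    rw [coe_heckeAlphaBar, e3_coe_norm_beta hr hrN hζ]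
    rfl
  rw [e, ← map_one (heckeAlphaBar Kb (N * r) r)] at h
  exact e3_sameClass_of_alpha hr hm hmr one_ne_zero (e3_mDiv_norm_beta hr hrN hf).1 h

/-- **`CarFun` from the conclusion of `CarHaupt`** -/
theorem e3_carFun (hr : r.Prime) (hrN : ¬ r ∣ N) (hp : p.Prime) (hrp : r ≠ p)
    (D : ThetaSys (N * r * r) p) (J : Set GQ) (c : ℕ)
    (H : ∀ (n : ℕ) (f : F₂), MDiv Kb (p ^ n) f →
      (∀ σ ∈ J, SameClass (p ^ n) f (galF (N * r * r) σ f)) →
      SameClass (p ^ n) 1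
        (letI := algebraAlong (heckeAlphaBar Kb (N * r) r); Algebra.norm F₁ f) →
      SameClass (p ^ n) 1
        (letI := algebraAlong (heckeBetaBar Kb (N * r) r); Algebra.norm F₁ f) →
      SameClass (p ^ n) 1 (f ^ c)) :
    CarFun (N := N * r) (e3WB hr hrN) hr D J c := by
  intro n ζ hζ f hf hJ h1 h2
  have hm : 0 < p ^ n := pow_pos hp.pos n
  have hmr : Nat.Coprime (p ^ n) r :=
    Nat.Coprime.pow_left n ((Nat.coprime_primes hp hr).2 (fun h => hrp h.symm))
  refine H n f hf hJ ?_ (e3_sameClass_norm_beta hr hrN D hm hmr hζ hf h2)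
  have h3 := e3_sameClass_norm_beta hr hrN D hm hmr hζ (mDiv_e3WB hr hrN _ f hf) h1
  have h4 := sameClass_wr Kb hr hrN h3
  rw [map_one] at h4
  rw [e3_norm_alpha hr hrN]
  exact h4

end Fermat.Agent.CARlib
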