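import Fermat.Agent.CAR.E1
import Fermat.Agent.UNI.S35Final

/-!
# T-CAR, block E: the interface `CarHaupt` (function fields over `ℚ̄`) and `CarAll ⇐ CarHaupt`

Level `N * r * r` (`r ∤ N`), lower level `N * r`; `α = heckeAlphaBar Kb (N * r) r` (inclusion),
`β = heckeBetaBar Kb (N * r) r` (`x(q) ↦ x(q ^ r)`).
-/

set_option autoImplicit false
set_option linter.unusedSectionVars false

open ModularCurve AlgebraicCurve Fermat.Agent.S28lib CongruenceSubgroup
open scoped TensorProduct

namespace Fermat.Agent.CARlib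

open Fermat.Agent.UNIlib Fermat.Agent.ESlib Fermat.Agent.ESlib.PartD IsLocalRing
  Fermat.Agent.S24lib Fermat.Agent.S37lib

/-- the norm along an algebra homomorphism of fields -/
noncomputable def normAlong {K F F' : Type*} [Field K] [Field F] [Field F'] [Algebra K F]
    [Algebra K F'] (φ : F →ₐ[K] F') : F' →* F :=
  letI := algebraAlong φ
  Algebra.norm F

/-- **What the geometric side has to deliver** (blueprint: `CarHaupt`). -/
def CarHaupt : Prop :=
  ∀ (N r p : ℕ) [NeZero (N * r)] [NeZero r], r.Prime → ¬ r ∣ N → p.Prime → r ≠ p →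
    ∀ A : ValuationSubring Qb, A.LiesOverPrime r →
    ∃ c : ℕ, 0 < c ∧ ∀ (n : ℕ) (f : modularFunctionFieldBar (N * r * r)), MDiv Qb (p ^ n) f →
      (∀ σ ∈ A.inertiaSubgroupIn ℚ, SameClass (p ^ n) f (galF (N * r * r) σ f)) →
      SameClass (p ^ n) 1 (normAlong (heckeAlphaBar Kb (N * r) r) f) →
      SameClass (p ^ n) 1 (normAlong (heckeBetaBar Kb (N * r) r) f) →
      SameClass (p ^ n) 1 (f ^ c)

end Fermat.Agent.CARlib
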