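import Fermat.Agent.CAR.EIface
import Fermat.Agent.CAR.E3Top

/-!
# T-CAR, block E, row E5: `CarAll ⇐ CarHaupt` (assembly)
-/

set_option autoImplicit false
set_option linter.unusedSectionVars false

open ModularCurve AlgebraicCurve Fermat.Agent.S28lib CongruenceSubgroup
open scoped TensorProduct

namespace Fermat.Agent.CARlib

open Fermat.Agent.UNIlib Fermat.Agent.ESlib Fermat.Agent.ESlib.PartD IsLocalRing
  Fermat.Agent.S24lib Fermat.Agent.S37lib

theorem e5_exists_eq_mul_mul {M q : ℕ} (hM : M ≠ 0) (hq : q.Prime) (h : M.factorization q = 2) :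
    ∃ N, M = N * q * q ∧ ¬ q ∣ N := by
  have h1 : q ^ 2 ∣ M := (hq.pow_dvd_iff_le_factorization hM).2 h.ge
  obtain ⟨N, hN⟩ := h1
  refine ⟨N, by rw [hN]; ring, fun hqN => ?_⟩
  have h2 : q ^ 3 ∣ M := by
    obtain ⟨N', rfl⟩ := hqN
    exact ⟨N', by rw [hN]; ring⟩
  have h3 := (hq.pow_dvd_iff_le_factorization hM).1 h2
  omega

/-- **block E**: `CarAll` from `CarHaupt` -/
theorem e5_carAll_of_carHaupt (H : CarHaupt) : CarAll := by
  intro M _ p hp g hg O _ _ _ _ _ hpO lam hlam q hq hqp hq2 A hA v hv hfix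
  obtain ⟨N, rfl, hqN⟩ := e5_exists_eq_mul_mul (NeZero.ne M) hq hq2
  have hN : NeZero N := ⟨fun h => NeZero.ne (N * q * q) (by rw [h, zero_mul, zero_mul])⟩
  have hq0 : NeZero q := ⟨hq.ne_zero⟩
  have hNq : NeZero (N * q) := ⟨Nat.mul_ne_zero hN.ne hq.ne_zero⟩
  obtain ⟨c, hc0, Hc⟩ := H N q p hq hqN hp hqp A hA
  exact car_of_fun (N := N * q) (e3WB hq hqN) (mDiv_e3WB hq hqN) hq
    (thetaSys (N * q * q) p hp.pos) hp
    (fun ℓ hℓ hℓN hℓp A hA =>
      kilAt_of_kilHaupt hℓ (kilHaupt hℓ A hA) (N * q * q) hℓN p hp (fun h => hℓp h.symm))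
    (thetaSys (N * q) p hp.pos) hpO hg lam hlam (e3_commW2T hq hqN) (e3_lowerU hq hqN)
    (↑(A.inertiaSubgroupIn ℚ) : Set GQ) c hc0.ne'
    (e3_carFun hq hqN hp hqp _ _ c (fun n f h1 h2 h3 h4 => Hc n f h1 h2 h3 h4)) v hv hfix

end Fermat.Agent.CARlib
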