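import Mathlib

/-!
# T-CAR, block I: dictionary "global rings `B₁`, `B₂` -> local rings `O₁`, `O`", part A

`O` = any localisation of `B₂` at the prime `𝔫`, `O₁` = any localisation of `B₁` at `𝔫.comap Ea`.
`il_exists_frac`, `il_sub`, `il_map`, `il_desc_pow`.
-/

set_option autoImplicit false

open IsLocalRing

namespace Fermat.Agent.CARlib

section one

variable {B F O : Type*} [CommRing B] [Field F] [Algebra B F] (𝔫 : Ideal B) [𝔫.IsPrime]
  [CommRing O] [Algebra B O] [IsLocalization.AtPrime O 𝔫] [Algebra O F] [IsScalarTower B O F]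

/-- every element of `O` is a fraction `b / s`, `s ∉ 𝔫` -/
theorem il_exists_frac (x : O) :
    ∃ b s : B, s ∉ 𝔫 ∧ algebraMap B O s * x = algebraMap B O b := by
  obtain ⟨⟨b, s⟩, h⟩ := IsLocalization.surj 𝔫.primeCompl x
  exact ⟨b, s, s.2, by rw [mul_comm]; exact h⟩

omit [𝔫.IsPrime] in
/-- elements outside `𝔫 ⊇ P` have value one -/
theorem il_val_eq_one (W : ValuationSubring F) (P : Ideal B)
    (hsub : ∀ b : B, algebraMap B F b ∈ W)
    (hmem : ∀ b : B, b ∈ P ↔ W.valuation (algebraMap B F b) < 1) (hP : P ≤ 𝔫) {s : B}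
    (hs : s ∉ 𝔫) : W.valuation (algebraMap B F s) = 1 :=
  le_antisymm ((W.valuation_le_one_iff _).mpr (hsub s))
    (not_lt.mp fun h => hs (hP ((hmem s).mpr h)))

/-- `O ⊆ W` if the centre `P` of `W` on `B` lies in `𝔫` -/
theorem il_sub (W : ValuationSubring F) (P : Ideal B) (hsub : ∀ b : B, algebraMap B F b ∈ W)
    (hmem : ∀ b : B, b ∈ P ↔ W.valuation (algebraMap B F b) < 1) (hP : P ≤ 𝔫) (x : O) :
    algebraMap O F x ∈ W := by
  obtain ⟨b, s, hs, h⟩ := il_exists_frac 𝔫 x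
  have h1 := il_val_eq_one 𝔫 W P hsub hmem hP hs
  have h2 : algebraMap B F s * algebraMap O F x = algebraMap B F b := by
    rw [IsScalarTower.algebraMap_apply B O F, IsScalarTower.algebraMap_apply B O F, ← map_mul, h]
  rw [← W.valuation_le_one_iff]
  have h3 : W.valuation (algebraMap O F x) = W.valuation (algebraMap B F b) := by
    rw [← h2, map_mul, h1, one_mul]
  rw [h3]
  exact (W.valuation_le_one_iff _).mpr (hsub b)

end one

section two

variable {B₁ B₂ F₁ F₂ O₁ O : Type*} [CommRing B₁] [CommRing B₂] [Field F₁] [Field F₂]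
  [Algebra B₁ F₁] [Algebra B₂ F₂] (Ea : B₁ →+* B₂) (ea : F₁ →+* F₂)
  (hEa : ∀ b, algebraMap B₂ F₂ (Ea b) = ea (algebraMap B₁ F₁ b))
  (𝔫 : Ideal B₂) [𝔫.IsPrime]
  [CommRing O] [IsLocalRing O] [Algebra B₂ O] [IsLocalization.AtPrime O 𝔫] [Algebra O F₂]
  [IsScalarTower B₂ O F₂]
  [CommRing O₁] [IsLocalRing O₁] [Algebra B₁ O₁] [IsLocalization.AtPrime O₁ (𝔫.comap Ea)]
  [Algebra O₁ F₁] [IsScalarTower B₁ O₁ F₁]

include hEa 𝔫 in
/-- the local homomorphism `O₁ → O` induced by `Ea` -/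
theorem il_map : ∃ E : O₁ →+* O, IsLocalHom E ∧
    (∀ b, E (algebraMap B₁ O₁ b) = algebraMap B₂ O (Ea b)) ∧
    ∀ x, algebraMap O F₂ (E x) = ea (algebraMap O₁ F₁ x) := by
  have hy : (𝔫.comap Ea).primeCompl ≤ 𝔫.primeCompl.comap Ea := fun x hx => hx
  let E : O₁ →+* O := IsLocalization.map O Ea hy
  have hE : ∀ b, E (algebraMap B₁ O₁ b) = algebraMap B₂ O (Ea b) := fun b =>
    IsLocalization.map_eq hy b
  refine ⟨E, ⟨fun x hx => ?_⟩, hE, fun x => ?_⟩
  · obtain ⟨b, s, hs, h⟩ := il_exists_frac (𝔫.comap Ea) x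
    have h1 : algebraMap B₂ O (Ea s) * E x = algebraMap B₂ O (Ea b) := by
      rw [← hE, ← hE, ← map_mul, h]
    have h2 : IsUnit (algebraMap B₂ O (Ea s)) :=
      (IsLocalization.AtPrime.isUnit_to_map_iff O 𝔫 _).mpr hs
    have h3 : IsUnit (algebraMap B₂ O (Ea b)) := h1 ▸ h2.mul hx
    have h4 : b ∈ (𝔫.comap Ea).primeCompl := (IsLocalization.AtPrime.isUnit_to_map_iff O 𝔫 _).mp h3
    have h5 : IsUnit (algebraMap B₁ O₁ b) :=
      (IsLocalization.AtPrime.isUnit_to_map_iff O₁ (𝔫.comap Ea) _).mpr h4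
    rw [← h] at h5
    exact isUnit_of_mul_isUnit_right h5
  · have : (algebraMap O F₂).comp E = ea.comp (algebraMap O₁ F₁) := by
      apply IsLocalization.ringHom_ext (𝔫.comap Ea).primeCompl
      ext b
      simp only [RingHom.comp_apply, hE]
      rw [← IsScalarTower.algebraMap_apply B₂ O F₂, ← IsScalarTower.algebraMap_apply B₁ O₁ F₁, hEa]
    exact congrArg (fun f => f x) this

include hEa in
/-- descent of `k`-th powers modulo `W` from the global statement (`k = 1`: `hdV`, `hdVV`;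
`k = r`: `hdF` of `i6_rel`) -/
theorem il_desc_pow (W : ValuationSubring F₂) (P : Ideal B₂)
    (hsub : ∀ b : B₂, algebraMap B₂ F₂ b ∈ W)
    (hmem : ∀ b : B₂, b ∈ P ↔ W.valuation (algebraMap B₂ F₂ b) < 1) (hP : P ≤ 𝔫) (k : ℕ)
    (hres : ∀ x : B₂, ∃ u : B₁, x ^ k - Ea u ∈ P) (h : O) :
    ∃ c : O₁, W.valuation (ea (algebraMap O₁ F₁ c) - algebraMap O F₂ h ^ k) < 1 := by
  obtain ⟨b, s, hs, hbs⟩ := il_exists_frac 𝔫 h
  obtain ⟨u, hu⟩ := hres b
  obtain ⟨v, hv⟩ := hres s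
  have hsk : s ^ k ∉ 𝔫 := fun hh => hs (Ideal.IsPrime.mem_of_pow_mem inferInstance k hh)
  have hv' : Ea v ∉ 𝔫 := by
    intro hh
    apply hsk
    have := 𝔫.add_mem (hP hv) hh
    simpa using this
  have hvc : v ∈ (𝔫.comap Ea).primeCompl := hv'
  refine ⟨IsLocalization.mk' O₁ u ⟨v, hvc⟩, ?_⟩
  set c : O₁ := IsLocalization.mk' O₁ u ⟨v, hvc⟩ with hc
  have hc1 : c * algebraMap B₁ O₁ v = algebraMap B₁ O₁ u := IsLocalization.mk'_spec O₁ u ⟨v, hvc⟩
  have hc2 : ea (algebraMap O₁ F₁ c) * algebraMap B₂ F₂ (Ea v) = algebraMap B₂ F₂ (Ea u) := by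
    rw [hEa, hEa, IsScalarTower.algebraMap_apply B₁ O₁ F₁, IsScalarTower.algebraMap_apply B₁ O₁ F₁,
      ← map_mul, ← map_mul, hc1]
  have hh2 : algebraMap B₂ F₂ s * algebraMap O F₂ h = algebraMap B₂ F₂ b := by
    rw [IsScalarTower.algebraMap_apply B₂ O F₂, IsScalarTower.algebraMap_apply B₂ O F₂, ← map_mul,
      hbs]
  have v1 := il_val_eq_one 𝔫 W P hsub hmem hP hsk
  have v2 := il_val_eq_one 𝔫 W P hsub hmem hP hv'
  have key : (ea (algebraMap O₁ F₁ c) - algebraMap O F₂ h ^ k) *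
      (algebraMap B₂ F₂ (Ea v) * algebraMap B₂ F₂ (s ^ k)) =
      algebraMap B₂ F₂ (Ea u * (s ^ k - Ea v) - (b ^ k - Ea u) * Ea v) := by
    have e1 : algebraMap O F₂ h ^ k * algebraMap B₂ F₂ (s ^ k) = algebraMap B₂ F₂ (b ^ k) := by
      rw [map_pow, map_pow, ← mul_pow, mul_comm, hh2]
    calc (ea (algebraMap O₁ F₁ c) - algebraMap O F₂ h ^ k) *
        (algebraMap B₂ F₂ (Ea v) * algebraMap B₂ F₂ (s ^ k))
        = (ea (algebraMap O₁ F₁ c) * algebraMap B₂ F₂ (Ea v)) * algebraMap B₂ F₂ (s ^ k)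
          - (algebraMap O F₂ h ^ k * algebraMap B₂ F₂ (s ^ k)) * algebraMap B₂ F₂ (Ea v) := by ring
      _ = algebraMap B₂ F₂ (Ea u) * algebraMap B₂ F₂ (s ^ k)
          - algebraMap B₂ F₂ (b ^ k) * algebraMap B₂ F₂ (Ea v) := by rw [hc2, e1]
      _ = _ := by
        simp only [map_sub, map_mul]
        ring
  have hmemP : Ea u * (s ^ k - Ea v) - (b ^ k - Ea u) * Ea v ∈ P :=
    P.sub_mem (P.mul_mem_left _ hv) (P.mul_mem_right _ hu)
  have := (hmem _).mp hmemP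
  rw [← key, map_mul, map_mul, v1, v2, mul_one, mul_one] at this
  exact this

end two

end Fermat.Agent.CARlib
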