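import Mathlib
import Fermat.Agent.CAR.A5Final
import Fermat.Agent.CAR.ILocA

/-!
# T-CAR, block I, row (I0) = (R1): existence of the values of `H` on the branches through `𝔫`

`B` noetherian, `𝔫` a prime, `O = B_𝔫`, `W ⊇ B` a valuation ring with centre `P ≤ 𝔫`, `B / P` a
discrete valuation ring (or a field) near `𝔫`, every element of `W` a fraction of `B` with denominator
outside `P`.  If `u H ^ m ≡ 1` modulo the maximal ideal of `W` with `u ∈ Oˣ`, then `H ≡ d` modulo the
maximal ideal of `W` for some `d ∈ Oˣ`.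
-/

set_option autoImplicit false

namespace Fermat.Agent.CARlib

open IsLocalRing

/-- **(I0)** -/
theorem i0_lift {B O F : Type*} [CommRing B] [IsNoetherianRing B] [Field F] [Algebra B F]
    (𝔫 : Ideal B) [𝔫.IsPrime] [CommRing O] [IsLocalRing O] [Algebra B O]
    [IsLocalization.AtPrime O 𝔫] [Algebra O F] [IsScalarTower B O F]
    (W : ValuationSubring F) (hBW : ∀ x, algebraMap B F x ∈ W)
    (P : Ideal B) (hP : ∀ x, x ∈ P ↔ W.valuation (algebraMap B F x) < 1)
    (hPn : P ≤ 𝔫) (hdvr : C.CDvr 𝔫 P)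
    (hfrac : ∀ x ∈ W, ∃ a b : B, b ∉ P ∧ x * algebraMap B F b = algebraMap B F a)
    {m : ℕ} (hm : 0 < m) {H : F} (u : Oˣ)
    (hH : W.valuation (algebraMap O F u * H ^ m - 1) < 1) :
    ∃ d : Oˣ, W.valuation (H - algebraMap O F d) < 1 := by
  have hOW : ∀ x : O, algebraMap O F x ∈ W := il_sub 𝔫 W P hBW hP hPn
  let f : O →+* W := (algebraMap O F).codRestrict W.toSubring hOW
  let P' : Ideal O := (maximalIdeal W).comap f
  have hP'prime : P'.IsPrime := Ideal.comap_isPrime f _
  have hP' : ∀ x : O, x ∈ P' ↔ W.valuation (algebraMap O F x) < 1 := by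
    intro x
    change f x ∈ maximalIdeal W ↔ _
    rw [W.valuation_lt_one_iff]
    rfl
  have hBO : ∀ b : B, algebraMap O F (algebraMap B O b) = algebraMap B F b := fun b =>
    (IsScalarTower.algebraMap_apply B O F b).symm
  have hPP' : ∀ b : B, algebraMap B O b ∈ P' ↔ b ∈ P := by
    intro b
    rw [hP', hP, hBO]
  by_cases hne : P' = maximalIdeal O
  · -- `P = 𝔫`
    have hnP : 𝔫 ≤ P := by
      intro x hx
      rw [← hPP', hne]
      exact (IsLocalization.AtPrime.to_map_mem_maximal_iff O 𝔫 x).mpr hx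
    have hHv : W.valuation H = 1 := by
      have h1 : W.valuation (algebraMap O F u * H ^ m) = 1 := by
        have h2 : algebraMap O F u * H ^ m = 1 + (algebraMap O F u * H ^ m - 1) := by ring
        rw [h2]
        exact Valuation.map_one_add_of_lt _ hH
      rw [map_mul, a5_unit_val W hOW u, one_mul, map_pow] at h1
      exact (pow_eq_one_iff.1 h1).resolve_right hm.ne'
    obtain ⟨a, b, hb, hab⟩ := hfrac H ((W.valuation_le_one_iff _).1 hHv.le)
    have hb𝔫 : b ∉ 𝔫 := fun h => hb (hnP h)
    have hbv := il_val_eq_one 𝔫 W P hBW hP hPn hb𝔫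
    have ha : a ∉ 𝔫 := by
      intro h
      have := (hP a).1 (hnP h)
      rw [← hab, map_mul, hHv, hbv, one_mul] at this
      exact lt_irrefl _ this
    have hau : IsUnit (algebraMap B O a) := (IsLocalization.AtPrime.isUnit_to_map_iff O 𝔫 a).mpr ha
    have hbu : IsUnit (algebraMap B O b) :=
      (IsLocalization.AtPrime.isUnit_to_map_iff O 𝔫 b).mpr hb𝔫
    refine ⟨hau.unit * hbu.unit⁻¹, ?_⟩
    have hb0 : algebraMap B F b ≠ 0 := by
      intro h
      rw [h, map_zero] at hbv
      exact zero_ne_one hbv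
    have e1 : algebraMap O F ((hau.unit * hbu.unit⁻¹ : Oˣ) : O) * algebraMap B F b =
        algebraMap B F a := by
      rw [← hBO b, ← map_mul, Units.val_mul, mul_assoc]
      have : ((hbu.unit⁻¹ : Oˣ) : O) * algebraMap B O b = 1 := by
        have := hbu.unit.inv_mul
        rwa [IsUnit.unit_spec] at this
      rw [this, mul_one, IsUnit.unit_spec, hBO]
    have e2 : H = algebraMap O F ((hau.unit * hbu.unit⁻¹ : Oˣ) : O) :=
      mul_right_cancel₀ hb0 (hab.trans e1.symm)
    rw [← e2, sub_self, map_zero]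
    exact zero_lt_one
  · have hnoeth : IsNoetherianRing O := IsLocalization.isNoetherianRing 𝔫.primeCompl O inferInstance
    obtain ⟨t, ht, hdv⟩ := hdvr
    have htm : algebraMap B O t ∈ maximalIdeal O :=
      (IsLocalization.AtPrime.to_map_mem_maximal_iff O 𝔫 t).mpr ht
    have hle : maximalIdeal O ≤ P' ⊔ Ideal.span {algebraMap B O t} := by
      intro x hx
      obtain ⟨b, s, hs, hbs⟩ := il_exists_frac 𝔫 x
      have hb : b ∈ 𝔫 := by
        rw [← IsLocalization.AtPrime.to_map_mem_maximal_iff O 𝔫 b, ← hbs]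
        exact Ideal.mul_mem_left _ _ hx
      obtain ⟨s', hs', y, hy⟩ := hdv b hb
      have hsu : IsUnit (algebraMap B O (s' * s)) :=
        (IsLocalization.AtPrime.isUnit_to_map_iff O 𝔫 _).mpr
          (fun h => ((Ideal.IsPrime.mem_or_mem inferInstance h).elim hs' hs))
      have e : algebraMap B O (s' * s) * x =
          algebraMap B O (s' * b - t * y) + algebraMap B O t * algebraMap B O y := by
        rw [map_mul, mul_assoc, hbs, map_sub, map_mul, map_mul]
        ring
      have hmem : algebraMap B O (s' * s) * x ∈ P' ⊔ Ideal.span {algebraMap B O t} := by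
        rw [e]
        exact Ideal.add_mem _ (Ideal.mem_sup_left ((hPP' _).2 hy))
          (Ideal.mem_sup_right (Ideal.mul_mem_right _ _ (Ideal.subset_span rfl)))
      exact (Ideal.unit_mul_mem_iff_mem _ hsu).1 hmem
    have hD : IsDiscreteValuationRing (O ⧸ P') := a5_dvr_quot P' htm hle hne
    refine a5_exists_lift W P' hOW hP' hD ?_ hm u hH
    intro x hx
    obtain ⟨a, b, hb, hab⟩ := hfrac x hx
    refine ⟨algebraMap B O a, algebraMap B O b, fun h => hb ((hPP' b).1 h), ?_⟩
    rw [hBO, hBO, hab, sub_self, map_zero]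
    exact zero_lt_one

end Fermat.Agent.CARlib
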