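import Mathlib

/-!
# T-CAR, block I (gluing), steps (I2)-(I7) in abstract form (Mathlib only)

`O₁ ⊆ F₁`, `O ⊆ F₂` local rings (at a node `x₁` of level 1 and at the point `x` above it),
`e : F₁ → F₂`, `Nm` the norm along `e`.  The *value* of `H : F₂` on the branch `W` at `x` is given by
a lift `d : O`, `W.valuation (H - d) < 1` (as in `a5_local`).
-/

set_option autoImplicit false

open IsLocalRing

namespace Fermat.Agent.CARlib

section val

variable {F : Type*} [Field F] (W : ValuationSubring F)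

theorem i6_mem_of_lt {x : F} (h : W.valuation x < 1) : x ∈ W :=
  (W.valuation_le_one_iff x).1 h.le

theorem i6_mul_lt {x y : F} (hx : x ∈ W) (hy : W.valuation y < 1) : W.valuation (x * y) < 1 := by
  rw [map_mul]
  exact lt_of_le_of_lt (mul_le_of_le_one_left' ((W.valuation_le_one_iff x).2 hx)) hy

theorem i6_add_lt {x y : F} (hx : W.valuation x < 1) (hy : W.valuation y < 1) :
    W.valuation (x + y) < 1 := W.valuation.map_add_lt hx hy

theorem i6_sub_lt {x y : F} (hx : W.valuation x < 1) (hy : W.valuation y < 1) :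
    W.valuation (x - y) < 1 := W.valuation.map_sub_lt hx hy

theorem i6_neg_lt {x y : F} (hx : W.valuation (x - y) < 1) : W.valuation (y - x) < 1 := by
  rwa [← neg_sub, Valuation.map_neg]

theorem i6_mem_of_sub_lt {x y : F} (hy : y ∈ W) (h : W.valuation (x - y) < 1) : x ∈ W := by
  have := W.add_mem _ _ (i6_mem_of_lt W h) hy
  rwa [sub_add_cancel] at this

theorem i6_pow_sub_pow_lt {x y : F} (hx : x ∈ W) (hy : y ∈ W) (h : W.valuation (x - y) < 1)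
    (n : ℕ) : W.valuation (x ^ n - y ^ n) < 1 := by
  rw [← (Commute.all x y).geom_sum₂_mul]
  refine i6_mul_lt W ?_ h
  exact W.toSubring.sum_mem (fun i _ => W.mul_mem _ _ (W.pow_mem hx _) (W.pow_mem hy _))

theorem i6_mul_sub_mul_lt {x y x' y' : F} (hx : x ∈ W) (hy' : y' ∈ W)
    (h : W.valuation (x - x') < 1) (h' : W.valuation (y - y') < 1) :
    W.valuation (x * y - x' * y') < 1 := by
  have e : x * y - x' * y' = x * (y - y') + y' * (x - x') := by ring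
  rw [e]
  exact i6_add_lt W (i6_mul_lt W hx h') (i6_mul_lt W hy' h)

/-- an element of a local ring `O ⊆ W` which is small for `W` lies in the maximal ideal -/
theorem i6_mem_max {O : Type*} [CommRing O] [IsLocalRing O] [Algebra O F]
    (hOW : ∀ x : O, algebraMap O F x ∈ W) {x : O} (hx : W.valuation (algebraMap O F x) < 1) :
    x ∈ maximalIdeal O := by
  rw [mem_maximalIdeal, mem_nonunits_iff]
  intro hu
  obtain ⟨y, hy⟩ := hu.exists_right_inv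
  have h1 : algebraMap O F x * algebraMap O F y = 1 := by rw [← map_mul, hy, map_one]
  have h2 := i6_mul_lt W (hOW y) hx
  rw [mul_comm, h1, map_one] at h2
  exact lt_irrefl _ h2

/-- **(I2)** `a ^ m = 1 (W)`, `ζ` a primitive `m`-th root of unity: `a = ζ ^ i (W)` for some `i` -/
theorem i2_root {m : ℕ} (hm : 0 < m) {ζ : F} (hζ : IsPrimitiveRoot ζ m) {a : F}
    (ha : W.valuation (a ^ m - 1) < 1) : ∃ i < m, W.valuation (a - ζ ^ i) < 1 := by
  have : NeZero m := ⟨hm.ne'⟩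
  have h1 : a ^ m - 1 = ∏ ξ ∈ Polynomial.nthRootsFinset m (1 : F), (a - ξ) := by
    have h2 := congrArg (Polynomial.eval a) (Polynomial.X_pow_sub_one_eq_prod hm hζ)
    simpa [Polynomial.eval_prod] using h2
  rw [h1, map_prod] at ha
  have h3 : ∃ ξ ∈ Polynomial.nthRootsFinset m (1 : F), W.valuation (a - ξ) < 1 := by
    by_contra hcon
    have hcon' : ∀ ξ ∈ Polynomial.nthRootsFinset m (1 : F), 1 ≤ W.valuation (a - ξ) :=
      fun ξ hξ => not_lt.1 (fun h => hcon ⟨ξ, hξ, h⟩)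
    exact absurd ha (not_lt.2 (Finset.one_le_prod' hcon'))
  obtain ⟨ξ, hξ, hlt⟩ := h3
  rw [Polynomial.mem_nthRootsFinset hm] at hξ
  obtain ⟨i, hi, rfl⟩ := hζ.eq_pow_of_pow_eq_one hξ
  exact ⟨i, hi, hlt⟩

end val

section rel

variable {O₁ O F₁ F₂ : Type*} [CommRing O₁] [IsLocalRing O₁] [CommRing O] [IsLocalRing O]
  [Field F₁] [Field F₂] [Algebra O₁ F₁] [Algebra O F₂]

/-- **(I3)-(I6)** the relation between the three values of `H` at a supersingular point -/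
theorem i6_rel (E : O₁ →+* O) [IsLocalHom E] (e : F₁ →+* F₂)
    (hE : ∀ x, algebraMap O F₂ (E x) = e (algebraMap O₁ F₁ x)) (Nm : F₂ →* F₁)
    (VF VV : ValuationSubring F₁) (WFV WVF WVV : ValuationSubring F₂)
    (hO₁F : ∀ x : O₁, algebraMap O₁ F₁ x ∈ VF) (hO₁V : ∀ x : O₁, algebraMap O₁ F₁ x ∈ VV)
    (hOFV : ∀ x : O, algebraMap O F₂ x ∈ WFV) (hOVF : ∀ x : O, algebraMap O F₂ x ∈ WVF)
    (hOVV : ∀ x : O, algebraMap O F₂ x ∈ WVV) {r : ℕ}
    (hN1F : ∀ H ∈ WFV, ∀ c ∈ VF, WFV.valuation (e c - H ^ r) < 1 → VF.valuation (Nm H - c) < 1)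
    (hN1V : ∀ H, H ∈ WVF → H ∈ WVV → ∀ a1 ∈ VV, ∀ a2 ∈ VV, WVF.valuation (e a1 - H) < 1 →
      WVV.valuation (e a2 - H) < 1 → VV.valuation (Nm H - a1 * a2 ^ (r - 1)) < 1)
    (hdF : ∀ h : O, ∃ c : O₁,
      WFV.valuation (e (algebraMap O₁ F₁ c) - algebraMap O F₂ h ^ r) < 1)
    (hdV : ∀ h : O, ∃ c : O₁, WVF.valuation (e (algebraMap O₁ F₁ c) - algebraMap O F₂ h) < 1)
    (hdVV : ∀ h : O, ∃ c : O₁, WVV.valuation (e (algebraMap O₁ F₁ c) - algebraMap O F₂ h) < 1)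
    {m : ℕ} (hroot : ∀ x : F₁, (∃ v : O₁, x ^ m = algebraMap O₁ F₁ v) →
      ∃ w : O₁, algebraMap O₁ F₁ w = x)
    {g H : F₂} (hH : H ≠ 0) {u : O} (hg : g = algebraMap O F₂ u * H ^ m)
    (hNu : ∃ v : O₁, Nm (algebraMap O F₂ u) = algebraMap O₁ F₁ v)
    {a : F₁} (ha : Nm g = a ^ m) {ξF ξV : O₁}
    (haF : VF.valuation (a - algebraMap O₁ F₁ ξF) < 1)
    (haV : VV.valuation (a - algebraMap O₁ F₁ ξV) < 1) {d1 d2 d3 : O}
    (h1 : WFV.valuation (H - algebraMap O F₂ d1) < 1)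
    (h2 : WVF.valuation (H - algebraMap O F₂ d2) < 1)
    (h3 : WVV.valuation (H - algebraMap O F₂ d3) < 1) :
    d1 ^ r * E ξV - E ξF * (d2 * d3 ^ (r - 1)) ∈ maximalIdeal O := by
  have hNH : Nm H ≠ 0 := ((isUnit_iff_ne_zero.2 hH).map Nm).ne_zero
  obtain ⟨v, hv⟩ := hNu
  -- (I3)
  obtain ⟨w, hw⟩ := hroot (a / Nm H) ⟨v, by
    rw [div_pow, ← ha, hg, map_mul, map_pow, hv, mul_div_assoc, div_self (pow_ne_zero _ hNH),
      mul_one]⟩
  have hwa : algebraMap O₁ F₁ w * Nm H = a := by rw [hw, div_mul_cancel₀ _ hNH]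
  have hHFV : H ∈ WFV := i6_mem_of_sub_lt WFV (hOFV d1) h1
  have hHVF : H ∈ WVF := i6_mem_of_sub_lt WVF (hOVF d2) h2
  have hHVV : H ∈ WVV := i6_mem_of_sub_lt WVV (hOVV d3) h3
  -- (I4)
  obtain ⟨c, hc⟩ := hdF d1
  have hc' : WFV.valuation (e (algebraMap O₁ F₁ c) - H ^ r) < 1 := by
    have := i6_sub_lt WFV hc (i6_pow_sub_pow_lt WFV hHFV (hOFV d1) h1 r)
    rwa [sub_sub_sub_cancel_right] at this
  have hNc := hN1F H hHFV _ (hO₁F c) hc'
  have hI4 : w * c - ξF ∈ maximalIdeal O₁ := by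
    apply i6_mem_max VF hO₁F
    have e1 : algebraMap O₁ F₁ (w * c - ξF)
        = (a - algebraMap O₁ F₁ ξF) - algebraMap O₁ F₁ w * (Nm H - algebraMap O₁ F₁ c) := by
      rw [map_sub, map_mul, ← hwa]
      ring
    rw [e1]
    exact i6_sub_lt VF haF (i6_mul_lt VF (hO₁F w) hNc)
  have hcd : E c - d1 ^ r ∈ maximalIdeal O := by
    apply i6_mem_max WFV hOFV
    rw [map_sub, hE, map_pow]
    exact hc
  -- (I5)
  obtain ⟨a1, ha1⟩ := hdV d2
  obtain ⟨a2, ha2⟩ := hdVV d3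
  have ha1' : WVF.valuation (e (algebraMap O₁ F₁ a1) - H) < 1 := by
    have := i6_sub_lt WVF ha1 h2
    rwa [sub_sub_sub_cancel_right] at this
  have ha2' : WVV.valuation (e (algebraMap O₁ F₁ a2) - H) < 1 := by
    have := i6_sub_lt WVV ha2 h3
    rwa [sub_sub_sub_cancel_right] at this
  have hNa := hN1V H hHVF hHVV _ (hO₁V a1) _ (hO₁V a2) ha1' ha2'
  have hI5 : w * (a1 * a2 ^ (r - 1)) - ξV ∈ maximalIdeal O₁ := by
    apply i6_mem_max VV hO₁V
    have e1 : algebraMap O₁ F₁ (w * (a1 * a2 ^ (r - 1)) - ξV)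
        = (a - algebraMap O₁ F₁ ξV) - algebraMap O₁ F₁ w *
          (Nm H - algebraMap O₁ F₁ a1 * algebraMap O₁ F₁ a2 ^ (r - 1)) := by
      rw [map_sub, map_mul, map_mul, map_pow, ← hwa]
      ring
    rw [e1]
    exact i6_sub_lt VV haV (i6_mul_lt VV (hO₁V w) hNa)
  have ha1d : E a1 - d2 ∈ maximalIdeal O := by
    apply i6_mem_max WVF hOVF
    rw [map_sub, hE]
    exact ha1
  have ha2d : E a2 - d3 ∈ maximalIdeal O := by
    apply i6_mem_max WVV hOVV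
    rw [map_sub, hE]
    exact ha2
  -- (I6): compute in the residue field
  have hmap : ∀ x ∈ maximalIdeal O₁, E x ∈ maximalIdeal O := fun x hx =>
    map_nonunit E x hx
  have k4 := hmap _ hI4
  have k5 := hmap _ hI5
  rw [← residue_eq_zero_iff] at k4 k5 hcd ha1d ha2d ⊢
  simp only [map_sub, map_mul, map_pow, sub_eq_zero] at k4 k5 hcd ha1d ha2d ⊢
  rw [← k4, ← k5, hcd, ha1d, ha2d]
  ring

end rel

section seven

variable {O : Type*} [CommRing O] [IsLocalRing O]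

theorem i7_aux {k : Type*} [Field k] {s : ℕ} {D1 D2 D3 xF xV xF' xV' : k} (hD1 : D1 ≠ 0)
    (hxF : xF ≠ 0) (hxF' : xF' ≠ 0)
    (h1 : D1 ^ (s + 1) * xV = xF * (D2 * D3 ^ s))
    (h2 : D2 ^ (s + 1) * xV' = xF' * (D1 * D3 ^ s)) :
    D1 ^ (s * s + 2 * s) * ((xF⁻¹ * xV) ^ (s + 1) * (xF'⁻¹ * xV')) = D3 ^ (s * s + 2 * s) := by
  apply mul_left_cancel₀ hD1
  have e1 : D1 ^ (s + 1) * (xF⁻¹ * xV) = D2 * D3 ^ s := by
    rw [mul_comm xF⁻¹, ← mul_assoc, h1]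
    field_simp
  have e2 : D2 ^ (s + 1) * (xF'⁻¹ * xV') = D1 * D3 ^ s := by
    rw [mul_comm xF'⁻¹, ← mul_assoc, h2]
    field_simp
  calc D1 * (D1 ^ (s * s + 2 * s) * ((xF⁻¹ * xV) ^ (s + 1) * (xF'⁻¹ * xV')))
      = (D1 ^ (s + 1) * (xF⁻¹ * xV)) ^ (s + 1) * (xF'⁻¹ * xV') := by ring
    _ = (D2 ^ (s + 1) * (xF'⁻¹ * xV')) * (D3 ^ s) ^ (s + 1) := by rw [e1]; ring
    _ = D1 * D3 ^ (s * s + 2 * s) := by rw [e2]; ring

/-- **(I7)** after raising to the power `r ^ 2 - 1` and correcting by the roots of unity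
`A0⁻¹ = (ξV/ξF)^r (ξV'/ξF')`, `B0⁻¹ = (ξV'/ξF')^r (ξV/ξF)`, the three values are equal -/
theorem i7_equal {r : ℕ} (hr : 0 < r) {d1 d2 d3 : O} (hd1 : IsUnit d1) (hd2 : IsUnit d2)
    (ξF ξV ξF' ξV' : Oˣ)
    (h1 : d1 ^ r * ξV - ξF * (d2 * d3 ^ (r - 1)) ∈ maximalIdeal O)
    (h2 : d2 ^ r * ξV' - ξF' * (d1 * d3 ^ (r - 1)) ∈ maximalIdeal O) :
    d1 ^ (r ^ 2 - 1) * (((ξF⁻¹ * ξV) ^ r * (ξF'⁻¹ * ξV') : Oˣ) : O) - d3 ^ (r ^ 2 - 1)
      ∈ maximalIdeal O ∧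
    d2 ^ (r ^ 2 - 1) * (((ξF'⁻¹ * ξV') ^ r * (ξF⁻¹ * ξV) : Oˣ) : O) - d3 ^ (r ^ 2 - 1)
      ∈ maximalIdeal O := by
  obtain ⟨s, rfl⟩ : ∃ s, r = s + 1 := ⟨r - 1, by omega⟩
  have es : (s + 1) ^ 2 - 1 = s * s + 2 * s := by
    have : (s + 1) ^ 2 = s * s + 2 * s + 1 := by ring
    omega
  rw [es]
  rw [Nat.add_sub_cancel] at h1 h2
  have hne : ∀ x : O, IsUnit x → residue O x ≠ 0 := fun x hx => (hx.map (residue O)).ne_zero
  have hinv : ∀ x : Oˣ, residue O ((x⁻¹ : Oˣ) : O) = (residue O (x : O))⁻¹ := by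
    intro x
    apply eq_inv_of_mul_eq_one_left
    rw [← map_mul, Units.inv_mul, map_one]
  rw [← residue_eq_zero_iff] at h1 h2 ⊢
  rw [← residue_eq_zero_iff]
  simp only [map_sub, map_mul, map_pow, sub_eq_zero, Units.val_mul, Units.val_pow_eq_pow_val,
    hinv] at h1 h2 ⊢
  exact ⟨i7_aux (hne _ hd1) (hne _ ξF.isUnit) (hne _ ξF'.isUnit) h1 h2,
    i7_aux (hne _ hd2) (hne _ ξF'.isUnit) (hne _ ξF.isUnit) h2 h1⟩

end seven

section cong

variable {F : Type*} [Field F] (W : ValuationSubring F)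

/-- lifts of `H ^ n * G0` -/
theorem i7_lift {O : Type*} [CommRing O] [Algebra O F] (hOW : ∀ x : O, algebraMap O F x ∈ W)
    {H G0 : F} {d c : O} (hH : W.valuation (H - algebraMap O F d) < 1)
    (hG : W.valuation (G0 - algebraMap O F c) < 1) (n : ℕ) :
    W.valuation (H ^ n * G0 - algebraMap O F (d ^ n * c)) < 1 := by
  rw [map_mul, map_pow]
  have hHW : H ∈ W := i6_mem_of_sub_lt W (hOW d) hH
  exact i6_mul_sub_mul_lt W (W.pow_mem hHW n) (hOW c)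
    (i6_pow_sub_pow_lt W hHW (hOW d) hH n) hG

variable {π : F}

theorem i7_cong_mul {x y x' y' : F} (hx : x ∈ W) (hy' : y' ∈ W)
    (h : (x - x') / π ∈ W) (h' : (y - y') / π ∈ W) : (x * y - x' * y') / π ∈ W := by
  have e : (x * y - x' * y') / π = x * ((y - y') / π) + y' * ((x - x') / π) := by ring
  rw [e]
  exact W.add_mem _ _ (W.mul_mem _ _ hx h') (W.mul_mem _ _ hy' h)

theorem i7_cong_pow {x x' : F} (hx : x ∈ W) (hx' : x' ∈ W) (h : (x - x') / π ∈ W) (n : ℕ) :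
    (x ^ n - x' ^ n) / π ∈ W := by
  induction n with
  | zero => simp [W.zero_mem]
  | succ n ih =>
    rw [pow_succ, pow_succ]
    exact i7_cong_mul W (W.pow_mem hx n) hx' ih h

theorem i7_mem_of_cong (hπ0 : π ≠ 0) (hπ : π ∈ W) {x x' : F} (hx' : x' ∈ W)
    (h : (x - x') / π ∈ W) : x ∈ W := by
  have e : x = π * ((x - x') / π) + x' := by field_simp; ring
  rw [e]
  exact W.add_mem _ _ (W.mul_mem _ _ hπ h) hx'

/-- `g' = g ^ n * G0 ^ m` is still `1` modulo `π` -/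
theorem i7_one_mod (hπ0 : π ≠ 0) (hπ : π ∈ W) {g G0 c : F} (hg : (g - 1) / π ∈ W) (hc : c ∈ W)
    (hG : (G0 - c) / π ∈ W) {m : ℕ} (hcm : c ^ m = 1) (n : ℕ) :
    (g ^ n * G0 ^ m - 1) / π ∈ W := by
  have hgW : g ∈ W := i7_mem_of_cong W hπ0 hπ W.one_mem hg
  have hGW : G0 ∈ W := i7_mem_of_cong W hπ0 hπ hc hG
  have h1 := i7_cong_pow W hgW W.one_mem hg n
  have h2 := i7_cong_pow W hGW hc hG m
  have h3 := i7_cong_mul W (W.pow_mem hgW n) (W.pow_mem hc m) h1 h2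
  rwa [one_pow, hcm, one_mul] at h3

end cong

end Fermat.Agent.CARlib
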