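import Fermat.Agent.ES.C.AKGauss

/-!
# T-CAR, block I, row (R2): fractions and incomparability for the vertical valuation rings

`B = integralClosure R[T] F`, `W i` the vertical valuation rings (`PiInt π T x ↔ ∀ i, x ∈ W i`),
weak approximation with precision `π`.  Then

* `i9_frac` : every `x ∈ W i` is `a / b` with `a b : B`, `b` a unit of `W i`;
* `i9_inc`  : for `i ≠ l` there is `b : B` which is a unit of `W i` and a nonunit of `W l`.
-/

set_option autoImplicit false
set_option linter.unusedSectionVars false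

open Polynomial

namespace Fermat.Agent.CARlib

open Fermat.Agent.ESlib

variable {R F : Type*} [CommRing R] [IsDomain R] [Field F] [Algebra R F] {π : R} {T : F}
  {ι : Type*} (W : ι → ValuationSubring F)

theorem i9_val_eq_one {V : ValuationSubring F} {x : F} (h1 : x ∈ V) (h2 : x⁻¹ ∈ V) (h0 : x ≠ 0) :
    V.valuation x = 1 := by
  have a1 := (V.valuation_le_one_iff x).2 h1
  have a2 := (V.valuation_le_one_iff _).2 h2
  rw [map_inv₀] at a2
  have a3 : 0 < V.valuation x := zero_lt_iff.2 ((Valuation.ne_zero_iff _).2 h0)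
  exact le_antisymm a1 ((inv_le_one₀ a3).1 a2)

/-- a primitive polynomial in `T` is a unit of every vertical valuation ring -/
theorem i9_val_aeval (hπ : Prime π) (hW : ∀ x, PiInt π T x ↔ ∀ i, x ∈ W i)
    {s : R[X]} (hs : ¬ C π ∣ s) (h0 : aeval T s ≠ 0) (i : ι) :
    (W i).valuation (aeval T s) = 1 :=
  i9_val_eq_one ((hW _).1 (PiInt.of_isIntegral hπ (isIntegral_aeval_adjoin T s)) i)
    ((hW _).1 (PiInt.inv_aeval hs) i) h0

/-- a primitive polynomial in `T` does not vanish -/
theorem i9_aeval_ne_zero (hπ0 : algebraMap R F π ≠ 0) (hW : ∀ x, PiInt π T x ↔ ∀ i, x ∈ W i)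
    (hπW : ∀ i, (W i).valuation (algebraMap R F π) < 1) (i : ι) {s : R[X]} (hs : ¬ C π ∣ s) :
    aeval T s ≠ 0 := by
  intro h0
  have h1 : PiInt π T (algebraMap R F π)⁻¹ := ⟨s, hs, by rw [h0, zero_mul]; exact isIntegral_zero⟩
  have h2 := ((W i).valuation_le_one_iff _).2 ((hW _).1 h1 i)
  rw [map_inv₀] at h2
  have h3 : 0 < (W i).valuation (algebraMap R F π) :=
    zero_lt_iff.2 ((Valuation.ne_zero_iff _).2 hπ0)
  exact absurd (hπW i) (not_lt.2 ((inv_le_one₀ h3).1 h2))

/-- an approximate idempotent -/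
theorem i9_idem [DecidableEq ι] (hπ0 : algebraMap R F π ≠ 0)
    (hπW : ∀ i, (W i).valuation (algebraMap R F π) < 1)
    (happ : ∀ s : ι → F, ∃ G : F, ∀ i, (G - s i) / algebraMap R F π ∈ W i) (i : ι) :
    ∃ G : F, (W i).valuation G = 1 ∧ (∀ j, G ∈ W j) ∧ ∀ j, j ≠ i → G / algebraMap R F π ∈ W j := by
  obtain ⟨G, hG⟩ := happ (fun j => if j = i then 1 else 0)
  have hGi : (G - 1) / algebraMap R F π ∈ W i := by simpa using hG i
  have hGj : ∀ j, j ≠ i → G / algebraMap R F π ∈ W j := fun j hj => by simpa [hj] using hG j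
  have hπm : ∀ j, algebraMap R F π ∈ W j := fun j => ((W j).valuation_le_one_iff _).1 (hπW j).le
  have h1 : (W i).valuation (G - 1) < 1 := by
    have : G - 1 = algebraMap R F π * ((G - 1) / algebraMap R F π) := by
      rw [mul_div_cancel₀ _ hπ0]
    rw [this, map_mul]
    calc _ ≤ (W i).valuation (algebraMap R F π) * 1 :=
          mul_le_mul' le_rfl (((W i).valuation_le_one_iff _).2 hGi)
      _ < 1 := by rw [mul_one]; exact hπW i
  have h2 : (W i).valuation G = 1 := by
    have : G = (G - 1) + 1 := by ring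
    rw [this, Valuation.map_add_eq_of_lt_right _ (by rw [map_one]; exact h1), map_one]
  refine ⟨G, h2, fun j => ?_, hGj⟩
  by_cases hj : j = i
  · subst hj
    exact ((W j).valuation_le_one_iff _).1 h2.le
  · have : G = algebraMap R F π * (G / algebraMap R F π) := by rw [mul_div_cancel₀ _ hπ0]
    rw [this]
    exact mul_mem (hπm j) (hGj j hj)

/-- **(R2)** every element of `W i` is a fraction `a / b`, `a b ∈ B`, `b` a unit of `W i` -/
theorem i9_frac [Finite ι] (hπ : Prime π) (hπ0 : algebraMap R F π ≠ 0)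
    (hW : ∀ x, PiInt π T x ↔ ∀ i, x ∈ W i)
    (hπW : ∀ i, (W i).valuation (algebraMap R F π) < 1)
    (harch : ∀ i x, ∃ M : ℕ, algebraMap R F π ^ M * x ∈ W i)
    (happ : ∀ s : ι → F, ∃ G : F, ∀ i, (G - s i) / algebraMap R F π ∈ W i)
    (i : ι) {x : F} (hx : x ∈ W i) :
    ∃ a b : integralClosure (Algebra.adjoin R {T}) F,
      (W i).valuation (b : F) = 1 ∧ x * (b : F) = (a : F) := by
  classical
  cases nonempty_fintype ι
  obtain ⟨G, hG1, hGm, hGj⟩ := i9_idem W hπ0 hπW happ i
  have hπm : ∀ j, algebraMap R F π ∈ W j := fun j => ((W j).valuation_le_one_iff _).1 (hπW j).le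
  choose M hM using fun j => harch j x
  set M₀ := ∑ j, M j with hM₀
  have hy : ∀ j, G ^ M₀ * x ∈ W j := by
    intro j
    by_cases hj : j = i
    · subst hj
      exact mul_mem (pow_mem (hGm j) _) hx
    · have hle : M j ≤ M₀ := Finset.single_le_sum (fun _ _ => Nat.zero_le _) (Finset.mem_univ j)
      obtain ⟨k, hk⟩ := Nat.exists_eq_add_of_le hle
      have : G ^ M₀ * x = (G / algebraMap R F π) ^ M₀ * (algebraMap R F π ^ k *
          (algebraMap R F π ^ M j * x)) := by
        rw [div_pow, hk]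
        field_simp
        ring
      rw [this]
      exact mul_mem (pow_mem (hGj j hj) _) (mul_mem (pow_mem (hπm j) _) (hM j))
  obtain ⟨s, hs, hsI⟩ := (hW _).2 hy
  obtain ⟨s', hs', hsI'⟩ := (hW (G ^ M₀)).2 (fun j => pow_mem (hGm j) _)
  have hG0 : G ≠ 0 := by
    rintro rfl
    rw [map_zero] at hG1
    exact zero_ne_one hG1
  have h0 := i9_aeval_ne_zero W hπ0 hW hπW i hs
  have h0' := i9_aeval_ne_zero W hπ0 hW hπW i hs'
  refine ⟨⟨aeval T s' * (aeval T s * (G ^ M₀ * x)), (isIntegral_aeval_adjoin T s').mul hsI⟩,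
    ⟨aeval T s * (aeval T s' * G ^ M₀), (isIntegral_aeval_adjoin T s).mul hsI'⟩, ?_, ?_⟩
  · show (W i).valuation (aeval T s * (aeval T s' * G ^ M₀)) = 1
    rw [map_mul, map_mul, map_pow, hG1, one_pow, i9_val_aeval W hπ hW hs h0 i,
      i9_val_aeval W hπ hW hs' h0' i, one_mul, one_mul]
  · show x * (aeval T s * (aeval T s' * G ^ M₀)) = aeval T s' * (aeval T s * (G ^ M₀ * x))
    ring

/-- **(INC)** the centres of the `W i` on `B` are pairwise incomparable -/
theorem i9_inc (hπ : Prime π) (hπ0 : algebraMap R F π ≠ 0)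
    (hW : ∀ x, PiInt π T x ↔ ∀ i, x ∈ W i)
    (hπW : ∀ i, (W i).valuation (algebraMap R F π) < 1)
    (happ : ∀ s : ι → F, ∃ G : F, ∀ i, (G - s i) / algebraMap R F π ∈ W i)
    {i l : ι} (hil : i ≠ l) :
    ∃ b : integralClosure (Algebra.adjoin R {T}) F,
      (W i).valuation (b : F) = 1 ∧ (W l).valuation (b : F) < 1 := by
  classical
  obtain ⟨G, hG1, hGm, hGj⟩ := i9_idem W hπ0 hπW happ i
  obtain ⟨s, hs, hsI⟩ := (hW G).2 hGm
  have h0 := i9_aeval_ne_zero W hπ0 hW hπW i hs
  refine ⟨⟨aeval T s * G, hsI⟩, ?_, ?_⟩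
  · show (W i).valuation (aeval T s * G) = 1
    rw [map_mul, hG1, i9_val_aeval W hπ hW hs h0 i, one_mul]
  · show (W l).valuation (aeval T s * G) < 1
    rw [map_mul, i9_val_aeval W hπ hW hs h0 l, one_mul]
    have : G = algebraMap R F π * (G / algebraMap R F π) := by rw [mul_div_cancel₀ _ hπ0]
    rw [this, map_mul]
    calc _ ≤ (W l).valuation (algebraMap R F π) * 1 :=
          mul_le_mul' le_rfl (((W l).valuation_le_one_iff _).2 (hGj l hil.symm))
      _ < 1 := by rw [mul_one]; exact hπW l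

/-- **(INC)**, one element of `B` separating `W i` from all the others -/
theorem i9_inc_all (hπ : Prime π) (hπ0 : algebraMap R F π ≠ 0)
    (hW : ∀ x, PiInt π T x ↔ ∀ i, x ∈ W i)
    (hπW : ∀ i, (W i).valuation (algebraMap R F π) < 1)
    (happ : ∀ s : ι → F, ∃ G : F, ∀ i, (G - s i) / algebraMap R F π ∈ W i) (i : ι) :
    ∃ b : integralClosure (Algebra.adjoin R {T}) F,
      (W i).valuation (b : F) = 1 ∧ ∀ l, l ≠ i → (W l).valuation (b : F) < 1 := by
  classical
  obtain ⟨G, hG1, hGm, hGj⟩ := i9_idem W hπ0 hπW happ i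
  obtain ⟨s, hs, hsI⟩ := (hW G).2 hGm
  have h0 := i9_aeval_ne_zero W hπ0 hW hπW i hs
  refine ⟨⟨aeval T s * G, hsI⟩, ?_, fun l hl => ?_⟩
  · show (W i).valuation (aeval T s * G) = 1
    rw [map_mul, hG1, i9_val_aeval W hπ hW hs h0 i, one_mul]
  · show (W l).valuation (aeval T s * G) < 1
    rw [map_mul, i9_val_aeval W hπ hW hs h0 l, one_mul]
    have : G = algebraMap R F π * (G / algebraMap R F π) := by rw [mul_div_cancel₀ _ hπ0]
    rw [this, map_mul]
    calc _ ≤ (W l).valuation (algebraMap R F π) * 1 :=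
          mul_le_mul' le_rfl (((W l).valuation_le_one_iff _).2 (hGj l hl))
      _ < 1 := by rw [mul_one]; exact hπW l

end Fermat.Agent.CARlib
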