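import Fermat.Agent.CAR.I9Frac

/-!
# T-CAR, block I, rows (R2), (INC) for THREE valuation rings `W₁ W₂ W₃` (shape of `VData`)
-/

set_option autoImplicit false
set_option linter.unusedSectionVars false
open Polynomial

namespace Fermat.Agent.CARlib

open Fermat.Agent.ESlib

variable {R F : Type*} [CommRing R] [IsDomain R] [Field F] [Algebra R F] {π : R} {T : F}

/-- the family of three valuation rings -/
def i9Fam (W₁ W₂ W₃ : ValuationSubring F) : Fin 3 → ValuationSubring F := ![W₁, W₂, W₃]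

theorem i9_forall_fam {W₁ W₂ W₃ : ValuationSubring F} (p : ValuationSubring F → Prop) :
    (∀ i, p (i9Fam W₁ W₂ W₃ i)) ↔ p W₁ ∧ p W₂ ∧ p W₃ := by
  simp [i9Fam, Fin.forall_fin_succ]

section three

variable (W₁ W₂ W₃ : ValuationSubring F) (hπ : Prime π) (hπ0 : algebraMap R F π ≠ 0)
  (hW : ∀ x, PiInt π T x ↔ x ∈ W₁ ∧ x ∈ W₂ ∧ x ∈ W₃)
  (hπ₁ : W₁.valuation (algebraMap R F π) < 1) (hπ₂ : W₂.valuation (algebraMap R F π) < 1)
  (hπ₃ : W₃.valuation (algebraMap R F π) < 1)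
  (happ : ∀ s₁ s₂ s₃ : F, ∃ G : F, (G - s₁) / algebraMap R F π ∈ W₁ ∧
    (G - s₂) / algebraMap R F π ∈ W₂ ∧ (G - s₃) / algebraMap R F π ∈ W₃)

include hW in
theorem i9_hW3 : ∀ x, PiInt π T x ↔ ∀ i, x ∈ i9Fam W₁ W₂ W₃ i := fun x => by
  rw [hW, i9_forall_fam (fun W => x ∈ W)]

include hπ₁ hπ₂ hπ₃ in
theorem i9_hπ3 : ∀ i, (i9Fam W₁ W₂ W₃ i).valuation (algebraMap R F π) < 1 := by
  intro i
  fin_cases i
  · exact hπ₁
  · exact hπ₂
  · exact hπ₃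

include happ in
theorem i9_happ3 : ∀ s : Fin 3 → F, ∃ G : F, ∀ i, (G - s i) / algebraMap R F π ∈ i9Fam W₁ W₂ W₃ i := by
  intro s
  obtain ⟨G, h1, h2, h3⟩ := happ (s 0) (s 1) (s 2)
  refine ⟨G, fun i => ?_⟩
  fin_cases i
  · exact h1
  · exact h2
  · exact h3

include hπ hπ0 hW hπ₁ hπ₂ hπ₃ happ in
/-- **(R2)** for three valuation rings -/
theorem i9_frac3 (harch₁ : ∀ x, ∃ M : ℕ, algebraMap R F π ^ M * x ∈ W₁)
    (harch₂ : ∀ x, ∃ M : ℕ, algebraMap R F π ^ M * x ∈ W₂)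
    (harch₃ : ∀ x, ∃ M : ℕ, algebraMap R F π ^ M * x ∈ W₃) :
    (∀ x ∈ W₁, ∃ a b : integralClosure (Algebra.adjoin R {T}) F,
      W₁.valuation (b : F) = 1 ∧ x * (b : F) = (a : F)) ∧
    (∀ x ∈ W₂, ∃ a b : integralClosure (Algebra.adjoin R {T}) F,
      W₂.valuation (b : F) = 1 ∧ x * (b : F) = (a : F)) ∧
    (∀ x ∈ W₃, ∃ a b : integralClosure (Algebra.adjoin R {T}) F,
      W₃.valuation (b : F) = 1 ∧ x * (b : F) = (a : F)) := by
  have harch : ∀ i x, ∃ M : ℕ, algebraMap R F π ^ M * x ∈ i9Fam W₁ W₂ W₃ i := by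
    intro i
    fin_cases i
    · exact harch₁
    · exact harch₂
    · exact harch₃
  have key := fun i => @i9_frac R F _ _ _ _ π T (Fin 3) (i9Fam W₁ W₂ W₃) _ hπ hπ0
    (i9_hW3 W₁ W₂ W₃ hW) (i9_hπ3 W₁ W₂ W₃ hπ₁ hπ₂ hπ₃) harch (i9_happ3 W₁ W₂ W₃ happ) i
  exact ⟨fun x hx => key 0 hx, fun x hx => key 1 hx, fun x hx => key 2 hx⟩

include hπ hπ0 hW hπ₁ hπ₂ hπ₃ happ in
/-- **(INC)** for three valuation rings: separating elements of `B` -/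
theorem i9_inc3 :
    (∃ b : integralClosure (Algebra.adjoin R {T}) F,
      W₁.valuation (b : F) = 1 ∧ W₂.valuation (b : F) < 1 ∧ W₃.valuation (b : F) < 1) ∧
    (∃ b : integralClosure (Algebra.adjoin R {T}) F,
      W₂.valuation (b : F) = 1 ∧ W₁.valuation (b : F) < 1 ∧ W₃.valuation (b : F) < 1) ∧
    (∃ b : integralClosure (Algebra.adjoin R {T}) F,
      W₃.valuation (b : F) = 1 ∧ W₁.valuation (b : F) < 1 ∧ W₂.valuation (b : F) < 1) := by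
  have key : ∀ i : Fin 3, ∃ b : integralClosure (Algebra.adjoin R {T}) F,
      (i9Fam W₁ W₂ W₃ i).valuation (b : F) = 1 ∧
      ∀ l, l ≠ i → (i9Fam W₁ W₂ W₃ l).valuation (b : F) < 1 := fun i =>
    i9_inc_all (i9Fam W₁ W₂ W₃) hπ hπ0 (i9_hW3 W₁ W₂ W₃ hW) (i9_hπ3 W₁ W₂ W₃ hπ₁ hπ₂ hπ₃)
      (i9_happ3 W₁ W₂ W₃ happ) i
  refine ⟨?_, ?_, ?_⟩
  · obtain ⟨b, h1, h2⟩ := key 0
    exact ⟨b, h1, h2 1 (by decide), h2 2 (by decide)⟩
  · obtain ⟨b, h1, h2⟩ := key 1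
    exact ⟨b, h1, h2 0 (by decide), h2 2 (by decide)⟩
  · obtain ⟨b, h1, h2⟩ := key 2
    exact ⟨b, h1, h2 0 (by decide), h2 1 (by decide)⟩

end three

end Fermat.Agent.CARlib
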