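import Fermat.Agent.CAR.C1Pull

/-!
# T-CAR, block I, inputs (FR1), (FR2): `∀ x : B₂, ∃ c : B₁, x ^ r - E c ∈ P`

Abstract form: `W | V` along `e`, the `r`-th powers of the residue field of `W` lie in the residue
field of `V` (V2, export (b)), `B₁ / p` is integrally closed in the residue field of `V` (`normF`).
-/

set_option autoImplicit false

open Polynomial

namespace Fermat.Agent.CARlib

open C

variable {B₁ B₂ F₁ F₂ : Type*} [CommRing B₁] [CommRing B₂] [Field F₁] [Field F₂]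
  [Algebra B₁ F₁] [Algebra B₂ F₂]

/-- descent of one residue: `x : B₂`, `x ≡ e Z (W)` with `Z ∈ V` ⇒ `x ≡ E u (P)` with `u : B₁` -/
theorem i9_desc {E : B₁ →+* B₂} {e : F₁ →+* F₂} {V : ValuationSubring F₁}
    {W : ValuationSubring F₂} {P : Ideal B₂}
    (hE : ∀ b, algebraMap B₂ F₂ (E b) = e (algebraMap B₁ F₁ b)) (hint : E.IsIntegral)
    (hsub : ∀ b : B₂, algebraMap B₂ F₂ b ∈ W)
    (hmemP : ∀ b : B₂, b ∈ P ↔ W.valuation (algebraMap B₂ F₂ b) < 1)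
    (hcomap : W.comap e = V)
    (hnorm : ∀ Z ∈ V, ∀ p : B₁[X], p.Monic → V.valuation (aeval Z p) < 1 →
      ∃ x : B₁, V.valuation (Z - algebraMap B₁ F₁ x) < 1)
    (x : B₂) {Z : F₁} (hZ : Z ∈ V) (hxZ : W.valuation (algebraMap B₂ F₂ x - e Z) < 1) :
    ∃ u : B₁, x - E u ∈ P := by
  obtain ⟨p, hp, hpx⟩ := hint x
  have hZW : e Z ∈ W := mem_of_comap hcomap hZ
  have h0 : p.eval₂ ((algebraMap B₂ F₂).comp E) (algebraMap B₂ F₂ x) = 0 := by
    rw [← hom_eval₂, hpx, map_zero]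
  have h1 : W.valuation (p.eval₂ ((algebraMap B₂ F₂).comp E) (e Z)) < 1 :=
    c1_val_eval₂_lt W ((algebraMap B₂ F₂).comp E) (fun a => hsub _) p hZW (hsub x)
      (by rw [← Valuation.map_neg, neg_sub]; exact hxZ) h0
  have h2 : p.eval₂ ((algebraMap B₂ F₂).comp E) (e Z) = e (aeval Z p) := by
    rw [aeval_def, hom_eval₂]
    congr 1
    ext b
    exact hE b
  rw [h2, val_comap_lt_one_iff hcomap] at h1
  obtain ⟨u, hu⟩ := hnorm Z hZ p hp h1
  refine ⟨u, ?_⟩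
  rw [hmemP, map_sub, hE]
  have h3 : W.valuation (e Z - e (algebraMap B₁ F₁ u)) < 1 := by
    rw [← map_sub, val_comap_lt_one_iff hcomap]; exact hu
  have h4 : algebraMap B₂ F₂ x - e (algebraMap B₁ F₁ u) =
      (algebraMap B₂ F₂ x - e Z) + (e Z - e (algebraMap B₁ F₁ u)) := by ring
  rw [h4]
  exact Valuation.map_add_lt _ hxZ h3

/-- **(FR1) / (FR2)** -/
theorem i9_frob {E : B₁ →+* B₂} {e : F₁ →+* F₂} {V : ValuationSubring F₁}
    {W : ValuationSubring F₂} {P : Ideal B₂} {r : ℕ}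
    (hE : ∀ b, algebraMap B₂ F₂ (E b) = e (algebraMap B₁ F₁ b)) (hint : E.IsIntegral)
    (hsub : ∀ b : B₂, algebraMap B₂ F₂ b ∈ W)
    (hmemP : ∀ b : B₂, b ∈ P ↔ W.valuation (algebraMap B₂ F₂ b) < 1)
    (hcomap : W.comap e = V)
    (hb : ∀ x ∈ W, ∃ c ∈ V, W.valuation (e c - x ^ r) < 1)
    (hnorm : ∀ Z ∈ V, ∀ p : B₁[X], p.Monic → V.valuation (aeval Z p) < 1 →
      ∃ x : B₁, V.valuation (Z - algebraMap B₁ F₁ x) < 1)
    (x : B₂) : ∃ c : B₁, x ^ r - E c ∈ P := by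
  obtain ⟨Z, hZ, hxZ⟩ := hb _ (hsub x)
  refine i9_desc hE hint hsub hmemP hcomap hnorm (x ^ r) hZ ?_
  rw [map_pow, ← Valuation.map_neg, neg_sub]
  exact hxZ

end Fermat.Agent.CARlib
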