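import Fermat.Agent.CAR.IMid5
import Fermat.Agent.CAR.XCritB2

/-!
# T-CAR, block I: `i_chart0` = `LocPowB2` in one chart `T` for `g' = g ^ (r ^ 2 - 1) * G0 ^ m`
-/

set_option autoImplicit false
set_option linter.style.haveILetI false

open Fermat.Agent.ESlib Fermat.Agent.UNIlib

namespace Fermat.Agent.CARlib

section chart

variable {R B₁ F₁ F₂ : Type*} [CommRing R] [CommRing B₁] [Field F₁] [Field F₂] [Algebra B₁ F₁]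
  [Algebra R B₁] [Algebra R F₂] {T : F₂}
  [IsNoetherianRing (integralClosure (Algebra.adjoin R {T}) F₂)]
  {r : ℕ} {E₁ E₂ : B₁ →+* integralClosure (Algebra.adjoin R {T}) F₂} {e₁ e₂ : F₁ →+* F₂}
  {N₁ N₂ : F₂ →* F₁} {VF VV : ValuationSubring F₁} {WFV WVF WVV : ValuationSubring F₂}

/-- **(I-CHART)** -/
theorem i_chart0 (D₁ : IHalf r E₁ e₁ N₁ VF VV WFV WVF WVV)
    (D₂ : IHalf r E₂ e₂ N₂ VF VV WVF WFV WVV)
    (hE₁R : ∀ z : R, E₁ (algebraMap R B₁ z) = algebraMap R _ z)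
    (hE₂R : ∀ z : R, E₂ (algebraMap R B₁ z) = algebraMap R _ z)
    (hr : r.Prime) (π : R) (hW : ∀ x, PiInt π T x ↔ ∀ i, x ∈ iW WFV WVF WVV i)
    (P : Fin 3 → Ideal (integralClosure (Algebra.adjoin R {T}) F₂))
    (hP : ∀ i x, x ∈ P i ↔ (iW WFV WVF WVV i).valuation (x : F₂) < 1)
    (hPne : ∀ i l, i ≠ l → ¬ P l ≤ P i)
    (hdvr : ∀ 𝔫 : Ideal (integralClosure (Algebra.adjoin R {T}) F₂), 𝔫.IsMaximal →
      algebraMap R _ π ∈ 𝔫 → ∀ i, P i ≤ 𝔫 → C.CDvr 𝔫 (P i))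
    (hfrac : ∀ i, ∀ x ∈ iW WFV WVF WVV i,
      ∃ a b : integralClosure (Algebra.adjoin R {T}) F₂, b ∉ P i ∧
      (iW WFV WVF WVV i).valuation (x * (b : F₂) - (a : F₂)) < 1)
    (hπ0 : algebraMap R F₂ π ≠ 0)
    (hπ : ∀ i, (iW WFV WVF WVV i).valuation (algebraMap R F₂ π) < 1)
    (hrπ : ∀ i, (r : F₂) / algebraMap R F₂ π ∈ iW WFV WVF WVV i)
    (he : ∀ i (ν : F₂), (iW WFV WVF WVV i).valuation ν < 1 →
      ν ^ r / algebraMap R F₂ π ∈ iW WFV WVF WVV i)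
    {m : ℕ} (hmr : Nat.Coprime m r) {g : F₂}
    (hfac : ∀ 𝔫 : Ideal (integralClosure (Algebra.adjoin R {T}) F₂), 𝔫.IsMaximal →
      algebraMap R _ π ∈ 𝔫 → ∃ H : F₂, H ≠ 0 ∧
      ∃ s₁ s₂ : integralClosure (Algebra.adjoin R {T}) F₂, s₁ ∉ 𝔫 ∧ s₂ ∉ 𝔫 ∧
        (s₁ : F₂) * g = (s₂ : F₂) * H ^ m)
    (hg1 : ∀ i, (g - 1) / algebraMap R F₂ π ∈ iW WFV WVF WVV i)
    {a₁ a₂ : F₁} (ha₁ : N₁ g = a₁ ^ m) (ha₂ : N₂ g = a₂ ^ m) (ξF ξV ξF' ξV' : Rˣ)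
    (hξF : ξF ^ m = 1) (hξV : ξV ^ m = 1) (hξF' : ξF' ^ m = 1) (hξV' : ξV' ^ m = 1)
    (haF : VF.valuation (a₁ - algebraMap B₁ F₁ (algebraMap R B₁ ξF)) < 1)
    (haV : VV.valuation (a₁ - algebraMap B₁ F₁ (algebraMap R B₁ ξV)) < 1)
    (haF' : VF.valuation (a₂ - algebraMap B₁ F₁ (algebraMap R B₁ ξF')) < 1)
    (haV' : VV.valuation (a₂ - algebraMap B₁ F₁ (algebraMap R B₁ ξV')) < 1)
    {G0 : F₂} (hG : ∀ i, (G0 - algebraMap R F₂ (iC r ξF ξV ξF' ξV' i)) / algebraMap R F₂ π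
      ∈ iW WFV WVF WVV i) :
    LocPowB2 π T (g ^ (r ^ 2 - 1) * G0 ^ m) m := by
  intro 𝔫 h𝔫 hπ𝔫
  haveI := h𝔫.isPrime
  obtain ⟨H, hH, s₁, s₂, hs₁, hs₂, hfac'⟩ := hfac 𝔫 h𝔫 hπ𝔫
  have hcl : ∀ x : F₂, IsIntegral (integralClosure (Algebra.adjoin R {T}) F₂) x →
      ∃ b : integralClosure (Algebra.adjoin R {T}) F₂,
        algebraMap (integralClosure (Algebra.adjoin R {T}) F₂) F₂ b = x := by
    intro x hx
    exact ⟨⟨x, isIntegral_trans (R := Algebra.adjoin R {T}) x hx⟩, rfl⟩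
  obtain ⟨G, s, hs, h1, c, hc⟩ := i_main_at (R := R) Subtype.val_injective D₁ D₂ hE₁R hE₂R hr 𝔫 hcl
    P hP hPne (hdvr 𝔫 h𝔫 hπ𝔫) hfrac hπ0 hπ hrπ he hmr hH hs₁ hs₂ hfac' hg1 ha₁ ha₂
    ξF ξV ξF' ξV' hξF hξV hξF' hξV' haF haV haF' haV' hG
  refine ⟨G, s, hs, (hW _).2 h1, ?_⟩
  have : (s : F₂) * (g ^ (r ^ 2 - 1) * G0 ^ m * G ^ m) = (c : F₂) := hc.symm
  rw [this]
  exact c.2

end chart

end Fermat.Agent.CARlib
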