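import Fermat.Agent.CAR.XCritFKB
import Fermat.Agent.UNI.Descent

/-!
# T-CAR, block X, row X4: order and leading coefficient (the hypotheses `hord`, `hc` of `xcb_critFK`)

`T` a chart vanishing at the cusp `∞` (`T ∈ q K[[q]]`), `B` the integral closure of `R[T]`.
Every `x ∈ B` lies in `K[[q]]` and `x(0) ∈ R`; `𝔫_∞ = {x ∈ B | x(0) ∈ π R}` is a maximal ideal of `B`.
A local factorisation `s₁ g = s₂ H ^ m` at `𝔫_∞` gives `m ∣ ord g` and `lc g ∈ Rˣ (Kˣ) ^ m`.
-/

set_option autoImplicit false
set_option linter.unusedSectionVars false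

open ModularCurve Polynomial
open Fermat.Agent.S24lib Fermat.Agent.ESlib Fermat.Agent.UNIlib

namespace Fermat.Agent.CARlib

section

variable {R K : Type} [CommRing R] [IsDomain R] [IsDiscreteValuationRing R] [Field K] [Algebra R K]
  [IsFractionRing R K] [Algebra ℚ K] {M : ℕ} [NeZero M] [Algebra R (FK K M)]
  [IsScalarTower R K (FK K M)]

/-- `x` integral over `R[T]`, `T ∈ q K[[q]]`: then `x ∈ K[[q]]` and `x(0) ∈ R`. -/
theorem x4_exists_powerSeries {T : FK K M} {T' : PowerSeries K}
    (hT : (T : LaurentSeries K) = (T' : LaurentSeries K))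
    (hT0 : PowerSeries.constantCoeff T' = 0) {x : FK K M}
    (hx : IsIntegral (Algebra.adjoin R {T}) x) :
    ∃ (x' : PowerSeries K) (c : R), (x : LaurentSeries K) = (x' : LaurentSeries K) ∧
      PowerSeries.constantCoeff x' = algebraMap R K c := by
  rw [isIntegral_adjoin_singleton_iff] at hx
  obtain ⟨p, hp, hpx⟩ := hx
  let φ' : R[X] →+* PowerSeries K := eval₂RingHom ((PowerSeries.C).comp (algebraMap R K)) T'
  let ι : PowerSeries K →+* LaurentSeries K := algebraMap (PowerSeries K) (LaurentSeries K)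
  have hι : ∀ y : PowerSeries K, ι y = (y : LaurentSeries K) := fun y => by
    show algebraMap (PowerSeries K) (LaurentSeries K) y = _
    rw [LaurentSeries.coe_algebraMap]
  have hιinj : Function.Injective ι := IsFractionRing.injective (PowerSeries K) (LaurentSeries K)
  let j : FK K M →+* LaurentSeries K := algebraMap (FK K M) (LaurentSeries K)
  have hcomp : j.comp ((aeval T : R[X] →ₐ[R] FK K M) : R[X] →+* FK K M) = ι.comp φ' := by
    apply Polynomial.ringHom_ext
    · intro a
      simp only [RingHom.comp_apply, RingHom.coe_coe, aeval_C, φ', coe_eval₂RingHom, eval₂_C]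
      rw [hι, PowerSeries.coe_C]
      exact coe_algebraMap_R a
    · simp only [RingHom.comp_apply, RingHom.coe_coe, aeval_X, φ', coe_eval₂RingHom, eval₂_X]
      rw [hι]
      exact hT
  have h1 : p.eval₂ (ι.comp φ') (j x) = 0 := by
    rw [← hcomp, ← hom_eval₂, hpx, map_zero]
  have hint : IsIntegral (PowerSeries K) (j x) :=
    ⟨p.map φ', hp.map _, by rw [eval₂_map]; exact h1⟩
  obtain ⟨x', hx'⟩ := IsIntegrallyClosed.isIntegral_iff.1 hint
  have h2 : p.eval₂ φ' x' = 0 := by
    apply hιinj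
    rw [hom_eval₂, map_zero]
    have : ι x' = j x := hx'
    rw [this]
    exact h1
  have h3 := congrArg (PowerSeries.constantCoeff (R := K)) h2
  rw [hom_eval₂, map_zero] at h3
  have hcc : (PowerSeries.constantCoeff (R := K)).comp φ' =
      (algebraMap R K).comp (evalRingHom (0 : R)) := by
    apply Polynomial.ringHom_ext
    · intro a
      simp [φ']
    · simp [φ', hT0]
  rw [hcc] at h3
  have hint2 : IsIntegral R (PowerSeries.constantCoeff x') :=
    ⟨p.map (evalRingHom (0 : R)), hp.map _, by rw [eval₂_map]; exact h3⟩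
  obtain ⟨c, hc⟩ := IsIntegrallyClosed.isIntegral_iff.1 hint2
  refine ⟨x', c, ?_, hc.symm⟩
  rw [← hι]
  exact hx'.symm

/-- the closed point "cusp `∞` modulo `π`" of the chart `T` -/
def x4Ideal (π : R) {T : FK K M} {T' : PowerSeries K}
    (hT : (T : LaurentSeries K) = (T' : LaurentSeries K))
    (hT0 : PowerSeries.constantCoeff T' = 0) :
    Ideal (integralClosure (Algebra.adjoin R {T}) (FK K M)) where
  carrier := {x | ∃ (x' : PowerSeries K) (c : R),
    ((x : FK K M) : LaurentSeries K) = (x' : LaurentSeries K) ∧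
      PowerSeries.constantCoeff x' = algebraMap R K (π * c)}
  add_mem' := by
    rintro a b ⟨a', c, ha, hc⟩ ⟨b', d, hb, hd⟩
    refine ⟨a' + b', c + d, ?_, ?_⟩
    · rw [PowerSeries.coe_add, ← ha, ← hb]
      rfl
    · rw [map_add, hc, hd, ← map_add, mul_add]
  zero_mem' := ⟨0, 0, by simp, by simp⟩
  smul_mem' := by
    rintro b a ⟨a', c, ha, hc⟩
    obtain ⟨b', d, hb, hd⟩ := x4_exists_powerSeries hT hT0 b.2
    refine ⟨b' * a', d * c, ?_, ?_⟩
    · rw [PowerSeries.coe_mul, ← ha, ← hb]
      rfl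
    · rw [map_mul, hc, hd, ← map_mul]
      congr 1
      ring

theorem x4_order_lc {x' : PowerSeries K} (h : PowerSeries.constantCoeff x' ≠ 0) :
    (x' : LaurentSeries K).order = 0 ∧
      (x' : LaurentSeries K).leadingCoeff = PowerSeries.constantCoeff x' := by
  have hc0 : (x' : LaurentSeries K).coeff 0 = PowerSeries.constantCoeff x' := by
    rw [PowerSeries.coeff_coe]
    simp
  have hne : (x' : LaurentSeries K) ≠ 0 := by
    intro h0
    rw [h0] at hc0
    exact h (by simpa using hc0.symm)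
  have ho : (x' : LaurentSeries K).order = 0 := by
    apply le_antisymm
    · exact HahnSeries.order_le_of_coeff_ne_zero (by rw [hc0]; exact h)
    · by_contra hlt
      push Not at hlt
      have := (not_congr HahnSeries.coeff_order_eq_zero).2 hne
      rw [PowerSeries.coeff_coe, if_pos hlt] at this
      exact this rfl
  exact ⟨ho, by rw [HahnSeries.leadingCoeff_eq, ho, hc0]⟩

/-- **(X4)** -/
theorem x4_lc {π : R} (hπ : Irreducible π) {T : FK K M} {T' : PowerSeries K}
    (hT : (T : LaurentSeries K) = (T' : LaurentSeries K))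
    (hT0 : PowerSeries.constantCoeff T' = 0) {m : ℕ}
    (hpow : ∀ u : Rˣ, ∃ w : Rˣ, w ^ m = u) {g : FK K M} (hg0 : g ≠ 0)
    (hfac : ∀ 𝔫 : Ideal (integralClosure (Algebra.adjoin R {T}) (FK K M)), 𝔫.IsMaximal →
      algebraMap R (integralClosure (Algebra.adjoin R {T}) (FK K M)) π ∈ 𝔫 →
      ∃ H : FK K M, H ≠ 0 ∧ ∃ s₁ s₂ : integralClosure (Algebra.adjoin R {T}) (FK K M),
        s₁ ∉ 𝔫 ∧ s₂ ∉ 𝔫 ∧ (s₁ : FK K M) * g = (s₂ : FK K M) * H ^ m) :
    (m : ℤ) ∣ (g : LaurentSeries K).order ∧ ∃ c : K, c ^ m = (g : LaurentSeries K).leadingCoeff := by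
  classical
  set B := integralClosure (Algebra.adjoin R {T}) (FK K M) with hB
  set 𝔫 : Ideal B := x4Ideal π hT hT0 with h𝔫
  have hinjK : Function.Injective (algebraMap R K) := IsFractionRing.injective R K
  have hcoeinj : Function.Injective (fun y : PowerSeries K => (y : LaurentSeries K)) :=
    HahnSeries.ofPowerSeries_injective
  -- constants
  have hconst : ∀ a : R, (((algebraMap R B a : B) : FK K M) : LaurentSeries K) =
      ((PowerSeries.C (algebraMap R K a) : PowerSeries K) : LaurentSeries K) := by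
    intro a
    rw [PowerSeries.coe_C]
    exact coe_algebraMap_R a
  -- elements outside `𝔫`
  have hout : ∀ s : B, s ∉ 𝔫 → ∃ u : Rˣ, ((s : FK K M) : LaurentSeries K).order = 0 ∧
      ((s : FK K M) : LaurentSeries K).leadingCoeff = algebraMap R K u := by
    intro s hs
    obtain ⟨s', c, hs', hc⟩ := x4_exists_powerSeries hT hT0 s.2
    have hcu : IsUnit c := by
      by_contra hnu
      have : c ∈ IsLocalRing.maximalIdeal R := (IsLocalRing.mem_maximalIdeal c).2 hnu
      rw [hπ.maximalIdeal_eq, Ideal.mem_span_singleton] at this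
      obtain ⟨d, rfl⟩ := this
      exact hs ⟨s', d, hs', hc⟩
    obtain ⟨u, rfl⟩ := hcu
    have hne : PowerSeries.constantCoeff s' ≠ 0 := by
      rw [hc]
      exact (map_ne_zero_iff _ hinjK).2 u.ne_zero
    obtain ⟨h1, h2⟩ := x4_order_lc hne
    exact ⟨u, by rw [hs', h1], by rw [hs', h2, hc]⟩
  have hmax : 𝔫.IsMaximal := by
    rw [Ideal.isMaximal_iff]
    constructor
    · rintro ⟨x', c, hx', hc⟩
      have h1 : x' = 1 := by
        apply hcoeinj
        show (x' : LaurentSeries K) = ((1 : PowerSeries K) : LaurentSeries K)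
        rw [← hx', PowerSeries.coe_one]
        rfl
      rw [h1, map_one, ← map_one (algebraMap R K)] at hc
      have := hinjK hc
      exact hπ.not_isUnit (IsUnit.of_mul_eq_one c this.symm)
    · intro J x hJ hx hxJ
      obtain ⟨x', c, hx', hc⟩ := x4_exists_powerSeries hT hT0 x.2
      have hcu : IsUnit c := by
        by_contra hnu
        have : c ∈ IsLocalRing.maximalIdeal R := (IsLocalRing.mem_maximalIdeal c).2 hnu
        rw [hπ.maximalIdeal_eq, Ideal.mem_span_singleton] at this
        obtain ⟨d, rfl⟩ := this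
        exact hx ⟨x', d, hx', hc⟩
      obtain ⟨u, rfl⟩ := hcu
      have h1 : x - algebraMap R B u ∈ 𝔫 := by
        refine ⟨x' - PowerSeries.C (algebraMap R K u), 0, ?_, ?_⟩
        · rw [PowerSeries.coe_sub, ← hx', ← hconst]
          rfl
        · rw [map_sub, hc]
          simp
      have h2 : algebraMap R B u ∈ J := by
        have := J.sub_mem hxJ (hJ h1)
        simpa using this
      have h3 : algebraMap R B (↑u⁻¹ : R) * algebraMap R B u ∈ J := J.mul_mem_left _ h2
      rwa [← map_mul, Units.inv_mul, map_one] at h3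
  have hπ𝔫 : algebraMap R B π ∈ 𝔫 :=
    ⟨PowerSeries.C (algebraMap R K π), 1, hconst π, by simp⟩
  obtain ⟨H, hH, s₁, s₂, hs₁, hs₂, heq⟩ := hfac 𝔫 hmax hπ𝔫
  obtain ⟨u₁, ho₁, hl₁⟩ := hout s₁ hs₁
  obtain ⟨u₂, ho₂, hl₂⟩ := hout s₂ hs₂
  have heq' : ((s₁ : FK K M) : LaurentSeries K) * (g : LaurentSeries K) =
      ((s₂ : FK K M) : LaurentSeries K) * (H : LaurentSeries K) ^ m :=
    congrArg (fun z : FK K M => (z : LaurentSeries K)) heq
  have hgL : (g : LaurentSeries K) ≠ 0 := by simpa using hg0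
  have hHL : (H : LaurentSeries K) ≠ 0 := by simpa using hH
  have hs₁L : ((s₁ : FK K M) : LaurentSeries K) ≠ 0 := by
    intro h0
    rw [h0] at hl₁
    simp only [HahnSeries.leadingCoeff_zero] at hl₁
    exact u₁.ne_zero (hinjK (by rw [← hl₁, map_zero]))
  have hs₂L : ((s₂ : FK K M) : LaurentSeries K) ≠ 0 := by
    intro h0
    rw [h0] at hl₂
    simp only [HahnSeries.leadingCoeff_zero] at hl₂
    exact u₂.ne_zero (hinjK (by rw [← hl₂, map_zero]))
  constructor
  · have h1 := congrArg HahnSeries.order heq'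
    rw [HahnSeries.order_mul hs₁L hgL, HahnSeries.order_mul hs₂L (pow_ne_zero _ hHL), ho₁, ho₂,
      zero_add, zero_add, HahnSeries.order_pow] at h1
    rw [h1]
    exact ⟨(H : LaurentSeries K).order, by rw [nsmul_eq_mul]⟩
  · have h1 := congrArg HahnSeries.leadingCoeff heq'
    rw [HahnSeries.leadingCoeff_mul, HahnSeries.leadingCoeff_mul, leadingCoeff_pow_laurent, hl₁,
      hl₂] at h1
    obtain ⟨w, hw⟩ := hpow (u₂ * u₁⁻¹)
    refine ⟨algebraMap R K w * (H : LaurentSeries K).leadingCoeff, ?_⟩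
    have hu₁ : algebraMap R K u₁ ≠ 0 := (map_ne_zero_iff _ hinjK).2 u₁.ne_zero
    have hw' : algebraMap R K w ^ m * algebraMap R K u₁ = algebraMap R K u₂ := by
      rw [← map_pow, ← map_mul]
      congr 1
      have : ((w ^ m : Rˣ) : R) = ((u₂ * u₁⁻¹ : Rˣ) : R) := congrArg _ hw
      rw [Units.val_pow_eq_pow_val] at this
      rw [this, Units.val_mul, mul_assoc, Units.inv_mul, mul_one]
    apply mul_left_cancel₀ hu₁
    rw [h1, mul_pow, ← hw']
    ring

end

end Fermat.Agent.CARlib
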