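import Fermat.Agent.CAR.XTop
import Fermat.Agent.CAR.A2Final
import Fermat.Agent.CAR.X4Lc
import Fermat.Agent.CAR.A5Frob

/-!
# T-CAR, block X: the local factorisations `s₁ f = s₂ H ^ m` (`i_fac`) and the field `hX4` of
`x5_carKAt`

* `XReg π T` : first half of `c_all` for the chart `T` (elementwise regularity at every closed point of
  the special fibre);
* `x4_fac` : `XReg π T`, `MDiv`, `f` a unit at the vertical valuations ⇒ `s₁ f = s₂ H ^ m` at every `𝔫`;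
* `x4_fac_unit` : the same with `u : Oˣ`, `O` any localisation of `B` at `𝔫`;
* `x4f_of_reg` : `X4 hr hrN π W t m` from `XReg π t⁻¹`.
-/

set_option autoImplicit false
set_option linter.unusedSectionVars false
set_option linter.unusedVariables false

open ModularCurve AlgebraicCurve IntermediateField

namespace Fermat.Agent.CARlib

open Fermat.Agent.ESlib Fermat.Agent.UNIlib Fermat.Agent.UNIlib.Normalise

section abs

variable {R K F : Type*} [CommRing R] [IsDomain R] [IsDiscreteValuationRing R]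
  [Field K] [Algebra R K] [IsFractionRing R K] [CharZero K] [Field F] [Algebra K F] [Algebra R F]
  [IsScalarTower R K F]

/-- **elementwise regularity of the chart `T`** at all closed points of the special fibre
(first half of `c_all`) -/
def XReg (π : R) (T : F) : Prop :=
  ∀ 𝔫 : Ideal (integralClosure (Algebra.adjoin R {T}) F), 𝔫.IsMaximal →
    algebraMap R (integralClosure (Algebra.adjoin R {T}) F) π ∈ 𝔫 →
    ∃ P : Ideal (integralClosure (Algebra.adjoin R {T}) F), P.IsPrime ∧ P ≤ 𝔫 ∧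
      ∃ a t : integralClosure (Algebra.adjoin R {T}) F, a ≠ 0 ∧ C.CReg 𝔫 P a t

/-- **(i_fac)** -/
theorem x4_fac {π : R} (hπ : Irreducible π) {T : F} (hT : Transcendental K T)
    [FiniteDimensional K⟮T⟯ F] {m : ℕ} (hm : 0 < m) (hreg : XReg π T) {f : F}
    (hf : MDiv K m f) (hf1 : PiInt π T f) (hf2 : PiInt π T f⁻¹)
    (𝔫 : Ideal (integralClosure (Algebra.adjoin R {T}) F)) (h𝔫 : 𝔫.IsMaximal)
    (hπ𝔫 : algebraMap R (integralClosure (Algebra.adjoin R {T}) F) π ∈ 𝔫) :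
    ∃ H : F, H ≠ 0 ∧ ∃ s₁ s₂ : integralClosure (Algebra.adjoin R {T}) F, s₁ ∉ 𝔫 ∧ s₂ ∉ 𝔫 ∧
      (s₁ : F) * f = (s₂ : F) * H ^ m := by
  obtain ⟨P, hP, hle, a, t, ha, h⟩ := hreg 𝔫 h𝔫 hπ𝔫
  exact a2_final_creg (K := K) hπ hT hm hf hf1 hf2 𝔫 P hle ha h

/-- from `s₁ f = s₂ H ^ m` to `f = u H ^ m`, `u` a unit of a localisation `O` of `B` at `𝔫` -/
theorem x4_unit_of_fac {B O : Type*} [CommRing B] [Algebra B F] (𝔫 : Ideal B) [𝔫.IsPrime]
    [CommRing O] [Algebra B O] [IsLocalization.AtPrime O 𝔫] [Algebra O F] [IsScalarTower B O F]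
    {f X : F} {s₁ s₂ : B} (h₁ : s₁ ∉ 𝔫) (h₂ : s₂ ∉ 𝔫) (h0 : algebraMap B F s₁ ≠ 0)
    (h : algebraMap B F s₁ * f = algebraMap B F s₂ * X) :
    ∃ u : Oˣ, f = algebraMap O F u * X := by
  have u₁ : IsUnit (algebraMap B O s₁) := (IsLocalization.AtPrime.isUnit_to_map_iff O 𝔫 s₁).mpr h₁
  have u₂ : IsUnit (algebraMap B O s₂) := (IsLocalization.AtPrime.isUnit_to_map_iff O 𝔫 s₂).mpr h₂
  refine ⟨u₁.unit⁻¹ * u₂.unit, ?_⟩
  apply mul_left_cancel₀ h0
  rw [h, IsScalarTower.algebraMap_apply B O F s₁, ← mul_assoc, ← map_mul, Units.val_mul,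
    ← mul_assoc]
  have : algebraMap B O s₁ * ((u₁.unit⁻¹ : Oˣ) : O) = 1 := by
    have := u₁.unit.mul_inv
    rwa [IsUnit.unit_spec] at this
  rw [this, one_mul, IsUnit.unit_spec, ← IsScalarTower.algebraMap_apply B O F]

/-- **(i_fac)**, unit form -/
theorem x4_fac_unit {π : R} (hπ : Irreducible π) {T : F} (hT : Transcendental K T)
    [FiniteDimensional K⟮T⟯ F] {m : ℕ} (hm : 0 < m) (hreg : XReg π T) {f : F}
    (hf : MDiv K m f) (hf1 : PiInt π T f) (hf2 : PiInt π T f⁻¹)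
    (𝔫 : Ideal (integralClosure (Algebra.adjoin R {T}) F)) [h𝔫 : 𝔫.IsMaximal]
    (hπ𝔫 : algebraMap R (integralClosure (Algebra.adjoin R {T}) F) π ∈ 𝔫)
    (O : Type*) [CommRing O] [Algebra (integralClosure (Algebra.adjoin R {T}) F) O]
    [IsLocalization.AtPrime O 𝔫] [Algebra O F]
    [IsScalarTower (integralClosure (Algebra.adjoin R {T}) F) O F] :
    ∃ H : F, H ≠ 0 ∧ ∃ u : Oˣ, f = algebraMap O F u * H ^ m := by
  obtain ⟨H, hH, s₁, s₂, h₁, h₂, h⟩ := x4_fac (K := K) hπ hT hm hreg hf hf1 hf2 𝔫 h𝔫 hπ𝔫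
  refine ⟨H, hH, x4_unit_of_fac 𝔫 h₁ h₂ ?_ h⟩
  intro h0
  apply h₁
  have : s₁ = 0 := Subtype.ext h0
  rw [this]
  exact 𝔫.zero_mem

/-- `x ≡ 1 mod π` at `W` ⇒ `x` is a unit of `W` -/
theorem x4_mem_of_one (W : ValuationSubring F) {ϖ x : F} (hϖ0 : ϖ ≠ 0) (hϖ : W.valuation ϖ < 1)
    (hx : (x - 1) / ϖ ∈ W) : x ∈ W ∧ x⁻¹ ∈ W := by
  have h := a5_one_val W hϖ0 hϖ hx
  refine ⟨(W.valuation_le_one_iff _).1 h.le, (W.valuation_le_one_iff _).1 ?_⟩
  rw [map_inv₀, h, inv_one]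

end abs

noncomputable section

variable {R K : Type} [CommRing R] [IsDomain R] [IsDiscreteValuationRing R] [Field K]
  [Algebra R K] [IsFractionRing R K] [Algebra ℚ K] [CharZero K] [Algebra K ℂ] [IsScalarTower ℚ K ℂ]
  {N r : ℕ} [NeZero N] [NeZero r] [NeZero (N * r)] [NeZero (N * r * r)]
  [Algebra R (FK K (N * r))] [IsScalarTower R K (FK K (N * r))]
  [Algebra R (FK K (N * r * r))] [IsScalarTower R K (FK K (N * r * r))]

/-- `π` is a non unit of the three vertical valuation rings -/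
theorem x4_val_pi (hr : r.Prime) {π : R} {W₁ W₂ W : ValuationSubring (FK K (N * r * r))}
    (dWVF : IsDV W₁.toSubring (algebraMap R (FK K (N * r * r)) π))
    (dWFV : IsDV W₂.toSubring (algebraMap R (FK K (N * r * r)) π))
    (dW : IsDV W.toSubring (vY K N r))
    (hy : nU W.toSubring (vY K N r ^ (r - 1) / algebraMap R (FK K (N * r * r)) π)) :
    W₁.valuation (algebraMap R (FK K (N * r * r)) π) < 1 ∧
    W₂.valuation (algebraMap R (FK K (N * r * r)) π) < 1 ∧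
    W.valuation (algebraMap R (FK K (N * r * r)) π) < 1 := by
  refine ⟨?_, ?_, ?_⟩
  · rw [C.val_lt_one_iff]; exact Or.inr dWVF.unif_inv
  · rw [C.val_lt_one_iff]; exact Or.inr dWFV.unif_inv
  · have hY : W.valuation (vY K N r) < 1 := by
      rw [C.val_lt_one_iff]; exact Or.inr dW.unif_inv
    obtain ⟨h0, h1, h2⟩ := hy
    have h3 : W.valuation (vY K N r ^ (r - 1) / algebraMap R (FK K (N * r * r)) π)⁻¹ ≤ 1 :=
      (W.valuation_le_one_iff _).2 h2
    have hπ0 : algebraMap R (FK K (N * r * r)) π ≠ 0 := by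
      intro h
      rw [h, div_zero] at h0
      exact h0 rfl
    have hY0 : vY K N r ^ (r - 1) ≠ 0 := by
      intro h
      rw [h, zero_div] at h0
      exact h0 rfl
    have e : algebraMap R (FK K (N * r * r)) π =
        (vY K N r ^ (r - 1) / algebraMap R (FK K (N * r * r)) π)⁻¹ * vY K N r ^ (r - 1) := by
      field_simp
    rw [e, map_mul, map_pow]
    have h4 : W.valuation (vY K N r) ^ (r - 1) < 1 :=
      pow_lt_one₀ zero_le hY (by have := hr.two_le; omega)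
    calc _ ≤ 1 * W.valuation (vY K N r) ^ (r - 1) := by gcongr
      _ < 1 := by rwa [one_mul]

/-- `XOne` ⇒ unit at the three vertical valuation rings -/
theorem x4_piInt_of_one (hr : r.Prime) (hrN : ¬ r ∣ N) {π : R}
    {W : ValuationSubring (FK K (N * r * r))} {T : FK K (N * r * r)}
    (hPi : ∀ x, PiInt π T x ↔ x ∈ WVF R K N r ∧ x ∈ WFV R hr hrN ∧ x ∈ W)
    (hπ0 : algebraMap R (FK K (N * r * r)) π ≠ 0)
    (hv : (WVF R K N r).valuation (algebraMap R (FK K (N * r * r)) π) < 1 ∧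
      (WFV R hr hrN).valuation (algebraMap R (FK K (N * r * r)) π) < 1 ∧
      W.valuation (algebraMap R (FK K (N * r * r)) π) < 1)
    {f : FK K (N * r * r)} (hf : XOne hr hrN π W f) : PiInt π T f ∧ PiInt π T f⁻¹ := by
  obtain ⟨h1, h2, h3⟩ := hf
  have a1 := x4_mem_of_one _ hπ0 hv.1 h1
  have a2 := x4_mem_of_one _ hπ0 hv.2.1 h2
  have a3 := x4_mem_of_one _ hπ0 hv.2.2 h3
  exact ⟨(hPi _).2 ⟨a1.1, a2.1, a3.1⟩, (hPi _).2 ⟨a1.2, a2.2, a3.2⟩⟩

/-- **the field `hX4` of `x5_carKAt`** from the regularity of the chart `t⁻¹` (which vanishes at the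
cusp `∞`). -/
theorem x4f_of_reg (hr : r.Prime) (hrN : ¬ r ∣ N) {m : ℕ} (hm : 0 < m)
    {π : R} (hπ : Irreducible π) (hpow : ∀ u : Rˣ, ∃ w : Rˣ, w ^ m = u)
    (t : FK K (N * r * r)) (ht' : Transcendental K t⁻¹)
    [FiniteDimensional K⟮t⁻¹⟯ (FK K (N * r * r))]
    (hps : ∃ T' : PowerSeries K, ((t⁻¹ : FK K (N * r * r)) : LaurentSeries K) =
      (T' : LaurentSeries K) ∧ PowerSeries.constantCoeff T' = 0)
    (W : ValuationSubring (FK K (N * r * r)))
    (hPi' : ∀ x, PiInt π t⁻¹ x ↔ x ∈ WVF R K N r ∧ x ∈ WFV R hr hrN ∧ x ∈ W)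
    (dWVF : IsDV (WVF R K N r).toSubring (algebraMap R (FK K (N * r * r)) π))
    (dWFV : IsDV (WFV R hr hrN).toSubring (algebraMap R (FK K (N * r * r)) π))
    (dW : IsDV W.toSubring (vY K N r))
    (hy : nU W.toSubring (vY K N r ^ (r - 1) / algebraMap R (FK K (N * r * r)) π))
    (hreg : XReg π t⁻¹) : X4 hr hrN π W t m := by
  intro f hf0 hf hone _ _
  obtain ⟨T', hT, hT0⟩ := hps
  have hv := x4_val_pi hr dWVF dWFV dW hy
  have hπ0 : algebraMap R (FK K (N * r * r)) π ≠ 0 := by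
    intro h
    exact dWVF.unif_inv (by rw [h, inv_zero]; exact Subring.zero_mem _)
  obtain ⟨p1, p2⟩ := x4_piInt_of_one hr hrN hPi' hπ0 hv hone
  exact x4_lc hπ hT hT0 hpow hf0 fun 𝔫 h𝔫 hπ𝔫 =>
    x4_fac (K := K) hπ ht' hm hreg hf p1 p2 𝔫 h𝔫 hπ𝔫

end

end Fermat.Agent.CARlib
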