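import Mathlib

/-!
# T-CAR, block I (gluing): the input bundle `IHalf` (sorry-free definitions, Mathlib only)

`B₁ ⊆ F₁`, `B₂ ⊆ F₂` the global normal models (one chart), `E : B₁ → B₂`, `e : F₁ → F₂` ONE of the two
degeneracy maps, `Nm` the norm along `e`.  `Wi` is the valuation ring of `F₂` over `VF` along `e`
(`e = 1`, `f = r` purely inseparable), `Wu`, `Wr` the two valuation rings over `VV`
(`Wu`: `e = f = 1`; `Wr = W_VV`: `e = r - 1`, `f = 1`).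

Used twice: `(E₁, e₁, N₁, WFV, WVF, WVV)` and `(E₂, e₂, N₂, WVF, WFV, WVV)`.
-/

set_option autoImplicit false

namespace Fermat.Agent.CARlib

/-- the valuation ring `W ⊇ B` passes through the prime `𝔫` (its centre is contained in `𝔫`) -/
def IThr {B F : Type*} [CommRing B] [Field F] [Algebra B F] (W : ValuationSubring F)
    (𝔫 : Ideal B) : Prop :=
  ∀ x : B, W.valuation (algebraMap B F x) < 1 → x ∈ 𝔫

/-- **one direction** of the correspondence level 2 → level 1 -/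
structure IHalf {B₁ B₂ F₁ F₂ : Type*} [CommRing B₁] [CommRing B₂] [Field F₁] [Field F₂]
    [Algebra B₁ F₁] [Algebra B₂ F₂] (r : ℕ) (E : B₁ →+* B₂) (e : F₁ →+* F₂) (Nm : F₂ →* F₁)
    (VF VV : ValuationSubring F₁) (Wi Wu Wr : ValuationSubring F₂) : Prop where
  hE : ∀ b, algebraMap B₂ F₂ (E b) = e (algebraMap B₁ F₁ b)
  sub₁F : ∀ b : B₁, algebraMap B₁ F₁ b ∈ VF
  sub₁V : ∀ b : B₁, algebraMap B₁ F₁ b ∈ VV
  sub_i : ∀ b : B₂, algebraMap B₂ F₂ b ∈ Wi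
  sub_u : ∀ b : B₂, algebraMap B₂ F₂ b ∈ Wu
  sub_r : ∀ b : B₂, algebraMap B₂ F₂ b ∈ Wr
  comap_i : Wi.comap e = VF
  comap_u : Wu.comap e = VV
  comap_r : Wr.comap e = VV
  /-- (N1-F) -/
  n1F : ∀ H ∈ Wi, ∀ c ∈ VF, Wi.valuation (e c - H ^ r) < 1 → VF.valuation (Nm H - c) < 1
  /-- (N1-V) -/
  n1V : ∀ H, H ∈ Wu → H ∈ Wr → ∀ a1 ∈ VV, ∀ a2 ∈ VV, Wu.valuation (e a1 - H) < 1 →
    Wr.valuation (e a2 - H) < 1 → VV.valuation (Nm H - a1 * a2 ^ (r - 1)) < 1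
  /-- norms of integral elements are integral -/
  nInt : ∀ b : B₂, ∃ c : B₁, Nm (algebraMap B₂ F₂ b) = algebraMap B₁ F₁ c
  /-- `B₂ / P_i` is purely inseparable of exponent one over `E (B₁ / p_F)` -/
  dF : ∀ x : B₂, ∃ c : B₁, Wi.valuation (algebraMap B₂ F₂ (x ^ r - E c)) < 1
  /-- `B₂ = E B₁ + P_u` (`c1_res`) -/
  dU : ∀ x : B₂, ∃ c : B₁, Wu.valuation (algebraMap B₂ F₂ (x - E c)) < 1
  /-- `B₂ = E B₁ + P_r` (`c1_res_mid`) -/
  dR : ∀ x : B₂, ∃ c : B₁, Wr.valuation (algebraMap B₂ F₂ (x - E c)) < 1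

end Fermat.Agent.CARlib
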