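import Fermat.Agent.CAR.NBasic
import Fermat.Agent.CAR.IDefs
import Fermat.Agent.CAR.C1Frob

/-!
# T-CAR, block X, row X6: `IHalf` (input bundle of block I) from `NHalf` (block N) and the bundles of
block C.  The fields `n1F`, `n1V` follow from `NHalf` (no classification of valuation rings needed).
-/

set_option autoImplicit false

namespace Fermat.Agent.CARlib

open Fermat.Agent.UNIlib.Normalise Polynomial

section dict

variable {F : Type*} [Field F] {W : ValuationSubring F} {ϖ : F}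

theorem x6_val_unif_lt_one (d : IsDV W.toSubring ϖ) : W.valuation ϖ < 1 := by
  rw [C.val_lt_one_iff]
  exact Or.inr d.unif_inv

theorem x6_val_lt_one_iff (d : IsDV W.toSubring ϖ) (x : F) :
    W.valuation x < 1 ↔ x / ϖ ∈ W := by
  constructor
  · intro h
    have hx : x ∈ W.toSubring := C.mem_of_val_lt_one h
    refine d.div_mem_of_not_nU hx ?_
    rintro ⟨h0, -, h2⟩
    rw [C.val_lt_one_iff] at h
    rcases h with h | h
    · exact h0 h
    · exact h h2
  · intro h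
    have h1 : W.valuation (x / ϖ) ≤ 1 := (W.valuation_le_one_iff _).2 h
    have h2 : x = x / ϖ * ϖ := by
      rw [div_mul_cancel₀ _ d.unif_ne_zero]
    rw [h2, map_mul]
    calc W.valuation (x / ϖ) * W.valuation ϖ ≤ 1 * W.valuation ϖ := by gcongr
      _ = W.valuation ϖ := one_mul _
      _ < 1 := x6_val_unif_lt_one d

theorem x6_nU_iff (x : F) : nU W.toSubring x ↔ W.valuation x = 1 := by
  constructor
  · rintro ⟨h0, h1, h2⟩
    apply le_antisymm ((W.valuation_le_one_iff _).2 h1)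
    by_contra hlt
    rw [not_le, C.val_lt_one_iff] at hlt
    rcases hlt with h | h
    · exact h0 h
    · exact h h2
  · intro h
    have h0 : x ≠ 0 := by
      rintro rfl
      simp at h
    refine ⟨h0, (W.valuation_le_one_iff _).1 h.le, (W.valuation_le_one_iff _).1 ?_⟩
    rw [map_inv₀, h, inv_one]

theorem x6_val_sub_lt {x y : F} (h : W.valuation (x - y) < 1) (hy : W.valuation y < 1) :
    W.valuation x < 1 := by
  have : x = (x - y) + y := by ring
  rw [this]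
  exact lt_of_le_of_lt (W.valuation.map_add _ _) (max_lt h hy)

theorem x6_val_eq_one_of_sub {x y : F} (h : W.valuation (x - y) < 1) (hy : W.valuation y = 1) :
    W.valuation x = 1 := by
  have h1 : x = y + (x - y) := by ring
  rw [h1, W.valuation.map_add_eq_of_lt_left (by rw [hy]; exact h), hy]

/-- `x ≡ y`, `y` a unit ⇒ `x / y ≡ 1 mod ϖ` -/
theorem x6_oneMod_div (d : IsDV W.toSubring ϖ) {x y : F} (h : W.valuation (x - y) < 1)
    (hy : W.valuation y = 1) : OneMod W.toSubring ϖ (x / y) := by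
  have hy0 : y ≠ 0 := by
    rintro rfl
    simp at hy
  show (x / y - 1) / ϖ ∈ W
  rw [← x6_val_lt_one_iff d]
  have : x / y - 1 = (x - y) / y := by field_simp
  rw [this, map_div₀, hy, div_one]
  exact h

/-- `x / y ≡ 1 mod ϖ`, `y ∈ W` ⇒ `x ≡ y` -/
theorem x6_val_sub_of_oneMod (d : IsDV W.toSubring ϖ) {x y : F} (h : OneMod W.toSubring ϖ (x / y))
    (hy0 : y ≠ 0) (hy : y ∈ W) : W.valuation (x - y) < 1 := by
  have h1 : W.valuation (x / y - 1) < 1 := (x6_val_lt_one_iff d _).2 h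
  have : x - y = (x / y - 1) * y := by field_simp
  rw [this, map_mul]
  calc W.valuation (x / y - 1) * W.valuation y ≤ W.valuation (x / y - 1) * 1 := by
        gcongr
        exact (W.valuation_le_one_iff _).2 hy
    _ = W.valuation (x / y - 1) := mul_one _
    _ < 1 := h1

/-- positive order ⇔ non unit -/
theorem x6_hasOrd_val (d : IsDV W.toSubring ϖ) {x : F} {a : ℤ} (h : HasOrd W.toSubring ϖ x a) :
    W.valuation x = W.valuation ϖ ^ a := by
  have h1 : W.valuation (x / ϖ ^ a) = 1 := (x6_nU_iff _).1 h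
  rw [map_div₀, map_zpow₀] at h1
  have h0 : W.valuation ϖ ^ a ≠ 0 :=
    zpow_ne_zero _ ((W.valuation.ne_zero_iff).2 d.unif_ne_zero)
  rwa [div_eq_one_iff_eq h0] at h1

theorem x6_zpow_lt_one {Γ : Type*} [LinearOrderedCommGroupWithZero Γ] {v : Γ} (h0 : v ≠ 0)
    (h1 : v < 1) {a : ℤ} (ha : 0 < a) : v ^ a < 1 := by
  obtain ⟨n, rfl⟩ := Int.eq_ofNat_of_zero_le ha.le
  rw [zpow_natCast]
  exact pow_lt_one₀ zero_le' h1 (by omega)

theorem x6_one_le_zpow {Γ : Type*} [LinearOrderedCommGroupWithZero Γ] {v : Γ} (h0 : v ≠ 0)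
    (h1 : v < 1) {a : ℤ} (ha : a ≤ 0) : 1 ≤ v ^ a := by
  obtain ⟨n, hn⟩ := Int.eq_ofNat_of_zero_le (neg_nonneg.2 ha)
  have : a = -(n : ℤ) := by omega
  rw [this, zpow_neg, zpow_natCast]
  exact (one_le_inv₀ (pow_pos (zero_lt_iff.2 h0) n)).2 (pow_le_one₀ zero_le' h1.le)

theorem x6_hasOrd_pos_iff (d : IsDV W.toSubring ϖ) {x : F} {a : ℤ}
    (h : HasOrd W.toSubring ϖ x a) : W.valuation x < 1 ↔ 0 < a := by
  rw [x6_hasOrd_val d h]
  have h0 : W.valuation ϖ ≠ 0 := (W.valuation.ne_zero_iff).2 d.unif_ne_zero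
  constructor
  · intro hlt
    by_contra hle
    exact absurd hlt (not_lt.2 (x6_one_le_zpow h0 (x6_val_unif_lt_one d) (not_lt.1 hle)))
  · exact x6_zpow_lt_one h0 (x6_val_unif_lt_one d)

theorem x6_hasOrd_nonneg (d : IsDV W.toSubring ϖ) {x : F} {a : ℤ}
    (h : HasOrd W.toSubring ϖ x a) (hx : x ∈ W) : 0 ≤ a := by
  by_contra hlt
  push Not at hlt
  have h1 : HasOrd W.toSubring ϖ x⁻¹ (-a) := h.inv
  have h2 : W.valuation x⁻¹ < 1 := (x6_hasOrd_pos_iff d h1).2 (by omega)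
  rw [map_inv₀] at h2
  have h3 : W.valuation x ≤ 1 := (W.valuation_le_one_iff _).2 hx
  have h0 : W.valuation x ≠ 0 := (W.valuation.ne_zero_iff).2 h.ne_zero
  have h4 : 1 ≤ (W.valuation x)⁻¹ := (one_le_inv₀ (zero_lt_iff.2 h0)).2 h3
  exact absurd h2 (not_lt.2 h4)

end dict

section norm

variable {F₁ F₂ : Type*} [Field F₁] [Field F₂] {r : ℕ} {e : F₁ →+* F₂} {N : F₂ →*₀ F₁}
  {VF VV : ValuationSubring F₁} {π₁ : F₁} {Wi Wu Wr : ValuationSubring F₂} {y : F₂}

/-- **(N1-F)** from `NHalf` -/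
theorem x6_n1F (hr : 0 < r)
    (H : NHalf r e N VF.toSubring VV.toSubring π₁ Wi.toSubring Wu.toSubring Wr.toSubring y)
    (dVF : IsDV VF.toSubring π₁) (dWi : IsDV Wi.toSubring (e π₁)) (hci : Wi.comap e = VF)
    (X : F₂) (hX : X ∈ Wi) (c : F₁) (_hc : c ∈ VF) (h : Wi.valuation (e c - X ^ r) < 1) :
    VF.valuation (N X - c) < 1 := by
  by_cases hX0 : X = 0
  · subst hX0
    rw [zero_pow hr.ne', sub_zero, C.val_comap_lt_one_iff hci] at h
    rw [map_zero, zero_sub, Valuation.map_neg]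
    exact h
  obtain ⟨n, hn⟩ := dWi.exists_hasOrd hX0
  have hn0 : 0 ≤ n := x6_hasOrd_nonneg dWi hn hX
  have hN : HasOrd VF.toSubring π₁ (N X) ((r : ℤ) * n) := H.ordF X n hn
  rcases hn0.lt_or_eq with hpos | hzero
  · -- non unit
    have h1 : Wi.valuation X < 1 := (x6_hasOrd_pos_iff dWi hn).2 hpos
    have h2 : Wi.valuation (X ^ r) < 1 := by
      rw [map_pow]
      exact pow_lt_one₀ zero_le' h1 hr.ne'
    have h3 : Wi.valuation (e c) < 1 := x6_val_sub_lt h h2
    rw [C.val_comap_lt_one_iff hci] at h3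
    have h4 : VF.valuation (N X) < 1 := (x6_hasOrd_pos_iff dVF hN).2 (by positivity)
    exact lt_of_le_of_lt (VF.valuation.map_sub _ _) (max_lt h4 h3)
  · subst hzero
    have hu : nU Wi.toSubring X := hasOrd_zero_iff.1 hn
    have hNu : nU VF.toSubring (N X) := by
      rw [mul_zero] at hN
      exact hasOrd_zero_iff.1 hN
    have h1 := H.resF X hu
    have heN : e (N X) ∈ Wi := C.mem_of_comap hci hNu.2.1
    have heN0 : e (N X) ≠ 0 := (map_ne_zero e).2 hNu.1
    have h2 : Wi.valuation (X ^ r - e (N X)) < 1 := x6_val_sub_of_oneMod dWi h1 heN0 heN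
    have h3 : Wi.valuation (e (N X - c)) < 1 := by
      have : e (N X - c) = -((e c - X ^ r) + (X ^ r - e (N X))) := by
        rw [map_sub]; ring
      rw [this, Valuation.map_neg]
      exact lt_of_le_of_lt (Wi.valuation.map_add _ _) (max_lt h h2)
    exact (C.val_comap_lt_one_iff hci _).1 h3

/-- **(N1-V)** from `NHalf` -/
theorem x6_n1V (hr : 2 ≤ r)
    (H : NHalf r e N VF.toSubring VV.toSubring π₁ Wi.toSubring Wu.toSubring Wr.toSubring y)
    (dVV : IsDV VV.toSubring π₁) (dWu : IsDV Wu.toSubring (e π₁)) (dWr : IsDV Wr.toSubring y)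
    (hcu : Wu.comap e = VV) (hcr : Wr.comap e = VV)
    (X : F₂) (hXu : X ∈ Wu) (hXr : X ∈ Wr) (a1 : F₁) (ha1 : a1 ∈ VV) (a2 : F₁) (ha2 : a2 ∈ VV)
    (h1 : Wu.valuation (e a1 - X) < 1) (h2 : Wr.valuation (e a2 - X) < 1) :
    VV.valuation (N X - a1 * a2 ^ (r - 1)) < 1 := by
  have hr1 : r - 1 ≠ 0 := by omega
  have hle1 : VV.valuation a1 ≤ 1 := (VV.valuation_le_one_iff _).2 ha1
  have hle2 : VV.valuation a2 ≤ 1 := (VV.valuation_le_one_iff _).2 ha2
  -- if `a1` or `a2` is a non unit, the product is a non unit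
  have hprod1 : VV.valuation a1 < 1 → VV.valuation (a1 * a2 ^ (r - 1)) < 1 := by
    intro h
    rw [map_mul, map_pow]
    calc VV.valuation a1 * VV.valuation a2 ^ (r - 1) ≤ VV.valuation a1 * 1 := by
          gcongr
          exact pow_le_one₀ zero_le' hle2
      _ = VV.valuation a1 := mul_one _
      _ < 1 := h
  have hprod2 : VV.valuation a2 < 1 → VV.valuation (a1 * a2 ^ (r - 1)) < 1 := by
    intro h
    rw [map_mul, map_pow]
    calc VV.valuation a1 * VV.valuation a2 ^ (r - 1) ≤ 1 * VV.valuation a2 ^ (r - 1) := by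
          gcongr
      _ = VV.valuation a2 ^ (r - 1) := one_mul _
      _ < 1 := pow_lt_one₀ zero_le' h hr1
  by_cases hX0 : X = 0
  · subst hX0
    rw [sub_zero, C.val_comap_lt_one_iff hcu] at h1
    rw [map_zero, zero_sub, Valuation.map_neg]
    exact hprod1 h1
  obtain ⟨a, ha⟩ := dWu.exists_hasOrd hX0
  obtain ⟨b, hb⟩ := dWr.exists_hasOrd hX0
  have ha0 : 0 ≤ a := x6_hasOrd_nonneg dWu ha hXu
  have hb0 : 0 ≤ b := x6_hasOrd_nonneg dWr hb hXr
  have hN : HasOrd VV.toSubring π₁ (N X) (a + b) := H.ordV X a b ha hb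
  by_cases hab : 0 < a + b
  · have h4 : VV.valuation (N X) < 1 := (x6_hasOrd_pos_iff dVV hN).2 hab
    have h5 : VV.valuation (a1 * a2 ^ (r - 1)) < 1 := by
      rcases ha0.lt_or_eq with hpos | hzero
      · apply hprod1
        rw [← C.val_comap_lt_one_iff hcu]
        exact x6_val_sub_lt h1 ((x6_hasOrd_pos_iff dWu ha).2 hpos)
      · apply hprod2
        rw [← C.val_comap_lt_one_iff hcr]
        exact x6_val_sub_lt h2 ((x6_hasOrd_pos_iff dWr hb).2 (by omega))
    exact lt_of_le_of_lt (VV.valuation.map_sub _ _) (max_lt h4 h5)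
  · have ha' : a = 0 := by omega
    have hb' : b = 0 := by omega
    subst ha' hb'
    have huu : Wu.valuation X = 1 := (x6_nU_iff _).1 (hasOrd_zero_iff.1 ha)
    have hur : Wr.valuation X = 1 := (x6_nU_iff _).1 (hasOrd_zero_iff.1 hb)
    have he1 : Wu.valuation (e a1) = 1 := x6_val_eq_one_of_sub h1 huu
    have he2 : Wr.valuation (e a2) = 1 := x6_val_eq_one_of_sub h2 hur
    have hva1 : VV.valuation a1 = 1 := by
      apply le_antisymm hle1
      by_contra hlt
      rw [not_le, ← C.val_comap_lt_one_iff hcu, he1] at hlt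
      exact lt_irrefl _ hlt
    have hva2 : VV.valuation a2 = 1 := by
      apply le_antisymm hle2
      by_contra hlt
      rw [not_le, ← C.val_comap_lt_one_iff hcr, he2] at hlt
      exact lt_irrefl _ hlt
    have h1' : Wu.valuation (X - e a1) < 1 := by
      rw [← Valuation.map_neg, neg_sub]; exact h1
    have h2' : Wr.valuation (X - e a2) < 1 := by
      rw [← Valuation.map_neg, neg_sub]; exact h2
    have h3 := H.resV X a1 a2 ((x6_nU_iff _).2 hva1) ((x6_nU_iff _).2 hva2)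
      (x6_oneMod_div dWu h1' he1) (x6_oneMod_div dWr h2' he2)
    have hp1 : VV.valuation (a1 * a2 ^ (r - 1)) = 1 := by
      rw [map_mul, map_pow, hva1, hva2, one_pow, one_mul]
    have hp0 : a1 * a2 ^ (r - 1) ≠ 0 := by
      intro h0
      rw [h0, map_zero] at hp1
      exact zero_ne_one hp1
    exact x6_val_sub_of_oneMod dVV h3 hp0 ((VV.valuation_le_one_iff _).1 hp1.le)

end norm

section bundle

variable {B₁ B₂ F₁ F₂ : Type*} [CommRing B₁] [CommRing B₂] [Field F₁] [Field F₂]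
  [Algebra B₁ F₁] [Algebra B₂ F₂] {π₁ : B₁} {π₂ : B₂} {Ea Eb : B₁ →+* B₂} {ea eb : F₁ →+* F₂}
  {VF VV : ValuationSubring F₁} {Wi Wu Wr : ValuationSubring F₂} {Pi Pu Pr : Ideal B₂}
  {pF pV : Ideal B₁} {r : ℕ} {y : F₂}

/-- **`IHalf`** along `ea` from the bundles of blocks C and N.
(`e₁`: `Hi = H₁`, `Hu = H₂`, `M = M₁`;  `e₂`: `Hi = H₂`, `Hu = H₁`, `M = M₂`.) -/
theorem x6_iHalf (hr : 2 ≤ r) (L : C.CLev1 π₁ VF VV pF pV)
    (Hi : C.CPull π₁ π₂ Ea Eb ea eb VF VV Wi Wu Wr Pi)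
    (Hu : C.CPull π₁ π₂ Eb Ea eb ea VF VV Wu Wi Wr Pu)
    (M : C.CMidV π₂ Ea ea VV Wr Pr)
    (hsubF : ∀ b : B₁, algebraMap B₁ F₁ b ∈ VF) (hsubV : ∀ b : B₁, algebraMap B₁ F₁ b ∈ VV)
    {N : F₂ →*₀ F₁} {Nm : F₂ →* F₁} (hNm : ∀ x, Nm x = N x)
    (H : NHalf r ea N VF.toSubring VV.toSubring (algebraMap B₁ F₁ π₁) Wi.toSubring Wu.toSubring
      Wr.toSubring y)
    (dVF : IsDV VF.toSubring (algebraMap B₁ F₁ π₁)) (dVV : IsDV VV.toSubring (algebraMap B₁ F₁ π₁))
    (dWi : IsDV Wi.toSubring (ea (algebraMap B₁ F₁ π₁)))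
    (dWu : IsDV Wu.toSubring (ea (algebraMap B₁ F₁ π₁))) (dWr : IsDV Wr.toSubring y)
    (hresF : ∀ x ∈ Wi, ∃ u ∈ VF, Wi.valuation (x ^ r - ea u) < 1)
    (hnormF : ∀ Z ∈ VF, ∀ p : B₁[X], p.Monic → VF.valuation (aeval Z p) < 1 →
      ∃ x : B₁, VF.valuation (Z - algebraMap B₁ F₁ x) < 1)
    (hnInt : ∀ b : B₂, ∃ c : B₁, Nm (algebraMap B₂ F₂ b) = algebraMap B₁ F₁ c) :
    IHalf r Ea ea Nm VF VV Wi Wu Wr where
  hE := Hi.hEa
  sub₁F := hsubF
  sub₁V := hsubV
  sub_i := Hi.sub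
  sub_u := Hi.sub'
  sub_r := Hi.sub''
  comap_i := Hi.comap_a
  comap_u := Hi.comap_a'
  comap_r := Hi.comap_a''
  n1F := fun X hX c hc h => by
    rw [hNm]
    exact x6_n1F (by omega) H dVF dWi Hi.comap_a X hX c hc h
  n1V := fun X hXu hXr a1 ha1 a2 ha2 h1 h2 => by
    rw [hNm]
    exact x6_n1V hr H dVV dWu dWr Hi.comap_a' Hi.comap_a'' X hXu hXr a1 ha1 a2 ha2 h1 h2
  nInt := hnInt
  dF := fun x => by
    obtain ⟨c, hc⟩ := C.c1_frob Hi hresF hnormF x
    exact ⟨c, (Hi.memP _).1 hc⟩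
  dU := fun x => by
    obtain ⟨c, hc⟩ := C.c1_res L Hu x
    exact ⟨c, (Hu.memP _).1 hc⟩
  dR := fun x => by
    obtain ⟨c, hc⟩ := C.c1_res_mid L M x
    exact ⟨c, (M.memP _).1 hc⟩

end bundle

end Fermat.Agent.CARlib
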