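import Fermat.Agent.CAR.IChart
import Fermat.Agent.CAR.CAll
import Fermat.Agent.CAR.CInst
import Fermat.Agent.CAR.X6IHalf
import Fermat.Agent.CAR.X4Fac
import Fermat.Agent.CAR.I9Frac3

/-!
# T-CAR, block I, (L1): the hypotheses of `i_chart` from the bundles of blocks C, N, V (one chart)

`B₁ = integralClosure R[T₁] F₁`, `B₂ = integralClosure R[t2] F₂`, `E_i = C.cE e_i he_i`,
`P_W = C.cCen B₂ W`.
-/

set_option autoImplicit false
set_option linter.unusedSectionVars false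
set_option linter.style.haveILetI false

namespace Fermat.Agent.CARlib

open Polynomial IntermediateField Fermat.Agent.ESlib Fermat.Agent.UNIlib

/-- an element `≡ 1` modulo `π W` is a unit of `W` -/
theorem ic_unit_of_one_mod {F : Type*} [Field F] (W : ValuationSubring F) {π g : F} (hπ0 : π ≠ 0)
    (hπ : W.valuation π < 1) (hg : (g - 1) / π ∈ W) : g ∈ W ∧ g⁻¹ ∈ W := by
  have h1 : W.valuation (g - 1) < 1 := a5_lt_of_div_mem W hπ0 hπ hg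
  have h2 : W.valuation g = 1 := by
    have h3 : g = 1 + (g - 1) := by ring
    rw [h3]
    have h4 := Valuation.map_add_eq_of_lt_left W.valuation
      (x := 1) (y := g - 1) (by rw [map_one]; exact h1)
    rw [h4, map_one]
  refine ⟨(W.valuation_le_one_iff g).1 h2.le, (W.valuation_le_one_iff _).1 ?_⟩
  rw [map_inv₀, h2, inv_one]

/-- `ν / π ∈ W` ⇒ `ν ^ r / π ∈ W` -/
theorem ic_pow_div_mem {F : Type*} [Field F] (W : ValuationSubring F) {π ν : F} {k r : ℕ}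
    (hk : k ≤ r) (hν : ν ∈ W) (h : ν ^ k / π ∈ W) : ν ^ r / π ∈ W := by
  obtain ⟨j, rfl⟩ := Nat.exists_eq_add_of_le hk
  rw [pow_add, mul_comm, mul_div_assoc]
  exact W.mul_mem _ _ (W.pow_mem hν j) h

section chart

variable {R K F₁ F₂ : Type*} [CommRing R] [IsDomain R] [IsDiscreteValuationRing R]
  [Field K] [Algebra R K] [IsFractionRing R K] [CharZero K] [Field F₁] [Algebra R F₁] [Field F₂]
  [Algebra K F₂] [Algebra R F₂] [IsScalarTower R K F₂] {T₁ : F₁} {t2 : F₂} {r : ℕ} {π : R}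
  {e₁ e₂ : F₁ →ₐ[R] F₂} {he₁ : e₁ T₁ = t2} {he₂ : e₂ T₁ = t2}
  {VF VV : ValuationSubring F₁} {WFV WVF WVV : ValuationSubring F₂}
  {pF pV : Ideal (integralClosure (Algebra.adjoin R {T₁}) F₁)}

/-- the three centres, in the order of `iW` -/
def icP (t2 : F₂) (WFV WVF WVV : ValuationSubring F₂) :
    Fin 3 → Ideal (integralClosure (Algebra.adjoin R {t2}) F₂) :=
  ![C.cCen _ WFV, C.cCen _ WVF, C.cCen _ WVV]

variable
  (L : C.CLev1 (algebraMap R (integralClosure (Algebra.adjoin R {T₁}) F₁) π) VF VV pF pV)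
  (H₁ : C.CPull (algebraMap R (integralClosure (Algebra.adjoin R {T₁}) F₁) π)
    (algebraMap R (integralClosure (Algebra.adjoin R {t2}) F₂) π) (C.cE e₁ he₁) (C.cE e₂ he₂)
    (e₁ : F₁ →+* F₂) (e₂ : F₁ →+* F₂) VF VV WFV WVF WVV (C.cCen _ WFV))
  (H₂ : C.CPull (algebraMap R (integralClosure (Algebra.adjoin R {T₁}) F₁) π)
    (algebraMap R (integralClosure (Algebra.adjoin R {t2}) F₂) π) (C.cE e₂ he₂) (C.cE e₁ he₁)
    (e₂ : F₁ →+* F₂) (e₁ : F₁ →+* F₂) VF VV WVF WFV WVV (C.cCen _ WVF))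
  (M₁ : C.CMidV (algebraMap R (integralClosure (Algebra.adjoin R {t2}) F₂) π) (C.cE e₁ he₁)
    (e₁ : F₁ →+* F₂) VV WVV (C.cCen _ WVV))
  (M₂ : C.CMidV (algebraMap R (integralClosure (Algebra.adjoin R {t2}) F₂) π) (C.cE e₂ he₂)
    (e₂ : F₁ →+* F₂) VV WVV (C.cCen _ WVV))

include H₁ M₁ in
theorem ic_hP (i : Fin 3) (x : integralClosure (Algebra.adjoin R {t2}) F₂) :
    x ∈ icP (R := R) t2 WFV WVF WVV i ↔ (iW WFV WVF WVV i).valuation (x : F₂) < 1 := by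
  fin_cases i
  · exact H₁.memP x
  · exact C.mem_cCen H₁.sub' x
  · exact M₁.memP x

include L H₁ H₂ M₁ in
/-- **regularity of the chart** (`c_all`) -/
theorem ic_reg
    (hπ₁ : algebraMap R (integralClosure (Algebra.adjoin R {t2}) F₂) π ∈ C.cCen _ WFV)
    (hπ₂ : algebraMap R (integralClosure (Algebra.adjoin R {t2}) F₂) π ∈ C.cCen _ WVF)
    (hmid : ∀ 𝔫 : Ideal (integralClosure (Algebra.adjoin R {t2}) F₂), 𝔫.IsMaximal →
      C.cCen _ WVV ≤ 𝔫 → ¬ C.cCen _ WFV ≤ 𝔫 → ¬ C.cCen _ WVF ≤ 𝔫 →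
      C.CMid (algebraMap R (integralClosure (Algebra.adjoin R {t2}) F₂) π) WVV 𝔫) :
    XReg π t2 ∧ ∀ 𝔫 : Ideal (integralClosure (Algebra.adjoin R {t2}) F₂), 𝔫.IsMaximal →
      algebraMap R _ π ∈ 𝔫 → ∀ i, icP (R := R) t2 WFV WVF WVV i ≤ 𝔫 →
        C.CDvr 𝔫 (icP (R := R) t2 WFV WVF WVV i) := by
  refine ⟨fun 𝔫 h𝔫 hπ𝔫 => ?_, fun 𝔫 h𝔫 hπ𝔫 i => ?_⟩
  · obtain ⟨⟨P, hP, -, hle, a, t, ha, hreg⟩, -⟩ := C.c_all L H₁ H₂ M₁ hπ₁ hπ₂ hmid 𝔫 h𝔫 hπ𝔫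
    exact ⟨P, hP, hle, a, t, ha, hreg⟩
  · obtain ⟨-, h1, h2, h3⟩ := C.c_all L H₁ H₂ M₁ hπ₁ hπ₂ hmid 𝔫 h𝔫 hπ𝔫
    fin_cases i
    · exact h1
    · exact h2
    · exact h3


/-! ### the two bundles `IHalf` -/

variable {N₁ N₂ : F₂ →*₀ F₁} {Nm₁ Nm₂ : F₂ →* F₁} {y : F₂}

include L H₁ H₂ M₁ in
theorem ic_D₁ (hr : 2 ≤ r)
    (hsubF : ∀ b : integralClosure (Algebra.adjoin R {T₁}) F₁, (b : F₁) ∈ VF)
    (hsubV : ∀ b : integralClosure (Algebra.adjoin R {T₁}) F₁, (b : F₁) ∈ VV)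
    (hNm : ∀ x, Nm₁ x = N₁ x)
    (H : NHalf r (e₁ : F₁ →+* F₂) N₁ VF.toSubring VV.toSubring (algebraMap R F₁ π) WFV.toSubring
      WVF.toSubring WVV.toSubring y)
    (dVF : IsDV VF.toSubring (algebraMap R F₁ π)) (dVV : IsDV VV.toSubring (algebraMap R F₁ π))
    (dWFV : IsDV WFV.toSubring (algebraMap R F₂ π)) (dWVF : IsDV WVF.toSubring (algebraMap R F₂ π))
    (dW : IsDV WVV.toSubring y)
    (hresF : ∀ x ∈ WFV, ∃ u ∈ VF, WFV.valuation (x ^ r - e₁ u) < 1)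
    (hnormF : ∀ Z ∈ VF, ∀ p : (integralClosure (Algebra.adjoin R {T₁}) F₁)[X], p.Monic →
      VF.valuation (aeval Z p) < 1 →
      ∃ x : integralClosure (Algebra.adjoin R {T₁}) F₁, VF.valuation (Z - (x : F₁)) < 1)
    (hnInt : ∀ b : integralClosure (Algebra.adjoin R {t2}) F₂,
      ∃ c : integralClosure (Algebra.adjoin R {T₁}) F₁, Nm₁ (b : F₂) = (c : F₁)) :
    IHalf r (C.cE e₁ he₁) (e₁ : F₁ →+* F₂) Nm₁ VF VV WFV WVF WVV := by
  have hc : (e₁ : F₁ →+* F₂) (algebraMap R F₁ π) = algebraMap R F₂ π := e₁.commutes π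
  exact x6_iHalf hr L H₁ H₂ M₁ hsubF hsubV hNm H dVF dVV
    (by rw [show (e₁ : F₁ →+* F₂) (algebraMap (integralClosure (Algebra.adjoin R {T₁}) F₁) F₁
      (algebraMap R _ π)) = algebraMap R F₂ π from hc]; exact dWFV)
    (by rw [show (e₁ : F₁ →+* F₂) (algebraMap (integralClosure (Algebra.adjoin R {T₁}) F₁) F₁
      (algebraMap R _ π)) = algebraMap R F₂ π from hc]; exact dWVF) dW hresF hnormF hnInt

include L H₁ H₂ M₂ in
theorem ic_D₂ (hr : 2 ≤ r)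
    (hsubF : ∀ b : integralClosure (Algebra.adjoin R {T₁}) F₁, (b : F₁) ∈ VF)
    (hsubV : ∀ b : integralClosure (Algebra.adjoin R {T₁}) F₁, (b : F₁) ∈ VV)
    (hNm : ∀ x, Nm₂ x = N₂ x)
    (H : NHalf r (e₂ : F₁ →+* F₂) N₂ VF.toSubring VV.toSubring (algebraMap R F₁ π) WVF.toSubring
      WFV.toSubring WVV.toSubring y)
    (dVF : IsDV VF.toSubring (algebraMap R F₁ π)) (dVV : IsDV VV.toSubring (algebraMap R F₁ π))
    (dWFV : IsDV WFV.toSubring (algebraMap R F₂ π)) (dWVF : IsDV WVF.toSubring (algebraMap R F₂ π))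
    (dW : IsDV WVV.toSubring y)
    (hresF : ∀ x ∈ WVF, ∃ u ∈ VF, WVF.valuation (x ^ r - e₂ u) < 1)
    (hnormF : ∀ Z ∈ VF, ∀ p : (integralClosure (Algebra.adjoin R {T₁}) F₁)[X], p.Monic →
      VF.valuation (aeval Z p) < 1 →
      ∃ x : integralClosure (Algebra.adjoin R {T₁}) F₁, VF.valuation (Z - (x : F₁)) < 1)
    (hnInt : ∀ b : integralClosure (Algebra.adjoin R {t2}) F₂,
      ∃ c : integralClosure (Algebra.adjoin R {T₁}) F₁, Nm₂ (b : F₂) = (c : F₁)) :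
    IHalf r (C.cE e₂ he₂) (e₂ : F₁ →+* F₂) Nm₂ VF VV WVF WFV WVV := by
  have hc : (e₂ : F₁ →+* F₂) (algebraMap R F₁ π) = algebraMap R F₂ π := e₂.commutes π
  exact x6_iHalf hr L H₂ H₁ M₂ hsubF hsubV hNm H dVF dVV
    (by rw [show (e₂ : F₁ →+* F₂) (algebraMap (integralClosure (Algebra.adjoin R {T₁}) F₁) F₁
      (algebraMap R _ π)) = algebraMap R F₂ π from hc]; exact dWVF)
    (by rw [show (e₂ : F₁ →+* F₂) (algebraMap (integralClosure (Algebra.adjoin R {T₁}) F₁) F₁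
      (algebraMap R _ π)) = algebraMap R F₂ π from hc]; exact dWFV) dW hresF hnormF hnInt

/-! ### the chart statement -/

set_option maxHeartbeats 3200000 in
include H₁ H₂ M₁ in
/-- **(L1)** `LocPowB2` in the chart `t2` -/
theorem ic_chart (hπ : Irreducible π) (ht2 : Transcendental K t2) [FiniteDimensional K⟮t2⟯ F₂]
    (D₁ : IHalf r (C.cE e₁ he₁) (e₁ : F₁ →+* F₂) Nm₁ VF VV WFV WVF WVV)
    (D₂ : IHalf r (C.cE e₂ he₂) (e₂ : F₁ →+* F₂) Nm₂ VF VV WVF WFV WVV)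
    (hr : r.Prime) (hW : ∀ x, PiInt π t2 x ↔ ∀ i, x ∈ iW WFV WVF WVV i)
    (hreg : XReg π t2)
    (hdvr : ∀ 𝔫 : Ideal (integralClosure (Algebra.adjoin R {t2}) F₂), 𝔫.IsMaximal →
      algebraMap R _ π ∈ 𝔫 → ∀ i, icP (R := R) t2 WFV WVF WVV i ≤ 𝔫 →
        C.CDvr 𝔫 (icP (R := R) t2 WFV WVF WVV i))
    (hπW : ∀ i, (iW WFV WVF WVV i).valuation (algebraMap R F₂ π) < 1)
    (harch : ∀ i x, ∃ M : ℕ, algebraMap R F₂ π ^ M * x ∈ iW WFV WVF WVV i)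
    (happ : ∀ s : Fin 3 → F₂, ∃ G : F₂, ∀ i, (G - s i) / algebraMap R F₂ π ∈ iW WFV WVF WVV i)
    (hrπ : ∀ i, (r : F₂) / algebraMap R F₂ π ∈ iW WFV WVF WVV i)
    (hram : ∀ x : F₂, WVV.valuation x < 1 → x ^ (r - 1) / algebraMap R F₂ π ∈ WVV)
    {m : ℕ} (hmr : Nat.Coprime m r) {g : F₂} (hg : MDiv K m g)
    (hg1 : ∀ i, (g - 1) / algebraMap R F₂ π ∈ iW WFV WVF WVV i)
    {a₁ a₂ : F₁} (ha₁ : Nm₁ g = a₁ ^ m) (ha₂ : Nm₂ g = a₂ ^ m) (ξF ξV ξF' ξV' : Rˣ)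
    (hξF : ξF ^ m = 1) (hξV : ξV ^ m = 1) (hξF' : ξF' ^ m = 1) (hξV' : ξV' ^ m = 1)
    (haF : VF.valuation (a₁ - algebraMap R F₁ ξF) < 1)
    (haV : VV.valuation (a₁ - algebraMap R F₁ ξV) < 1)
    (haF' : VF.valuation (a₂ - algebraMap R F₁ ξF') < 1)
    (haV' : VV.valuation (a₂ - algebraMap R F₁ ξV') < 1)
    {G0 : F₂} (hG : ∀ i, (G0 - algebraMap R F₂ (iC r ξF ξV ξF' ξV' i)) / algebraMap R F₂ π
      ∈ iW WFV WVF WVV i) :
    LocPowB2 π t2 (g ^ (r ^ 2 - 1) * G0 ^ m) m := by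
  have hm0 : 0 < m := by
    rcases Nat.eq_zero_or_pos m with rfl | h
    · rw [Nat.coprime_zero_left] at hmr
      exact absurd hmr hr.one_lt.ne'
    · exact h
  have hπ0 : algebraMap R F₂ π ≠ 0 := by
    rw [IsScalarTower.algebraMap_apply R K F₂]
    intro h0
    exact hπ.ne_zero ((IsFractionRing.injective R K) (by
      rw [map_zero]; exact (algebraMap K F₂).injective (by rw [h0, map_zero])))
  haveI : IsNoetherianRing (integralClosure (Algebra.adjoin R {t2}) F₂) :=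
    a2_isNoetherianRing (K := K) ht2
  have hP := ic_hP (he₁ := he₁) (he₂ := he₂) H₁ M₁
  have hgP : PiInt π t2 g := (hW g).2 fun i => (ic_unit_of_one_mod _ hπ0 (hπW i) (hg1 i)).1
  have hgP' : PiInt π t2 g⁻¹ := (hW _).2 fun i => (ic_unit_of_one_mod _ hπ0 (hπW i) (hg1 i)).2
  have hPne : ∀ i l, i ≠ l →
      ¬ icP (R := R) t2 WFV WVF WVV l ≤ icP (R := R) t2 WFV WVF WVV i := by
    intro i l hil hle
    obtain ⟨b, hb1, hb2⟩ := i9_inc (iW WFV WVF WVV) hπ.prime hπ0 hW hπW happ hil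
    have h1 := (hP i b).1 (hle ((hP l b).2 hb2))
    rw [hb1] at h1
    exact lt_irrefl _ h1
  have hfrac : ∀ i, ∀ x ∈ iW WFV WVF WVV i,
      ∃ a b : integralClosure (Algebra.adjoin R {t2}) F₂, b ∉ icP (R := R) t2 WFV WVF WVV i ∧
      (iW WFV WVF WVV i).valuation (x * (b : F₂) - (a : F₂)) < 1 := by
    intro i x hx
    obtain ⟨a, b, hb, hab⟩ := i9_frac (iW WFV WVF WVV) hπ.prime hπ0 hW hπW harch happ i hx
    refine ⟨a, b, fun hbP => ?_, ?_⟩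
    · have h1 := (hP i b).1 hbP
      rw [hb] at h1
      exact lt_irrefl _ h1
    · rw [hab, sub_self, map_zero]
      exact zero_lt_one
  have he : ∀ i (ν : F₂), (iW WFV WVF WVV i).valuation ν < 1 →
      ν ^ r / algebraMap R F₂ π ∈ iW WFV WVF WVV i := by
    intro i ν hν
    have hνm := C.mem_of_val_lt_one hν
    fin_cases i
    · exact ic_pow_div_mem WFV (k := 1) hr.one_lt.le hνm (by rw [pow_one]; exact H₁.unif ν hν)
    · exact ic_pow_div_mem WVF (k := 1) hr.one_lt.le hνm (by rw [pow_one]; exact H₂.unif ν hν)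
    · exact ic_pow_div_mem WVV (k := r - 1) (Nat.sub_le _ _) hνm (hram ν hν)
  exact i_chart0 D₁ D₂ (C.cE_algebraMap e₁ he₁) (C.cE_algebraMap e₂ he₂) hr π hW
    (icP (R := R) t2 WFV WVF WVV) hP hPne hdvr hfrac hπ0 hπW hrπ he hmr
    (fun 𝔫 h𝔫 hπ𝔫 => x4_fac (K := K) hπ ht2 hm0 hreg hg hgP hgP' 𝔫 h𝔫 hπ𝔫)
    hg1 ha₁ ha₂ ξF ξV ξF' ξV' hξF hξV hξF' hξV' haF haV haF' haV' hG

end chart

end Fermat.Agent.CARlib
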