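import Fermat.Agent.CAR.V2App

/-!
# T-CAR, block V: `VData` from `VCore`
-/

set_option autoImplicit false
set_option linter.unusedSectionVars false
set_option linter.unusedVariables false

open ModularCurve Polynomial

namespace Fermat.Agent.CARlib

open Fermat.Agent.ESlib Fermat.Agent.UNIlib

noncomputable section

variable {R K : Type} [CommRing R] [IsDomain R] [IsDiscreteValuationRing R] [Field K]
  [Algebra R K] [IsFractionRing R K] [Algebra ℚ K] [CharZero K] [Algebra K ℂ] [IsScalarTower ℚ K ℂ]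
  {N r : ℕ} [NeZero N] [NeZero r] [NeZero (N * r)] [NeZero (N * r * r)]
  [Algebra R (FK K N)] [IsScalarTower R K (FK K N)]
  [Algebra R (FK K (N * r))] [IsScalarTower R K (FK K (N * r))]
  [Algebra R (FK K (N * r * r))] [IsScalarTower R K (FK K (N * r * r))]
  [CharP (IsLocalRing.ResidueField R) r]

/-- **`VData` from `VCore`** (`hBV` = `v2_basis_V`) -/
theorem VCore.toVData {hr : r.Prime} {hrN : ¬ r ∣ N} {π : R}
    {W : ValuationSubring (FK K (N * r * r))} (D : VCore hr hrN π W)
    (hN : (N : IsLocalRing.ResidueField R) ≠ 0) (hπ : Irreducible π)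
    (hBV : ∀ c : Fin r → FK K (N * r),
      ∑ i, i12 K N r (c i) * vJ2 K N r ^ (i : ℕ) ∈ WFV R hr hrN → ∀ i, c i ∈ VV1 R hr hrN) :
    VData hr hrN π W where
  vv_incl := D.vv_incl
  vv_w2 := D.vv_w2
  vv_y := D.vv_y
  vv_unif := D.vv_unif
  vv_pow := D.vv_pow
  vv_res := D.vv_res
  basis_F := D.basis_F
  approx := D.approx hN hπ
  piInt_iff := fun a _ ha haN _ x => D.piInt_iff a ha haN hN hBV hπ x
  piInt_inv_iff := fun a _ ha haN _ x => D.piInt_inv_iff a ha haN hN hBV hπ x

theorem VData.toVCore {hr : r.Prime} {hrN : ¬ r ∣ N} {π : R}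
    {W : ValuationSubring (FK K (N * r * r))} (D : VData hr hrN π W) : VCore hr hrN π W where
  vv_incl := D.vv_incl
  vv_w2 := D.vv_w2
  vv_y := D.vv_y
  vv_unif := D.vv_unif
  vv_pow := D.vv_pow
  vv_res := D.vv_res
  basis_F := D.basis_F

end

end Fermat.Agent.CARlib
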