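import Fermat.Agent.CAR.V1Deg
import Fermat.Agent.CAR.VDefs

/-!
# T-CAR, block X, row X3: chart facts for `t2 = vT2 = T(q^r)` at level `N r²`
-/

set_option autoImplicit false
set_option linter.unusedSectionVars false
set_option linter.style.haveILetI false

open ModularCurve Polynomial IntermediateField
open Fermat.Agent.S24lib Fermat.Agent.ESlib Fermat.Agent.UNIlib

namespace Fermat.Agent.CARlib

section abs

variable {K F₁ F₂ : Type*} [Field K] [Field F₁] [Field F₂] [Algebra K F₁] [Algebra K F₂]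

/-- finiteness over `K(t)` goes up along a finite embedding -/
theorem x3_finiteDimensional_map (e : F₁ →ₐ[K] F₂) (t : F₁) [FiniteDimensional K⟮t⟯ F₁]
    (hfin : letI := e.toRingHom.toAlgebra; FiniteDimensional F₁ F₂) :
    FiniteDimensional K⟮e t⟯ F₂ := by
  letI a1 : Algebra F₁ F₂ := e.toRingHom.toAlgebra
  letI a2 : Algebra K⟮t⟯ F₂ := (e.toRingHom.comp (algebraMap K⟮t⟯ F₁)).toAlgebra
  haveI t1 : IsScalarTower K⟮t⟯ F₁ F₂ := IsScalarTower.of_algebraMap_eq (fun _ => rfl)
  haveI : FiniteDimensional F₁ F₂ := hfin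
  haveI h1 : FiniteDimensional K⟮t⟯ F₂ := FiniteDimensional.trans K⟮t⟯ F₁ F₂
  have hmem : ∀ x : K⟮t⟯, e (x : F₁) ∈ K⟮e t⟯ := by
    intro x
    have h : (K⟮t⟯).map e = K⟮e t⟯ := by
      rw [IntermediateField.adjoin_map, Set.image_singleton]
    rw [← h]
    exact ⟨x, x.2, rfl⟩
  let φ : K⟮t⟯ →+* K⟮e t⟯ :=
    { toFun := fun x => ⟨e (x : F₁), hmem x⟩
      map_one' := Subtype.ext (by simp)
      map_mul' := fun x y => Subtype.ext (by simp)
      map_zero' := Subtype.ext (by simp)
      map_add' := fun x y => Subtype.ext (by simp) }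
  letI a3 : Algebra K⟮t⟯ K⟮e t⟯ := φ.toAlgebra
  haveI t2 : IsScalarTower K⟮t⟯ K⟮e t⟯ F₂ := IsScalarTower.of_algebraMap_eq (fun _ => rfl)
  exact Module.Finite.of_restrictScalars_finite K⟮t⟯ K⟮e t⟯ F₂

theorem x3_finiteDimensional_inv (t : F₂) [FiniteDimensional K⟮t⟯ F₂] :
    FiniteDimensional K⟮t⁻¹⟯ F₂ := by
  have h : K⟮t⁻¹⟯ = K⟮t⟯ := by
    apply le_antisymm
    · rw [IntermediateField.adjoin_simple_le_iff]
      exact inv_mem (mem_adjoin_simple_self K t)
    · rw [IntermediateField.adjoin_simple_le_iff]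
      have := inv_mem (mem_adjoin_simple_self K t⁻¹)
      rwa [inv_inv] at this
  rw [h]
  infer_instance

theorem x3_transcendental_map (e : F₁ →ₐ[K] F₂) {t : F₁} (ht : Transcendental K t) :
    Transcendental K (e t) :=
  fun h => ht ((isAlgebraic_algHom_iff e e.toRingHom.injective).1 h)

theorem x3_transcendental_inv {t : F₂} (ht : Transcendental K t) : Transcendental K t⁻¹ := by
  intro h
  exact ht (by simpa using h.inv)

end abs

variable {K : Type} [Field K] [Algebra ℚ K] [Algebra K ℂ] [IsScalarTower ℚ K ℂ]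
variable {N r : ℕ} [NeZero N] [NeZero r] [NeZero (N * r)] [NeZero (N * r * r)]
variable (a : ℕ) [NeZero a] (ha : a = 2 ∨ a = 3) (haN : a ∣ N)

theorem x3_transcendental_vT2 [CharZero K] : Transcendental K (vT2 K r a ha haN) :=
  x3_transcendental_map _ (transcendental_tF K (N * r) a ha (haN.mul_right r))

theorem x3_transcendental_vT2_inv [CharZero K] : Transcendental K (vT2 K r a ha haN)⁻¹ :=
  x3_transcendental_inv (x3_transcendental_vT2 a ha haN)

theorem x3_vT2_ne_zero [CharZero K] : vT2 K r a ha haN ≠ 0 := by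
  intro h
  exact x3_transcendental_vT2 (K := K) (r := r) a ha haN (h ▸ isAlgebraic_zero)

theorem x3_order_vT2 [CharZero K] :
    ((vT2 K r a ha haN : FK K (N * r * r)) : LaurentSeries K).order = -(r : ℤ) := by
  have h1 : ((vT2 K r a ha haN : FK K (N * r * r)) : LaurentSeries K) =
      qExpand K r (haupt K a (hexp a)) := rfl
  have h0 : haupt K a (hexp a) ≠ 0 := by
    intro h
    have h2 := order_haupt K a (hexp a)
    rw [h, HahnSeries.order_zero] at h2
    exact absurd h2 (by norm_num)
  rw [h1, S28lib.order_qExpand _ _ h0, order_haupt]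
  ring

theorem x3_order_vT2_inv [CharZero K] :
    (((vT2 K r a ha haN)⁻¹ : FK K (N * r * r)) : LaurentSeries K).order = (r : ℤ) := by
  have h0 := x3_vT2_ne_zero (K := K) (r := r) a ha haN
  have h1 : ((vT2 K r a ha haN : FK K (N * r * r)) : LaurentSeries K) *
      (((vT2 K r a ha haN)⁻¹ : FK K (N * r * r)) : LaurentSeries K) = 1 := by
    have := congrArg (Subtype.val : FK K (N * r * r) → LaurentSeries K) (mul_inv_cancel₀ h0)
    exact this
  have hx : ((vT2 K r a ha haN : FK K (N * r * r)) : LaurentSeries K) ≠ 0 := by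
    intro h
    rw [h, zero_mul] at h1
    exact zero_ne_one h1
  have hy : (((vT2 K r a ha haN)⁻¹ : FK K (N * r * r)) : LaurentSeries K) ≠ 0 := by
    intro h
    rw [h, mul_zero] at h1
    exact zero_ne_one h1
  have h2 := congrArg HahnSeries.order h1
  rw [HahnSeries.order_mul hx hy, x3_order_vT2, HahnSeries.order_one] at h2
  linarith

theorem x3_order_vT2_inv_pos [CharZero K] :
    0 < (((vT2 K r a ha haN)⁻¹ : FK K (N * r * r)) : LaurentSeries K).order := by
  rw [x3_order_vT2_inv]
  exact_mod_cast Nat.pos_of_ne_zero (NeZero.ne r)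

/-- `1 / t2` is a power series without constant term -/
theorem x3_vT2_inv_powerSeries [CharZero K] : ∃ T' : PowerSeries K,
    (((vT2 K r a ha haN)⁻¹ : FK K (N * r * r)) : LaurentSeries K) = (T' : LaurentSeries K) ∧
      PowerSeries.constantCoeff T' = 0 := by
  set t : LaurentSeries K := (((vT2 K r a ha haN)⁻¹ : FK K (N * r * r)) : LaurentSeries K) with ht
  have hpos : 0 < t.order := x3_order_vT2_inv_pos a ha haN
  refine ⟨PowerSeries.mk fun n => t.coeff n, ?_, ?_⟩
  · ext i
    rw [PowerSeries.coeff_coe]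
    split_ifs with hi
    · exact HahnSeries.coeff_eq_zero_of_lt_order (lt_trans hi hpos)
    · rw [PowerSeries.coeff_mk, Int.natAbs_of_nonneg (not_lt.1 hi)]
  · rw [← PowerSeries.coeff_zero_eq_constantCoeff_apply, PowerSeries.coeff_mk]
    exact HahnSeries.coeff_eq_zero_of_lt_order (by simpa using hpos)

variable [CharZero K] (R : Type) [CommRing R] [IsDomain R] [IsDiscreteValuationRing R]
  [Algebra R K] [IsFractionRing R K] [CharP (IsLocalRing.ResidueField R) r]

theorem x3_finiteDimensional_vT2 (hr : r.Prime) (hrN : ¬ r ∣ N)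
    (hN : (N : IsLocalRing.ResidueField R) ≠ 0) :
    FiniteDimensional K⟮vT2 K r a ha haN⟯ (FK K (N * r * r)) ∧
      FiniteDimensional K⟮(vT2 K r a ha haN)⁻¹⟯ (FK K (N * r * r)) := by
  haveI := (finiteDimensional_tF K (N * r) a ha (haN.mul_right r)).1
  have h1 : FiniteDimensional K⟮vT2 K r a ha haN⟯ (FK K (N * r * r)) := by
    refine x3_finiteDimensional_map (heckeBetaBar K (N * r) r) _ ?_
    letI := AlgebraicCurve.algebraAlong (e2 K N r)
    have h2 : Module.finrank (FK K (N * r)) (FK K (N * r * r)) = r := v1_finrank_e2 R hr hrN hN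
    exact Module.finite_of_finrank_pos (h2.symm ▸ hr.pos)
  exact ⟨h1, x3_finiteDimensional_inv _⟩

end Fermat.Agent.CARlib
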