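import Mathlib

/-!
# T-CAR, block X: norms of integral elements are integral (field `nInt` of `IHalf`)
-/

set_option autoImplicit false

namespace Fermat.Agent.CARlib

open Polynomial

/-- `B₁` integrally closed in `F₁`, `E : B₁ → B₂` integral, compatible with `F₁ → F₂`.  Then the norm
of an element of `B₂` lies in `B₁`. -/
theorem x6_nInt {B₁ B₂ F₁ F₂ : Type*} [CommRing B₁] [CommRing B₂] [Field F₁] [Field F₂]
    [Algebra B₁ F₁] [Algebra B₂ F₂] [Algebra F₁ F₂] {E : B₁ →+* B₂}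
    (hE : ∀ b, algebraMap B₂ F₂ (E b) = algebraMap F₁ F₂ (algebraMap B₁ F₁ b))
    (hint : E.IsIntegral)
    (hcl : ∀ x : F₁, IsIntegral B₁ x → ∃ b, algebraMap B₁ F₁ b = x) (b : B₂) :
    ∃ c : B₁, Algebra.norm F₁ (algebraMap B₂ F₂ b) = algebraMap B₁ F₁ c := by
  letI : Algebra B₁ F₂ := ((algebraMap F₁ F₂).comp (algebraMap B₁ F₁)).toAlgebra
  haveI : IsScalarTower B₁ F₁ F₂ := IsScalarTower.of_algebraMap_eq fun _ => rfl
  have h1 : IsIntegral B₁ (algebraMap B₂ F₂ b) := by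
    obtain ⟨p, hp, hpb⟩ := hint b
    refine ⟨p, hp, ?_⟩
    have h2 := congrArg (algebraMap B₂ F₂) hpb
    rw [hom_eval₂, map_zero] at h2
    have h3 : (algebraMap B₂ F₂).comp E = algebraMap B₁ F₂ := RingHom.ext fun x => hE x
    rwa [h3] at h2
  obtain ⟨c, hc⟩ := hcl _ (Algebra.isIntegral_norm F₁ h1)
  exact ⟨c, hc.symm⟩

end Fermat.Agent.CARlib
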