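import Fermat.Agent.CAR.CInstV
import Fermat.Agent.CAR.X6IHalf
import Fermat.Agent.CAR.X6NInt
import Fermat.Agent.CAR.EIface
import Fermat.Agent.UNI.Node

/-!
# T-CAR, block X, row X7: the two bundles `IHalf` in the modular setting (frame of `CInstV`),
for an arbitrary chart pair `(T₁, t2)`.
-/

set_option autoImplicit false
set_option linter.unusedSectionVars false
set_option linter.unusedVariables false
set_option linter.style.haveILetI false

open ModularCurve AlgebraicCurve Polynomial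

namespace Fermat.Agent.CARlib

open Fermat.Agent.ESlib Fermat.Agent.UNIlib C

/-- normality of `B / p_F` (shape of `c1_frob`) from `NodeHyp.norm₁` -/
theorem x7_normF {R F : Type*} [CommRing R] [Field F] [Algebra R F] {π : R} {T : F}
    {VF VV : ValuationSubring F} {q : ℕ} {ρ : F →+* F} (H : NodeHyp π T VF VV q ρ)
    (unifF : ∀ x : F, VF.valuation x < 1 → x / algebraMap R F π ∈ VF)
    (hπ0 : algebraMap R F π ≠ 0) (hpi : VF.valuation (algebraMap R F π) < 1) (Z : F) (hZ : Z ∈ VF)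
    (p : (integralClosure (Algebra.adjoin R {T}) F)[X]) (hp : p.Monic)
    (h : VF.valuation (aeval Z p) < 1) :
    ∃ x : integralClosure (Algebra.adjoin R {T}) F,
      VF.valuation (Z - algebraMap (integralClosure (Algebra.adjoin R {T}) F) F x) < 1 := by
  obtain ⟨x, hx, hx'⟩ := H.norm₁ Z ⟨hZ, p.map (algebraMap _ F), hp.map _, fun i => by
    rw [coeff_map]; exact (p.coeff i).2, by
    rw [eval_map_algebraMap]; exact unifF _ h⟩
  exact ⟨⟨x, hx⟩, val_lt_one_of_div hπ0 hpi hx'⟩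

/-- an integral closure is integrally closed -/
theorem x7_closed {A F : Type*} [CommRing A] [Field F] [Algebra A F] (x : F)
    (hx : IsIntegral (integralClosure A F) x) :
    ∃ b : integralClosure A F, algebraMap (integralClosure A F) F b = x := by
  have h1 : x ∈ integralClosure (integralClosure A F) F := hx
  rw [integralClosure_idem] at h1
  exact Algebra.mem_bot.1 h1

section main

variable {R K : Type} [CommRing R] [IsDomain R] [IsDiscreteValuationRing R] [Field K]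
  [Algebra R K] [IsFractionRing R K] [Algebra ℚ K] [CharZero K] [Algebra K ℂ] [IsScalarTower ℚ K ℂ]
  {N r : ℕ} [NeZero N] [NeZero r] [NeZero (N * r)] [NeZero (N * r * r)]
  [Algebra R (FK K (N * r))] [IsScalarTower R K (FK K (N * r))]
  [Algebra R (FK K (N * r * r))] [IsScalarTower R K (FK K (N * r * r))]
  (hr : r.Prime) (hrN : ¬ r ∣ N) {π : R}

/-- `κ(W_FV)^r ⊆ κ(V_F)` along `e₁` -/
theorem x7_resF_e1 (hπ : Irreducible π)
    (hfv : ∀ z ∈ WFV R hr hrN, ∃ c ∈ VV1 R hr hrN,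
      (z ^ r - i12 K N r c) / algebraMap R (FK K (N * r * r)) π ∈ WFV R hr hrN)
    (x : FK K (N * r * r)) (hx : x ∈ WFV R hr hrN) :
    ∃ u ∈ VF1 R K N r, (WFV R hr hrN).valuation
      (x ^ r - (cE1 R K hr hrN : FK K (N * r) →+* FK K (N * r * r)) u) < 1 := by
  obtain ⟨c, hc, h⟩ := hfv x hx
  refine ⟨wr K hr hrN c, hc, ?_⟩
  show (WFV R hr hrN).valuation (x ^ r - e1 K hr hrN (wr K hr hrN c)) < 1
  rw [e1_wr]
  exact val_lt_one_of_div (algebraMap_unif_ne_zero hπ) (cg_val_pi_WFV hr hrN hπ) h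

/-- `κ(W_VF)^r ⊆ κ(V_F)` along `e₂` -/
theorem x7_resF_e2 (hπ : Irreducible π)
    (hfv : ∀ z ∈ WFV R hr hrN, ∃ c ∈ VV1 R hr hrN,
      (z ^ r - i12 K N r c) / algebraMap R (FK K (N * r * r)) π ∈ WFV R hr hrN)
    (x : FK K (N * r * r)) (hx : x ∈ WVF R K N r) :
    ∃ u ∈ VF1 R K N r, (WVF R K N r).valuation
      (x ^ r - (cE2 R K N r : FK K (N * r) →+* FK K (N * r * r)) u) < 1 := by
  have hx' : w2 K hr hrN x ∈ WFV R hr hrN := by
    show w2 K hr hrN (w2 K hr hrN x) ∈ gaussVal R K (N * r * r)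
    rw [w2_w2]
    exact hx
  obtain ⟨c, hc, h⟩ := hfv _ hx'
  refine ⟨wr K hr hrN c, hc, ?_⟩
  have h1 : w2 K hr hrN ((w2 K hr hrN x ^ r - i12 K N r c) /
      algebraMap R (FK K (N * r * r)) π) ∈ gaussVal R K (N * r * r) := h
  rw [map_div₀, map_sub, map_pow, w2_w2, w2_inclF, w2_algebraMap_R] at h1
  show (WVF R K N r).valuation (x ^ r - e2 K N r (wr K hr hrN c)) < 1
  exact val_lt_one_of_div (algebraMap_unif_ne_zero hπ) (cg_val_pi hπ) h1

variable {W : ValuationSubring (FK K (N * r * r))} (hπ : Irreducible π) (D : VCore hr hrN π W)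
  (hvf : ∀ z ∈ WVF R K N r, ∃ c ∈ VF1 R K N r,
    (z - i12 K N r c) / algebraMap R (FK K (N * r * r)) π ∈ WVF R K N r)
  (hfv : ∀ z ∈ WFV R hr hrN, ∃ c ∈ VV1 R hr hrN,
    (z ^ r - i12 K N r c) / algebraMap R (FK K (N * r * r)) π ∈ WFV R hr hrN)
  {T₁ : FK K (N * r)} {t2 : FK K (N * r * r)} (he₁ : cE1 R K hr hrN T₁ = t2)
  (he₂ : cE2 R K N r T₁ = t2) (ht2 : Transcendental K t2)
  (hPi : ∀ x, PiInt π t2 x ↔ x ∈ WVF R K N r ∧ x ∈ WFV R hr hrN ∧ x ∈ W)
  {pF pV : Ideal (integralClosure (Algebra.adjoin R {T₁}) (FK K (N * r)))}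
  (L : CLev1 (algebraMap R (integralClosure (Algebra.adjoin R {T₁}) (FK K (N * r))) π)
    (VF1 R K N r) (VV1 R hr hrN) pF pV)
  {q : ℕ} {ρ : FK K (N * r) →+* FK K (N * r)}
  (Hn : NodeHyp π T₁ (VF1 R K N r) (VV1 R hr hrN) q ρ)
  (dVF : IsDV (VF1 R K N r).toSubring (algebraMap R (FK K (N * r)) π))
  (dVV : IsDV (VV1 R hr hrN).toSubring (algebraMap R (FK K (N * r)) π))
  (dWVF : IsDV (WVF R K N r).toSubring (algebraMap R (FK K (N * r * r)) π))
  (dWFV : IsDV (WFV R hr hrN).toSubring (algebraMap R (FK K (N * r * r)) π))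
  (dW : IsDV W.toSubring (vY K N r))

include hπ D hvf hfv he₁ he₂ ht2 hPi L Hn dVF dVV dWVF dWFV dW

/-- **`IHalf` along `e₁`** -/
theorem x7_iHalf_e1 {N₁ : FK K (N * r * r) →*₀ FK K (N * r)}
    (hN₁ : ∀ x, N₁ x = normAlong (e1 K hr hrN) x)
    (H₁ : NHalf r (e1 K hr hrN).toRingHom N₁ (VF1 R K N r).toSubring (VV1 R hr hrN).toSubring
      (algebraMap R (FK K (N * r)) π) (WFV R hr hrN).toSubring (WVF R K N r).toSubring W.toSubring
      (vY K N r)) :
    IHalf r (cE (cE1 R K hr hrN) he₁) (cE1 R K hr hrN : FK K (N * r) →+* FK K (N * r * r))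
      (normAlong (e1 K hr hrN)) (VF1 R K N r) (VV1 R hr hrN) (WFV R hr hrN) (WVF R K N r) W := by
  have e₁π : (cE1 R K hr hrN : FK K (N * r) →+* FK K (N * r * r))
      (algebraMap R (FK K (N * r)) π) = algebraMap R (FK K (N * r * r)) π :=
    (cE1 R K hr hrN).commutes π
  refine x6_iHalf (y := vY K N r) (N := N₁) hr.two_le L
    (cInstV_H1 hr hrN hπ D hvf he₁ he₂ ht2 hPi) (cInstV_H2 hr hrN hπ D hvf he₁ he₂ ht2 hPi)
    (cInstV_M1 hr hrN hπ D he₁ hPi) (fun b => Hn.int_mem₁ _ b.2) (fun b => Hn.int_mem₂ _ b.2)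
    (fun x => (hN₁ x).symm) H₁ dVF dVV ?_ ?_ dW (x7_resF_e1 hr hrN hπ hfv)
    (x7_normF Hn (cg_unif hπ) (algebraMap_unif_ne_zero hπ) (cg_val_pi hπ)) ?_
  · show IsDV (WFV R hr hrN).toSubring ((cE1 R K hr hrN : FK K (N * r) →+* FK K (N * r * r))
      (algebraMap R (FK K (N * r)) π))
    rw [e₁π]; exact dWFV
  · show IsDV (WVF R K N r).toSubring ((cE1 R K hr hrN : FK K (N * r) →+* FK K (N * r * r))
      (algebraMap R (FK K (N * r)) π))
    rw [e₁π]; exact dWVF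
  · intro b
    letI := algebraAlong (e1 K hr hrN)
    exact x6_nInt (E := cE (cE1 R K hr hrN) he₁) (fun _ => rfl) (cE_isIntegral _ he₁) x7_closed b

/-- **`IHalf` along `e₂`** -/
theorem x7_iHalf_e2 {N₂ : FK K (N * r * r) →*₀ FK K (N * r)}
    (hN₂ : ∀ x, N₂ x = normAlong (e2 K N r) x)
    (H₂ : NHalf r (e2 K N r).toRingHom N₂ (VF1 R K N r).toSubring (VV1 R hr hrN).toSubring
      (algebraMap R (FK K (N * r)) π) (WVF R K N r).toSubring (WFV R hr hrN).toSubring W.toSubring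
      (vY K N r)) :
    IHalf r (cE (cE2 R K N r) he₂) (cE2 R K N r : FK K (N * r) →+* FK K (N * r * r))
      (normAlong (e2 K N r)) (VF1 R K N r) (VV1 R hr hrN) (WVF R K N r) (WFV R hr hrN) W := by
  have e₂π : (cE2 R K N r : FK K (N * r) →+* FK K (N * r * r))
      (algebraMap R (FK K (N * r)) π) = algebraMap R (FK K (N * r * r)) π :=
    (cE2 R K N r).commutes π
  refine x6_iHalf (y := vY K N r) (N := N₂) hr.two_le L
    (cInstV_H2 hr hrN hπ D hvf he₁ he₂ ht2 hPi) (cInstV_H1 hr hrN hπ D hvf he₁ he₂ ht2 hPi)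
    (cInstV_M2 hr hrN hπ D he₂ hPi) (fun b => Hn.int_mem₁ _ b.2) (fun b => Hn.int_mem₂ _ b.2)
    (fun x => (hN₂ x).symm) H₂ dVF dVV ?_ ?_ dW (x7_resF_e2 hr hrN hπ hfv)
    (x7_normF Hn (cg_unif hπ) (algebraMap_unif_ne_zero hπ) (cg_val_pi hπ)) ?_
  · show IsDV (WVF R K N r).toSubring ((cE2 R K N r : FK K (N * r) →+* FK K (N * r * r))
      (algebraMap R (FK K (N * r)) π))
    rw [e₂π]; exact dWVF
  · show IsDV (WFV R hr hrN).toSubring ((cE2 R K N r : FK K (N * r) →+* FK K (N * r * r))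
      (algebraMap R (FK K (N * r)) π))
    rw [e₂π]; exact dWFV
  · intro b
    letI := algebraAlong (e2 K N r)
    exact x6_nInt (E := cE (cE2 R K N r) he₂) (fun _ => rfl) (cE_isIntegral _ he₂) x7_closed b

end main

end Fermat.Agent.CARlib
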