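import Fermat.Agent.CAR.ITopFK
import Fermat.Agent.CAR.X7IHalf
import Fermat.Agent.CAR.CTop
import Fermat.Agent.CAR.X3Chart
import Fermat.Agent.CAR.V2Data

/-!
# T-CAR, block I, final form: `XI` for the chart `vT2`, from `VCore`, the two `NHalf`, and
(`CLev1`, `hmid`, `NodeHyp`) for the two charts `t`, `1 / t`.
-/

set_option autoImplicit false
set_option linter.unusedSectionVars false
set_option linter.unusedVariables false
set_option linter.style.haveILetI false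

open ModularCurve AlgebraicCurve IntermediateField

namespace Fermat.Agent.CARlib

open Fermat.Agent.ESlib Fermat.Agent.UNIlib Fermat.Agent.UNIlib.Normalise

variable {R K : Type} [CommRing R] [IsDomain R] [IsDiscreteValuationRing R] [Field K]
  [Algebra R K] [IsFractionRing R K] [Algebra ℚ K] [CharZero K] [Algebra K ℂ] [IsScalarTower ℚ K ℂ]
  {N r : ℕ} [NeZero N] [NeZero r] [NeZero (N * r)] [NeZero (N * r * r)]
  [Algebra R (FK K N)] [IsScalarTower R K (FK K N)]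
  [Algebra R (FK K (N * r))] [IsScalarTower R K (FK K (N * r))]
  [Algebra R (FK K (N * r * r))] [IsScalarTower R K (FK K (N * r * r))]
  [CharP (IsLocalRing.ResidueField R) r]

/-- **block I, final** -/
theorem i_final (hr : r.Prime) (hrN : ¬ r ∣ N) {m : ℕ} (hrm : ¬ r ∣ m)
    (hπ : Irreducible ((r : ℕ) : R)) {ζ : R} (hζ : IsPrimitiveRoot ζ m)
    (a : ℕ) [NeZero a] (ha : a = 2 ∨ a = 3) (haN : a ∣ N)
    (hN : (N : IsLocalRing.ResidueField R) ≠ 0)
    {W : ValuationSubring (FK K (N * r * r))} (D : VCore hr hrN ((r : ℕ) : R) W)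
    {N₁ N₂ : FK K (N * r * r) →*₀ FK K (N * r)}
    (hN₁ : ∀ x, N₁ x = normAlong (e1 K hr hrN) x) (hN₂ : ∀ x, N₂ x = normAlong (e2 K N r) x)
    (H₁ : NHalf r (e1 K hr hrN).toRingHom N₁ (VF1 R K N r).toSubring (VV1 R hr hrN).toSubring
      (algebraMap R (FK K (N * r)) ((r : ℕ) : R)) (WFV R hr hrN).toSubring
      (WVF R K N r).toSubring W.toSubring (vY K N r))
    (H₂ : NHalf r (e2 K N r).toRingHom N₂ (VF1 R K N r).toSubring (VV1 R hr hrN).toSubring
      (algebraMap R (FK K (N * r)) ((r : ℕ) : R)) (WVF R K N r).toSubring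
      (WFV R hr hrN).toSubring W.toSubring (vY K N r))
    -- chart `t`
    {pF pV : Ideal (integralClosure
      (Algebra.adjoin R {inclF K (dvd_mul_right N r) (tF K N a ha haN)}) (FK K (N * r)))}
    (L : C.CLev1 (algebraMap R (integralClosure
      (Algebra.adjoin R {inclF K (dvd_mul_right N r) (tF K N a ha haN)}) (FK K (N * r)))
        ((r : ℕ) : R)) (VF1 R K N r) (VV1 R hr hrN) pF pV)
    (hmid : ∀ 𝔫 : Ideal (integralClosure (Algebra.adjoin R {vT2 K r a ha haN}) (FK K (N * r * r))),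
      𝔫.IsMaximal →
      C.cCen (integralClosure (Algebra.adjoin R {vT2 K r a ha haN}) (FK K (N * r * r))) W ≤ 𝔫 →
      C.CMid (algebraMap R
        (integralClosure (Algebra.adjoin R {vT2 K r a ha haN}) (FK K (N * r * r)))
          ((r : ℕ) : R)) W 𝔫)
    {q : ℕ} {ρ : FK K (N * r) →+* FK K (N * r)}
    (Hn : NodeHyp ((r : ℕ) : R) (inclF K (dvd_mul_right N r) (tF K N a ha haN))
      (VF1 R K N r) (VV1 R hr hrN) q ρ)
    -- chart `1 / t`
    {pF' pV' : Ideal (integralClosure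
      (Algebra.adjoin R {inclF K (dvd_mul_right N r) (tF K N a ha haN)⁻¹}) (FK K (N * r)))}
    (L' : C.CLev1 (algebraMap R (integralClosure
      (Algebra.adjoin R {inclF K (dvd_mul_right N r) (tF K N a ha haN)⁻¹}) (FK K (N * r)))
        ((r : ℕ) : R)) (VF1 R K N r) (VV1 R hr hrN) pF' pV')
    (hmid' : ∀ 𝔫 : Ideal
        (integralClosure (Algebra.adjoin R {(vT2 K r a ha haN)⁻¹}) (FK K (N * r * r))),
      𝔫.IsMaximal →
      C.cCen (integralClosure (Algebra.adjoin R {(vT2 K r a ha haN)⁻¹}) (FK K (N * r * r))) W ≤ 𝔫 →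
      C.CMid (algebraMap R
        (integralClosure (Algebra.adjoin R {(vT2 K r a ha haN)⁻¹}) (FK K (N * r * r)))
          ((r : ℕ) : R)) W 𝔫)
    {q' : ℕ} {ρ' : FK K (N * r) →+* FK K (N * r)}
    (Hn' : NodeHyp ((r : ℕ) : R) (inclF K (dvd_mul_right N r) (tF K N a ha haN)⁻¹)
      (VF1 R K N r) (VV1 R hr hrN) q' ρ') :
    XI hr hrN ((r : ℕ) : R) W (vT2 K r a ha haN) m := by
  have hBV := v2_basis_V (R := R) (K := K) hr hrN
  haveI := (x3_finiteDimensional_vT2 (K := K) a ha haN R hr hrN hN).1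
  haveI := (x3_finiteDimensional_vT2 (K := K) a ha haN R hr hrN hN).2
  have dVF : IsDV (VF1 R K N r).toSubring (algebraMap R (FK K (N * r)) ((r : ℕ) : R)) :=
    v2_isDV_VF1 hπ
  have dVV : IsDV (VV1 R hr hrN).toSubring (algebraMap R (FK K (N * r)) ((r : ℕ) : R)) :=
    v2_isDV_VV1 hr hrN hπ
  have dWVF : IsDV (WVF R K N r).toSubring (algebraMap R (FK K (N * r * r)) ((r : ℕ) : R)) :=
    v2_isDV_WVF hπ
  have dWFV : IsDV (WFV R hr hrN).toSubring (algebraMap R (FK K (N * r * r)) ((r : ℕ) : R)) :=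
    v2_isDV_WFV hr hrN hπ
  have dW : IsDV W.toSubring (vY K N r) := D.isDV hN hπ
  have hvf := C.c_hvf D hN hπ
  have hfv := v2_fv_res_of hr hrN hN hBV hπ
  have hPi := D.piInt_iff a ha haN hN hBV hπ
  have hPi' := D.piInt_inv_iff a ha haN hN hBV hπ
  have ht := transcendental_vT2 (K := K) (r := r) a ha haN
  have hs := C.transcendental_vT2_inv (K := K) (r := r) a ha haN
  have hϖ0 : algebraMap R (FK K (N * r * r)) ((r : ℕ) : R) ≠ 0 := by
    rw [map_natCast]
    exact_mod_cast hr.ne_zero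
  have hone : (r : FK K (N * r * r)) / algebraMap R (FK K (N * r * r)) ((r : ℕ) : R) = 1 := by
    rw [map_natCast]
    exact div_self (by exact_mod_cast hr.ne_zero)
  have hrr : r = (r - 1) + 1 := by have := hr.two_le; omega
  refine i_XI hr hrN hrm hπ hζ W rfl (C.cE1_chart a ha haN hr hrN) (C.cE2_chart a ha haN)
    (C.cE1_chart_inv a ha haN hr hrN) (C.cE2_chart_inv a ha haN) ht hs hPi hPi'
    (x7_iHalf_e1 hr hrN hπ D hvf hfv (C.cE1_chart a ha haN hr hrN) (C.cE2_chart a ha haN) ht hPi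
      L Hn dVF dVV dWVF dWFV dW hN₁ H₁)
    (x7_iHalf_e2 hr hrN hπ D hvf hfv (C.cE1_chart a ha haN hr hrN) (C.cE2_chart a ha haN) ht hPi
      L Hn dVF dVV dWVF dWFV dW hN₂ H₂)
    (x7_iHalf_e1 hr hrN hπ D hvf hfv (C.cE1_chart_inv a ha haN hr hrN) (C.cE2_chart_inv a ha haN)
      hs hPi' L' Hn' dVF dVV dWVF dWFV dW hN₁ H₁)
    (x7_iHalf_e2 hr hrN hπ D hvf hfv (C.cE1_chart_inv a ha haN hr hrN) (C.cE2_chart_inv a ha haN)
      hs hPi' L' Hn' dVF dVV dWVF dWFV dW hN₂ H₂)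
    (fun 𝔫 h𝔫 hπ𝔫 => C.c_top a ha haN D hN hπ L hmid 𝔫 h𝔫 hπ𝔫)
    (fun 𝔫 h𝔫 hπ𝔫 => C.c_top_inv a ha haN D hN hπ L' hmid' 𝔫 h𝔫 hπ𝔫)
    ⟨C.cg_val_pi hπ, C.cg_val_pi_WFV hr hrN hπ, C.val_pi_W hr hrN D hπ⟩
    ⟨dWVF.arch, dWFV.arch, D.exists_pow_mul_mem hN hπ⟩
    (D.approx hN hπ) ?_ ⟨?_, ?_, ?_⟩
  · rw [hone]
    exact ⟨one_mem _, one_mem _, one_mem _⟩
  · intro ν hν
    have h1 := C.cg_unif hπ ν hν
    have h2 : ν ^ r / algebraMap R (FK K (N * r * r)) ((r : ℕ) : R) =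
        ν ^ (r - 1) * (ν / algebraMap R (FK K (N * r * r)) ((r : ℕ) : R)) := by
      rw [← mul_div_assoc, ← pow_succ, ← hrr]
    rw [h2]
    exact mul_mem (pow_mem (C.mem_of_val_lt_one hν) _) h1
  · intro ν hν
    have h1 := C.cg_unif_WFV hr hrN hπ ν hν
    have h2 : ν ^ r / algebraMap R (FK K (N * r * r)) ((r : ℕ) : R) =
        ν ^ (r - 1) * (ν / algebraMap R (FK K (N * r * r)) ((r : ℕ) : R)) := by
      rw [← mul_div_assoc, ← pow_succ, ← hrr]
    rw [h2]
    exact mul_mem (pow_mem (C.mem_of_val_lt_one hν) _) h1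
  · intro ν hν
    rcases eq_or_ne ν 0 with rfl | h0
    · rw [zero_pow hr.ne_zero, zero_div]
      exact W.zero_mem
    have hνW : ν ∈ W := C.mem_of_val_lt_one hν
    have hν' : ν⁻¹ ∉ W := by
      intro h
      have h1 := (W.valuation_le_one_iff _).2 h
      have h2 : W.valuation (ν * ν⁻¹) < 1 := by
        rw [map_mul]
        exact mul_lt_one_of_lt_of_le hν h1
      rw [mul_inv_cancel₀ h0, map_one] at h2
      exact lt_irrefl _ h2
    have h1 := D.ram hπ hνW hν'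
    have h2 : ν ^ r / algebraMap R (FK K (N * r * r)) ((r : ℕ) : R) =
        ν * (ν ^ (r - 1) / algebraMap R (FK K (N * r * r)) ((r : ℕ) : R)) := by
      rw [← mul_div_assoc, ← pow_succ', ← hrr]
    rw [h2]
    exact mul_mem hνW h1

end Fermat.Agent.CARlib
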