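import Fermat.Agent.CAR.IMid3
import Fermat.Agent.CAR.A5Frob

/-!
# T-CAR, block I: the chart independent part (I2) + (I7): the four roots of unity and `G0`
(Mathlib only)
-/

set_option autoImplicit false

namespace Fermat.Agent.CARlib

section glob

variable {R F₁ F₂ : Type*} [CommRing R] [Field F₁] [Field F₂] [Algebra R F₁] [Algebra R F₂]

omit [Algebra R F₂] in
/-- **(I2)** for one direction -/
theorem i_global_half {r : ℕ} (e : F₁ →+* F₂) (Nm : F₂ →* F₁) (VF VV : ValuationSubring F₁)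
    (Wi Wu Wr : ValuationSubring F₂)
    (n1F : ∀ H ∈ Wi, ∀ c ∈ VF, Wi.valuation (e c - H ^ r) < 1 → VF.valuation (Nm H - c) < 1)
    (n1V : ∀ H, H ∈ Wu → H ∈ Wr → ∀ a1 ∈ VV, ∀ a2 ∈ VV, Wu.valuation (e a1 - H) < 1 →
      Wr.valuation (e a2 - H) < 1 → VV.valuation (Nm H - a1 * a2 ^ (r - 1)) < 1)
    {m : ℕ} (hm : 0 < m) {ζ : R} (hζ : IsPrimitiveRoot ζ m)
    (hζ₁ : IsPrimitiveRoot (algebraMap R F₁ ζ) m) {g : F₂}
    (hgi : Wi.valuation (g - 1) < 1) (hgu : Wu.valuation (g - 1) < 1)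
    (hgr : Wr.valuation (g - 1) < 1) {a : F₁} (ha : Nm g = a ^ m) :
    ∃ ξF ξV : Rˣ, ξF ^ m = 1 ∧ ξV ^ m = 1 ∧ VF.valuation (a - algebraMap R F₁ ξF) < 1 ∧
      VV.valuation (a - algebraMap R F₁ ξV) < 1 := by
  have hu : IsUnit ζ := hζ.isUnit hm.ne'
  have hum : hu.unit ^ m = 1 := by
    apply Units.ext
    rw [Units.val_pow_eq_pow_val, IsUnit.unit_spec, hζ.pow_eq_one, Units.val_one]
  have hgWi : g ∈ Wi := i6_mem_of_sub_lt Wi Wi.one_mem hgi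
  have hgWu : g ∈ Wu := i6_mem_of_sub_lt Wu Wu.one_mem hgu
  have hgWr : g ∈ Wr := i6_mem_of_sub_lt Wr Wr.one_mem hgr
  have h1 : VF.valuation (a ^ m - 1) < 1 := by
    rw [← ha]
    apply n1F g hgWi 1 VF.one_mem
    rw [map_one]
    have := i6_pow_sub_pow_lt Wi hgWi Wi.one_mem hgi r
    rw [one_pow] at this
    exact i6_neg_lt Wi this
  have h2 : VV.valuation (a ^ m - 1) < 1 := by
    rw [← ha]
    have := n1V g hgWu hgWr 1 VV.one_mem 1 VV.one_mem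
      (by rw [map_one]; exact i6_neg_lt Wu hgu) (by rw [map_one]; exact i6_neg_lt Wr hgr)
    rwa [one_pow, mul_one] at this
  obtain ⟨i, -, hi⟩ := i2_root VF hm hζ₁ h1
  obtain ⟨j, -, hj⟩ := i2_root VV hm hζ₁ h2
  refine ⟨hu.unit ^ i, hu.unit ^ j, ?_, ?_, ?_, ?_⟩
  · rw [← pow_mul, mul_comm, pow_mul, hum, one_pow]
  · rw [← pow_mul, mul_comm, pow_mul, hum, one_pow]
  · rw [Units.val_pow_eq_pow_val, IsUnit.unit_spec, map_pow]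
    exact hi
  · rw [Units.val_pow_eq_pow_val, IsUnit.unit_spec, map_pow]
    exact hj

/-- **(I2) + (I7)**, global part: the roots of unity, `G0`, and `g' = 1 mod π` -/
theorem i_global {r : ℕ} (e₁ e₂ : F₁ →+* F₂) (N₁ N₂ : F₂ →* F₁) (VF VV : ValuationSubring F₁)
    (WFV WVF WVV : ValuationSubring F₂)
    (n1F : ∀ H ∈ WFV, ∀ c ∈ VF, WFV.valuation (e₁ c - H ^ r) < 1 → VF.valuation (N₁ H - c) < 1)
    (n1V : ∀ H, H ∈ WVF → H ∈ WVV → ∀ a1 ∈ VV, ∀ a2 ∈ VV, WVF.valuation (e₁ a1 - H) < 1 →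
      WVV.valuation (e₁ a2 - H) < 1 → VV.valuation (N₁ H - a1 * a2 ^ (r - 1)) < 1)
    (n1F' : ∀ H ∈ WVF, ∀ c ∈ VF, WVF.valuation (e₂ c - H ^ r) < 1 → VF.valuation (N₂ H - c) < 1)
    (n1V' : ∀ H, H ∈ WFV → H ∈ WVV → ∀ a1 ∈ VV, ∀ a2 ∈ VV, WFV.valuation (e₂ a1 - H) < 1 →
      WVV.valuation (e₂ a2 - H) < 1 → VV.valuation (N₂ H - a1 * a2 ^ (r - 1)) < 1)
    (hRW : ∀ i (z : R), algebraMap R F₂ z ∈ iW WFV WVF WVV i)
    {π : F₂} (hπ0 : π ≠ 0) (hπ : ∀ i, (iW WFV WVF WVV i).valuation π < 1)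
    (happ : ∀ s : Fin 3 → F₂, ∃ G : F₂, ∀ i, (G - s i) / π ∈ iW WFV WVF WVV i)
    {m : ℕ} (hm : 0 < m) {ζ : R} (hζ : IsPrimitiveRoot ζ m)
    (hζ₁ : IsPrimitiveRoot (algebraMap R F₁ ζ) m) {g : F₂}
    (hg1 : ∀ i, (g - 1) / π ∈ iW WFV WVF WVV i) {a₁ a₂ : F₁} (ha₁ : N₁ g = a₁ ^ m)
    (ha₂ : N₂ g = a₂ ^ m) :
    ∃ ξF ξV ξF' ξV' : Rˣ, ξF ^ m = 1 ∧ ξV ^ m = 1 ∧ ξF' ^ m = 1 ∧ ξV' ^ m = 1 ∧
      VF.valuation (a₁ - algebraMap R F₁ ξF) < 1 ∧ VV.valuation (a₁ - algebraMap R F₁ ξV) < 1 ∧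
      VF.valuation (a₂ - algebraMap R F₁ ξF') < 1 ∧ VV.valuation (a₂ - algebraMap R F₁ ξV') < 1 ∧
      ∃ G0 : F₂, G0 ≠ 0 ∧
        (∀ i, (G0 - algebraMap R F₂ (iC r ξF ξV ξF' ξV' i)) / π ∈ iW WFV WVF WVV i) ∧
        ∀ i, (g ^ (r ^ 2 - 1) * G0 ^ m - 1) / π ∈ iW WFV WVF WVV i := by
  have hlt : ∀ i, (iW WFV WVF WVV i).valuation (g - 1) < 1 :=
    fun i => a5_lt_of_div_mem _ hπ0 (hπ i) (hg1 i)
  obtain ⟨ξF, ξV, hξF, hξV, haF, haV⟩ := i_global_half e₁ N₁ VF VV WFV WVF WVV n1F n1V hm hζ hζ₁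
    (hlt 0) (hlt 1) (hlt 2) ha₁
  obtain ⟨ξF', ξV', hξF', hξV', haF', haV'⟩ := i_global_half e₂ N₂ VF VV WVF WFV WVV n1F' n1V' hm
    hζ hζ₁ (hlt 1) (hlt 0) (hlt 2) ha₂
  obtain ⟨G0, hG0⟩ := happ (fun i => algebraMap R F₂ (iC r ξF ξV ξF' ξV' i))
  have hCm : ∀ i, (algebraMap R F₂ (iC r ξF ξV ξF' ξV' i)) ^ m = 1 := by
    intro i
    have h1 : iC r ξF ξV ξF' ξV' i ^ m = 1 := by
      have h0 : ∀ a b c d : Rˣ, a ^ m = 1 → b ^ m = 1 → c ^ m = 1 → d ^ m = 1 →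
          iA0 r a b c d ^ m = 1 := by
        intro a b c d ha hb hc hd
        have e1 : (a⁻¹ * b) ^ m = 1 := by rw [mul_pow, inv_pow, ha, hb]; simp
        have e2 : (c⁻¹ * d) ^ m = 1 := by rw [mul_pow, inv_pow, hc, hd]; simp
        rw [iA0, mul_pow, ← pow_mul, mul_comm r m, pow_mul, e1, e2]
        simp
      fin_cases i
      · exact h0 _ _ _ _ hξF hξV hξF' hξV'
      · exact h0 _ _ _ _ hξF' hξV' hξF hξV
      · exact one_pow m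
    rw [← map_pow, ← Units.val_pow_eq_pow_val, h1, Units.val_one, map_one]
  refine ⟨ξF, ξV, ξF', ξV', hξF, hξV, hξF', hξV', haF, haV, haF', haV', G0, ?_, hG0, ?_⟩
  · rintro rfl
    have h2 := a5_lt_of_div_mem _ hπ0 (hπ 0) (hG0 0)
    rw [zero_sub, Valuation.map_neg] at h2
    have h3 := congrArg (iW WFV WVF WVV 0).valuation (hCm 0)
    rw [map_pow, map_one] at h3
    have h4 := pow_lt_one₀ zero_le h2 hm.ne'
    rw [h3] at h4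
    exact lt_irrefl _ h4
  · intro i
    exact i7_one_mod _ hπ0 (i6_mem_of_lt _ (hπ i)) (hg1 i) (hRW i _) (hG0 i) (hCm i) _

end glob

end Fermat.Agent.CARlib
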