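import Mathlib

/-!
# T-CAR, block I: dictionary "global rings -> local rings", part B (`il_root`, `il_norm`)
-/

set_option autoImplicit false
set_option linter.unusedSectionVars false

open IsLocalRing

namespace Fermat.Agent.CARlib

section one

variable {B F O : Type*} [CommRing B] [Field F] [Algebra B F] (𝔫 : Ideal B) [𝔫.IsPrime]
  [CommRing O] [Algebra B O] [IsLocalization.AtPrime O 𝔫] [Algebra O F] [IsScalarTower B O F]

include 𝔫 in
/-- `O` is closed under `m`-th roots in `F` if `B` is integrally closed in `F` -/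
theorem il_root (hB : ∀ x : F, IsIntegral B x → ∃ b : B, algebraMap B F b = x) {m : ℕ}
    (hm : 0 < m) (x : F) (hx : ∃ v : O, x ^ m = algebraMap O F v) :
    ∃ w : O, algebraMap O F w = x := by
  obtain ⟨v, hv⟩ := hx
  obtain ⟨⟨b, s⟩, hbs⟩ := IsLocalization.surj 𝔫.primeCompl v
  have hsu : IsUnit (algebraMap B O (s : B)) := IsLocalization.map_units O s
  have hsF : algebraMap B F (s : B) ≠ 0 := by
    rw [IsScalarTower.algebraMap_apply B O F]
    exact (hsu.map (algebraMap O F)).ne_zero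
  have hb : algebraMap B F b = algebraMap O F v * algebraMap B F (s : B) := by
    rw [IsScalarTower.algebraMap_apply B O F b, ← hbs, map_mul,
      ← IsScalarTower.algebraMap_apply B O F]
  have key : (algebraMap B F (s : B) * x) ^ m = algebraMap B F ((s : B) ^ (m - 1) * b) := by
    obtain ⟨k, rfl⟩ : ∃ k, m = k + 1 := ⟨m - 1, by omega⟩
    rw [mul_pow, hv, map_mul, map_pow, hb, Nat.add_sub_cancel, pow_succ]
    ring
  have hint : IsIntegral B (algebraMap B F (s : B) * x) := by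
    refine IsIntegral.of_pow hm ?_
    rw [key]
    exact isIntegral_algebraMap
  obtain ⟨b', hb'⟩ := hB _ hint
  refine ⟨IsLocalization.mk' O b' s, ?_⟩
  have h1 := congrArg (algebraMap O F) (IsLocalization.mk'_spec O b' s)
  rw [map_mul, ← IsScalarTower.algebraMap_apply B O F, ← IsScalarTower.algebraMap_apply B O F,
    hb', mul_comm] at h1
  exact mul_left_cancel₀ hsF h1

end one

section two

variable {B₁ B₂ F₁ F₂ O₁ O : Type*} [CommRing B₁] [CommRing B₂] [Field F₁] [Field F₂]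
  [Algebra B₁ F₁] [Algebra B₂ F₂] (Ea : B₁ →+* B₂) (ea : F₁ →+* F₂)
  (hEa : ∀ b, algebraMap B₂ F₂ (Ea b) = ea (algebraMap B₁ F₁ b))
  (𝔫 : Ideal B₂) [𝔫.IsPrime]
  [CommRing O] [IsLocalRing O] [Algebra B₂ O] [IsLocalization.AtPrime O 𝔫] [Algebra O F₂]
  [IsScalarTower B₂ O F₂]
  [CommRing O₁] [IsLocalRing O₁] [Algebra B₁ O₁] [IsLocalization.AtPrime O₁ (𝔫.comap Ea)]
  [Algebra O₁ F₁] [IsScalarTower B₁ O₁ F₁]

include hEa in
/-- norms of elements of `O` lie in `O₁` when `𝔫` is the only maximal ideal over `𝔫.comap Ea` -/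
theorem il_norm (hinj₁ : Function.Injective (algebraMap B₁ F₁)) (Nm : F₂ →* F₁) {r : ℕ}
    (hNint : ∀ b : B₂, ∃ c : B₁, Nm (algebraMap B₂ F₂ b) = algebraMap B₁ F₁ c)
    (hNe : ∀ x : F₁, Nm (ea x) = x ^ r)
    (huniq : ∀ b : B₂, b ∉ 𝔫 → ∃ b' : B₂, ∃ s₁ : B₁, Ea s₁ ∉ 𝔫 ∧ b * b' = Ea s₁) (u : O) :
    ∃ v : O₁, Nm (algebraMap O F₂ u) = algebraMap O₁ F₁ v := by
  obtain ⟨⟨b, s⟩, hbs⟩ := IsLocalization.surj 𝔫.primeCompl u
  obtain ⟨cb, hcb⟩ := hNint b
  obtain ⟨cs, hcs⟩ := hNint (s : B₂)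
  obtain ⟨s', t, ht, hst⟩ := huniq (s : B₂) s.2
  obtain ⟨cs', hcs'⟩ := hNint s'
  have h1 : cs * cs' = t ^ r := by
    apply hinj₁
    rw [map_mul, ← hcs, ← hcs', ← map_mul, ← map_mul, hst, hEa, hNe, map_pow]
  have hcsn : cs ∈ (𝔫.comap Ea).primeCompl := by
    intro hmem
    have h2 : t ^ r ∈ 𝔫.comap Ea := by
      rw [← h1]
      exact Ideal.mul_mem_right _ _ hmem
    have h5 : t ∈ 𝔫.comap Ea := Ideal.IsPrime.mem_of_pow_mem inferInstance r h2
    exact ht h5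
  have hcsu : IsUnit (algebraMap B₁ O₁ cs) := IsLocalization.map_units O₁ (⟨cs, hcsn⟩ : (𝔫.comap Ea).primeCompl)
  have hcsF : algebraMap B₁ F₁ cs ≠ 0 := by
    rw [IsScalarTower.algebraMap_apply B₁ O₁ F₁]
    exact (hcsu.map (algebraMap O₁ F₁)).ne_zero
  refine ⟨IsLocalization.mk' O₁ cb (⟨cs, hcsn⟩ : (𝔫.comap Ea).primeCompl), ?_⟩
  have h3 := congrArg (algebraMap O₁ F₁)
    (IsLocalization.mk'_spec O₁ cb (⟨cs, hcsn⟩ : (𝔫.comap Ea).primeCompl))
  rw [map_mul, ← IsScalarTower.algebraMap_apply B₁ O₁ F₁,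
    ← IsScalarTower.algebraMap_apply B₁ O₁ F₁] at h3
  have h4 : Nm (algebraMap O F₂ u) * algebraMap B₁ F₁ cs = algebraMap B₁ F₁ cb := by
    rw [← hcs, ← hcb, ← map_mul, IsScalarTower.algebraMap_apply B₂ O F₂ (s : B₂), ← map_mul, hbs,
      ← IsScalarTower.algebraMap_apply B₂ O F₂]
  exact mul_right_cancel₀ hcsF (h4.trans h3.symm)

end two

end Fermat.Agent.CARlib
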