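import Fermat.Agent.CAR.I6Rel
import Fermat.Agent.CAR.IDefs

/-!
# T-CAR, block I: consequences of `IHalf` at one prime `𝔫` of `B₂` (Mathlib only)

* `i6_rel2`            : (I3)-(I6) without any local ring at level 1;
* `IHalf.thr`          : two branches through `𝔫` ⇒ all three;
* `IHalf.norm_not_mem` : norms of elements outside `𝔫` are outside `𝔫 ∩ B₁`.
-/

set_option autoImplicit false

open IsLocalRing

namespace Fermat.Agent.CARlib

section val2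

variable {F : Type*} [Field F] (W : ValuationSubring F)

theorem i6_lt_one_iff (x : F) : W.valuation x < 1 ↔ x = 0 ∨ x⁻¹ ∉ W := by
  by_cases hx : x = 0
  · simp [hx]
  · rw [← W.valuation_le_one_iff, map_inv₀, not_le, one_lt_inv₀ (by
      rw [pos_iff_ne_zero]; exact (W.valuation.ne_zero_iff).2 hx)]
    simp [hx]

theorem i6_comap_lt {F₁ : Type*} [Field F₁] {V : ValuationSubring F₁} {e : F₁ →+* F}
    (h : W.comap e = V) (u : F₁) : W.valuation (e u) < 1 ↔ V.valuation u < 1 := by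
  rw [i6_lt_one_iff, i6_lt_one_iff, ← h, ValuationSubring.mem_comap, map_inv₀, map_eq_zero]

theorem i6_comap_mem {F₁ : Type*} [Field F₁] {V : ValuationSubring F₁} {e : F₁ →+* F}
    (h : W.comap e = V) (u : F₁) : e u ∈ W ↔ u ∈ V := by
  rw [← h, ValuationSubring.mem_comap]

theorem i6_mem_of_pow_mem {m : ℕ} (hm : 0 < m) {x : F} (h : x ^ m ∈ W) : x ∈ W := by
  rw [← W.valuation_le_one_iff] at h ⊢
  rw [map_pow] at h
  exact (pow_le_one_iff hm.ne').1 h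

theorem i6_inv_mem_of_not_lt {x : F} (h : ¬ W.valuation x < 1) : x⁻¹ ∈ W := by
  rw [i6_lt_one_iff, not_or, not_not] at h
  exact h.2

theorem i6_ne_zero_of_not_lt {x : F} (h : ¬ W.valuation x < 1) : x ≠ 0 := by
  rw [i6_lt_one_iff, not_or] at h
  exact h.1

theorem i6_map_neg_lt {B : Type*} [CommRing B] [Algebra B F] {x y : B}
    (h : W.valuation (algebraMap B F (x - y)) < 1) :
    W.valuation (algebraMap B F y - algebraMap B F x) < 1 := by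
  rw [map_sub] at h
  exact i6_neg_lt W h

end val2

section rel2

variable {O F₁ F₂ : Type*} [CommRing O] [IsLocalRing O] [Field F₁] [Field F₂] [Algebra O F₂]

/-- **(I3)-(I6)**, second form: no local ring at level 1 -/
theorem i6_rel2 (e : F₁ →+* F₂) (Nm : F₂ →* F₁)
    (VF VV : ValuationSubring F₁) (Wi Wu Wr : ValuationSubring F₂)
    (hOi : ∀ x : O, algebraMap O F₂ x ∈ Wi) (hOu : ∀ x : O, algebraMap O F₂ x ∈ Wu)
    (hOr : ∀ x : O, algebraMap O F₂ x ∈ Wr)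
    (hci : Wi.comap e = VF) (hcu : Wu.comap e = VV) {r : ℕ}
    (hN1F : ∀ H ∈ Wi, ∀ c ∈ VF, Wi.valuation (e c - H ^ r) < 1 → VF.valuation (Nm H - c) < 1)
    (hN1V : ∀ H, H ∈ Wu → H ∈ Wr → ∀ a1 ∈ VV, ∀ a2 ∈ VV, Wu.valuation (e a1 - H) < 1 →
      Wr.valuation (e a2 - H) < 1 → VV.valuation (Nm H - a1 * a2 ^ (r - 1)) < 1)
    (hdF : ∀ h : O, ∃ c ∈ VF, (∃ c' : O, algebraMap O F₂ c' = e c) ∧
      Wi.valuation (e c - algebraMap O F₂ h ^ r) < 1)
    (hdU : ∀ h : O, ∃ c ∈ VV, (∃ c' : O, algebraMap O F₂ c' = e c) ∧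
      Wu.valuation (e c - algebraMap O F₂ h) < 1)
    (hdR : ∀ h : O, ∃ c ∈ VV, (∃ c' : O, algebraMap O F₂ c' = e c) ∧
      Wr.valuation (e c - algebraMap O F₂ h) < 1)
    {H : F₂} {ω a : F₁} (hωF : ω ∈ VF) (hωV : ω ∈ VV) {w : O} (hw : algebraMap O F₂ w = e ω)
    (hωa : ω * Nm H = a) {ξF ξV : F₁} {xF xV : O} (hxF : algebraMap O F₂ xF = e ξF)
    (hxV : algebraMap O F₂ xV = e ξV)
    (haF : VF.valuation (a - ξF) < 1) (haV : VV.valuation (a - ξV) < 1) {d1 d2 d3 : O}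
    (h1 : Wi.valuation (H - algebraMap O F₂ d1) < 1)
    (h2 : Wu.valuation (H - algebraMap O F₂ d2) < 1)
    (h3 : Wr.valuation (H - algebraMap O F₂ d3) < 1) :
    d1 ^ r * xV - xF * (d2 * d3 ^ (r - 1)) ∈ maximalIdeal O := by
  have hHi : H ∈ Wi := i6_mem_of_sub_lt Wi (hOi d1) h1
  have hHu : H ∈ Wu := i6_mem_of_sub_lt Wu (hOu d2) h2
  have hHr : H ∈ Wr := i6_mem_of_sub_lt Wr (hOr d3) h3
  -- (I4)
  obtain ⟨c, hcV, ⟨c', hc'⟩, hc⟩ := hdF d1
  have hcH : Wi.valuation (e c - H ^ r) < 1 := by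
    have := i6_sub_lt Wi hc (i6_pow_sub_pow_lt Wi hHi (hOi d1) h1 r)
    rwa [sub_sub_sub_cancel_right] at this
  have hNc := hN1F H hHi c hcV hcH
  have hI4 : w * c' - xF ∈ maximalIdeal O := by
    apply i6_mem_max Wi hOi
    have e1 : algebraMap O F₂ (w * c' - xF) = e ((a - ξF) - ω * (Nm H - c)) := by
      rw [map_sub, map_mul, hw, hc', hxF, ← hωa]
      simp only [map_sub, map_mul]
      ring
    rw [e1, i6_comap_lt Wi hci]
    exact i6_sub_lt VF haF (i6_mul_lt VF hωF hNc)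
  have hcd : c' - d1 ^ r ∈ maximalIdeal O := by
    apply i6_mem_max Wi hOi
    rw [map_sub, hc', map_pow]
    exact hc
  -- (I5)
  obtain ⟨a1, ha1V, ⟨a1', ha1'⟩, ha1⟩ := hdU d2
  obtain ⟨a2, ha2V, ⟨a2', ha2'⟩, ha2⟩ := hdR d3
  have ha1H : Wu.valuation (e a1 - H) < 1 := by
    have := i6_sub_lt Wu ha1 h2
    rwa [sub_sub_sub_cancel_right] at this
  have ha2H : Wr.valuation (e a2 - H) < 1 := by
    have := i6_sub_lt Wr ha2 h3
    rwa [sub_sub_sub_cancel_right] at this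
  have hNa := hN1V H hHu hHr a1 ha1V a2 ha2V ha1H ha2H
  have hI5 : w * (a1' * a2' ^ (r - 1)) - xV ∈ maximalIdeal O := by
    apply i6_mem_max Wu hOu
    have e1 : algebraMap O F₂ (w * (a1' * a2' ^ (r - 1)) - xV)
        = e ((a - ξV) - ω * (Nm H - a1 * a2 ^ (r - 1))) := by
      rw [map_sub, map_mul, map_mul, map_pow, hw, ha1', ha2', hxV, ← hωa]
      simp only [map_sub, map_mul, map_pow]
      ring
    rw [e1, i6_comap_lt Wu hcu]
    exact i6_sub_lt VV haV (i6_mul_lt VV hωV hNa)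
  have ha1d : a1' - d2 ∈ maximalIdeal O := by
    apply i6_mem_max Wu hOu
    rw [map_sub, ha1']
    exact ha1
  have ha2d : a2' - d3 ∈ maximalIdeal O := by
    apply i6_mem_max Wr hOr
    rw [map_sub, ha2']
    exact ha2
  rw [← residue_eq_zero_iff] at hI4 hI5 hcd ha1d ha2d ⊢
  simp only [map_sub, map_mul, map_pow, sub_eq_zero] at hI4 hI5 hcd ha1d ha2d ⊢
  rw [← hI4, ← hI5, hcd, ha1d, ha2d]
  ring

end rel2

section half

variable {B₁ B₂ F₁ F₂ : Type*} [CommRing B₁] [CommRing B₂] [Field F₁] [Field F₂]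
  [Algebra B₁ F₁] [Algebra B₂ F₂] {r : ℕ} {E : B₁ →+* B₂} {e : F₁ →+* F₂} {Nm : F₂ →* F₁}
  {VF VV : ValuationSubring F₁} {Wi Wu Wr : ValuationSubring F₂}

namespace IHalf

theorem map_mem_of_F (D : IHalf r E e Nm VF VV Wi Wu Wr) {𝔫 : Ideal B₂} (hi : IThr Wi 𝔫) {c : B₁}
    (hc : VF.valuation (algebraMap B₁ F₁ c) < 1) : E c ∈ 𝔫 := by
  apply hi
  rw [D.hE, i6_comap_lt Wi D.comap_i]
  exact hc

theorem map_mem_of_V (D : IHalf r E e Nm VF VV Wi Wu Wr) {𝔫 : Ideal B₂}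
    (hur : IThr Wu 𝔫 ∨ IThr Wr 𝔫) {c : B₁}
    (hc : VV.valuation (algebraMap B₁ F₁ c) < 1) : E c ∈ 𝔫 := by
  rcases hur with h | h
  · apply h
    rw [D.hE, i6_comap_lt Wu D.comap_u]
    exact hc
  · apply h
    rw [D.hE, i6_comap_lt Wr D.comap_r]
    exact hc

/-- the norm is congruent modulo `p_F` to the descent of the `r`-th power -/
theorem norm_sub_lt (D : IHalf r E e Nm VF VV Wi Wu Wr) {x : B₂} {c n : B₁}
    (hc : Wi.valuation (algebraMap B₂ F₂ (x ^ r - E c)) < 1)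
    (hn : Nm (algebraMap B₂ F₂ x) = algebraMap B₁ F₁ n) :
    VF.valuation (algebraMap B₁ F₁ (n - c)) < 1 := by
  rw [map_sub, ← hn]
  apply D.n1F _ (D.sub_i x) _ (D.sub₁F c)
  rw [← D.hE, ← map_pow]
  exact i6_map_neg_lt Wi hc

/-- **(U')** -/
theorem norm_not_mem (D : IHalf r E e Nm VF VV Wi Wu Wr) {𝔫 : Ideal B₂} [h𝔫 : 𝔫.IsPrime]
    (hi : IThr Wi 𝔫) {s : B₂} (hs : s ∉ 𝔫) {n : B₁}
    (hn : Nm (algebraMap B₂ F₂ s) = algebraMap B₁ F₁ n) : E n ∉ 𝔫 := by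
  obtain ⟨c, hc⟩ := D.dF s
  have h1 : s ^ r - E c ∈ 𝔫 := hi _ hc
  have h2 : E (n - c) ∈ 𝔫 := D.map_mem_of_F hi (D.norm_sub_lt hc hn)
  intro h3
  apply hs
  apply h𝔫.mem_of_pow_mem r
  have e1 : s ^ r = (s ^ r - E c) + (E n - E (n - c)) := by
    rw [map_sub]; ring
  rw [e1]
  exact 𝔫.add_mem h1 (𝔫.sub_mem h3 h2)

/-- **(T1)** two branches through `𝔫` ⇒ all three -/
theorem thr (D : IHalf r E e Nm VF VV Wi Wu Wr) (hr : 2 ≤ r) {𝔫 : Ideal B₂} [h𝔫 : 𝔫.IsPrime]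
    (hi : IThr Wi 𝔫) (hur : IThr Wu 𝔫 ∨ IThr Wr 𝔫) : IThr Wu 𝔫 ∧ IThr Wr 𝔫 := by
  have key : ∀ x : B₂, (∀ n : B₁, Nm (algebraMap B₂ F₂ x) = algebraMap B₁ F₁ n →
      VV.valuation (algebraMap B₁ F₁ n) < 1) → x ∈ 𝔫 := by
    intro x hx
    obtain ⟨c, hc⟩ := D.dF x
    obtain ⟨n, hn⟩ := D.nInt x
    have h1 : x ^ r - E c ∈ 𝔫 := hi _ hc
    have h2 : E (n - c) ∈ 𝔫 := D.map_mem_of_F hi (D.norm_sub_lt hc hn)
    have h3 : E n ∈ 𝔫 := D.map_mem_of_V hur (hx n hn)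
    apply h𝔫.mem_of_pow_mem r
    have e1 : x ^ r = (x ^ r - E c) + (E n - E (n - c)) := by
      rw [map_sub]; ring
    rw [e1]
    exact 𝔫.add_mem h1 (𝔫.sub_mem h3 h2)
  constructor
  · intro x hx
    apply key
    intro n hn
    obtain ⟨c₂, hc₂⟩ := D.dR x
    have := D.n1V _ (D.sub_u x) (D.sub_r x) 0 VV.zero_mem _ (D.sub₁V c₂)
      (by rw [map_zero, zero_sub, Valuation.map_neg]; exact hx)
      (by rw [← D.hE]; exact i6_map_neg_lt Wr hc₂)
    rwa [zero_mul, sub_zero, hn] at this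
  · intro x hx
    apply key
    intro n hn
    obtain ⟨c₁, hc₁⟩ := D.dU x
    have := D.n1V _ (D.sub_u x) (D.sub_r x) _ (D.sub₁V c₁) 0 VV.zero_mem
      (by rw [← D.hE]; exact i6_map_neg_lt Wu hc₁)
      (by rw [map_zero, zero_sub, Valuation.map_neg]; exact hx)
    rwa [zero_pow (by omega), mul_zero, sub_zero, hn] at this

end IHalf

end half

end Fermat.Agent.CARlib
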