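import Fermat.Agent.CAR.IMid1

/-!
# T-CAR, block I: the relation (I6) at a prime `𝔫` of `B₂` through which all three branches pass,
for a generic local ring `O = (B₂)_𝔫` (Mathlib only)
-/

set_option autoImplicit false

open IsLocalRing

namespace Fermat.Agent.CARlib

section loc

variable {B F O : Type*} [CommRing B] [Field F] [Algebra B F] [CommRing O] [Algebra B O]
  (𝔫 : Ideal B) [h𝔫 : 𝔫.IsPrime] [IsLocalization.AtPrime O 𝔫] [Algebra O F] [IsScalarTower B O F]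

theorem im_exists_frac (x : O) : ∃ b s : B, s ∉ 𝔫 ∧
    algebraMap O F x * algebraMap B F s = algebraMap B F b := by
  obtain ⟨⟨b, s⟩, h⟩ := IsLocalization.surj 𝔫.primeCompl x
  refine ⟨b, s, s.2, ?_⟩
  have := congrArg (algebraMap O F) h
  rwa [map_mul, ← IsScalarTower.algebraMap_apply, ← IsScalarTower.algebraMap_apply] at this

variable (O) in
theorem im_exists_of_frac {b s : B} (hs : s ∉ 𝔫) (hs0 : algebraMap B F s ≠ 0) {x : F}
    (hx : x * algebraMap B F s = algebraMap B F b) : ∃ y : O, algebraMap O F y = x := by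
  refine ⟨IsLocalization.mk' O b (⟨s, hs⟩ : 𝔫.primeCompl), ?_⟩
  have h := IsLocalization.mk'_spec O b (⟨s, hs⟩ : 𝔫.primeCompl)
  have h2 := congrArg (algebraMap O F) h
  rw [map_mul, ← IsScalarTower.algebraMap_apply, ← IsScalarTower.algebraMap_apply] at h2
  exact mul_right_cancel₀ hs0 (h2.trans hx.symm)

variable {𝔫}

omit h𝔫 in
theorem IThr.not_lt {W : ValuationSubring F} (h : IThr W 𝔫) {s : B} (hs : s ∉ 𝔫) :
    ¬ W.valuation (algebraMap B F s) < 1 := fun h1 => hs (h s h1)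

variable (𝔫)

theorem im_sub {W : ValuationSubring F} (hBW : ∀ b : B, algebraMap B F b ∈ W) (thr : IThr W 𝔫)
    (x : O) : algebraMap O F x ∈ W := by
  obtain ⟨b, s, hs, h⟩ := im_exists_frac (F := F) 𝔫 x
  have h1 := thr.not_lt hs
  have h0 := i6_ne_zero_of_not_lt W h1
  rw [(eq_mul_inv_iff_mul_eq₀ h0).2 h]
  exact W.mul_mem _ _ (hBW b) (i6_inv_mem_of_not_lt W h1)

/-- `O` is closed under `m`-th roots in `F` if `B` is integrally closed in `F` -/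
theorem im_root (hcl : ∀ x : F, IsIntegral B x → ∃ b : B, algebraMap B F b = x) {m : ℕ}
    (hm : 0 < m) {x : F} {b s : B} (hs : s ∉ 𝔫) (hs0 : algebraMap B F s ≠ 0)
    (hx : x ^ m * algebraMap B F s = algebraMap B F b) : ∃ y : O, algebraMap O F y = x := by
  have hint : IsIntegral B (x * algebraMap B F s) := by
    apply IsIntegral.of_pow hm
    have e1 : (x * algebraMap B F s) ^ m = algebraMap B F (b * s ^ (m - 1)) := by
      rw [map_mul, ← hx, map_pow, mul_pow, mul_assoc, ← pow_succ', Nat.sub_add_cancel hm]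
    rw [e1]
    exact isIntegral_algebraMap
  obtain ⟨b', hb'⟩ := hcl _ hint
  exact im_exists_of_frac O 𝔫 hs hs0 hb'.symm

end loc

section desc

variable {B₁ B₂ F₁ F₂ O : Type*} [CommRing B₁] [CommRing B₂] [Field F₁] [Field F₂]
  [Algebra B₁ F₁] [Algebra B₂ F₂] [CommRing O] [Algebra B₂ O]
  (𝔫 : Ideal B₂) [h𝔫 : 𝔫.IsPrime] [IsLocalization.AtPrime O 𝔫] [Algebra O F₂]
  [IsScalarTower B₂ O F₂]

/-- descent of residues from `B₂` to `O = (B₂)_𝔫` -/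
theorem im_desc {E : B₁ →+* B₂} {e : F₁ →+* F₂}
    (hE : ∀ b, algebraMap B₂ F₂ (E b) = e (algebraMap B₁ F₁ b))
    {V : ValuationSubring F₁} {W : ValuationSubring F₂} (hBV : ∀ b : B₁, algebraMap B₁ F₁ b ∈ V)
    (hBW : ∀ b : B₂, algebraMap B₂ F₂ b ∈ W) (hc : W.comap e = V) (thr : IThr W 𝔫) (k : ℕ)
    (hd : ∀ x : B₂, ∃ c : B₁, W.valuation (algebraMap B₂ F₂ (x ^ k - E c)) < 1) (h : O) :
    ∃ c ∈ V, (∃ c' : O, algebraMap O F₂ c' = e c) ∧
      W.valuation (e c - algebraMap O F₂ h ^ k) < 1 := by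
  obtain ⟨b, s, hs, hbs⟩ := im_exists_frac (F := F₂) 𝔫 h
  obtain ⟨cb, hcb⟩ := hd b
  obtain ⟨cs, hcs⟩ := hd s
  have hsk : s ^ k ∉ 𝔫 := fun h1 => hs (h𝔫.mem_of_pow_mem k h1)
  have hEcs : E cs ∉ 𝔫 := by
    intro h1
    apply hsk
    have := 𝔫.add_mem (thr _ hcs) h1
    rwa [sub_add_cancel] at this
  have hv1 := thr.not_lt hEcs
  have hv2 := thr.not_lt hs
  have h01 := i6_ne_zero_of_not_lt W hv1
  have h02 := i6_ne_zero_of_not_lt W hv2
  have hi1 := i6_inv_mem_of_not_lt W hv1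
  have hi2 := i6_inv_mem_of_not_lt W hv2
  have hcs0 : algebraMap B₁ F₁ cs ≠ 0 := by
    intro h0
    rw [hE, h0, map_zero] at h01
    exact h01 rfl
  refine ⟨algebraMap B₁ F₁ cb / algebraMap B₁ F₁ cs, ?_, ?_, ?_⟩
  · rw [div_eq_mul_inv]
    refine V.mul_mem _ _ (hBV cb) ?_
    rw [← i6_comap_mem W hc, map_inv₀, ← hE]
    exact hi1
  · apply im_exists_of_frac O 𝔫 hEcs h01 (b := E cb)
    rw [map_div₀, ← hE, ← hE, div_mul_cancel₀ _ h01]
  · have hh : algebraMap O F₂ h = algebraMap B₂ F₂ b * (algebraMap B₂ F₂ s)⁻¹ :=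
      (eq_mul_inv_iff_mul_eq₀ h02).2 hbs
    have e1 : e (algebraMap B₁ F₁ cb / algebraMap B₁ F₁ cs) - algebraMap O F₂ h ^ k
        = ((algebraMap B₂ F₂ (E cs))⁻¹ * ((algebraMap B₂ F₂ s)⁻¹) ^ k) *
          (algebraMap B₂ F₂ b ^ k * algebraMap B₂ F₂ (s ^ k - E cs)
            - algebraMap B₂ F₂ s ^ k * algebraMap B₂ F₂ (b ^ k - E cb)) := by
      rw [map_div₀, ← hE, ← hE, hh, map_sub, map_sub, map_pow, map_pow, mul_pow, inv_pow]
      have h03 := pow_ne_zero k h02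
      field_simp
      ring
    rw [e1]
    refine i6_mul_lt W (W.mul_mem _ _ hi1 (W.pow_mem hi2 k)) (i6_sub_lt W ?_ ?_)
    · exact i6_mul_lt W (W.pow_mem (hBW b) k) hcs
    · exact i6_mul_lt W (W.pow_mem (hBW s) k) hcb

end desc

section rel

variable {B₁ B₂ F₁ F₂ O : Type*} [CommRing B₁] [CommRing B₂] [Field F₁] [Field F₂]
  [Algebra B₁ F₁] [Algebra B₂ F₂] [CommRing O] [IsLocalRing O] [Algebra B₂ O]
  [Algebra O F₂] [IsScalarTower B₂ O F₂]
  {r : ℕ} {E : B₁ →+* B₂} {e : F₁ →+* F₂} {Nm : F₂ →* F₁}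
  {VF VV : ValuationSubring F₁} {Wi Wu Wr : ValuationSubring F₂}

/-- **(I6) at `𝔫`** -/
theorem IHalf.rel (D : IHalf r E e Nm VF VV Wi Wu Wr) (𝔫 : Ideal B₂) [h𝔫 : 𝔫.IsPrime]
    [IsLocalization.AtPrime O 𝔫]
    (hcl : ∀ x : F₂, IsIntegral B₂ x → ∃ b : B₂, algebraMap B₂ F₂ b = x)
    (hi : IThr Wi 𝔫) (hu : IThr Wu 𝔫) (hr' : IThr Wr 𝔫) {m : ℕ} (hm : 0 < m) {g H : F₂}
    (hH : H ≠ 0) (u : O) (hg : g = algebraMap O F₂ u * H ^ m) {a : F₁} (ha : Nm g = a ^ m)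
    {ξF ξV : B₁} (haF : VF.valuation (a - algebraMap B₁ F₁ ξF) < 1)
    (haV : VV.valuation (a - algebraMap B₁ F₁ ξV) < 1) {d1 d2 d3 : O}
    (h1 : Wi.valuation (H - algebraMap O F₂ d1) < 1)
    (h2 : Wu.valuation (H - algebraMap O F₂ d2) < 1)
    (h3 : Wr.valuation (H - algebraMap O F₂ d3) < 1) :
    d1 ^ r * algebraMap B₂ O (E ξV) - algebraMap B₂ O (E ξF) * (d2 * d3 ^ (r - 1))
      ∈ maximalIdeal O := by
  have hNH : Nm H ≠ 0 := ((isUnit_iff_ne_zero.2 hH).map Nm).ne_zero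
  -- the norm of `u`
  obtain ⟨b, s, hs, hbs⟩ := im_exists_frac (F := F₂) 𝔫 u
  obtain ⟨nb, hnb⟩ := D.nInt b
  obtain ⟨ns, hns⟩ := D.nInt s
  have hEns : E ns ∉ 𝔫 := D.norm_not_mem hi hs hns
  have hNu : Nm (algebraMap O F₂ u) * algebraMap B₁ F₁ ns = algebraMap B₁ F₁ nb := by
    rw [← hns, ← map_mul, hbs, hnb]
  have hω : (a / Nm H) ^ m * algebraMap B₁ F₁ ns = algebraMap B₁ F₁ nb := by
    rw [← hNu, div_pow, ← ha, hg, map_mul, map_pow, mul_div_assoc,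
      div_self (pow_ne_zero _ hNH), mul_one]
  have hvi := hi.not_lt hEns
  have hvu := hu.not_lt hEns
  have h0 := i6_ne_zero_of_not_lt Wi hvi
  have hns0 : algebraMap B₁ F₁ ns ≠ 0 := by
    intro h
    rw [D.hE, h, map_zero] at h0
    exact h0 rfl
  have hωpow : (a / Nm H) ^ m = algebraMap B₁ F₁ nb * (algebraMap B₁ F₁ ns)⁻¹ :=
    (eq_mul_inv_iff_mul_eq₀ hns0).2 hω
  have hωF : a / Nm H ∈ VF := by
    apply i6_mem_of_pow_mem VF hm
    rw [hωpow]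
    refine VF.mul_mem _ _ (D.sub₁F nb) ?_
    rw [← i6_comap_mem Wi D.comap_i, map_inv₀, ← D.hE]
    exact i6_inv_mem_of_not_lt Wi hvi
  have hωV : a / Nm H ∈ VV := by
    apply i6_mem_of_pow_mem VV hm
    rw [hωpow]
    refine VV.mul_mem _ _ (D.sub₁V nb) ?_
    rw [← i6_comap_mem Wu D.comap_u, map_inv₀, ← D.hE]
    exact i6_inv_mem_of_not_lt Wu hvu
  obtain ⟨w, hw⟩ : ∃ w : O, algebraMap O F₂ w = e (a / Nm H) := by
    apply im_root 𝔫 hcl hm hEns h0 (b := E nb)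
    rw [← map_pow, D.hE, D.hE, ← map_mul, hω]
  refine i6_rel2 e Nm VF VV Wi Wu Wr (im_sub 𝔫 D.sub_i hi) (im_sub 𝔫 D.sub_u hu)
    (im_sub 𝔫 D.sub_r hr') D.comap_i D.comap_u D.n1F D.n1V
    (im_desc 𝔫 D.hE D.sub₁F D.sub_i D.comap_i hi r D.dF)
    (fun h => ?_) (fun h => ?_) hωF hωV hw (div_mul_cancel₀ _ hNH)
    (by rw [← IsScalarTower.algebraMap_apply, D.hE])
    (by rw [← IsScalarTower.algebraMap_apply, D.hE]) haF haV h1 h2 h3
  · have := im_desc 𝔫 D.hE D.sub₁V D.sub_u D.comap_u hu 1 (by simpa using D.dU) h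
    simpa using this
  · have := im_desc 𝔫 D.hE D.sub₁V D.sub_r D.comap_r hr' 1 (by simpa using D.dR) h
    simpa using this

end rel

end Fermat.Agent.CARlib
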