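import Fermat.Agent.CAR.IMid2

/-!
# T-CAR, block I: (I7) at a prime `𝔫` of `B₂`: equal values of `H' = H ^ (r ^ 2 - 1) * G0` on all the
branches through `𝔫` (Mathlib only)
-/

set_option autoImplicit false

open IsLocalRing

namespace Fermat.Agent.CARlib

section mid

variable {B₁ B₂ F₁ F₂ O : Type*} [CommRing B₁] [CommRing B₂] [Field F₁] [Field F₂]
  [Algebra B₁ F₁] [Algebra B₂ F₂] [CommRing O] [IsLocalRing O] [Algebra B₂ O]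
  [Algebra O F₂] [IsScalarTower B₂ O F₂]
  {r : ℕ} {E₁ E₂ : B₁ →+* B₂} {e₁ e₂ : F₁ →+* F₂} {N₁ N₂ : F₂ →* F₁}
  {VF VV : ValuationSubring F₁} {WFV WVF WVV : ValuationSubring F₂}

/-- the correcting constant on `W_FV` -/
def iA0 (r : ℕ) (xF xV xF' xV' : B₂ˣ) : B₂ˣ := (xF⁻¹ * xV) ^ r * (xF'⁻¹ * xV')

/-- if two branches pass through `𝔫` then all three do -/
theorem i_thr_all (D₁ : IHalf r E₁ e₁ N₁ VF VV WFV WVF WVV)
    (D₂ : IHalf r E₂ e₂ N₂ VF VV WVF WFV WVV) (hr : 2 ≤ r) (𝔫 : Ideal B₂) [h𝔫 : 𝔫.IsPrime]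
    (h : (IThr WFV 𝔫 ∧ IThr WVF 𝔫) ∨ (IThr WFV 𝔫 ∧ IThr WVV 𝔫) ∨ (IThr WVF 𝔫 ∧ IThr WVV 𝔫)) :
    IThr WFV 𝔫 ∧ IThr WVF 𝔫 ∧ IThr WVV 𝔫 := by
  rcases h with ⟨h1, h2⟩ | ⟨h1, h3⟩ | ⟨h2, h3⟩
  · exact ⟨h1, D₁.thr hr h1 (Or.inl h2)⟩
  · exact ⟨h1, D₁.thr hr h1 (Or.inr h3)⟩
  · have := D₂.thr hr h2 (Or.inr h3)
    exact ⟨this.1, h2, h3⟩

/-- **(I7) at `𝔫`**, all three branches through `𝔫` -/
theorem i_mid_three (D₁ : IHalf r E₁ e₁ N₁ VF VV WFV WVF WVV)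
    (D₂ : IHalf r E₂ e₂ N₂ VF VV WVF WFV WVV) (hr : 2 ≤ r) (𝔫 : Ideal B₂) [h𝔫 : 𝔫.IsPrime]
    [IsLocalization.AtPrime O 𝔫]
    (hcl : ∀ x : F₂, IsIntegral B₂ x → ∃ b : B₂, algebraMap B₂ F₂ b = x)
    (t1 : IThr WFV 𝔫) (t2 : IThr WVF 𝔫) (t3 : IThr WVV 𝔫)
    {m : ℕ} (hm : 0 < m) {g H : F₂} (hH : H ≠ 0) (u : O) (hg : g = algebraMap O F₂ u * H ^ m)
    {a₁ a₂ : F₁} (ha₁ : N₁ g = a₁ ^ m) (ha₂ : N₂ g = a₂ ^ m) {ξF ξV ξF' ξV' : B₁}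
    (xF xV xF' xV' : B₂ˣ) (hxF : E₁ ξF = xF) (hxV : E₁ ξV = xV) (hxF' : E₂ ξF' = xF')
    (hxV' : E₂ ξV' = xV')
    (haF : VF.valuation (a₁ - algebraMap B₁ F₁ ξF) < 1)
    (haV : VV.valuation (a₁ - algebraMap B₁ F₁ ξV) < 1)
    (haF' : VF.valuation (a₂ - algebraMap B₁ F₁ ξF') < 1)
    (haV' : VV.valuation (a₂ - algebraMap B₁ F₁ ξV') < 1) {d1 d2 d3 : O}
    (hd1 : IsUnit d1) (hd2 : IsUnit d2)
    (h1 : WFV.valuation (H - algebraMap O F₂ d1) < 1)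
    (h2 : WVF.valuation (H - algebraMap O F₂ d2) < 1)
    (h3 : WVV.valuation (H - algebraMap O F₂ d3) < 1) :
    d1 ^ (r ^ 2 - 1) * algebraMap B₂ O (iA0 r xF xV xF' xV') - d3 ^ (r ^ 2 - 1) ∈ maximalIdeal O ∧
    d2 ^ (r ^ 2 - 1) * algebraMap B₂ O (iA0 r xF' xV' xF xV) - d3 ^ (r ^ 2 - 1)
      ∈ maximalIdeal O := by
  have r1 := D₁.rel 𝔫 hcl t1 t2 t3 hm hH u hg ha₁ haF haV h1 h2 h3
  have r2 := D₂.rel 𝔫 hcl t2 t1 t3 hm hH u hg ha₂ haF' haV' h2 h1 h3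
  rw [hxF, hxV] at r1
  rw [hxF', hxV'] at r2
  have key := i7_equal (O := O) (by omega : 0 < r) hd1 hd2
    (Units.map (algebraMap B₂ O).toMonoidHom xF) (Units.map (algebraMap B₂ O).toMonoidHom xV)
    (Units.map (algebraMap B₂ O).toMonoidHom xF') (Units.map (algebraMap B₂ O).toMonoidHom xV')
    r1 r2
  have e1 : ∀ y y' z z' : B₂ˣ, algebraMap B₂ O (iA0 r y y' z z') =
      ((((Units.map (algebraMap B₂ O).toMonoidHom y)⁻¹ *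
        Units.map (algebraMap B₂ O).toMonoidHom y') ^ r *
        ((Units.map (algebraMap B₂ O).toMonoidHom z)⁻¹ *
        Units.map (algebraMap B₂ O).toMonoidHom z') : Oˣ) : O) := by
    intro y y' z z'
    rw [← map_inv, ← map_inv, ← map_mul, ← map_mul, ← map_pow, ← map_mul]
    rfl
  rw [e1, e1]
  exact key

/-- the three vertical valuation rings as a family -/
def iW (WFV WVF WVV : ValuationSubring F₂) : Fin 3 → ValuationSubring F₂ := ![WFV, WVF, WVV]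

/-- the three correcting constants -/
def iC (r : ℕ) (xF xV xF' xV' : B₂ˣ) : Fin 3 → B₂ˣ :=
  ![iA0 r xF xV xF' xV', iA0 r xF' xV' xF xV, 1]

/-- **(I-MID)**: lifts of `H' = H ^ (r ^ 2 - 1) * G0` with equal values on all the branches through
`𝔫` (inputs `d`, `hd`, `hz` of `a5_final`) -/
theorem i_mid (D₁ : IHalf r E₁ e₁ N₁ VF VV WFV WVF WVV)
    (D₂ : IHalf r E₂ e₂ N₂ VF VV WVF WFV WVV) (hr : 2 ≤ r) (𝔫 : Ideal B₂) [h𝔫 : 𝔫.IsPrime]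
    [IsLocalization.AtPrime O 𝔫]
    (hcl : ∀ x : F₂, IsIntegral B₂ x → ∃ b : B₂, algebraMap B₂ F₂ b = x)
    {m : ℕ} (hm : 0 < m) {g H : F₂} (hH : H ≠ 0) (u : O) (hg : g = algebraMap O F₂ u * H ^ m)
    {a₁ a₂ : F₁} (ha₁ : N₁ g = a₁ ^ m) (ha₂ : N₂ g = a₂ ^ m) {ξF ξV ξF' ξV' : B₁}
    (xF xV xF' xV' : B₂ˣ) (hxF : E₁ ξF = xF) (hxV : E₁ ξV = xV) (hxF' : E₂ ξF' = xF')
    (hxV' : E₂ ξV' = xV')
    (haF : VF.valuation (a₁ - algebraMap B₁ F₁ ξF) < 1)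
    (haV : VV.valuation (a₁ - algebraMap B₁ F₁ ξV) < 1)
    (haF' : VF.valuation (a₂ - algebraMap B₁ F₁ ξF') < 1)
    (haV' : VV.valuation (a₂ - algebraMap B₁ F₁ ξV') < 1)
    (d : Fin 3 → O) (hdu : ∀ i, IsUnit (d i))
    (hd : ∀ i, IThr (iW WFV WVF WVV i) 𝔫 →
      (iW WFV WVF WVV i).valuation (H - algebraMap O F₂ (d i)) < 1)
    {G0 : F₂} (hG : ∀ i, (iW WFV WVF WVV i).valuation
      (G0 - algebraMap B₂ F₂ (iC r xF xV xF' xV' i)) < 1) :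
    ∃ d' : Fin 3 → O,
      (∀ i, IThr (iW WFV WVF WVV i) 𝔫 →
        (iW WFV WVF WVV i).valuation (H ^ (r ^ 2 - 1) * G0 - algebraMap O F₂ (d' i)) < 1) ∧
      ∀ i l, IThr (iW WFV WVF WVV i) 𝔫 → IThr (iW WFV WVF WVV l) 𝔫 →
        d' i - d' l ∈ maximalIdeal O := by
  have hsub : ∀ i, ∀ b : B₂, algebraMap B₂ F₂ b ∈ iW WFV WVF WVV i := by
    intro i
    fin_cases i
    · exact D₁.sub_i
    · exact D₁.sub_u
    · exact D₁.sub_r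
  refine ⟨fun i => d i ^ (r ^ 2 - 1) * algebraMap B₂ O (iC r xF xV xF' xV' i), ?_, ?_⟩
  · intro i hi
    refine i7_lift _ (im_sub 𝔫 (hsub i) hi) (hd i hi) ?_ _
    rw [← IsScalarTower.algebraMap_apply]
    exact hG i
  · intro i l hi hl
    by_cases hil : i = l
    · rw [hil, sub_self]
      exact (maximalIdeal O).zero_mem
    have hall : IThr WFV 𝔫 ∧ IThr WVF 𝔫 ∧ IThr WVV 𝔫 := by
      apply i_thr_all D₁ D₂ hr 𝔫
      fin_cases i <;> fin_cases l <;> first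
        | exact absurd rfl hil
        | exact Or.inl ⟨hi, hl⟩
        | exact Or.inl ⟨hl, hi⟩
        | exact Or.inr (Or.inl ⟨hi, hl⟩)
        | exact Or.inr (Or.inl ⟨hl, hi⟩)
        | exact Or.inr (Or.inr ⟨hi, hl⟩)
        | exact Or.inr (Or.inr ⟨hl, hi⟩)
    obtain ⟨t1, t2, t3⟩ := hall
    have key := i_mid_three D₁ D₂ hr 𝔫 hcl t1 t2 t3 hm hH u hg ha₁ ha₂ xF xV xF' xV' hxF hxV
      hxF' hxV' haF haV haF' haV' (hdu 0) (hdu 1) (hd 0 t1) (hd 1 t2) (hd 2 t3)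
    have hk : ∀ i : Fin 3, d i ^ (r ^ 2 - 1) * algebraMap B₂ O (iC r xF xV xF' xV' i)
        - d 2 ^ (r ^ 2 - 1) ∈ maximalIdeal O := by
      intro i
      fin_cases i
      · exact key.1
      · exact key.2
      · have : algebraMap B₂ O ((iC r xF xV xF' xV' 2 : B₂ˣ) : B₂) = 1 := by
          simp [iC]
        show d 2 ^ (r ^ 2 - 1) * algebraMap B₂ O ((iC r xF xV xF' xV' 2 : B₂ˣ) : B₂)
          - d 2 ^ (r ^ 2 - 1) ∈ maximalIdeal O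
        rw [this, mul_one, sub_self]
        exact (maximalIdeal O).zero_mem
    have := (maximalIdeal O).sub_mem (hk i) (hk l)
    rwa [sub_sub_sub_cancel_right] at this

end mid

end Fermat.Agent.CARlib
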