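import Fermat.Agent.CAR.IMid3
import Fermat.Agent.CAR.A5Final

/-!
# T-CAR, block I: `i_loc` = the clause of `LocPowB2` at one prime `𝔫` of `B₂` for
`g' = g ^ (r ^ 2 - 1) * G0 ^ m` (Mathlib only; `a5_final ∘ i_mid`)
-/

set_option autoImplicit false

open IsLocalRing

namespace Fermat.Agent.CARlib

section loc

variable {B₁ B₂ F₁ F₂ O : Type*} [CommRing B₁] [CommRing B₂] [IsNoetherianRing B₂] [Field F₁]
  [Field F₂] [Algebra B₁ F₁] [Algebra B₂ F₂] [CommRing O] [IsLocalRing O] [Algebra B₂ O]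
  [Algebra O F₂] [IsScalarTower B₂ O F₂]
  {r : ℕ} {E₁ E₂ : B₁ →+* B₂} {e₁ e₂ : F₁ →+* F₂} {N₁ N₂ : F₂ →* F₁}
  {VF VV : ValuationSubring F₁} {WFV WVF WVV : ValuationSubring F₂}

theorem i_thr_iff {B F : Type*} [CommRing B] [Field F] [Algebra B F] {W : ValuationSubring F}
    {P 𝔫 : Ideal B} (hP : ∀ x, x ∈ P ↔ W.valuation (algebraMap B F x) < 1) :
    P ≤ 𝔫 ↔ IThr W 𝔫 :=
  ⟨fun h x hx => h ((hP x).2 hx), fun h x hx => h x ((hP x).1 hx)⟩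

/-- **(I-LOC)** -/
theorem i_loc (D₁ : IHalf r E₁ e₁ N₁ VF VV WFV WVF WVV)
    (D₂ : IHalf r E₂ e₂ N₂ VF VV WVF WFV WVV) (hr : r.Prime) (𝔫 : Ideal B₂) [h𝔫 : 𝔫.IsPrime]
    [IsLocalization.AtPrime O 𝔫]
    (hcl : ∀ x : F₂, IsIntegral B₂ x → ∃ b : B₂, algebraMap B₂ F₂ b = x)
    (P : Fin 3 → Ideal B₂)
    (hP : ∀ i x, x ∈ P i ↔ (iW WFV WVF WVV i).valuation (algebraMap B₂ F₂ x) < 1)
    (hPne : ∀ i l, i ≠ l → ¬ P l ≤ P i) (hdvr : ∀ i, P i ≤ 𝔫 → C.CDvr 𝔫 (P i))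
    {π : F₂} (hπ0 : π ≠ 0) (hπ : ∀ i, (iW WFV WVF WVV i).valuation π < 1)
    (hrπ : ∀ i, (r : F₂) / π ∈ iW WFV WVF WVV i)
    (he : ∀ i (ν : F₂), (iW WFV WVF WVV i).valuation ν < 1 → ν ^ r / π ∈ iW WFV WVF WVV i)
    {m : ℕ} (hmr : Nat.Coprime m r) {g H : F₂} (hH : H ≠ 0) (u : Oˣ)
    (hg : g = algebraMap O F₂ u * H ^ m) (hg1 : ∀ i, (g - 1) / π ∈ iW WFV WVF WVV i)
    {a₁ a₂ : F₁} (ha₁ : N₁ g = a₁ ^ m) (ha₂ : N₂ g = a₂ ^ m) {ξF ξV ξF' ξV' : B₁}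
    (xF xV xF' xV' : B₂ˣ) (hxF : E₁ ξF = xF) (hxV : E₁ ξV = xV) (hxF' : E₂ ξF' = xF')
    (hxV' : E₂ ξV' = xV')
    (haF : VF.valuation (a₁ - algebraMap B₁ F₁ ξF) < 1)
    (haV : VV.valuation (a₁ - algebraMap B₁ F₁ ξV) < 1)
    (haF' : VF.valuation (a₂ - algebraMap B₁ F₁ ξF') < 1)
    (haV' : VV.valuation (a₂ - algebraMap B₁ F₁ ξV') < 1)
    (hCm : ∀ i, iC r xF xV xF' xV' i ^ m = 1)
    (hlift : ∀ i, IThr (iW WFV WVF WVV i) 𝔫 →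
      ∃ d : Oˣ, (iW WFV WVF WVV i).valuation (H - algebraMap O F₂ d) < 1)
    {G0 : F₂} (hG : ∀ i, (G0 - algebraMap B₂ F₂ (iC r xF xV xF' xV' i)) / π
      ∈ iW WFV WVF WVV i) :
    ∃ G : F₂, ∃ s : B₂, s ∉ 𝔫 ∧
      (∀ i, algebraMap B₂ F₂ s * ((G - 1) / π) ∈ iW WFV WVF WVV i) ∧
      ∃ c : B₂, algebraMap B₂ F₂ c = algebraMap B₂ F₂ s * (g ^ (r ^ 2 - 1) * G0 ^ m * G ^ m) := by
  classical
  have hm0 : 0 < m := by
    rcases Nat.eq_zero_or_pos m with rfl | h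
    · rw [Nat.coprime_zero_left] at hmr
      exact absurd hmr hr.one_lt.ne'
    · exact h
  have hsub : ∀ i, ∀ b : B₂, algebraMap B₂ F₂ b ∈ iW WFV WVF WVV i := by
    intro i
    fin_cases i
    · exact D₁.sub_i
    · exact D₁.sub_u
    · exact D₁.sub_r
  -- the lifts of `H`
  let d : Fin 3 → Oˣ := fun i =>
    if h : IThr (iW WFV WVF WVV i) 𝔫 then (hlift i h).choose else 1
  have hd : ∀ i, IThr (iW WFV WVF WVV i) 𝔫 →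
      (iW WFV WVF WVV i).valuation (H - algebraMap O F₂ ((d i : Oˣ) : O)) < 1 := by
    intro i hi
    have : d i = (hlift i hi).choose := dif_pos hi
    rw [this]
    exact (hlift i hi).choose_spec
  have hG' : ∀ i, (iW WFV WVF WVV i).valuation
      (G0 - algebraMap B₂ F₂ (iC r xF xV xF' xV' i)) < 1 :=
    fun i => a5_lt_of_div_mem _ hπ0 (hπ i) (hG i)
  obtain ⟨d', hd', hz'⟩ := i_mid D₁ D₂ hr.two_le 𝔫 hcl hm0 hH (u : O) hg ha₁ ha₂ xF xV xF' xV'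
    hxF hxV hxF' hxV' haF haV haF' haV' (fun i => ((d i : Oˣ) : O)) (fun i => (d i).isUnit) hd hG'
  have hg' : g ^ (r ^ 2 - 1) * G0 ^ m
      = algebraMap O F₂ ((u ^ (r ^ 2 - 1) : Oˣ) : O) * (H ^ (r ^ 2 - 1) * G0) ^ m := by
    rw [hg, Units.val_pow_eq_pow_val, map_pow]
    ring
  have hg1' : ∀ i, (g ^ (r ^ 2 - 1) * G0 ^ m - 1) / π ∈ iW WFV WVF WVV i := by
    intro i
    refine i7_one_mod _ hπ0 (i6_mem_of_lt _ (hπ i)) (hg1 i) (hsub i _) (hG i) ?_ _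
    rw [← map_pow, ← Units.val_pow_eq_pow_val, hCm i, Units.val_one, map_one]
  exact a5_final 𝔫 (iW WFV WVF WVV) hsub P hP hPne hdvr hπ0 hπ hr hrπ he hmr
    (u ^ (r ^ 2 - 1)) hg' hg1' d' (fun i hi => hd' i ((i_thr_iff (hP i)).1 hi))
    (fun i l hi hl => hz' i l ((i_thr_iff (hP i)).1 hi) ((i_thr_iff (hP l)).1 hl))

end loc

end Fermat.Agent.CARlib
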