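import Fermat.Agent.CAR.IMid4
import Fermat.Agent.CAR.A5Lift

/-!
# T-CAR, block I: `i_main_at` = the clause of `LocPowB2` at one prime `𝔫` of `B₂`, from the
factorisation `s₁ g = s₂ H ^ m` (A2), the bundles `IHalf` (x2), `CDvr`, `hfrac` (Mathlib only)
-/

set_option autoImplicit false
set_option linter.style.haveILetI false

open IsLocalRing

namespace Fermat.Agent.CARlib

theorem iC_map {A B : Type*} [CommRing A] [CommRing B] (f : A →* B) (r : ℕ) (x y z w : Aˣ)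
    (i : Fin 3) :
    iC r (Units.map f x) (Units.map f y) (Units.map f z) (Units.map f w) i
      = Units.map f (iC r x y z w i) := by
  fin_cases i <;> simp [iC, iA0]

theorem iC_pow {A : Type*} [CommRing A] {r m : ℕ} {x y z w : Aˣ} (hx : x ^ m = 1) (hy : y ^ m = 1)
    (hz : z ^ m = 1) (hw : w ^ m = 1) (i : Fin 3) : iC r x y z w i ^ m = 1 := by
  have h1 : ∀ a b c d : Aˣ, a ^ m = 1 → b ^ m = 1 → c ^ m = 1 → d ^ m = 1 →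
      iA0 r a b c d ^ m = 1 := by
    intro a b c d ha hb hc hd
    have e1 : (a⁻¹ * b) ^ m = 1 := by rw [mul_pow, inv_pow, ha, hb]; simp
    have e2 : (c⁻¹ * d) ^ m = 1 := by rw [mul_pow, inv_pow, hc, hd]; simp
    rw [iA0, mul_pow, ← pow_mul, mul_comm r m, pow_mul, e1, e2]
    simp
  fin_cases i
  · exact h1 _ _ _ _ hx hy hz hw
  · exact h1 _ _ _ _ hz hw hx hy
  · exact one_pow m

section main

variable {R B₁ B₂ F₁ F₂ : Type*} [CommRing R] [CommRing B₁] [CommRing B₂] [IsNoetherianRing B₂]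
  [Field F₁] [Field F₂] [Algebra B₁ F₁] [Algebra B₂ F₂] [Algebra R B₁] [Algebra R B₂]
  {r : ℕ} {E₁ E₂ : B₁ →+* B₂} {e₁ e₂ : F₁ →+* F₂} {N₁ N₂ : F₂ →* F₁}
  {VF VV : ValuationSubring F₁} {WFV WVF WVV : ValuationSubring F₂}

/-- `i_main_at` for a generic localisation `O` of `B₂` at `𝔫` -/
theorem i_main_at_gen {O : Type*} [CommRing O] [IsLocalRing O] [Algebra B₂ O]
    [Algebra O F₂] [IsScalarTower B₂ O F₂]
    (D₁ : IHalf r E₁ e₁ N₁ VF VV WFV WVF WVV) (D₂ : IHalf r E₂ e₂ N₂ VF VV WVF WFV WVV)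
    (hE₁R : ∀ z : R, E₁ (algebraMap R B₁ z) = algebraMap R B₂ z)
    (hE₂R : ∀ z : R, E₂ (algebraMap R B₁ z) = algebraMap R B₂ z)
    (hr : r.Prime) (𝔫 : Ideal B₂) [h𝔫 : 𝔫.IsPrime] [IsLocalization.AtPrime O 𝔫]
    (hcl : ∀ x : F₂, IsIntegral B₂ x → ∃ b : B₂, algebraMap B₂ F₂ b = x)
    (P : Fin 3 → Ideal B₂)
    (hP : ∀ i x, x ∈ P i ↔ (iW WFV WVF WVV i).valuation (algebraMap B₂ F₂ x) < 1)
    (hPne : ∀ i l, i ≠ l → ¬ P l ≤ P i) (hdvr : ∀ i, P i ≤ 𝔫 → C.CDvr 𝔫 (P i))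
    (hfrac : ∀ i, ∀ x ∈ iW WFV WVF WVV i, ∃ a b : B₂, b ∉ P i ∧
      (iW WFV WVF WVV i).valuation (x * algebraMap B₂ F₂ b - algebraMap B₂ F₂ a) < 1)
    {π : F₂} (hπ0 : π ≠ 0) (hπ : ∀ i, (iW WFV WVF WVV i).valuation π < 1)
    (hrπ : ∀ i, (r : F₂) / π ∈ iW WFV WVF WVV i)
    (he : ∀ i (ν : F₂), (iW WFV WVF WVV i).valuation ν < 1 → ν ^ r / π ∈ iW WFV WVF WVV i)
    {m : ℕ} (hmr : Nat.Coprime m r) {g H : F₂} (hH : H ≠ 0) {s₁ s₂ : B₂} (hs₁ : s₁ ∉ 𝔫)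
    (hs₂ : s₂ ∉ 𝔫) (hs₁0 : algebraMap B₂ F₂ s₁ ≠ 0)
    (hfac : algebraMap B₂ F₂ s₁ * g = algebraMap B₂ F₂ s₂ * H ^ m)
    (hg1 : ∀ i, (g - 1) / π ∈ iW WFV WVF WVV i)
    {a₁ a₂ : F₁} (ha₁ : N₁ g = a₁ ^ m) (ha₂ : N₂ g = a₂ ^ m) (ξF ξV ξF' ξV' : Rˣ)
    (hξF : ξF ^ m = 1) (hξV : ξV ^ m = 1) (hξF' : ξF' ^ m = 1) (hξV' : ξV' ^ m = 1)
    (haF : VF.valuation (a₁ - algebraMap B₁ F₁ (algebraMap R B₁ ξF)) < 1)
    (haV : VV.valuation (a₁ - algebraMap B₁ F₁ (algebraMap R B₁ ξV)) < 1)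
    (haF' : VF.valuation (a₂ - algebraMap B₁ F₁ (algebraMap R B₁ ξF')) < 1)
    (haV' : VV.valuation (a₂ - algebraMap B₁ F₁ (algebraMap R B₁ ξV')) < 1)
    {G0 : F₂} (hG : ∀ i, (G0 - algebraMap B₂ F₂ (algebraMap R B₂ (iC r ξF ξV ξF' ξV' i))) / π
      ∈ iW WFV WVF WVV i) :
    ∃ G : F₂, ∃ s : B₂, s ∉ 𝔫 ∧
      (∀ i, algebraMap B₂ F₂ s * ((G - 1) / π) ∈ iW WFV WVF WVV i) ∧
      ∃ c : B₂, algebraMap B₂ F₂ c = algebraMap B₂ F₂ s * (g ^ (r ^ 2 - 1) * G0 ^ m * G ^ m) := by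
  have hm0 : 0 < m := by
    rcases Nat.eq_zero_or_pos m with rfl | h
    · rw [Nat.coprime_zero_left] at hmr
      exact absurd hmr hr.one_lt.ne'
    · exact h
  have hsub : ∀ i, ∀ b : B₂, algebraMap B₂ F₂ b ∈ iW WFV WVF WVV i := by
    intro i
    fin_cases i
    · exact D₁.sub_i
    · exact D₁.sub_u
    · exact D₁.sub_r
  -- the unit `u = s₂ / s₁`
  let u₁ : Oˣ := (IsLocalization.map_units O (⟨s₁, hs₁⟩ : 𝔫.primeCompl)).unit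
  let u₂ : Oˣ := (IsLocalization.map_units O (⟨s₂, hs₂⟩ : 𝔫.primeCompl)).unit
  have hu₁ : algebraMap O F₂ (u₁ : O) = algebraMap B₂ F₂ s₁ :=
    (IsScalarTower.algebraMap_apply B₂ O F₂ s₁).symm
  have hu₂ : algebraMap O F₂ (u₂ : O) = algebraMap B₂ F₂ s₂ :=
    (IsScalarTower.algebraMap_apply B₂ O F₂ s₂).symm
  have hu₁' : algebraMap O F₂ ((u₁⁻¹ : Oˣ) : O) = (algebraMap B₂ F₂ s₁)⁻¹ := by
    apply eq_inv_of_mul_eq_one_left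
    rw [← hu₁, ← map_mul, Units.inv_mul, map_one]
  have hg : g = algebraMap O F₂ ((u₂ * u₁⁻¹ : Oˣ) : O) * H ^ m := by
    rw [Units.val_mul, map_mul, hu₂, hu₁', mul_right_comm, ← hfac, mul_right_comm,
      mul_inv_cancel₀ hs₁0, one_mul]
  have hlift : ∀ i, IThr (iW WFV WVF WVV i) 𝔫 →
      ∃ d : Oˣ, (iW WFV WVF WVV i).valuation (H - algebraMap O F₂ d) < 1 := by
    intro i hi
    refine a5_lift_at 𝔫 _ (hsub i) (P i) (hP i) ((i_thr_iff (hP i)).2 hi)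
      (hdvr i ((i_thr_iff (hP i)).2 hi)) (hfrac i) hm0 (u₂ * u₁⁻¹) ?_
    rw [← hg]
    exact a5_lt_of_div_mem _ hπ0 (hπ i) (hg1 i)
  refine i_loc D₁ D₂ hr 𝔫 hcl P hP hPne hdvr hπ0 hπ hrπ he hmr hH (u₂ * u₁⁻¹) hg hg1 ha₁ ha₂
    (Units.map (algebraMap R B₂).toMonoidHom ξF) (Units.map (algebraMap R B₂).toMonoidHom ξV)
    (Units.map (algebraMap R B₂).toMonoidHom ξF') (Units.map (algebraMap R B₂).toMonoidHom ξV')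
    (hE₁R _) (hE₁R _) (hE₂R _) (hE₂R _) haF haV haF' haV' ?_ hlift ?_
  · intro i
    rw [iC_map, ← map_pow, iC_pow hξF hξV hξF' hξV', map_one]
  · intro i
    rw [iC_map]
    exact hG i

/-- **(I-MAIN-AT)** -/
theorem i_main_at (hinj : Function.Injective (algebraMap B₂ F₂))
    (D₁ : IHalf r E₁ e₁ N₁ VF VV WFV WVF WVV) (D₂ : IHalf r E₂ e₂ N₂ VF VV WVF WFV WVV)
    (hE₁R : ∀ z : R, E₁ (algebraMap R B₁ z) = algebraMap R B₂ z)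
    (hE₂R : ∀ z : R, E₂ (algebraMap R B₁ z) = algebraMap R B₂ z)
    (hr : r.Prime) (𝔫 : Ideal B₂) [h𝔫 : 𝔫.IsPrime]
    (hcl : ∀ x : F₂, IsIntegral B₂ x → ∃ b : B₂, algebraMap B₂ F₂ b = x)
    (P : Fin 3 → Ideal B₂)
    (hP : ∀ i x, x ∈ P i ↔ (iW WFV WVF WVV i).valuation (algebraMap B₂ F₂ x) < 1)
    (hPne : ∀ i l, i ≠ l → ¬ P l ≤ P i) (hdvr : ∀ i, P i ≤ 𝔫 → C.CDvr 𝔫 (P i))
    (hfrac : ∀ i, ∀ x ∈ iW WFV WVF WVV i, ∃ a b : B₂, b ∉ P i ∧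
      (iW WFV WVF WVV i).valuation (x * algebraMap B₂ F₂ b - algebraMap B₂ F₂ a) < 1)
    {π : F₂} (hπ0 : π ≠ 0) (hπ : ∀ i, (iW WFV WVF WVV i).valuation π < 1)
    (hrπ : ∀ i, (r : F₂) / π ∈ iW WFV WVF WVV i)
    (he : ∀ i (ν : F₂), (iW WFV WVF WVV i).valuation ν < 1 → ν ^ r / π ∈ iW WFV WVF WVV i)
    {m : ℕ} (hmr : Nat.Coprime m r) {g H : F₂} (hH : H ≠ 0) {s₁ s₂ : B₂} (hs₁ : s₁ ∉ 𝔫)
    (hs₂ : s₂ ∉ 𝔫) (hfac : algebraMap B₂ F₂ s₁ * g = algebraMap B₂ F₂ s₂ * H ^ m)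
    (hg1 : ∀ i, (g - 1) / π ∈ iW WFV WVF WVV i)
    {a₁ a₂ : F₁} (ha₁ : N₁ g = a₁ ^ m) (ha₂ : N₂ g = a₂ ^ m) (ξF ξV ξF' ξV' : Rˣ)
    (hξF : ξF ^ m = 1) (hξV : ξV ^ m = 1) (hξF' : ξF' ^ m = 1) (hξV' : ξV' ^ m = 1)
    (haF : VF.valuation (a₁ - algebraMap B₁ F₁ (algebraMap R B₁ ξF)) < 1)
    (haV : VV.valuation (a₁ - algebraMap B₁ F₁ (algebraMap R B₁ ξV)) < 1)
    (haF' : VF.valuation (a₂ - algebraMap B₁ F₁ (algebraMap R B₁ ξF')) < 1)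
    (haV' : VV.valuation (a₂ - algebraMap B₁ F₁ (algebraMap R B₁ ξV')) < 1)
    {G0 : F₂} (hG : ∀ i, (G0 - algebraMap B₂ F₂ (algebraMap R B₂ (iC r ξF ξV ξF' ξV' i))) / π
      ∈ iW WFV WVF WVV i) :
    ∃ G : F₂, ∃ s : B₂, s ∉ 𝔫 ∧
      (∀ i, algebraMap B₂ F₂ s * ((G - 1) / π) ∈ iW WFV WVF WVV i) ∧
      ∃ c : B₂, algebraMap B₂ F₂ c = algebraMap B₂ F₂ s * (g ^ (r ^ 2 - 1) * G0 ^ m * G ^ m) := by
  have hne : ∀ y : B₂, y ∉ 𝔫 → algebraMap B₂ F₂ y ≠ 0 := by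
    intro y hy h
    apply hy
    rw [hinj (h.trans (map_zero _).symm)]
    exact 𝔫.zero_mem
  have hunit : ∀ y : 𝔫.primeCompl, IsUnit (algebraMap B₂ F₂ y) :=
    fun y => isUnit_iff_ne_zero.2 (hne y y.2)
  letI : Algebra (Localization.AtPrime 𝔫) F₂ :=
    (IsLocalization.lift (S := Localization.AtPrime 𝔫) hunit).toAlgebra
  haveI : IsScalarTower B₂ (Localization.AtPrime 𝔫) F₂ :=
    IsScalarTower.of_algebraMap_eq (fun x => (IsLocalization.lift_eq hunit x).symm)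
  exact i_main_at_gen (O := Localization.AtPrime 𝔫) D₁ D₂ hE₁R hE₂R hr 𝔫 hcl P hP hPne hdvr hfrac
    hπ0 hπ hrπ he hmr hH hs₁ hs₂ (hne _ hs₁) hfac hg1 ha₁ ha₂ ξF ξV ξF' ξV' hξF hξV hξF' hξV'
    haF haV haF' haV' hG

end main

end Fermat.Agent.CARlib
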