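import Fermat.Agent.CAR.IMid5
import Fermat.Agent.CAR.A2Final
import Fermat.Agent.CAR.XCritB2
import Fermat.Agent.CAR.I9Frac
import Fermat.Agent.CAR.CInst

/-!
# T-CAR, block I, the top: from `i_main_at` (one closed point) to `LocPowB2` (one chart)

* `i_xi`    : (I2) the two roots of unity attached to one direction `e`;
* `i_fac`   : the local factorisation `s₁ g = s₂ H ^ m` at every closed point of one chart;
* `i_chart` : `LocPowB2 π T (g ^ (r ^ 2 - 1) * G0 ^ m) m`.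
-/

set_option autoImplicit false
set_option linter.unusedSectionVars false
set_option linter.unusedVariables false

open IsLocalRing

namespace Fermat.Agent.CARlib

open Fermat.Agent.ESlib Fermat.Agent.UNIlib

/-- **(I2)** -/
theorem i_xi {R F₁ F₂ : Type*} [CommRing R] [Field F₁] [Field F₂] [Algebra R F₁]
    {r m : ℕ} (hm : 0 < m) {e : F₁ →+* F₂} {Nm : F₂ →* F₁} {VF VV : ValuationSubring F₁}
    {Wi Wu Wr : ValuationSubring F₂}
    (n1F : ∀ H ∈ Wi, ∀ c ∈ VF, Wi.valuation (e c - H ^ r) < 1 → VF.valuation (Nm H - c) < 1)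
    (n1V : ∀ H, H ∈ Wu → H ∈ Wr → ∀ a1 ∈ VV, ∀ a2 ∈ VV, Wu.valuation (e a1 - H) < 1 →
      Wr.valuation (e a2 - H) < 1 → VV.valuation (Nm H - a1 * a2 ^ (r - 1)) < 1)
    {ζ : R} (hζ : IsPrimitiveRoot ζ m) (hinj : Function.Injective (algebraMap R F₁))
    {g : F₂} (hi : Wi.valuation (g - 1) < 1) (hu : Wu.valuation (g - 1) < 1)
    (hr' : Wr.valuation (g - 1) < 1) {a : F₁} (ha : Nm g = a ^ m) :
    ∃ ξF ξV : Rˣ, ξF ^ m = 1 ∧ ξV ^ m = 1 ∧
      VF.valuation (a - algebraMap R F₁ (ξF : R)) < 1 ∧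
      VV.valuation (a - algebraMap R F₁ (ξV : R)) < 1 := by
  have hζ' : IsPrimitiveRoot (algebraMap R F₁ ζ) m := hζ.map_of_injective hinj
  let ζu : Rˣ := (hζ.isUnit hm.ne').unit
  have hζu : (ζu : R) = ζ := rfl
  have hpow : ∀ i : ℕ, (ζu ^ i) ^ m = 1 := by
    intro i
    apply Units.ext
    rw [Units.val_pow_eq_pow_val, Units.val_pow_eq_pow_val, hζu, ← pow_mul, mul_comm, pow_mul,
      hζ.pow_eq_one, one_pow, Units.val_one]
  have hval : ∀ i : ℕ, algebraMap R F₁ ((ζu ^ i : Rˣ) : R) = algebraMap R F₁ ζ ^ i := by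
    intro i
    rw [Units.val_pow_eq_pow_val, hζu, map_pow]
  have hgi : g ∈ Wi := i6_mem_of_sub_lt Wi Wi.one_mem hi
  have hgu : g ∈ Wu := i6_mem_of_sub_lt Wu Wu.one_mem hu
  have hgr : g ∈ Wr := i6_mem_of_sub_lt Wr Wr.one_mem hr'
  have h1 : VF.valuation (a ^ m - 1) < 1 := by
    rw [← ha]
    refine n1F g hgi 1 VF.one_mem ?_
    rw [map_one]
    have := i6_pow_sub_pow_lt Wi hgi Wi.one_mem hi r
    rw [one_pow] at this
    exact i6_neg_lt Wi this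
  have h2 : VV.valuation (a ^ m - 1) < 1 := by
    rw [← ha]
    have := n1V g hgu hgr 1 VV.one_mem 1 VV.one_mem (by rw [map_one]; exact i6_neg_lt Wu hu)
      (by rw [map_one]; exact i6_neg_lt Wr hr')
    rwa [one_pow, mul_one] at this
  obtain ⟨i, -, hi'⟩ := i2_root VF hm hζ' h1
  obtain ⟨l, -, hl'⟩ := i2_root VV hm hζ' h2
  exact ⟨ζu ^ i, ζu ^ l, hpow i, hpow l, by rw [hval]; exact hi', by rw [hval]; exact hl'⟩

section chart

variable {R K F₁ F₂ : Type*} [CommRing R] [IsDomain R] [IsDiscreteValuationRing R] [Field K]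
  [Algebra R K] [IsFractionRing R K] [CharZero K] [Field F₁] [Algebra R F₁] [Field F₂]
  [Algebra K F₂] [Algebra R F₂] [IsScalarTower R K F₂]

/-- `x ≡ 1 mod π W` is a unit of `W` -/
theorem i_unit_of_one {F : Type*} [Field F] (W : ValuationSubring F) {π x : F} (hπ0 : π ≠ 0)
    (hπ : W.valuation π < 1) (hx : (x - 1) / π ∈ W) : x ∈ W ∧ x⁻¹ ∈ W := by
  have h1 : W.valuation (x - 1) < 1 := a5_lt_of_div_mem W hπ0 hπ hx
  have h2 : W.valuation x = 1 := by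
    have : x = 1 + (x - 1) := by ring
    rw [this]
    exact W.valuation.map_one_add_of_lt h1
  refine ⟨(W.valuation_le_one_iff x).1 h2.le, (W.valuation_le_one_iff _).1 ?_⟩
  rw [map_inv₀, h2, inv_one]

/-- **the local factorisation** at every closed point of the chart `T` -/
theorem i_fac {π : R} (hπ : Irreducible π) {T : F₂} (hT : Transcendental K T)
    [FiniteDimensional (IntermediateField.adjoin K {T}) F₂]
    {ι : Type*} (W : ι → ValuationSubring F₂) (hPi : ∀ x, PiInt π T x ↔ ∀ i, x ∈ W i)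
    (hπW : ∀ i, (W i).valuation (algebraMap R F₂ π) < 1)
    (hreg : ∀ 𝔫 : Ideal (integralClosure (Algebra.adjoin R {T}) F₂), 𝔫.IsMaximal →
      algebraMap R (integralClosure (Algebra.adjoin R {T}) F₂) π ∈ 𝔫 →
      ∃ P : Ideal (integralClosure (Algebra.adjoin R {T}) F₂), P.IsPrime ∧ P ≤ 𝔫 ∧
        ∃ a t : integralClosure (Algebra.adjoin R {T}) F₂, a ≠ 0 ∧ C.CReg 𝔫 P a t)
    {m : ℕ} (hm : 0 < m) {g : F₂} (hgdiv : MDiv K m g)
    (hg1 : ∀ i, (g - 1) / algebraMap R F₂ π ∈ W i)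
    (𝔫 : Ideal (integralClosure (Algebra.adjoin R {T}) F₂)) (h𝔫 : 𝔫.IsMaximal)
    (hπ𝔫 : algebraMap R (integralClosure (Algebra.adjoin R {T}) F₂) π ∈ 𝔫) :
    ∃ H : F₂, H ≠ 0 ∧ ∃ s₁ s₂ : integralClosure (Algebra.adjoin R {T}) F₂, s₁ ∉ 𝔫 ∧ s₂ ∉ 𝔫 ∧
      (s₁ : F₂) * g = (s₂ : F₂) * H ^ m := by
  have hinjR : Function.Injective (algebraMap R F₂) := by
    rw [IsScalarTower.algebraMap_eq R K F₂]
    exact (algebraMap K F₂).injective.comp (IsFractionRing.injective R K)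
  have hπ0 : algebraMap R F₂ π ≠ 0 := by
    rw [Ne, map_eq_zero_iff _ hinjR]
    exact hπ.ne_zero
  obtain ⟨P, hPp, hP, a, t, ha, hreg'⟩ := hreg 𝔫 h𝔫 hπ𝔫
  exact a2_final_creg hπ hT hm hgdiv
    ((hPi g).2 fun i => (i_unit_of_one (W i) hπ0 (hπW i) (hg1 i)).1)
    ((hPi g⁻¹).2 fun i => (i_unit_of_one (W i) hπ0 (hπW i) (hg1 i)).2) 𝔫 P hP ha hreg'

/-- **block I for one chart** -/
theorem i_chart {π : R} (hπ : Irreducible π) {T₁ : F₁} {T : F₂} (hT : Transcendental K T)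
    [FiniteDimensional (IntermediateField.adjoin K {T}) F₂]
    (e₁ e₂ : F₁ →ₐ[R] F₂) (he₁ : e₁ T₁ = T) (he₂ : e₂ T₁ = T)
    {r : ℕ} (hr : r.Prime) {N₁ N₂ : F₂ →* F₁} {VF VV : ValuationSubring F₁}
    {WFV WVF WVV : ValuationSubring F₂}
    (hPi : ∀ x, PiInt π T x ↔ ∀ i, x ∈ iW WFV WVF WVV i)
    (D₁ : IHalf r (C.cE e₁ he₁) (e₁ : F₁ →+* F₂) N₁ VF VV WFV WVF WVV)
    (D₂ : IHalf r (C.cE e₂ he₂) (e₂ : F₁ →+* F₂) N₂ VF VV WVF WFV WVV)
    (hreg : ∀ 𝔫 : Ideal (integralClosure (Algebra.adjoin R {T}) F₂), 𝔫.IsMaximal →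
      algebraMap R (integralClosure (Algebra.adjoin R {T}) F₂) π ∈ 𝔫 →
      ∃ P : Ideal (integralClosure (Algebra.adjoin R {T}) F₂), P.IsPrime ∧ P ≤ 𝔫 ∧
        ∃ a t : integralClosure (Algebra.adjoin R {T}) F₂, a ≠ 0 ∧ C.CReg 𝔫 P a t)
    (hdvr : ∀ 𝔫 : Ideal (integralClosure (Algebra.adjoin R {T}) F₂), 𝔫.IsMaximal →
      algebraMap R (integralClosure (Algebra.adjoin R {T}) F₂) π ∈ 𝔫 → ∀ i,
      C.cCen (integralClosure (Algebra.adjoin R {T}) F₂) (iW WFV WVF WVV i) ≤ 𝔫 →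
      C.CDvr 𝔫 (C.cCen (integralClosure (Algebra.adjoin R {T}) F₂) (iW WFV WVF WVV i)))
    (hπW : ∀ i, (iW WFV WVF WVV i).valuation (algebraMap R F₂ π) < 1)
    (harch : ∀ i x, ∃ M : ℕ, algebraMap R F₂ π ^ M * x ∈ iW WFV WVF WVV i)
    (happ : ∀ s : Fin 3 → F₂, ∃ G : F₂, ∀ i, (G - s i) / algebraMap R F₂ π ∈ iW WFV WVF WVV i)
    (hrπ : ∀ i, (r : F₂) / algebraMap R F₂ π ∈ iW WFV WVF WVV i)
    (he : ∀ i (ν : F₂), (iW WFV WVF WVV i).valuation ν < 1 →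
      ν ^ r / algebraMap R F₂ π ∈ iW WFV WVF WVV i)
    {m : ℕ} (hmr : Nat.Coprime m r) {g : F₂} (hgdiv : MDiv K m g)
    (hg1 : ∀ i, (g - 1) / algebraMap R F₂ π ∈ iW WFV WVF WVV i)
    {a₁ a₂ : F₁} (ha₁ : N₁ g = a₁ ^ m) (ha₂ : N₂ g = a₂ ^ m) (ξF ξV ξF' ξV' : Rˣ)
    (hξF : ξF ^ m = 1) (hξV : ξV ^ m = 1) (hξF' : ξF' ^ m = 1) (hξV' : ξV' ^ m = 1)
    (haF : VF.valuation (a₁ - algebraMap R F₁ (ξF : R)) < 1)
    (haV : VV.valuation (a₁ - algebraMap R F₁ (ξV : R)) < 1)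
    (haF' : VF.valuation (a₂ - algebraMap R F₁ (ξF' : R)) < 1)
    (haV' : VV.valuation (a₂ - algebraMap R F₁ (ξV' : R)) < 1)
    {G0 : F₂} (hG : ∀ i, (G0 - algebraMap R F₂ ((iC r ξF ξV ξF' ξV' i : Rˣ) : R)) /
      algebraMap R F₂ π ∈ iW WFV WVF WVV i) :
    LocPowB2 π T (g ^ (r ^ 2 - 1) * G0 ^ m) m := by
  intro 𝔫 h𝔫 hπ𝔫
  have hp : Prime π := hπ.prime
  have hm : 0 < m := by
    rcases Nat.eq_zero_or_pos m with rfl | h
    · rw [Nat.coprime_zero_left] at hmr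
      exact absurd hmr hr.one_lt.ne'
    · exact h
  have hinjR : Function.Injective (algebraMap R F₂) := by
    rw [IsScalarTower.algebraMap_eq R K F₂]
    exact (algebraMap K F₂).injective.comp (IsFractionRing.injective R K)
  have hπ0 : algebraMap R F₂ π ≠ 0 := by
    rw [Ne, map_eq_zero_iff _ hinjR]
    exact hπ.ne_zero
  have hnoeth : IsNoetherianRing (integralClosure (Algebra.adjoin R {T}) F₂) :=
    a2_isNoetherianRing (K := K) hT
  have hsub : ∀ i, ∀ b : integralClosure (Algebra.adjoin R {T}) F₂,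
      algebraMap (integralClosure (Algebra.adjoin R {T}) F₂) F₂ b ∈ iW WFV WVF WVV i :=
    fun i b => (hPi _).1 (PiInt.of_isIntegral hp b.2) i
  obtain ⟨H, hH, s₁, s₂, hs₁, hs₂, hfac⟩ :=
    i_fac (K := K) hπ hT (iW WFV WVF WVV) hPi hπW hreg hm hgdiv hg1 𝔫 h𝔫 hπ𝔫
  have hcl : ∀ x : F₂, IsIntegral (integralClosure (Algebra.adjoin R {T}) F₂) x →
      ∃ b : integralClosure (Algebra.adjoin R {T}) F₂,
        algebraMap (integralClosure (Algebra.adjoin R {T}) F₂) F₂ b = x := by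
    intro x hx
    exact ⟨⟨x, isIntegral_trans x hx⟩, rfl⟩
  have hP := fun i => C.mem_cCen (hsub i)
  have h𝔫p : 𝔫.IsPrime := h𝔫.isPrime
  obtain ⟨G, s, hs, hW, c, hc⟩ := i_main_at (R := R)
    (B₁ := integralClosure (Algebra.adjoin R {T₁}) F₁) Subtype.val_injective D₁ D₂
    (C.cE_algebraMap e₁ he₁) (C.cE_algebraMap e₂ he₂) hr 𝔫 hcl
    (fun i => C.cCen (integralClosure (Algebra.adjoin R {T}) F₂) (iW WFV WVF WVV i)) hP
    (by
      intro i l hil hle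
      obtain ⟨b, hb1, hb2⟩ := i9_inc (iW WFV WVF WVV) hp hπ0 hPi hπW happ hil
      have := (hP i b).1 (hle ((hP l b).2 hb2))
      exact absurd this (by rw [show algebraMap _ F₂ b = (b : F₂) from rfl, hb1]; exact lt_irrefl _))
    (hdvr 𝔫 h𝔫 hπ𝔫)
    (by
      intro i x hx
      obtain ⟨a, b, hb, hab⟩ := i9_frac (iW WFV WVF WVV) hp hπ0 hPi hπW harch happ i hx
      refine ⟨a, b, fun hbP => ?_, ?_⟩
      · have := (hP i b).1 hbP
        rw [show algebraMap _ F₂ b = (b : F₂) from rfl, hb] at this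
        exact lt_irrefl _ this
      · rw [show algebraMap _ F₂ b = (b : F₂) from rfl, show algebraMap _ F₂ a = (a : F₂) from rfl,
          hab, sub_self, map_zero]
        exact zero_lt_one)
    hπ0 hπW hrπ he hmr hH hs₁ hs₂ hfac hg1 ha₁ ha₂ ξF ξV ξF' ξV' hξF hξV hξF' hξV'
    haF haV haF' haV' hG
  refine ⟨G, s, hs, (hPi _).2 hW, ?_⟩
  have : ((s : F₂) * (g ^ (r ^ 2 - 1) * G0 ^ m * G ^ m)) = (c : F₂) := hc.symm
  rw [this]
  exact c.2

end chart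

end Fermat.Agent.CARlib
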