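import Fermat.Agent.CAR.XTop
import Fermat.Agent.CAR.IGlob

/-!
# T-CAR, block I, top: `XI` (the hypothesis `hI` of `x5_carKAt`) from the chart statements
`IChartOK` (both charts) and the chart independent part `i_global`
-/

set_option autoImplicit false
set_option linter.unusedSectionVars false
set_option linter.unusedVariables false

open ModularCurve AlgebraicCurve IntermediateField

namespace Fermat.Agent.CARlib

open Fermat.Agent.ESlib Fermat.Agent.UNIlib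

noncomputable section

variable {R K : Type} [CommRing R] [IsDomain R] [IsDiscreteValuationRing R] [Field K]
  [Algebra R K] [IsFractionRing R K] [Algebra ℚ K] [CharZero K] [Algebra K ℂ] [IsScalarTower ℚ K ℂ]
  {N r : ℕ} [NeZero N] [NeZero r] [NeZero (N * r)] [NeZero (N * r * r)]
  [Algebra R (FK K (N * r))] [IsScalarTower R K (FK K (N * r))]
  [Algebra R (FK K (N * r * r))] [IsScalarTower R K (FK K (N * r * r))]

/-- **the statement of block I in ONE chart `T`** (output of `i_chart`) -/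
def IChartOK (hr : r.Prime) (hrN : ¬ r ∣ N) (π : R) (W : ValuationSubring (FK K (N * r * r)))
    (T : FK K (N * r * r)) (m : ℕ) : Prop :=
  ∀ g : FK K (N * r * r), g ≠ 0 → MDiv K m g → XOne hr hrN π W g →
    ∀ a₁ a₂ : FK K (N * r), normAlong (e1 K hr hrN) g = a₁ ^ m →
    normAlong (e2 K N r) g = a₂ ^ m →
    ∀ ξF ξV ξF' ξV' : Rˣ, ξF ^ m = 1 → ξV ^ m = 1 → ξF' ^ m = 1 → ξV' ^ m = 1 →
    (VF1 R K N r).valuation (a₁ - algebraMap R (FK K (N * r)) ξF) < 1 →
    (VV1 R hr hrN).valuation (a₁ - algebraMap R (FK K (N * r)) ξV) < 1 →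
    (VF1 R K N r).valuation (a₂ - algebraMap R (FK K (N * r)) ξF') < 1 →
    (VV1 R hr hrN).valuation (a₂ - algebraMap R (FK K (N * r)) ξV') < 1 →
    ∀ G0 : FK K (N * r * r),
    (∀ i, (G0 - algebraMap R (FK K (N * r * r)) (iC r ξF ξV ξF' ξV' i)) /
      algebraMap R (FK K (N * r * r)) π ∈ iW (WFV R hr hrN) (WVF R K N r) W i) →
    LocPowB2 π T (g ^ (r ^ 2 - 1) * G0 ^ m) m

theorem xOne_iff (hr : r.Prime) (hrN : ¬ r ∣ N) (π : R) (W : ValuationSubring (FK K (N * r * r)))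
    (x : FK K (N * r * r)) : XOne hr hrN π W x ↔
      ∀ i, (x - 1) / algebraMap R (FK K (N * r * r)) π ∈ iW (WFV R hr hrN) (WVF R K N r) W i := by
  constructor
  · rintro ⟨h1, h2, h3⟩ i
    fin_cases i
    · exact h2
    · exact h1
    · exact h3
  · intro h
    exact ⟨h 1, h 0, h 2⟩

/-- **(I-TOP)** -/
theorem i_top (hr : r.Prime) (hrN : ¬ r ∣ N) {m : ℕ} (hm : 0 < m) {π : R} (hπ0 : π ≠ 0)
    {ζ : R} (hζ : IsPrimitiveRoot ζ m) (t : FK K (N * r * r))
    (W : ValuationSubring (FK K (N * r * r)))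
    (n1F : ∀ H ∈ WFV R hr hrN, ∀ c ∈ VF1 R K N r,
      (WFV R hr hrN).valuation ((e1 K hr hrN : FK K (N * r) →+* FK K (N * r * r)) c - H ^ r) < 1 →
      (VF1 R K N r).valuation (normAlong (e1 K hr hrN) H - c) < 1)
    (n1V : ∀ H, H ∈ WVF R K N r → H ∈ W → ∀ a1 ∈ VV1 R hr hrN, ∀ a2 ∈ VV1 R hr hrN,
      (WVF R K N r).valuation ((e1 K hr hrN : FK K (N * r) →+* FK K (N * r * r)) a1 - H) < 1 →
      W.valuation ((e1 K hr hrN : FK K (N * r) →+* FK K (N * r * r)) a2 - H) < 1 →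
      (VV1 R hr hrN).valuation (normAlong (e1 K hr hrN) H - a1 * a2 ^ (r - 1)) < 1)
    (n1F' : ∀ H ∈ WVF R K N r, ∀ c ∈ VF1 R K N r,
      (WVF R K N r).valuation ((e2 K N r : FK K (N * r) →+* FK K (N * r * r)) c - H ^ r) < 1 →
      (VF1 R K N r).valuation (normAlong (e2 K N r) H - c) < 1)
    (n1V' : ∀ H, H ∈ WFV R hr hrN → H ∈ W → ∀ a1 ∈ VV1 R hr hrN, ∀ a2 ∈ VV1 R hr hrN,
      (WFV R hr hrN).valuation ((e2 K N r : FK K (N * r) →+* FK K (N * r * r)) a1 - H) < 1 →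
      W.valuation ((e2 K N r : FK K (N * r) →+* FK K (N * r * r)) a2 - H) < 1 →
      (VV1 R hr hrN).valuation (normAlong (e2 K N r) H - a1 * a2 ^ (r - 1)) < 1)
    (hRW : ∀ i (z : R), algebraMap R (FK K (N * r * r)) z ∈ iW (WFV R hr hrN) (WVF R K N r) W i)
    (hπ : ∀ i, (iW (WFV R hr hrN) (WVF R K N r) W i).valuation
      (algebraMap R (FK K (N * r * r)) π) < 1)
    (happ : ∀ s : Fin 3 → FK K (N * r * r), ∃ G : FK K (N * r * r),
      ∀ i, (G - s i) / algebraMap R (FK K (N * r * r)) π ∈ iW (WFV R hr hrN) (WVF R K N r) W i)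
    (hOK : IChartOK hr hrN π W t m) (hOK' : IChartOK hr hrN π W t⁻¹ m) :
    XI hr hrN π W t m := by
  intro g hg0 hg hone ⟨a₁, ha₁⟩ ⟨a₂, ha₂⟩
  have hinj₁ : Function.Injective (algebraMap R (FK K (N * r))) := by
    rw [IsScalarTower.algebraMap_eq R K (FK K (N * r))]
    exact (algebraMap K (FK K (N * r))).injective.comp (IsFractionRing.injective R K)
  have hinj₂ : Function.Injective (algebraMap R (FK K (N * r * r))) := by
    rw [IsScalarTower.algebraMap_eq R K (FK K (N * r * r))]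
    exact (algebraMap K (FK K (N * r * r))).injective.comp (IsFractionRing.injective R K)
  have hπ0' : algebraMap R (FK K (N * r * r)) π ≠ 0 := by
    rw [Ne, ← map_zero (algebraMap R (FK K (N * r * r)))]
    exact fun h => hπ0 (hinj₂ h)
  obtain ⟨ξF, ξV, ξF', ξV', h1, h2, h3, h4, k1, k2, k3, k4, G0, hG0, hG, hone'⟩ :=
    i_global (R := R) (r := r) (e1 K hr hrN : FK K (N * r) →+* FK K (N * r * r))
      (e2 K N r : FK K (N * r) →+* FK K (N * r * r)) (normAlong (e1 K hr hrN))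
      (normAlong (e2 K N r)) (VF1 R K N r) (VV1 R hr hrN) (WFV R hr hrN) (WVF R K N r) W
      n1F n1V n1F' n1V' hRW hπ0' hπ happ hm hζ (hζ.map_of_injective hinj₁)
      ((xOne_iff hr hrN π W g).1 hone) ha₁ ha₂
  exact ⟨G0, hG0, (xOne_iff hr hrN π W _).2 hone',
    hOK g hg0 hg hone a₁ a₂ ha₁ ha₂ ξF ξV ξF' ξV' h1 h2 h3 h4 k1 k2 k3 k4 G0 hG,
    hOK' g hg0 hg hone a₁ a₂ ha₁ ha₂ ξF ξV ξF' ξV' h1 h2 h3 h4 k1 k2 k3 k4 G0 hG⟩

end

end Fermat.Agent.CARlib
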