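import Fermat.Agent.ES.M.Final
import Fermat.Agent.UNI.Crit
import Fermat.Agent.CAR.XCritB2

/-!
# T-CAR, (CRITFK-B2): `xcb2_crit` on the modular function field `F_K(M)`, arbitrary chart `t`

`E = F(y) ⊆ K((q))` as in `ESlib.kil_level`, so that the constant field hypothesis of `crit` holds.
-/

set_option autoImplicit false
set_option linter.unusedSectionVars false
set_option linter.style.haveILetI false

open ModularCurve IntermediateField
open Fermat.Agent.S24lib Fermat.Agent.ESlib

namespace Fermat.Agent.CARlib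

open Fermat.Agent.UNIlib

section level

variable {R K : Type} [CommRing R] [IsDomain R] [IsDiscreteValuationRing R] [Field K] [Algebra R K]
  [IsFractionRing R K] [CharZero K] [Algebra ℚ K] [Algebra K ℂ] [IsScalarTower ℚ K ℂ]
  (M : ℕ) [NeZero M] [Algebra R (FK K M)] [IsScalarTower R K (FK K M)]

/-- **(CRITFK-B2)**: `f ≡ 1 mod π`, `LocPowB2` in both charts, `m ∣ ord_∞ f`, the leading coefficient of
`f` is an `m`-th power in `K`.  Then `f` is an `m`-th power in `F_K(M)`. -/
theorem xcb2_critFK {π : R} (hπ : Irreducible π) (t : FK K M) (ht : Transcendental K t)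
    [FiniteDimensional K⟮t⟯ (FK K M)]
    (m : ℕ) (hm : IsUnit (m : R)) (ζ : R) (hζ : IsPrimitiveRoot ζ m) (f : FK K M) (hf0 : f ≠ 0)
    (hf : PiInt π t ((f - 1) / algebraMap R (FK K M) π))
    (hloc : LocPowB2 π t f m) (hloc' : LocPowB2 π t⁻¹ f m)
    (hord : (m : ℤ) ∣ (f : LaurentSeries K).order)
    (c : K) (hc : c ^ m = (f : LaurentSeries K).leadingCoeff) :
    ∃ ψ : FK K M, ψ ^ m = f := by
  classical
  have hmK : (m : K) ≠ 0 := by
    have := hm.map (algebraMap R K)
    rw [map_natCast] at this
    exact this.ne_zero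
  obtain ⟨y, hy⟩ := laurent_exists_pow_eq_of_leadingCoeff hmK (f : LaurentSeries K)
    (by simpa using hf0) hord c hc
  let E : IntermediateField (FK K M) (LaurentSeries K) := IntermediateField.adjoin (FK K M) {y}
  letI : Algebra R E := ((algebraMap (FK K M) E).comp (algebraMap R (FK K M))).toAlgebra
  haveI : IsScalarTower R (FK K M) E := IsScalarTower.of_algebraMap_eq fun _ => rfl
  haveI : IsScalarTower R K E := IsScalarTower.of_algebraMap_eq fun x => by
    rw [IsScalarTower.algebraMap_apply R (FK K M) E, IsScalarTower.algebraMap_apply R K (FK K M),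
      ← IsScalarTower.algebraMap_apply K (FK K M) E]
  let yE : E := ⟨y, IntermediateField.mem_adjoin_simple_self _ y⟩
  have key := xcb2_crit (R := R) (K := K) (F := FK K M) (E := E) hπ
    t ht m hm ζ hζ f hf hloc hloc'
    yE (Subtype.ext hy) ?_ ?_
  · obtain ⟨x, hx⟩ := key
    refine ⟨x, ?_⟩
    have h3 : (x : LaurentSeries K) = y := congrArg Subtype.val hx
    apply Subtype.ext
    show (x : LaurentSeries K) ^ m = _
    rw [h3, hy]
  · exact adjoin_simple_gen_eq_top y
  · intro w hw
    have h5 : IsIntegral K (w : LaurentSeries K) := by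
      obtain ⟨p, hp, hp0⟩ := hw
      refine ⟨p, hp, ?_⟩
      have h6 := congrArg E.val hp0
      rw [Polynomial.eval₂_eq_sum_range, map_sum, map_zero] at h6
      rw [Polynomial.eval₂_eq_sum_range, ← h6]
      rfl
    obtain ⟨a, ha⟩ := exists_eq_C_of_isAlgebraic (w : LaurentSeries K) h5.isAlgebraic
    refine ⟨a, Subtype.ext ?_⟩
    rw [ha]
    show algebraMap K (LaurentSeries K) a = _
    rw [algebraMap_laurentSeries_eq_single]
    rfl

end level

end Fermat.Agent.CARlib
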