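import Fermat.Agent.CAR.XTopAbs
import Fermat.Agent.CAR.XIface
import Fermat.Agent.CAR.VDefs
import Fermat.Agent.CAR.V1Emb
import Fermat.Agent.CAR.XCritFKB2

/-!
# T-CAR, block X, row (X5): `CarKAt` from the outputs of the blocks V, N, I, X3, X4

`XI` = output of block I, `X4` = order / leading coefficient at the cusp `∞`.
-/

set_option autoImplicit false
set_option linter.unusedSectionVars false
set_option linter.unusedVariables false
set_option linter.style.haveILetI false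

open ModularCurve AlgebraicCurve IntermediateField

namespace Fermat.Agent.CARlib

open Fermat.Agent.ESlib Fermat.Agent.UNIlib Fermat.Agent.UNIlib.Normalise

noncomputable section

variable {R K : Type} [CommRing R] [IsDomain R] [IsDiscreteValuationRing R] [Field K]
  [Algebra R K] [IsFractionRing R K] [Algebra ℚ K] [CharZero K] [Algebra K ℂ] [IsScalarTower ℚ K ℂ]
  {N r : ℕ} [NeZero N] [NeZero r] [NeZero (N * r)] [NeZero (N * r * r)]
  [Algebra R (FK K (N * r))] [IsScalarTower R K (FK K (N * r))]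
  [Algebra R (FK K (N * r * r))] [IsScalarTower R K (FK K (N * r * r))]

/-- (X1) the norm along `e₁ = incl ∘ w_r` -/
theorem x5_norm_e1 (hr : r.Prime) (hrN : ¬ r ∣ N) (x : FK K (N * r * r)) :
    normAlong (e1 K hr hrN) x = wr K hr hrN (normAlong (heckeAlphaBar K (N * r) r) x) :=
  @Algebra.norm_eq_of_equiv_equiv (FK K (N * r)) (FK K (N * r * r)) (FK K (N * r))
    (FK K (N * r * r)) _ _ _ _ (algebraAlong (e1 K hr hrN))
    (algebraAlong (heckeAlphaBar K (N * r) r)) (wr K hr hrN).toRingEquiv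
    (RingEquiv.refl _) (RingHom.ext fun a => rfl) x

/-- `x ≡ 1 mod π` at the three vertical valuation rings of level 2 -/
def XOne (hr : r.Prime) (hrN : ¬ r ∣ N) (π : R) (W : ValuationSubring (FK K (N * r * r)))
    (x : FK K (N * r * r)) : Prop :=
  (x - 1) / algebraMap R (FK K (N * r * r)) π ∈ WVF R K N r ∧
  (x - 1) / algebraMap R (FK K (N * r * r)) π ∈ WFV R hr hrN ∧
  (x - 1) / algebraMap R (FK K (N * r * r)) π ∈ W

/-- **output of block I** (shape of helper15, report 830) -/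
def XI (hr : r.Prime) (hrN : ¬ r ∣ N) (π : R) (W : ValuationSubring (FK K (N * r * r)))
    (t : FK K (N * r * r)) (m : ℕ) : Prop :=
  ∀ g : FK K (N * r * r), g ≠ 0 → MDiv K m g → XOne hr hrN π W g →
    (∃ a, normAlong (e1 K hr hrN) g = a ^ m) → (∃ a, normAlong (e2 K N r) g = a ^ m) →
    ∃ G₀ : FK K (N * r * r), G₀ ≠ 0 ∧ XOne hr hrN π W (g ^ (r ^ 2 - 1) * G₀ ^ m) ∧
      LocPowB2 π t (g ^ (r ^ 2 - 1) * G₀ ^ m) m ∧ LocPowB2 π t⁻¹ (g ^ (r ^ 2 - 1) * G₀ ^ m) m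

/-- **output of row X4** -/
def X4 (hr : r.Prime) (hrN : ¬ r ∣ N) (π : R) (W : ValuationSubring (FK K (N * r * r)))
    (t : FK K (N * r * r)) (m : ℕ) : Prop :=
  ∀ f : FK K (N * r * r), f ≠ 0 → MDiv K m f → XOne hr hrN π W f →
    LocPowB2 π t f m → LocPowB2 π t⁻¹ f m →
    (m : ℤ) ∣ (f : LaurentSeries K).order ∧ ∃ c : K, c ^ m = (f : LaurentSeries K).leadingCoeff

/-- **(X5)** -/
theorem x5_carKAt (hr : r.Prime) (hrN : ¬ r ∣ N) {m : ℕ} (hm : 0 < m) (hrm : ¬ r ∣ m)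
    {π : R} (hπ : Irreducible π) (hmR : IsUnit ((m : ℕ) : R))
    (hpow : ∀ u : Rˣ, ∃ w : Rˣ, w ^ m = u) (ζ : R) (hζ : IsPrimitiveRoot ζ m)
    (t : FK K (N * r * r)) (ht : Transcendental K t) [FiniteDimensional K⟮t⟯ (FK K (N * r * r))]
    (W : ValuationSubring (FK K (N * r * r)))
    (hPi : ∀ x, PiInt π t x ↔ x ∈ WVF R K N r ∧ x ∈ WFV R hr hrN ∧ x ∈ W)
    (N₁ N₂ : FK K (N * r * r) →*₀ FK K (N * r))
    (hN₁ : ∀ x, N₁ x = normAlong (e1 K hr hrN) x) (hN₂ : ∀ x, N₂ x = normAlong (e2 K N r) x)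
    (dVF : IsDV (VF1 R K N r).toSubring (algebraMap R (FK K (N * r)) π))
    (dVV : IsDV (VV1 R hr hrN).toSubring (algebraMap R (FK K (N * r)) π))
    (dWVF : IsDV (WVF R K N r).toSubring (algebraMap R (FK K (N * r * r)) π))
    (dWFV : IsDV (WFV R hr hrN).toSubring (algebraMap R (FK K (N * r * r)) π))
    (dW : IsDV W.toSubring (vY K N r))
    (hy : nU W.toSubring (vY K N r ^ (r - 1) / algebraMap R (FK K (N * r * r)) π))
    (hRW : ∀ a : R, algebraMap R (FK K (N * r * r)) a ∈ WVF R K N r ∧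
      algebraMap R (FK K (N * r * r)) a ∈ WFV R hr hrN ∧ algebraMap R (FK K (N * r * r)) a ∈ W)
    (H₁ : NHalf r (e1 K hr hrN).toRingHom N₁ (VF1 R K N r).toSubring (VV1 R hr hrN).toSubring
      (algebraMap R (FK K (N * r)) π) (WFV R hr hrN).toSubring (WVF R K N r).toSubring W.toSubring
      (vY K N r))
    (H₂ : NHalf r (e2 K N r).toRingHom N₂ (VF1 R K N r).toSubring (VV1 R hr hrN).toSubring
      (algebraMap R (FK K (N * r)) π) (WVF R K N r).toSubring (WFV R hr hrN).toSubring W.toSubring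
      (vY K N r))
    (happ : ∀ x₁ x₂ x₃ : FK K (N * r * r), x₁ ≠ 0 → x₂ ≠ 0 → x₃ ≠ 0 → ∃ S : FK K (N * r * r),
      S ≠ 0 ∧ OneMod (WVF R K N r).toSubring (algebraMap R (FK K (N * r * r)) π) (S / x₁) ∧
      OneMod (WFV R hr hrN).toSubring (algebraMap R (FK K (N * r * r)) π) (S / x₂) ∧
      OneMod W.toSubring (vY K N r) (S / x₃))
    (hI : XI hr hrN π W t m) (hX4 : X4 hr hrN π W t m) :
    CarKAt N r m K (carExp r) := by
  intro g hg h₁ h₂
  have e₁π : algebraMap R (FK K (N * r)) π = algebraMap K (FK K (N * r)) (algebraMap R K π) :=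
    IsScalarTower.algebraMap_apply R K _ π
  have e₂π : algebraMap R (FK K (N * r * r)) π =
      algebraMap K (FK K (N * r * r)) (algebraMap R K π) :=
    IsScalarTower.algebraMap_apply R K _ π
  have hπK : algebraMap R K π ≠ 0 := by
    rw [Ne, IsFractionRing.to_map_eq_zero_iff]
    exact hπ.ne_zero
  have hm0 : ((m : ℕ) : FK K (N * r * r)) ≠ 0 := by
    exact_mod_cast hm.ne'
  have hminv : ∃ a : R, ((m : ℕ) : FK K (N * r * r))⁻¹ = algebraMap R (FK K (N * r * r)) a := by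
    obtain ⟨u, hu⟩ := hmR
    refine ⟨((u⁻¹ : Rˣ) : R), ?_⟩
    apply inv_eq_of_mul_eq_one_right
    rw [← map_natCast (algebraMap R (FK K (N * r * r))) m, ← hu, ← map_mul, Units.mul_inv, map_one]
  obtain ⟨mi, hmi⟩ := hminv
  rw [e₁π] at dVF dVV H₁ H₂
  rw [e₂π] at dWVF dWFV hy happ
  refine x5_abs (K := K) hr.two_le hm ((Nat.Prime.coprime_iff_not_dvd hr).2 hrm) hπK
    (fun c => (e1 K hr hrN).commutes c) (fun c => (e2 K N r).commutes c)
    dVF dVV dWVF dWFV dW hy hm0 (by rw [hmi]; exact (hRW mi).1) (by rw [hmi]; exact (hRW mi).2.1)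
    (by rw [hmi]; exact (hRW mi).2.2) H₁ H₂ happ (fun lam hlam => x2_const hπ hpow hlam) ?_ hg ?_ ?_
  · -- block I + X4 + crit
    intro g' hg' c1 c2 c3 ⟨a₁, ha₁⟩ ⟨a₂, ha₂⟩
    have hone : XOne hr hrN π W g' := by
      rw [XOne, e₂π]
      exact ⟨c1, c2, c3⟩
    obtain ⟨G₀, hG₀, hone', hl, hl'⟩ := hI g' hg'.1 hg' hone ⟨a₁, by rw [← hN₁, ha₁]⟩
      ⟨a₂, by rw [← hN₂, ha₂]⟩
    have hdiv : MDiv K m (g' ^ (r ^ 2 - 1) * G₀ ^ m) :=
      (hg'.pow' _).mul' (MDiv.pow_self' hG₀)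
    obtain ⟨hord, c, hc⟩ := hX4 _ hdiv.1 hdiv hone' hl hl'
    obtain ⟨ψ, hψ⟩ := xcb2_critFK (N * r * r) hπ t ht m hmR ζ hζ _ hdiv.1 ((hPi _).2 hone') hl hl'
      hord c hc
    exact ⟨G₀, ψ, hG₀, hψ.symm⟩
  · obtain ⟨lam, a, h⟩ := h₁
    refine ⟨lam, wr K hr hrN a, ?_⟩
    rw [hN₁, x5_norm_e1, h, map_mul, map_pow, AlgEquiv.commutes]
  · obtain ⟨lam, a, h⟩ := h₂
    exact ⟨lam, a, by rw [hN₂]; exact h⟩

end

end Fermat.Agent.CARlib
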