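import Fermat.Agent.CAR.ITop
import Fermat.Agent.CAR.XTop
import Fermat.Agent.CAR.X4Lc

/-!
# T-CAR, block I, the top, concrete form: `XI` and `X4` of `CAR/XTop.lean`

Inputs, for each of the two charts `t`, `t⁻¹` of `F₂ = FK K (N * r * r)`:
the two bundles `IHalf` (`x6_iHalf`), the output of block C (`C.c_all`), `PiInt ↔` the three `W`.
-/

set_option autoImplicit false
set_option linter.unusedSectionVars false
set_option linter.unusedVariables false
set_option linter.style.haveILetI false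

open ModularCurve AlgebraicCurve IntermediateField

namespace Fermat.Agent.CARlib

open Fermat.Agent.ESlib Fermat.Agent.UNIlib Fermat.Agent.UNIlib.Normalise

noncomputable section

variable {R K : Type} [CommRing R] [IsDomain R] [IsDiscreteValuationRing R] [Field K]
  [Algebra R K] [IsFractionRing R K] [Algebra ℚ K] [CharZero K] [Algebra K ℂ] [IsScalarTower ℚ K ℂ]
  {N r : ℕ} [NeZero N] [NeZero r] [NeZero (N * r)] [NeZero (N * r * r)]
  [Algebra R (FK K (N * r))] [IsScalarTower R K (FK K (N * r))]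
  [Algebra R (FK K (N * r * r))] [IsScalarTower R K (FK K (N * r * r))]

variable (R) in
/-- `e₁` as an `R`-algebra homomorphism -/
abbrev iE1 (hr : r.Prime) (hrN : ¬ r ∣ N) : FK K (N * r) →ₐ[R] FK K (N * r * r) :=
  (e1 K hr hrN).restrictScalars R

variable (R K N r) in
/-- `e₂` as an `R`-algebra homomorphism -/
abbrev iE2 : FK K (N * r) →ₐ[R] FK K (N * r * r) := (e2 K N r).restrictScalars R

/-- the bundle `IHalf` along `e₁` for the chart `(t₁, t)` -/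
def IH1 (hr : r.Prime) (hrN : ¬ r ∣ N) (W : ValuationSubring (FK K (N * r * r)))
    {t₁ : FK K (N * r)} {t : FK K (N * r * r)} (he₁ : iE1 R hr hrN t₁ = t) : Prop :=
  IHalf (B₁ := integralClosure (Algebra.adjoin R {t₁}) (FK K (N * r)))
    (B₂ := integralClosure (Algebra.adjoin R {t}) (FK K (N * r * r)))
    (F₁ := FK K (N * r)) (F₂ := FK K (N * r * r)) r
    (C.cE (R := R) (F₁ := FK K (N * r)) (F₂ := FK K (N * r * r)) (T₁ := t₁) (t2 := t)
      (iE1 R hr hrN) he₁)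
    ((iE1 R hr hrN : FK K (N * r) →ₐ[R] FK K (N * r * r)) : FK K (N * r) →+* FK K (N * r * r))
    (normAlong (e1 K hr hrN)) (VF1 R K N r) (VV1 R hr hrN) (WFV R hr hrN) (WVF R K N r) W

/-- the bundle `IHalf` along `e₂` for the chart `(t₁, t)` -/
def IH2 (hr : r.Prime) (hrN : ¬ r ∣ N) (W : ValuationSubring (FK K (N * r * r)))
    {t₁ : FK K (N * r)} {t : FK K (N * r * r)} (he₂ : iE2 R K N r t₁ = t) : Prop :=
  IHalf (B₁ := integralClosure (Algebra.adjoin R {t₁}) (FK K (N * r)))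
    (B₂ := integralClosure (Algebra.adjoin R {t}) (FK K (N * r * r)))
    (F₁ := FK K (N * r)) (F₂ := FK K (N * r * r)) r
    (C.cE (R := R) (F₁ := FK K (N * r)) (F₂ := FK K (N * r * r)) (T₁ := t₁) (t2 := t)
      (iE2 R K N r) he₂)
    ((iE2 R K N r : FK K (N * r) →ₐ[R] FK K (N * r * r)) : FK K (N * r) →+* FK K (N * r * r))
    (normAlong (e2 K N r)) (VF1 R K N r) (VV1 R hr hrN) (WVF R K N r) (WFV R hr hrN) W

/-- the output of block C (`C.c_all`) for the chart `T` -/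
def ICOut {F : Type*} [Field F] [Algebra R F] (π : R) (T : F) (WFV WVF WVV : ValuationSubring F) :
    Prop :=
  ∀ 𝔫 : Ideal (integralClosure (Algebra.adjoin R {T}) F), 𝔫.IsMaximal →
    algebraMap R (integralClosure (Algebra.adjoin R {T}) F) π ∈ 𝔫 →
    (∃ P : Ideal (integralClosure (Algebra.adjoin R {T}) F), P.IsPrime ∧
      (P = C.cCen _ WFV ∨ P = C.cCen _ WVF ∨ P = C.cCen _ WVV) ∧ P ≤ 𝔫 ∧
      ∃ a t : integralClosure (Algebra.adjoin R {T}) F, a ≠ 0 ∧ C.CReg 𝔫 P a t) ∧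
    (C.cCen _ WFV ≤ 𝔫 → C.CDvr 𝔫 (C.cCen _ WFV)) ∧
    (C.cCen _ WVF ≤ 𝔫 → C.CDvr 𝔫 (C.cCen _ WVF)) ∧
    (C.cCen _ WVV ≤ 𝔫 → C.CDvr 𝔫 (C.cCen _ WVV))

theorem ICOut.reg {F : Type*} [Field F] [Algebra R F] {π : R} {T : F}
    {WFV WVF WVV : ValuationSubring F} (h : ICOut π T WFV WVF WVV) :
    ∀ 𝔫 : Ideal (integralClosure (Algebra.adjoin R {T}) F), 𝔫.IsMaximal →
      algebraMap R (integralClosure (Algebra.adjoin R {T}) F) π ∈ 𝔫 →
      ∃ P : Ideal (integralClosure (Algebra.adjoin R {T}) F), P.IsPrime ∧ P ≤ 𝔫 ∧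
        ∃ a t : integralClosure (Algebra.adjoin R {T}) F, a ≠ 0 ∧ C.CReg 𝔫 P a t := by
  intro 𝔫 h𝔫 hπ
  obtain ⟨⟨P, hP, -, hle, hreg⟩, -⟩ := h 𝔫 h𝔫 hπ
  exact ⟨P, hP, hle, hreg⟩

theorem ICOut.dvr {F : Type*} [Field F] [Algebra R F] {π : R} {T : F}
    {WFV WVF WVV : ValuationSubring F} (h : ICOut π T WFV WVF WVV) :
    ∀ 𝔫 : Ideal (integralClosure (Algebra.adjoin R {T}) F), 𝔫.IsMaximal →
      algebraMap R (integralClosure (Algebra.adjoin R {T}) F) π ∈ 𝔫 → ∀ i,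
      C.cCen (integralClosure (Algebra.adjoin R {T}) F) (iW WFV WVF WVV i) ≤ 𝔫 →
      C.CDvr 𝔫 (C.cCen (integralClosure (Algebra.adjoin R {T}) F) (iW WFV WVF WVV i)) := by
  intro 𝔫 h𝔫 hπ i
  obtain ⟨-, h1, h2, h3⟩ := h 𝔫 h𝔫 hπ
  fin_cases i
  · exact h1
  · exact h2
  · exact h3

theorem i_forall_iW {F : Type*} [Field F] {WFV WVF WVV : ValuationSubring F}
    {p : ValuationSubring F → Prop} :
    (∀ i, p (iW WFV WVF WVV i)) ↔ p WVF ∧ p WFV ∧ p WVV := by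
  constructor
  · intro h
    exact ⟨h 1, h 0, h 2⟩
  · rintro ⟨h1, h0, h2⟩ i
    fin_cases i
    · exact h0
    · exact h1
    · exact h2

/-- **block I, output** (`XI` of `XTop.lean`).  `(t₁, t)` and `(s₁, s)`, `s = t⁻¹`, are the two
charts. -/
theorem i_XI (hr : r.Prime) (hrN : ¬ r ∣ N) {m : ℕ} (hrm : ¬ r ∣ m) {π : R} (hπ : Irreducible π)
    {ζ : R} (hζ : IsPrimitiveRoot ζ m) (W : ValuationSubring (FK K (N * r * r)))
    {t₁ s₁ : FK K (N * r)} {t s : FK K (N * r * r)} (hst : s = t⁻¹)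
    (he₁ : iE1 R hr hrN t₁ = t) (he₂ : iE2 R K N r t₁ = t)
    (he₁' : iE1 R hr hrN s₁ = s) (he₂' : iE2 R K N r s₁ = s)
    (ht : Transcendental K t) [FiniteDimensional K⟮t⟯ (FK K (N * r * r))]
    (hs : Transcendental K s) [FiniteDimensional K⟮s⟯ (FK K (N * r * r))]
    (hPi : ∀ x, PiInt π t x ↔ x ∈ WVF R K N r ∧ x ∈ WFV R hr hrN ∧ x ∈ W)
    (hPi' : ∀ x, PiInt π s x ↔ x ∈ WVF R K N r ∧ x ∈ WFV R hr hrN ∧ x ∈ W)
    (D₁ : IH1 hr hrN W he₁) (D₂ : IH2 hr hrN W he₂) (D₁' : IH1 hr hrN W he₁')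
    (D₂' : IH2 hr hrN W he₂')
    (hC : ICOut π t (WFV R hr hrN) (WVF R K N r) W)
    (hC' : ICOut π s (WFV R hr hrN) (WVF R K N r) W)
    (hπW : (WVF R K N r).valuation (algebraMap R (FK K (N * r * r)) π) < 1 ∧
      (WFV R hr hrN).valuation (algebraMap R (FK K (N * r * r)) π) < 1 ∧
      W.valuation (algebraMap R (FK K (N * r * r)) π) < 1)
    (harch : (∀ x, ∃ M : ℕ, algebraMap R (FK K (N * r * r)) π ^ M * x ∈ WVF R K N r) ∧
      (∀ x, ∃ M : ℕ, algebraMap R (FK K (N * r * r)) π ^ M * x ∈ WFV R hr hrN) ∧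
      (∀ x, ∃ M : ℕ, algebraMap R (FK K (N * r * r)) π ^ M * x ∈ W))
    (happ : ∀ s₁ s₂ s₃ : FK K (N * r * r), ∃ G : FK K (N * r * r),
      (G - s₁) / algebraMap R (FK K (N * r * r)) π ∈ WVF R K N r ∧
      (G - s₂) / algebraMap R (FK K (N * r * r)) π ∈ WFV R hr hrN ∧
      (G - s₃) / algebraMap R (FK K (N * r * r)) π ∈ W)
    (hrπ : (r : FK K (N * r * r)) / algebraMap R (FK K (N * r * r)) π ∈ WVF R K N r ∧
      (r : FK K (N * r * r)) / algebraMap R (FK K (N * r * r)) π ∈ WFV R hr hrN ∧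
      (r : FK K (N * r * r)) / algebraMap R (FK K (N * r * r)) π ∈ W)
    (hram : (∀ ν, (WVF R K N r).valuation ν < 1 →
        ν ^ r / algebraMap R (FK K (N * r * r)) π ∈ WVF R K N r) ∧
      (∀ ν, (WFV R hr hrN).valuation ν < 1 →
        ν ^ r / algebraMap R (FK K (N * r * r)) π ∈ WFV R hr hrN) ∧
      (∀ ν, W.valuation ν < 1 → ν ^ r / algebraMap R (FK K (N * r * r)) π ∈ W)) :
    XI hr hrN π W t m := by
  intro g hg0 hgdiv hone ⟨a₁, ha₁⟩ ⟨a₂, ha₂⟩
  have hm : 0 < m := by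
    rcases Nat.eq_zero_or_pos m with rfl | h
    · exact absurd (dvd_zero r) hrm
    · exact h
  have hmr : Nat.Coprime m r := ((Nat.Prime.coprime_iff_not_dvd hr).2 hrm).symm
  have hinj₁ : Function.Injective (algebraMap R (FK K (N * r))) := by
    rw [IsScalarTower.algebraMap_eq R K (FK K (N * r))]
    exact (algebraMap K (FK K (N * r))).injective.comp (IsFractionRing.injective R K)
  have hinj₂ : Function.Injective (algebraMap R (FK K (N * r * r))) := by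
    rw [IsScalarTower.algebraMap_eq R K (FK K (N * r * r))]
    exact (algebraMap K (FK K (N * r * r))).injective.comp (IsFractionRing.injective R K)
  have hϖ0 : (algebraMap R (FK K (N * r * r)) π) ≠ 0 := by
    rw [Ne, map_eq_zero_iff _ hinj₂]
    exact hπ.ne_zero
  -- families
  have hπW' : ∀ i, (iW (WFV R hr hrN) (WVF R K N r) W i).valuation (algebraMap R (FK K (N * r * r)) π) < 1 :=
    (i_forall_iW (p := fun V => V.valuation (algebraMap R (FK K (N * r * r)) π) < 1)).2 hπW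
  have hg1 : ∀ i, (g - 1) / (algebraMap R (FK K (N * r * r)) π) ∈ iW (WFV R hr hrN) (WVF R K N r) W i :=
    (i_forall_iW (p := fun V => (g - 1) / (algebraMap R (FK K (N * r * r)) π) ∈ V)).2 hone
  have hlt : ∀ i, (iW (WFV R hr hrN) (WVF R K N r) W i).valuation (g - 1) < 1 :=
    fun i => a5_lt_of_div_mem _ hϖ0 (hπW' i) (hg1 i)
  have hRW : ∀ (a : R) i, algebraMap R (FK K (N * r * r)) a ∈ iW (WFV R hr hrN) (WVF R K N r) W i := by
    intro a
    refine (i_forall_iW (p := fun V => algebraMap R (FK K (N * r * r)) a ∈ V)).2 ((hPi _).1 ?_)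
    exact PiInt.of_isIntegral hπ.prime
      (isIntegral_algebraMap (R := Algebra.adjoin R {t}) (x := algebraMap R _ a))
  -- (I2)
  obtain ⟨ξF, ξV, hξF, hξV, haF, haV⟩ := i_xi hm D₁.n1F D₁.n1V hζ hinj₁ (hlt 0) (hlt 1) (hlt 2) ha₁
  obtain ⟨ξF', ξV', hξF', hξV', haF', haV'⟩ :=
    i_xi hm D₂.n1F D₂.n1V hζ hinj₁ (hlt 1) (hlt 0) (hlt 2) ha₂
  -- `G₀`
  obtain ⟨G₀, hG1, hG0, hG2⟩ := happ (algebraMap R (FK K (N * r * r)) ((iC r ξF ξV ξF' ξV' 1 : Rˣ) : R))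
    (algebraMap R (FK K (N * r * r)) ((iC r ξF ξV ξF' ξV' 0 : Rˣ) : R))
    (algebraMap R (FK K (N * r * r)) ((iC r ξF ξV ξF' ξV' 2 : Rˣ) : R))
  have hG : ∀ i, (G₀ - algebraMap R (FK K (N * r * r)) ((iC r ξF ξV ξF' ξV' i : Rˣ) : R)) / (algebraMap R (FK K (N * r * r)) π) ∈
      iW (WFV R hr hrN) (WVF R K N r) W i := by
    intro i
    fin_cases i
    · exact hG0
    · exact hG1
    · exact hG2
  have hCm : ∀ i, algebraMap R (FK K (N * r * r)) ((iC r ξF ξV ξF' ξV' i : Rˣ) : R) ^ m = 1 := by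
    intro i
    rw [← map_pow, ← Units.val_pow_eq_pow_val, iC_pow hξF hξV hξF' hξV', Units.val_one, map_one]
  have hone' : ∀ i, (g ^ (r ^ 2 - 1) * G₀ ^ m - 1) / (algebraMap R (FK K (N * r * r)) π) ∈ iW (WFV R hr hrN) (WVF R K N r) W i :=
    fun i => i7_one_mod _ hϖ0 (i6_mem_of_lt _ (hπW' i)) (hg1 i) (hRW _ i) (hG i) (hCm i) _
  have hG₀ : G₀ ≠ 0 := by
    rintro rfl
    have h1 := hone' 0
    rw [zero_pow hm.ne', mul_zero, zero_sub] at h1
    have h2 := a5_lt_of_div_mem _ hϖ0 (hπW' 0) h1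
    rw [Valuation.map_neg, map_one] at h2
    exact lt_irrefl _ h2
  have happ' : ∀ σ : Fin 3 → (FK K (N * r * r)), ∃ G : (FK K (N * r * r)), ∀ i, (G - σ i) / (algebraMap R (FK K (N * r * r)) π) ∈
      iW (WFV R hr hrN) (WVF R K N r) W i := by
    intro σ
    obtain ⟨G, h1, h0, h2⟩ := happ (σ 1) (σ 0) (σ 2)
    refine ⟨G, fun i => ?_⟩
    fin_cases i
    · exact h0
    · exact h1
    · exact h2
  have harch' : ∀ i x, ∃ M : ℕ, (algebraMap R (FK K (N * r * r)) π) ^ M * x ∈ iW (WFV R hr hrN) (WVF R K N r) W i :=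
    (i_forall_iW (p := fun V => ∀ x, ∃ M : ℕ, (algebraMap R (FK K (N * r * r)) π) ^ M * x ∈ V)).2 harch
  have hrπ' : ∀ i, (r : (FK K (N * r * r))) / (algebraMap R (FK K (N * r * r)) π) ∈ iW (WFV R hr hrN) (WVF R K N r) W i :=
    (i_forall_iW (p := fun V => (r : (FK K (N * r * r))) / (algebraMap R (FK K (N * r * r)) π) ∈ V)).2 hrπ
  have hram' : ∀ i (ν : (FK K (N * r * r))), (iW (WFV R hr hrN) (WVF R K N r) W i).valuation ν < 1 →
      ν ^ r / (algebraMap R (FK K (N * r * r)) π) ∈ iW (WFV R hr hrN) (WVF R K N r) W i :=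
    (i_forall_iW (p := fun V => ∀ ν : (FK K (N * r * r)), V.valuation ν < 1 → ν ^ r / (algebraMap R (FK K (N * r * r)) π) ∈ V)).2 hram
  refine ⟨G₀, hG₀, (i_forall_iW (p := fun V => (g ^ (r ^ 2 - 1) * G₀ ^ m - 1) / (algebraMap R (FK K (N * r * r)) π) ∈ V)).1 hone',
    ?_, ?_⟩
  · exact i_chart (K := K) hπ ht (iE1 R hr hrN) (iE2 R K N r) he₁ he₂ hr
      (fun x => (hPi x).trans (i_forall_iW (p := fun V => x ∈ V)).symm) D₁ D₂ hC.reg hC.dvr
      hπW' harch' happ' hrπ' hram' hmr hgdiv hg1 ha₁ ha₂ ξF ξV ξF' ξV' hξF hξV hξF' hξV'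
      haF haV haF' haV' hG
  · rw [← hst]
    exact i_chart (K := K) hπ hs (iE1 R hr hrN) (iE2 R K N r) he₁' he₂' hr
      (fun x => (hPi' x).trans (i_forall_iW (p := fun V => x ∈ V)).symm) D₁' D₂' hC'.reg hC'.dvr
      hπW' harch' happ' hrπ' hram' hmr hgdiv hg1 ha₁ ha₂ ξF ξV ξF' ξV' hξF hξV hξF' hξV'
      haF haV haF' haV' hG

/-- **row X4** (`X4` of `XTop.lean`) from `x4_lc` and the local factorisations in the chart `s`
(`s = t` or `s = t⁻¹`, the one which vanishes at `q = 0`). -/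
theorem i_X4 (hr : r.Prime) (hrN : ¬ r ∣ N) {m : ℕ} (hm : 0 < m) {π : R} (hπ : Irreducible π)
    (hpow : ∀ u : Rˣ, ∃ w : Rˣ, w ^ m = u) (W : ValuationSubring (FK K (N * r * r)))
    (t : FK K (N * r * r)) {s : FK K (N * r * r)}
    (hs : Transcendental K s) [FiniteDimensional K⟮s⟯ (FK K (N * r * r))]
    {S' : PowerSeries K} (hS : (s : LaurentSeries K) = (S' : LaurentSeries K))
    (hS0 : PowerSeries.constantCoeff S' = 0)
    (hPi' : ∀ x, PiInt π s x ↔ x ∈ WVF R K N r ∧ x ∈ WFV R hr hrN ∧ x ∈ W)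
    (hC' : ICOut π s (WFV R hr hrN) (WVF R K N r) W)
    (hπW : (WVF R K N r).valuation (algebraMap R (FK K (N * r * r)) π) < 1 ∧
      (WFV R hr hrN).valuation (algebraMap R (FK K (N * r * r)) π) < 1 ∧
      W.valuation (algebraMap R (FK K (N * r * r)) π) < 1) :
    X4 hr hrN π W t m := by
  intro f hf0 hfdiv hone _ _
  refine x4_lc hπ hS hS0 hpow hf0 fun 𝔫 h𝔫 hπ𝔫 => ?_
  exact i_fac (K := K) hπ hs (iW (WFV R hr hrN) (WVF R K N r) W)
    (fun x => (hPi' x).trans (i_forall_iW (p := fun V => x ∈ V)).symm)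
    ((i_forall_iW (p := fun V => V.valuation (algebraMap R (FK K (N * r * r)) π) < 1)).2 hπW)
    hC'.reg hm hfdiv
    ((i_forall_iW (p := fun V => (f - 1) / algebraMap R (FK K (N * r * r)) π ∈ V)).2 hone)
    𝔫 h𝔫 hπ𝔫

end

end Fermat.Agent.CARlib
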