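import Fermat.Agent.CAR.V1Deg
import Fermat.Agent.CAR.VDefs2

/-!
# T-CAR, block V: the statements (V1) of `VIface`, from `V1Emb`, `V1Deg`
-/

set_option autoImplicit false
set_option linter.unusedSectionVars false
set_option linter.unusedVariables false

open ModularCurve Polynomial

namespace Fermat.Agent.CARlib

open Fermat.Agent.ESlib Fermat.Agent.UNIlib
open Fermat.Agent.S24lib (Dv)

noncomputable section

variable {R K : Type} [CommRing R] [IsDomain R] [IsDiscreteValuationRing R] [Field K]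
  [Algebra R K] [IsFractionRing R K] [Algebra ℚ K] [CharZero K] [Algebra K ℂ] [IsScalarTower ℚ K ℂ]
  {N r : ℕ} [NeZero N] [NeZero r] [NeZero (N * r)] [NeZero (N * r * r)]

theorem vJ2_eq_jrr : vJ2 K N r = jrr K N r := by
  show Jgen K (N * r * r) _ = Jgen K (N * r * r) _
  congr 1
  exact Subtype.ext (show 1 * r * r = r * r by rw [one_mul])

theorem vJ0_eq_J1 : vJ0 K N r = J1 K (N * r * r) := rfl

/-- **(V1)** `sw ∘ incl = B_r ∘ w_r` -/
theorem v1_w2_incl (hr : r.Prime) (hrN : ¬ r ∣ N) (x : FK K (N * r)) :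
    w2 K hr hrN (i12 K N r x) = heckeBetaBar K (N * r) r (wr K hr hrN x) :=
  w2_inclF K hr hrN x

/-- **(V1)** `sw ∘ B_r = incl ∘ w_r` -/
theorem v1_w2_beta (hr : r.Prime) (hrN : ¬ r ∣ N) (x : FK K (N * r)) :
    w2 K hr hrN (heckeBetaBar K (N * r) r x) = i12 K N r (wr K hr hrN x) :=
  w2_e2 K hr hrN x

theorem v1_w2_vJ2 (hr : r.Prime) (hrN : ¬ r ∣ N) : w2 K hr hrN (vJ2 K N r) = vJ0 K N r := by
  rw [vJ2_eq_jrr, w2_jrr, vJ0_eq_J1]

theorem v1_w2_vJ0 (hr : r.Prime) (hrN : ¬ r ∣ N) : w2 K hr hrN (vJ0 K N r) = vJ2 K N r := by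
  rw [vJ2_eq_jrr, vJ0_eq_J1, w2_J1]

theorem v1_w2_vY (hr : r.Prime) (hrN : ¬ r ∣ N) : w2 K hr hrN (vY K N r) = - vY K N r := by
  rw [map_sub, v1_w2_vJ2, v1_w2_vJ0, neg_sub]

theorem v1_eval₂_eq_sum (c : (FK K (N * r))[X]) (hc : c.natDegree < r) (y : FK K (N * r * r)) :
    c.eval₂ (i12 K N r).toRingHom y = ∑ i : Fin r, i12 K N r (c.coeff i) * y ^ (i : ℕ) := by
  rw [eval₂_eq_sum_range' _ hc, Finset.sum_range]
  rfl

variable [CharP (IsLocalRing.ResidueField R) r]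

variable (R) in
/-- **(V1)** `1, Y, …, Y^(r-1)` (`Y = j(q^(r^2))`) span `F₂` over `i12 F₁` -/
theorem v1_span (hr : r.Prime) (hrN : ¬ r ∣ N) (hN : (N : IsLocalRing.ResidueField R) ≠ 0)
    (x : FK K (N * r * r)) :
    ∃ c : Fin r → FK K (N * r), x = ∑ i, i12 K N r (c i) * vJ2 K N r ^ (i : ℕ) := by
  obtain ⟨c, hc, hx⟩ := v1_span_e1 (K := K) R hr hrN hN x
  refine ⟨fun i => wr K hr hrN (c.coeff i), ?_⟩
  rw [← hx, eval₂_eq_sum_range' _ hc, Finset.sum_range, vJ2_eq_jrr]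
  rfl

omit [CharP (IsLocalRing.ResidueField R) r] in
/-- **(V1)** … and are independent -/
theorem v1_indep (hr : r.Prime) (hrN : ¬ r ∣ N) (c : Fin r → FK K (N * r))
    (h : ∑ i, i12 K N r (c i) * vJ2 K N r ^ (i : ℕ) = 0) : ∀ i, c i = 0 := by
  classical
  set P : (FK K (N * r))[X] := ∑ i : Fin r, C (wr K hr hrN (c i)) * X ^ (i : ℕ) with hP
  have hdeg : P.degree < (r : WithBot ℕ) := degree_sum_fin_lt (fun i : Fin r => wr K hr hrN (c i))
  have hnd : P.natDegree < r := by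
    by_cases hP0 : P = 0
    · rw [hP0, natDegree_zero]; exact hr.pos
    · exact (natDegree_lt_iff_degree_lt hP0).2 hdeg
  have hev : P.eval₂ (e1R K hr hrN) (jrr K N r) = 0 := by
    rw [hP, eval₂_finsetSum, ← h, vJ2_eq_jrr]
    refine Finset.sum_congr rfl fun i _ => ?_
    rw [eval₂_mul, eval₂_C, eval₂_pow, eval₂_X, e1R_apply, e1_wr]
  have h0 := v1_ind_e1 hr hrN P hnd hev
  intro i
  have h1 : P.coeff i = wr K hr hrN (c i) := by
    rw [hP, finsetSum_coeff]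
    simp only [coeff_C_mul_X_pow]
    rw [Finset.sum_eq_single i]
    · simp
    · intro b _ hb
      rw [if_neg (fun hh => hb (Fin.ext hh.symm))]
    · intro hh; exact absurd (Finset.mem_univ i) hh
  rw [h0, coeff_zero] at h1
  exact (map_eq_zero_iff _ (wr K hr hrN).injective).1 h1.symm

end

end Fermat.Agent.CARlib
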