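import Fermat.Agent.CAR.NBasic
import Fermat.Agent.CAR.V1Fin
import Fermat.Agent.CAR.V3Diff
import Fermat.Agent.CAR.C3Alg

/-!
# T-CAR, block N / V: the Kronecker inputs of `n_half` along `i12`

`G(X) = Φ(X, j_r) / (X - j)`: monic of degree `r` over `F₁`, `G(j(q^(r^2))) = 0`,
`G ≡ (X - j_r^r) (X - j)^(r-1)` modulo `r V_F`, `G(j) = r * unit`.
-/

set_option autoImplicit false
set_option linter.unusedSectionVars false
set_option linter.unusedVariables false

open ModularCurve Polynomial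
open Fermat.Agent.S28lib (ev2 evY jA jAd)

namespace Fermat.Agent.CARlib

open Fermat.Agent.UNIlib Fermat.Agent.ESlib

noncomputable section

section abstract

variable {F : Type*} [Field F]

/-- divided differences of `P(·, y)` stay in a subring -/
theorem nvk_sub_dvd (A : Subring F) (P : ℤ[X][X]) {x x' y : F} (hx : x ∈ A) (hx' : x' ∈ A)
    (hy : y ∈ A) : ∃ σ ∈ A, evZ P x y - evZ P x' y = (x - x') * σ := by
  set Q : (A : Type _)[X] := P.map ((aeval (⟨y, hy⟩ : A) : ℤ[X] →ₐ[ℤ] A) : ℤ[X] →+* A) with hQ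
  have key : ∀ z : A, A.subtype (Q.eval z) = evZ P (z : F) y := by
    intro z
    unfold evZ
    rw [hQ, eval_map, hom_eval₂]
    congr 1
    apply Polynomial.ringHom_ext'
    · exact RingHom.ext_int _ _
    · simp
  obtain ⟨σ, hσ⟩ := Polynomial.sub_dvd_eval_sub (⟨x, hx⟩ : A) (⟨x', hx'⟩ : A) Q
  refine ⟨σ, σ.2, ?_⟩
  have := congrArg A.subtype hσ
  rw [map_sub, key, key, map_mul, map_sub] at this
  exact this

/-- the Kronecker factorisation of `G = Φ(X, b) / (X - c)`, evaluated on a subring -/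
theorem nvk_fac (A : Subring F) {r : ℕ} (hr : r.Prime) (hr0 : (r : F) ≠ 0) {Φ Ψ : ℤ[X][X]}
    (hΦ : Φ = c3K ℤ r + C (C (r : ℤ)) * Ψ) {b c s : F} (hb : b ∈ A) (hc : c ∈ A) (hs : s ∈ A)
    (hbc : c ^ r - b = r * s) (G : F[X]) (hG : ∀ t, (t - c) * G.eval t = evZ Φ t b)
    (hGc : G.eval c / r ∈ A) {t : F} (ht : t ∈ A) :
    (G.eval t - (t - b ^ r) * (t - c) ^ (r - 1)) / r ∈ A := by
  by_cases htc : t = c
  · subst htc
    rw [sub_self, zero_pow (by have := hr.two_le; omega), mul_zero, sub_zero]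
    exact hGc
  have htc' : t - c ≠ 0 := sub_ne_zero.2 htc
  obtain ⟨σ, hσ, hσe⟩ := nvk_sub_dvd A Ψ ht hc hb
  obtain ⟨ρ, hρ⟩ := exists_add_pow_prime_eq hr (⟨t - c, sub_mem ht hc⟩ : A) (⟨c, hc⟩ : A)
  have hρ' : t ^ r = (t - c) ^ r + c ^ r + r * (t - c) * c * (ρ : F) := by
    have := congrArg A.subtype hρ
    simp only [map_add, map_mul, map_pow, map_natCast, Subring.subtype_apply] at this
    rw [sub_add_cancel] at this
    exact this
  have e1 : ∀ z, evZ Φ z b = (z ^ r - b) * (z - b ^ r) + r * evZ Ψ z b := by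
    intro z
    rw [hΦ, evZ_add, evZ_CC_mul, evZ_c3K, Int.cast_natCast]
  have h0 : evZ Φ c b = 0 := by rw [← hG c, sub_self, zero_mul]
  have hpow : (t - c) ^ r = (t - c) * (t - c) ^ (r - 1) := by
    rw [← pow_succ']
    congr 1
    have := hr.two_le
    omega
  have hmain : G.eval t - (t - b ^ r) * (t - c) ^ (r - 1) =
      r * (c * ρ * (t - b ^ r) + s + σ) := by
    apply mul_left_cancel₀ htc'
    have h1 := hG t
    rw [e1 t] at h1
    have h2 := e1 c
    rw [h0] at h2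
    have hb' : b = c ^ r - r * s := by rw [← hbc]; ring
    linear_combination h1 - h2 + (t - b ^ r) * hρ' + (t - b ^ r) * hpow + (r : F) * hσe
      + (t - c) * hbc
  rw [hmain, mul_div_cancel_left₀ _ hr0]
  exact add_mem (add_mem (mul_mem (mul_mem hc ρ.2) (sub_mem ht (pow_mem hb r))) hs) hσ

end abstract

section concrete

variable {R K : Type} [CommRing R] [IsDomain R] [IsDiscreteValuationRing R] [Field K]
  [Algebra R K] [IsFractionRing R K] [Algebra ℚ K] [CharZero K] [Algebra K ℂ] [IsScalarTower ℚ K ℂ]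
  {N r : ℕ} [NeZero N] [NeZero r] [NeZero (N * r)] [NeZero (N * r * r)]
  [CharP (IsLocalRing.ResidueField R) r]

/-- `x = coeffMap y`, `y ≡ 0` modulo `r`, `r` a uniformiser: `x / r` is Gauss-integral -/
theorem nvk_div_mem {M : ℕ} [NeZero M] (hπ : Irreducible ((r : ℕ) : R)) {x : FK K M}
    (y : LaurentSeries R) (h : (x : LaurentSeries K) = coeffMap (algebraMap R K) y)
    (hy : coeffMap (IsLocalRing.residue R) y = 0) : x / (r : FK K M) ∈ gaussSub R K M := by
  obtain ⟨y', rfl⟩ := exists_eq_C_mul_of_coeffMap_eq_zero (redSetup_of_dvr (K := K) hπ) hy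
  have hr0 : (r : K) ≠ 0 := Nat.cast_ne_zero.2 (NeZero.ne r)
  refine mem_gaussSub_of_eq_coeffMap y' ?_
  have h2 : ((x / (r : FK K M) : FK K M) : LaurentSeries K) =
      (x : LaurentSeries K) / ((r : FK K M) : LaurentSeries K) := rfl
  have h3 : (((r : FK K M) : FK K M) : LaurentSeries K) = HahnSeries.C (r : K) := by
    have : (((r : FK K M) : FK K M) : LaurentSeries K) =
      algebraMap (FK K M) (LaurentSeries K) (r : FK K M) := rfl
    rw [this, map_natCast, map_natCast]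
  have h4 : (HahnSeries.C (r : K) : LaurentSeries K) ≠ 0 := by
    rw [Ne, map_eq_zero_iff _ HahnSeries.C_injective]
    exact hr0
  rw [h2, h, h3, map_mul, S28lib.coeffMap_C, map_natCast, mul_div_cancel_left₀ _ h4]

/-- `j^r ≡ j_r` modulo `r V_F` -/
theorem nvk_J1_pow (hr : r.Prime) (hπ : Irreducible ((r : ℕ) : R)) :
    (J1 K (N * r) ^ r - jr K N r) / (r : FK K (N * r)) ∈ gaussSub R K (N * r) := by
  haveI : Fact r.Prime := ⟨hr⟩
  refine nvk_div_mem hπ (jA R ^ r - jAd R r) ?_ ?_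
  · rw [map_sub, map_pow, S28lib.coeffMap_jA, S28lib.coeffMap_jAd]
    show (J1 K (N * r) : LaurentSeries K) ^ r - (jr K N r : LaurentSeries K) = _
    rw [coe_J1_jA, coe_Jgen_jAd]
  · rw [map_sub, map_pow, S28lib.coeffMap_jA, S28lib.coeffMap_jAd, jA_pow_char, sub_self]

/-- `j(q^(r^2)) ≡ j_r^r` modulo `r W_VF` -/
theorem nv_theta_u (hr : r.Prime) (hπ : Irreducible ((r : ℕ) : R)) :
    (vJ2 K N r - i12 K N r (jr K N r ^ r)) / (r : FK K (N * r * r)) ∈ WVF R K N r := by
  haveI : Fact r.Prime := ⟨hr⟩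
  haveI : NeZero (r * r) := ⟨mul_ne_zero (NeZero.ne r) (NeZero.ne r)⟩
  refine nvk_div_mem hπ (jAd R (1 * r * r) - jAd R r ^ r) ?_ ?_
  · have e1 : coeffMap (algebraMap R K) (jAd R (1 * r * r) - jAd R r ^ r) =
        jAd K (1 * r * r) - jAd K r ^ r := by
      rw [map_sub, map_pow, S28lib.coeffMap_jAd, S28lib.coeffMap_jAd]
    rw [e1]
    show (vJ2 K N r : LaurentSeries K) - ((i12 K N r (jr K N r ^ r) : FK K (N * r * r)) :
      LaurentSeries K) = _
    rw [coe_Jgen_jAd, coe_inclF]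
    show _ - (jr K N r : LaurentSeries K) ^ r = _
    rw [coe_Jgen_jAd]
  · have e1 : coeffMap (IsLocalRing.residue R) (jAd R (1 * r * r) - jAd R r ^ r) =
        jAd (IsLocalRing.ResidueField R) (1 * r * r) - jAd (IsLocalRing.ResidueField R) r ^ r := by
      rw [map_sub, map_pow, S28lib.coeffMap_jAd, S28lib.coeffMap_jAd]
    rw [e1, sub_eq_zero]
    show _ = (qExpand _ r (jA _)) ^ r
    rw [← map_pow, jA_pow_char]
    show _ = qExpand _ r (qExpand _ r (jA _))
    rw [qExpand_qExpand]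
    exact qExpand_congr (by rw [one_mul]) _

/-- `j_r^r - j` is a unit of `V_F` -/
theorem nv_hac (hr : r.Prime) :
    jr K N r ^ r - J1 K (N * r) ∈ gaussSub R K (N * r) ∧
      (jr K N r ^ r - J1 K (N * r))⁻¹ ∈ gaussSub R K (N * r) := by
  have h : ((jr K N r ^ r - J1 K (N * r) : FK K (N * r)) : LaurentSeries K) =
      coeffMap (algebraMap R K) (jAd R r ^ r - jA R) := by
    rw [map_sub, map_pow, S28lib.coeffMap_jA, S28lib.coeffMap_jAd]
    show (jr K N r : LaurentSeries K) ^ r - (J1 K (N * r) : LaurentSeries K) = _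
    rw [coe_J1_jA, coe_Jgen_jAd]
  refine ⟨mem_gaussSub_of_eq_coeffMap _ h, inv_mem_gaussSub_of_eq_coeffMap _ h ?_⟩
  rw [map_sub, map_pow, S28lib.coeffMap_jA, S28lib.coeffMap_jAd, sub_ne_zero]
  intro h0
  have h1 := congrArg HahnSeries.order h0
  rw [HahnSeries.order_pow, order_jAd, S28lib.order_jA] at h1
  have h2 := hr.two_le
  have h3 : ((r : ℤ)) * r = 1 := by
    simp only [nsmul_eq_mul] at h1
    linarith
  nlinarith [(by exact_mod_cast h2 : (2 : ℤ) ≤ r)]

/-- `Q(t, j_r)` as the value of the twisted polynomial -/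
theorem nvk_eval_PhiJ (hr : r.Prime) (hrN : ¬ r ∣ N) (Q : ℤ[X][X]) (t : FK K (N * r)) :
    (((v3PhiJ K N Q).map (iF K N r)).map
      ((wr K hr hrN).toAlgHom.toRingHom)).eval t = evZ Q t (jr K N r) := by
  unfold v3PhiJ evZ
  rw [Polynomial.map_map, Polynomial.map_map, eval_map]
  congr 1
  apply Polynomial.ringHom_ext'
  · exact RingHom.ext_int _ _
  · simp only [RingHom.comp_apply, RingHom.coe_coe, aeval_X]
    rw [v3_iF_J1]
    exact v3_wr_J1 hr hrN

/-- **the Kronecker package**: `G = Φ(X, j_r) / (X - j)` -/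
theorem nv_kron (hr : r.Prime) (hrN : ¬ r ∣ N) (hN : (N : IsLocalRing.ResidueField R) ≠ 0)
    (hπ : Irreducible ((r : ℕ) : R)) :
    ∃ G : (FK K (N * r))[X], G.Monic ∧ G.natDegree = r ∧
      G.eval₂ (i12 K N r).toRingHom (vJ2 K N r) = 0 ∧
      (∀ t ∈ gaussSub R K (N * r),
        (G.eval t - (t - jr K N r ^ r) * (t - J1 K (N * r)) ^ (r - 1)) / (r : FK K (N * r)) ∈
          gaussSub R K (N * r)) ∧
      G.eval (J1 K (N * r)) / (r : FK K (N * r)) ∈ gaussSub R K (N * r) ∧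
      (r : FK K (N * r)) / G.eval (J1 K (N * r)) ∈ gaussSub R K (N * r) := by
  obtain ⟨Φ, hΦ, -⟩ := v3_exists_Phi hr
  obtain ⟨Ψ, hΨ⟩ := c3_kronecker hr hΦ.monic hΦ.natDegree hΦ.ev₁ hΦ.ev₂
  obtain ⟨g, G', hg1, hg2, hg3, hG1, hG2, hmul, hroot1, -⟩ :=
    v1_exists_G_jr (K := K) R hr hrN hN
  have hr0 : (r : FK K (N * r)) ≠ 0 := Nat.cast_ne_zero.2 hr.ne_zero
  have hg : g = v3PhiJ K N Φ := by
    have hm : (v3PhiJ K N Φ).Monic := hΦ.monic.map _
    have hd : (v3PhiJ K N Φ).natDegree = r + 1 := by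
      rw [v3PhiJ, hΦ.monic.natDegree_map, hΦ.natDegree]
    have h0 : g - v3PhiJ K N Φ = 0 := by
      apply eq_zero_of_eval₂_jr R hr hrN
      · have h1 : (g - v3PhiJ K N Φ).degree < g.degree := Polynomial.degree_sub_lt
          (by rw [degree_eq_natDegree hg1.ne_zero, degree_eq_natDegree hm.ne_zero, hg2, hd])
          hg1.ne_zero (by rw [hg1.leadingCoeff, hm.leadingCoeff])
        rw [degree_eq_natDegree hg1.ne_zero, hg2] at h1
        by_cases hz : g - v3PhiJ K N Φ = 0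
        · rw [hz, natDegree_zero]; exact Nat.zero_le _
        · have := (Polynomial.natDegree_lt_iff_degree_lt hz).2 h1
          omega
      · rw [eval₂_sub, hg3, v3_eval₂_PhiJ, v3_evZ_Phi_eq_zero hΦ, sub_zero]
    exact sub_eq_zero.1 h0
  subst hg
  set σ : FK K (N * r) →+* FK K (N * r) := (wr K hr hrN).toAlgHom.toRingHom with hσ
  have hσjr : σ (jr K N r) = J1 K (N * r) := wr_jr hr hrN
  have hmul' : ((v3PhiJ K N Φ).map (iF K N r)).map σ = (X - C (J1 K (N * r))) * G'.map σ := by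
    rw [hmul, Polynomial.map_mul, Polynomial.map_sub, Polynomial.map_X, Polynomial.map_C, hσjr]
  have hrel : ∀ t, (t - J1 K (N * r)) * (G'.map σ).eval t = evZ Φ t (jr K N r) := by
    intro t
    rw [← nvk_eval_PhiJ hr hrN Φ t, hmul', eval_mul, eval_sub, eval_X, eval_C]
  have hGJ : (G'.map σ).eval (J1 K (N * r)) = wr K hr hrN (v3Theta K N r Φ) := by
    rw [← v3_eval_derivative_mul, ← hmul', derivative_map, derivative_map, v3_wr_theta,
      ← nvk_eval_PhiJ hr hrN (derivative Φ)]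
    congr 3
    unfold v3PhiJ
    rw [derivative_map]
  have hGc1 : (G'.map σ).eval (J1 K (N * r)) / (r : FK K (N * r)) ∈ gaussSub R K (N * r) := by
    have := v3_wr_theta_div_mem (R := R) (K := K) (N := N) hr hrN hΦ
    rwa [map_div₀, map_natCast, ← hGJ] at this
  have hGc2 : (r : FK K (N * r)) / (G'.map σ).eval (J1 K (N * r)) ∈ gaussSub R K (N * r) := by
    have := v3_wr_div_theta_mem (R := R) (K := K) (N := N) hr hrN hΦ
    rwa [map_div₀, map_natCast, ← hGJ] at this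
  refine ⟨G'.map σ, hG1.map σ, by rw [hG1.natDegree_map, hG2], ?_, ?_, hGc1, hGc2⟩
  · rw [eval₂_map, vJ2_eq_jrr]
    exact hroot1
  · intro t ht
    exact nvk_fac (gaussSub R K (N * r)) hr hr0 hΨ (Jgen_mem_gaussSub _)
      (Jgen_mem_gaussSub (⟨1, one_dvd _⟩ : S24lib.Dv (N * r))) (nvk_J1_pow hr hπ)
      (by rw [mul_div_cancel₀ _ hr0]; rfl) (G'.map σ) hrel hGc1 ht

end concrete

end

end Fermat.Agent.CARlib
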