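import Fermat.Agent.CAR.NVInst
import Fermat.Agent.CAR.NVKron

/-!
# T-CAR, row NV, final form: the two `NHalf` of `x5_carKAt` from `VCore` alone
-/

set_option autoImplicit false
set_option linter.unusedSectionVars false
set_option linter.unusedVariables false

open ModularCurve AlgebraicCurve Polynomial

namespace Fermat.Agent.CARlib

open Fermat.Agent.ESlib Fermat.Agent.UNIlib Fermat.Agent.UNIlib.Normalise

noncomputable section

variable {R K : Type} [CommRing R] [IsDomain R] [IsDiscreteValuationRing R] [Field K]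
  [Algebra R K] [IsFractionRing R K] [Algebra ℚ K] [CharZero K] [Algebra K ℂ] [IsScalarTower ℚ K ℂ]
  {N r : ℕ} [NeZero N] [NeZero r] [NeZero (N * r)] [NeZero (N * r * r)]
  [Algebra R (FK K N)] [IsScalarTower R K (FK K N)]
  [Algebra R (FK K (N * r))] [IsScalarTower R K (FK K (N * r))]
  [Algebra R (FK K (N * r * r))] [IsScalarTower R K (FK K (N * r * r))]
  [CharP (IsLocalRing.ResidueField R) r]

theorem nv_kronP (hr : r.Prime) (hrN : ¬ r ∣ N) (hN : (N : IsLocalRing.ResidueField R) ≠ 0)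
    (hπ : Irreducible ((r : ℕ) : R)) : NVKronP R K N r :=
  nv_kron hr hrN hN hπ

/-- **row NV, final** : exactly the `obtain ⟨N₁, N₂, hN₁, hN₂, H₁, H₂⟩` of `XFinal.carK` -/
theorem nv_final (hr : r.Prime) (hrN : ¬ r ∣ N) (hN : (N : IsLocalRing.ResidueField R) ≠ 0)
    (hπ : Irreducible ((r : ℕ) : R)) {W : ValuationSubring (FK K (N * r * r))}
    (D : VCore hr hrN ((r : ℕ) : R) W) :
    ∃ N₁ N₂ : FK K (N * r * r) →*₀ FK K (N * r),
      (∀ x, N₁ x = normAlong (e1 K hr hrN) x) ∧ (∀ x, N₂ x = normAlong (e2 K N r) x) ∧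
      NHalf r (e1 K hr hrN).toRingHom N₁ (VF1 R K N r).toSubring (VV1 R hr hrN).toSubring
        (algebraMap R (FK K (N * r)) ((r : ℕ) : R)) (WFV R hr hrN).toSubring
        (WVF R K N r).toSubring W.toSubring (vY K N r) ∧
      NHalf r (e2 K N r).toRingHom N₂ (VF1 R K N r).toSubring (VV1 R hr hrN).toSubring
        (algebraMap R (FK K (N * r)) ((r : ℕ) : R)) (WVF R K N r).toSubring
        (WFV R hr hrN).toSubring W.toSubring (vY K N r) :=
  nv_inst hr hrN hN hπ D (nv_kronP hr hrN hN hπ)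

end

end Fermat.Agent.CARlib
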