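import Fermat.Agent.CAR.ITop
import Fermat.Agent.CAR.ITop3
import Fermat.Agent.CAR.X7IHalf
import Fermat.Agent.CAR.CTop
import Fermat.Agent.CAR.NVFinal
import Fermat.Agent.CAR.X3Chart

/-!
# T-CAR, block I, modular frame: `IChartOK` for any chart pair `(T₁, t2)` from
`VCore`, `L : CLev1`, `Hn : NodeHyp`, `hmid`
-/

set_option autoImplicit false
set_option linter.unusedSectionVars false
set_option linter.unusedVariables false

open ModularCurve AlgebraicCurve Polynomial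

namespace Fermat.Agent.CARlib

open Fermat.Agent.ESlib Fermat.Agent.UNIlib Fermat.Agent.CARlib.C

variable {R K : Type} [CommRing R] [IsDomain R] [IsDiscreteValuationRing R] [Field K]
  [Algebra R K] [IsFractionRing R K] [Algebra ℚ K] [CharZero K] [Algebra K ℂ] [IsScalarTower ℚ K ℂ]
  {N r : ℕ} [NeZero N] [NeZero r] [NeZero (N * r)] [NeZero (N * r * r)]
  [Algebra R (FK K N)] [IsScalarTower R K (FK K N)]
  [Algebra R (FK K (N * r))] [IsScalarTower R K (FK K (N * r))]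
  [Algebra R (FK K (N * r * r))] [IsScalarTower R K (FK K (N * r * r))]
  [CharP (IsLocalRing.ResidueField R) r]

/-- **block I in one chart, modular frame** -/
theorem itm_chartOK {hr : r.Prime} {hrN : ¬ r ∣ N} {W : ValuationSubring (FK K (N * r * r))}
    (D : VCore hr hrN ((r : ℕ) : R) W) (hN : (N : IsLocalRing.ResidueField R) ≠ 0)
    (hπ : Irreducible ((r : ℕ) : R))
    {T₁ : FK K (N * r)} {t2 : FK K (N * r * r)} (he₁ : cE1 R K hr hrN T₁ = t2)
    (he₂ : cE2 R K N r T₁ = t2) (ht2 : Transcendental K t2)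
    [FiniteDimensional (IntermediateField.adjoin K {t2}) (FK K (N * r * r))]
    (hPi : ∀ x, PiInt ((r : ℕ) : R) t2 x ↔ x ∈ WVF R K N r ∧ x ∈ WFV R hr hrN ∧ x ∈ W)
    {pF pV : Ideal (integralClosure (Algebra.adjoin R {T₁}) (FK K (N * r)))}
    (L : CLev1 (algebraMap R (integralClosure (Algebra.adjoin R {T₁}) (FK K (N * r)))
      ((r : ℕ) : R)) (VF1 R K N r) (VV1 R hr hrN) pF pV)
    {q : ℕ} {ρ : FK K (N * r) →+* FK K (N * r)}
    (Hn : NodeHyp ((r : ℕ) : R) T₁ (VF1 R K N r) (VV1 R hr hrN) q ρ)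
    (hmid : ∀ 𝔫 : Ideal (integralClosure (Algebra.adjoin R {t2}) (FK K (N * r * r))),
      𝔫.IsMaximal → cCen (integralClosure (Algebra.adjoin R {t2}) (FK K (N * r * r))) W ≤ 𝔫 →
      CMid (algebraMap R (integralClosure (Algebra.adjoin R {t2}) (FK K (N * r * r)))
        ((r : ℕ) : R)) W 𝔫)
    {m : ℕ} (hmr : Nat.Coprime m r) :
    IChartOK hr hrN ((r : ℕ) : R) W t2 m := by
  intro g hg0 hgdiv hone a₁ a₂ ha₁ ha₂ ξF ξV ξF' ξV' h1 h2 h3 h4 haF haV haF' haV' G0 hG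
  obtain ⟨N₁, N₂, hN₁, hN₂, H₁, H₂⟩ := nv_final hr hrN hN hπ D
  have hvf := c_hvf D hN hπ
  have hfv := v2_fv_res_of (R := R) (K := K) hr hrN hN (v2_basis_V hr hrN) hπ
  have dVF := v2_isDV_VF1 (K := K) (N := N) (r := r) hπ
  have dVV := v2_isDV_VV1 (K := K) (N := N) hr hrN hπ
  have dWVF := v2_isDV_WVF (K := K) (N := N) (r := r) hπ
  have dWFV := v2_isDV_WFV (K := K) (N := N) hr hrN hπ
  have dW := D.isDV hN hπ
  have D₁ := x7_iHalf_e1 hr hrN hπ D hvf hfv he₁ he₂ ht2 hPi L Hn dVF dVV dWVF dWFV dW hN₁ H₁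
  have D₂ := x7_iHalf_e2 hr hrN hπ D hvf hfv he₁ he₂ ht2 hPi L Hn dVF dVV dWVF dWFV dW hN₂ H₂
  have hc := fun 𝔫 h𝔫 hπ𝔫 => c_final hr hrN hπ D hvf he₁ he₂ ht2 hPi L hmid 𝔫 h𝔫 hπ𝔫
  have hπ0 : algebraMap R (FK K (N * r * r)) ((r : ℕ) : R) ≠ 0 := algebraMap_unif_ne_zero hπ
  have hPi' : ∀ x, PiInt ((r : ℕ) : R) t2 x ↔
      ∀ i, x ∈ iW (WFV R hr hrN) (WVF R K N r) W i := by
    intro x
    rw [hPi]
    constructor
    · rintro ⟨a1, a2, a3⟩ i
      fin_cases i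
      · exact a2
      · exact a1
      · exact a3
    · intro h
      exact ⟨h 1, h 0, h 2⟩
  refine i_chart (K := K) hπ ht2 (cE1 R K hr hrN) (cE2 R K N r) he₁ he₂ hr hPi' D₁ D₂
    ?_ ?_ ?_ ?_ ?_ ?_ ?_ hmr hgdiv ((xOne_iff hr hrN _ W g).1 hone) ha₁ ha₂ ξF ξV ξF' ξV'
    h1 h2 h3 h4 haF haV haF' haV' hG
  · intro 𝔫 h𝔫 hπ𝔫
    obtain ⟨⟨P, hP, -, hle, h⟩, -⟩ := hc 𝔫 h𝔫 hπ𝔫
    exact ⟨P, hP, hle, h⟩
  · intro 𝔫 h𝔫 hπ𝔫 i
    obtain ⟨-, c1, c2, c3⟩ := hc 𝔫 h𝔫 hπ𝔫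
    fin_cases i
    · exact c1
    · exact c2
    · exact c3
  · intro i
    fin_cases i
    · exact cg_val_pi_WFV hr hrN hπ
    · exact cg_val_pi hπ
    · exact val_pi_W hr hrN D hπ
  · intro i x
    fin_cases i
    · exact dWFV.arch x
    · exact dWVF.arch x
    · exact D.exists_pow_mul_mem hN hπ x
  · intro s
    obtain ⟨G, g1, g2, g3⟩ := D.approx hN hπ (s 1) (s 0) (s 2)
    refine ⟨G, fun i => ?_⟩
    fin_cases i
    · exact g2
    · exact g1
    · exact g3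
  · intro i
    have : (r : FK K (N * r * r)) / algebraMap R (FK K (N * r * r)) ((r : ℕ) : R) = 1 := by
      rw [map_natCast, div_self]
      rw [map_natCast] at hπ0
      exact hπ0
    rw [this]
    exact (iW (WFV R hr hrN) (WVF R K N r) W i).one_mem
  · have hpow : ∀ ν : FK K (N * r * r), ν ^ r = ν ^ (r - 1) * ν := by
      intro ν
      rw [← pow_succ]
      congr 1
      have := hr.two_le
      omega
    intro i ν hν
    fin_cases i
    · have h5 := cg_unif_WFV hr hrN hπ ν hν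
      rw [hpow, mul_div_assoc]
      exact (WFV R hr hrN).mul_mem _ _ ((WFV R hr hrN).pow_mem (mem_of_val_lt_one hν) _) h5
    · have h5 := cg_unif hπ ν hν
      rw [hpow, mul_div_assoc]
      exact (WVF R K N r).mul_mem _ _ ((WVF R K N r).pow_mem (mem_of_val_lt_one hν) _) h5
    · have h5 := ram_W hr hrN D ν hν
      rw [hpow, mul_div_right_comm]
      exact W.mul_mem _ _ h5 (mem_of_val_lt_one hν)

variable (a : ℕ) [NeZero a] (ha : a = 2 ∨ a = 3) (haN : a ∣ N)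

/-- **block I, final form**: `XI` (= `hI` of `x5_carKAt`) from `VCore`, and, for the two charts
`tF`, `tF⁻¹`: `L : CLev1`, `Hn : NodeHyp`, `hmid` -/
theorem itm_XI {hr : r.Prime} {hrN : ¬ r ∣ N} {W : ValuationSubring (FK K (N * r * r))}
    (D : VCore hr hrN ((r : ℕ) : R) W) (hN : (N : IsLocalRing.ResidueField R) ≠ 0)
    (hπ : Irreducible ((r : ℕ) : R))
    {pF pV : Ideal (integralClosure
      (Algebra.adjoin R {inclF K (dvd_mul_right N r) (tF K N a ha haN)}) (FK K (N * r)))}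
    (L : CLev1 (algebraMap R (integralClosure
      (Algebra.adjoin R {inclF K (dvd_mul_right N r) (tF K N a ha haN)}) (FK K (N * r)))
      ((r : ℕ) : R)) (VF1 R K N r) (VV1 R hr hrN) pF pV)
    {pF' pV' : Ideal (integralClosure
      (Algebra.adjoin R {inclF K (dvd_mul_right N r) (tF K N a ha haN)⁻¹}) (FK K (N * r)))}
    (L' : CLev1 (algebraMap R (integralClosure
      (Algebra.adjoin R {inclF K (dvd_mul_right N r) (tF K N a ha haN)⁻¹}) (FK K (N * r)))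
      ((r : ℕ) : R)) (VF1 R K N r) (VV1 R hr hrN) pF' pV')
    {q q' : ℕ} {ρ ρ' : FK K (N * r) →+* FK K (N * r)}
    (Hn : NodeHyp ((r : ℕ) : R) (inclF K (dvd_mul_right N r) (tF K N a ha haN))
      (VF1 R K N r) (VV1 R hr hrN) q ρ)
    (Hn' : NodeHyp ((r : ℕ) : R) (inclF K (dvd_mul_right N r) (tF K N a ha haN)⁻¹)
      (VF1 R K N r) (VV1 R hr hrN) q' ρ')
    (hmid : ∀ 𝔫 : Ideal (integralClosure (Algebra.adjoin R {vT2 K r a ha haN}) (FK K (N * r * r))),
      𝔫.IsMaximal →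
      cCen (integralClosure (Algebra.adjoin R {vT2 K r a ha haN}) (FK K (N * r * r))) W ≤ 𝔫 →
      CMid (algebraMap R
        (integralClosure (Algebra.adjoin R {vT2 K r a ha haN}) (FK K (N * r * r)))
        ((r : ℕ) : R)) W 𝔫)
    (hmid' : ∀ 𝔫 : Ideal
        (integralClosure (Algebra.adjoin R {(vT2 K r a ha haN)⁻¹}) (FK K (N * r * r))),
      𝔫.IsMaximal →
      cCen (integralClosure (Algebra.adjoin R {(vT2 K r a ha haN)⁻¹}) (FK K (N * r * r))) W ≤ 𝔫 →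
      CMid (algebraMap R
        (integralClosure (Algebra.adjoin R {(vT2 K r a ha haN)⁻¹}) (FK K (N * r * r)))
        ((r : ℕ) : R)) W 𝔫)
    {m : ℕ} (hm : 0 < m) (hmr : Nat.Coprime m r) {ζ : R} (hζ : IsPrimitiveRoot ζ m) :
    XI hr hrN ((r : ℕ) : R) W (vT2 K r a ha haN) m := by
  haveI := (x3_finiteDimensional_vT2 (K := K) a ha haN R hr hrN hN).1
  haveI := (x3_finiteDimensional_vT2 (K := K) a ha haN R hr hrN hN).2
  have hPi := D.piInt_iff a ha haN hN (v2_basis_V hr hrN) hπ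
  have hPi' := D.piInt_inv_iff a ha haN hN (v2_basis_V hr hrN) hπ
  have hOK : IChartOK hr hrN ((r : ℕ) : R) W (vT2 K r a ha haN) m :=
    itm_chartOK D hN hπ (cE1_chart a ha haN hr hrN) (cE2_chart a ha haN)
      (transcendental_vT2 a ha haN) hPi L Hn hmid hmr
  have hOK' : IChartOK hr hrN ((r : ℕ) : R) W (vT2 K r a ha haN)⁻¹ m :=
    itm_chartOK D hN hπ (cE1_chart_inv a ha haN hr hrN) (cE2_chart_inv a ha haN)
      (transcendental_vT2_inv a ha haN) hPi' L' Hn' hmid' hmr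
  obtain ⟨N₁, N₂, hN₁, hN₂, H₁, H₂⟩ := nv_final hr hrN hN hπ D
  have hvf := c_hvf D hN hπ
  have hfv := v2_fv_res_of (R := R) (K := K) hr hrN hN (v2_basis_V hr hrN) hπ
  have dVF := v2_isDV_VF1 (K := K) (N := N) (r := r) hπ
  have dVV := v2_isDV_VV1 (K := K) (N := N) hr hrN hπ
  have dWVF := v2_isDV_WVF (K := K) (N := N) (r := r) hπ
  have dWFV := v2_isDV_WFV (K := K) (N := N) hr hrN hπ
  have dW := D.isDV hN hπ
  have D₁ := x7_iHalf_e1 hr hrN hπ D hvf hfv (cE1_chart a ha haN hr hrN) (cE2_chart a ha haN)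
    (transcendental_vT2 a ha haN) hPi L Hn dVF dVV dWVF dWFV dW hN₁ H₁
  have D₂ := x7_iHalf_e2 hr hrN hπ D hvf hfv (cE1_chart a ha haN hr hrN) (cE2_chart a ha haN)
    (transcendental_vT2 a ha haN) hPi L Hn dVF dVV dWVF dWFV dW hN₂ H₂
  refine i_top hr hrN hm hπ.ne_zero hζ (vT2 K r a ha haN) W D₁.n1F D₁.n1V D₂.n1F D₂.n1V
    ?_ ?_ ?_ hOK hOK'
  · intro i z
    fin_cases i
    · exact v2r_algebraMap_mem_WFV hr hrN z
    · exact v2r_algebraMap_mem_WVF z
    · exact D.unif_mem z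
  · intro i
    fin_cases i
    · exact cg_val_pi_WFV hr hrN hπ
    · exact cg_val_pi hπ
    · exact val_pi_W hr hrN D hπ
  · intro s
    obtain ⟨G, g1, g2, g3⟩ := D.approx hN hπ (s 1) (s 0) (s 2)
    refine ⟨G, fun i => ?_⟩
    fin_cases i
    · exact g2
    · exact g1
    · exact g3

end Fermat.Agent.CARlib
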