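import Fermat.Agent.UNI.S35Level

/-!
# T-CAR, row L1: change of level for the function field form of Carayol's statement

`CarRel M m r ζ hU w J c`: a function `f ∈ F̄(M)` with `m ∣ div f`, whose class is fixed by `J`
(inertia) and killed by `U_r` and `U_r ∘ w`, has `f ^ c ∼ 1`.
-/

set_option autoImplicit false
set_option linter.unusedSectionVars false
set_option linter.style.haveILetI false

open ModularCurve AlgebraicCurve Fermat.Agent.S28lib IntermediateField

namespace Fermat.Agent.CARlib

open Fermat.Agent.UNIlib Fermat.Agent.ESlib Fermat.Agent.ESlib.PartD Fermat.Agent.S24lib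

local notation "Qb" => AlgebraicClosure ℚ

/-- the function field form of Carayol's statement at level `M` and exponent `m` -/
def CarRel (M m r : ℕ) [NeZero r] (ζ : Qbˣ)
    (hU : ∀ u ∈ modularFunctionFieldBar M, normU r ζ u ∈ modularFunctionFieldBar M)
    (w : modularFunctionFieldBar M →+* modularFunctionFieldBar M) (J : Set GQ) (c : ℕ) : Prop :=
  ∀ f : modularFunctionFieldBar M, MDiv Qb m f →
    (∀ σ ∈ J, SameClass m f (galF M σ f)) →
    SameClass m 1 (⟨normU r ζ (w f), hU _ (w f).2⟩ : modularFunctionFieldBar M) →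
    SameClass m 1 (⟨normU r ζ f, hU _ f.2⟩ : modularFunctionFieldBar M) →
    SameClass m 1 (f ^ c)

/-- the degree of `F̄(M') / F̄(M)` -/
noncomputable def l1Deg {M M' : ℕ} [NeZero M] [NeZero M'] (h : M ∣ M') : ℕ :=
  letI : Algebra (modularFunctionFieldBar M) (modularFunctionFieldBar M') :=
    (IntermediateField.inclusion (Level.bar_le h)).toRingHom.toAlgebra
  Module.finrank (modularFunctionFieldBar M) (modularFunctionFieldBar M')

theorem l1Deg_ne_zero {M M' : ℕ} [NeZero M] [NeZero M'] (h : M ∣ M') : l1Deg h ≠ 0 := by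
  letI : Algebra (modularFunctionFieldBar M) (modularFunctionFieldBar M') :=
    (IntermediateField.inclusion (Level.bar_le h)).toRingHom.toAlgebra
  haveI : IsScalarTower Qb (modularFunctionFieldBar M) (modularFunctionFieldBar M') :=
    IsScalarTower.of_algebraMap_eq fun _ => rfl
  have h1 := Level.finrank_tower (K := Qb) (F := modularFunctionFieldBar M)
    (F' := modularFunctionFieldBar M') (S24lib.J1 M)
  have h2 : algebraMap (modularFunctionFieldBar M) (modularFunctionFieldBar M') (S24lib.J1 M) =
      S24lib.J1 M' := rfl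
  rw [h2] at h1
  have h3 : Module.finrank Qb⟮S24lib.J1 M'⟯ (modularFunctionFieldBar M') ≠ 0 := by
    haveI := S24lib.finiteDimensional_J1 M'
    exact Module.finrank_pos.ne'
  intro h0
  apply h3
  rw [← h1]
  have : Module.finrank (modularFunctionFieldBar M) (modularFunctionFieldBar M') = 0 := h0
  rw [this, mul_zero]

/-- an element of `F̄(M)` which is an `m`-th power in `F̄(M')`: its `deg`-th power is an `m`-th
power in `F̄(M)` -/
theorem l1_sameClass_pow_of_incl {M M' : ℕ} [NeZero M] [NeZero M'] (h : M ∣ M') {m : ℕ}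
    {x : modularFunctionFieldBar M} (hx : x ≠ 0) (hs : SameClass m 1 (LevelU.incl h x)) :
    SameClass m 1 (x ^ l1Deg h) := by
  letI : Algebra (modularFunctionFieldBar M) (modularFunctionFieldBar M') :=
    (IntermediateField.inclusion (Level.bar_le h)).toRingHom.toAlgebra
  obtain ⟨ψ, hψ0, hψ⟩ := hs
  have hψ' : algebraMap (modularFunctionFieldBar M) (modularFunctionFieldBar M') x = 1 * ψ ^ m := hψ
  have hn := congrArg (Algebra.norm (modularFunctionFieldBar M)) hψ'
  rw [one_mul, map_pow, Algebra.norm_algebraMap] at hn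
  refine ⟨Algebra.norm (modularFunctionFieldBar M) ψ, ?_, ?_⟩
  · intro h0
    by_cases hm : m = 0
    · subst hm
      exact absurd h0 (by
        haveI : FiniteDimensional (modularFunctionFieldBar M) (modularFunctionFieldBar M') :=
          Module.finite_of_finrank_pos (Nat.pos_of_ne_zero (l1Deg_ne_zero h))
        exact Algebra.norm_ne_zero_iff.2 hψ0)
    · rw [h0, zero_pow hm] at hn
      exact pow_ne_zero _ hx hn
  · rw [one_mul]
    exact hn

/-- **change of level**, abstract form -/
theorem l1_carRel_of_incl {M M' : ℕ} [NeZero M] [NeZero M'] (h : M ∣ M') {m r : ℕ} [NeZero r]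
    {ζ : Qbˣ}
    (hU : ∀ u ∈ modularFunctionFieldBar M, normU r ζ u ∈ modularFunctionFieldBar M)
    (hU' : ∀ u ∈ modularFunctionFieldBar M', normU r ζ u ∈ modularFunctionFieldBar M')
    (w : modularFunctionFieldBar M →+* modularFunctionFieldBar M)
    (w' : modularFunctionFieldBar M' →+* modularFunctionFieldBar M')
    (hww' : ∀ f, w' (LevelU.incl h f) = LevelU.incl h (w f)) {J : Set GQ} {c : ℕ}
    (H : CarRel M' m r ζ hU' w' J c) : CarRel M m r ζ hU w J (c * l1Deg h) := by
  intro f hf hJ h1 h2
  set ι := LevelU.incl h with hι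
  have hιU : ∀ g : modularFunctionFieldBar M,
      ι ⟨normU r ζ (g : LaurentSeries Qb), hU _ g.2⟩ =
        ⟨normU r ζ ((ι g : modularFunctionFieldBar M') : LaurentSeries Qb), hU' _ (ι g).2⟩ := by
    intro g
    apply Subtype.ext
    rw [LevelU.coe_incl]
    show normU r ζ (g : LaurentSeries Qb) = normU r ζ ((ι g : _) : LaurentSeries Qb)
    rw [LevelU.coe_incl]
  have h1' := h1.map ι.toRingHom
  have h2' := h2.map ι.toRingHom
  have e1 : ι.toRingHom ⟨normU r ζ (w f), hU _ (w f).2⟩ =
      ⟨normU r ζ ((w' (ι f) : modularFunctionFieldBar M') : LaurentSeries Qb),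
        hU' _ (w' (ι f)).2⟩ := by
    show ι ⟨normU r ζ (w f), hU _ (w f).2⟩ = _
    rw [hιU]
    apply Subtype.ext
    show normU r ζ ((ι (w f) : _) : LaurentSeries Qb) = normU r ζ ((w' (ι f) : _) : LaurentSeries Qb)
    rw [hww']
  have e2 : ι.toRingHom ⟨normU r ζ f, hU _ f.2⟩ =
      ⟨normU r ζ ((ι f : modularFunctionFieldBar M') : LaurentSeries Qb), hU' _ (ι f).2⟩ := hιU f
  rw [map_one, e1] at h1'
  rw [map_one, e2] at h2'
  have hJ' : ∀ σ ∈ J, SameClass m (ι f) (galF M' σ (ι f)) := by
    intro σ hσ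
    have := (hJ σ hσ).map ι.toRingHom
    rw [LevelU.galF_incl]
    exact this
  have h3 := H (ι f) (LevelU.mDiv_incl _ hf) hJ' h1' h2'
  rw [← map_pow] at h3
  have h4 := l1_sameClass_pow_of_incl h (pow_ne_zero c hf.1) h3
  rwa [← pow_mul] at h4

end Fermat.Agent.CARlib
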