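import Fermat.Agent.S24.Fibres
import Fermat.Agent.S24.RHMain
import Fermat.Agent.UNI.AL2
import Fermat.Agent.S37.HKInputs

/-!
# T-CAR, row M7: `FN N ⊆ FN M` is unramified at the non-cuspidal places (no elliptic points)

Over `Kb = Q-bar`: at a level `N` without elliptic points (`4 ∣ N` or `9 ∣ N`) every non-cuspidal
place `v` of `FN N` has ramification index `e_a ∈ {1, 2, 3}` over the point `a = j(v)` of the
`j`-line which depends only on `a`.  Hence `FN N ⊆ FN M` (`N ∣ M`) is unramified at all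
non-cuspidal places.
-/

set_option autoImplicit false

open UpperHalfPlane hiding I
open ModularForm MatrixGroups Filter Topology ModularCurve Complex IntermediateField AlgebraicCurve
open CongruenceSubgroup
open scoped Manifold Real
open Fermat.Agent.S24lib Fermat.Agent.UNIlib

namespace Fermat.Agent.CARlib

/-! ### numerics -/

theorem m7_nuTwo_of_dvd {N d : ℕ} (hd : d ∣ N) (h : ∀ x : ZMod d, x ^ 2 + 1 ≠ 0) :
    nuTwo N = 0 := by
  have : IsEmpty {x : ZMod N // x ^ 2 + 1 = 0} :=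
    ⟨fun ⟨x, hx⟩ => h (ZMod.castHom hd (ZMod d) x) (by
      rw [← map_pow, ← map_one (ZMod.castHom hd (ZMod d)), ← map_add, hx, map_zero])⟩
  exact Nat.card_of_isEmpty

theorem m7_nuThree_of_dvd {N d : ℕ} (hd : d ∣ N) (h : ∀ x : ZMod d, x ^ 2 + x + 1 ≠ 0) :
    nuThree N = 0 := by
  have : IsEmpty {x : ZMod N // x ^ 2 + x + 1 = 0} :=
    ⟨fun ⟨x, hx⟩ => h (ZMod.castHom hd (ZMod d) x) (by
      rw [← map_pow, ← map_one (ZMod.castHom hd (ZMod d)), ← map_add, ← map_add, hx, map_zero])⟩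
  exact Nat.card_of_isEmpty

/-- no elliptic points -/
theorem m7_nu_eq_zero {N : ℕ} (h : 4 ∣ N ∨ 9 ∣ N) : nuTwo N = 0 ∧ nuThree N = 0 := by
  rcases h with h | h
  · exact ⟨m7_nuTwo_of_dvd h (by decide), m7_nuThree_of_dvd h (by decide)⟩
  · exact ⟨m7_nuTwo_of_dvd h (by decide), m7_nuThree_of_dvd h (by decide)⟩

open Classical in
/-- the ramification index over the `j`-line -/
noncomputable def m7E (a : Kb) : ℤ := if a = 0 then 3 else if a = 1728 then 2 else 1

theorem m7E_pos (a : Kb) : 0 < m7E a := by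
  unfold m7E
  split_ifs <;> norm_num

theorem m7_eq_of_sum {ι : Type*} (s : Finset ι) (f : ι → ℤ) (e : ℤ) (h1 : ∀ i ∈ s, f i ≤ e)
    (h2 : ∑ i ∈ s, f i = e * s.card) : ∀ i ∈ s, f i = e := by
  have h3 : ∑ i ∈ s, (e - f i) = 0 := by
    rw [Finset.sum_sub_distrib, h2]; simp [mul_comm]
  intro i hi
  have := (Finset.sum_eq_zero_iff_of_nonneg (fun j hj => by have := h1 j hj; omega)).1 h3 i hi
  omega

/-! ### places -/

variable (N : ℕ) [NeZero N]

theorem m7_isFF : Fermat.Agent.S24RH.IsFF Kb (FN N) :=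
  ⟨J1 N, transcendental_J1 N, finiteDimensional_J1 N⟩

/-- a non-cuspidal place has a `j`-value -/
theorem m7_exists_value (v : Place Kb (FN N)) (hv : 0 ≤ v.ord (J1 N)) :
    ∃ a : Kb, 0 < v.ord (J1 N - algebraMap Kb (FN N) a) := by
  rcases Fermat.Agent.S24RH.pole_or_fibre (m7_isFF N) v (transcendental_J1 N) with h | h
  · omega
  · exact h

/-- every zero of `j - a` has order dividing the order of `j - a` at `τ₀` -/
theorem m7_ord_dvd (τ₀ : ℍ) (a : Kb) (ha : jfun τ₀ = algebraMap Kb ℂ a) (r : ℕ)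
    (hr : (taylor (jgerm τ₀) - PowerSeries.C (jfun τ₀)).order = r)
    (v : Place Kb (FN N)) (hv : 0 < v.ord (J1 N - algebraMap Kb (FN N) a)) :
    v.ord (J1 N - algebraMap Kb (FN N) a) ∣ (r : ℤ) := by
  classical
  have hfd : FiniteDimensional Kb⟮J1 N - algebraMap Kb (FN N) a⟯ (FN N) := by
    rw [adjoin_sub_algebraMap]
    exact finiteDimensional_J1 N
  have hX : Nat.card (SL(2, ℤ) ⧸ Gamma0 N) =
      Module.finrank Kb⟮J1 N - algebraMap Kb (FN N) a⟯ (FN N) := by
    rw [adjoin_sub_algebraMap, finrank_J1, S20lib.card_quot_Gamma0]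
  have hr0 : 0 < r := by
    rcases Nat.eq_zero_or_pos r with h0 | h0
    · exfalso
      rw [h0, PowerSeries.order_eq_nat] at hr
      apply hr.1
      rw [map_sub, PowerSeries.coeff_zero_eq_constantCoeff_apply, constantCoeff_taylor,
        PowerSeries.coeff_zero_C]
      simp [jgerm]
    · exact h0
  let emb : (SL(2, ℤ) ⧸ Gamma0 N) → FN N →ₐ[Kb] LaurentSeries ℂ :=
    fun x => chartEmb (isChart_cInt N (x.out)⁻¹ τ₀)
  have := Fintype.ofFinite (SL(2, ℤ) ⧸ Gamma0 N)
  have hord : ∀ x, (emb x (J1 N - algebraMap Kb (FN N) a)).order = r := by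
    intro x
    show (chartEmb _ _).order = _
    rw [chartEmb_cInt_sub N _ _ _ ha]
    exact order_ofPowerSeries_eq hr
  have hu0 : J1 N - algebraMap Kb (FN N) a ≠ 0 := by
    intro h
    rw [h] at hv
    simp at hv
  have hinj : Function.Injective emb := by
    intro x y hxy
    have h := mem_Gamma0_of_chartEmb_eq (z := fun t => ofComplex ((τ₀ : ℂ) + t))
      (isChart_cInt N (x.out)⁻¹ τ₀) (isChart_cInt N (y.out)⁻¹ τ₀) hxy
    rw [inv_inv] at h
    rw [← QuotientGroup.out_eq' x, ← QuotientGroup.out_eq' y]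
    exact (QuotientGroup.eq.2 h).symm
  have hagree : ∀ x y, emb x (J1 N - algebraMap Kb (FN N) a) =
      emb y (J1 N - algebraMap Kb (FN N) a) := by
    intro x y
    show chartEmb _ _ = chartEmb _ _
    rw [chartEmb_cInt_sub N _ _ _ ha, chartEmb_cInt_sub N _ _ _ ha]
  obtain ⟨x, m, -, hx⟩ := exists_emb_of_place' (J1 N - algebraMap Kb (FN N) a)
    (transcendental_J1_sub N a) emb hinj (by rw [← hX, Nat.card_eq_fintype_card]) hagree
    (fun x => by rw [hord]; exact_mod_cast hr0) v hv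
  refine ⟨m, ?_⟩
  rw [← hord x, hx _ hu0, mul_comm]

/-- abstract counting step -/
theorem m7_ord_eq_of_card (a : Kb) (e : ℕ)
    (hdvd : ∀ v : Place Kb (FN N), 0 < v.ord (J1 N - algebraMap Kb (FN N) a) →
      v.ord (J1 N - algebraMap Kb (FN N) a) ∣ (e : ℤ)) (he : 0 < e)
    (hcard : e * Nat.card {v : Place Kb (FN N) // 0 < v.ord (J1 N - algebraMap Kb (FN N) a)} =
      dedekindPsi N)
    (v : Place Kb (FN N)) (hv : 0 < v.ord (J1 N - algebraMap Kb (FN N) a)) :
    v.ord (J1 N - algebraMap Kb (FN N) a) = e := by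
  classical
  have hfd : FiniteDimensional Kb⟮J1 N - algebraMap Kb (FN N) a⟯ (FN N) := by
    rw [adjoin_sub_algebraMap]
    exact finiteDimensional_J1 N
  obtain ⟨s, hs, hsum⟩ := exists_finset_zeros' (J1 N - algebraMap Kb (FN N) a)
    (transcendental_J1_sub N a)
  have hfr : Module.finrank Kb⟮J1 N - algebraMap Kb (FN N) a⟯ (FN N) = dedekindPsi N := by
    rw [adjoin_sub_algebraMap, finrank_J1]
  have hc : Nat.card {v : Place Kb (FN N) // 0 < v.ord (J1 N - algebraMap Kb (FN N) a)} =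
      s.card := by
    rw [Nat.card_congr (Equiv.subtypeEquivRight (fun v => (hs v).symm))]
    simp
  refine m7_eq_of_sum s (fun w => w.ord (J1 N - algebraMap Kb (FN N) a)) e (fun w hw => ?_) ?_ v
    ((hs v).2 hv)
  · exact Int.le_of_dvd (by exact_mod_cast he) (hdvd w ((hs w).1 hw))
  · rw [hsum, hfr, ← hcard, hc]
    push_cast
    ring

/-- ramification over the `j`-line at a level without elliptic points -/
theorem m7_ord_J1_sub (h : 4 ∣ N ∨ 9 ∣ N) (v : Place Kb (FN N)) (a : Kb)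
    (hv : 0 < v.ord (J1 N - algebraMap Kb (FN N) a)) :
    v.ord (J1 N - algebraMap Kb (FN N) a) = m7E a := by
  obtain ⟨hn2, hn3⟩ := m7_nu_eq_zero h
  by_cases h0 : a = 0
  · subst h0
    have ha : jfun rho = algebraMap Kb ℂ 0 := by
      rw [jfun_rho, map_zero]
    have hr : (taylor (jgerm rho) - PowerSeries.C (jfun rho)).order = ((3 : ℕ) : ℕ∞) := by
      rw [jfun_rho, map_zero, sub_zero, order_jgerm_rho]
      rfl
    have hc := card_places_zero N
    rw [hn3, mul_zero, add_zero] at hc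
    rw [m7_ord_eq_of_card N 0 3 (fun w hw => m7_ord_dvd N rho 0 ha 3 hr w hw) (by norm_num) hc v hv]
    simp [m7E]
  by_cases h1 : a = 1728
  · subst h1
    have ha : jfun UpperHalfPlane.I = algebraMap Kb ℂ 1728 := by
      rw [jfun_I, map_ofNat]
    have hr : (taylor (jgerm UpperHalfPlane.I) - PowerSeries.C (jfun UpperHalfPlane.I)).order =
        ((2 : ℕ) : ℕ∞) := by
      rw [jfun_I, order_jgerm_I]
      rfl
    have hc := card_places_1728 N
    rw [hn2, add_zero] at hc
    rw [m7_ord_eq_of_card N 1728 2 (fun w hw => m7_ord_dvd N UpperHalfPlane.I 1728 ha 2 hr w hw)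
      (by norm_num) hc v hv]
    simp [m7E]
  · have hc := card_places_generic N a h0 h1
    have h2 := m7_ord_eq_of_card N a 1 (fun w hw => ?_) (by norm_num) (by rw [one_mul, hc]) v hv
    · rw [h2]
      simp [m7E, h0, h1]
    · obtain ⟨τ₀, hτ⟩ := JSurj.surjective_E4_cube_div_disc (algebraMap Kb ℂ a)
      have ha : jfun τ₀ = algebraMap Kb ℂ a := hτ
      have hinj : Function.Injective (algebraMap Kb ℂ) := (algebraMap Kb ℂ).injective
      have hj0 : jfun τ₀ ≠ 0 := by
        rw [ha]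
        exact (map_ne_zero _).2 h0
      have hj1 : jfun τ₀ ≠ 1728 := by
        rw [ha]
        intro h
        apply h1
        apply hinj
        rw [h, map_ofNat]
      have hr : (taylor (jgerm τ₀) - PowerSeries.C (jfun τ₀)).order = ((1 : ℕ) : ℕ∞) := by
        rw [taylor_sub_const (analyticAt_jgerm τ₀), Nat.cast_one]
        apply order_taylor_eq_one
        · simp [jgerm]
        · have : deriv (fun t => jgerm τ₀ t - jfun τ₀) 0 = deriv (jgerm τ₀) 0 :=
            deriv_sub_const _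
          rw [this]
          exact deriv_jgerm_ne_zero τ₀ hj0 hj1
      exact m7_ord_dvd N τ₀ a ha 1 hr w hw

variable {N}

theorem m7_isIntegral {M : ℕ} [NeZero M] (φ : FN N →ₐ[Kb] FN M) : φ.toRingHom.IsIntegral :=
  S37lib.isIntegral_of_finiteAlong _ (S37lib.finiteAlong_of_isFF (m7_isFF N) (m7_isFF M) φ)

theorem m7_inclF_J1_sub {M : ℕ} [NeZero M] (hNM : N ∣ M) (a : Kb) :
    inclF Kb hNM (J1 N - algebraMap Kb (FN N) a) = J1 M - algebraMap Kb (FN M) a := by
  rw [map_sub, AlgHom.commutes]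
  rfl

/-- **M7u**: `FN N ⊆ FN M` is unramified at the non-cuspidal places -/
theorem m7_unram {M : ℕ} [NeZero M] (hNM : N ∣ M) (h : 4 ∣ N ∨ 9 ∣ N)
    (Q : Place Kb (FN M)) (hQ : 0 ≤ Q.ord (J1 M)) :
    ∃ t : FN N, Q.ord (inclF Kb hNM t) = 1 := by
  have hM : 4 ∣ M ∨ 9 ∣ M := h.imp (fun h => h.trans hNM) (fun h => h.trans hNM)
  obtain ⟨a, ha⟩ := m7_exists_value M Q hQ
  have hφ := m7_isIntegral (inclF Kb hNM)
  have h1 := Place.ord_restrictAlong (inclF Kb hNM) hφ Q (J1 N - algebraMap Kb (FN N) a)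
  rw [m7_inclF_J1_sub, m7_ord_J1_sub M hM Q a ha] at h1
  have hE := m7E_pos a
  have h2 : 0 < (Q.restrictAlong (inclF Kb hNM) hφ).ord (J1 N - algebraMap Kb (FN N) a) := by
    by_contra hcon
    have h3 : (Place.ramificationIndexAlong (inclF Kb hNM) Q : ℤ) *
        (Q.restrictAlong (inclF Kb hNM) hφ).ord (J1 N - algebraMap Kb (FN N) a) ≤ 0 :=
      mul_nonpos_of_nonneg_of_nonpos (Int.natCast_nonneg _) (not_lt.1 hcon)
    omega
  rw [m7_ord_J1_sub N h _ a h2] at h1
  have h4 : (Place.ramificationIndexAlong (inclF Kb hNM) Q : ℤ) = 1 := by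
    have h5 : (Place.ramificationIndexAlong (inclF Kb hNM) Q : ℤ) * m7E a = 1 * m7E a := by
      rw [one_mul]; exact h1.symm
    exact mul_right_cancel₀ hE.ne' h5
  obtain ⟨t, ht⟩ := Fermat.Agent.S24RH.exists_ord_eq_one (Q.restrictAlong (inclF Kb hNM) hφ)
  exact ⟨t, by rw [Place.ord_restrictAlong (inclF Kb hNM) hφ Q t, h4, ht, one_mul]⟩

end Fermat.Agent.CARlib
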