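import Fermat.Agent.CAR.M7

/-!
# T-CAR, row M7 (continued): non-cuspidal places and conjugated embeddings
-/

set_option autoImplicit false

open ModularCurve AlgebraicCurve
open Fermat.Agent.S24lib Fermat.Agent.UNIlib Fermat.Agent.S24RH

namespace Fermat.Agent.CARlib

variable {N : ℕ} [NeZero N]

/-- every polynomial in the generators is integral at the non-cuspidal places -/
theorem m7_evF_mem (v : Place Kb (FN N)) (hv : 0 ≤ v.ord (J1 N)) (P : MvPolynomial (Dv N) Kb) :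
    evF N P ∈ v.toValuationSubring := by
  obtain ⟨χ, hχ, -, h⟩ := exists_monic_annihilator N P
  have hJ : J1 N ∈ v.toValuationSubring := mem_of_ord_nonneg v hv
  refine mem_of_isIntegral v (polyRing Kb (J1 N)) (polyRing_le v _ hJ) _ ?_
  let ψ : Polynomial Kb →+* polyRing Kb (J1 N) :=
    ((Polynomial.aeval (J1 N) : Polynomial Kb →ₐ[Kb] FN N).toRingHom).codRestrict
      (polyRing Kb (J1 N)).toSubring (fun p => by
        show Polynomial.aeval (J1 N) p ∈ Algebra.adjoin Kb {J1 N}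
        rw [Algebra.adjoin_singleton_eq_range_aeval]
        exact ⟨p, rfl⟩)
  refine ⟨χ.map ψ, hχ.map _, ?_⟩
  rw [Polynomial.eval₂_map]
  exact h

/-- non-cuspidal places: all the generators `j(q^d)` are integral -/
theorem m7_noncusp (v : Place Kb (FN N)) (hv : 0 ≤ v.ord (J1 N)) (d : Dv N) :
    0 ≤ v.ord (Jgen N d) := by
  have h := m7_evF_mem v hv (MvPolynomial.X d)
  rw [evF, MvPolynomial.aeval_X] at h
  exact ord_nonneg_of_mem v h

/-- **M7u, conjugated form** (`e_1 = incl ∘ w_r`, `e_2 = B_r = w2 ∘ incl ∘ w_r`): every embedding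
`φ = σ ∘ incl ∘ τ` is unramified at the non-cuspidal places -/
theorem m7_unram_conj {M : ℕ} [NeZero M] (hNM : N ∣ M) (h : 4 ∣ N ∨ 9 ∣ N)
    (σ : FN M ≃ₐ[Kb] FN M) (τ : FN N ≃ₐ[Kb] FN N) (hσ : ∃ d : Dv M, σ (J1 M) = Jgen M d)
    (Q : Place Kb (FN M)) (hQ : 0 ≤ Q.ord (J1 M)) :
    ∃ t : FN N, Q.ord (σ (inclF Kb hNM (τ t))) = 1 := by
  set g := SemilinearAut.ofAlgAut (K := Kb) (F := FN M) σ with hg
  have key : ∀ f : FN M, Q.ord (σ f) = (g⁻¹ • Q).ord f := by
    intro f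
    have h1 := SemilinearAut.ord_smul g (g⁻¹ • Q) f
    rw [smul_inv_smul] at h1
    exact h1
  obtain ⟨d, hd⟩ := hσ
  obtain ⟨t, ht⟩ := m7_unram hNM h (g⁻¹ • Q) (by rw [← key, hd]; exact m7_noncusp Q hQ d)
  exact ⟨τ.symm t, by rw [AlgEquiv.apply_symm_apply, key, ht]⟩

end Fermat.Agent.CARlib
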