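import Fermat.Agent.CAR.M7Conj
import Fermat.Agent.CAR.E3AL

/-!
# T-CAR, row M7 (end): non-cuspidality does not depend on the generator; `hM7` of `M7bFinal`
-/

set_option autoImplicit false

open ModularCurve AlgebraicCurve
open Fermat.Agent.S24lib Fermat.Agent.UNIlib Fermat.Agent.S24RH

namespace Fermat.Agent.CARlib

/-- transport of a place by an automorphism -/
theorem m7_exists_place_comp {F : Type*} [Field F] [Algebra Kb F] (σ : F ≃ₐ[Kb] F)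
    (Q : Place Kb F) : ∃ Q' : Place Kb F, ∀ f : F, Q'.ord f = Q.ord (σ f) := by
  set g := SemilinearAut.ofAlgAut (K := Kb) (F := F) σ with hg
  refine ⟨g⁻¹ • Q, fun f => ?_⟩
  have h1 := SemilinearAut.ord_smul g (g⁻¹ • Q) f
  rw [smul_inv_smul] at h1
  exact h1.symm

/-- at level `d` itself: `j(q)` is integral where `j(q^d)` is -/
theorem m7_noncusp_top (d : ℕ) [NeZero d] (v : Place Kb (FN d))
    (hv : 0 ≤ v.ord (Jgen d ⟨d, dvd_rfl⟩)) : 0 ≤ v.ord (J1 d) := by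
  have hM : d = 1 * d := (one_mul d).symm
  have hc : Nat.Coprime d 1 := Nat.coprime_one_right d
  have h1 : wQ Kb hM hc (ESlib.Jgen Kb d ⟨1, one_dvd d⟩) = ESlib.Jgen Kb d ⟨d, dvd_rfl⟩ :=
    wQ_Jgen_of_eq Kb hM hc _ _ (by simp)
  have h2 : wQ Kb hM hc (ESlib.Jgen Kb d ⟨d, dvd_rfl⟩) = ESlib.Jgen Kb d ⟨1, one_dvd d⟩ :=
    wQ_Jgen_of_eq Kb hM hc _ _ (by simp [Nat.div_self (Nat.pos_of_ne_zero (NeZero.ne d))])
  obtain ⟨v', hv'⟩ := m7_exists_place_comp (wQ Kb hM hc) v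
  have h3 : 0 ≤ v'.ord (J1 d) := by
    rw [hv']
    exact (congrArg v.ord h1).symm ▸ hv
  have h4 := m7_noncusp v' h3 ⟨d, dvd_rfl⟩
  rw [hv'] at h4
  exact (congrArg v.ord h2) ▸ h4

variable {N : ℕ} [NeZero N]

/-- non-cuspidality does not depend on the generator `j(q^d)` -/
theorem m7_noncusp_iff (v : Place Kb (FN N)) (d : Dv N) :
    0 ≤ v.ord (Jgen N d) ↔ 0 ≤ v.ord (J1 N) := by
  refine ⟨fun h => ?_, fun h => m7_noncusp v h d⟩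
  have hφ := m7_isIntegral (inclF Kb d.2)
  have h1 := Place.ord_restrictAlong (inclF Kb d.2) hφ v (Jgen d.1 ⟨d.1, dvd_rfl⟩)
  have h2 := Place.ord_restrictAlong (inclF Kb d.2) hφ v (J1 d.1)
  have e1 : inclF Kb d.2 (Jgen d.1 ⟨d.1, dvd_rfl⟩) = Jgen N d := rfl
  have e2 : inclF Kb d.2 (J1 d.1) = J1 N := rfl
  rw [e1] at h1
  rw [e2] at h2
  rw [h2]
  rcases Nat.eq_zero_or_pos (Place.ramificationIndexAlong (inclF Kb d.2) v) with h0 | h0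
  · rw [h0]; simp
  · refine mul_nonneg (Int.natCast_nonneg _) (m7_noncusp_top d.1 _ ?_)
    rw [h1] at h
    have h0' : (0 : ℤ) < Place.ramificationIndexAlong (inclF Kb d.2) v := by exact_mod_cast h0
    exact nonneg_of_mul_nonneg_right h h0'

/-- **the hypothesis `hM7` of `M7bFinal`** for `ιL = σ ∘ incl ∘ τ` -/
theorem m7_hM7 {M : ℕ} [NeZero M] (hNM : N ∣ M) (h : 4 ∣ N ∨ 9 ∣ N)
    (σ : FN M ≃ₐ[Kb] FN M) (τ : FN N ≃ₐ[Kb] FN N) (hτ : ∃ d : Dv N, τ (J1 N) = Jgen N d)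
    (ι : FN N →ₐ[Kb] FN M) (hι : ∀ x, ι x = σ (inclF Kb hNM (τ x)))
    (Q : Place Kb (FN M)) (hQ : 0 ≤ Q.ord (ι (J1 N))) :
    ∃ T : FN N, Q.ord (ι T) = 1 := by
  obtain ⟨Q', hQ'⟩ := m7_exists_place_comp σ Q
  obtain ⟨d, hd⟩ := hτ
  have h1 : 0 ≤ Q'.ord (J1 M) := by
    rw [← m7_noncusp_iff Q' ⟨d.1, d.2.trans hNM⟩, hQ']
    rw [hι, hd] at hQ
    exact hQ
  obtain ⟨t, ht⟩ := m7_unram hNM h Q' h1
  exact ⟨τ.symm t, by rw [hι, AlgEquiv.apply_symm_apply, ← hQ', ht]⟩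

/-- `hM7` for the inclusion -/
theorem m7_hM7_incl {M : ℕ} [NeZero M] (hNM : N ∣ M) (h : 4 ∣ N ∨ 9 ∣ N)
    (Q : Place Kb (FN M)) (hQ : 0 ≤ Q.ord (inclF Kb hNM (J1 N))) :
    ∃ T : FN N, Q.ord (inclF Kb hNM T) = 1 :=
  m7_unram hNM h Q hQ

end Fermat.Agent.CARlib
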