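import Mathlib

/-!
# T-CAR, row M7b (b3): `g'(x)` is a unit at the unramified primes of a monogenic extension `A[x]`
-/

set_option autoImplicit false

open Polynomial

namespace Fermat.Agent.CARlib

attribute [local instance] FractionRing.liftAlgebra FractionRing.isScalarTower_liftAlgebra

/-- **(b3)** abstract: if `B = A[x]` and `P` is unramified over `p` with separable residue extension,
then `g'(x) ∉ P`, `g` the minimal polynomial of `x`. -/
theorem m7b_aeval_derivative_notMem (A K L B : Type*) [CommRing A] [Field K] [CommRing B] [Field L]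
    [Algebra A K] [Algebra B L] [Algebra A B] [Algebra K L] [Algebra A L]
    [IsScalarTower A K L] [IsScalarTower A B L] [IsFractionRing A K]
    [FiniteDimensional K L] [IsIntegralClosure B A L] [Algebra.IsSeparable K L]
    [IsFractionRing B L] [IsDedekindDomain A] [IsDedekindDomain B]
    [Module.IsTorsionFree A B] [Module.Finite A B]
    [CharZero A]
    {p : Ideal A} [p.IsMaximal] (hp0 : p ≠ ⊥) (P : Ideal B) [P.IsMaximal] [P.LiesOver p]
    [CharZero (A ⧸ p)]
    (he : ¬ p.map (algebraMap A B) ≤ P ^ 2)
    (x : B) (hx : Algebra.adjoin A {x} = ⊤) :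
    aeval x (derivative (minpoly A x)) ∉ P := by
  intro hmem
  have : CharZero (FractionRing A) := charZero_of_injective_algebraMap
    (IsFractionRing.injective A (FractionRing A))
  have : Algebra.IsAlgebraic (FractionRing A) (FractionRing B) := inferInstance
  have : Algebra.IsSeparable (FractionRing A) (FractionRing B) := inferInstance
  let : Field (A ⧸ p) := Ideal.Quotient.field p
  let : Field (B ⧸ P) := Ideal.Quotient.field P
  have : Module.Finite (A ⧸ p) (B ⧸ P) := Module.Finite.of_restrictScalars_finite A (A ⧸ p) (B ⧸ P)
  have : Algebra.IsSeparable (A ⧸ p) (B ⧸ P) := inferInstance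
  have hinj : Function.Injective (algebraMap A B) := FaithfulSMul.algebraMap_injective A B
  have hp' : p.map (algebraMap A B) ≠ ⊥ := (Ideal.map_eq_bot_iff_of_injective hinj).not.mpr hp0
  obtain ⟨Q, h₁, h₂⟩ := Ideal.eq_prime_pow_mul_coprime hp' P
  have hle : p.map (algebraMap A B) ≤ P := by
    rw [Ideal.map_le_iff_le_comap, ← Ideal.under_def, ← Ideal.over_def P p]
  set c := Multiset.count P (UniqueFactorizationMonoid.normalizedFactors (p.map (algebraMap A B)))
    with hc
  have hc1 : c = 1 := by
    rcases Nat.lt_or_ge c 1 with h | h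
    · exfalso
      have h0 : c = 0 := by omega
      rw [h0, pow_zero, one_mul] at h₂
      rw [h₂] at hle
      have : P ⊔ Q = P := sup_eq_left.2 hle
      rw [this] at h₁
      exact (Ideal.IsMaximal.ne_top inferInstance) h₁
    · rcases Nat.lt_or_ge 1 c with h' | h'
      · exfalso
        apply he
        rw [h₂]
        exact Ideal.mul_le_left.trans (Ideal.pow_le_pow_right h')
      · omega
  rw [hc1, pow_one] at h₂
  have hnd := not_dvd_differentIdeal_of_isCoprime_of_isSeparable A P Q
    (Ideal.isCoprime_iff_sup_eq.mpr h₁) h₂.symm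
  apply hnd
  have hxL : Algebra.adjoin K {algebraMap B L x} = ⊤ := by
    have hB : ∀ y : B, algebraMap B L y ∈ Algebra.adjoin K {algebraMap B L x} := by
      intro y
      have hy : y ∈ Algebra.adjoin A {x} := by rw [hx]; trivial
      induction hy using Algebra.adjoin_induction with
      | mem z hz =>
        rw [Set.mem_singleton_iff] at hz
        subst hz
        exact Algebra.subset_adjoin rfl
      | algebraMap r =>
        rw [← IsScalarTower.algebraMap_apply A B L, IsScalarTower.algebraMap_apply A K L]
        exact Subalgebra.algebraMap_mem _ _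
      | add y z _ _ hy hz => rw [map_add]; exact add_mem hy hz
      | mul y z _ _ hy hz => rw [map_mul]; exact mul_mem hy hz
    rw [eq_top_iff]
    intro y _
    obtain ⟨a, b, -, rfl⟩ := IsFractionRing.div_surjective (A := B) y
    rw [div_eq_mul_inv]
    refine mul_mem (hB a) ?_
    exact Subalgebra.inv_mem_of_algebraic (Algebra.adjoin K {algebraMap B L x}) (x := ⟨_, hB b⟩)
      (Algebra.IsAlgebraic.isAlgebraic (R := K) (algebraMap B L b))
  have hcond := conductor_mul_differentIdeal A K L x hxL
  rw [conductor_eq_top_of_adjoin_eq_top hx, Ideal.top_mul] at hcond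
  rw [hcond, Ideal.dvd_iff_le, Ideal.span_singleton_le_iff_mem]
  exact hmem

end Fermat.Agent.CARlib
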