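import Fermat.Agent.UNI.MordA

/-!
# T-CAR, row M7b (b1): EVERY place above a given one in a constant field extension is unramified

(generalisation of `UNIlib.exists_place_above_unramified`; same proof)
-/

set_option autoImplicit false
set_option linter.unusedSectionVars false

open AlgebraicCurve Polynomial IntermediateField

namespace Fermat.Agent.CARlib

open Fermat.Agent.S24RH Fermat.Agent.S24lib Fermat.Agent.ESlib Fermat.Agent.UNIlib

variable {K L F F' : Type*} [Field K] [Field L] [Field F] [Field F'] [Algebra K F] [Algebra L F']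
  [Algebra K L] [Algebra F F'] [Algebra K F'] [IsScalarTower K F F'] [IsScalarTower K L F']

/-- **(b1)** constant field extensions are unramified at EVERY place above -/
theorem m7b_const_unram [CharZero K] [IsAlgClosed L] [Algebra.IsAlgebraic K L]
    (hFF : IsFF K F) (hFF' : IsFF L F')
    (hgen : IntermediateField.adjoin L (Set.range (algebraMap F F')) = ⊤) (v : Place K F)
    (P : Place L F') (n : ℕ) (hn : 0 < n)
    (hP : ∀ f : F, P.ord (algebraMap F F' f) = n * v.ord f) : n = 1 := by
  classical
  have : CharZero L := charZero_of_injective_algebraMap (algebraMap K L).injective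
  set e : F →+* F' := algebraMap F F' with he
  obtain ⟨u, hu⟩ := exists_ord_eq_one v
  have hu0 : u ≠ 0 := by rintro rfl; simp at hu
  set U := e u with hU
  have hU0 : U ≠ 0 := (map_ne_zero e).2 hu0
  have hPU : P.ord U = n := by rw [hU, hP, hu, mul_one]
  have hnZ : (0 : ℤ) < n := by exact_mod_cast hn
  obtain ⟨ϖ, hϖ⟩ := exists_ord_eq_one P
  have hϖtr : Transcendental L ϖ := transcendental_of_ord_ne_zero P (by omega)
  have := hFF'.finiteDimensional hϖtr
  obtain ⟨-, δ, hδ⟩ := kaehler_span_and_derivation ϖ hϖtr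
  obtain ⟨hδU0, hδU⟩ := ord_derivation hFF' P δ ϖ hδ hϖ (z := U) (by omega)
  let D : Derivation L F' F' := (δ U)⁻¹ • δ
  have hDapp : ∀ x, D x = (δ U)⁻¹ * δ x := fun x => rfl
  have hDU : D U = 1 := by rw [hDapp, inv_mul_cancel₀ hδU0]
  have hDord : ∀ x, P.ord x ≠ 0 → D x ≠ 0 ∧ P.ord (D x) = P.ord x - n := by
    intro x hx
    obtain ⟨h1, h2⟩ := ord_derivation hFF' P δ ϖ hδ hϖ hx
    refine ⟨mul_ne_zero (inv_ne_zero hδU0) h1, ?_⟩
    rw [hDapp, P.ord_mul (inv_ne_zero hδU0) h1, P.ord_inv, hδU, h2, hPU]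
    ring
  have hDmem : ∀ x ∈ P.toValuationSubring, D x = 0 ∨ -((n : ℤ) - 1) ≤ P.ord (D x) := by
    intro x hx
    have h1 := derivation_mem hFF' P δ ϖ hδ hϖ x hx
    by_cases h0 : δ x = 0
    · left; rw [hDapp, h0, mul_zero]
    · right
      rw [hDapp, P.ord_mul (inv_ne_zero hδU0) h0, P.ord_inv, hδU, hPU]
      have := ord_nonneg_of_mem P h1
      omega
  -- the derivation of `F`
  have hUtr : Transcendental L U := transcendental_of_ord_ne_zero P (by omega)
  have hutr : Transcendental K u := by
    intro halg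
    have h1 : IsAlgebraic K (algebraMap F F' u) := halg.algebraMap
    exact hUtr (h1.tower_top L)
  have := hFF.finiteDimensional hutr
  obtain ⟨-, δK, hδK⟩ := kaehler_span_and_derivation u hutr
  have hcomm : ∀ f : F, D (e f) = e (δK f) := by
    intro f
    let d₁ : Derivation K F F' := (D.restrictScalars K).compAlgebraMap F
    let d₂ : Derivation K F F' := (Algebra.linearMap F F').compDer δK
    have h1 : (d₁ - d₂) u = 0 := by
      show D (e u) - e (δK u) = 0
      rw [hδK, map_one, ← hU, hDU, sub_self]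
    have h2 := derivation_eq_zero_of_apply_eq_zero u hutr (d₁ - d₂) h1 f
    have h3 : D (e f) - e (δK f) = 0 := h2
    exact sub_eq_zero.1 h3
  have hVP : ∀ f ∈ v.toValuationSubring, e f ∈ P.toValuationSubring := by
    intro f hf
    apply mem_of_ord_nonneg
    rw [hP]
    have := ord_nonneg_of_mem v hf
    positivity
  have hδKmem : ∀ f ∈ v.toValuationSubring, δK f ∈ v.toValuationSubring := by
    intro f hf
    rcases hDmem (e f) (hVP f hf) with h | h
    · rw [hcomm] at h
      have : δK f = 0 := by simpa using h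
      rw [this]; exact zero_mem _
    · rw [hcomm, hP] at h
      apply mem_of_ord_nonneg
      by_contra hcon
      push Not at hcon
      have : (n : ℤ) * v.ord (δK f) ≤ (n : ℤ) * (-1) := by
        apply mul_le_mul_of_nonneg_left _ hnZ.le
        omega
      omega
  -- the subalgebra generated by `L` and the valuation ring of `v`
  let S : Subalgebra L F' := Algebra.adjoin L (e '' (v.toValuationSubring : Set F))
  have hS_le : ∀ x ∈ S, x ∈ P.toValuationSubring := by
    intro x hx
    induction hx using Algebra.adjoin_induction with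
    | mem x hx =>
      obtain ⟨f, hf, rfl⟩ := hx
      exact hVP f hf
    | algebraMap r => exact P.algebraMap_mem' r
    | add x y _ _ hx hy => exact add_mem hx hy
    | mul x y _ _ hx hy => exact mul_mem hx hy
  have hS_D : ∀ x ∈ S, D x ∈ S := by
    intro x hx
    induction hx using Algebra.adjoin_induction with
    | mem x hx =>
      obtain ⟨f, hf, rfl⟩ := hx
      rw [hcomm]
      exact Algebra.subset_adjoin ⟨_, hδKmem f hf, rfl⟩
    | algebraMap r => rw [Derivation.map_algebraMap]; exact zero_mem _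
    | add x y _ _ hx hy => rw [map_add]; exact add_mem hx hy
    | mul x y hx' hy' hx hy =>
      rw [Derivation.leibniz, smul_eq_mul, smul_eq_mul]
      exact add_mem (mul_mem hx' hy) (mul_mem hy' hx)
  have hS_dvd : ∀ x ∈ S, x ≠ 0 → (n : ℤ) ∣ P.ord x := by
    intro x hx hx0
    by_contra hcon
    have key : ∀ j : ℕ, D^[j] x ∈ S ∧ P.ord (D^[j] x) = P.ord x - j * n := by
      intro j
      induction j with
      | zero => simpa using hx
      | succ j ih =>
        obtain ⟨h1, h2⟩ := ih
        rw [Function.iterate_succ_apply']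
        refine ⟨hS_D _ h1, ?_⟩
        have h3 : P.ord (D^[j] x) ≠ 0 := by
          rw [h2]
          intro h
          apply hcon
          exact ⟨j, by linarith⟩
        rw [(hDord _ h3).2, h2]
        push_cast
        ring
    have hk := ord_nonneg_of_mem P (hS_le x hx)
    obtain ⟨h1, h2⟩ := key ((P.ord x).toNat + 1)
    have h3 := ord_nonneg_of_mem P (hS_le _ h1)
    rw [h2] at h3
    have h4 : (((P.ord x).toNat : ℕ) : ℤ) = P.ord x := Int.toNat_of_nonneg hk
    push_cast at h3
    rw [h4] at h3
    nlinarith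
  have hUS : U ∈ S := Algebra.subset_adjoin ⟨u, mem_of_ord_nonneg v (by omega), rfl⟩
  have hclear : ∀ r ∈ Algebra.adjoin L (Set.range e), ∃ k : ℕ, U ^ k * r ∈ S := by
    intro r hr
    induction hr using Algebra.adjoin_induction with
    | mem x hx =>
      obtain ⟨f, rfl⟩ := hx
      obtain ⟨M, hM⟩ := exists_pow_mul_mem v u hu f
      refine ⟨M, ?_⟩
      rw [hU, ← map_pow, ← map_mul]
      exact Algebra.subset_adjoin ⟨_, hM M le_rfl, rfl⟩
    | algebraMap r => exact ⟨0, by simp⟩
    | add x y _ _ hx hy =>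
      obtain ⟨a, ha⟩ := hx
      obtain ⟨b, hb⟩ := hy
      refine ⟨a + b, ?_⟩
      have : U ^ (a + b) * (x + y) = U ^ b * (U ^ a * x) + U ^ a * (U ^ b * y) := by ring
      rw [this]
      exact add_mem (mul_mem (pow_mem hUS _) ha) (mul_mem (pow_mem hUS _) hb)
    | mul x y _ _ hx hy =>
      obtain ⟨a, ha⟩ := hx
      obtain ⟨b, hb⟩ := hy
      refine ⟨a + b, ?_⟩
      have : U ^ (a + b) * (x * y) = (U ^ a * x) * (U ^ b * y) := by ring
      rw [this]
      exact mul_mem ha hb
  have hadj_dvd : ∀ r ∈ Algebra.adjoin L (Set.range e), r ≠ 0 → (n : ℤ) ∣ P.ord r := by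
    intro r hr hr0
    obtain ⟨k, hk⟩ := hclear r hr
    have h1 := hS_dvd _ hk (mul_ne_zero (pow_ne_zero _ hU0) hr0)
    rw [P.ord_mul (pow_ne_zero _ hU0) hr0, ord_pow, hPU] at h1
    exact (Int.dvd_add_right (Dvd.intro_left _ rfl)).1 h1
  have hn1 : (n : ℤ) ∣ 1 := by
    have hϖ0 : ϖ ≠ 0 := by rintro rfl; simp at hϖ
    have hmem : ϖ ∈ IntermediateField.adjoin L (Set.range e) := by rw [hgen]; trivial
    obtain ⟨r, hr, s, hs, hrs⟩ := IntermediateField.mem_adjoin_iff_div.1 hmem
    have hr0 : r ≠ 0 := by rintro rfl; simp at hrs; exact hϖ0 hrs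
    have hs0 : s ≠ 0 := by rintro rfl; simp at hrs; exact hϖ0 hrs
    rw [← hϖ, hrs, ord_div P hr0 hs0]
    exact dvd_sub (hadj_dvd r hr hr0) (hadj_dvd s hs hs0)
  have hn1' : (n : ℤ) = 1 := Int.eq_one_of_dvd_one hnZ.le hn1
  exact_mod_cast hn1'

end Fermat.Agent.CARlib
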