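import Fermat.Agent.CAR.M7bAbs
import Fermat.Agent.S24.RHFibre

/-!
# T-CAR, row M7b (b4), abstract form: the norm of `g'(b)` is a unit of the valuation ring of a place
which is unramified in `F₁ / F₀`, if the integral closure is generated by `b`.
-/

set_option autoImplicit false
set_option linter.unusedSectionVars false
set_option linter.style.haveILetI false

open AlgebraicCurve Polynomial IsLocalRing IsDedekindDomain

namespace Fermat.Agent.CARlib

open Fermat.Agent.S24RH

variable {K F0 F1 : Type*} [Field K] [Field F0] [Field F1] [Algebra K F0] [Algebra K F1]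
  [Algebra F0 F1] [IsScalarTower K F0 F1] [FiniteDimensional F0 F1] [CharZero K]

/-- **(b4), abstract** -/
theorem m7b_theta_unit_abs (v0 : Place K F0)
    (hunr : ∀ v : Place K F1,
      (∀ f ∈ v0.toValuationSubring, algebraMap F0 F1 f ∈ v.toValuationSubring) →
        ∀ f : F0, v.ord (algebraMap F0 F1 f) = v0.ord f)
    (b : F1)
    (hb : ∃ p : F0[X], p.Monic ∧ (∀ i, p.coeff i ∈ v0.toValuationSubring) ∧ aeval b p = 0)
    (hmono : ∀ z : F1,
      (∃ p : F0[X], p.Monic ∧ (∀ i, p.coeff i ∈ v0.toValuationSubring) ∧ aeval z p = 0) →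
        ∃ P : F0[X], (∀ i, P.coeff i ∈ v0.toValuationSubring) ∧ aeval b P = z) :
    (Algebra.norm F0 (aeval b (derivative (minpoly F0 b))) ∈ v0.toValuationSubring ∧
      (Algebra.norm F0 (aeval b (derivative (minpoly F0 b))))⁻¹ ∈ v0.toValuationSubring) ∧
    (∃ p : F0[X], p.Monic ∧ (∀ i, p.coeff i ∈ v0.toValuationSubring) ∧
      aeval (aeval b (derivative (minpoly F0 b))) p = 0) ∧
    (∃ p : F0[X], p.Monic ∧ (∀ i, p.coeff i ∈ v0.toValuationSubring) ∧
      aeval (aeval b (derivative (minpoly F0 b)))⁻¹ p = 0) := by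
  classical
  have : CharZero F0 := charZero_of_injective_algebraMap (algebraMap K F0).injective
  set A := v0.toValuationSubring with hA
  letI : Algebra A F1 := ((algebraMap F0 F1).comp (algebraMap A F0)).toAlgebra
  haveI : IsScalarTower A F0 F1 := IsScalarTower.of_algebraMap_eq fun _ => rfl
  -- integrality over `A` in terms of polynomials over `F0`
  have hint_iff : ∀ z : F1, IsIntegral A z ↔
      ∃ p : F0[X], p.Monic ∧ (∀ i, p.coeff i ∈ A) ∧ aeval z p = 0 := by
    intro z
    constructor
    · rintro ⟨q, hq, hqz⟩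
      refine ⟨q.map (algebraMap A F0), hq.map _, fun i => ?_, ?_⟩
      · rw [coeff_map]; exact Subtype.property _
      · rw [aeval_map_algebraMap]; exact hqz
    · rintro ⟨p, hp, hc, hpz⟩
      have hlift : p ∈ Polynomial.lifts (algebraMap A F0) := by
        rw [Polynomial.lifts_iff_coeff_lifts]
        intro n
        exact ⟨⟨_, hc n⟩, rfl⟩
      obtain ⟨q, hq, -, hqm⟩ := Polynomial.lifts_and_degree_eq_and_monic hlift hp
      refine ⟨q, hqm, ?_⟩
      rw [← hq, aeval_map_algebraMap] at hpz
      exact hpz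
  let B := integralClosure A F1
  haveI : IsIntegralClosure B A F1 := integralClosure.isIntegralClosure A F1
  haveI : IsDedekindDomain B := IsIntegralClosure.isDedekindDomain A F0 F1 B
  haveI : IsFractionRing B F1 := IsIntegralClosure.isFractionRing_of_finite_extension A F0 F1 B
  haveI : Module.Finite A B := IsIntegralClosure.finite A F0 F1 B
  have hinjAB : Function.Injective (algebraMap A B) := by
    intro x y hxy
    have h1 : algebraMap F0 F1 (x : F0) = algebraMap F0 F1 (y : F0) :=
      congrArg (fun z : B => (z : F1)) hxy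
    exact Subtype.ext ((algebraMap F0 F1).injective h1)
  haveI : FaithfulSMul A B := (faithfulSMul_iff_algebraMap_injective A B).2 hinjAB
  haveI : Module.IsTorsionFree A B := Module.isTorsionFree_iff_algebraMap_injective.2 hinjAB
  letI : Algebra K B := ((algebraMap A B).comp (algebraMap K A)).toAlgebra
  haveI : IsScalarTower K B F1 := IsScalarTower.of_algebraMap_eq fun a => by
    rw [IsScalarTower.algebraMap_apply K F0 F1]
    rfl
  have hbA : IsIntegral A b := (hint_iff b).2 hb
  let bB : B := ⟨b, hbA⟩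
  have hadj : Algebra.adjoin A {bB} = ⊤ := by
    rw [eq_top_iff]
    rintro ⟨z, hz⟩ -
    obtain ⟨P, hPc, hPz⟩ := hmono z ((hint_iff z).1 hz)
    have hlift : P ∈ Polynomial.lifts (algebraMap A F0) := by
      rw [Polynomial.lifts_iff_coeff_lifts]
      intro n
      exact ⟨⟨_, hPc n⟩, rfl⟩
    obtain ⟨q, hq⟩ := hlift
    have h1 : (⟨z, hz⟩ : B) = aeval bB q := by
      apply Subtype.ext
      have h2 : ((aeval bB q : B) : F1) = aeval b q := by
        have := Polynomial.aeval_algebraMap_apply F1 bB q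
        exact this.symm
      rw [h2]
      show z = aeval b q
      rw [← hPz, ← hq, Polynomial.coe_mapRingHom, aeval_map_algebraMap]
    rw [h1]
    exact Polynomial.aeval_mem_adjoin_singleton A bB
  -- the element `θ`
  have hbBint : IsIntegral A bB := IsIntegralClosure.isIntegral A F1 bB
  have hmin : minpoly F0 b = (minpoly A bB).map (algebraMap A F0) :=
    minpoly.isIntegrallyClosed_eq_field_fractions F0 F1 hbBint
  set θB : B := aeval bB (derivative (minpoly A bB)) with hθB
  have hθ : aeval b (derivative (minpoly F0 b)) = algebraMap B F1 θB := by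
    rw [hmin, derivative_map, aeval_map_algebraMap, hθB]
    exact Polynomial.aeval_algebraMap_apply F1 bB _
  -- `θ` is a unit of `B`
  have hunit : IsUnit θB := by
    by_contra hnu
    obtain ⟨P, hPmax, hθP⟩ := exists_max_ideal_of_mem_nonunits hnu
    haveI := hPmax
    have hPunder : (P.under A).IsMaximal :=
      Ideal.isMaximal_comap_of_isIntegral_of_isMaximal (R := A) P
    haveI : P.LiesOver (maximalIdeal A) := ⟨(IsLocalRing.eq_maximalIdeal hPunder).symm⟩
    have hp0 : maximalIdeal A ≠ ⊥ := IsDiscreteValuationRing.not_a_field A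
    have hP0 : P ≠ ⊥ := Ideal.ne_bot_of_liesOver_of_ne_bot hp0 P
    haveI : CharZero A := charZero_of_injective_algebraMap (algebraMap K A).injective
    haveI : CharZero (A ⧸ maximalIdeal A) := by
      letI : Field (A ⧸ maximalIdeal A) := Ideal.Quotient.field _
      exact charZero_of_injective_ringHom
        ((Ideal.Quotient.mk (maximalIdeal A)).comp (algebraMap K A)).injective
    refine m7b_aeval_derivative_notMem A F0 F1 B hp0 P ?_ bB hadj hθP
    intro hle
    let w : HeightOneSpectrum B := ⟨P, hPmax.isPrime, hP0⟩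
    let v : Place K F1 := Place.ofHeightOneSpectrum (K := K) w
    have hBv : ∀ x : B, 0 ≤ v.ord (algebraMap B F1 x) := by
      intro x
      rw [ord_ofHeightOneSpectrum]
      have h1 := w.valuation_le_one (K := F1) x
      by_cases hx : algebraMap B F1 x = 0
      · rw [hx]; simp
      have h2 : w.valuation F1 (algebraMap B F1 x) ≠ 0 := (Valuation.ne_zero_iff _).2 hx
      have h3 := (WithZero.log_le_log h2 one_ne_zero).2 h1
      rw [WithZero.log_one] at h3
      omega
    have hv := hunr v (fun f hf => by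
      have h1 : algebraMap F0 F1 f = algebraMap B F1 (algebraMap A B ⟨f, hf⟩) := rfl
      rw [h1]
      exact mem_of_ord_nonneg v (hBv _))
    obtain ⟨π0, hπ0⟩ := exists_ord_eq_one v0
    have hπ0A : π0 ∈ A := mem_of_ord_nonneg v0 (by omega)
    have hπ00 : π0 ≠ 0 := by rintro rfl; simp at hπ0
    have hπ0m : (⟨π0, hπ0A⟩ : A) ∈ maximalIdeal A := by
      rw [← ord_pos_iff_mem_maximalIdeal v0 _ (by
        intro h; exact hπ00 (congrArg Subtype.val h))]
      show 0 < v0.ord π0
      omega
    have hmem : algebraMap A B ⟨π0, hπ0A⟩ ∈ P ^ 2 := hle (Ideal.mem_map_of_mem _ hπ0m)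
    have h2 : w.intValuation (algebraMap A B ⟨π0, hπ0A⟩) ≤ WithZero.exp (-((2 : ℕ) : ℤ)) :=
      (w.intValuation_le_pow_iff_mem _ 2).2 hmem
    have h3 : v.ord (algebraMap F0 F1 π0) = 1 := by rw [hv, hπ0]
    have h4 : algebraMap F0 F1 π0 = algebraMap B F1 (algebraMap A B ⟨π0, hπ0A⟩) := rfl
    rw [h4, ord_ofHeightOneSpectrum, HeightOneSpectrum.valuation_of_algebraMap] at h3
    have h5 : w.intValuation (algebraMap A B ⟨π0, hπ0A⟩) ≠ 0 := by
      intro h0
      rw [h0] at h3
      simp at h3
    have h6 := (WithZero.log_le_log h5 WithZero.exp_ne_zero).2 h2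
    rw [WithZero.log_exp] at h6
    push_cast at h6
    omega
  -- norms
  obtain ⟨θ', hθ'⟩ := hunit.exists_right_inv
  have hN : ∀ x : B, Algebra.norm F0 (algebraMap B F1 x) ∈ A := by
    intro x
    have h1 : IsIntegral A (algebraMap B F1 x) := x.2
    have h2 : IsIntegral A (Algebra.norm F0 (algebraMap B F1 x)) := Algebra.isIntegral_norm F0 h1
    obtain ⟨y, hy⟩ := IsIntegrallyClosed.isIntegral_iff.1 h2
    rw [← hy]
    exact y.2
  rw [hθ]
  have h0 : algebraMap B F1 θB * algebraMap B F1 θ' = 1 := by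
    rw [← map_mul, hθ', map_one]
  refine ⟨⟨hN θB, ?_⟩, (hint_iff _).1 θB.2, ?_⟩
  · have h1 : Algebra.norm F0 (algebraMap B F1 θB) * Algebra.norm F0 (algebraMap B F1 θ') = 1 := by
      rw [← map_mul, h0, map_one]
    rw [← eq_inv_of_mul_eq_one_right h1]
    exact hN θ'
  · rw [← eq_inv_of_mul_eq_one_right h0]
    exact (hint_iff _).1 θ'.2

/-- **(b4), abstract**: the norm of `g'(b)` is a unit -/
theorem m7b_norm_unit_abs (v0 : Place K F0)
    (hunr : ∀ v : Place K F1,
      (∀ f ∈ v0.toValuationSubring, algebraMap F0 F1 f ∈ v.toValuationSubring) →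
        ∀ f : F0, v.ord (algebraMap F0 F1 f) = v0.ord f)
    (b : F1)
    (hb : ∃ p : F0[X], p.Monic ∧ (∀ i, p.coeff i ∈ v0.toValuationSubring) ∧ aeval b p = 0)
    (hmono : ∀ z : F1,
      (∃ p : F0[X], p.Monic ∧ (∀ i, p.coeff i ∈ v0.toValuationSubring) ∧ aeval z p = 0) →
        ∃ P : F0[X], (∀ i, P.coeff i ∈ v0.toValuationSubring) ∧ aeval b P = z) :
    Algebra.norm F0 (aeval b (derivative (minpoly F0 b))) ∈ v0.toValuationSubring ∧
      (Algebra.norm F0 (aeval b (derivative (minpoly F0 b))))⁻¹ ∈ v0.toValuationSubring :=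
  (m7b_theta_unit_abs v0 hunr b hb hmono).1

/-- an element which is integral over a valuation ring below lies in the valuation ring -/
theorem m7b_mem_of_monic (v0 : Place K F0) (v : Place K F1)
    (hv : ∀ f ∈ v0.toValuationSubring, algebraMap F0 F1 f ∈ v.toValuationSubring) {z : F1}
    (hz : ∃ p : F0[X], p.Monic ∧ (∀ i, p.coeff i ∈ v0.toValuationSubring) ∧ aeval z p = 0) :
    z ∈ v.toValuationSubring := by
  obtain ⟨p, hp, hc, hpz⟩ := hz
  have hint : IsIntegral v.toValuationSubring z := by
    have hlift : p.map (algebraMap F0 F1) ∈ Polynomial.lifts (algebraMap v.toValuationSubring F1) := by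
      rw [Polynomial.lifts_iff_coeff_lifts]
      intro n
      rw [coeff_map]
      exact ⟨⟨_, hv _ (hc n)⟩, rfl⟩
    obtain ⟨q, hq, -, hqm⟩ := Polynomial.lifts_and_degree_eq_and_monic hlift (hp.map _)
    refine ⟨q, hqm, ?_⟩
    rw [← Polynomial.eval_map, hq, Polynomial.eval_map, ← Polynomial.aeval_def, hpz]
  obtain ⟨y, hy⟩ := IsIntegrallyClosed.isIntegral_iff.1 hint
  rw [← hy]
  exact y.2

/-- **(b4), abstract**: `ord_v (g'(b)) = 0` for every place `v` above `v0` -/
theorem m7b_ord_theta_abs (v0 : Place K F0)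
    (hunr : ∀ v : Place K F1,
      (∀ f ∈ v0.toValuationSubring, algebraMap F0 F1 f ∈ v.toValuationSubring) →
        ∀ f : F0, v.ord (algebraMap F0 F1 f) = v0.ord f)
    (b : F1)
    (hb : ∃ p : F0[X], p.Monic ∧ (∀ i, p.coeff i ∈ v0.toValuationSubring) ∧ aeval b p = 0)
    (hmono : ∀ z : F1,
      (∃ p : F0[X], p.Monic ∧ (∀ i, p.coeff i ∈ v0.toValuationSubring) ∧ aeval z p = 0) →
        ∃ P : F0[X], (∀ i, P.coeff i ∈ v0.toValuationSubring) ∧ aeval b P = z)
    (v : Place K F1)
    (hv : ∀ f ∈ v0.toValuationSubring, algebraMap F0 F1 f ∈ v.toValuationSubring) :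
    v.ord (aeval b (derivative (minpoly F0 b))) = 0 := by
  obtain ⟨-, h1, h2⟩ := m7b_theta_unit_abs v0 hunr b hb hmono
  have h3 := ord_nonneg_of_mem v (m7b_mem_of_monic v0 v hv h1)
  have h4 := ord_nonneg_of_mem v (m7b_mem_of_monic v0 v hv h2)
  rw [v.ord_inv] at h4
  omega

end Fermat.Agent.CARlib
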