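import Mathlib

/-!
# T-CAR, block N: the norm residue formulas (N1-F), (N1-V) via embeddings (addendum A)
-/

set_option autoImplicit false

open Polynomial IsLocalRing

namespace Fermat.Agent.CARlib

section basic

variable {F E : Type*} [Field F] [Field E]

/-- a valuation subring of an extension field dominating `V` -/
theorem n1e_exists_above [Algebra F E] (V : ValuationSubring F) :
    ∃ U : ValuationSubring E, U.comap (algebraMap F E) = V := by
  obtain ⟨U, h, hloc⟩ :=
    IsLocalRing.exists_factor_valuationRing ((algebraMap F E).comp V.subtype)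
  refine ⟨U, ?_⟩
  ext x
  rw [ValuationSubring.mem_comap]
  constructor
  · intro hx
    by_contra hxV
    have hx0 : x ≠ 0 := fun h0 => hxV (h0 ▸ V.zero_mem)
    have hinv : x⁻¹ ∈ V := (V.mem_or_inv_mem x).resolve_left hxV
    have hu : IsUnit ((((algebraMap F E).comp V.subtype).codRestrict U.toSubring h) ⟨x⁻¹, hinv⟩) := by
      refine IsUnit.of_mul_eq_one ⟨algebraMap F E x, hx⟩ ?_
      apply Subtype.ext
      change algebraMap F E x⁻¹ * algebraMap F E x = 1
      rw [← map_mul, inv_mul_cancel₀ hx0, map_one]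
    have hu' : IsUnit (⟨x⁻¹, hinv⟩ : V) := hloc.map_nonunit _ hu
    obtain ⟨y, hy⟩ := hu'.exists_right_inv
    have hy' : x⁻¹ * (y : F) = 1 := congrArg Subtype.val hy
    have : (y : F) = x := by
      field_simp at hy'
      exact hy'
    exact hxV (this ▸ y.2)
  · intro hx
    exact h ⟨x, hx⟩

theorem n1e_val_lt_one_iff {V : ValuationSubring F} {x : F} :
    V.valuation x < 1 ↔ x = 0 ∨ x⁻¹ ∉ V := by
  by_cases hx : x = 0
  · simp [hx]
  · rw [← not_le, ← ValuationSubring.valuation_le_one_iff, map_inv₀]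
    simp only [hx, false_or]
    rw [not_iff_not]
    rw [inv_le_one₀ (zero_lt_iff.2 ((_root_.map_ne_zero _).2 hx))]

theorem n1e_val_comap {U : ValuationSubring E} {V : ValuationSubring F} {e : F →+* E}
    (h : U.comap e = V) (x : F) : U.valuation (e x) < 1 ↔ V.valuation x < 1 := by
  rw [n1e_val_lt_one_iff, n1e_val_lt_one_iff, ← h, ValuationSubring.mem_comap, map_inv₀,
    map_eq_zero]

theorem n1e_res_eq_iff (U : ValuationSubring E) (a b : U) :
    residue U a = residue U b ↔ U.valuation ((a : E) - b) < 1 := by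
  rw [← sub_eq_zero, ← map_sub, residue_eq_zero_iff, ValuationSubring.valuation_lt_one_iff]
  rfl

theorem n1e_mem_of_sub {U : ValuationSubring E} {a b : E} (hb : b ∈ U)
    (h : U.valuation (b - a) < 1) : a ∈ U := by
  have : a = b - (b - a) := by ring
  rw [this]
  exact U.sub_mem hb ((U.valuation_le_one_iff _).1 h.le)

theorem n1e_charP (U : ValuationSubring E) {r : ℕ} (hr : r.Prime)
    (h : U.valuation (r : E) < 1) : CharP (ResidueField U) r := by
  have h0 : ((r : ℕ) : ResidueField U) = 0 := by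
    have : residue U (r : U) = 0 := by
      rw [residue_eq_zero_iff, ValuationSubring.valuation_lt_one_iff]
      simpa using h
    simpa using this
  obtain ⟨p, hp⟩ := CharP.exists (ResidueField U)
  have hdvd : p ∣ r := (CharP.cast_eq_zero_iff (ResidueField U) p r).1 h0
  rcases (Nat.dvd_prime hr).1 hdvd with h1 | h1
  · subst h1
    exact absurd rfl (CharP.char_ne_one (ResidueField U) 1)
  · exact h1 ▸ hp

theorem n1e_mem_of_pow_mem {U : ValuationSubring E} {a : E} {n : ℕ} (hn : n ≠ 0)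
    (h : a ^ n ∈ U) : a ∈ U := by
  rw [← ValuationSubring.valuation_le_one_iff] at h ⊢
  rw [map_pow] at h
  exact (pow_le_one_iff_of_nonneg zero_le hn).1 h

end basic

section norm

variable {F₁ F₂ : Type*} [Field F₁] [Field F₂] [Algebra F₁ F₂]

theorem n1e_comap_emb {V : ValuationSubring F₁} {U : ValuationSubring (AlgebraicClosure F₂)}
    (hU : U.comap (algebraMap F₁ (AlgebraicClosure F₂)) = V)
    (σ : F₂ →ₐ[F₁] AlgebraicClosure F₂) :
    (U.comap σ.toRingHom).comap (algebraMap F₁ F₂) = V := by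
  rw [← hU]
  ext x
  simp [ValuationSubring.mem_comap]

variable [FiniteDimensional F₁ F₂] [Algebra.IsSeparable F₁ F₂]

/-- **(N1-F)** only one valuation above `V`, residue characteristic `r = [F₂ : F₁]`. -/
theorem n1e_F (V : ValuationSubring F₁) (W : ValuationSubring F₂)
    (hW : ∀ W' : ValuationSubring F₂, W'.comap (algebraMap F₁ F₂) = V → W' = W)
    {r : ℕ} (hr : r.Prime) (hrV : V.valuation (r : F₁) < 1) (hdeg : Module.finrank F₁ F₂ = r)
    {H : F₂} {c : F₁} (hcV : c ∈ V) (hc : W.valuation (algebraMap F₁ F₂ c - H ^ r) < 1) :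
    V.valuation (Algebra.norm F₁ H - c) < 1 := by
  obtain ⟨U, hU⟩ := n1e_exists_above (E := AlgebraicClosure F₂) V
  have hσ : ∀ σ : F₂ →ₐ[F₁] AlgebraicClosure F₂, U.comap σ.toRingHom = W :=
    fun σ => hW _ (n1e_comap_emb hU σ)
  have hchar : CharP (ResidueField U) r := n1e_charP U hr (by
    have := (n1e_val_comap hU (r : F₁)).2 hrV
    simpa using this)
  have hcU : algebraMap F₁ (AlgebraicClosure F₂) c ∈ U := by
    rw [← hU] at hcV
    exact hcV
  obtain ⟨σ₀⟩ : Nonempty (F₂ →ₐ[F₁] AlgebraicClosure F₂) := ⟨IsScalarTower.toAlgHom _ _ _⟩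
  have hcW : algebraMap F₁ F₂ c ∈ W := by
    rw [← hσ σ₀, ValuationSubring.mem_comap]
    simpa using hcU
  have hH : H ∈ W := n1e_mem_of_pow_mem hr.ne_zero (n1e_mem_of_sub hcW hc)
  have hσH : ∀ σ : F₂ →ₐ[F₁] AlgebraicClosure F₂, σ H ∈ U := by
    intro σ
    have := hH
    rw [← hσ σ, ValuationSubring.mem_comap] at this
    exact this
  have h1 : ∀ σ : F₂ →ₐ[F₁] AlgebraicClosure F₂,
      residue U ⟨σ H, hσH σ⟩ ^ r = residue U ⟨_, hcU⟩ := by
    intro σ
    rw [← map_pow, eq_comm, n1e_res_eq_iff]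
    have := (n1e_val_comap (hσ σ) (algebraMap F₁ F₂ c - H ^ r)).2 hc
    simpa using this
  have hN : algebraMap F₁ (AlgebraicClosure F₂) (Algebra.norm F₁ H) = ∏ σ : F₂ →ₐ[F₁] _, σ H :=
    Algebra.norm_eq_prod_embeddings F₁ (AlgebraicClosure F₂) H
  have hNU : algebraMap F₁ (AlgebraicClosure F₂) (Algebra.norm F₁ H) ∈ U := by
    rw [hN]
    exact U.prod_mem fun σ _ => hσH σ
  have h2 : residue U ⟨_, hNU⟩ = ∏ σ : F₂ →ₐ[F₁] _, residue U ⟨σ H, hσH σ⟩ := by
    rw [← map_prod]
    congr 1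
    apply Subtype.ext
    simp [hN]
  have h3 : residue U ⟨_, hNU⟩ ^ r = residue U ⟨_, hcU⟩ ^ r := by
    rw [h2, ← Finset.prod_pow, Finset.prod_congr rfl (fun σ _ => h1 σ), Finset.prod_const,
      Finset.card_univ, AlgHom.card, hdeg]
  have : Fact r.Prime := ⟨hr⟩
  have h4 := frobenius_inj (ResidueField U) r h3
  rw [n1e_res_eq_iff] at h4
  rw [← n1e_val_comap hU, map_sub]
  exact h4

omit [FiniteDimensional F₁ F₂] [Algebra.IsSeparable F₁ F₂] [Algebra F₁ F₂] in
theorem n1e_val_eq_one_comap {U : ValuationSubring F₂} {V : ValuationSubring F₁} {e : F₁ →+* F₂}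
    (h : U.comap e = V) (x : F₁) : U.valuation (e x) = 1 ↔ V.valuation x = 1 := by
  have h1 := n1e_val_comap h x
  have h2 : U.valuation (e x) ≤ 1 ↔ V.valuation x ≤ 1 := by
    rw [ValuationSubring.valuation_le_one_iff, ValuationSubring.valuation_le_one_iff, ← h,
      ValuationSubring.mem_comap]
  constructor
  · intro h3
    exact le_antisymm (h2.1 h3.le) (not_lt.1 fun h4 => (h1.2 h4).ne h3)
  · intro h3
    exact le_antisymm (h2.2 h3.le) (not_lt.1 fun h4 => (h1.1 h4).ne h3)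

omit [FiniteDimensional F₁ F₂] [Algebra.IsSeparable F₁ F₂] [Algebra F₁ F₂] in
theorem n1e_val_eq_comap {U : ValuationSubring F₂} {V : ValuationSubring F₁} {e : F₁ →+* F₂}
    (h : U.comap e = V) {x z : F₁} (hz : z ≠ 0) (hxz : V.valuation x = V.valuation z) :
    U.valuation (e x) = U.valuation (e z) := by
  have h1 : V.valuation (x / z) = 1 := by
    rw [map_div₀, hxz, div_self ((_root_.map_ne_zero _).2 hz)]
  have h2 := (n1e_val_eq_one_comap h (x / z)).2 h1
  rw [map_div₀, map_div₀, div_eq_one_iff_eq ((_root_.map_ne_zero _).2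
    ((_root_.map_ne_zero e).2 hz))] at h2
  exact h2

/-- the number of embeddings of the ramified type -/
theorem n1e_count (V : ValuationSubring F₁) (W W' : ValuationSubring F₂)
    {U : ValuationSubring (AlgebraicClosure F₂)}
    (hU : U.comap (algebraMap F₁ (AlgebraicClosure F₂)) = V)
    (hW : ∀ W₂ : ValuationSubring F₂, W₂.comap (algebraMap F₁ F₂) = V → W₂ = W ∨ W₂ = W')
    {r : ℕ} {y : F₂} {π : F₁} (hπ0 : π ≠ 0) (hπ : V.valuation π < 1)
    (hyW : W.valuation y = 1)
    (hyW' : W'.valuation (y ^ (r - 1)) = W'.valuation (algebraMap F₁ F₂ π))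
    (hNy : V.valuation (Algebra.norm F₁ y) = V.valuation π) :
    by classical exact (Finset.univ.filter fun σ : F₂ →ₐ[F₁] AlgebraicClosure F₂ =>
      U.comap σ.toRingHom = W').card = r - 1 := by
  classical
  set T := Finset.univ.filter fun σ : F₂ →ₐ[F₁] AlgebraicClosure F₂ =>
      U.comap σ.toRingHom = W' with hT
  set ϖ := U.valuation (algebraMap F₁ (AlgebraicClosure F₂) π) with hϖ
  have hϖ1 : ϖ < 1 := (n1e_val_comap hU π).2 hπ
  have hϖ0 : ϖ ≠ 0 := (_root_.map_ne_zero _).2 ((_root_.map_ne_zero _).2 hπ0)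
  have h1 : ∀ σ : F₂ →ₐ[F₁] AlgebraicClosure F₂, σ ∉ T → U.valuation (σ y) = 1 := by
    intro σ hσ
    have hσW : U.comap σ.toRingHom = W := by
      rcases hW _ (n1e_comap_emb hU σ) with h | h
      · exact h
      · exact absurd (show σ ∈ T from Finset.mem_filter.2 ⟨Finset.mem_univ σ, h⟩) hσ
    exact (n1e_val_eq_one_comap hσW y).2 hyW
  have h2 : ∀ σ ∈ T, U.valuation (σ y) ^ (r - 1) = ϖ := by
    intro σ hσ
    have hσW : U.comap σ.toRingHom = W' := (Finset.mem_filter.1 hσ).2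
    have := n1e_val_eq_comap hσW ((_root_.map_ne_zero (algebraMap F₁ F₂)).2 hπ0) hyW'
    rw [← map_pow, ← map_pow]
    simpa using this
  have h3 : U.valuation (algebraMap F₁ (AlgebraicClosure F₂) (Algebra.norm F₁ y)) = ϖ :=
    n1e_val_eq_comap hU hπ0 hNy
  rw [Algebra.norm_eq_prod_embeddings F₁ (AlgebraicClosure F₂) y, map_prod,
    ← Finset.prod_subset (Finset.subset_univ T) (fun σ _ hσ => h1 σ hσ)] at h3
  have h4 : ϖ ^ T.card = ϖ ^ (r - 1) := by
    conv_rhs => rw [← h3, ← Finset.prod_pow, Finset.prod_congr rfl h2, Finset.prod_const]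
  exact pow_right_injective₀ (zero_lt_iff.2 hϖ0) hϖ1.ne h4

/-- **(N1-V)** two valuations above `V`: `W` (`e = f = 1`) and `W'` (`e = r - 1`, `f = 1`,
uniformiser `y`). -/
theorem n1e_V (V : ValuationSubring F₁) (W W' : ValuationSubring F₂)
    (hW : ∀ W₂ : ValuationSubring F₂, W₂.comap (algebraMap F₁ F₂) = V → W₂ = W ∨ W₂ = W')
    {r : ℕ} (hr : 0 < r) (hdeg : Module.finrank F₁ F₂ = r)
    {y : F₂} {π : F₁} (hπ0 : π ≠ 0) (hπ : V.valuation π < 1) (hyW : W.valuation y = 1)
    (hyW' : W'.valuation (y ^ (r - 1)) = W'.valuation (algebraMap F₁ F₂ π))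
    (hNy : V.valuation (Algebra.norm F₁ y) = V.valuation π)
    {H : F₂} {a₁ a₂ : F₁} (ha₁ : a₁ ∈ V) (ha₂ : a₂ ∈ V)
    (h₁ : W.valuation (algebraMap F₁ F₂ a₁ - H) < 1)
    (h₂ : W'.valuation (algebraMap F₁ F₂ a₂ - H) < 1) :
    V.valuation (Algebra.norm F₁ H - a₁ * a₂ ^ (r - 1)) < 1 := by
  classical
  obtain ⟨U, hU⟩ := n1e_exists_above (E := AlgebraicClosure F₂) V
  have hcount := n1e_count V W W' hU hW hπ0 hπ hyW hyW' hNy
  set T := Finset.univ.filter fun σ : F₂ →ₐ[F₁] AlgebraicClosure F₂ =>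
      U.comap σ.toRingHom = W' with hT
  have ha₁U : algebraMap F₁ (AlgebraicClosure F₂) a₁ ∈ U := by
    rw [← hU] at ha₁
    exact ha₁
  have ha₂U : algebraMap F₁ (AlgebraicClosure F₂) a₂ ∈ U := by
    rw [← hU] at ha₂
    exact ha₂
  have hval : ∀ σ : F₂ →ₐ[F₁] AlgebraicClosure F₂,
      U.valuation (algebraMap F₁ (AlgebraicClosure F₂) (if σ ∈ T then a₂ else a₁) - σ H) < 1 := by
    intro σ
    by_cases hσ : σ ∈ T
    · have hσW : U.comap σ.toRingHom = W' := (Finset.mem_filter.1 hσ).2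
      have := (n1e_val_comap hσW (algebraMap F₁ F₂ a₂ - H)).2 h₂
      simpa [hσ] using this
    · have hσW : U.comap σ.toRingHom = W := by
        rcases hW _ (n1e_comap_emb hU σ) with h | h
        · exact h
        · exact absurd (show σ ∈ T from Finset.mem_filter.2 ⟨Finset.mem_univ σ, h⟩) hσ
      have := (n1e_val_comap hσW (algebraMap F₁ F₂ a₁ - H)).2 h₁
      simpa [hσ] using this
  have haU : ∀ σ : F₂ →ₐ[F₁] AlgebraicClosure F₂,
      algebraMap F₁ (AlgebraicClosure F₂) (if σ ∈ T then a₂ else a₁) ∈ U := by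
    intro σ
    split_ifs
    · exact ha₂U
    · exact ha₁U
  have hσH : ∀ σ : F₂ →ₐ[F₁] AlgebraicClosure F₂, σ H ∈ U :=
    fun σ => n1e_mem_of_sub (haU σ) (hval σ)
  have hN : algebraMap F₁ (AlgebraicClosure F₂) (Algebra.norm F₁ H) = ∏ σ : F₂ →ₐ[F₁] _, σ H :=
    Algebra.norm_eq_prod_embeddings F₁ (AlgebraicClosure F₂) H
  have hNU : algebraMap F₁ (AlgebraicClosure F₂) (Algebra.norm F₁ H) ∈ U := by
    rw [hN]
    exact U.prod_mem fun σ _ => hσH σ
  have h2 : residue U ⟨_, hNU⟩ = ∏ σ : F₂ →ₐ[F₁] _, residue U ⟨σ H, hσH σ⟩ := by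
    rw [← map_prod]
    congr 1
    apply Subtype.ext
    simp [hN]
  have h3 : ∀ σ : F₂ →ₐ[F₁] AlgebraicClosure F₂, residue U ⟨σ H, hσH σ⟩ =
      if σ ∈ T then residue U ⟨_, ha₂U⟩ else residue U ⟨_, ha₁U⟩ := by
    intro σ
    have := (n1e_res_eq_iff U ⟨_, haU σ⟩ ⟨σ H, hσH σ⟩).2 (hval σ)
    rw [← this]
    split_ifs <;> rfl
  have hcard : (Finset.univ \ T).card = 1 := by
    rw [Finset.card_sdiff_of_subset (Finset.subset_univ T), Finset.card_univ, AlgHom.card, hdeg,
      hcount]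
    omega
  have h4 : residue U ⟨_, hNU⟩ = residue U ⟨_, ha₁U⟩ * residue U ⟨_, ha₂U⟩ ^ (r - 1) := by
    rw [h2, Finset.prod_congr rfl (fun σ _ => h3 σ), Finset.prod_ite, Finset.prod_const,
      Finset.prod_const, mul_comm]
    congr 1
    · have : (Finset.univ.filter fun σ : F₂ →ₐ[F₁] AlgebraicClosure F₂ => σ ∉ T) =
          Finset.univ \ T := by
        ext σ
        simp
      rw [this, hcard, pow_one]
    · have : (Finset.univ.filter fun σ : F₂ →ₐ[F₁] AlgebraicClosure F₂ => σ ∈ T) = T := by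
        ext σ
        simp
      rw [this, hcount]
  rw [← map_pow, ← map_mul, n1e_res_eq_iff] at h4
  rw [← n1e_val_comap hU, map_sub, map_mul, map_pow]
  exact h4

end norm

end Fermat.Agent.CARlib
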