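import Fermat.Agent.CAR.NDefs

/-!
# T-CAR, block N, rows (N1a), (N1c)
-/

set_option autoImplicit false

namespace Fermat.Agent.CARlib

open Fermat.Agent.UNIlib.Normalise Polynomial

variable {F₁ F₂ : Type*} [Field F₁] [Field F₂] [Algebra F₁ F₂]

/-- the determinant of a matrix with entries in a subring lies in the subring -/
theorem n1_det_mem {n : Type*} [Fintype n] [DecidableEq n] {A : Type*} [CommRing A] (V : Subring A)
    (M : Matrix n n A) (hM : ∀ i j, M i j ∈ V) : M.det ∈ V := by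
  rw [Matrix.det_apply]
  refine Subring.sum_mem _ fun σ _ => ?_
  rcases Int.units_eq_one_or (Equiv.Perm.sign σ) with h1 | h1
  · rw [h1, one_smul]
    exact Subring.prod_mem _ fun i _ => hM _ _
  · rw [h1, Units.neg_smul, one_smul]
    exact V.neg_mem (Subring.prod_mem _ fun i _ => hM _ _)

/-- the entries of the multiplication matrix -/
theorem n1_leftMulMatrix_mem {n : ℕ} (b : Module.Basis (Fin n) F₁ F₂) (V : Subring F₁)
    (C : Subring F₂) (hb : ∀ x : F₂, x ∈ C ↔ ∀ i, b.repr x i ∈ V) {x : F₂} (hx : x ∈ C) (i j : Fin n) :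
    Algebra.leftMulMatrix b x i j ∈ V := by
  rw [Algebra.leftMulMatrix_eq_repr_mul]
  refine (hb _).1 (C.mul_mem hx ?_) i
  rw [hb]
  intro k
  rw [Module.Basis.repr_self, Finsupp.single_apply]
  split_ifs
  · exact V.one_mem
  · exact V.zero_mem

/-- (N1a) `leftMulMatrix b x` has entries in `V`, so its determinant is in `V`. -/
theorem n1_norm_mem {n : ℕ} (b : Module.Basis (Fin n) F₁ F₂) (V : Subring F₁) (C : Subring F₂)
    (hb : ∀ x : F₂, x ∈ C ↔ ∀ i, b.repr x i ∈ V) {x : F₂} (hx : x ∈ C) :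
    Algebra.norm F₁ x ∈ V := by
  rw [Algebra.norm_eq_matrix_det b]
  exact n1_det_mem V _ (n1_leftMulMatrix_mem b V C hb hx)

/-- (N1c) -/
theorem n1_norm_sub [FiniteDimensional F₁ F₂] {r : ℕ} (hfin : Module.finrank F₁ F₂ = r) (θ : F₂)
    (G : F₁[X]) (hGm : G.Monic) (hGd : G.natDegree = r) (hGθ : aeval θ G = 0)
    (hgen : Algebra.adjoin F₁ {θ} = ⊤) (c : F₁) :
    Algebra.norm F₁ (θ - algebraMap F₁ F₂ c) = (-1) ^ r * G.eval c := by
  have hint : IsIntegral F₁ θ := Algebra.IsIntegral.isIntegral θ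
  -- `G = minpoly θ`
  have hdeg : (minpoly F₁ θ).natDegree = r := by
    have h1 := (Algebra.adjoin.powerBasis hint).finrank
    rw [Algebra.adjoin.powerBasis_dim] at h1
    rw [← h1, hgen, ← hfin]
    exact (Subalgebra.topEquiv (R := F₁) (A := F₂)).toLinearEquiv.finrank_eq
  have hG : G = minpoly F₁ θ := by
    have h1 : minpoly F₁ θ ∣ G := minpoly.dvd F₁ θ hGθ
    exact Polynomial.eq_of_monic_of_dvd_of_natDegree_le (minpoly.monic hint) hGm h1
      (by rw [hdeg, hGd])
  -- the minimal polynomial of `θ - c`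
  have hgen' : Algebra.adjoin F₁ {θ - algebraMap F₁ F₂ c} = ⊤ := by
    rw [eq_top_iff, ← hgen]
    refine Algebra.adjoin_le ?_
    intro z hz
    rw [Set.mem_singleton_iff] at hz
    have h2 : z = (θ - algebraMap F₁ F₂ c) + algebraMap F₁ F₂ c := by rw [hz]; ring
    rw [h2]
    exact Subalgebra.add_mem _ (Algebra.subset_adjoin rfl) (Subalgebra.algebraMap_mem _ c)
  have hint' : IsIntegral F₁ (θ - algebraMap F₁ F₂ c) := Algebra.IsIntegral.isIntegral _
  let pb : PowerBasis F₁ F₂ :=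
    (Algebra.adjoin.powerBasis hint').map
      ((Subalgebra.equivOfEq _ _ hgen').trans (Subalgebra.topEquiv (R := F₁) (A := F₂)))
  have hpbgen : pb.gen = θ - algebraMap F₁ F₂ c := rfl
  have h3 := Algebra.PowerBasis.norm_gen_eq_coeff_zero_minpoly pb
  rw [hpbgen] at h3
  rw [h3, minpoly.sub_algebraMap, ← hG]
  have hdim : pb.dim = r := by
    rw [← pb.finrank, hfin]
  rw [hdim, coeff_zero_eq_eval_zero, eval_comp]
  simp

end Fermat.Agent.CARlib
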