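import Fermat.Agent.CAR.N1a

/-!
# T-CAR, block N, row (N1b): `x ≡ 1 mod rad C` implies `N x ≡ 1 mod π V`
-/

set_option autoImplicit false

namespace Fermat.Agent.CARlib

open Fermat.Agent.UNIlib.Normalise Polynomial

variable {F₁ F₂ : Type*} [Field F₁] [Field F₂] [Algebra F₁ F₂]

theorem n1_isNilpotent_det_one_add {n A : Type*} [Fintype n] [DecidableEq n] [CommRing A]
    (M : Matrix n n A) (hM : IsNilpotent M) : IsNilpotent ((1 + M).det - 1) := by
  have h1 : IsNilpotent (-M) := hM.neg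
  have h2 := Matrix.isNilpotent_charpoly_sub_pow_of_isNilpotent h1
  have h3 := h2.map (Polynomial.evalRingHom (1 : A))
  simpa [Matrix.eval_charpoly] using h3

theorem n1_unif_ne_zero {F : Type*} [Field F] {V : Subring F} {ϖ : F} (d : IsDV V ϖ) : ϖ ≠ 0 := by
  rintro rfl
  apply d.unif_inv
  rw [inv_zero]
  exact V.zero_mem

/-- `π V` is a radical ideal -/
theorem n1_div_mem_of_pow {F : Type*} [Field F] {V : Subring F} {ϖ : F} (d : IsDV V ϖ) {x : F}
    (hx : x ∈ V) {N : ℕ} (h : x ^ N / ϖ ∈ V) : x / ϖ ∈ V := by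
  by_cases hx0 : x = 0
  · rw [hx0, zero_div]
    exact V.zero_mem
  rcases d.max x hx with h1 | h1
  · exfalso
    apply d.unif_inv
    have h2 : ϖ⁻¹ = x ^ N / ϖ * x⁻¹ ^ N := by
      have := n1_unif_ne_zero d
      rw [inv_pow, div_mul_eq_mul_div, mul_inv_cancel₀ (pow_ne_zero _ hx0), one_div]
    rw [h2]
    exact V.mul_mem h (V.pow_mem h1 N)
  · exact h1

/-- (N1b) `M = leftMulMatrix b (x - 1)` has entries in `V` and `M ^ k ∈ π Mat(V)`: modulo the prime
`π` the matrix is nilpotent, so `det (1 + M) = 1` there. -/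
theorem n1_norm_oneMod {n : ℕ} (b : Module.Basis (Fin n) F₁ F₂) (V : Subring F₁) (C : Subring F₂)
    (hb : ∀ x : F₂, x ∈ C ↔ ∀ i, b.repr x i ∈ V) {π₁ : F₁} (dV : IsDV V π₁) {x : F₂} {k : ℕ}
    (hx : x - 1 ∈ C) (hk : (x - 1) ^ k / algebraMap F₁ F₂ π₁ ∈ C) :
    OneMod V π₁ (Algebra.norm F₁ x) := by
  classical
  have hπ0 : π₁ ≠ 0 := n1_unif_ne_zero dV
  have hπ0' : algebraMap F₁ F₂ π₁ ≠ 0 := (_root_.map_ne_zero _).2 hπ0
  set M := Algebra.leftMulMatrix b (x - 1) with hM
  have hMV : ∀ i j, M i j ∈ V := n1_leftMulMatrix_mem b V C hb hx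
  let M' : Matrix (Fin n) (Fin n) V := fun i j => ⟨M i j, hMV i j⟩
  have hM' : V.subtype.mapMatrix M' = M := rfl
  let π' : V := ⟨π₁, dV.unif_mem⟩
  let I : Ideal V := Ideal.span {π'}
  have hnil : IsNilpotent ((Ideal.Quotient.mk I).mapMatrix M') := by
    refine ⟨k, ?_⟩
    rw [← map_pow]
    ext i j
    rw [RingHom.mapMatrix_apply, Matrix.map_apply, Matrix.zero_apply,
      Ideal.Quotient.eq_zero_iff_mem, Ideal.mem_span_singleton]
    have h1 : V.subtype.mapMatrix (M' ^ k) = π₁ • Algebra.leftMulMatrix b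
        ((x - 1) ^ k / algebraMap F₁ F₂ π₁) := by
      rw [map_pow, hM', hM, ← map_pow, ← map_smul, Algebra.smul_def]
      congr 1
      field_simp
    have h2 := congrFun (congrFun h1 i) j
    rw [RingHom.mapMatrix_apply, Matrix.map_apply, Matrix.smul_apply, smul_eq_mul] at h2
    refine ⟨⟨_, n1_leftMulMatrix_mem b V C hb hk i j⟩, Subtype.ext ?_⟩
    exact h2
  obtain ⟨N, hN⟩ := n1_isNilpotent_det_one_add _ hnil
  have h3 : (1 + (Ideal.Quotient.mk I).mapMatrix M').det - 1 =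
      Ideal.Quotient.mk I ((1 + M').det - 1) := by
    rw [map_sub, map_one, RingHom.map_det, map_add, map_one]
  rw [h3, ← map_pow, Ideal.Quotient.eq_zero_iff_mem, Ideal.mem_span_singleton] at hN
  obtain ⟨z, hz⟩ := hN
  have h4 : Algebra.norm F₁ x = V.subtype ((1 + M').det) := by
    rw [RingHom.map_det, map_add, map_one, hM', hM, Algebra.norm_eq_matrix_det b, ← map_one
      (Algebra.leftMulMatrix b), ← map_add]
    congr 2
    ring
  have h5 : (Algebra.norm F₁ x - 1) ^ N = π₁ * (z : F₁) := by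
    have := congrArg V.subtype hz
    rw [map_pow, map_sub, map_one, ← h4, map_mul] at this
    exact this
  refine n1_div_mem_of_pow dV (N := N) ?_ ?_
  · rw [h4]
    exact V.sub_mem (Subtype.property _) V.one_mem
  · rw [h5, mul_div_cancel_left₀ _ hπ0]
    exact z.2

end Fermat.Agent.CARlib
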