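import Fermat.Agent.CAR.N1b

/-!
# T-CAR, block N, row (N2): `NHalf` from the monogenic description
-/

set_option autoImplicit false

namespace Fermat.Agent.CARlib

open Fermat.Agent.UNIlib.Normalise Polynomial

/-! ### API for `IsDV`, `nU`, divisibility by the uniformiser -/

section api

variable {F : Type*} [Field F] {V : Subring F} {ϖ : F}

theorem IsDV.nh_ne_zero (d : IsDV V ϖ) : ϖ ≠ 0 := by
  rintro rfl
  exact d.unif_inv (by rw [inv_zero]; exact V.zero_mem)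

theorem nh_nU_one : nU V (1 : F) := ⟨one_ne_zero, V.one_mem, by rw [inv_one]; exact V.one_mem⟩

theorem nU.nh_mul {x y : F} (hx : nU V x) (hy : nU V y) : nU V (x * y) :=
  ⟨mul_ne_zero hx.1 hy.1, V.mul_mem hx.2.1 hy.2.1, by
    rw [mul_inv]; exact V.mul_mem hx.2.2 hy.2.2⟩

theorem nU.nh_inv {x : F} (hx : nU V x) : nU V x⁻¹ :=
  ⟨inv_ne_zero hx.1, hx.2.2, by rw [inv_inv]; exact hx.2.1⟩

theorem nU.nh_div {x y : F} (hx : nU V x) (hy : nU V y) : nU V (x / y) := by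
  rw [div_eq_mul_inv]; exact hx.nh_mul hy.nh_inv

theorem nU.nh_neg {x : F} (hx : nU V x) : nU V (-x) :=
  ⟨neg_ne_zero.2 hx.1, V.neg_mem hx.2.1, by rw [inv_neg]; exact V.neg_mem hx.2.2⟩

theorem nU.nh_pow {x : F} (hx : nU V x) (n : ℕ) : nU V (x ^ n) :=
  ⟨pow_ne_zero _ hx.1, V.pow_mem hx.2.1 n, by rw [← inv_pow]; exact V.pow_mem hx.2.2 n⟩

theorem nU.nh_zpow {x : F} (hx : nU V x) (n : ℤ) : nU V (x ^ n) := by
  cases n with
  | ofNat n => simpa using hx.nh_pow n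
  | negSucc n => rw [zpow_negSucc]; exact (hx.nh_pow _).nh_inv

/-- `x ∈ ϖ V` -/
def nhD (V : Subring F) (ϖ x : F) : Prop := x / ϖ ∈ V

theorem nhD_zero : nhD V ϖ 0 := by rw [nhD, zero_div]; exact V.zero_mem

theorem nhD.add {x y : F} (hx : nhD V ϖ x) (hy : nhD V ϖ y) : nhD V ϖ (x + y) := by
  rw [nhD, add_div]; exact V.add_mem hx hy

theorem nhD.sub {x y : F} (hx : nhD V ϖ x) (hy : nhD V ϖ y) : nhD V ϖ (x - y) := by
  rw [nhD, sub_div]; exact V.sub_mem hx hy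

theorem nhD.neg {x : F} (hx : nhD V ϖ x) : nhD V ϖ (-x) := by
  rw [nhD, neg_div]; exact V.neg_mem hx

theorem nhD.mul_left {x a : F} (hx : nhD V ϖ x) (ha : a ∈ V) : nhD V ϖ (a * x) := by
  rw [nhD, mul_div_assoc]; exact V.mul_mem ha hx

theorem nhD.mul_right {x a : F} (hx : nhD V ϖ x) (ha : a ∈ V) : nhD V ϖ (x * a) := by
  rw [mul_comm]; exact hx.mul_left ha

theorem nhD.mem (d : IsDV V ϖ) {x : F} (hx : nhD V ϖ x) : x ∈ V := by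
  have : x = ϖ * (x / ϖ) := by rw [mul_div_cancel₀ _ d.nh_ne_zero]
  rw [this]; exact V.mul_mem d.unif_mem hx

theorem nhD_self (d : IsDV V ϖ) : nhD V ϖ ϖ := by
  rw [nhD, div_self d.nh_ne_zero]; exact V.one_mem

theorem IsDV.nh_unit_or (d : IsDV V ϖ) {x : F} (hx : x ∈ V) : nU V x ∨ nhD V ϖ x := by
  by_cases h0 : x = 0
  · right; rw [h0]; exact nhD_zero
  · rcases d.max x hx with h | h
    · exact Or.inl ⟨h0, hx, h⟩
    · exact Or.inr h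

theorem IsDV.nh_not_both (d : IsDV V ϖ) {x : F} (hx : nU V x) : ¬ nhD V ϖ x := by
  intro h
  apply d.unif_inv
  have : ϖ⁻¹ = x / ϖ * x⁻¹ := by
    rw [div_mul_eq_mul_div, mul_inv_cancel₀ hx.1, one_div]
  rw [this]; exact V.mul_mem h hx.2.2

theorem IsDV.nh_unit_of_sub (d : IsDV V ϖ) {x x' : F} (hx : nU V x) (h : nhD V ϖ (x' - x)) :
    nU V x' := by
  have hx' : x' ∈ V := by
    have : x' = (x' - x) + x := by ring
    rw [this]; exact V.add_mem (h.mem d) hx.2.1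
  rcases d.nh_unit_or hx' with h1 | h1
  · exact h1
  · exfalso
    apply d.nh_not_both hx
    have : x = x' - (x' - x) := by ring
    rw [this]; exact h1.sub h

theorem nh_oneMod_of_sub {x u : F} (hu : nU V u) (h : nhD V ϖ (x - u)) : OneMod V ϖ (x / u) := by
  have : (x / u - 1) / ϖ = (x - u) / ϖ * u⁻¹ := by
    have := hu.1
    field_simp
  rw [OneMod, this]; exact V.mul_mem h hu.2.2

theorem nh_sub_of_oneMod {x u : F} (hu0 : u ≠ 0) (hu : u ∈ V) (h : OneMod V ϖ (x / u)) :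
    nhD V ϖ (x - u) := by
  have : (x - u) / ϖ = (x / u - 1) / ϖ * u := by
    field_simp
  rw [nhD, this]; exact V.mul_mem h hu

theorem nh_oneMod_iff {x : F} : OneMod V ϖ x ↔ nhD V ϖ (x - 1) := Iff.rfl

theorem IsDV.nh_unit_of_oneMod (d : IsDV V ϖ) {x : F} (h : OneMod V ϖ x) : nU V x :=
  d.nh_unit_of_sub nh_nU_one h

theorem IsDV.nh_oneMod_inv (d : IsDV V ϖ) {x : F} (h : OneMod V ϖ x) : OneMod V ϖ x⁻¹ := by
  have hu := d.nh_unit_of_oneMod h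
  have : x⁻¹ = 1 / x := by rw [one_div]
  rw [this]
  apply nh_oneMod_of_sub hu
  have h2 : (1 : F) - x = -(x - 1) := by ring
  rw [h2]; exact nhD.neg h

theorem IsDV.nh_oneMod_mul (d : IsDV V ϖ) {x y : F} (hx : OneMod V ϖ x) (hy : OneMod V ϖ y) :
    OneMod V ϖ (x * y) := hx.mul d.nh_ne_zero d.unif_mem hy

theorem IsDV.nh_oneMod_div (d : IsDV V ϖ) {x y : F} (hx : OneMod V ϖ x) (hy : OneMod V ϖ y) :
    OneMod V ϖ (x / y) := by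
  rw [div_eq_mul_inv]; exact d.nh_oneMod_mul hx (d.nh_oneMod_inv hy)

theorem IsDV.nh_of_pow (d : IsDV V ϖ) {x : F} (hx : x ∈ V) {k : ℕ} (h : nhD V ϖ (x ^ k)) :
    nhD V ϖ x := by
  rcases d.nh_unit_or hx with h1 | h1
  · exact absurd h (d.nh_not_both (h1.nh_pow k))
  · exact h1

end api

/-! ### coordinates -/

section coord

variable {F₁ F₂ : Type*} [Field F₁] [Field F₂] [Algebra F₁ F₂]

theorem nh_algebraMap_mem {r : ℕ} (hr : 0 < r) {θ : F₂} (b : Module.Basis (Fin r) F₁ F₂)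
    (hbθ : ∀ i, b i = θ ^ (i : ℕ)) {V : Subring F₁} {C : Subring F₂}
    (hC : ∀ x : F₂, x ∈ C ↔ ∀ i, b.repr x i ∈ V) {z : F₁} (hz : z ∈ V) :
    algebraMap F₁ F₂ z ∈ C := by
  rw [hC]
  intro i
  have h1 : algebraMap F₁ F₂ z = z • b ⟨0, hr⟩ := by
    rw [hbθ, pow_zero, Algebra.smul_def, mul_one]
  rw [h1, map_smul, Module.Basis.repr_self, Finsupp.smul_single, Finsupp.single_apply]
  split_ifs
  · simpa using hz
  · exact V.zero_mem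

theorem nh_theta_mem {r : ℕ} (hr : 1 < r) {θ : F₂} (b : Module.Basis (Fin r) F₁ F₂)
    (hbθ : ∀ i, b i = θ ^ (i : ℕ)) {V : Subring F₁} {C : Subring F₂}
    (hC : ∀ x : F₂, x ∈ C ↔ ∀ i, b.repr x i ∈ V) : θ ∈ C := by
  have h1 : θ = b ⟨1, hr⟩ := by rw [hbθ, pow_one]
  have h2 : b ⟨1, hr⟩ ∈ C := by
    rw [hC]
    intro i
    rw [Module.Basis.repr_self, Finsupp.single_apply]
    split_ifs
    · exact V.one_mem
    · exact V.zero_mem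
  rw [h1]
  exact h2

/-- evaluation of `x = P(θ)` at `θ ≡ α` -/
theorem nh_eval_sub {r : ℕ} {θ : F₂} (b : Module.Basis (Fin r) F₁ F₂)
    (hbθ : ∀ i, b i = θ ^ (i : ℕ)) {V : Subring F₁} {W : Subring F₂} {ϖ : F₂}
    (hVW : ∀ z ∈ V, algebraMap F₁ F₂ z ∈ W) (hθW : θ ∈ W) {α : F₁} (hα : α ∈ V)
    (hθα : nhD W ϖ (θ - algebraMap F₁ F₂ α)) {x : F₂} (hx : ∀ i, b.repr x i ∈ V) :
    ∃ z ∈ V, nhD W ϖ (x - algebraMap F₁ F₂ z) := by
  have hpow : ∀ n : ℕ, nhD W ϖ (θ ^ n - (algebraMap F₁ F₂ α) ^ n) := by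
    intro n
    induction n with
    | zero => rw [pow_zero, pow_zero, sub_self]; exact nhD_zero
    | succ n ih =>
      have : θ ^ (n + 1) - (algebraMap F₁ F₂ α) ^ (n + 1) =
          θ * (θ ^ n - (algebraMap F₁ F₂ α) ^ n) +
            (θ - algebraMap F₁ F₂ α) * (algebraMap F₁ F₂ α) ^ n := by ring
      rw [this]
      exact (ih.mul_left hθW).add (hθα.mul_right (W.pow_mem (hVW α hα) n))
  have key : ∀ s : Fin r → F₁, (∀ i, s i ∈ V) →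
      nhD W ϖ ((∑ i, algebraMap F₁ F₂ (s i) * θ ^ (i : ℕ)) -
        algebraMap F₁ F₂ (∑ i, s i * α ^ (i : ℕ))) := by
    intro s hs
    have : (∑ i, algebraMap F₁ F₂ (s i) * θ ^ (i : ℕ)) -
        algebraMap F₁ F₂ (∑ i, s i * α ^ (i : ℕ)) =
        ∑ i, algebraMap F₁ F₂ (s i) * (θ ^ (i : ℕ) - (algebraMap F₁ F₂ α) ^ (i : ℕ)) := by
      rw [map_sum, ← Finset.sum_sub_distrib]
      refine Finset.sum_congr rfl fun i _ => ?_
      rw [map_mul, map_pow]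
      ring
    rw [this, nhD, Finset.sum_div]
    exact W.sum_mem fun i _ => (hpow i).mul_left (hVW _ (hs i))
  have hx' : (∑ i, algebraMap F₁ F₂ (b.repr x i) * θ ^ (i : ℕ)) = x := by
    conv_rhs => rw [← b.sum_repr x]
    exact Finset.sum_congr rfl fun i _ => by rw [Algebra.smul_def, hbθ]
  refine ⟨∑ i, b.repr x i * α ^ (i : ℕ),
    V.sum_mem fun i _ => V.mul_mem (hx i) (V.pow_mem hα _), ?_⟩
  have := key (fun i => b.repr x i) hx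
  rwa [hx'] at this

theorem nh_mem_of_algebraMap_mem {V : Subring F₁} {π₁ : F₁} (dV : IsDV V π₁) {W : Subring F₂}
    (hVW : ∀ z ∈ V, algebraMap F₁ F₂ z ∈ W) (hW : (algebraMap F₁ F₂ π₁)⁻¹ ∉ W) {z : F₁}
    (hz : algebraMap F₁ F₂ z ∈ W) : z ∈ V := by
  by_contra hzV
  have h1 : z⁻¹ ∈ V := (dV.total z).resolve_left hzV
  rcases dV.max _ h1 with h2 | h2
  · rw [inv_inv] at h2; exact hzV h2
  · apply hW
    have h3 := W.mul_mem (hVW _ h2) hz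
    have hz0 : z ≠ 0 := by rintro rfl; exact hzV V.zero_mem
    have : algebraMap F₁ F₂ (z⁻¹ / π₁) * algebraMap F₁ F₂ z = (algebraMap F₁ F₂ π₁)⁻¹ := by
      rw [← map_mul, ← map_inv₀]
      congr 1
      field_simp
    rwa [this] at h3

theorem nh_nU_of_algebraMap {V : Subring F₁} {π₁ : F₁} (dV : IsDV V π₁) {W : Subring F₂}
    (hVW : ∀ z ∈ V, algebraMap F₁ F₂ z ∈ W) (hW : (algebraMap F₁ F₂ π₁)⁻¹ ∉ W) {z : F₁}
    (hz : nU W (algebraMap F₁ F₂ z)) : nU V z :=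
  ⟨fun h => hz.1 (by rw [h, map_zero]), nh_mem_of_algebraMap_mem dV hVW hW hz.2.1,
    nh_mem_of_algebraMap_mem dV hVW hW (by rw [map_inv₀]; exact hz.2.2)⟩

theorem nh_nU_algebraMap {V : Subring F₁} {W : Subring F₂}
    (hVW : ∀ z ∈ V, algebraMap F₁ F₂ z ∈ W) {z : F₁} (hz : nU V z) :
    nU W (algebraMap F₁ F₂ z) :=
  ⟨(_root_.map_ne_zero _).2 hz.1, hVW _ hz.2.1, by rw [← map_inv₀]; exact hVW _ hz.2.2⟩

theorem nh_nhD_algebraMap {V : Subring F₁} {W : Subring F₂} {π₁ : F₁}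
    (hVW : ∀ z ∈ V, algebraMap F₁ F₂ z ∈ W) {z : F₁} (hz : nhD V π₁ z) :
    nhD W (algebraMap F₁ F₂ π₁) (algebraMap F₁ F₂ z) := by
  rw [nhD, ← map_div₀]; exact hVW _ hz

end coord

/-! ### norms -/

section norm

variable {F₁ F₂ : Type*} [Field F₁] [Field F₂] [Algebra F₁ F₂]

theorem nh_norm_unit {n : ℕ} (b : Module.Basis (Fin n) F₁ F₂) {V : Subring F₁} {C : Subring F₂}
    (hb : ∀ x : F₂, x ∈ C ↔ ∀ i, b.repr x i ∈ V) (N : F₂ →*₀ F₁)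
    (hN : ∀ x, N x = Algebra.norm F₁ x) {u : F₂} (hu : nU C u) : nU V (N u) :=
  ⟨(_root_.map_ne_zero N).2 hu.1, by rw [hN]; exact n1_norm_mem b V C hb hu.2.1, by
    rw [← map_inv₀, hN]; exact n1_norm_mem b V C hb hu.2.2⟩

theorem nh_N_e {r : ℕ} (b : Module.Basis (Fin r) F₁ F₂) (N : F₂ →*₀ F₁)
    (hN : ∀ x, N x = Algebra.norm F₁ x) (z : F₁) : N (algebraMap F₁ F₂ z) = z ^ r := by
  rw [hN, Algebra.norm_algebraMap, Module.finrank_eq_card_basis b, Fintype.card_fin]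

/-- field `ordF` -/
theorem nh_ordF {r : ℕ} (b : Module.Basis (Fin r) F₁ F₂) {VF : Subring F₁} {Wi : Subring F₂}
    (hCi : ∀ x : F₂, x ∈ Wi ↔ ∀ i, b.repr x i ∈ VF) (N : F₂ →*₀ F₁)
    (hN : ∀ x, N x = Algebra.norm F₁ x) (π₁ : F₁) (x : F₂) (n : ℤ)
    (h : nU Wi (x / (algebraMap F₁ F₂ π₁) ^ n)) : nU VF (N x / π₁ ^ ((r : ℤ) * n)) := by
  have h1 := nh_norm_unit b hCi N hN h
  rwa [map_div₀, map_zpow₀, nh_N_e b N hN, ← zpow_natCast, ← zpow_mul] at h1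

/-- field `ordV` -/
theorem nh_ordV {r : ℕ} (hr1 : 1 ≤ r) (b : Module.Basis (Fin r) F₁ F₂) {VV : Subring F₁}
    {Wu Wr : Subring F₂} (hCV : ∀ x : F₂, x ∈ Wu ⊓ Wr ↔ ∀ i, b.repr x i ∈ VV) (N : F₂ →*₀ F₁)
    (hN : ∀ x, N x = Algebra.norm F₁ x) {π₁ : F₁} (hπ0 : π₁ ≠ 0) {y : F₂} (hyU : nU Wu y)
    (hy : nU Wr (y ^ (r - 1) / algebraMap F₁ F₂ π₁)) {w : F₁} (hw : nU VV w)
    (hNy : N y = π₁ * w) (x : F₂) (a' b' : ℤ)
    (h1 : nU Wu (x / (algebraMap F₁ F₂ π₁) ^ a')) (h2 : nU Wr (x / y ^ b')) :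
    nU VV (N x / π₁ ^ (a' + b')) := by
  have hy0 : y ≠ 0 := hyU.1
  have hP0 : algebraMap F₁ F₂ π₁ ≠ 0 := (_root_.map_ne_zero _).2 hπ0
  set k : ℤ := b' - ((r - 1 : ℕ) : ℤ) * a' with hk
  set z : F₂ := (algebraMap F₁ F₂ π₁) ^ a' * y ^ k with hz
  have hU : nU Wu (x / z) := by
    rw [hz, div_mul_eq_div_div]
    exact h1.nh_div (hyU.nh_zpow k)
  have hR : nU Wr (x / z) := by
    have e : x / z = x / y ^ b' * (y ^ (r - 1) / algebraMap F₁ F₂ π₁) ^ a' := by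
      rw [hz, hk, zpow_sub₀ hy0, zpow_mul, zpow_natCast, div_zpow]
      have hA : (algebraMap F₁ F₂ π₁) ^ a' ≠ 0 := zpow_ne_zero _ hP0
      have hB : (y ^ (r - 1)) ^ a' ≠ 0 := zpow_ne_zero _ (pow_ne_zero _ hy0)
      have hY : y ^ b' ≠ 0 := zpow_ne_zero _ hy0
      generalize (algebraMap F₁ F₂ π₁) ^ a' = A at hA ⊢
      generalize (y ^ (r - 1)) ^ a' = B at hB ⊢
      generalize y ^ b' = Y at hY ⊢
      field_simp
    rw [e]
    exact h2.nh_mul (hy.nh_zpow a')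
  have hC : nU (Wu ⊓ Wr) (x / z) :=
    ⟨hU.1, Subring.mem_inf.2 ⟨hU.2.1, hR.2.1⟩, Subring.mem_inf.2 ⟨hU.2.2, hR.2.2⟩⟩
  have hNu := nh_norm_unit b hCV N hN hC
  have hNz : N z = (π₁ ^ r) ^ a' * (π₁ ^ k * w ^ k) := by
    rw [hz, map_mul, map_zpow₀, map_zpow₀, nh_N_e b N hN, hNy, mul_zpow]
  have hexp : π₁ ^ (a' + b') = (π₁ ^ r) ^ a' * π₁ ^ k := by
    rw [← zpow_natCast, ← zpow_mul, ← zpow_add₀ hπ0]
    congr 1
    rw [hk, Nat.cast_sub hr1]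
    push_cast
    ring
  have e2 : N x / π₁ ^ (a' + b') = N (x / z) * w ^ k := by
    rw [map_div₀, hNz, hexp]
    have hA : (π₁ ^ r) ^ a' ≠ 0 := zpow_ne_zero _ (pow_ne_zero _ hπ0)
    have hB : π₁ ^ k ≠ 0 := zpow_ne_zero _ hπ0
    have hW : w ^ k ≠ 0 := zpow_ne_zero _ hw.1
    generalize (π₁ ^ r) ^ a' = A at hA ⊢
    generalize π₁ ^ k = B at hB ⊢
    generalize w ^ k = W at hW ⊢
    field_simp
  rw [e2]
  exact hNu.nh_mul (hw.nh_zpow k)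

/-- Frobenius is injective modulo `π₁ = r` -/
theorem nh_sub_of_pow_sub {r : ℕ} (hr : r.Prime) {V : Subring F₁} {π₁ : F₁} (hπ : π₁ = (r : F₁))
    (dV : IsDV V π₁) {A B : F₁} (hA : A ∈ V) (hB : B ∈ V) (h : nhD V π₁ (A ^ r - B ^ r)) :
    nhD V π₁ (A - B) := by
  apply dV.nh_of_pow (V.sub_mem hA hB) (k := r)
  obtain ⟨s, hs⟩ := exists_add_pow_prime_eq hr (⟨A - B, V.sub_mem hA hB⟩ : V) ⟨B, hB⟩
  have hs' : (A - B + B) ^ r = (A - B) ^ r + B ^ r + (r : F₁) * (A - B) * B * (s : F₁) := by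
    have := congrArg (Subtype.val : V → F₁) hs
    simpa using this
  rw [sub_add_cancel] at hs'
  have e : (A - B) ^ r = (A ^ r - B ^ r) - π₁ * ((A - B) * B * (s : F₁)) := by
    rw [hs', hπ]; ring
  rw [e]
  exact h.sub ((nhD_self dV).mul_right (V.mul_mem (V.mul_mem (V.sub_mem hA hB) hB) s.2))

/-- field `resF` -/
theorem nh_resF {r : ℕ} (hr : r.Prime) (b : Module.Basis (Fin r) F₁ F₂) {θ : F₂}
    (hbθ : ∀ i, b i = θ ^ (i : ℕ)) {VF : Subring F₁}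
    {Wi : Subring F₂} (hCi : ∀ x : F₂, x ∈ Wi ↔ ∀ i, b.repr x i ∈ VF) (N : F₂ →*₀ F₁)
    (hN : ∀ x, N x = Algebra.norm F₁ x) {π₁ : F₁} (hπ : π₁ = (r : F₁)) (dVF : IsDV VF π₁)
    (dWi : IsDV Wi (algebraMap F₁ F₂ π₁))
    (hins : ∀ x ∈ Wi, ∃ z ∈ VF, (x ^ r - algebraMap F₁ F₂ z) / algebraMap F₁ F₂ π₁ ∈ Wi)
    (x : F₂) (hx : nU Wi x) :
    OneMod Wi (algebraMap F₁ F₂ π₁) (x ^ r / algebraMap F₁ F₂ (N x)) := by
  have hVi : ∀ z ∈ VF, algebraMap F₁ F₂ z ∈ Wi := fun z hz =>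
    nh_algebraMap_mem hr.pos b hbθ hCi hz
  obtain ⟨z, hzV, hz⟩ := hins x hx.2.1
  have hz' : nhD Wi (algebraMap F₁ F₂ π₁) (x ^ r - algebraMap F₁ F₂ z) := hz
  have hxr : nU Wi (x ^ r) := hx.nh_pow r
  have hez : nU Wi (algebraMap F₁ F₂ z) := by
    apply dWi.nh_unit_of_sub hxr
    have : algebraMap F₁ F₂ z - x ^ r = -(x ^ r - algebraMap F₁ F₂ z) := by ring
    rw [this]; exact hz'.neg
  have hzU : nU VF z := nh_nU_of_algebraMap dVF hVi dWi.unif_inv hez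
  have h1 : OneMod Wi (algebraMap F₁ F₂ π₁) (x ^ r / algebraMap F₁ F₂ z) :=
    nh_oneMod_of_sub hez hz'
  have h2 : OneMod VF π₁ (Algebra.norm F₁ (x ^ r / algebraMap F₁ F₂ z)) :=
    n1_norm_oneMod b VF Wi hCi dVF (k := 1) (nhD.mem dWi h1) (by rw [pow_one]; exact h1)
  rw [← hN, map_div₀, map_pow, nh_N_e b N hN] at h2
  have h3 : nhD VF π₁ ((N x) ^ r - z ^ r) :=
    nh_sub_of_oneMod (pow_ne_zero _ hzU.1) (VF.pow_mem hzV r) h2
  have hNx : N x ∈ VF := by rw [hN]; exact n1_norm_mem b VF Wi hCi hx.2.1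
  have h4 : nhD VF π₁ (N x - z) := nh_sub_of_pow_sub hr hπ dVF hNx hzV h3
  have h5 : nhD Wi (algebraMap F₁ F₂ π₁) (algebraMap F₁ F₂ (N x) - algebraMap F₁ F₂ z) := by
    rw [← map_sub]; exact nh_nhD_algebraMap hVi h4
  have h6 : nU Wi (algebraMap F₁ F₂ (N x)) := dWi.nh_unit_of_sub hez h5
  apply nh_oneMod_of_sub h6
  have : x ^ r - algebraMap F₁ F₂ (N x) = (x ^ r - algebraMap F₁ F₂ z) -
      (algebraMap F₁ F₂ (N x) - algebraMap F₁ F₂ z) := by ring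
  rw [this]
  exact hz'.sub h5

/-- `x ≡ 1` at `W_u` (mod `π`) and at `W_r` (mod `y`) implies `N x ≡ 1` -/
theorem nh_norm_oneMod_UR {r : ℕ} (hr2 : 2 ≤ r) (b : Module.Basis (Fin r) F₁ F₂)
    {VV : Subring F₁} {Wu Wr : Subring F₂}
    (hCV : ∀ x : F₂, x ∈ Wu ⊓ Wr ↔ ∀ i, b.repr x i ∈ VV) (N : F₂ →*₀ F₁)
    (hN : ∀ x, N x = Algebra.norm F₁ x) {π₁ : F₁} (dVV : IsDV VV π₁)
    (dWu : IsDV Wu (algebraMap F₁ F₂ π₁)) {y : F₂} (dWr : IsDV Wr y)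
    (hy : nU Wr (y ^ (r - 1) / algebraMap F₁ F₂ π₁)) {x : F₂}
    (hU : OneMod Wu (algebraMap F₁ F₂ π₁) x) (hR : OneMod Wr y x) : OneMod VV π₁ (N x) := by
  rw [hN]
  obtain ⟨k, hk⟩ : ∃ k, r - 1 = k + 1 := ⟨r - 2, by omega⟩
  have hUm : x - 1 ∈ Wu := nhD.mem dWu hU
  have hRm : x - 1 ∈ Wr := nhD.mem dWr hR
  refine n1_norm_oneMod b VV (Wu ⊓ Wr) hCV dVV (k := r - 1)
    (Subring.mem_inf.2 ⟨hUm, hRm⟩) (Subring.mem_inf.2 ⟨?_, ?_⟩)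
  · have : (x - 1) ^ (r - 1) / algebraMap F₁ F₂ π₁ =
        (x - 1) / algebraMap F₁ F₂ π₁ * (x - 1) ^ k := by
      rw [hk, pow_succ]; ring
    rw [this]
    exact Wu.mul_mem hU (Wu.pow_mem hUm k)
  · have hy0 := dWr.nh_ne_zero
    have : (x - 1) ^ (r - 1) / algebraMap F₁ F₂ π₁ =
        ((x - 1) / y) ^ (r - 1) * (y ^ (r - 1) / algebraMap F₁ F₂ π₁) := by
      rw [div_pow]
      have := pow_ne_zero (r - 1) hy0
      field_simp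
    rw [this]
    exact Wr.mul_mem (Wr.pow_mem hR _) hy.2.1

/-- field `resV` -/
theorem nh_resV {r : ℕ} (hr2 : 2 ≤ r) (b : Module.Basis (Fin r) F₁ F₂)
    {VV : Subring F₁} {Wu Wr : Subring F₂}
    (hCV : ∀ x : F₂, x ∈ Wu ⊓ Wr ↔ ∀ i, b.repr x i ∈ VV) (N : F₂ →*₀ F₁)
    (hN : ∀ x, N x = Algebra.norm F₁ x) {π₁ : F₁} (dVV : IsDV VV π₁)
    (dWu : IsDV Wu (algebraMap F₁ F₂ π₁)) {y : F₂} (dWr : IsDV Wr y)
    (hy : nU Wr (y ^ (r - 1) / algebraMap F₁ F₂ π₁))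
    (hVu : ∀ z ∈ VV, algebraMap F₁ F₂ z ∈ Wu) (hVr : ∀ z ∈ VV, algebraMap F₁ F₂ z ∈ Wr)
    {θ : F₂} (G : F₁[X])
    (hNθ : ∀ t : F₁, N (θ - algebraMap F₁ F₂ t) = (-1) ^ r * G.eval t)
    (a c : F₁) (hc : c ∈ VV) (hac : nU VV (a - c))
    (hfac : ∀ t ∈ VV, (G.eval t - (t - a) * (t - c) ^ (r - 1)) / π₁ ∈ VV)
    (hθu : (θ - algebraMap F₁ F₂ a) / algebraMap F₁ F₂ π₁ ∈ Wu)
    (hθr : y = θ - algebraMap F₁ F₂ c)
    (x : F₂) (y₁ y₂ : F₁) (hy₁ : nU VV y₁) (hy₂ : nU VV y₂)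
    (hU : OneMod Wu (algebraMap F₁ F₂ π₁) (x / algebraMap F₁ F₂ y₁))
    (hR : OneMod Wr y (x / algebraMap F₁ F₂ y₂)) :
    OneMod VV π₁ (N x / (y₁ * y₂ ^ (r - 1))) := by
  have hr1 : r - 1 + 1 = r := by omega
  set c' : F₁ := y₁ / y₂ with hc'
  have hc'U : nU VV c' := hy₁.nh_div hy₂
  set x' : F₂ := x / algebraMap F₁ F₂ y₂ with hx'
  have hey₁ : algebraMap F₁ F₂ y₁ ≠ 0 := (_root_.map_ne_zero _).2 hy₁.1
  have hey₂ : algebraMap F₁ F₂ y₂ ≠ 0 := (_root_.map_ne_zero _).2 hy₂.1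
  have hxc : x' / algebraMap F₁ F₂ c' = x / algebraMap F₁ F₂ y₁ := by
    rw [hx', hc', map_div₀]
    field_simp
  -- it suffices to find `z'`
  suffices H : ∃ z' : F₂, z' ≠ 0 ∧ OneMod Wu (algebraMap F₁ F₂ π₁) (x' / z') ∧
      OneMod Wr y (x' / z') ∧ OneMod VV π₁ (N z' / c') by
    obtain ⟨z', hz0, h1, h2, h3⟩ := H
    have h4 := nh_norm_oneMod_UR hr2 b hCV N hN dVV dWu dWr hy h1 h2
    have e : N x / (y₁ * y₂ ^ (r - 1)) = N (x' / z') * (N z' / c') := by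
      have hNz : N z' ≠ 0 := (_root_.map_ne_zero N).2 hz0
      rw [map_div₀, hx', map_div₀, nh_N_e b N hN, hc', ← hr1, pow_succ, hr1]
      have := hy₁.1
      have := hy₂.1
      field_simp
    rw [e]
    exact dVV.nh_oneMod_mul h4 h3
  rcases dVV.nh_unit_or (VV.sub_mem hc'U.2.1 VV.one_mem) with hcase | hcase
  · -- `c' - 1` is a unit
    set μ : F₁ := (c' - 1) / (a - c) with hμ
    have hμU : nU VV μ := hcase.nh_div hac
    have hμ0 := hμU.1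
    set t : F₁ := c - μ⁻¹ with ht
    have htV : t ∈ VV := VV.sub_mem hc hμU.2.2
    set z' : F₂ := algebraMap F₁ F₂ μ * (θ - algebraMap F₁ F₂ t) with hz'
    have heμ : algebraMap F₁ F₂ μ ≠ 0 := (_root_.map_ne_zero _).2 hμ0
    have hz1 : z' - 1 = algebraMap F₁ F₂ μ * y := by
      rw [hz', ht, hθr, map_sub, map_inv₀]
      field_simp
      ring
    have hzR : OneMod Wr y z' := by
      rw [nh_oneMod_iff, hz1]
      exact (nhD_self dWr).mul_left (hVr _ hμU.2.1)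
    have hzc : z' - algebraMap F₁ F₂ c' =
        algebraMap F₁ F₂ μ * (θ - algebraMap F₁ F₂ a) := by
      have e1 : algebraMap F₁ F₂ c' = 1 + algebraMap F₁ F₂ μ * algebraMap F₁ F₂ (a - c) := by
        rw [← map_mul, hμ, div_mul_cancel₀ _ hac.1, map_sub, map_one]
        ring
      have e2 : z' = 1 + algebraMap F₁ F₂ μ * y := by rw [← hz1]; ring
      rw [e1, e2, hθr, map_sub]
      ring
    have hec' : nU Wu (algebraMap F₁ F₂ c') := nh_nU_algebraMap hVu hc'U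
    have hzU : OneMod Wu (algebraMap F₁ F₂ π₁) (z' / algebraMap F₁ F₂ c') := by
      apply nh_oneMod_of_sub hec'
      rw [hzc]
      exact nhD.mul_left hθu (hVu _ hμU.2.1)
    have hz0 : z' ≠ 0 := (dWr.nh_unit_of_oneMod hzR).1
    refine ⟨z', hz0, ?_, dWr.nh_oneMod_div hR hzR, ?_⟩
    · have e : x' / z' = (x' / algebraMap F₁ F₂ c') / (z' / algebraMap F₁ F₂ c') := by
        have := hec'.1
        field_simp
      rw [e, hxc]
      exact dWu.nh_oneMod_div hU hzU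
    · apply nh_oneMod_of_sub hc'U
      have hNz : N z' = μ ^ r * ((-1) ^ r * G.eval t) := by
        rw [hz', map_mul, nh_N_e b N hN, hNθ]
      have e1 : (-μ⁻¹) ^ (r - 1) * μ ^ (r - 1) * (-1) ^ (r - 1) = 1 := by
        rw [← mul_pow, ← mul_pow]
        have : -μ⁻¹ * μ * -1 = 1 := by field_simp
        rw [this, one_pow]
      have e2 : t - c = -μ⁻¹ := by rw [ht]; ring
      have e3 : t - a = -(c' * μ⁻¹) := by
        have : a - c = (c' - 1) * μ⁻¹ := by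
          rw [hμ, inv_div, mul_div_assoc', mul_comm, mul_div_assoc, div_self hcase.1, mul_one]
        have h2 : t - a = -(a - c) - μ⁻¹ := by rw [ht]; ring
        rw [h2, this]; ring
      have e4 : μ ^ r * ((-1) ^ r * ((t - a) * (t - c) ^ (r - 1))) = c' := by
        rw [e2, e3, ← hr1, pow_succ, pow_succ, hr1]
        have : μ ^ (r - 1) * μ * ((-1) ^ (r - 1) * -1 * (-(c' * μ⁻¹) * (-μ⁻¹) ^ (r - 1))) =
            ((-μ⁻¹) ^ (r - 1) * μ ^ (r - 1) * (-1) ^ (r - 1)) * (c' * (μ * μ⁻¹)) := by ring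
        rw [this, e1, mul_inv_cancel₀ hμ0, one_mul, mul_one]
      have e5 : N z' - c' = (μ ^ r * (-1) ^ r) *
          (G.eval t - (t - a) * (t - c) ^ (r - 1)) := by
        rw [hNz]
        nth_rewrite 1 [← e4]
        ring
      rw [e5]
      exact nhD.mul_left (hfac t htV)
        (VV.mul_mem (VV.pow_mem hμU.2.1 r) (VV.pow_mem (VV.neg_mem VV.one_mem) r))
  · -- `c' ≡ 1`
    refine ⟨1, one_ne_zero, ?_, by rw [div_one]; exact hR, ?_⟩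
    · rw [div_one]
      have e : x' = (x / algebraMap F₁ F₂ y₁) * algebraMap F₁ F₂ c' := by
        rw [← hxc, div_mul_cancel₀ _ ((_root_.map_ne_zero _).2 hc'U.1)]
      rw [e]
      apply dWu.nh_oneMod_mul hU
      rw [nh_oneMod_iff]
      have : algebraMap F₁ F₂ c' - 1 = algebraMap F₁ F₂ (c' - 1) := by rw [map_sub, map_one]
      rw [this]
      exact nh_nhD_algebraMap hVu hcase
    · rw [map_one, one_div]
      exact dVV.nh_oneMod_inv hcase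

/-- fields `liftU`, `liftR` in a common form -/
theorem nh_lift {r : ℕ} (b : Module.Basis (Fin r) F₁ F₂) {θ : F₂}
    (hbθ : ∀ i, b i = θ ^ (i : ℕ)) {VV : Subring F₁} {W W' : Subring F₂}
    (hCV : ∀ x : F₂, (x ∈ W ∧ x ∈ W') ↔ ∀ i, b.repr x i ∈ VV) {π₁ : F₁} (dVV : IsDV VV π₁)
    {ϖ ϖ' : F₂} (dW : IsDV W ϖ) (dW' : IsDV W' ϖ')
    (hVW : ∀ z ∈ VV, algebraMap F₁ F₂ z ∈ W) (hπW : (algebraMap F₁ F₂ π₁)⁻¹ ∉ W)
    (hθW : θ ∈ W) {α : F₁} (hα : α ∈ VV) (hθα : nhD W ϖ (θ - algebraMap F₁ F₂ α))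
    (happ : ∀ x₁ : F₂, x₁ ≠ 0 → ∃ S : F₂, S ≠ 0 ∧ OneMod W ϖ (S / x₁) ∧ OneMod W' ϖ' S)
    (x : F₂) (hx : nU W x) : ∃ z : F₁, nU VV z ∧ OneMod W ϖ (x / algebraMap F₁ F₂ z) := by
  obtain ⟨S, hS0, hS1, hS2⟩ := happ x hx.1
  have hSx : nhD W ϖ (S - x) := nh_sub_of_oneMod hx.1 hx.2.1 hS1
  have hSW : nU W S := dW.nh_unit_of_sub hx hSx
  have hSW' : S ∈ W' := (dW'.nh_unit_of_oneMod hS2).2.1
  obtain ⟨z, hzV, hz⟩ := nh_eval_sub b hbθ hVW hθW hα hθα ((hCV S).1 ⟨hSW.2.1, hSW'⟩)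
  have hzx : nhD W ϖ (algebraMap F₁ F₂ z - x) := by
    have : algebraMap F₁ F₂ z - x = (S - x) - (S - algebraMap F₁ F₂ z) := by ring
    rw [this]; exact hSx.sub hz
  have hez : nU W (algebraMap F₁ F₂ z) := dW.nh_unit_of_sub hx hzx
  refine ⟨z, nh_nU_of_algebraMap dVV hVW hπW hez, nh_oneMod_of_sub hez ?_⟩
  have : x - algebraMap F₁ F₂ z = -(algebraMap F₁ F₂ z - x) := by ring
  rw [this]; exact hzx.neg

/-- (N2) **`NHalf` from the monogenic description**, for any `N` which is the norm -/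
theorem nh_half [FiniteDimensional F₁ F₂] {r : ℕ} (hr : r.Prime)
    {VF VV : Subring F₁} {π₁ : F₁} (hπ : π₁ = (r : F₁))
    {Wi Wu Wr : Subring F₂} {y : F₂}
    (dVF : IsDV VF π₁) (dVV : IsDV VV π₁) (dWi : IsDV Wi (algebraMap F₁ F₂ π₁))
    (dWu : IsDV Wu (algebraMap F₁ F₂ π₁)) (dWr : IsDV Wr y)
    (hy : nU Wr (y ^ (r - 1) / algebraMap F₁ F₂ π₁))
    (θ : F₂) (b : Module.Basis (Fin r) F₁ F₂) (hbθ : ∀ i, b i = θ ^ (i : ℕ))
    (hCi : ∀ x : F₂, x ∈ Wi ↔ ∀ i, b.repr x i ∈ VF)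
    (hCV : ∀ x : F₂, (x ∈ Wu ∧ x ∈ Wr) ↔ ∀ i, b.repr x i ∈ VV)
    (G : F₁[X]) (hGm : G.Monic) (hGd : G.natDegree = r) (hGθ : aeval θ G = 0)
    (hins : ∀ x ∈ Wi, ∃ z ∈ VF, (x ^ r - algebraMap F₁ F₂ z) / algebraMap F₁ F₂ π₁ ∈ Wi)
    (a c : F₁) (ha : a ∈ VV) (hc : c ∈ VV) (hac : nU VV (a - c))
    (hfac : ∀ t ∈ VV, (G.eval t - (t - a) * (t - c) ^ (r - 1)) / π₁ ∈ VV)
    (hGc : nU VV (G.eval c / π₁))
    (hθu : (θ - algebraMap F₁ F₂ a) / algebraMap F₁ F₂ π₁ ∈ Wu)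
    (hθr : y = θ - algebraMap F₁ F₂ c)
    (happ : ∀ x₁ x₂ : F₂, x₁ ≠ 0 → x₂ ≠ 0 → ∃ S : F₂, S ≠ 0 ∧
      OneMod Wu (algebraMap F₁ F₂ π₁) (S / x₁) ∧ OneMod Wr y (S / x₂))
    (N : F₂ →*₀ F₁) (hN : ∀ x, N x = Algebra.norm F₁ x) :
    NHalf r (algebraMap F₁ F₂) N VF VV π₁ Wi Wu Wr y := by
  have hr2 : 2 ≤ r := hr.two_le
  have hCV' : ∀ x : F₂, x ∈ Wu ⊓ Wr ↔ ∀ i, b.repr x i ∈ VV := fun x =>
    Subring.mem_inf.trans (hCV x)
  have hVu : ∀ z ∈ VV, algebraMap F₁ F₂ z ∈ Wu := fun z hz =>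
    (Subring.mem_inf.1 (nh_algebraMap_mem hr.pos b hbθ hCV' hz)).1
  have hVr : ∀ z ∈ VV, algebraMap F₁ F₂ z ∈ Wr := fun z hz =>
    (Subring.mem_inf.1 (nh_algebraMap_mem hr.pos b hbθ hCV' hz)).2
  have hθC := Subring.mem_inf.1 (nh_theta_mem hr.one_lt b hbθ hCV')
  have hπ0 : π₁ ≠ 0 := dVV.nh_ne_zero
  have hfin : Module.finrank F₁ F₂ = r := by
    rw [Module.finrank_eq_card_basis b, Fintype.card_fin]
  have hgen : Algebra.adjoin F₁ {θ} = ⊤ := by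
    rw [Algebra.eq_top_iff]
    intro x
    rw [← b.sum_repr x]
    refine Subalgebra.sum_mem _ fun i _ => Subalgebra.smul_mem _ ?_ _
    rw [hbθ]
    exact Subalgebra.pow_mem _ (Algebra.self_mem_adjoin_singleton F₁ θ) _
  have hNθ : ∀ t : F₁, N (θ - algebraMap F₁ F₂ t) = (-1) ^ r * G.eval t := fun t => by
    rw [hN]; exact n1_norm_sub hfin θ G hGm hGd hGθ hgen t
  have hyU : nU Wu y := by
    apply dWu.nh_unit_of_sub (nh_nU_algebraMap hVu hac)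
    have : y - algebraMap F₁ F₂ (a - c) = θ - algebraMap F₁ F₂ a := by
      rw [hθr, map_sub]; ring
    rw [this]
    exact hθu
  have hw : nU VV ((-1) ^ r * (G.eval c / π₁)) := ((nh_nU_one.nh_neg).nh_pow r).nh_mul hGc
  have hNy : N y = π₁ * ((-1) ^ r * (G.eval c / π₁)) := by
    rw [hθr, hNθ]
    field_simp
  have hπWr : (algebraMap F₁ F₂ π₁)⁻¹ ∉ Wr := by
    intro h
    apply dWr.unif_inv
    obtain ⟨k, hk⟩ : ∃ k, r - 1 = k + 1 := ⟨r - 2, by omega⟩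
    have hy0 := dWr.nh_ne_zero
    have hP0 : algebraMap F₁ F₂ π₁ ≠ 0 := (_root_.map_ne_zero _).2 hπ0
    have e : y⁻¹ = (algebraMap F₁ F₂ π₁)⁻¹ * (y ^ (r - 1) / algebraMap F₁ F₂ π₁)⁻¹ * y ^ k := by
      rw [hk, pow_succ]
      have := pow_ne_zero k hy0
      field_simp
    rw [e]
    exact Wr.mul_mem (Wr.mul_mem h hy.2.2) (Wr.pow_mem dWr.unif_mem k)
  refine
    { N_e := nh_N_e b N hN
      ordF := nh_ordF b hCi N hN π₁
      ordV := nh_ordV hr.one_le b hCV' N hN hπ0 hyU hy hw hNy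
      resF := nh_resF hr b hbθ hCi N hN hπ dVF dWi hins
      resV := nh_resV hr2 b hCV' N hN dVV dWu dWr hy hVu hVr G hNθ a c hc hac hfac hθu hθr
      memU := fun z => ⟨nh_mem_of_algebraMap_mem dVV hVu dWu.unif_inv, hVu z⟩
      memR := hVr
      liftU := ?_
      liftR := ?_ }
  · refine nh_lift b hbθ hCV dVV dWu dWr hVu dWu.unif_inv hθC.1 ha hθu ?_
    intro x₁ hx₁
    obtain ⟨S, hS0, h1, h2⟩ := happ x₁ 1 hx₁ one_ne_zero
    exact ⟨S, hS0, h1, by rwa [div_one] at h2⟩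
  · refine nh_lift b hbθ (fun x => and_comm.trans (hCV x)) dVV dWr dWu hVr hπWr hθC.2 hc
      (by rw [← hθr]; exact nhD_self dWr) ?_
    intro x₁ hx₁
    obtain ⟨S, hS0, h1, h2⟩ := happ 1 x₁ one_ne_zero hx₁
    exact ⟨S, hS0, h2, by rwa [div_one] at h1⟩

/-- the norm as a monoid-with-zero hom -/
noncomputable def normZH (F₁ F₂ : Type*) [Field F₁] [Field F₂] [Algebra F₁ F₂]
    [FiniteDimensional F₁ F₂] : F₂ →*₀ F₁ :=
  { Algebra.norm F₁ with map_zero' := Algebra.norm_zero }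

@[simp] theorem normZH_apply [FiniteDimensional F₁ F₂] (x : F₂) :
    normZH F₁ F₂ x = Algebra.norm F₁ x := rfl

/-- (N2) **`NHalf` from the monogenic description** `∩_{W | V} W = V[θ]`.
`G = minpoly θ`, `G ≡ (X - a)(X - c)^(r-1) mod π V_V`, `G(c) = π unit` (DIFF), `y = θ - c`,
`θ ≡ a` at `W_u`; `κ_i ^ r ⊆ κ_F` (`hins`). -/
theorem n_half [FiniteDimensional F₁ F₂] {r : ℕ} (hr : r.Prime)
    {VF VV : Subring F₁} {π₁ : F₁} (hπ : π₁ = (r : F₁))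
    {Wi Wu Wr : Subring F₂} {y : F₂}
    (dVF : IsDV VF π₁) (dVV : IsDV VV π₁) (dWi : IsDV Wi (algebraMap F₁ F₂ π₁))
    (dWu : IsDV Wu (algebraMap F₁ F₂ π₁)) (dWr : IsDV Wr y)
    (hy : nU Wr (y ^ (r - 1) / algebraMap F₁ F₂ π₁))
    (θ : F₂) (b : Module.Basis (Fin r) F₁ F₂) (hbθ : ∀ i, b i = θ ^ (i : ℕ))
    (hCi : ∀ x : F₂, x ∈ Wi ↔ ∀ i, b.repr x i ∈ VF)
    (hCV : ∀ x : F₂, (x ∈ Wu ∧ x ∈ Wr) ↔ ∀ i, b.repr x i ∈ VV)
    (G : F₁[X]) (hGm : G.Monic) (hGd : G.natDegree = r) (hGθ : aeval θ G = 0)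
    (hins : ∀ x ∈ Wi, ∃ z ∈ VF, (x ^ r - algebraMap F₁ F₂ z) / algebraMap F₁ F₂ π₁ ∈ Wi)
    (a c : F₁) (ha : a ∈ VV) (hc : c ∈ VV) (hac : nU VV (a - c))
    (hfac : ∀ t ∈ VV, (G.eval t - (t - a) * (t - c) ^ (r - 1)) / π₁ ∈ VV)
    (hGc : nU VV (G.eval c / π₁))
    (hθu : (θ - algebraMap F₁ F₂ a) / algebraMap F₁ F₂ π₁ ∈ Wu)
    (hθr : y = θ - algebraMap F₁ F₂ c)
    (happ : ∀ x₁ x₂ : F₂, x₁ ≠ 0 → x₂ ≠ 0 → ∃ S : F₂, S ≠ 0 ∧
      OneMod Wu (algebraMap F₁ F₂ π₁) (S / x₁) ∧ OneMod Wr y (S / x₂)) :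
    NHalf r (algebraMap F₁ F₂) (normZH F₁ F₂) VF VV π₁ Wi Wu Wr y :=
  nh_half hr hπ dVF dVV dWi dWu dWr hy θ b hbθ hCi hCV G hGm hGd hGθ hins a c ha hc hac hfac hGc
    hθu hθr happ (normZH F₁ F₂) (fun _ => rfl)

end norm

end Fermat.Agent.CARlib
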