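import Mathlib

/-!
# T-CAR, block N, step (S3): `g ≡ 1 mod rad C` is an `m`-th power times `g' ≡ 1 mod π C`

Abstract (Mathlib only).  `ν = g - 1` is nilpotent modulo `π`, `m` is invertible: Newton's method in
`C / π`.
-/

set_option autoImplicit false

open Polynomial

namespace Fermat.Agent.CARlib

/-- (S3), ring form: `1 + ν` is an `m`-th power modulo `π` if `ν` is nilpotent modulo `π` and `m` is
invertible modulo `π`. -/
theorem n3_root_ring {C : Type*} [CommRing C] (π ν : C) (k m : ℕ) (hν : π ∣ ν ^ k)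
    (hm : ∃ m' : C, π ∣ (m : C) * m' - 1) :
    ∃ υ : C, π ∣ υ ^ m - (1 + ν) ∧ ∃ j, π ∣ (υ - 1) ^ j := by
  classical
  let I : Ideal C := Ideal.span {π}
  let mk : C →+* C ⧸ I := Ideal.Quotient.mk I
  have hmk : ∀ x : C, mk x = 0 ↔ π ∣ x := fun x => by
    rw [Ideal.Quotient.eq_zero_iff_mem, Ideal.mem_span_singleton]
  let P : (C ⧸ I)[X] := X ^ m - Polynomial.C (mk (1 + ν))
  have h1 : IsNilpotent (aeval (1 : C ⧸ I) P) := by
    refine ⟨k, ?_⟩
    have : aeval (1 : C ⧸ I) P = mk (-ν) := by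
      simp only [P, map_sub, map_pow, aeval_X, aeval_C, one_pow, Algebra.algebraMap_self,
        RingHom.id_apply, map_add, map_one, map_neg]
      ring
    rw [this, ← map_pow, hmk, neg_pow]
    exact Dvd.dvd.mul_left hν _
  have h2 : IsUnit (aeval (1 : C ⧸ I) (derivative P)) := by
    obtain ⟨m', hm'⟩ := hm
    have : aeval (1 : C ⧸ I) (derivative P) = mk (m : C) := by
      simp only [P, derivative_sub, derivative_X_pow, derivative_C, sub_zero, map_mul, map_pow,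
        aeval_X, one_pow, mul_one, map_natCast]
    rw [this]
    refine IsUnit.of_mul_eq_one (mk m') ?_
    rw [← map_mul, ← sub_eq_zero, ← map_one mk, ← map_sub, hmk]
    exact hm'
  obtain ⟨y, ⟨⟨j, hj⟩, hy⟩, -⟩ := existsUnique_nilpotent_sub_and_aeval_eq_zero h1 h2
  obtain ⟨υ, rfl⟩ := Ideal.Quotient.mk_surjective y
  refine ⟨υ, ?_, j, ?_⟩
  · rw [← hmk, map_sub, map_pow]
    simpa [P] using hy
  · rw [← hmk]
    have : mk ((υ - 1) ^ j) = (-1) ^ j * (1 - mk υ) ^ j := by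
      rw [← mul_pow, map_pow, map_sub, map_one]
      congr 1
      ring
    rw [this]
    have hj' : (1 - mk υ) ^ j = 0 := hj
    rw [hj', mul_zero]

/-- (S3), field form. -/
theorem n3_root {F : Type*} [Field F] (C : Subring F) {π : F} (hπ : π ∈ C) (hπ0 : π ≠ 0)
    (hrad : ∀ x ∈ C, 1 + π * x ≠ 0 ∧ (1 + π * x)⁻¹ ∈ C) (m k : ℕ) (hm0 : (m : F) ≠ 0)
    (hm : (m : F)⁻¹ ∈ C) {g : F} (hg : g - 1 ∈ C) (hgk : (g - 1) ^ k / π ∈ C) :
    ∃ υ : F, υ ≠ 0 ∧ υ ∈ C ∧ υ⁻¹ ∈ C ∧ (∃ j, (υ - 1) ^ j / π ∈ C) ∧ (g / υ ^ m - 1) / π ∈ C := by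
  obtain ⟨υ, ⟨a, ha⟩, j, ⟨b, hb⟩⟩ := n3_root_ring (C := C) ⟨π, hπ⟩ ⟨g - 1, hg⟩ k m
    ⟨⟨_, hgk⟩, Subtype.ext (by simp only [Subring.coe_pow, Subring.coe_mul]; field_simp)⟩
    ⟨⟨_, hm⟩, ⟨0, Subtype.ext (by
      push_cast
      rw [mul_inv_cancel₀ hm0, sub_self, mul_zero])⟩⟩
  have ha' : (υ : F) ^ m - (1 + (g - 1)) = π * a := by
    have := congrArg Subtype.val ha
    simpa using this
  have hb' : ((υ : F) - 1) ^ j = π * b := by
    have := congrArg Subtype.val hb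
    simpa using this
  -- `υ` is a unit of `C`
  have hgeo : (υ : F) * ∑ i ∈ Finset.range j, (1 - (υ : F)) ^ i = 1 + π * (-(-1) ^ j * b) := by
    have h1 := mul_neg_geom_sum (1 - (υ : F)) j
    have h2 : (1 - (υ : F)) ^ j = (-1) ^ j * ((υ : F) - 1) ^ j := by
      rw [← mul_pow]; congr 1; ring
    rw [h2, hb'] at h1
    have h3 : (1 - (1 - (υ : F))) = υ := by ring
    rw [h3] at h1
    rw [h1]; ring
  have hS : ∑ i ∈ Finset.range j, (1 - (υ : F)) ^ i ∈ C :=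
    C.sum_mem fun i _ => C.pow_mem (C.sub_mem C.one_mem υ.2) i
  have hc : -(-1) ^ j * (b : F) ∈ C :=
    C.mul_mem (C.neg_mem (C.pow_mem (C.neg_mem C.one_mem) j)) b.2
  obtain ⟨hne, hinv⟩ := hrad _ hc
  have hυ0 : (υ : F) ≠ 0 := by
    intro h
    rw [h, zero_mul] at hgeo
    exact hne hgeo.symm
  have hυinv : (υ : F)⁻¹ ∈ C := by
    have : (υ : F)⁻¹ = (∑ i ∈ Finset.range j, (1 - (υ : F)) ^ i) * (1 + π * (-(-1) ^ j * b))⁻¹ := by
      rw [← hgeo, mul_inv, mul_comm (υ : F)⁻¹, ← mul_assoc]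
      have hS0 : ∑ i ∈ Finset.range j, (1 - (υ : F)) ^ i ≠ 0 := by
        intro h
        rw [h, mul_zero] at hgeo
        exact hne hgeo.symm
      rw [mul_inv_cancel₀ hS0, one_mul]
    rw [this]
    exact C.mul_mem hS hinv
  refine ⟨υ, hυ0, υ.2, hυinv, ⟨j, ?_⟩, ?_⟩
  · rw [hb', mul_div_cancel_left₀ _ hπ0]
    exact b.2
  · have : (g / (υ : F) ^ m - 1) / π = -(a : F) * ((υ : F)⁻¹) ^ m := by
      have hg' : g = (υ : F) ^ m - π * a := by rw [← ha']; ring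
      rw [hg', inv_pow]
      field_simp
      ring
    rw [this]
    exact C.mul_mem (C.neg_mem a.2) (C.pow_mem hυinv m)

/-- (S3) for a finite family of valuation subrings `W i` of `F` (`C = ⋂ W i`). -/
theorem n3_root_val {F ι : Type*} [Field F] (i₀ : ι) (W : ι → ValuationSubring F) {π : F}
    (hπ0 : π ≠ 0)
    (hπ : ∀ i, π ∈ (W i).nonunits) (m k : ℕ) (hm0 : (m : F) ≠ 0) (hm : ∀ i, (m : F)⁻¹ ∈ W i)
    {g : F} (hg : ∀ i, g - 1 ∈ W i) (hgk : ∀ i, (g - 1) ^ k / π ∈ W i) :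
    ∃ υ : F, υ ≠ 0 ∧ (∀ i, υ ∈ W i) ∧ (∀ i, υ⁻¹ ∈ W i) ∧ (∃ j, ∀ i, (υ - 1) ^ j / π ∈ W i) ∧
      ∀ i, (g / υ ^ m - 1) / π ∈ W i := by
  let C : Subring F := ⨅ i, (W i).toSubring
  have hC : ∀ x, x ∈ C ↔ ∀ i, x ∈ W i := fun x => by
    simp only [C, Subring.mem_iInf]
    rfl
  have hrad : ∀ x ∈ C, 1 + π * x ≠ 0 ∧ (1 + π * x)⁻¹ ∈ C := by
    intro x hx
    by_cases hι : Nonempty ι
    · have key : ∀ i, 1 + π * x ≠ 0 ∧ (1 + π * x)⁻¹ ∈ W i := by
        intro i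
        have h1 : (W i).valuation (π * x) < 1 := by
          rw [map_mul]
          have h2 : (W i).valuation π < 1 := (W i).mem_nonunits_iff.1 (hπ i)
          have h3 : (W i).valuation x ≤ 1 := (W i).valuation_le_one_iff _ |>.2 ((hC x).1 hx i)
          exact mul_lt_one_of_lt_of_le h2 h3
        have h4 : (W i).valuation (1 + π * x) = 1 := by
          rw [add_comm]
          have := Valuation.map_add_eq_of_lt_right (W i).valuation
            (x := π * x) (y := 1) (by rwa [map_one])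
          rw [this, map_one]
        refine ⟨fun h => ?_, ?_⟩
        · rw [h, map_zero] at h4
          exact zero_ne_one h4
        · rw [← (W i).valuation_le_one_iff, map_inv₀, h4, inv_one]
      exact ⟨(key hι.some).1, (hC _).2 fun i => (key i).2⟩
    · exact absurd ⟨i₀⟩ hι
  obtain ⟨υ, h0, h1, h2, ⟨j, h3⟩, h4⟩ := n3_root C ((hC _).2 fun i =>
    (W i).nonunits_subset (hπ i)) hπ0 hrad m k hm0 ((hC _).2 hm) ((hC _).2 hg) ((hC _).2 hgk)
  exact ⟨υ, h0, (hC _).1 h1, (hC _).1 h2, ⟨j, (hC _).1 h3⟩, (hC _).1 h4⟩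

end Fermat.Agent.CARlib
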