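import Fermat.Agent.CAR.NBasic

/-!
# T-CAR, block N : step (S2) (residues)
-/

set_option autoImplicit false

namespace Fermat.Agent.CARlib

open Fermat.Agent.UNIlib.Normalise

variable {F₁ F₂ : Type*} [Field F₁] [Field F₂]

/-- the norm of a unit is the `m`-th power of a unit of `V_F ∩ V_V` -/
theorem NHalf.exists_root {r m : ℕ} (hm : 0 < m) {e : F₁ →+* F₂} {N : F₂ →*₀ F₁}
    {VF VV : Subring F₁} {π₁ : F₁} {Wi Wu Wr : Subring F₂} {y : F₂}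
    (H : NHalf r e N VF VV π₁ Wi Wu Wr y) (dVF : IsDV VF π₁) (dVV : IsDV VV π₁)
    {g : F₂} (hi : nU Wi g) (hu : nU Wu g) (hrr : nU Wr g) {k : ℤ} {a : F₁}
    (h : N g = π₁ ^ k * a ^ m) : ∃ A : F₁, N g = A ^ m ∧ nU VF A ∧ nU VV A := by
  have oF : nU VF (N g) := by
    have := H.ordF g 0 (by rw [zpow_zero, div_one]; exact hi)
    rwa [mul_zero, zpow_zero, div_one] at this
  have oV : nU VV (N g) := by
    have := H.ordV g 0 0 (by rw [zpow_zero, div_one]; exact hu)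
      (by rw [zpow_zero, div_one]; exact hrr)
    rwa [add_zero, zpow_zero, div_one] at this
  have ha : a ≠ 0 := by
    rintro rfl
    exact oF.1 (by rw [h, zero_pow hm.ne', mul_zero])
  obtain ⟨α, hα⟩ := dVF.exists_hasOrd ha
  have E : (0 : ℤ) = k + m * α :=
    (hasOrd_zero_iff.2 oF).unique dVF (by rw [h]; exact (dVF.hasOrd_zpow k).mul dVF (hα.pow m))
  have h0 := dVF.unif_ne_zero
  have hA : N g = (a / π₁ ^ α) ^ m := by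
    have hk : k = -(α * m) := by linarith
    rw [h, div_pow, ← zpow_natCast (π₁ ^ α) m, ← zpow_mul, hk, zpow_neg]
    field_simp
  refine ⟨a / π₁ ^ α, hA, hα, dVV.nU_of_pow hm ?_⟩
  rw [← hA]; exact oV

/-- `g` is an `m`-th power residue at `W_i` -/
theorem NHalf.exists_res_i {r m : ℕ} (hrm : Nat.Coprime r m) {e : F₁ →+* F₂}
    {N : F₂ →*₀ F₁} {VF VV : Subring F₁} {π₁ : F₁} {Wi Wu Wr : Subring F₂} {y : F₂}
    (H : NHalf r e N VF VV π₁ Wi Wu Wr y) (dWi : IsDV Wi (e π₁))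
    {g : F₂} (hi : nU Wi g) {A : F₁} (hA0 : A ≠ 0) (hA : N g = A ^ m) :
    ∃ s : F₂, s ≠ 0 ∧ OneMod Wi (e π₁) (g / s ^ m) := by
  obtain ⟨u, v, huv⟩ := (Nat.isCoprime_iff_coprime.2 hrm : IsCoprime (r : ℤ) (m : ℤ))
  have hg := hi.1
  have hE : e A ≠ 0 := (map_ne_zero e).2 hA0
  refine ⟨(e A) ^ u * g ^ v, mul_ne_zero (zpow_ne_zero _ hE) (zpow_ne_zero _ hg), ?_⟩
  have key : g / ((e A) ^ u * g ^ v) ^ m = (g ^ r / e (N g)) ^ u := by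
    rw [hA, map_pow, div_zpow, mul_pow, ← zpow_natCast ((e A) ^ u) m, ← zpow_mul,
      ← zpow_natCast (g ^ v) m, ← zpow_mul, ← zpow_natCast g r, ← zpow_mul,
      ← zpow_natCast (e A) m, ← zpow_mul]
    have hg1 : g = g ^ ((r : ℤ) * u) * g ^ (v * (m : ℤ)) := by
      rw [← zpow_add₀ hg, (by linarith : (r : ℤ) * u + v * m = 1), zpow_one]
    calc g / ((e A) ^ (u * (m : ℤ)) * g ^ (v * (m : ℤ)))
        = (g ^ ((r : ℤ) * u) * g ^ (v * (m : ℤ))) / ((e A) ^ (u * (m : ℤ)) * g ^ (v * (m : ℤ))) := by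
          rw [← hg1]
      _ = g ^ ((r : ℤ) * u) / (e A) ^ (u * (m : ℤ)) := by
          rw [mul_div_mul_right _ _ (zpow_ne_zero _ hg)]
      _ = g ^ ((r : ℤ) * u) / (e A) ^ ((m : ℤ) * u) := by rw [mul_comm u]
  rw [key]
  exact dWi.oneMod_zpow (H.resF g hi) u

theorem n_S2 {r m : ℕ} (hr : 2 ≤ r) (hm : 0 < m) (hrm : Nat.Coprime r m)
    {e₁ e₂ : F₁ →+* F₂} {N₁ N₂ : F₂ →*₀ F₁} {VF VV : Subring F₁} {π₁ : F₁}
    {WVF WFV WVV : Subring F₂} {π₂ y : F₂} (hπ₁ : e₁ π₁ = π₂) (hπ₂ : e₂ π₁ = π₂)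
    (dVF : IsDV VF π₁) (dVV : IsDV VV π₁) (dWVF : IsDV WVF π₂) (dWFV : IsDV WFV π₂)
    (dWVV : IsDV WVV y) (hy : nU WVV (y ^ (r - 1) / π₂))
    (H₁ : NHalf r e₁ N₁ VF VV π₁ WFV WVF WVV y) (H₂ : NHalf r e₂ N₂ VF VV π₁ WVF WFV WVV y)
    (happ : ∀ x₁ x₂ x₃ : F₂, x₁ ≠ 0 → x₂ ≠ 0 → x₃ ≠ 0 → ∃ S : F₂, S ≠ 0 ∧
      OneMod WVF π₂ (S / x₁) ∧ OneMod WFV π₂ (S / x₂) ∧ OneMod WVV y (S / x₃))
    {g : F₂} (u1 : nU WVF g) (u2 : nU WFV g) (u3 : nU WVV g) {k₁ k₂ : ℤ} {a₁ a₂ : F₁}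
    (h₁ : N₁ g = π₁ ^ k₁ * a₁ ^ m) (h₂ : N₂ g = π₁ ^ k₂ * a₂ ^ m) :
    ∃ G : F₂, G ≠ 0 ∧ OneMod WVF π₂ (g ^ (r - 1) * G ^ m) ∧
      OneMod WFV π₂ (g ^ (r - 1) * G ^ m) ∧ OneMod WVV y (g ^ (r - 1) * G ^ m) := by
  have hg := u1.1
  obtain ⟨A₁, hA₁, A₁F, A₁V⟩ := H₁.exists_root hm dVF dVV u2 u1 u3 h₁
  obtain ⟨A₂, hA₂, A₂F, A₂V⟩ := H₂.exists_root hm dVF dVV u1 u2 u3 h₂
  obtain ⟨s₁, hs₁0, hs₁⟩ := H₁.exists_res_i hrm (by rw [hπ₁]; exact dWFV) u2 A₁F.1 hA₁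
  obtain ⟨s₂, hs₂0, hs₂⟩ := H₂.exists_res_i hrm (by rw [hπ₂]; exact dWVF) u1 A₂F.1 hA₂
  rw [hπ₁] at hs₁
  rw [hπ₂] at hs₂
  obtain ⟨y₁, hy₁, hy₁'⟩ := H₁.liftU g u1
  obtain ⟨y₂, hy₂, hy₂'⟩ := H₁.liftR g u3
  have hs₂u : nU WVF s₂ := by
    apply dWVF.nU_of_pow hm
    have := u1.div (dWVF.nU_of_oneMod hs₂)
    have h3 : g / (g / s₂ ^ m) = s₂ ^ m := by
      have := pow_ne_zero m hs₂0
      field_simp
    rwa [h3] at this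
  obtain ⟨t, ht, ht'⟩ := H₁.liftU s₂ hs₂u
  have res := H₁.resV g y₁ y₂ hy₁ hy₂ hy₁' hy₂'
  rw [hπ₁] at hy₁' ht'
  have ht0 := ht.1
  have hy₁0 := hy₁.1
  have hy₂0 := hy₂.1
  have het0 : e₁ t ≠ 0 := (map_ne_zero e₁).2 ht0
  have hey₁0 : e₁ y₁ ≠ 0 := (map_ne_zero e₁).2 hy₁0
  have hey₂0 : e₁ y₂ ≠ 0 := (map_ne_zero e₁).2 hy₂0
  have hπ10 := dVV.unif_ne_zero
  have hπ0 : π₂ ≠ 0 := dWVF.unif_ne_zero
  have hy0 : y ≠ 0 := dWVV.unif_ne_zero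
  -- `y₁ / t ^ m ≡ 1` at `V_V`
  have c1 : OneMod WVF π₂ (e₁ (y₁ / t ^ m)) := by
    have := dWVF.oneMod_div (dWVF.oneMod_mul hs₂ (dWVF.oneMod_pow ht' m)) hy₁'
    have h3 : g / s₂ ^ m * (s₂ / e₁ t) ^ m / (g / e₁ y₁) = e₁ (y₁ / t ^ m) := by
      rw [map_div₀, map_pow, div_pow]
      have := pow_ne_zero m hs₂0
      have := pow_ne_zero m het0
      field_simp
    rwa [h3] at this
  have tr : ∀ z : F₁, (e₁ z - 1) / π₂ = e₁ ((z - 1) / π₁) := by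
    intro z
    rw [map_div₀, map_sub, map_one, hπ₁]
  have c2 : OneMod VV π₁ (y₁ / t ^ m) := by
    rw [OneMod, tr] at c1
    exact (H₁.memU _).1 c1
  have c3 : OneMod VV π₁ ((A₁ / t) ^ m / y₂ ^ (r - 1)) := by
    have := dVV.oneMod_mul res c2
    have h3 : N₁ g / (y₁ * y₂ ^ (r - 1)) * (y₁ / t ^ m) = (A₁ / t) ^ m / y₂ ^ (r - 1) := by
      rw [hA₁, div_pow]
      have := pow_ne_zero m ht0
      have := pow_ne_zero (r - 1) hy₂0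
      field_simp
    rwa [h3] at this
  have hπy : π₂ / y ∈ WVV := by
    have h4 : π₂ / y = (y ^ (r - 1) / π₂)⁻¹ * y ^ (r - 2) := by
      obtain ⟨n, rfl⟩ : ∃ n, r = n + 2 := ⟨r - 2, by omega⟩
      have : n + 2 - 1 = n + 1 := by omega
      rw [this, Nat.add_sub_cancel, pow_succ]
      field_simp
    rw [h4]
    exact WVV.mul_mem hy.2.2 (WVV.pow_mem dWVV.unif_mem _)
  have c4 : OneMod WVV y (e₁ ((A₁ / t) ^ m / y₂ ^ (r - 1))) := by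
    have h5 : (e₁ ((A₁ / t) ^ m / y₂ ^ (r - 1)) - 1) / y
        = e₁ (((A₁ / t) ^ m / y₂ ^ (r - 1) - 1) / π₁) * (π₂ / y) := by
      rw [← tr]
      field_simp
    rw [OneMod, h5]
    exact WVV.mul_mem (H₁.memR _ c3) hπy
  have hs₃0 : e₁ (A₁ / t) ≠ 0 := (map_ne_zero e₁).2 (div_ne_zero A₁V.1 ht0)
  have c5 : OneMod WVV y (g ^ (r - 1) / (e₁ (A₁ / t)) ^ m) := by
    have := dWVV.oneMod_div (dWVV.oneMod_pow hy₂' (r - 1)) c4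
    have h6 : (g / e₁ y₂) ^ (r - 1) / e₁ ((A₁ / t) ^ m / y₂ ^ (r - 1))
        = g ^ (r - 1) / (e₁ (A₁ / t)) ^ m := by
      rw [map_div₀, map_pow, map_pow, div_pow]
      have := pow_ne_zero (r - 1) hey₂0
      have := pow_ne_zero m hs₃0
      field_simp
    rwa [h6] at this
  obtain ⟨G, hG0, hG1, hG2, hG3⟩ := happ (s₂ ^ (r - 1)) (s₁ ^ (r - 1)) (e₁ (A₁ / t))
    (pow_ne_zero _ hs₂0) (pow_ne_zero _ hs₁0) hs₃0
  refine ⟨G⁻¹, inv_ne_zero hG0, ?_, ?_, ?_⟩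
  · have := dWVF.oneMod_div (dWVF.oneMod_pow hs₂ (r - 1)) (dWVF.oneMod_pow hG1 m)
    have h7 : (g / s₂ ^ m) ^ (r - 1) / (G / s₂ ^ (r - 1)) ^ m = g ^ (r - 1) * G⁻¹ ^ m := by
      rw [div_pow, div_pow, ← pow_mul, ← pow_mul, mul_comm m, inv_pow]
      have := pow_ne_zero ((r - 1) * m) hs₂0
      have := pow_ne_zero m hG0
      field_simp
    rwa [h7] at this
  · have := dWFV.oneMod_div (dWFV.oneMod_pow hs₁ (r - 1)) (dWFV.oneMod_pow hG2 m)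
    have h7 : (g / s₁ ^ m) ^ (r - 1) / (G / s₁ ^ (r - 1)) ^ m = g ^ (r - 1) * G⁻¹ ^ m := by
      rw [div_pow, div_pow, ← pow_mul, ← pow_mul, mul_comm m, inv_pow]
      have := pow_ne_zero ((r - 1) * m) hs₁0
      have := pow_ne_zero m hG0
      field_simp
    rwa [h7] at this
  · have := dWVV.oneMod_div c5 (dWVV.oneMod_pow hG3 m)
    have h7 : g ^ (r - 1) / (e₁ (A₁ / t)) ^ m / (G / e₁ (A₁ / t)) ^ m
        = g ^ (r - 1) * G⁻¹ ^ m := by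
      rw [div_pow, inv_pow]
      have := pow_ne_zero m hs₃0
      have := pow_ne_zero m hG0
      field_simp
    rwa [h7] at this

end Fermat.Agent.CARlib
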