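import Fermat.Agent.CAR.NBasic

/-!
# T-CAR, block N : step (S3) (from `≡ 1 mod rad` to `≡ 1 mod π`)
-/

set_option autoImplicit false

namespace Fermat.Agent.CARlib

open Fermat.Agent.UNIlib.Normalise

variable {F : Type*} [Field F]

theorem n3_binom (W : Subring F) {t : F} (ht : t ∈ W) (m : ℕ) :
    ∃ z ∈ W, (1 + t) ^ m = 1 + m * t + t ^ 2 * z := by
  induction m with
  | zero => exact ⟨0, W.zero_mem, by simp⟩
  | succ m ih =>
    obtain ⟨z, hz, h⟩ := ih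
    refine ⟨m + z + t * z, W.add_mem (W.add_mem (natCast_mem W m) hz) (W.mul_mem ht hz), ?_⟩
    rw [pow_succ, h]
    push_cast
    ring

/-- one Newton step at a valuation ring with uniformiser `y`. -/
theorem n3_step {W : Subring F} {y : F} (d : IsDV W y) {m : ℕ} (hm0 : (m : F) ≠ 0)
    (hmW : (m : F)⁻¹ ∈ W) {x : F} {k : ℕ} (hk : (x - 1) / y ^ (k + 1) ∈ W) :
    (x / (1 + (x - 1) / m) ^ m - 1) / y ^ (k + 2) ∈ W := by
  have hy0 := d.unif_ne_zero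
  set ν := x - 1 with hν
  set w := ν / y ^ (k + 1) with hw
  have hνw : ν = w * y ^ (k + 1) := by
    rw [hw]; field_simp
  have ht : ν / m ∈ W := by
    have : ν / m = w * y ^ (k + 1) * (m : F)⁻¹ := by rw [← hνw, div_eq_mul_inv]
    rw [this]
    exact W.mul_mem (W.mul_mem hk (W.pow_mem d.unif_mem _)) hmW
  have hτ1 : OneMod W y (1 + ν / m) := by
    have : (1 + ν / m - 1) / y = w * y ^ k * (m : F)⁻¹ := by
      rw [hνw, pow_succ]; field_simp; ring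
    rw [OneMod, this]
    exact W.mul_mem (W.mul_mem hk (W.pow_mem d.unif_mem _)) hmW
  have hτu := (d.nU_of_oneMod hτ1).pow m
  obtain ⟨z, hz, hbin⟩ := n3_binom W ht m
  have hx : x = 1 + ν := by rw [hν]; ring
  have hmν : (m : F) * (ν / m) = ν := by field_simp
  have key : (x / (1 + ν / m) ^ m - 1) / y ^ (k + 2)
      = -(w ^ 2 * y ^ k * (m : F)⁻¹ ^ 2 * z * ((1 + ν / m) ^ m)⁻¹) := by
    have h1 := hτu.1
    have h2 : x - (1 + ν / m) ^ m = -((ν / m) ^ 2 * z) := by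
      rw [hbin, hmν, hx]; ring
    have h3 : x / (1 + ν / m) ^ m - 1 = (x - (1 + ν / m) ^ m) * ((1 + ν / m) ^ m)⁻¹ := by
      rw [sub_mul, mul_inv_cancel₀ h1, div_eq_mul_inv]
    rw [h3, h2]
    have h4 : (ν / m) ^ 2 = w ^ 2 * y ^ k * (m : F)⁻¹ ^ 2 * y ^ (k + 2) := by
      rw [hνw, div_eq_mul_inv]; ring
    rw [h4]
    have := pow_ne_zero (k + 2) hy0
    field_simp
  rw [key]
  exact W.neg_mem (W.mul_mem (W.mul_mem (W.mul_mem (W.mul_mem (W.pow_mem hk 2)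
    (W.pow_mem d.unif_mem _)) (W.pow_mem hmW 2)) hz) hτu.2.2)

theorem n_S3 {r m : ℕ} (hr : 2 ≤ r) {WVF WFV WVV : Subring F} {π₂ y : F}
    (dWVF : IsDV WVF π₂) (dWFV : IsDV WFV π₂) (dWVV : IsDV WVV y)
    (hy : nU WVV (y ^ (r - 1) / π₂)) (hm0 : (m : F) ≠ 0)
    (hmVF : (m : F)⁻¹ ∈ WVF) (hmFV : (m : F)⁻¹ ∈ WFV) (hmVV : (m : F)⁻¹ ∈ WVV)
    {g : F} (h1 : OneMod WVF π₂ g) (h2 : OneMod WFV π₂ g) (h3 : OneMod WVV y g) :
    ∃ υ : F, υ ≠ 0 ∧ OneMod WVF π₂ (g * υ ^ m) ∧ OneMod WFV π₂ (g * υ ^ m) ∧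
      OneMod WVV π₂ (g * υ ^ m) := by
  have key : ∀ k : ℕ, ∃ υ : F, υ ≠ 0 ∧ OneMod WVF π₂ (g * υ ^ m) ∧ OneMod WFV π₂ (g * υ ^ m) ∧
      (g * υ ^ m - 1) / y ^ (k + 1) ∈ WVV := by
    intro k
    induction k with
    | zero =>
      refine ⟨1, one_ne_zero, by simpa using h1, by simpa using h2, ?_⟩
      rw [one_pow, mul_one, zero_add, pow_one]
      exact h3
    | succ k ih =>
      obtain ⟨υ, hυ0, a1, a2, a3⟩ := ih
      set x := g * υ ^ m with hx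
      have aux : ∀ {W : Subring F}, IsDV W π₂ → (m : F)⁻¹ ∈ W → OneMod W π₂ x →
          OneMod W π₂ (1 + (x - 1) / m) := by
        intro W d hmW h
        have : (1 + (x - 1) / m - 1) / π₂ = (x - 1) / π₂ * (m : F)⁻¹ := by
          have := d.unif_ne_zero
          rw [add_sub_cancel_left]
          field_simp
        rw [OneMod, this]
        exact W.mul_mem h hmW
      have τ1 := aux dWVF hmVF a1
      have τ2 := aux dWFV hmFV a2
      have hτ0 : 1 + (x - 1) / m ≠ 0 := (dWVF.nU_of_oneMod τ1).1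
      have e : g * (υ / (1 + (x - 1) / m)) ^ m = x / (1 + (x - 1) / m) ^ m := by
        rw [hx, div_pow]; ring
      refine ⟨υ / (1 + (x - 1) / m), div_ne_zero hυ0 hτ0, ?_, ?_, ?_⟩
      · rw [e]; exact dWVF.oneMod_div a1 (dWVF.oneMod_pow τ1 m)
      · rw [e]; exact dWFV.oneMod_div a2 (dWFV.oneMod_pow τ2 m)
      · rw [e]; exact n3_step dWVV hm0 hmVV a3
  obtain ⟨υ, hυ0, a1, a2, a3⟩ := key (r - 2)
  refine ⟨υ, hυ0, a1, a2, ?_⟩
  have hr1 : r - 2 + 1 = r - 1 := by omega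
  rw [hr1] at a3
  have hy0 := pow_ne_zero (r - 1) dWVV.unif_ne_zero
  have hπ0 := dWVF.unif_ne_zero
  have : (g * υ ^ m - 1) / π₂ = (g * υ ^ m - 1) / y ^ (r - 1) * (y ^ (r - 1) / π₂) := by
    field_simp
  rw [OneMod, this]
  exact WVV.mul_mem a3 hy.2.1

end Fermat.Agent.CARlib
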