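import Fermat.Agent.CAR.NS1
import Fermat.Agent.CAR.NS2
import Fermat.Agent.CAR.NS3

/-!
# T-CAR, block N : steps (S1), (S2), (S3) assembled (abstract)
-/

set_option autoImplicit false

namespace Fermat.Agent.CARlib

open Fermat.Agent.UNIlib.Normalise

variable {F₁ F₂ : Type*} [Field F₁] [Field F₂]

/-- **Block N, main theorem.**  If both norms of `g` are (power of `π`) times an `m`-th power then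
`g ^ ((r+1)(r-1))` is, up to a power of `π` and an `m`-th power, `≡ 1 mod π` at the three
valuations of `F₂`. -/
theorem n_main {r m : ℕ} (hr : 2 ≤ r) (hm : 0 < m) (hrm : Nat.Coprime r m)
    {e₁ e₂ : F₁ →+* F₂} {N₁ N₂ : F₂ →*₀ F₁} {VF VV : Subring F₁} {π₁ : F₁}
    {WVF WFV WVV : Subring F₂} {π₂ y : F₂} (hπ₁ : e₁ π₁ = π₂) (hπ₂ : e₂ π₁ = π₂)
    (dVF : IsDV VF π₁) (dVV : IsDV VV π₁) (dWVF : IsDV WVF π₂) (dWFV : IsDV WFV π₂)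
    (dWVV : IsDV WVV y) (hy : nU WVV (y ^ (r - 1) / π₂)) (hm0 : (m : F₂) ≠ 0)
    (hmVF : (m : F₂)⁻¹ ∈ WVF) (hmFV : (m : F₂)⁻¹ ∈ WFV) (hmVV : (m : F₂)⁻¹ ∈ WVV)
    (H₁ : NHalf r e₁ N₁ VF VV π₁ WFV WVF WVV y) (H₂ : NHalf r e₂ N₂ VF VV π₁ WVF WFV WVV y)
    (happ : ∀ x₁ x₂ x₃ : F₂, x₁ ≠ 0 → x₂ ≠ 0 → x₃ ≠ 0 → ∃ S : F₂, S ≠ 0 ∧
      OneMod WVF π₂ (S / x₁) ∧ OneMod WFV π₂ (S / x₂) ∧ OneMod WVV y (S / x₃))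
    {g : F₂} (hg : g ≠ 0) {k₁ k₂ : ℤ} {a₁ a₂ : F₁}
    (h₁ : N₁ g = π₁ ^ k₁ * a₁ ^ m) (h₂ : N₂ g = π₁ ^ k₂ * a₂ ^ m) :
    ∃ (k : ℤ) (G : F₂), G ≠ 0 ∧
      OneMod WVF π₂ (g ^ ((r + 1) * (r - 1)) * π₂ ^ k * G ^ m) ∧
      OneMod WFV π₂ (g ^ ((r + 1) * (r - 1)) * π₂ ^ k * G ^ m) ∧
      OneMod WVV π₂ (g ^ ((r + 1) * (r - 1)) * π₂ ^ k * G ^ m) := by
  obtain ⟨k, G₁, hG₁, u1, u2, u3⟩ := n_S1 (by omega) hm hπ₁ hπ₂ dVF dVV dWVF dWFV dWVV hy H₁ H₂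
    happ hg h₁ h₂
  set g₁ := g ^ (r + 1) * π₂ ^ k * G₁ ^ m with hg₁
  have hπ10 := dVF.unif_ne_zero
  have n₁ : N₁ g₁ = π₁ ^ (k₁ * ((r : ℤ) + 1) + r * k) * (a₁ ^ (r + 1) * N₁ G₁) ^ m := by
    rw [hg₁, map_mul, map_mul, map_pow, map_pow, map_zpow₀, ← hπ₁, H₁.N_e, h₁,
      zpow_add₀ hπ10, zpow_mul, zpow_mul, zpow_natCast, mul_pow, mul_pow, ← pow_mul, ← pow_mul,
      mul_comm m (r + 1)]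
    have : (π₁ ^ k₁) ^ ((r : ℤ) + 1) = (π₁ ^ k₁) ^ (r + 1) := by
      rw [← zpow_natCast]; push_cast; rfl
    rw [this]
    ring
  have n₂ : N₂ g₁ = π₁ ^ (k₂ * ((r : ℤ) + 1) + r * k) * (a₂ ^ (r + 1) * N₂ G₁) ^ m := by
    rw [hg₁, map_mul, map_mul, map_pow, map_pow, map_zpow₀, ← hπ₂, H₂.N_e, h₂,
      zpow_add₀ hπ10, zpow_mul, zpow_mul, zpow_natCast, mul_pow, mul_pow, ← pow_mul, ← pow_mul,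
      mul_comm m (r + 1)]
    have : (π₁ ^ k₂) ^ ((r : ℤ) + 1) = (π₁ ^ k₂) ^ (r + 1) := by
      rw [← zpow_natCast]; push_cast; rfl
    rw [this]
    ring
  obtain ⟨G₂, hG₂, b1, b2, b3⟩ := n_S2 hr hm hrm hπ₁ hπ₂ dVF dVV dWVF dWFV dWVV hy H₁ H₂ happ
    u1 u2 u3 n₁ n₂
  obtain ⟨υ, hυ, c1, c2, c3⟩ := n_S3 hr dWVF dWFV dWVV hy hm0 hmVF hmFV hmVV b1 b2 b3
  have e : g₁ ^ (r - 1) * G₂ ^ m * υ ^ m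
      = g ^ ((r + 1) * (r - 1)) * π₂ ^ (k * ((r - 1 : ℕ) : ℤ)) * (G₁ ^ (r - 1) * G₂ * υ) ^ m := by
    rw [hg₁, zpow_mul, zpow_natCast, pow_mul]
    ring
  rw [e] at c1 c2 c3
  exact ⟨k * ((r - 1 : ℕ) : ℤ), G₁ ^ (r - 1) * G₂ * υ,
    mul_ne_zero (mul_ne_zero (pow_ne_zero _ hG₁) hG₂) hυ, c1, c2, c3⟩

end Fermat.Agent.CARlib
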