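import Fermat.Agent.CAR.NBasic

/-!
# T-CAR, block N : step (S1) (orders)
-/

set_option autoImplicit false

namespace Fermat.Agent.CARlib

open Fermat.Agent.UNIlib.Normalise

variable {F₁ F₂ : Type*} [Field F₁] [Field F₂]

theorem n_S1 {r m : ℕ} (hr : 1 ≤ r) (hm : 0 < m)
    {e₁ e₂ : F₁ →+* F₂} {N₁ N₂ : F₂ →*₀ F₁} {VF VV : Subring F₁} {π₁ : F₁}
    {WVF WFV WVV : Subring F₂} {π₂ y : F₂} (hπ₁ : e₁ π₁ = π₂) (hπ₂ : e₂ π₁ = π₂)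
    (dVF : IsDV VF π₁) (dVV : IsDV VV π₁) (dWVF : IsDV WVF π₂) (dWFV : IsDV WFV π₂)
    (dWVV : IsDV WVV y) (hy : nU WVV (y ^ (r - 1) / π₂))
    (H₁ : NHalf r e₁ N₁ VF VV π₁ WFV WVF WVV y) (H₂ : NHalf r e₂ N₂ VF VV π₁ WVF WFV WVV y)
    (happ : ∀ x₁ x₂ x₃ : F₂, x₁ ≠ 0 → x₂ ≠ 0 → x₃ ≠ 0 → ∃ S : F₂, S ≠ 0 ∧
      OneMod WVF π₂ (S / x₁) ∧ OneMod WFV π₂ (S / x₂) ∧ OneMod WVV y (S / x₃))
    {g : F₂} (hg : g ≠ 0) {k₁ k₂ : ℤ} {a₁ a₂ : F₁}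
    (h₁ : N₁ g = π₁ ^ k₁ * a₁ ^ m) (h₂ : N₂ g = π₁ ^ k₂ * a₂ ^ m) :
    ∃ (k : ℤ) (G : F₂), G ≠ 0 ∧ nU WVF (g ^ (r + 1) * π₂ ^ k * G ^ m) ∧
      nU WFV (g ^ (r + 1) * π₂ ^ k * G ^ m) ∧ nU WVV (g ^ (r + 1) * π₂ ^ k * G ^ m) := by
  obtain ⟨a, ha⟩ := dWVF.exists_hasOrd hg
  obtain ⟨b, hb⟩ := dWFV.exists_hasOrd hg
  obtain ⟨c, hc⟩ := dWVV.exists_hasOrd hg
  have o1F : HasOrd VF π₁ (N₁ g) (r * b) := H₁.ordF g b (by rw [hπ₁]; exact hb)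
  have o1V : HasOrd VV π₁ (N₁ g) (a + c) := H₁.ordV g a c (by rw [hπ₁]; exact ha) hc
  have o2F : HasOrd VF π₁ (N₂ g) (r * a) := H₂.ordF g a (by rw [hπ₂]; exact ha)
  have o2V : HasOrd VV π₁ (N₂ g) (b + c) := H₂.ordV g b c (by rw [hπ₂]; exact hb) hc
  have ha₁ : a₁ ≠ 0 := by
    rintro rfl
    exact o1F.ne_zero (by rw [h₁, zero_pow hm.ne', mul_zero])
  have ha₂ : a₂ ≠ 0 := by
    rintro rfl
    exact o2F.ne_zero (by rw [h₂, zero_pow hm.ne', mul_zero])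
  obtain ⟨αF, hαF⟩ := dVF.exists_hasOrd ha₁
  obtain ⟨αV, hαV⟩ := dVV.exists_hasOrd ha₁
  obtain ⟨βF, hβF⟩ := dVF.exists_hasOrd ha₂
  obtain ⟨βV, hβV⟩ := dVV.exists_hasOrd ha₂
  have E1 : (r : ℤ) * b = k₁ + m * αF :=
    o1F.unique dVF (by rw [h₁]; exact (dVF.hasOrd_zpow k₁).mul dVF (hαF.pow m))
  have E2 : a + c = k₁ + m * αV :=
    o1V.unique dVV (by rw [h₁]; exact (dVV.hasOrd_zpow k₁).mul dVV (hαV.pow m))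
  have E3 : (r : ℤ) * a = k₂ + m * βF :=
    o2F.unique dVF (by rw [h₂]; exact (dVF.hasOrd_zpow k₂).mul dVF (hβF.pow m))
  have E4 : b + c = k₂ + m * βV :=
    o2V.unique dVV (by rw [h₂]; exact (dVV.hasOrd_zpow k₂).mul dVV (hβV.pow m))
  set δ₁ : ℤ := αF - αV with hδ₁
  set δ₂ : ℤ := βF - βV with hδ₂
  have hπ0 : π₂ ≠ 0 := dWVF.unif_ne_zero
  have hy0 : y ≠ 0 := dWVV.unif_ne_zero
  obtain ⟨S, hS0, hS1, hS2, hS3⟩ := happ 1 (π₂ ^ (δ₂ - δ₁)) (y ^ (δ₁ + r * δ₂)) one_ne_zero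
    (zpow_ne_zero _ hπ0) (zpow_ne_zero _ hy0)
  have oS1 : HasOrd WVF π₂ S 0 := hasOrd_zero_iff.2 (by simpa using dWVF.nU_of_oneMod hS1)
  have oS2 : HasOrd WFV π₂ S (δ₂ - δ₁) := dWFV.nU_of_oneMod hS2
  have oS3 : HasOrd WVV y S (δ₁ + r * δ₂) := dWVV.nU_of_oneMod hS3
  have oπ : HasOrd WVV y π₂ ((r : ℤ) - 1) := by
    have h := hy.inv
    rw [inv_div] at h
    have hc : ((r : ℤ) - 1) = ((r - 1 : ℕ) : ℤ) := by omega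
    rw [HasOrd, hc, zpow_natCast]
    exact h
  refine ⟨-((r : ℤ) + 1) * a, S, hS0, ?_, ?_, ?_⟩
  · rw [← hasOrd_zero_iff (ϖ := π₂)]
    have := ((ha.pow (r + 1)).mul dWVF (dWVF.hasOrd_zpow (-((r : ℤ) + 1) * a))).mul dWVF
      (oS1.pow m)
    convert this using 1
    push_cast
    ring
  · rw [← hasOrd_zero_iff (ϖ := π₂)]
    have := ((hb.pow (r + 1)).mul dWFV (dWFV.hasOrd_zpow (-((r : ℤ) + 1) * a))).mul dWFV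
      (oS2.pow m)
    convert this using 1
    push_cast
    rw [hδ₁, hδ₂]
    linear_combination (-1 : ℤ) * E1 + E2 + E3 - E4
  · rw [← hasOrd_zero_iff (ϖ := y)]
    have := ((hc.pow (r + 1)).mul dWVV (oπ.zpow (-((r : ℤ) + 1) * a))).mul dWVV
      (oS3.pow m)
    convert this using 1
    push_cast
    rw [hδ₁, hδ₂]
    linear_combination E1 - E2 + (r : ℤ) * (E3 - E4)

end Fermat.Agent.CARlib
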