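import Fermat.Agent.CAR.NVTrans

/-!
# T-CAR, row NV (abstract part 2): `n_half` along a ring homomorphism `e : F₁ →+* F₂`
(no `Algebra` instance, coordinates in sum form)
-/

set_option autoImplicit false
set_option linter.style.haveILetI false

open Polynomial

namespace Fermat.Agent.CARlib

open Fermat.Agent.UNIlib.Normalise

variable {F₁ F₂ : Type*} [Field F₁] [Field F₂]

/-- `n_half` for `Algebra F₁ F₂ := e.toAlgebra`, with the basis `1, θ, …, θ^(r-1)` in sum form -/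
theorem nv_half_abs (e : F₁ →+* F₂) {r : ℕ} (hr : r.Prime)
    {VF VV : Subring F₁} {π₁ : F₁} (hπ : π₁ = (r : F₁))
    {Wi Wu Wr : Subring F₂} {y : F₂}
    (dVF : IsDV VF π₁) (dVV : IsDV VV π₁) (dWi : IsDV Wi (e π₁))
    (dWu : IsDV Wu (e π₁)) (dWr : IsDV Wr y)
    (hy : nU Wr (y ^ (r - 1) / e π₁))
    (θ : F₂)
    (hspan : ∀ x : F₂, ∃ c : Fin r → F₁, x = ∑ i, e (c i) * θ ^ (i : ℕ))
    (hind : ∀ c : Fin r → F₁, ∑ i, e (c i) * θ ^ (i : ℕ) = 0 → ∀ i, c i = 0)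
    (hCi : ∀ c : Fin r → F₁, ∑ i, e (c i) * θ ^ (i : ℕ) ∈ Wi → ∀ i, c i ∈ VF)
    (hei : ∀ z ∈ VF, e z ∈ Wi) (hθi : θ ∈ Wi)
    (hCV : ∀ c : Fin r → F₁, ∑ i, e (c i) * θ ^ (i : ℕ) ∈ Wu →
      ∑ i, e (c i) * θ ^ (i : ℕ) ∈ Wr → ∀ i, c i ∈ VV)
    (heu : ∀ z ∈ VV, e z ∈ Wu) (her : ∀ z ∈ VV, e z ∈ Wr) (hθu0 : θ ∈ Wu) (hθr0 : θ ∈ Wr)
    (G : F₁[X]) (hGm : G.Monic) (hGd : G.natDegree = r) (hGθ : G.eval₂ e θ = 0)
    (hins : ∀ x ∈ Wi, ∃ z ∈ VF, (x ^ r - e z) / e π₁ ∈ Wi)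
    (a c : F₁) (ha : a ∈ VV) (hc : c ∈ VV) (hac : nU VV (a - c))
    (hfac : ∀ t ∈ VV, (G.eval t - (t - a) * (t - c) ^ (r - 1)) / π₁ ∈ VV)
    (hGc : nU VV (G.eval c / π₁))
    (hθu : (θ - e a) / e π₁ ∈ Wu)
    (hθr : y = θ - e c)
    (happ : ∀ x₁ x₂ : F₂, x₁ ≠ 0 → x₂ ≠ 0 → ∃ S : F₂, S ≠ 0 ∧
      OneMod Wu (e π₁) (S / x₁) ∧ OneMod Wr y (S / x₂)) :
    ∃ N : F₂ →*₀ F₁, (∀ x, N x = @Algebra.norm F₁ F₂ _ _ e.toAlgebra x) ∧
      NHalf r e N VF VV π₁ Wi Wu Wr y := by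
  letI : Algebra F₁ F₂ := e.toAlgebra
  have hsm : ∀ (c : F₁) (x : F₂), c • x = e c * x := fun c x => Algebra.smul_def c x
  have hli : LinearIndependent F₁ (fun i : Fin r => θ ^ (i : ℕ)) := by
    rw [Fintype.linearIndependent_iff]
    intro g hg
    exact hind g (by simpa only [hsm] using hg)
  have hsp : ⊤ ≤ Submodule.span F₁ (Set.range fun i : Fin r => θ ^ (i : ℕ)) := by
    intro x _
    obtain ⟨c, rfl⟩ := hspan x
    refine Submodule.sum_mem _ fun i _ => ?_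
    rw [← hsm]
    exact Submodule.smul_mem _ _ (Submodule.subset_span ⟨i, rfl⟩)
  let b : Module.Basis (Fin r) F₁ F₂ := Module.Basis.mk hli hsp
  have hbθ : ∀ i, b i = θ ^ (i : ℕ) := fun i => Module.Basis.mk_apply hli hsp i
  haveI : FiniteDimensional F₁ F₂ := Module.Finite.of_basis b
  have hrep : ∀ x : F₂, ∑ i, e (b.repr x i) * θ ^ (i : ℕ) = x := fun x => by
    conv_rhs => rw [← b.sum_repr x]
    exact Finset.sum_congr rfl fun i _ => by rw [hbθ, hsm]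
  refine ⟨normZH F₁ F₂, fun _ => rfl, ?_⟩
  refine n_half hr hπ dVF dVV dWi dWu dWr hy θ b hbθ ?_ ?_ G hGm hGd ?_ hins a c ha hc hac hfac
    hGc hθu hθr happ
  · intro x
    constructor
    · intro hx
      exact hCi _ (by rw [hrep]; exact hx)
    · intro h
      rw [← hrep x]
      exact Subring.sum_mem _ fun i _ => Subring.mul_mem _ (hei _ (h i)) (Subring.pow_mem _ hθi _)
  · intro x
    constructor
    · rintro ⟨h1, h2⟩
      exact hCV _ (by rw [hrep]; exact h1) (by rw [hrep]; exact h2)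
    · intro h
      constructor
      · rw [← hrep x]
        exact Subring.sum_mem _ fun i _ =>
          Subring.mul_mem _ (heu _ (h i)) (Subring.pow_mem _ hθu0 _)
      · rw [← hrep x]
        exact Subring.sum_mem _ fun i _ =>
          Subring.mul_mem _ (her _ (h i)) (Subring.pow_mem _ hθr0 _)
  · rw [aeval_def]
    exact hGθ

end Fermat.Agent.CARlib
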