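import Fermat.Agent.CAR.NVAbs
import Fermat.Agent.CAR.V2App
import Fermat.Agent.CAR.V2Res
import Fermat.Agent.CAR.V2W2
import Fermat.Agent.CAR.EIface

/-!
# T-CAR, row NV: the two `NHalf` (along `e₁`, `e₂`) from block V

`n_half` along `i12` (`θ = vJ2`, `a = j_r ^ r`, `c = j`), then transport by `w_r` (to `e₁`) and by
`w2` (to `e₂`).  The Kronecker package `NVKronP` is a named hypothesis.
-/

set_option autoImplicit false
set_option linter.unusedSectionVars false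
set_option linter.unusedVariables false
set_option linter.style.haveILetI false

open ModularCurve AlgebraicCurve Polynomial

namespace Fermat.Agent.CARlib

open Fermat.Agent.ESlib Fermat.Agent.UNIlib Fermat.Agent.UNIlib.Normalise

noncomputable section

variable {R K : Type} [CommRing R] [IsDomain R] [IsDiscreteValuationRing R] [Field K]
  [Algebra R K] [IsFractionRing R K] [Algebra ℚ K] [CharZero K] [Algebra K ℂ] [IsScalarTower ℚ K ℂ]
  {N r : ℕ} [NeZero N] [NeZero r] [NeZero (N * r)] [NeZero (N * r * r)]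
  [Algebra R (FK K N)] [IsScalarTower R K (FK K N)]
  [Algebra R (FK K (N * r))] [IsScalarTower R K (FK K (N * r))]
  [Algebra R (FK K (N * r * r))] [IsScalarTower R K (FK K (N * r * r))]

variable (R K N r) in
/-- the Kronecker package: `G = Φ_r(X, j_r) / (X - j)` -/
def NVKronP : Prop :=
  ∃ G : (FK K (N * r))[X], G.Monic ∧ G.natDegree = r ∧
    G.eval₂ (i12 K N r).toRingHom (vJ2 K N r) = 0 ∧
    (∀ t ∈ VF1 R K N r, (G.eval t - (t - jr K N r ^ r) * (t - J1 K (N * r)) ^ (r - 1)) /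
      ((r : ℕ) : FK K (N * r)) ∈ VF1 R K N r) ∧
    G.eval (J1 K (N * r)) / ((r : ℕ) : FK K (N * r)) ∈ VF1 R K N r ∧
    ((r : ℕ) : FK K (N * r)) / G.eval (J1 K (N * r)) ∈ VF1 R K N r

/-- the norm along `e₁ = i12 ∘ w_r` -/
theorem nv_norm_e1 (hr : r.Prime) (hrN : ¬ r ∣ N) (x : FK K (N * r * r)) :
    normAlong (e1 K hr hrN) x = wr K hr hrN (normAlong (i12 K N r) x) :=
  @Algebra.norm_eq_of_equiv_equiv (FK K (N * r)) (FK K (N * r * r)) (FK K (N * r))
    (FK K (N * r * r)) _ _ _ _ (algebraAlong (e1 K hr hrN))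
    (algebraAlong (i12 K N r)) (wr K hr hrN).toRingEquiv
    (RingEquiv.refl _) (RingHom.ext fun a => rfl) x

/-- the norm along `e₂ = w2 ∘ e₁` -/
theorem nv_norm_e2 (hr : r.Prime) (hrN : ¬ r ∣ N) (x : FK K (N * r * r)) :
    normAlong (e1 K hr hrN) x = normAlong (e2 K N r) (w2 K hr hrN x) :=
  @Algebra.norm_eq_of_equiv_equiv (FK K (N * r)) (FK K (N * r * r)) (FK K (N * r))
    (FK K (N * r * r)) _ _ _ _ (algebraAlong (e1 K hr hrN))
    (algebraAlong (e2 K N r)) (RingEquiv.refl _) (w2 K hr hrN).toRingEquiv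
    (RingHom.ext fun a => (w2_e1 K hr hrN a).symm) x

variable [CharP (IsLocalRing.ResidueField R) r]

/-- `NHalf` along the inclusion `i12` -/
theorem nv_half_i12 (hr : r.Prime) (hrN : ¬ r ∣ N) (hN : (N : IsLocalRing.ResidueField R) ≠ 0)
    (hπ : Irreducible ((r : ℕ) : R)) {W : ValuationSubring (FK K (N * r * r))}
    (D : VCore hr hrN ((r : ℕ) : R) W) (hkron : NVKronP R K N r) :
    ∃ N₀ : FK K (N * r * r) →*₀ FK K (N * r), (∀ x, N₀ x = normAlong (i12 K N r) x) ∧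
      NHalf r (i12 K N r).toRingHom N₀ (VV1 R hr hrN).toSubring (VF1 R K N r).toSubring
        (algebraMap R (FK K (N * r)) ((r : ℕ) : R)) (WFV R hr hrN).toSubring
        (WVF R K N r).toSubring W.toSubring (vY K N r) := by
  obtain ⟨G, hGm, hGd, hGθ, hfac, hGc1, hGc2⟩ := hkron
  have he : (i12 K N r).toRingHom (algebraMap R (FK K (N * r)) ((r : ℕ) : R)) =
      algebraMap R (FK K (N * r * r)) ((r : ℕ) : R) := v2_i12_algebraMap _
  have hπ1 : algebraMap R (FK K (N * r)) ((r : ℕ) : R) = ((r : ℕ) : FK K (N * r)) :=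
    map_natCast _ r
  have hr0 : ((r : ℕ) : FK K (N * r)) ≠ 0 := by exact_mod_cast hr.ne_zero
  have hπ20 : algebraMap R (FK K (N * r * r)) ((r : ℕ) : R) ≠ 0 := by
    rw [map_natCast]
    exact_mod_cast hr.ne_zero
  have hy : nU W.toSubring (vY K N r ^ (r - 1) / algebraMap R (FK K (N * r * r)) ((r : ℕ) : R)) :=
    ⟨div_ne_zero (pow_ne_zero _ D.vY_ne_zero) hπ20, D.vv_pow.1, by rw [inv_div]; exact D.vv_pow.2⟩
  have hac : nU (VF1 R K N r).toSubring (jr K N r ^ r - J1 K (N * r)) := by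
    have h : nU (VF1 R K N r).toSubring (J1 K (N * r) - jr K N r ^ r) :=
      ⟨v2w_u_ne_zero hr, v2w_u_mem, v2w_u_inv_mem hr⟩
    simpa using h.nh_neg
  have hGc0 : G.eval (J1 K (N * r)) ≠ 0 := by
    intro h
    have h1 : (X - C (J1 K (N * r))) * (G /ₘ (X - C (J1 K (N * r)))) = G :=
      mul_divByMonic_eq_iff_isRoot.2 h
    set Q := G /ₘ (X - C (J1 K (N * r))) with hQ
    have hQd : Q.natDegree < r := by
      rw [hQ, natDegree_divByMonic _ (monic_X_sub_C _), hGd, natDegree_X_sub_C]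
      exact Nat.sub_lt hr.pos one_pos
    have h2 : Q.eval₂ (i12 K N r).toRingHom (vJ2 K N r) = 0 := by
      have h3 := hGθ
      rw [← h1, eval₂_mul, eval₂_sub, eval₂_X, eval₂_C] at h3
      rcases mul_eq_zero.1 h3 with h4 | h4
      · exfalso
        apply D.vY_ne_zero
        rw [← h4]
        show vY K N r = vJ2 K N r - i12 K N r (J1 K (N * r))
        rw [i12_J1]
      · exact h4
    rw [v1_eval₂_eq_sum Q hQd] at h2
    have h5 := v1_indep hr hrN _ h2
    have hQ0 : Q = 0 := by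
      refine Polynomial.ext fun i => ?_
      rw [coeff_zero]
      by_cases hi : i < r
      · exact h5 ⟨i, hi⟩
      · exact coeff_eq_zero_of_natDegree_lt (lt_of_lt_of_le hQd (not_lt.1 hi))
    rw [hQ0, mul_zero] at h1
    exact hGm.ne_zero h1.symm
  refine nv_half_abs (i12 K N r).toRingHom hr hπ1 (v2_isDV_VV1 hr hrN hπ) (v2_isDV_VF1 hπ)
    (by rw [he]; exact v2_isDV_WFV hr hrN hπ) (by rw [he]; exact v2_isDV_WVF hπ) (D.isDV hN hπ)
    (by rw [he]; exact hy) (vJ2 K N r) (v1_span R hr hrN hN) (v1_indep hr hrN)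
    (v2_basis_V hr hrN) (fun z hz => v2r_i12_mem_WFV hr hrN hz) (vJ2_mem_WFV hr hrN) D.basis_F
    (fun z hz => v2r_i12_mem_WVF hz) (fun z hz => (D.vv_incl z).2 hz) vJ2_mem_WVF D.vJ2_mem
    G hGm hGd hGθ ?_ (jr K N r ^ r) (J1 K (N * r)) (pow_mem (Jgen_mem_gaussSub _) r)
    (Jgen_mem_gaussSub _) hac ?_ ?_ ?_ ?_ ?_
  · intro x hx
    rw [he]
    exact v2_fv_res_of hr hrN hN (v2_basis_V hr hrN) hπ x hx
  · rw [hπ1]
    exact hfac
  · rw [hπ1]
    exact ⟨div_ne_zero hGc0 hr0, hGc1, by rw [inv_div]; exact hGc2⟩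
  · rw [he]
    have h := v2r_vJ2_sub (R := R) (K := K) (N := N) hr hπ
    have h3 : i12 K N r (jr K N r) = vJ1 K N r :=
      (show i12 K N r (jr K N r) =
        Jgen K (N * r * r) ⟨r, (dvd_mul_left r N).mul_right r⟩ from rfl).trans
        (Jgen_ext K (one_mul r).symm)
    have h2 : (i12 K N r).toRingHom (jr K N r ^ r) = vJ1 K N r ^ r := by
      rw [map_pow]
      exact congrArg (· ^ r) h3
    rw [h2]
    exact h
  · show vY K N r = vJ2 K N r - i12 K N r (J1 K (N * r))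
    rw [i12_J1]
  · intro x₁ x₂ h₁ h₂
    obtain ⟨S, hS, c1, -, -, c3⟩ := D.approx_mul hN hπ x₁ 1 x₂ h₁ one_ne_zero h₂
    rw [he]
    exact ⟨S, hS, c1, c3⟩

/-- **row NV** : the two `NHalf` of `x5_carKAt` -/
theorem nv_inst (hr : r.Prime) (hrN : ¬ r ∣ N) (hN : (N : IsLocalRing.ResidueField R) ≠ 0)
    (hπ : Irreducible ((r : ℕ) : R)) {W : ValuationSubring (FK K (N * r * r))}
    (D : VCore hr hrN ((r : ℕ) : R) W) (hkron : NVKronP R K N r) :
    ∃ N₁ N₂ : FK K (N * r * r) →*₀ FK K (N * r),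
      (∀ x, N₁ x = normAlong (e1 K hr hrN) x) ∧ (∀ x, N₂ x = normAlong (e2 K N r) x) ∧
      NHalf r (e1 K hr hrN).toRingHom N₁ (VF1 R K N r).toSubring (VV1 R hr hrN).toSubring
        (algebraMap R (FK K (N * r)) ((r : ℕ) : R)) (WFV R hr hrN).toSubring
        (WVF R K N r).toSubring W.toSubring (vY K N r) ∧
      NHalf r (e2 K N r).toRingHom N₂ (VF1 R K N r).toSubring (VV1 R hr hrN).toSubring
        (algebraMap R (FK K (N * r)) ((r : ℕ) : R)) (WVF R K N r).toSubring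
        (WFV R hr hrN).toSubring W.toSubring (vY K N r) := by
  obtain ⟨N₀, hN₀, H₀⟩ := nv_half_i12 hr hrN hN hπ D hkron
  let N₁ : FK K (N * r * r) →*₀ FK K (N * r) :=
    ((wr K hr hrN).toRingEquiv.toRingHom.toMonoidWithZeroHom).comp N₀
  let N₂ : FK K (N * r * r) →*₀ FK K (N * r) :=
    N₁.comp ((w2 K hr hrN).toRingEquiv.toRingHom.toMonoidWithZeroHom)
  have hN₁a : ∀ x, N₁ x = wr K hr hrN (N₀ x) := fun _ => rfl
  have hN₂a : ∀ x, N₂ x = N₁ (w2 K hr hrN x) := fun _ => rfl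
  have hN₁ : ∀ x, N₁ x = normAlong (e1 K hr hrN) x := fun x => by
    rw [hN₁a, hN₀, nv_norm_e1]
  have hN₂ : ∀ x, N₂ x = normAlong (e2 K N r) x := fun x => by
    rw [hN₂a, hN₁, nv_norm_e2, w2_w2]
  have H₁ : NHalf r (e1 K hr hrN).toRingHom N₁ (VF1 R K N r).toSubring (VV1 R hr hrN).toSubring
      (algebraMap R (FK K (N * r)) ((r : ℕ) : R)) (WFV R hr hrN).toSubring
      (WVF R K N r).toSubring W.toSubring (vY K N r) := by
    refine H₀.nv_precomp (wr K hr hrN).toRingEquiv (v2_wr_algebraMap hr hrN _) ?_ ?_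
      (fun z => rfl) ?_
    · intro z
      show z ∈ gaussVal R K (N * r) ↔ wr K hr hrN (wr K hr hrN z) ∈ gaussVal R K (N * r)
      rw [wr_wr]
    · intro z
      exact Iff.rfl
    · intro x
      show wr K hr hrN (N₁ x) = N₀ x
      rw [hN₁a, wr_wr]
  refine ⟨N₁, N₂, hN₁, hN₂, H₁, ?_⟩
  apply NHalf.nv_neg
  refine H₁.nv_postcomp (w2 K hr hrN).toRingEquiv ?_ ?_ ?_ (fun z => (w2_e1 K hr hrN z).symm) ?_
    (v1_w2_vY hr hrN).symm
  · intro x
    exact Iff.rfl
  · intro x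
    show x ∈ gaussVal R K (N * r * r) ↔
      w2 K hr hrN (w2 K hr hrN x) ∈ gaussVal R K (N * r * r)
    rw [w2_w2]
  · intro x
    exact (D.vv_w2 x).symm
  · intro x
    show N₂ (w2 K hr hrN x) = N₁ x
    rw [hN₂a, w2_w2]

end

end Fermat.Agent.CARlib
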