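import Fermat.Agent.CAR.X1Norm
import Fermat.Agent.CAR.VDefs

/-!
# T-CAR, block N / V: the norms along `i12`, `e₁ = i12 ∘ w_r`, `e₂ = sw ∘ e₁`
(the hypotheses `hN'` of `NHalf.nv_precomp`, `NHalf.nv_postcomp`)
-/

set_option autoImplicit false
set_option linter.unusedSectionVars false
set_option linter.style.haveILetI false

open ModularCurve AlgebraicCurve Polynomial
open Fermat.Agent.S24lib Fermat.Agent.ESlib Fermat.Agent.UNIlib

namespace Fermat.Agent.CARlib

variable {K : Type} [Field K] [Algebra ℚ K] [Algebra K ℂ] [IsScalarTower ℚ K ℂ]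
variable {N r : ℕ} [NeZero N] [NeZero r] [NeZero (N * r)] [NeZero (N * r * r)]
variable [CharZero K] (R : Type) [CommRing R] [IsDomain R] [IsDiscreteValuationRing R]
  [Algebra R K] [IsFractionRing R K] [CharP (IsLocalRing.ResidueField R) r]

theorem nvn_finiteDimensional_i12 (hr : r.Prime) (hrN : ¬ r ∣ N)
    (hN : (N : IsLocalRing.ResidueField R) ≠ 0) :
    letI := algebraAlong (i12 K N r)
    FiniteDimensional (FK K (N * r)) (FK K (N * r * r)) := by
  letI := algebraAlong (i12 K N r)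
  have h2 : Module.finrank (FK K (N * r)) (FK K (N * r * r)) = r := v1_finrank_inclF R hr hrN hN
  exact Module.finite_of_finrank_pos (h2.symm ▸ hr.pos)

/-- the norm along `i12` as a monoid-with-zero hom (`= normZH` for `algebraAlong i12`) -/
noncomputable def nvN0 (hr : r.Prime) (hrN : ¬ r ∣ N)
    (hN : (N : IsLocalRing.ResidueField R) ≠ 0) : FK K (N * r * r) →*₀ FK K (N * r) :=
  letI := algebraAlong (i12 K N r)
  haveI := nvn_finiteDimensional_i12 (K := K) R hr hrN hN
  normZH (FK K (N * r)) (FK K (N * r * r))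

theorem nvN0_apply (hr : r.Prime) (hrN : ¬ r ∣ N) (hN : (N : IsLocalRing.ResidueField R) ≠ 0)
    (x : FK K (N * r * r)) :
    nvN0 R hr hrN hN x = (letI := algebraAlong (i12 K N r); Algebra.norm (FK K (N * r)) x) := rfl

/-- `hN'` of `nv_precomp` (`τ = w_r`, `e = i12`, `e' = e₁`) -/
theorem nvn_e1 (hr : r.Prime) (hrN : ¬ r ∣ N) (hN : (N : IsLocalRing.ResidueField R) ≠ 0)
    (x : FK K (N * r * r)) :
    wr K hr hrN (x1N1 R hr hrN hN x) = nvN0 R hr hrN hN x := by
  rw [x1N1_apply, wr_wr]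
  rfl

/-- `hN'` of `nv_postcomp` (`σ = sw`, `e = e₁`, `e' = e₂`) -/
theorem nvn_e2 (hr : r.Prime) (hrN : ¬ r ∣ N) (hN : (N : IsLocalRing.ResidueField R) ≠ 0)
    (x : FK K (N * r * r)) :
    x1N2 R hr hrN hN (w2 K hr hrN x) = x1N1 R hr hrN hN x := by
  have h := @Algebra.norm_eq_of_equiv_equiv (FK K (N * r)) (FK K (N * r * r)) (FK K (N * r))
    (FK K (N * r * r)) _ _ _ _ (algebraAlong (e1 K hr hrN))
    (algebraAlong (e2 K N r)) (RingEquiv.refl _) (w2 K hr hrN).toRingEquiv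
    (RingHom.ext fun a => (w2_e1 K hr hrN a).symm) x
  exact h.symm

theorem nvn_hN1 (hr : r.Prime) (hrN : ¬ r ∣ N) (hN : (N : IsLocalRing.ResidueField R) ≠ 0)
    (x : FK K (N * r * r)) : x1N1 R hr hrN hN x = normAlong (e1 K hr hrN) x := rfl

theorem nvn_hN2 (hr : r.Prime) (hrN : ¬ r ∣ N) (hN : (N : IsLocalRing.ResidueField R) ≠ 0)
    (x : FK K (N * r * r)) : x1N2 R hr hrN hN x = normAlong (e2 K N r) x := rfl

end Fermat.Agent.CARlib
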