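import Fermat.Agent.CAR.N2Half

/-!
# T-CAR, row NV (abstract part): transport of `NHalf` along automorphisms of `F₁`, `F₂`
and along `y ↦ -y`
-/

set_option autoImplicit false

namespace Fermat.Agent.CARlib

open Fermat.Agent.UNIlib.Normalise

variable {F₁ F₂ : Type*} [Field F₁] [Field F₂]

section aux

variable {F F' : Type*} [Field F] [Field F']

theorem nv_nU_iff (τ : F ≃+* F') {V : Subring F} {V' : Subring F'}
    (h : ∀ z, z ∈ V ↔ τ z ∈ V') (z : F) : nU V z ↔ nU V' (τ z) := by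
  unfold nU
  rw [h z, h z⁻¹, map_inv₀, Ne, Ne, map_eq_zero_iff τ τ.injective]

theorem nv_oneMod_iff (τ : F ≃+* F') {V : Subring F} {V' : Subring F'}
    (h : ∀ z, z ∈ V ↔ τ z ∈ V') (ϖ z : F) : OneMod V ϖ z ↔ OneMod V' (τ ϖ) (τ z) := by
  unfold OneMod
  rw [h, map_div₀, map_sub, map_one]

end aux

/-- transport along an automorphism `τ` of `F₁`: `e' = e ∘ τ`, `N' = τ⁻¹ ∘ N` -/
theorem NHalf.nv_precomp {r : ℕ} {e : F₁ →+* F₂} {N : F₂ →*₀ F₁} {VF VV : Subring F₁} {π₁ : F₁}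
    {Wi Wu Wr : Subring F₂} {y : F₂} (H : NHalf r e N VF VV π₁ Wi Wu Wr y)
    (τ : F₁ ≃+* F₁) (hτπ : τ π₁ = π₁) {VF' VV' : Subring F₁}
    (hVF : ∀ z, z ∈ VF' ↔ τ z ∈ VF) (hVV : ∀ z, z ∈ VV' ↔ τ z ∈ VV)
    {e' : F₁ →+* F₂} (he' : ∀ z, e' z = e (τ z)) {N' : F₂ →*₀ F₁} (hN' : ∀ x, τ (N' x) = N x) :
    NHalf r e' N' VF' VV' π₁ Wi Wu Wr y := by
  have hπ' : e' π₁ = e π₁ := by rw [he', hτπ]
  refine
    { N_e := fun z => τ.injective (by rw [hN', he', H.N_e, map_pow])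
      ordF := fun x n h => ?_
      ordV := fun x a b h1 h2 => ?_
      resF := fun x hx => ?_
      resV := fun x y₁ y₂ h1 h2 h3 h4 => ?_
      memU := fun z => by rw [he', H.memU, hVV]
      memR := fun z hz => by rw [he']; exact H.memR _ ((hVV z).1 hz)
      liftU := fun x hx => ?_
      liftR := fun x hx => ?_ }
  · rw [hπ'] at h
    rw [nv_nU_iff τ hVF, map_div₀, map_zpow₀, hN', hτπ]
    exact H.ordF x n h
  · rw [hπ'] at h1
    rw [nv_nU_iff τ hVV, map_div₀, map_zpow₀, hN', hτπ]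
    exact H.ordV x a b h1 h2
  · rw [hπ', he', hN']
    exact H.resF x hx
  · rw [hπ', he'] at h3
    rw [he'] at h4
    rw [nv_oneMod_iff τ hVV, hτπ, map_div₀, map_mul, map_pow, hN']
    exact H.resV x _ _ ((nv_nU_iff τ hVV _).1 h1) ((nv_nU_iff τ hVV _).1 h2) h3 h4
  · obtain ⟨z, hz, h⟩ := H.liftU x hx
    refine ⟨τ.symm z, ?_, ?_⟩
    · rw [nv_nU_iff τ hVV, RingEquiv.apply_symm_apply]; exact hz
    · rw [hπ', he', RingEquiv.apply_symm_apply]; exact h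
  · obtain ⟨z, hz, h⟩ := H.liftR x hx
    refine ⟨τ.symm z, ?_, ?_⟩
    · rw [nv_nU_iff τ hVV, RingEquiv.apply_symm_apply]; exact hz
    · rw [he', RingEquiv.apply_symm_apply]; exact h

/-- transport along an automorphism `σ` of `F₂`: `e' = σ ∘ e`, `N' = N ∘ σ⁻¹` -/
theorem NHalf.nv_postcomp {r : ℕ} {e : F₁ →+* F₂} {N : F₂ →*₀ F₁} {VF VV : Subring F₁} {π₁ : F₁}
    {Wi Wu Wr : Subring F₂} {y : F₂} (H : NHalf r e N VF VV π₁ Wi Wu Wr y)
    (σ : F₂ ≃+* F₂) {Wi' Wu' Wr' : Subring F₂}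
    (hWi : ∀ x, x ∈ Wi ↔ σ x ∈ Wi') (hWu : ∀ x, x ∈ Wu ↔ σ x ∈ Wu')
    (hWr : ∀ x, x ∈ Wr ↔ σ x ∈ Wr')
    {e' : F₁ →+* F₂} (he' : ∀ z, e' z = σ (e z)) {N' : F₂ →*₀ F₁} (hN' : ∀ x, N' (σ x) = N x)
    {y' : F₂} (hy' : y' = σ y) :
    NHalf r e' N' VF VV π₁ Wi' Wu' Wr' y' := by
  subst hy'
  refine
    { N_e := fun z => by rw [he', hN', H.N_e]
      ordF := fun x' n h => ?_
      ordV := fun x' a b h1 h2 => ?_
      resF := fun x' hx => ?_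
      resV := fun x' y₁ y₂ h1 h2 h3 h4 => ?_
      memU := fun z => by rw [he', ← hWu, H.memU]
      memR := fun z hz => by rw [he', ← hWr]; exact H.memR z hz
      liftU := fun x' hx => ?_
      liftR := fun x' hx => ?_ }
  · obtain ⟨x, rfl⟩ := σ.surjective x'
    rw [he', ← map_zpow₀, ← map_div₀, ← nv_nU_iff σ hWi] at h
    rw [hN']
    exact H.ordF x n h
  · obtain ⟨x, rfl⟩ := σ.surjective x'
    rw [he', ← map_zpow₀, ← map_div₀, ← nv_nU_iff σ hWu] at h1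
    rw [← map_zpow₀, ← map_div₀, ← nv_nU_iff σ hWr] at h2
    rw [hN']
    exact H.ordV x a b h1 h2
  · obtain ⟨x, rfl⟩ := σ.surjective x'
    rw [← nv_nU_iff σ hWi] at hx
    rw [he', he', hN', ← map_pow, ← map_div₀, ← nv_oneMod_iff σ hWi]
    exact H.resF x hx
  · obtain ⟨x, rfl⟩ := σ.surjective x'
    rw [he', he', ← map_div₀, ← nv_oneMod_iff σ hWu] at h3
    rw [he', ← map_div₀, ← nv_oneMod_iff σ hWr] at h4
    rw [hN']
    exact H.resV x y₁ y₂ h1 h2 h3 h4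
  · obtain ⟨x, rfl⟩ := σ.surjective x'
    rw [← nv_nU_iff σ hWu] at hx
    obtain ⟨z, hz, h⟩ := H.liftU x hx
    refine ⟨z, hz, ?_⟩
    rw [he', he', ← map_div₀, ← nv_oneMod_iff σ hWu]
    exact h
  · obtain ⟨x, rfl⟩ := σ.surjective x'
    rw [← nv_nU_iff σ hWr] at hx
    obtain ⟨z, hz, h⟩ := H.liftR x hx
    refine ⟨z, hz, ?_⟩
    rw [he', ← map_div₀, ← nv_oneMod_iff σ hWr]
    exact h

theorem nv_oneMod_neg {F : Type*} [Field F] {V : Subring F} {ϖ x : F} :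
    OneMod V (-ϖ) x ↔ OneMod V ϖ x := by
  unfold OneMod
  rw [div_neg]
  exact V.neg_mem_iff

theorem nv_nU_div_neg_zpow {F : Type*} [Field F] {V : Subring F} {y x : F} (b : ℤ) :
    nU V (x / (-y) ^ b) ↔ nU V (x / y ^ b) := by
  rcases Int.even_or_odd b with h | h
  · rw [h.neg_zpow]
  · rw [h.neg_zpow, div_neg]
    exact ⟨fun h' => by simpa using h'.nh_neg, fun h' => h'.nh_neg⟩

/-- `y ↦ -y` -/
theorem NHalf.nv_neg {r : ℕ} {e : F₁ →+* F₂} {N : F₂ →*₀ F₁} {VF VV : Subring F₁} {π₁ : F₁}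
    {Wi Wu Wr : Subring F₂} {y : F₂} (H : NHalf r e N VF VV π₁ Wi Wu Wr (-y)) :
    NHalf r e N VF VV π₁ Wi Wu Wr y :=
  { N_e := H.N_e
    ordF := H.ordF
    ordV := fun x a b h1 h2 => H.ordV x a b h1 ((nv_nU_div_neg_zpow b).2 h2)
    resF := H.resF
    resV := fun x y₁ y₂ h1 h2 h3 h4 => H.resV x y₁ y₂ h1 h2 h3 (nv_oneMod_neg.2 h4)
    memU := H.memU
    memR := H.memR
    liftU := H.liftU
    liftR := fun x hx => by
      obtain ⟨z, hz, h⟩ := H.liftR x hx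
      exact ⟨z, hz, nv_oneMod_neg.1 h⟩ }

end Fermat.Agent.CARlib
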