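import Fermat.Agent.UNI.AL3

/-!
# T-CAR, V1: the Atkin-Lehner involution `w2 = W_{r^2}` of the function field of `X₀(N r^2)`,
`r ∤ N` prime, and the two embeddings `e1, e2 : F_K(N r) → F_K(N r^2)`.

`w2 K hr hrN : FK K (N * r * r) ≃ₐ[K] FK K (N * r * r)` maps `j(q^{e r^i})` to `j(q^{e r^(2-i)})`
for `e ∣ N`.  It is the swap `sw` of the blueprint: `w2 (e1 x) = e2 x`, `w2 (e2 x) = e1 x`.
-/

set_option autoImplicit false
set_option linter.unusedSectionVars false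
set_option linter.style.haveILetI false

open UpperHalfPlane hiding I
open ModularForm MatrixGroups Filter Topology ModularCurve Complex
open scoped Manifold Real
open Fermat.Agent.S24lib Fermat.Agent.ESlib Fermat.Agent.UNIlib

namespace Fermat.Agent.CARlib

section analytic

/-- `j(e r W τ) = j(e r τ)` for `e ∣ N`, `W = W_{r^2}` -/
theorem v1_jd_mid_alMap {N r : ℕ} (hr : r ≠ 0) (w z : ℤ) (h : ((r * r : ℕ) : ℤ) * w - N * z = 1)
    {e : ℕ} (he0 : e ≠ 0) (he : e ∣ N) (τ : ℍ) :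
    jd (e * r) (alMap N (r * r) w z h τ) = jd (e * r) τ := by
  obtain ⟨f, rfl⟩ := he
  have hω := coe_alMap_mul (mul_ne_zero hr hr) w z h τ
  let γ : SL(2, ℤ) := ⟨!![r, e; f * z, r * w], by
    rw [Matrix.det_fin_two_of]; push_cast at h; linarith⟩
  rw [jd, jd]
  refine jfun_ofComplex_eq_of_moebius γ (im_natCast_mul_pos (mul_ne_zero he0 hr) τ) ?_
  simp only [γ, Matrix.of_apply, Matrix.cons_val', Matrix.cons_val_zero, Matrix.cons_val_one,
    Matrix.cons_val_fin_one]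
  have hr' : (r : ℂ) ≠ 0 := by exact_mod_cast hr
  apply mul_left_cancel₀ hr'
  push_cast at hω ⊢
  linear_combination (e : ℂ) * (r : ℂ) * hω

end analytic

section perm

variable {N r : ℕ}

theorem v1_dvd_cases (hr : r.Prime) {d : ℕ} (hd : d ∣ N * r * r) :
    ∃ e, e ∣ N ∧ (d = e ∨ d = e * r ∨ d = e * r * r) := by
  by_cases h1 : r ∣ d
  · obtain ⟨d1, rfl⟩ := h1
    have hd1 : d1 ∣ N * r := by
      rw [mul_comm r d1] at hd
      exact Nat.dvd_of_mul_dvd_mul_right hr.pos hd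
    by_cases h2 : r ∣ d1
    · obtain ⟨d2, rfl⟩ := h2
      have hd2 : d2 ∣ N := by
        rw [mul_comm r d2] at hd1
        exact Nat.dvd_of_mul_dvd_mul_right hr.pos hd1
      exact ⟨d2, hd2, Or.inr (Or.inr (by ring))⟩
    · exact ⟨d1, dvd_of_not_dvd_of_dvd_mul hr h2 hd1, Or.inr (Or.inl (by ring))⟩
  · have hd1 : d ∣ N * r := dvd_of_not_dvd_of_dvd_mul hr h1 hd
    exact ⟨d, dvd_of_not_dvd_of_dvd_mul hr h1 hd1, Or.inl rfl⟩

/-- the permutation `e r^i ↦ e r^(2-i)` (`e ∣ N`) of the divisors of `N r^2` -/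
def al2Perm (hr : r.Prime) (d : Dv (N * r * r)) : Dv (N * r * r) :=
  if h : r * r ∣ d.1 then ⟨d.1 / (r * r), by
      obtain ⟨e, he⟩ := h
      have h1 : d.1 / (r * r) = e := by rw [he, Nat.mul_div_cancel_left _ (Nat.mul_pos hr.pos hr.pos)]
      rw [h1]
      exact (Dvd.intro_left (r * r) he.symm).trans d.2⟩
  else if h' : r ∣ d.1 then d
  else ⟨d.1 * r * r, Nat.mul_dvd_mul_right (Nat.mul_dvd_mul_right
    (dvd_of_not_dvd_of_dvd_mul hr h' (dvd_of_not_dvd_of_dvd_mul hr h' d.2)) r) r⟩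

theorem al2Perm_zero (hr : r.Prime) (hrN : ¬ r ∣ N) {e : ℕ} (he : e ∣ N)
    (h : e ∣ N * r * r) : (al2Perm hr ⟨e, h⟩).1 = e * r * r := by
  have h1 : ¬ r ∣ e := fun h => hrN (h.trans he)
  have h2 : ¬ r * r ∣ e := fun h => h1 ((dvd_mul_right r r).trans h)
  rw [al2Perm, dif_neg h2, dif_neg h1]

theorem al2Perm_one (hr : r.Prime) (hrN : ¬ r ∣ N) {e : ℕ} (he : e ∣ N)
    (h : e * r ∣ N * r * r) : (al2Perm hr ⟨e * r, h⟩).1 = e * r := by
  have h1 : ¬ r ∣ e := fun h => hrN (h.trans he)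
  have h2 : ¬ r * r ∣ e * r := fun h => h1 (Nat.dvd_of_mul_dvd_mul_right hr.pos h)
  rw [al2Perm, dif_neg h2, dif_pos (dvd_mul_left r e)]

theorem al2Perm_two (hr : r.Prime) {e : ℕ}
    (h : e * r * r ∣ N * r * r) : (al2Perm hr ⟨e * r * r, h⟩).1 = e := by
  have h2 : r * r ∣ e * r * r := ⟨e, by ring⟩
  rw [al2Perm, dif_pos h2]
  show e * r * r / (r * r) = e
  rw [mul_assoc, Nat.mul_div_cancel _ (Nat.mul_pos hr.pos hr.pos)]

theorem al2Perm_al2Perm (hr : r.Prime) (hrN : ¬ r ∣ N) (d : Dv (N * r * r)) :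
    al2Perm hr (al2Perm hr d) = d := by
  obtain ⟨d, hd⟩ := d
  obtain ⟨e, he, rfl | rfl | rfl⟩ := v1_dvd_cases hr hd
  · apply Subtype.ext
    have h1 : al2Perm hr ⟨d, hd⟩ = ⟨d * r * r, Nat.mul_dvd_mul_right (Nat.mul_dvd_mul_right he r) r⟩ :=
      Subtype.ext (al2Perm_zero hr hrN he hd)
    rw [h1, al2Perm_two]
  · apply Subtype.ext
    have h1 : al2Perm hr ⟨e * r, hd⟩ = ⟨e * r, hd⟩ := Subtype.ext (al2Perm_one hr hrN he hd)
    rw [h1, h1]
  · apply Subtype.ext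
    have h1 : al2Perm hr ⟨e * r * r, hd⟩ = ⟨e, (he.mul_right r).mul_right r⟩ :=
      Subtype.ext (al2Perm_two hr hd)
    rw [h1, al2Perm_zero hr hrN he]

theorem jd_al2Perm [NeZero (N * r * r)] (hr : r.Prime) (hrN : ¬ r ∣ N) (w z : ℤ)
    (h : ((r * r : ℕ) : ℤ) * w - N * z = 1)
    (d : Dv (N * r * r)) (τ : ℍ) :
    jd (al2Perm hr d).1 τ = jd d.1 (alMap N (r * r) w z h τ) := by
  have hd0 : d.1 ≠ 0 := NeZero.ne d.1
  obtain ⟨d, hd⟩ := d
  have hrr : r * r ≠ 0 := mul_ne_zero hr.ne_zero hr.ne_zero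
  obtain ⟨e, he, rfl | rfl | rfl⟩ := v1_dvd_cases hr hd
  · rw [al2Perm_zero hr hrN he hd, mul_assoc]
    exact (jd_alMap hrr w z h hd0 he τ).symm
  · have he0 : e ≠ 0 := fun h0 => hd0 (by simp [h0])
    rw [al2Perm_one hr hrN he hd]
    exact (v1_jd_mid_alMap hr.ne_zero w z h he0 he τ).symm
  · have he0 : e ≠ 0 := fun h0 => hd0 (by simp [h0])
    rw [al2Perm_two hr hd]
    show _ = jd (e * r * r) _
    rw [mul_assoc]
    exact (jd_mul_alMap hrr w z h he0 he τ).symm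

end perm

section generic

/-! ### an involution of the generators which preserves the relations induces an automorphism -/

variable (K : Type) [Field K] [Algebra ℚ K] {M : ℕ} [NeZero M]

theorem v1_exists_permHom (σ : Dv M → Dv M) (hσ : ∀ d, σ (σ d) = d)
    (hker0 : ∀ P : MvPolynomial (Dv M) K, ESlib.evF K M P = 0 →
      ESlib.evF K M (MvPolynomial.rename σ P) = 0) :
    ∃ e : FK K M →ₐ[K] FK K M, ∀ P : MvPolynomial (Dv M) K,
      e (ESlib.evF K M P) = ESlib.evF K M (MvPolynomial.rename σ P) := by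
  let φ : MvPolynomial (Dv M) K →ₐ[K] FK K M :=
    (ESlib.evF K M).comp (MvPolynomial.rename σ)
  have hφ : ∀ P, φ P = ESlib.evF K M (MvPolynomial.rename σ P) := fun _ => rfl
  have hrr : ∀ P : MvPolynomial (Dv M) K,
      MvPolynomial.rename σ (MvPolynomial.rename σ P) = P := fun P => by
    rw [MvPolynomial.rename_rename]
    have : σ ∘ σ = (id : Dv M → Dv M) := funext fun d => hσ d
    rw [this, MvPolynomial.rename_id_apply]
  have hker : ∀ P, φ P = 0 ↔ ESlib.evF K M P = 0 := fun P => by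
    rw [hφ]
    refine ⟨fun h => ?_, hker0 P⟩
    have := hker0 _ h
    rwa [hrr] at this
  let f : MvPolynomial (Dv M) K →ₐ[K] (ESlib.evF K M).range :=
    (ESlib.evF K M).rangeRestrict
  have hf : Function.Surjective f := (ESlib.evF K M).rangeRestrict_surjective
  have hfz : ∀ P, f P = 0 ↔ ESlib.evF K M P = 0 := fun P => by
    rw [← Subtype.coe_inj]; rfl
  let ψ : (ESlib.evF K M).range →ₐ[K] FK K M := AlgHom.liftOfSurjective f hf φ (by
    intro P hP
    rw [RingHom.mem_ker] at hP ⊢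
    exact (hker P).mpr ((hfz P).mp hP))
  have hψ : ∀ P, ψ (f P) = φ P := fun P => AlgHom.liftOfSurjective_apply f hf φ _ P
  have hinj : Function.Injective ψ := by
    rw [injective_iff_map_eq_zero]
    intro a ha
    obtain ⟨P, rfl⟩ := hf a
    rw [hψ, hker] at ha
    exact (hfz P).mpr ha
  have : IsFractionRing (ESlib.evF K M).range (FK K M) :=
    IsFractionRing.of_field _ _ (fun z => by
      obtain ⟨P, Q, -, h⟩ := exists_fracK K M z
      exact ⟨f P, f Q, h⟩)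
  refine ⟨IsFractionRing.liftAlgHom hinj, fun P => ?_⟩
  rw [IsFractionRing.liftAlgHom_apply]
  have h1 : ESlib.evF K M P =
    algebraMap (ESlib.evF K M).range (FK K M) (f P) := rfl
  rw [h1, IsFractionRing.lift_algebraMap]
  exact (hψ P).trans (hφ P)

end generic

section kernel

variable {N r : ℕ} [NeZero (N * r * r)]

theorem evH_rename_al2Perm (hr : r.Prime) (hrN : ¬ r ∣ N) (w z : ℤ)
    (h : ((r * r : ℕ) : ℤ) * w - N * z = 1)
    (P : MvPolynomial (Dv (N * r * r)) ℂ) (τ : ℍ) :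
    ESlib.evH ℂ (N * r * r) (MvPolynomial.rename (al2Perm hr) P) τ =
      ESlib.evH ℂ (N * r * r) P (alMap N (r * r) w z h τ) := by
  induction P using MvPolynomial.induction_on with
  | C a => rw [MvPolynomial.rename_C, ESlib.evH_C]
  | add p q hp hq => rw [map_add, map_add, map_add, Pi.add_apply, Pi.add_apply, hp, hq]
  | mul_X p d hp =>
    rw [map_mul, map_mul, map_mul, MvPolynomial.rename_X, ESlib.evH_X, ESlib.evH_X, Pi.mul_apply,
      Pi.mul_apply, hp, jd_al2Perm hr hrN w z h]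

theorem evF_rename_al2Perm_eq_zero_complex (hr : r.Prime) (hrN : ¬ r ∣ N)
    (P : MvPolynomial (Dv (N * r * r)) ℂ) (hP : ESlib.evF ℂ (N * r * r) P = 0) :
    ESlib.evF ℂ (N * r * r) (MvPolynomial.rename (al2Perm hr) P) = 0 := by
  have hcop : Nat.Coprime (r * r) N :=
    Nat.Coprime.mul_left ((Nat.Prime.coprime_iff_not_dvd hr).2 hrN)
      ((Nat.Prime.coprime_iff_not_dvd hr).2 hrN)
  obtain ⟨w, z, h⟩ := exists_bezout hcop
  rw [ESlib.evF_eq_zero_iff] at hP ⊢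
  funext τ
  rw [evH_rename_al2Perm hr hrN w z h, hP]
  rfl

variable (K : Type) [Field K] [Algebra ℚ K] [Algebra K ℂ] [IsScalarTower ℚ K ℂ]

theorem evF_rename_al2Perm_eq_zero (hr : r.Prime) (hrN : ¬ r ∣ N)
    (P : MvPolynomial (Dv (N * r * r)) K) (hP : ESlib.evF K (N * r * r) P = 0) :
    ESlib.evF K (N * r * r) (MvPolynomial.rename (al2Perm hr) P) = 0 := by
  apply bc_injective K ℂ (modularFunctionFieldFull (N * r * r))
  rw [map_zero, bc_evF, MvPolynomial.map_rename]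
  apply evF_rename_al2Perm_eq_zero_complex hr hrN
  rw [← bc_evF, hP, map_zero]

end kernel

section w2

variable (K : Type) [Field K] [Algebra ℚ K] [Algebra K ℂ] [IsScalarTower ℚ K ℂ]
variable {N r : ℕ} [NeZero (N * r * r)]

/-- the Atkin–Lehner involution `W_{r^2}` as an algebra endomorphism -/
noncomputable def w2Hom (hr : r.Prime) (hrN : ¬ r ∣ N) :
    FK K (N * r * r) →ₐ[K] FK K (N * r * r) :=
  (v1_exists_permHom K (al2Perm hr) (al2Perm_al2Perm hr hrN)
    (evF_rename_al2Perm_eq_zero K hr hrN)).choose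

theorem w2Hom_evF (hr : r.Prime) (hrN : ¬ r ∣ N) (P : MvPolynomial (Dv (N * r * r)) K) :
    w2Hom K hr hrN (ESlib.evF K (N * r * r) P) =
      ESlib.evF K (N * r * r) (MvPolynomial.rename (al2Perm hr) P) :=
  (v1_exists_permHom K (al2Perm hr) (al2Perm_al2Perm hr hrN)
    (evF_rename_al2Perm_eq_zero K hr hrN)).choose_spec P

theorem w2Hom_Jgen (hr : r.Prime) (hrN : ¬ r ∣ N) (d : Dv (N * r * r)) :
    w2Hom K hr hrN (ESlib.Jgen K (N * r * r) d) = ESlib.Jgen K (N * r * r) (al2Perm hr d) := by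
  rw [← evF_X, w2Hom_evF, MvPolynomial.rename_X, evF_X]

theorem w2Hom_w2Hom (hr : r.Prime) (hrN : ¬ r ∣ N) (x : FK K (N * r * r)) :
    w2Hom K hr hrN (w2Hom K hr hrN x) = x := by
  have h : ((w2Hom K hr hrN).comp (w2Hom K hr hrN)).toRingHom =
      (AlgHom.id K (FK K (N * r * r))).toRingHom := by
    apply ringHom_ext_JgenK
    · intro a
      show w2Hom K hr hrN (w2Hom K hr hrN _) = _
      rw [AlgHom.commutes, AlgHom.commutes]
      rfl
    · intro d
      show w2Hom K hr hrN (w2Hom K hr hrN _) = _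
      rw [w2Hom_Jgen, w2Hom_Jgen, al2Perm_al2Perm hr hrN]
      rfl
  exact DFunLike.congr_fun h x

/-- **the Atkin–Lehner involution `W_{r^2}`** of the function field of `X₀(N r^2)` -/
noncomputable def w2 (hr : r.Prime) (hrN : ¬ r ∣ N) :
    FK K (N * r * r) ≃ₐ[K] FK K (N * r * r) :=
  AlgEquiv.ofAlgHom (w2Hom K hr hrN) (w2Hom K hr hrN)
    (AlgHom.ext (w2Hom_w2Hom K hr hrN)) (AlgHom.ext (w2Hom_w2Hom K hr hrN))

theorem w2_evF (hr : r.Prime) (hrN : ¬ r ∣ N) (P : MvPolynomial (Dv (N * r * r)) K) :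
    w2 K hr hrN (ESlib.evF K (N * r * r) P) =
      ESlib.evF K (N * r * r) (MvPolynomial.rename (al2Perm hr) P) :=
  w2Hom_evF K hr hrN P

theorem w2_Jgen (hr : r.Prime) (hrN : ¬ r ∣ N) (d : Dv (N * r * r)) :
    w2 K hr hrN (ESlib.Jgen K (N * r * r) d) = ESlib.Jgen K (N * r * r) (al2Perm hr d) :=
  w2Hom_Jgen K hr hrN d

theorem w2_w2 (hr : r.Prime) (hrN : ¬ r ∣ N) (x : FK K (N * r * r)) :
    w2 K hr hrN (w2 K hr hrN x) = x :=
  w2Hom_w2Hom K hr hrN x

theorem w2_symm (hr : r.Prime) (hrN : ¬ r ∣ N) : (w2 K hr hrN).symm = w2 K hr hrN := rfl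

/-- `w2 (j(q^e)) = j(q^{e r^2})` for `e ∣ N` -/
theorem w2_Jgen_zero (hr : r.Prime) (hrN : ¬ r ∣ N) {e : ℕ} (he : e ∣ N) :
    w2 K hr hrN (ESlib.Jgen K (N * r * r) ⟨e, (he.mul_right r).mul_right r⟩) =
      ESlib.Jgen K (N * r * r)
        ⟨e * r * r, Nat.mul_dvd_mul_right (Nat.mul_dvd_mul_right he r) r⟩ := by
  rw [w2_Jgen]
  congr 1
  exact Subtype.ext (al2Perm_zero hr hrN he _)

/-- `w2 (j(q^{e r})) = j(q^{e r})` for `e ∣ N` -/
theorem w2_Jgen_one (hr : r.Prime) (hrN : ¬ r ∣ N) {e : ℕ} (he : e ∣ N) :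
    w2 K hr hrN (ESlib.Jgen K (N * r * r) ⟨e * r, (Nat.mul_dvd_mul_right he r).mul_right r⟩) =
      ESlib.Jgen K (N * r * r) ⟨e * r, (Nat.mul_dvd_mul_right he r).mul_right r⟩ := by
  rw [w2_Jgen]
  congr 1
  exact Subtype.ext (al2Perm_one hr hrN he _)

/-- `w2 (j(q^{e r^2})) = j(q^e)` for `e ∣ N` -/
theorem w2_Jgen_two (hr : r.Prime) (hrN : ¬ r ∣ N) {e : ℕ} (he : e ∣ N) :
    w2 K hr hrN (ESlib.Jgen K (N * r * r)
        ⟨e * r * r, Nat.mul_dvd_mul_right (Nat.mul_dvd_mul_right he r) r⟩) =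
      ESlib.Jgen K (N * r * r) ⟨e, (he.mul_right r).mul_right r⟩ := by
  rw [← w2_Jgen_zero K hr hrN he, w2_w2]

/-- **functoriality**: `w2` commutes with every ring homomorphism `s : F_K → F_{K'}` which maps
constants to constants and fixes the generators (base change, coefficientwise Galois action). -/
theorem map_w2 (K' : Type) [Field K'] [Algebra ℚ K'] [Algebra K' ℂ] [IsScalarTower ℚ K' ℂ]
    (hr : r.Prime) (hrN : ¬ r ∣ N) (s : FK K (N * r * r) →+* FK K' (N * r * r)) (σ : K →+* K')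
    (hK : ∀ a : K, s (algebraMap K _ a) = algebraMap K' _ (σ a))
    (hJ : ∀ d, s (ESlib.Jgen K (N * r * r) d) = ESlib.Jgen K' (N * r * r) d)
    (x : FK K (N * r * r)) :
    s (w2 K hr hrN x) = w2 K' hr hrN (s x) := by
  have h : s.comp (w2 K hr hrN).toAlgHom.toRingHom =
      ((w2 K' hr hrN).toAlgHom.toRingHom).comp s := by
    apply ringHom_ext_JgenK
    · intro a
      show s (w2 K hr hrN _) = w2 K' hr hrN (s _)
      rw [AlgEquiv.commutes, hK, AlgEquiv.commutes]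
    · intro d
      show s (w2 K hr hrN _) = w2 K' hr hrN (s _)
      rw [w2_Jgen, hJ, hJ, w2_Jgen]
  exact DFunLike.congr_fun h x

/-- `w2` commutes with base change -/
theorem bc_w2 (K' : Type) [Field K'] [Algebra ℚ K'] [Algebra K' ℂ] [IsScalarTower ℚ K' ℂ]
    [Algebra K K'] [IsScalarTower ℚ K K'] (hr : r.Prime) (hrN : ¬ r ∣ N)
    (x : FK K (N * r * r)) :
    bc K K' (modularFunctionFieldFull (N * r * r)) (w2 K hr hrN x) =
      w2 K' hr hrN (bc K K' (modularFunctionFieldFull (N * r * r)) x) :=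
  map_w2 K K' hr hrN (bc K K' _) (algebraMap K K') (bc_algebraMap K K' _) (bc_Jgen K K' _) x

/-- `w2` commutes with the (coefficientwise) Galois action -/
theorem arithmeticRingAut_w2 (hr : r.Prime) (hrN : ¬ r ∣ N) (σ : K ≃ₐ[ℚ] K)
    (x : FK K (N * r * r)) :
    arithmeticRingAut (modularFunctionFieldFull (N * r * r)) σ (w2 K hr hrN x) =
      w2 K hr hrN (arithmeticRingAut (modularFunctionFieldFull (N * r * r)) σ x) :=
  map_w2 K K hr hrN (arithmeticRingAut (modularFunctionFieldFull (N * r * r)) σ).toRingHom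
    (σ : K →+* K) (arithmeticRingAut_algebraMap _ σ) (arithmeticRingAut_Jgen K _ σ) x

theorem mDiv_w2 (hr : r.Prime) (hrN : ¬ r ∣ N) {m : ℕ} {f : FK K (N * r * r)}
    (hf : MDiv K m f) : MDiv K m (w2 K hr hrN f) := mDiv_algEquiv _ hf

theorem mDiv_w2_iff (hr : r.Prime) (hrN : ¬ r ∣ N) {m : ℕ} {f : FK K (N * r * r)} :
    MDiv K m (w2 K hr hrN f) ↔ MDiv K m f :=
  ⟨fun h => by simpa only [w2_w2] using mDiv_w2 K hr hrN h, mDiv_w2 K hr hrN⟩

theorem sameClass_w2 (hr : r.Prime) (hrN : ¬ r ∣ N) {m : ℕ} {f g : FK K (N * r * r)}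
    (h : SameClass m f g) : SameClass m (w2 K hr hrN f) (w2 K hr hrN g) :=
  h.map (w2 K hr hrN).toAlgHom.toRingHom

end w2

end Fermat.Agent.CARlib
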