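import Fermat.Agent.CAR.V1Emb
import Fermat.Agent.UNI.TwoVal

/-!
# T-CAR, V1: `F_K(N r^2)` has degree `r` over `e1 F_K(N r)` and over `e2 F_K(N r)`

`1, e2 b, …, (e2 b)^(r-1)` is a basis of `F_2` over `e1 F_1` (and symmetrically), for `b = j_r` and
for every generator `b` of `F_1` over `F_0`; the polynomial `G_b = g / (Y - b)`.
-/

set_option autoImplicit false
set_option linter.unusedSectionVars false
set_option linter.style.haveILetI false

open ModularCurve Polynomial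
open Fermat.Agent.S24lib Fermat.Agent.ESlib Fermat.Agent.UNIlib
open Fermat.Agent.S28lib (jA jAd)

namespace Fermat.Agent.CARlib

noncomputable section

section abs

variable {F F' : Type*} [Field F] [Field F']

/-- a "polynomial basis" gives the degree -/
theorem v1_finrank_of_basis (φ : F →+* F') (y : F') (r : ℕ)
    (hind : ∀ c : F[X], c.natDegree < r → c.eval₂ φ y = 0 → c = 0)
    (hspan : ∀ x : F', ∃ c : F[X], c.natDegree < r ∧ c.eval₂ φ y = x) :
    letI := φ.toAlgebra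
    Module.finrank F F' = r := by
  letI := φ.toAlgebra
  have hr : 0 < r := by
    obtain ⟨c, hc, -⟩ := hspan 1
    omega
  let f : Polynomial.degreeLT F r →ₗ[F] F' :=
    (Polynomial.aeval y).toLinearMap.comp (Polynomial.degreeLT F r).subtype
  have hf : ∀ p : Polynomial.degreeLT F r, f p = (p : F[X]).eval₂ φ y := fun p => rfl
  have hlt : ∀ c : F[X], c ∈ Polynomial.degreeLT F r ↔ c.natDegree < r := by
    intro c
    rw [Polynomial.mem_degreeLT]
    by_cases hc : c = 0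
    · simp [hc, hr]
    · rw [Polynomial.degree_eq_natDegree hc]
      exact Nat.cast_lt
  have hinj : Function.Injective f := by
    rw [injective_iff_map_eq_zero]
    intro p hp
    exact Subtype.ext (hind p ((hlt _).1 p.2) (by rw [← hf, hp]))
  have hsurj : Function.Surjective f := by
    intro x
    obtain ⟨c, hc, hx⟩ := hspan x
    exact ⟨⟨c, (hlt c).2 hc⟩, hx⟩
  have e := LinearEquiv.ofBijective f ⟨hinj, hsurj⟩
  rw [← e.finrank_eq, (Polynomial.degreeLTEquiv F r).finrank_eq]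
  simp

/-- reduction modulo a monic polynomial -/
theorem v1_exists_lt_of_monic (φ : F →+* F') (y : F') {G : F[X]} (hG : G.Monic)
    (hG1 : G.natDegree ≠ 0)
    (hGy : G.eval₂ φ y = 0) (p : F[X]) :
    ∃ c : F[X], c.natDegree < G.natDegree ∧ c.eval₂ φ y = p.eval₂ φ y := by
  refine ⟨p %ₘ G, Polynomial.natDegree_modByMonic_lt p hG (fun h => hG1 (by rw [h]; simp)), ?_⟩
  conv_rhs => rw [← Polynomial.modByMonic_add_div p G]
  rw [eval₂_add, eval₂_mul, hGy, zero_mul, add_zero]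

/-- the set of values of polynomials at an algebraic element is a field -/
theorem v1_exists_inv (φ : F →+* F') (y : F') {G : F[X]} (hG : G.Monic)
    (hGy : G.eval₂ φ y = 0) (p : F[X]) : ∃ c : F[X], c.eval₂ φ y = (p.eval₂ φ y)⁻¹ := by
  letI := φ.toAlgebra
  have hint : IsIntegral F y := ⟨G, hG, hGy⟩
  have hE := IntermediateField.adjoin_simple_toSubalgebra_of_isAlgebraic hint.isAlgebraic
  have h0 : p.eval₂ φ y ∈ Algebra.adjoin F {y} := by
    rw [Algebra.adjoin_singleton_eq_range_aeval]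
    exact ⟨p, rfl⟩
  have h1 : p.eval₂ φ y ∈ IntermediateField.adjoin F {y} := by
    rw [← IntermediateField.mem_toSubalgebra, hE]
    exact h0
  have h2 : (p.eval₂ φ y)⁻¹ ∈ IntermediateField.adjoin F {y} := inv_mem h1
  rw [← IntermediateField.mem_toSubalgebra, hE, Algebra.adjoin_singleton_eq_range_aeval] at h2
  obtain ⟨c, hc⟩ := h2
  exact ⟨c, hc⟩

/-- a generator of an extension of degree `r` gives a polynomial basis -/
theorem v1_basis_of_gen (φ : F →+* F') (y : F') (r : ℕ) (hr : 0 < r)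
    (hfin : letI := φ.toAlgebra; Module.finrank F F' = r)
    (hgen : ∀ x : F', ∃ p : F[X], p.eval₂ φ y = x) :
    (∀ c : F[X], c.natDegree < r → c.eval₂ φ y = 0 → c = 0) ∧
      (∀ x : F', ∃ c : F[X], c.natDegree < r ∧ c.eval₂ φ y = x) := by
  letI := φ.toAlgebra
  haveI : Module.Finite F F' := Module.finite_of_finrank_pos (by rw [hfin]; exact hr)
  have hint : IsIntegral F y := IsIntegral.of_finite F y
  have hd0 : (minpoly F y).natDegree ≠ 0 := (minpoly.natDegree_pos hint).ne'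
  have hind : ∀ c : F[X], c.natDegree < (minpoly F y).natDegree → c.eval₂ φ y = 0 → c = 0 := by
    intro c hc h0
    by_contra hne
    have := natDegree_le_natDegree (minpoly.degree_le_of_ne_zero F y hne h0)
    omega
  have hspan : ∀ x : F', ∃ c : F[X], c.natDegree < (minpoly F y).natDegree ∧
      c.eval₂ φ y = x := by
    intro x
    obtain ⟨p, rfl⟩ := hgen x
    exact v1_exists_lt_of_monic φ y (minpoly.monic hint) hd0 (minpoly.aeval F y) p
  have hd : (minpoly F y).natDegree = r := by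
    rw [← hfin]
    exact (v1_finrank_of_basis φ y _ hind hspan).symm
  rw [hd] at hind hspan
  exact ⟨hind, hspan⟩

end abs

variable {K : Type} [Field K] [Algebra ℚ K] [Algebra K ℂ] [IsScalarTower ℚ K ℂ]
variable {N r : ℕ} [NeZero N] [NeZero r] [NeZero (N * r)] [NeZero (N * r * r)]

variable (K) in
/-- `e1` as a ring homomorphism -/
abbrev e1R (hr : r.Prime) (hrN : ¬ r ∣ N) : FK K (N * r) →+* FK K (N * r * r) :=
  (e1 K hr hrN).toRingHom

variable (K N r) in
/-- `e2` as a ring homomorphism -/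
abbrev e2R : FK K (N * r) →+* FK K (N * r * r) := (e2 K N r).toRingHom

variable (K N r) in
/-- `j(q^{r^2}) ∈ F_K(N r^2)` -/
abbrev jrr : FK K (N * r * r) :=
  Jgen K (N * r * r) ⟨r * r, Nat.mul_dvd_mul_right (dvd_mul_left r N) r⟩

theorem e1R_apply (hr : r.Prime) (hrN : ¬ r ∣ N) (x : FK K (N * r)) :
    e1R K hr hrN x = e1 K hr hrN x := rfl

theorem e2R_apply (x : FK K (N * r)) : e2R K N r x = e2 K N r x := rfl

theorem e1R_comp_iF (hr : r.Prime) (hrN : ¬ r ∣ N) :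
    (e1R K hr hrN).comp (iF K N r) = (e2R K N r).comp (iF K N r) := by
  refine RingHom.ext fun x => ?_
  show e1 K hr hrN (inclF K (dvd_mul_right N r) x) = e2 K N r (inclF K (dvd_mul_right N r) x)
  rw [e1_inclF, e2_inclF]

theorem w2_comp_e1R (hr : r.Prime) (hrN : ¬ r ∣ N) :
    ((w2 K hr hrN).toAlgHom.toRingHom).comp (e1R K hr hrN) = e2R K N r :=
  RingHom.ext fun x => w2_e1 K hr hrN x

theorem w2_comp_e2R (hr : r.Prime) (hrN : ¬ r ∣ N) :
    ((w2 K hr hrN).toAlgHom.toRingHom).comp (e2R K N r) = e1R K hr hrN :=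
  RingHom.ext fun x => w2_e2 K hr hrN x

theorem w2_jrr (hr : r.Prime) (hrN : ¬ r ∣ N) : w2 K hr hrN (jrr K N r) = J1 K (N * r * r) := by
  have h : jrr K N r = e2 K N r (jr K N r) := (e2_jr K).symm
  rw [h, w2_e2, e1_jr]

theorem w2_J1 (hr : r.Prime) (hrN : ¬ r ∣ N) : w2 K hr hrN (J1 K (N * r * r)) = jrr K N r := by
  rw [← w2_jrr hr hrN, w2_w2]

/-- `w2 (∑ e1 (c_i) y^i) = ∑ e2 (c_i) (w2 y)^i` -/
theorem w2_eval₂_e1R (hr : r.Prime) (hrN : ¬ r ∣ N) (c : (FK K (N * r))[X])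
    (y : FK K (N * r * r)) :
    w2 K hr hrN (c.eval₂ (e1R K hr hrN) y) = c.eval₂ (e2R K N r) (w2 K hr hrN y) := by
  have h := hom_eval₂ c (e1R K hr hrN) (w2 K hr hrN).toAlgHom.toRingHom y
  rw [w2_comp_e1R] at h
  exact h

theorem w2_eval₂_e2R (hr : r.Prime) (hrN : ¬ r ∣ N) (c : (FK K (N * r))[X])
    (y : FK K (N * r * r)) :
    w2 K hr hrN (c.eval₂ (e2R K N r) y) = c.eval₂ (e1R K hr hrN) (w2 K hr hrN y) := by
  have h := hom_eval₂ c (e2R K N r) (w2 K hr hrN).toAlgHom.toRingHom y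
  rw [w2_comp_e2R] at h
  exact h

/-! ### independence (no hypothesis on `K`: `q`-orders modulo `r`) -/

theorem v1_coe_eval₂_e2 (c : (FK K (N * r))[X]) :
    ((c.eval₂ (e2R K N r) (J1 K (N * r * r)) : FK K (N * r * r)) : LaurentSeries K) =
      ((c.map (valF K (N * r))).map (qExpand K r)).eval (jA K) := by
  have h := hom_eval₂ c (e2R K N r) (valF K (N * r * r)) (J1 K (N * r * r))
  have h1 : (valF K (N * r * r)).comp (e2R K N r) = (qExpand K r).comp (valF K (N * r)) := by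
    refine RingHom.ext fun x => ?_
    rw [RingHom.comp_apply, RingHom.comp_apply, IntermediateField.algebraMap_apply,
      IntermediateField.algebraMap_apply]
    exact coe_e2 K x
  have h2 : valF K (N * r * r) (J1 K (N * r * r)) = jA K := by
    rw [IntermediateField.algebraMap_apply, coe_J1_jA]
  rw [h1, h2] at h
  rw [Polynomial.map_map, eval_map]
  exact h

/-- `1, j, …, j^(r-1)` are linearly independent over `e2 F_1` -/
theorem v1_ind_e2 (hr : r.Prime) (c : (FK K (N * r))[X]) (hdeg : c.natDegree < r)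
    (h0 : c.eval₂ (e2R K N r) (J1 K (N * r * r)) = 0) : c = 0 := by
  by_contra hne
  set P : (LaurentSeries K)[X] := (c.map (valF K (N * r))).map (qExpand K r) with hP
  have hP0 : P ≠ 0 := by
    intro h
    apply hne
    have h1 : c.map (valF K (N * r)) = 0 :=
      Polynomial.map_injective _ (qExpand_injective (R := K) (N := r))
        (by rw [← hP, h, Polynomial.map_zero])
    exact Polynomial.map_injective _ (valF K (N * r)).injective (by rw [h1, Polynomial.map_zero])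
  have hev : P.eval (jA K) = 0 := by
    rw [hP, ← v1_coe_eval₂_e2, h0]
    rfl
  have h3 := S28lib.natDegree_ge_of_root hr (jA K) S28lib.jA_ne_zero
    (by
      rw [S28lib.order_jA]
      intro hd
      have := Int.natAbs_dvd_natAbs.2 hd
      simp only [Int.natAbs_natCast, Int.natAbs_neg, Int.natAbs_one, Nat.dvd_one] at this
      exact hr.one_lt.ne' this)
    P hP0 (fun i => ⟨(c.map (valF K (N * r))).coeff i, by rw [hP, coeff_map (qExpand K r)]⟩) hev
  have h4 : P.natDegree ≤ c.natDegree := natDegree_map_le.trans natDegree_map_le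
  omega

/-- `1, j_{r^2}, …, j_{r^2}^(r-1)` are linearly independent over `e1 F_1` -/
theorem v1_ind_e1 (hr : r.Prime) (hrN : ¬ r ∣ N) (c : (FK K (N * r))[X]) (hdeg : c.natDegree < r)
    (h0 : c.eval₂ (e1R K hr hrN) (jrr K N r) = 0) : c = 0 := by
  apply v1_ind_e2 hr c hdeg
  rw [← w2_jrr hr hrN, ← w2_eval₂_e1R, h0, map_zero]

theorem v1_e1_jr_ne (hr : r.Prime) (hrN : ¬ r ∣ N) :
    e1 K hr hrN (jr K N r) ≠ e2 K N r (jr K N r) := by
  rw [e1_jr, e2_jr]
  intro h
  have h1 := congrArg (fun x : FK K (N * r * r) => (x : LaurentSeries K).order) h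
  simp only [coe_J1_jA, coe_Jgen_jAd] at h1
  rw [S28lib.order_jA, order_jAd] at h1
  have h8 : (2 : ℤ) ≤ r := by exact_mod_cast hr.two_le
  push_cast at h1
  nlinarith

/-- a generator of `F_1` over `F_0` separates `e1` and `e2` -/
theorem v1_e1_ne_e2 (hr : r.Prime) (hrN : ¬ r ∣ N) {b : FK K (N * r)}
    (hb : ∀ x : FK K (N * r), ∃ c : (FK K N)[X], c.eval₂ (iF K N r) b = x) :
    e1 K hr hrN b ≠ e2 K N r b := by
  intro h
  obtain ⟨c, hc⟩ := hb (jr K N r)
  apply v1_e1_jr_ne (K := K) hr hrN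
  have h1 := hom_eval₂ c (iF K N r) (e1R K hr hrN) b
  have h2 := hom_eval₂ c (iF K N r) (e2R K N r) b
  rw [hc] at h1 h2
  rw [← e1R_apply, h1, ← e2R_apply, h2, e1R_comp_iF, e1R_apply, e2R_apply, h]

theorem v1_map_map_eq (hr : r.Prime) (hrN : ¬ r ∣ N) (g : (FK K N)[X]) :
    (g.map (iF K N r)).map (e1R K hr hrN) = (g.map (iF K N r)).map (e2R K N r) := by
  rw [Polynomial.map_map, Polynomial.map_map, e1R_comp_iF]

/-- `e2 b` is a root of `e1 (G_b)`, `G_b = g / (Y - b)` -/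
theorem v1_root_e1 (hr : r.Prime) (hrN : ¬ r ∣ N) {b : FK K (N * r)} {g : (FK K N)[X]}
    {G : (FK K (N * r))[X]} (hg : g.map (iF K N r) = (X - C b) * G)
    (hb : e1 K hr hrN b ≠ e2 K N r b) : G.eval₂ (e1R K hr hrN) (e2 K N r b) = 0 := by
  have h := v1_map_map_eq (K := K) hr hrN g
  rw [hg, Polynomial.map_mul, Polynomial.map_mul, Polynomial.map_sub, Polynomial.map_sub, map_X,
    map_X, map_C, map_C] at h
  have h1 := congrArg (Polynomial.eval (e2 K N r b)) h
  rw [eval_mul, eval_mul, eval_sub, eval_sub, eval_X, eval_C, eval_C, e2R_apply, sub_self,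
    zero_mul, e1R_apply, eval_map] at h1
  exact (mul_eq_zero.1 h1).resolve_left (sub_ne_zero.2 hb.symm)

/-- `e1 b` is a root of `e2 (G_b)`, `G_b = g / (Y - b)` -/
theorem v1_root_e2 (hr : r.Prime) (hrN : ¬ r ∣ N) {b : FK K (N * r)} {g : (FK K N)[X]}
    {G : (FK K (N * r))[X]} (hg : g.map (iF K N r) = (X - C b) * G)
    (hb : e1 K hr hrN b ≠ e2 K N r b) : G.eval₂ (e2R K N r) (e1 K hr hrN b) = 0 := by
  have h := v1_root_e1 hr hrN hg hb
  have h1 := w2_eval₂_e1R hr hrN G (e2 K N r b)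
  rw [h, map_zero, w2_e2] at h1
  exact h1.symm

/-! ### span: `K = Frac R`, `R` a DVR of residue characteristic `r` (T-UNI (T0)) -/

section span

variable [CharZero K] (R : Type) [CommRing R] [IsDomain R] [IsDiscreteValuationRing R]
  [Algebra R K] [IsFractionRing R K] [CharP (IsLocalRing.ResidueField R) r]

/-- the minimal polynomial of `j_r` over `F_0`: monic of degree `r + 1` -/
theorem v1_exists_minpoly_jr (hr : r.Prime) (hrN : ¬ r ∣ N)
    (hN : (N : IsLocalRing.ResidueField R) ≠ 0) :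
    ∃ g : (FK K N)[X], g.Monic ∧ g.natDegree = r + 1 ∧ g.eval₂ (iF K N r) (jr K N r) = 0 := by
  obtain ⟨c, hdeg, hc⟩ := exists_eval₂_jr_eq R hr hrN hN (jr K N r ^ (r + 1))
  have hd : c.degree < ((r + 1 : ℕ) : WithBot ℕ) :=
    lt_of_le_of_lt (Polynomial.degree_le_of_natDegree_le hdeg) (by exact_mod_cast Nat.lt_succ_self r)
  refine ⟨X ^ (r + 1) - c, monic_X_pow_sub hd, ?_, ?_⟩
  · rw [natDegree_sub_eq_left_of_natDegree_lt (by rw [natDegree_X_pow]; omega), natDegree_X_pow]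
  · rw [eval₂_sub, eval₂_pow, eval₂_X, hc, sub_self]

/-- `G_j = g / (Y - j_r)`: monic of degree `r` -/
theorem v1_exists_G_jr (hr : r.Prime) (hrN : ¬ r ∣ N)
    (hN : (N : IsLocalRing.ResidueField R) ≠ 0) :
    ∃ (g : (FK K N)[X]) (G : (FK K (N * r))[X]), g.Monic ∧ g.natDegree = r + 1 ∧
      g.eval₂ (iF K N r) (jr K N r) = 0 ∧ G.Monic ∧ G.natDegree = r ∧
      g.map (iF K N r) = (X - C (jr K N r)) * G ∧
      G.eval₂ (e1R K hr hrN) (jrr K N r) = 0 ∧ G.eval₂ (e2R K N r) (J1 K (N * r * r)) = 0 := by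
  obtain ⟨g, hg1, hg2, hg3⟩ := v1_exists_minpoly_jr (K := K) R hr hrN hN
  set G : (FK K (N * r))[X] := g.map (iF K N r) /ₘ (X - C (jr K N r)) with hG
  have hroot : (g.map (iF K N r)).IsRoot (jr K N r) := by
    rw [IsRoot, eval_map]; exact hg3
  have hmul : g.map (iF K N r) = (X - C (jr K N r)) * G := (mul_divByMonic_eq_iff_isRoot.2 hroot).symm
  have hmon : G.Monic := by
    apply Monic.of_mul_monic_left (monic_X_sub_C (jr K N r))
    rw [← hmul]
    exact hg1.map _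
  have hdeg : G.natDegree = r := by
    rw [hG, natDegree_divByMonic _ (monic_X_sub_C _), natDegree_X_sub_C, hg1.natDegree_map, hg2]
    rfl
  refine ⟨g, G, hg1, hg2, hg3, hmon, hdeg, hmul, ?_, ?_⟩
  · have := v1_root_e1 hr hrN hmul (v1_e1_jr_ne hr hrN)
    rwa [e2_jr] at this
  · have := v1_root_e2 hr hrN hmul (v1_e1_jr_ne hr hrN)
    rwa [e1_jr] at this

/-- `incl x` is a polynomial in `j` over `e2 F_1` -/
theorem v1_inclF_mem (hr : r.Prime) (hrN : ¬ r ∣ N) (hN : (N : IsLocalRing.ResidueField R) ≠ 0)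
    (x : FK K (N * r)) :
    ∃ p : (FK K (N * r))[X],
      p.eval₂ (e2R K N r) (J1 K (N * r * r)) = inclF K (dvd_mul_right (N * r) r) x := by
  obtain ⟨c, -, hc⟩ := exists_eval₂_jr_eq R hr hrN hN (wr K hr hrN x)
  refine ⟨c.map (iF K N r), ?_⟩
  have h1 := hom_eval₂ c (iF K N r) (e1R K hr hrN) (jr K N r)
  rw [hc, e1R_apply, e1_wr, e1R_apply, e1_jr, e1R_comp_iF] at h1
  rw [eval₂_map, h1]

theorem v1_exists_poly_e2 (hr : r.Prime) (hrN : ¬ r ∣ N)
    (hN : (N : IsLocalRing.ResidueField R) ≠ 0) (x : FK K (N * r * r)) :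
    ∃ p : (FK K (N * r))[X], p.eval₂ (e2R K N r) (J1 K (N * r * r)) = x := by
  obtain ⟨g, G, -, -, -, hmon, -, -, -, hGy⟩ := v1_exists_G_jr (K := K) R hr hrN hN
  have hx : x ∈ IntermediateField.adjoin K (Set.range (ESlib.Jgen K (N * r * r))) := by
    rw [adjoin_range_JgenK]; exact IntermediateField.mem_top
  induction hx using IntermediateField.adjoin_induction with
  | mem x hx =>
    obtain ⟨⟨d, hd⟩, rfl⟩ := hx
    obtain ⟨e, he, h | h | h⟩ := v1_dvd_cases hr hd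
    · subst h
      obtain ⟨p, hp⟩ := v1_inclF_mem (K := K) R hr hrN hN (ESlib.Jgen K (N * r) ⟨d, he.mul_right r⟩)
      exact ⟨p, hp⟩
    · subst h
      refine ⟨C (ESlib.Jgen K (N * r) ⟨e, he.mul_right r⟩), ?_⟩
      rw [eval₂_C, e2R_apply, e2_Jgen]
    · subst h
      refine ⟨C (ESlib.Jgen K (N * r) ⟨e * r, Nat.mul_dvd_mul_right he r⟩), ?_⟩
      rw [eval₂_C, e2R_apply, e2_Jgen]
  | algebraMap a =>
    refine ⟨C (algebraMap K _ a), ?_⟩
    rw [eval₂_C, e2R_apply, AlgHom.commutes]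
  | add x y _ _ hx hy =>
    obtain ⟨p, rfl⟩ := hx
    obtain ⟨q, rfl⟩ := hy
    exact ⟨p + q, eval₂_add _ _⟩
  | inv x _ hx =>
    obtain ⟨p, rfl⟩ := hx
    exact v1_exists_inv _ _ hmon hGy p
  | mul x y _ _ hx hy =>
    obtain ⟨p, rfl⟩ := hx
    obtain ⟨q, rfl⟩ := hy
    exact ⟨p * q, eval₂_mul _ _⟩

/-- `1, j, …, j^(r-1)` span `F_2` over `e2 F_1` -/
theorem v1_span_e2 (hr : r.Prime) (hrN : ¬ r ∣ N) (hN : (N : IsLocalRing.ResidueField R) ≠ 0)
    (x : FK K (N * r * r)) :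
    ∃ c : (FK K (N * r))[X], c.natDegree < r ∧ c.eval₂ (e2R K N r) (J1 K (N * r * r)) = x := by
  obtain ⟨g, G, -, -, -, hmon, hdeg, -, -, hGy⟩ := v1_exists_G_jr (K := K) R hr hrN hN
  obtain ⟨p, rfl⟩ := v1_exists_poly_e2 (K := K) R hr hrN hN x
  have := v1_exists_lt_of_monic _ _ hmon (by rw [hdeg]; exact hr.ne_zero) hGy p
  rwa [hdeg] at this

/-- `1, j_{r^2}, …, j_{r^2}^(r-1)` span `F_2` over `e1 F_1` -/
theorem v1_span_e1 (hr : r.Prime) (hrN : ¬ r ∣ N) (hN : (N : IsLocalRing.ResidueField R) ≠ 0)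
    (x : FK K (N * r * r)) :
    ∃ c : (FK K (N * r))[X], c.natDegree < r ∧ c.eval₂ (e1R K hr hrN) (jrr K N r) = x := by
  obtain ⟨c, hc, hx⟩ := v1_span_e2 (K := K) R hr hrN hN (w2 K hr hrN x)
  refine ⟨c, hc, ?_⟩
  rw [← w2_J1 hr hrN, ← w2_eval₂_e2R, hx, w2_w2]

theorem v1_finrank_e2 (hr : r.Prime) (hrN : ¬ r ∣ N) (hN : (N : IsLocalRing.ResidueField R) ≠ 0) :
    letI := AlgebraicCurve.algebraAlong (e2 K N r)
    Module.finrank (FK K (N * r)) (FK K (N * r * r)) = r :=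
  v1_finrank_of_basis (e2R K N r) (J1 K (N * r * r)) r (fun c hc h => v1_ind_e2 hr c hc h)
    (v1_span_e2 R hr hrN hN)

theorem v1_finrank_e1 (hr : r.Prime) (hrN : ¬ r ∣ N) (hN : (N : IsLocalRing.ResidueField R) ≠ 0) :
    letI := AlgebraicCurve.algebraAlong (e1 K hr hrN)
    Module.finrank (FK K (N * r)) (FK K (N * r * r)) = r :=
  v1_finrank_of_basis (e1R K hr hrN) (jrr K N r) r (fun c hc h => v1_ind_e1 hr hrN c hc h)
    (v1_span_e1 R hr hrN hN)

theorem v1_e1R_comp_wr (hr : r.Prime) (hrN : ¬ r ∣ N) :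
    (e1R K hr hrN).comp (wr K hr hrN).toAlgHom.toRingHom =
      (inclF K (dvd_mul_right (N * r) r)).toRingHom :=
  RingHom.ext fun x => e1_wr K hr hrN x

theorem v1_map_wr_map_wr (hr : r.Prime) (hrN : ¬ r ∣ N) (c : (FK K (N * r))[X]) :
    (c.map (wr K hr hrN).toAlgHom.toRingHom).map (wr K hr hrN).toAlgHom.toRingHom = c := by
  rw [Polynomial.map_map]
  have : ((wr K hr hrN).toAlgHom.toRingHom).comp (wr K hr hrN).toAlgHom.toRingHom =
      RingHom.id _ := RingHom.ext fun x => wr_wr K hr hrN x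
  rw [this, Polynomial.map_id]

theorem v1_finrank_inclF (hr : r.Prime) (hrN : ¬ r ∣ N)
    (hN : (N : IsLocalRing.ResidueField R) ≠ 0) :
    letI := AlgebraicCurve.algebraAlong (inclF K (dvd_mul_right (N * r) r))
    Module.finrank (FK K (N * r)) (FK K (N * r * r)) = r := by
  refine v1_finrank_of_basis (inclF K (dvd_mul_right (N * r) r)).toRingHom (jrr K N r) r ?_ ?_
  · intro c hc h0
    rw [← v1_e1R_comp_wr hr hrN, ← eval₂_map] at h0
    have h1 := v1_ind_e1 hr hrN _ (lt_of_le_of_lt natDegree_map_le hc) h0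
    rw [← v1_map_wr_map_wr hr hrN c, h1, Polynomial.map_zero]
  · intro x
    obtain ⟨c, hc, hx⟩ := v1_span_e1 (K := K) R hr hrN hN x
    refine ⟨c.map (wr K hr hrN).toAlgHom.toRingHom, lt_of_le_of_lt natDegree_map_le hc, ?_⟩
    rw [← v1_e1R_comp_wr hr hrN, ← eval₂_map, v1_map_wr_map_wr, hx]

theorem v1_gen_e1 (hr : r.Prime) (hrN : ¬ r ∣ N) (hN : (N : IsLocalRing.ResidueField R) ≠ 0)
    {b : FK K (N * r)} (hb : ∀ x : FK K (N * r), ∃ c : (FK K N)[X], c.eval₂ (iF K N r) b = x)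
    (x : FK K (N * r * r)) :
    ∃ p : (FK K (N * r))[X], p.eval₂ (e1R K hr hrN) (e2 K N r b) = x := by
  obtain ⟨c, hc⟩ := hb (jr K N r)
  have h2 := hom_eval₂ c (iF K N r) (e2R K N r) b
  rw [hc, e2R_apply, e2_jr, ← e1R_comp_iF hr hrN, ← eval₂_map, e2R_apply] at h2
  obtain ⟨p, -, hp⟩ := v1_span_e1 (K := K) R hr hrN hN x
  refine ⟨p.comp (c.map (iF K N r)), ?_⟩
  rw [eval₂_comp, ← h2, hp]

/-- general generator `b` of `F_1 / F_0`: `1, e2 b, …, (e2 b)^(r-1)` is a basis of `F_2 / e1 F_1` -/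
theorem v1_span_e1_gen (hr : r.Prime) (hrN : ¬ r ∣ N) (hN : (N : IsLocalRing.ResidueField R) ≠ 0)
    {b : FK K (N * r)} (hb : ∀ x : FK K (N * r), ∃ c : (FK K N)[X], c.eval₂ (iF K N r) b = x)
    (x : FK K (N * r * r)) :
    ∃ c : (FK K (N * r))[X], c.natDegree < r ∧ c.eval₂ (e1R K hr hrN) (e2 K N r b) = x :=
  (v1_basis_of_gen (e1R K hr hrN) (e2 K N r b) r hr.pos (v1_finrank_e1 R hr hrN hN)
    (v1_gen_e1 R hr hrN hN hb)).2 x

theorem v1_ind_e1_gen (hr : r.Prime) (hrN : ¬ r ∣ N) (hN : (N : IsLocalRing.ResidueField R) ≠ 0)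
    {b : FK K (N * r)} (hb : ∀ x : FK K (N * r), ∃ c : (FK K N)[X], c.eval₂ (iF K N r) b = x)
    (c : (FK K (N * r))[X]) (hdeg : c.natDegree < r)
    (h0 : c.eval₂ (e1R K hr hrN) (e2 K N r b) = 0) : c = 0 :=
  (v1_basis_of_gen (e1R K hr hrN) (e2 K N r b) r hr.pos (v1_finrank_e1 R hr hrN hN)
    (v1_gen_e1 R hr hrN hN hb)).1 c hdeg h0

/-- the same with `e1`, `e2` exchanged -/
theorem v1_span_e2_gen (hr : r.Prime) (hrN : ¬ r ∣ N) (hN : (N : IsLocalRing.ResidueField R) ≠ 0)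
    {b : FK K (N * r)} (hb : ∀ x : FK K (N * r), ∃ c : (FK K N)[X], c.eval₂ (iF K N r) b = x)
    (x : FK K (N * r * r)) :
    ∃ c : (FK K (N * r))[X], c.natDegree < r ∧ c.eval₂ (e2R K N r) (e1 K hr hrN b) = x := by
  obtain ⟨c, hc, hx⟩ := v1_span_e1_gen (K := K) R hr hrN hN hb (w2 K hr hrN x)
  refine ⟨c, hc, ?_⟩
  rw [← w2_e2 K hr hrN, ← w2_eval₂_e1R, hx, w2_w2]

theorem v1_ind_e2_gen (hr : r.Prime) (hrN : ¬ r ∣ N) (hN : (N : IsLocalRing.ResidueField R) ≠ 0)
    {b : FK K (N * r)} (hb : ∀ x : FK K (N * r), ∃ c : (FK K N)[X], c.eval₂ (iF K N r) b = x)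
    (c : (FK K (N * r))[X]) (hdeg : c.natDegree < r)
    (h0 : c.eval₂ (e2R K N r) (e1 K hr hrN b) = 0) : c = 0 := by
  apply v1_ind_e1_gen (K := K) R hr hrN hN hb c hdeg
  rw [← w2_e1 K hr hrN, ← w2_eval₂_e2R, h0, map_zero]

end span

end

end Fermat.Agent.CARlib
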