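import Fermat.Agent.CAR.V1T0
import Fermat.Agent.CAR.VDefs

/-!
# T-CAR, V1: the results of `V1Deg.lean` over an ARBITRARY field `K ⊆ ℂ` (names `v1g_*`), and the
statements `v1g_span`, `v1g_indep` (= `VIface.v1_span`, `v1_indep` without any hypothesis on `K`).
-/

set_option autoImplicit false
set_option linter.unusedSectionVars false
set_option linter.style.haveILetI false

open ModularCurve Polynomial
open Fermat.Agent.S24lib Fermat.Agent.ESlib Fermat.Agent.UNIlib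
open Fermat.Agent.S28lib (jA jAd)

namespace Fermat.Agent.CARlib

noncomputable section

variable {K : Type} [Field K] [Algebra ℚ K] [Algebra K ℂ] [IsScalarTower ℚ K ℂ]
variable {N r : ℕ} [NeZero N] [NeZero r] [NeZero (N * r)] [NeZero (N * r * r)]

/-- the minimal polynomial of `j_r` over `F_0`: monic of degree `r + 1` -/
theorem v1g_exists_minpoly_jr (hr : r.Prime) (hrN : ¬ r ∣ N)
    :
    ∃ g : (FK K N)[X], g.Monic ∧ g.natDegree = r + 1 ∧ g.eval₂ (iF K N r) (jr K N r) = 0 := by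
  obtain ⟨c, hdeg, hc⟩ := v1g_T0 K hr hrN (jr K N r ^ (r + 1))
  have hd : c.degree < ((r + 1 : ℕ) : WithBot ℕ) :=
    lt_of_le_of_lt (Polynomial.degree_le_of_natDegree_le hdeg) (by exact_mod_cast Nat.lt_succ_self r)
  refine ⟨X ^ (r + 1) - c, monic_X_pow_sub hd, ?_, ?_⟩
  · rw [natDegree_sub_eq_left_of_natDegree_lt (by rw [natDegree_X_pow]; omega), natDegree_X_pow]
  · rw [eval₂_sub, eval₂_pow, eval₂_X, hc, sub_self]

/-- `G_j = g / (Y - j_r)`: monic of degree `r` -/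
theorem v1g_exists_G_jr (hr : r.Prime) (hrN : ¬ r ∣ N)
    :
    ∃ (g : (FK K N)[X]) (G : (FK K (N * r))[X]), g.Monic ∧ g.natDegree = r + 1 ∧
      g.eval₂ (iF K N r) (jr K N r) = 0 ∧ G.Monic ∧ G.natDegree = r ∧
      g.map (iF K N r) = (X - C (jr K N r)) * G ∧
      G.eval₂ (e1R K hr hrN) (jrr K N r) = 0 ∧ G.eval₂ (e2R K N r) (J1 K (N * r * r)) = 0 := by
  obtain ⟨g, hg1, hg2, hg3⟩ := v1g_exists_minpoly_jr (K := K) hr hrN
  set G : (FK K (N * r))[X] := g.map (iF K N r) /ₘ (X - C (jr K N r)) with hG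
  have hroot : (g.map (iF K N r)).IsRoot (jr K N r) := by
    rw [IsRoot, eval_map]; exact hg3
  have hmul : g.map (iF K N r) = (X - C (jr K N r)) * G := (mul_divByMonic_eq_iff_isRoot.2 hroot).symm
  have hmon : G.Monic := by
    apply Monic.of_mul_monic_left (monic_X_sub_C (jr K N r))
    rw [← hmul]
    exact hg1.map _
  have hdeg : G.natDegree = r := by
    rw [hG, natDegree_divByMonic _ (monic_X_sub_C _), natDegree_X_sub_C, hg1.natDegree_map, hg2]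
    rfl
  refine ⟨g, G, hg1, hg2, hg3, hmon, hdeg, hmul, ?_, ?_⟩
  · have := v1_root_e1 hr hrN hmul (v1_e1_jr_ne hr hrN)
    rwa [e2_jr] at this
  · have := v1_root_e2 hr hrN hmul (v1_e1_jr_ne hr hrN)
    rwa [e1_jr] at this

/-- `incl x` is a polynomial in `j` over `e2 F_1` -/
theorem v1g_inclF_mem (hr : r.Prime) (hrN : ¬ r ∣ N)
    (x : FK K (N * r)) :
    ∃ p : (FK K (N * r))[X],
      p.eval₂ (e2R K N r) (J1 K (N * r * r)) = inclF K (dvd_mul_right (N * r) r) x := by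
  obtain ⟨c, -, hc⟩ := v1g_T0 K hr hrN (wr K hr hrN x)
  refine ⟨c.map (iF K N r), ?_⟩
  have h1 := hom_eval₂ c (iF K N r) (e1R K hr hrN) (jr K N r)
  rw [hc, e1R_apply, e1_wr, e1R_apply, e1_jr, e1R_comp_iF] at h1
  rw [eval₂_map, h1]

theorem v1g_exists_poly_e2 (hr : r.Prime) (hrN : ¬ r ∣ N)
    (x : FK K (N * r * r)) :
    ∃ p : (FK K (N * r))[X], p.eval₂ (e2R K N r) (J1 K (N * r * r)) = x := by
  obtain ⟨g, G, -, -, -, hmon, -, -, -, hGy⟩ := v1g_exists_G_jr (K := K) hr hrN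
  have hx : x ∈ IntermediateField.adjoin K (Set.range (ESlib.Jgen K (N * r * r))) := by
    rw [adjoin_range_JgenK]; exact IntermediateField.mem_top
  induction hx using IntermediateField.adjoin_induction with
  | mem x hx =>
    obtain ⟨⟨d, hd⟩, rfl⟩ := hx
    obtain ⟨e, he, h | h | h⟩ := v1_dvd_cases hr hd
    · subst h
      obtain ⟨p, hp⟩ := v1g_inclF_mem (K := K) hr hrN (ESlib.Jgen K (N * r) ⟨d, he.mul_right r⟩)
      exact ⟨p, hp⟩
    · subst h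
      refine ⟨C (ESlib.Jgen K (N * r) ⟨e, he.mul_right r⟩), ?_⟩
      rw [eval₂_C, e2R_apply, e2_Jgen]
    · subst h
      refine ⟨C (ESlib.Jgen K (N * r) ⟨e * r, Nat.mul_dvd_mul_right he r⟩), ?_⟩
      rw [eval₂_C, e2R_apply, e2_Jgen]
  | algebraMap a =>
    refine ⟨C (algebraMap K _ a), ?_⟩
    rw [eval₂_C, e2R_apply, AlgHom.commutes]
  | add x y _ _ hx hy =>
    obtain ⟨p, rfl⟩ := hx
    obtain ⟨q, rfl⟩ := hy
    exact ⟨p + q, eval₂_add _ _⟩
  | inv x _ hx =>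
    obtain ⟨p, rfl⟩ := hx
    exact v1_exists_inv _ _ hmon hGy p
  | mul x y _ _ hx hy =>
    obtain ⟨p, rfl⟩ := hx
    obtain ⟨q, rfl⟩ := hy
    exact ⟨p * q, eval₂_mul _ _⟩

/-- `1, j, …, j^(r-1)` span `F_2` over `e2 F_1` -/
theorem v1g_span_e2 (hr : r.Prime) (hrN : ¬ r ∣ N)
    (x : FK K (N * r * r)) :
    ∃ c : (FK K (N * r))[X], c.natDegree < r ∧ c.eval₂ (e2R K N r) (J1 K (N * r * r)) = x := by
  obtain ⟨g, G, -, -, -, hmon, hdeg, -, -, hGy⟩ := v1g_exists_G_jr (K := K) hr hrN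
  obtain ⟨p, rfl⟩ := v1g_exists_poly_e2 (K := K) hr hrN x
  have := v1_exists_lt_of_monic _ _ hmon (by rw [hdeg]; exact hr.ne_zero) hGy p
  rwa [hdeg] at this

/-- `1, j_{r^2}, …, j_{r^2}^(r-1)` span `F_2` over `e1 F_1` -/
theorem v1g_span_e1 (hr : r.Prime) (hrN : ¬ r ∣ N)
    (x : FK K (N * r * r)) :
    ∃ c : (FK K (N * r))[X], c.natDegree < r ∧ c.eval₂ (e1R K hr hrN) (jrr K N r) = x := by
  obtain ⟨c, hc, hx⟩ := v1g_span_e2 (K := K) hr hrN (w2 K hr hrN x)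
  refine ⟨c, hc, ?_⟩
  rw [← w2_J1 hr hrN, ← w2_eval₂_e2R, hx, w2_w2]

theorem v1g_finrank_e2 (hr : r.Prime) (hrN : ¬ r ∣ N) :
    letI := AlgebraicCurve.algebraAlong (e2 K N r)
    Module.finrank (FK K (N * r)) (FK K (N * r * r)) = r :=
  v1_finrank_of_basis (e2R K N r) (J1 K (N * r * r)) r (fun c hc h => v1_ind_e2 hr c hc h)
    (v1g_span_e2 hr hrN)

theorem v1g_finrank_e1 (hr : r.Prime) (hrN : ¬ r ∣ N) :
    letI := AlgebraicCurve.algebraAlong (e1 K hr hrN)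
    Module.finrank (FK K (N * r)) (FK K (N * r * r)) = r :=
  v1_finrank_of_basis (e1R K hr hrN) (jrr K N r) r (fun c hc h => v1_ind_e1 hr hrN c hc h)
    (v1g_span_e1 hr hrN)

theorem v1g_e1R_comp_wr (hr : r.Prime) (hrN : ¬ r ∣ N) :
    (e1R K hr hrN).comp (wr K hr hrN).toAlgHom.toRingHom =
      (inclF K (dvd_mul_right (N * r) r)).toRingHom :=
  RingHom.ext fun x => e1_wr K hr hrN x

theorem v1g_map_wr_map_wr (hr : r.Prime) (hrN : ¬ r ∣ N) (c : (FK K (N * r))[X]) :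
    (c.map (wr K hr hrN).toAlgHom.toRingHom).map (wr K hr hrN).toAlgHom.toRingHom = c := by
  rw [Polynomial.map_map]
  have : ((wr K hr hrN).toAlgHom.toRingHom).comp (wr K hr hrN).toAlgHom.toRingHom =
      RingHom.id _ := RingHom.ext fun x => wr_wr K hr hrN x
  rw [this, Polynomial.map_id]

theorem v1g_finrank_inclF (hr : r.Prime) (hrN : ¬ r ∣ N)
    :
    letI := AlgebraicCurve.algebraAlong (inclF K (dvd_mul_right (N * r) r))
    Module.finrank (FK K (N * r)) (FK K (N * r * r)) = r := by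
  refine v1_finrank_of_basis (inclF K (dvd_mul_right (N * r) r)).toRingHom (jrr K N r) r ?_ ?_
  · intro c hc h0
    rw [← v1g_e1R_comp_wr hr hrN, ← eval₂_map] at h0
    have h1 := v1_ind_e1 hr hrN _ (lt_of_le_of_lt natDegree_map_le hc) h0
    rw [← v1g_map_wr_map_wr hr hrN c, h1, Polynomial.map_zero]
  · intro x
    obtain ⟨c, hc, hx⟩ := v1g_span_e1 (K := K) hr hrN x
    refine ⟨c.map (wr K hr hrN).toAlgHom.toRingHom, lt_of_le_of_lt natDegree_map_le hc, ?_⟩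
    rw [← v1g_e1R_comp_wr hr hrN, ← eval₂_map, v1g_map_wr_map_wr, hx]

theorem v1g_gen_e1 (hr : r.Prime) (hrN : ¬ r ∣ N)
    {b : FK K (N * r)} (hb : ∀ x : FK K (N * r), ∃ c : (FK K N)[X], c.eval₂ (iF K N r) b = x)
    (x : FK K (N * r * r)) :
    ∃ p : (FK K (N * r))[X], p.eval₂ (e1R K hr hrN) (e2 K N r b) = x := by
  obtain ⟨c, hc⟩ := hb (jr K N r)
  have h2 := hom_eval₂ c (iF K N r) (e2R K N r) b
  rw [hc, e2R_apply, e2_jr, ← e1R_comp_iF hr hrN, ← eval₂_map, e2R_apply] at h2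
  obtain ⟨p, -, hp⟩ := v1g_span_e1 (K := K) hr hrN x
  refine ⟨p.comp (c.map (iF K N r)), ?_⟩
  rw [eval₂_comp, ← h2, hp]

/-- general generator `b` of `F_1 / F_0`: `1, e2 b, …, (e2 b)^(r-1)` is a basis of `F_2 / e1 F_1` -/
theorem v1g_span_e1_gen (hr : r.Prime) (hrN : ¬ r ∣ N)
    {b : FK K (N * r)} (hb : ∀ x : FK K (N * r), ∃ c : (FK K N)[X], c.eval₂ (iF K N r) b = x)
    (x : FK K (N * r * r)) :
    ∃ c : (FK K (N * r))[X], c.natDegree < r ∧ c.eval₂ (e1R K hr hrN) (e2 K N r b) = x :=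
  (v1_basis_of_gen (e1R K hr hrN) (e2 K N r b) r hr.pos (v1g_finrank_e1 hr hrN)
    (v1g_gen_e1 hr hrN hb)).2 x

theorem v1g_ind_e1_gen (hr : r.Prime) (hrN : ¬ r ∣ N)
    {b : FK K (N * r)} (hb : ∀ x : FK K (N * r), ∃ c : (FK K N)[X], c.eval₂ (iF K N r) b = x)
    (c : (FK K (N * r))[X]) (hdeg : c.natDegree < r)
    (h0 : c.eval₂ (e1R K hr hrN) (e2 K N r b) = 0) : c = 0 :=
  (v1_basis_of_gen (e1R K hr hrN) (e2 K N r b) r hr.pos (v1g_finrank_e1 hr hrN)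
    (v1g_gen_e1 hr hrN hb)).1 c hdeg h0

/-- the same with `e1`, `e2` exchanged -/
theorem v1g_span_e2_gen (hr : r.Prime) (hrN : ¬ r ∣ N)
    {b : FK K (N * r)} (hb : ∀ x : FK K (N * r), ∃ c : (FK K N)[X], c.eval₂ (iF K N r) b = x)
    (x : FK K (N * r * r)) :
    ∃ c : (FK K (N * r))[X], c.natDegree < r ∧ c.eval₂ (e2R K N r) (e1 K hr hrN b) = x := by
  obtain ⟨c, hc, hx⟩ := v1g_span_e1_gen (K := K) hr hrN hb (w2 K hr hrN x)
  refine ⟨c, hc, ?_⟩
  rw [← w2_e2 K hr hrN, ← w2_eval₂_e1R, hx, w2_w2]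

theorem v1g_ind_e2_gen (hr : r.Prime) (hrN : ¬ r ∣ N)
    {b : FK K (N * r)} (hb : ∀ x : FK K (N * r), ∃ c : (FK K N)[X], c.eval₂ (iF K N r) b = x)
    (c : (FK K (N * r))[X]) (hdeg : c.natDegree < r)
    (h0 : c.eval₂ (e2R K N r) (e1 K hr hrN b) = 0) : c = 0 := by
  apply v1g_ind_e1_gen (K := K) hr hrN hb c hdeg
  rw [← w2_e1 K hr hrN, ← w2_eval₂_e2R, h0, map_zero]


/-! ### the statements of `VIface.lean` -/

theorem v1g_vJ2_eq : vJ2 K N r = jrr K N r :=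
  Jgen_ext K (show 1 * r * r = r * r by rw [one_mul])

theorem v1g_eval₂_eq_sum (c : (FK K (N * r))[X]) (hc : c.natDegree < r) (y : FK K (N * r * r)) :
    c.eval₂ (i12 K N r).toRingHom y = ∑ i : Fin r, i12 K N r (c.coeff i) * y ^ (i : ℕ) := by
  rw [eval₂_eq_sum_range' _ hc,
    ← Fin.sum_univ_eq_sum_range (fun i => (i12 K N r).toRingHom (c.coeff i) * y ^ i) r]
  rfl

/-- `1, Y, …, Y^(r-1)` are independent over `i12 F₁`, polynomial form -/
theorem v1g_ind_inclF (hr : r.Prime) (hrN : ¬ r ∣ N) (c : (FK K (N * r))[X])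
    (hc : c.natDegree < r) (h0 : c.eval₂ (i12 K N r).toRingHom (jrr K N r) = 0) : c = 0 := by
  rw [← v1g_e1R_comp_wr hr hrN, ← eval₂_map] at h0
  have h1 := v1_ind_e1 hr hrN _ (lt_of_le_of_lt natDegree_map_le hc) h0
  rw [← v1g_map_wr_map_wr hr hrN c, h1, Polynomial.map_zero]

/-- `1, Y, …, Y^(r-1)` span `F₂` over `i12 F₁`, polynomial form -/
theorem v1g_span_inclF (hr : r.Prime) (hrN : ¬ r ∣ N) (x : FK K (N * r * r)) :
    ∃ c : (FK K (N * r))[X], c.natDegree < r ∧ c.eval₂ (i12 K N r).toRingHom (jrr K N r) = x := by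
  obtain ⟨c, hc, hx⟩ := v1g_span_e1 (K := K) hr hrN x
  refine ⟨c.map (wr K hr hrN).toAlgHom.toRingHom, lt_of_le_of_lt natDegree_map_le hc, ?_⟩
  rw [← v1g_e1R_comp_wr hr hrN, ← eval₂_map, v1g_map_wr_map_wr, hx]

/-- **(V1)** `1, Y, …, Y^(r-1)` (`Y = j(q^(r^2))`) span `F₂` over `i12 F₁` -/
theorem v1g_span (hr : r.Prime) (hrN : ¬ r ∣ N) (x : FK K (N * r * r)) :
    ∃ c : Fin r → FK K (N * r), x = ∑ i, i12 K N r (c i) * vJ2 K N r ^ (i : ℕ) := by
  obtain ⟨c, hc, hx⟩ := v1g_span_inclF (K := K) hr hrN x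
  refine ⟨fun i => c.coeff i, ?_⟩
  rw [v1g_vJ2_eq, ← v1g_eval₂_eq_sum c hc, hx]

/-- **(V1)** … and are independent -/
theorem v1g_indep (hr : r.Prime) (hrN : ¬ r ∣ N) (c : Fin r → FK K (N * r))
    (h : ∑ i, i12 K N r (c i) * vJ2 K N r ^ (i : ℕ) = 0) : ∀ i, c i = 0 := by
  classical
  set P : (FK K (N * r))[X] := ∑ i : Fin r, C (c i) * X ^ (i : ℕ) with hP
  have hdeg : P.natDegree < r := by
    have h1 : P.natDegree ≤ r - 1 := by
      refine natDegree_sum_le_of_forall_le _ _ fun k _ => ?_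
      exact (natDegree_C_mul_X_pow_le _ _).trans (by have := k.2; omega)
    have := hr.pos
    omega
  have hcoeff : ∀ k : Fin r, P.coeff (k : ℕ) = c k := by
    intro k
    rw [hP, finsetSum_coeff, Finset.sum_eq_single k]
    · rw [coeff_C_mul_X_pow, if_pos rfl]
    · intro k' _ hk'
      rw [coeff_C_mul_X_pow, if_neg (fun h => hk' (Fin.ext h.symm))]
    · intro h; exact absurd (Finset.mem_univ k) h
  have h0 : P.eval₂ (i12 K N r).toRingHom (jrr K N r) = 0 := by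
    rw [v1g_eval₂_eq_sum P hdeg, ← v1g_vJ2_eq, ← h]
    exact Finset.sum_congr rfl fun i _ => by rw [hcoeff]
  have hP0 := v1g_ind_inclF hr hrN P hdeg h0
  intro i
  rw [← hcoeff, hP0, coeff_zero]

end

end Fermat.Agent.CARlib
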