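import Mathlib

/-!
# T-CAR, block V, row V2 (abstract part, Mathlib only)

`e : F₁ →+* F₂` a field embedding, `θ ∈ F₂` a generator.  "`W` lies over `V`" is written
`∀ c, e c ∈ W ↔ c ∈ V`.
-/

set_option autoImplicit false

open Polynomial

namespace Fermat.Agent.CARlib

variable {F₁ F₂ : Type*} [Field F₁] [Field F₂]

theorem v2_val_lt_one_iff (A : ValuationSubring F₁) (x : F₁) :
    A.valuation x < 1 ↔ x = 0 ∨ x⁻¹ ∉ A := by
  rw [← ValuationSubring.mem_nonunits_iff, ValuationSubring.mem_nonunits_iff_or]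

/-- domination: the maximal ideals correspond -/
theorem v2_over_lt {e : F₁ →+* F₂} {V : ValuationSubring F₁} {W : ValuationSubring F₂}
    (hW : ∀ c, e c ∈ W ↔ c ∈ V) (c : F₁) : W.valuation (e c) < 1 ↔ V.valuation c < 1 := by
  rw [v2_val_lt_one_iff, v2_val_lt_one_iff, ← map_inv₀, hW, map_eq_zero]

theorem v2_over_eq_one {e : F₁ →+* F₂} {V : ValuationSubring F₁} {W : ValuationSubring F₂}
    (hW : ∀ c, e c ∈ W ↔ c ∈ V) (c : F₁) : W.valuation (e c) = 1 ↔ V.valuation c = 1 := by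
  have h1 := v2_over_lt hW c
  have h2 : W.valuation (e c) ≤ 1 ↔ V.valuation c ≤ 1 := by
    rw [ValuationSubring.valuation_le_one_iff, ValuationSubring.valuation_le_one_iff, hW]
  constructor
  · intro h
    exact le_antisymm (h2.1 h.le) (not_lt.1 fun h3 => (h1.2 h3).ne h)
  · intro h
    exact le_antisymm (h2.2 h.le) (not_lt.1 fun h3 => (h1.1 h3).ne h)

/-- normalisation of a polynomial with a coefficient outside `V` -/
theorem v2_exists_normalise (V : ValuationSubring F₁) (c : F₁[X]) (h : ∃ i, c.coeff i ∉ V) :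
    ∃ d : F₁, d ≠ 0 ∧ V.valuation d < 1 ∧ (∀ i, (C d * c).coeff i ∈ V) ∧
      ∃ i, (C d * c).coeff i = 1 := by
  classical
  obtain ⟨i, hi⟩ := h
  have hne : c.support.Nonempty := ⟨i, by
    rw [mem_support_iff]; intro h0; exact hi (h0 ▸ V.zero_mem)⟩
  obtain ⟨i₀, hi₀, hmax⟩ := Finset.exists_max_image c.support
    (fun k => V.valuation (c.coeff k)) hne
  have hd0 : c.coeff i₀ ≠ 0 := mem_support_iff.1 hi₀
  have hle : ∀ k, V.valuation (c.coeff k) ≤ V.valuation (c.coeff i₀) := by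
    intro k
    by_cases hk : k ∈ c.support
    · exact hmax k hk
    · rw [notMem_support_iff.1 hk, map_zero]; exact zero_le
  have hbig : 1 < V.valuation (c.coeff i₀) := by
    refine lt_of_lt_of_le ?_ (hle i)
    rw [← not_le, ValuationSubring.valuation_le_one_iff]
    exact hi
  have hv0 : V.valuation (c.coeff i₀) ≠ 0 := (V.valuation.ne_zero_iff).2 hd0
  refine ⟨(c.coeff i₀)⁻¹, inv_ne_zero hd0, ?_, fun k => ?_, i₀, ?_⟩
  · rw [map_inv₀]
    exact inv_lt_one_of_one_lt₀ hbig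
  · rw [coeff_C_mul, ← ValuationSubring.valuation_le_one_iff, map_mul, map_inv₀]
    rw [inv_mul_le_iff₀ (zero_lt_iff.2 hv0), mul_one]
    exact hle k
  · rw [coeff_C_mul, inv_mul_cancel₀ hd0]

/-- **(a)** integral basis at a place with residually independent powers of `θ` -/
theorem v2_coeff_mem_A (e : F₁ →+* F₂) (V : ValuationSubring F₁) (W : ValuationSubring F₂)
    (hW : ∀ c, e c ∈ W ↔ c ∈ V) (θ : F₂) (r : ℕ)
    (hind : ∀ c : F₁[X], c.natDegree < r → (∀ i, c.coeff i ∈ V) →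
      W.valuation (c.eval₂ e θ) < 1 → ∀ i, V.valuation (c.coeff i) < 1)
    (c : F₁[X]) (hdeg : c.natDegree < r) (hx : c.eval₂ e θ ∈ W) (i : ℕ) : c.coeff i ∈ V := by
  by_contra hi
  obtain ⟨d, -, hd, hV, i₀, hi₀⟩ := v2_exists_normalise V c ⟨i, hi⟩
  have h1 : W.valuation ((C d * c).eval₂ e θ) < 1 := by
    rw [eval₂_mul, eval₂_C, map_mul]
    exact mul_lt_one_of_lt_of_le ((v2_over_lt hW d).2 hd)
      ((ValuationSubring.valuation_le_one_iff _ _).2 hx)
  have h2 := hind (C d * c) ((natDegree_C_mul_le _ _).trans_lt hdeg) hV h1 i₀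
  rw [hi₀, map_one] at h2
  exact lt_irrefl _ h2

/-- lifting a polynomial with coefficients in `V` -/
theorem v2_exists_lift (V : ValuationSubring F₁) (c : F₁[X]) (h : ∀ i, c.coeff i ∈ V) :
    ∃ cA : (↥V)[X], cA.map V.subtype = c := by
  have : c ∈ Polynomial.lifts V.subtype := by
    rw [Polynomial.lifts_iff_coeff_lifts]
    intro n
    exact ⟨⟨c.coeff n, h n⟩, rfl⟩
  exact (Polynomial.mem_lifts _).1 this

theorem v2_eval₂_mem {V : ValuationSubring F₁} {W : ValuationSubring F₂} {e : F₁ →+* F₂}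
    (hW : ∀ c, e c ∈ W ↔ c ∈ V) (T : (↥V)[X]) {y : F₂} (hy : y ∈ W) :
    T.eval₂ (e.comp V.subtype) y ∈ W := by
  rw [eval₂_eq_sum_range]
  exact sum_mem fun i _ => mul_mem ((hW _).2 (T.coeff i).2) (pow_mem hy i)

theorem v2_mem_maximalIdeal_iff {V : ValuationSubring F₁} {W : ValuationSubring F₂}
    {e : F₁ →+* F₂} (hW : ∀ c, e c ∈ W ↔ c ∈ V) (c : ↥V) :
    c ∈ IsLocalRing.maximalIdeal ↥V ↔ W.valuation (e.comp V.subtype c) < 1 := by
  rw [ValuationSubring.valuation_lt_one_iff]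
  exact (v2_over_lt hW _).symm

/-- the Eisenstein induction -/
theorem v2_eis_aux {e : F₁ →+* F₂} {V : ValuationSubring F₁} {W : ValuationSubring F₂}
    (hW : ∀ c, e c ∈ W ↔ c ∈ V) {π : F₁} (hπ0 : π ≠ 0)
    (hπ : ∀ c, V.valuation c < 1 → c / π ∈ V) {y : F₂} (hy0 : y ≠ 0) (hy : W.valuation y < 1)
    {r : ℕ} (hyπ : W.valuation (e π) ≤ W.valuation y ^ (r - 1)) :
    ∀ (m t : ℕ) (T : (↥V)[X]), T.natDegree ≤ m → m < t → t ≤ r - 1 →
      W.valuation (T.eval₂ (e.comp V.subtype) y) ≤ W.valuation y ^ t →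
      ∀ i, T.coeff i ∈ IsLocalRing.maximalIdeal ↥V := by
  have hyW : y ∈ W := (ValuationSubring.valuation_le_one_iff _ _).1 hy.le
  have hvy0 : W.valuation y ≠ 0 := (W.valuation.ne_zero_iff).2 hy0
  -- the common first step
  have step : ∀ (t : ℕ) (T : (↥V)[X]), 0 < t → t ≤ r - 1 →
      W.valuation (T.eval₂ (e.comp V.subtype) y) ≤ W.valuation y ^ t →
      T.coeff 0 ∈ IsLocalRing.maximalIdeal ↥V ∧
        W.valuation (T.divX.eval₂ (e.comp V.subtype) y) ≤ W.valuation y ^ (t - 1) := by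
    intro t T ht htr hT
    have hdec : T.eval₂ (e.comp V.subtype) y =
        T.divX.eval₂ (e.comp V.subtype) y * y + e.comp V.subtype (T.coeff 0) := by
      conv_lhs => rw [← divX_mul_X_add T]
      rw [eval₂_add, eval₂_mul, eval₂_X, eval₂_C]
    have hD : W.valuation (T.divX.eval₂ (e.comp V.subtype) y) ≤ 1 :=
      (ValuationSubring.valuation_le_one_iff _ _).2 (v2_eval₂_mem hW _ hyW)
    have hpow_lt : W.valuation y ^ t < 1 := pow_lt_one₀ zero_le hy ht.ne'
    have hc0 : e.comp V.subtype (T.coeff 0) =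
        T.eval₂ (e.comp V.subtype) y - T.divX.eval₂ (e.comp V.subtype) y * y := by
      rw [hdec]; ring
    have h0 : T.coeff 0 ∈ IsLocalRing.maximalIdeal ↥V := by
      rw [v2_mem_maximalIdeal_iff hW, hc0]
      refine lt_of_le_of_lt (Valuation.map_sub _ _ _) (max_lt (hT.trans_lt hpow_lt) ?_)
      rw [map_mul]
      exact lt_of_le_of_lt (mul_le_of_le_one_left zero_le hD) hy
    refine ⟨h0, ?_⟩
    have h1 : W.valuation (e.comp V.subtype (T.coeff 0)) ≤ W.valuation y ^ t := by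
      have h2 : V.valuation (T.coeff 0 : F₁) < 1 :=
        (ValuationSubring.valuation_lt_one_iff _ _).1 h0
      have h3 : e.comp V.subtype (T.coeff 0) = e ((T.coeff 0 : F₁) / π) * e π := by
        rw [← map_mul, div_mul_cancel₀ _ hπ0]; rfl
      rw [h3, map_mul]
      calc W.valuation (e ((T.coeff 0 : F₁) / π)) * W.valuation (e π)
          ≤ 1 * W.valuation (e π) := by
            gcongr
            exact (ValuationSubring.valuation_le_one_iff _ _).2 ((hW _).2 (hπ _ h2))
        _ = W.valuation (e π) := one_mul _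
        _ ≤ W.valuation y ^ (r - 1) := hyπ
        _ ≤ W.valuation y ^ t := pow_le_pow_of_le_one zero_le hy.le htr
    have h4 : W.valuation (T.divX.eval₂ (e.comp V.subtype) y * y) ≤ W.valuation y ^ t := by
      have : T.divX.eval₂ (e.comp V.subtype) y * y =
          T.eval₂ (e.comp V.subtype) y - e.comp V.subtype (T.coeff 0) := by
        rw [hdec]; ring
      rw [this]
      exact (Valuation.map_sub _ _ _).trans (max_le hT h1)
    rw [map_mul] at h4
    obtain ⟨t', rfl⟩ : ∃ t', t = t' + 1 := ⟨t - 1, by omega⟩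
    rw [pow_succ] at h4
    rw [Nat.add_sub_cancel]
    exact le_of_mul_le_mul_right h4 (zero_lt_iff.2 hvy0)
  intro m
  induction m with
  | zero =>
    intro t T hdeg hmt htr hT i
    obtain ⟨h0, -⟩ := step t T hmt htr hT
    rcases Nat.eq_zero_or_pos i with rfl | hi
    · exact h0
    · rw [coeff_eq_zero_of_natDegree_lt (by omega)]
      exact zero_mem _
  | succ m ih =>
    intro t T hdeg hmt htr hT i
    obtain ⟨h0, h1⟩ := step t T (by omega) htr hT
    rcases Nat.eq_zero_or_pos i with rfl | hi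
    · exact h0
    · obtain ⟨i', rfl⟩ : ∃ i', i = i' + 1 := ⟨i - 1, by omega⟩
      have := ih (t - 1) T.divX (by rw [natDegree_divX_eq_natDegree_tsub_one]; omega) (by omega)
        (by omega) h1 i'
      rwa [coeff_divX] at this

/-- **(b)** integral basis at a place `V` with two places above it: a simple root `a` of the reduced
polynomial and an Eisenstein place at the root `b`. -/
theorem v2_coeff_mem_B (e : F₁ →+* F₂) (V : ValuationSubring F₁) (W₂ W₃ : ValuationSubring F₂)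
    (h₂ : ∀ c, e c ∈ W₂ ↔ c ∈ V) (h₃ : ∀ c, e c ∈ W₃ ↔ c ∈ V) {π : F₁} (hπ0 : π ≠ 0)
    (hπ : ∀ c, V.valuation c < 1 → c / π ∈ V) (θ : F₂) {a b : F₁} (ha : a ∈ V) (hb : b ∈ V)
    (hθa : W₂.valuation (θ - e a) < 1) (hθb : W₃.valuation (θ - e b) < 1) (hy0 : θ - e b ≠ 0)
    (hab : V.valuation (b - a) = 1) {r : ℕ} (hr : 2 ≤ r)
    (hyπ : W₃.valuation (e π) ≤ W₃.valuation (θ - e b) ^ (r - 1))
    (c : F₁[X]) (hdeg : c.natDegree < r) (hx₂ : c.eval₂ e θ ∈ W₂) (hx₃ : c.eval₂ e θ ∈ W₃)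
    (i : ℕ) : c.coeff i ∈ V := by
  by_contra hi
  obtain ⟨d, -, hd, hV, i₀, hi₀⟩ := v2_exists_normalise V c ⟨i, hi⟩
  obtain ⟨cA, hcA⟩ := v2_exists_lift V (C d * c) hV
  set φ : ↥V →+* F₂ := e.comp V.subtype with hφ
  set aA : ↥V := ⟨a, ha⟩ with haA
  set bA : ↥V := ⟨b, hb⟩ with hbA
  have hdegA : cA.natDegree < r := by
    have : cA.natDegree = (C d * c).natDegree := by
      rw [← hcA, natDegree_map_eq_of_injective V.subtype_injective]
    rw [this]
    exact (natDegree_C_mul_le _ _).trans_lt hdeg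
  have hev : cA.eval₂ φ θ = e d * c.eval₂ e θ := by
    rw [hφ, ← eval₂_map, hcA, eval₂_mul, eval₂_C]
  -- size of `x' = c'(θ)`
  have hx₂' : W₂.valuation (cA.eval₂ φ θ) < 1 := by
    rw [hev, map_mul]
    exact mul_lt_one_of_lt_of_le ((v2_over_lt h₂ d).2 hd)
      ((ValuationSubring.valuation_le_one_iff _ _).2 hx₂)
  have hsmall : ∀ z : F₁, V.valuation z < 1 → W₃.valuation (e z) ≤ W₃.valuation (e π) := by
    intro z hz
    have : e z = e (z / π) * e π := by rw [← map_mul, div_mul_cancel₀ _ hπ0]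
    rw [this, map_mul]
    exact mul_le_of_le_one_left zero_le
      ((ValuationSubring.valuation_le_one_iff _ _).2 ((h₃ _).2 (hπ _ hz)))
  have hx₃' : W₃.valuation (cA.eval₂ φ θ) ≤ W₃.valuation (e π) := by
    rw [hev, map_mul]
    exact (mul_le_of_le_one_right zero_le
      ((ValuationSubring.valuation_le_one_iff _ _).2 hx₃)).trans (hsmall d hd)
  -- division by `X - a`
  set S : (↥V)[X] := cA /ₘ (X - C aA) with hS
  set ρ : ↥V := cA.eval aA with hρ
  have hdiv : cA = (X - C aA) * S + C ρ := by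
    have h1 := modByMonic_add_div cA (X - C aA)
    rw [modByMonic_X_sub_C_eq_C_eval] at h1
    rw [hS, hρ, add_comm]
    exact h1.symm
  have hSdeg : S.natDegree ≤ r - 2 := by
    rw [hS, natDegree_divByMonic _ (monic_X_sub_C aA), natDegree_X_sub_C]
    omega
  have hevS : cA.eval₂ φ θ = (θ - e a) * S.eval₂ φ θ + φ ρ := by
    conv_lhs => rw [hdiv]
    rw [eval₂_add, eval₂_mul, eval₂_sub, eval₂_X, eval₂_C, eval₂_C]
    rfl
  have hθ₂ : θ ∈ W₂ := by
    have : θ = (θ - e a) + e a := by ring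
    rw [this]
    exact add_mem ((ValuationSubring.valuation_le_one_iff _ _).1 hθa.le) ((h₂ _).2 ha)
  have hρm : ρ ∈ IsLocalRing.maximalIdeal ↥V := by
    rw [v2_mem_maximalIdeal_iff h₂]
    have : φ ρ = cA.eval₂ φ θ - (θ - e a) * S.eval₂ φ θ := by rw [hevS]; ring
    rw [← hφ, this]
    refine lt_of_le_of_lt (Valuation.map_sub _ _ _) (max_lt hx₂' ?_)
    rw [map_mul]
    exact lt_of_le_of_lt (mul_le_of_le_one_right zero_le
      ((ValuationSubring.valuation_le_one_iff _ _).2 (v2_eval₂_mem h₂ S hθ₂))) hθa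
  -- at `W₃`
  have hunit : W₃.valuation (θ - e a) = 1 := by
    have h1 : θ - e a = (θ - e b) + e (b - a) := by rw [map_sub]; ring
    have h2 : W₃.valuation (e (b - a)) = 1 := (v2_over_eq_one h₃ _).2 hab
    rw [h1, Valuation.map_add_eq_of_lt_right _ (by rw [h2]; exact hθb), h2]
  have hS₃ : W₃.valuation (S.eval₂ φ θ) ≤ W₃.valuation (θ - e b) ^ (r - 1) := by
    have h1 : (θ - e a) * S.eval₂ φ θ = cA.eval₂ φ θ - φ ρ := by rw [hevS]; ring
    have h2 : W₃.valuation (S.eval₂ φ θ) = W₃.valuation (cA.eval₂ φ θ - φ ρ) := by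
      rw [← h1, map_mul, hunit, one_mul]
    rw [h2]
    refine ((Valuation.map_sub _ _ _).trans (max_le hx₃' ?_)).trans hyπ
    exact hsmall _ ((ValuationSubring.valuation_lt_one_iff _ _).1 hρm)
  -- Taylor expansion at `b`
  set T : (↥V)[X] := taylor bA S with hT
  have hTev : T.eval₂ φ (θ - e b) = S.eval₂ φ θ := by
    rw [← eval_map, ← eval_map, hT, map_taylor, taylor_eval]
    congr 1
    show θ - e b + e b = θ
    ring
  have hTm := v2_eis_aux h₃ hπ0 hπ hy0 hθb hyπ (r - 2) (r - 1) T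
    (by rw [hT, natDegree_taylor]; exact hSdeg) (by omega) le_rfl (by rw [← hφ, hTev]; exact hS₃)
  have hT0 : T.map (IsLocalRing.residue ↥V) = 0 := by
    ext k
    rw [coeff_map, coeff_zero, IsLocalRing.residue_eq_zero_iff]
    exact hTm k
  have hS0 : S.map (IsLocalRing.residue ↥V) = 0 := by
    rw [hT, map_taylor] at hT0
    exact (taylor_eq_zero _ _).1 hT0
  have hc0 : cA.map (IsLocalRing.residue ↥V) = 0 := by
    rw [hdiv, Polynomial.map_add, Polynomial.map_mul, hS0, mul_zero, map_C,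
      (IsLocalRing.residue_eq_zero_iff _).2 hρm, map_zero, add_zero]
  have h1 : cA.coeff i₀ = 1 := by
    apply Subtype.ext
    have := congrArg (fun p => p.coeff i₀) hcA
    simp only [coeff_map] at this
    rw [hi₀] at this
    exact this
  have h2 := congrArg (fun p => p.coeff i₀) hc0
  simp only [coeff_map, coeff_zero, h1, map_one] at h2
  exact one_ne_zero h2

/-- **(c)** existence of a place over `V` at which `y` is small, `y` a root of a monic `Q ∈ V[Z]`
(the minimal polynomial) with `Q(0) ∈ 𝔪_V`. -/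
theorem v2_exists_W (e : F₁ →+* F₂) (V : ValuationSubring F₁) (y : F₂) (Q : (↥V)[X])
    (hQm : Q.Monic) (hQy : Q.eval₂ (e.comp V.subtype) y = 0)
    (hQ0 : Q.coeff 0 ∈ IsLocalRing.maximalIdeal ↥V)
    (hmin : ∀ c : F₁[X], c.natDegree < Q.natDegree → c.eval₂ e y = 0 → c = 0) :
    ∃ W : ValuationSubring F₂, (∀ c, e c ∈ W ↔ c ∈ V) ∧ W.valuation y < 1 := by
  set φ : (↥V)[X] →+* F₂ := eval₂RingHom (e.comp V.subtype) y with hφ
  set χ : (↥V)[X] →+* IsLocalRing.ResidueField ↥V :=
    (IsLocalRing.residue ↥V).comp (evalRingHom 0) with hχ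
  have hker : RingHom.ker φ.rangeRestrict ≤ RingHom.ker χ := by
    intro P hP
    rw [RingHom.mem_ker] at hP ⊢
    have hP0 : φ P = 0 := congrArg Subtype.val hP
    have hdec := modByMonic_add_div P Q
    have hrem : (P %ₘ Q).eval₂ (e.comp V.subtype) y = 0 := by
      have h1 : φ P = φ (P %ₘ Q) + φ Q * φ (P /ₘ Q) := by
        rw [← map_mul, ← map_add, hdec]
      have h2 : φ Q = 0 := hQy
      rw [hP0, h2, zero_mul, add_zero] at h1
      exact h1.symm
    have hrem0 : P %ₘ Q = 0 := by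
      apply Polynomial.map_injective V.subtype V.subtype_injective
      rw [Polynomial.map_zero]
      apply hmin
      · rw [natDegree_map_eq_of_injective V.subtype_injective]
        by_cases hQ1 : Q = 1
        · exfalso
          rw [hQ1, coeff_one_zero] at hQ0
          exact (Ideal.ne_top_iff_one _).1 (IsLocalRing.maximalIdeal.isMaximal _).ne_top hQ0
        · exact natDegree_modByMonic_lt P hQm hQ1
      · rw [eval₂_map]; exact hrem
    rw [hrem0, zero_add] at hdec
    rw [← hdec, map_mul]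
    have : χ Q = 0 := by
      rw [hχ, RingHom.comp_apply, coe_evalRingHom, ← coeff_zero_eq_eval_zero,
        IsLocalRing.residue_eq_zero_iff]
      exact hQ0
    rw [this, zero_mul]
  set I : Ideal φ.range := Ideal.map φ.rangeRestrict (RingHom.ker χ) with hI
  have hItop : I ≠ ⊤ := by
    intro htop
    have h1 := Ideal.comap_map_of_surjective φ.rangeRestrict φ.rangeRestrict_surjective
      (RingHom.ker χ)
    rw [← hI, htop, Ideal.comap_top] at h1
    have h2 : RingHom.ker χ ⊔ Ideal.comap φ.rangeRestrict ⊥ = RingHom.ker χ :=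
      sup_eq_left.2 hker
    rw [h2] at h1
    have h3 : (1 : (↥V)[X]) ∈ RingHom.ker χ := h1 ▸ Submodule.mem_top
    rw [RingHom.mem_ker, map_one] at h3
    exact one_ne_zero h3
  obtain ⟨W, hDW, hIW⟩ := Ideal.image_subset_nonunits_valuationSubring I hItop
  have hsmall : ∀ P : (↥V)[X], χ P = 0 → W.valuation (φ P) < 1 := by
    intro P hP
    rw [← ValuationSubring.mem_nonunits_iff]
    apply hIW
    exact ⟨φ.rangeRestrict P, Ideal.mem_map_of_mem _ hP, rfl⟩
  refine ⟨W, fun c => ⟨fun hc => ?_, fun hc => ?_⟩, ?_⟩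
  · by_contra hcV
    have hc0 : c ≠ 0 := fun h0 => hcV (h0 ▸ V.zero_mem)
    have hinv : V.valuation c⁻¹ < 1 := by
      rw [v2_val_lt_one_iff, inv_inv]
      exact Or.inr hcV
    have hinvV : c⁻¹ ∈ V := (ValuationSubring.valuation_le_one_iff _ _).1 hinv.le
    have h1 := hsmall (C ⟨c⁻¹, hinvV⟩) (by
      rw [hχ, RingHom.comp_apply, coe_evalRingHom, eval_C, IsLocalRing.residue_eq_zero_iff,
        ValuationSubring.valuation_lt_one_iff]
      exact hinv)
    have h2 : φ (C ⟨c⁻¹, hinvV⟩) = e c⁻¹ := by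
      rw [hφ, coe_eval₂RingHom, eval₂_C]; rfl
    rw [h2, v2_val_lt_one_iff, ← map_inv₀, inv_inv, map_eq_zero] at h1
    exact h1.elim (inv_ne_zero hc0) (fun h => h hc)
  · apply hDW
    exact ⟨C ⟨c, hc⟩, by rw [hφ, coe_eval₂RingHom, eval₂_C]; rfl⟩
  · have h1 := hsmall X (by
      rw [hχ, RingHom.comp_apply, coe_evalRingHom, eval_X, map_zero])
    rwa [hφ, coe_eval₂RingHom, eval₂_X] at h1

/-- **(d)** at every place over `V` at which `y` is small: `W(y)^(r-1) = W(π)`, if `y` is a root of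
`Z^r + q_(r-1) Z^(r-1) + ⋯ + q_0` with `q_(r-1)` a unit, `q_i ∈ 𝔪_V`, `q_0 = π * unit`. -/
theorem v2_val_pow_eq {e : F₁ →+* F₂} {V : ValuationSubring F₁} {W : ValuationSubring F₂}
    (hW : ∀ c, e c ∈ W ↔ c ∈ V) {π : F₁} (hπ0 : π ≠ 0)
    (hπ : ∀ c, V.valuation c < 1 → c / π ∈ V) {y : F₂} (hy : W.valuation y < 1)
    {r : ℕ} (hr : 2 ≤ r) (Q : (↥V)[X]) (hQdeg : Q.natDegree = r) (hQm : Q.Monic)
    (hQy : Q.eval₂ (e.comp V.subtype) y = 0)
    (hQ0 : V.valuation ((Q.coeff 0 : F₁) / π) = 1)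
    (hQi : ∀ i, 0 < i → i < r - 1 → Q.coeff i ∈ IsLocalRing.maximalIdeal ↥V)
    (hQr : V.valuation (Q.coeff (r - 1) : F₁) = 1) :
    W.valuation y ^ (r - 1) = W.valuation (e π) := by
  obtain ⟨k, rfl⟩ : ∃ k, r = k + 2 := ⟨r - 2, by omega⟩
  set φ : ↥V →+* F₂ := e.comp V.subtype with hφ
  have hπW0 : W.valuation (e π) ≠ 0 := (W.valuation.ne_zero_iff).2 (by simpa using hπ0)
  rw [eval₂_eq_sum_range, hQdeg, Finset.sum_range_succ, Finset.sum_range_succ,
    Finset.sum_range_succ'] at hQy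
  have hlead : Q.coeff (k + 2) = 1 := by rw [← hQdeg]; exact hQm.coeff_natDegree
  rw [hlead, map_one, one_mul, pow_zero, mul_one] at hQy
  set M : F₂ := ∑ i ∈ Finset.range k, φ (Q.coeff (i + 1)) * y ^ (i + 1) with hM
  have hsmall : ∀ z : F₁, V.valuation z < 1 → W.valuation (e z) ≤ W.valuation (e π) := by
    intro z hz
    have : e z = e (z / π) * e π := by rw [← map_mul, div_mul_cancel₀ _ hπ0]
    rw [this, map_mul]
    exact mul_le_of_le_one_left zero_le
      ((ValuationSubring.valuation_le_one_iff _ _).2 ((hW _).2 (hπ _ hz)))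
  have hMlt : W.valuation M < W.valuation (e π) := by
    refine Valuation.map_sum_lt _ hπW0 fun i hi => ?_
    rw [Finset.mem_range] at hi
    rw [map_mul, map_pow]
    have h1 : W.valuation (φ (Q.coeff (i + 1))) ≤ W.valuation (e π) :=
      hsmall _ ((ValuationSubring.valuation_lt_one_iff _ _).1
        (hQi (i + 1) (Nat.succ_pos i) (by omega)))
    have h2 : W.valuation y ^ (i + 1) < 1 := pow_lt_one₀ zero_le hy (Nat.succ_ne_zero i)
    calc W.valuation (φ (Q.coeff (i + 1))) * W.valuation y ^ (i + 1)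
        ≤ W.valuation (e π) * W.valuation y ^ (i + 1) := by gcongr
      _ < W.valuation (e π) * 1 := by
          exact mul_lt_mul_of_pos_left h2 (zero_lt_iff.2 hπW0)
      _ = W.valuation (e π) := mul_one _
  have hq0 : W.valuation (φ (Q.coeff 0)) = W.valuation (e π) := by
    have : φ (Q.coeff 0) = e ((Q.coeff 0 : F₁) / π) * e π := by
      rw [← map_mul, div_mul_cancel₀ _ hπ0]; rfl
    rw [this, map_mul, (v2_over_eq_one hW _).2 hQ0, one_mul]
  have hsum : W.valuation (M + φ (Q.coeff 0)) = W.valuation (e π) := by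
    rw [Valuation.map_add_eq_of_lt_right _ (by rw [hq0]; exact hMlt), hq0]
  have hunit : W.valuation (φ (Q.coeff (k + 1)) + y) = 1 := by
    have h1 : W.valuation (φ (Q.coeff (k + 1))) = 1 := (v2_over_eq_one hW _).2 hQr
    rw [Valuation.map_add_eq_of_lt_left _ (by rw [h1]; exact hy), h1]
  have hrel : y ^ (k + 1) * (φ (Q.coeff (k + 1)) + y) = -(M + φ (Q.coeff 0)) := by
    linear_combination hQy
  have := congrArg W.valuation hrel
  rw [map_mul, map_pow, hunit, mul_one, Valuation.map_neg, hsum] at this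
  exact this

end Fermat.Agent.CARlib
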