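import Fermat.Agent.CAR.V2Abs

/-!
# T-CAR, block V, row V2 (abstract part II, Mathlib only): residue field, uniformiser and uniqueness
of the Eisenstein place
-/

set_option autoImplicit false

open Polynomial

namespace Fermat.Agent.CARlib

variable {F₁ F₂ : Type*} [Field F₁] [Field F₂]

/-- the fixed data: `V` a DVR of `F₁` with uniformiser `π`, `W₂` the place over `V` at the simple
root `a`, `θ` a generator of degree `r`. -/
structure V2Ctx (e : F₁ →+* F₂) (V : ValuationSubring F₁) (W₂ : ValuationSubring F₂) (π : F₁)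
    (θ : F₂) (a b : F₁) (r : ℕ) : Prop where
  h₂ : ∀ c, e c ∈ W₂ ↔ c ∈ V
  hπ0 : π ≠ 0
  hπ : ∀ c, V.valuation c < 1 → c / π ∈ V
  hπ1 : V.valuation π < 1
  ha : a ∈ V
  hb : b ∈ V
  hθa : (θ - e a) / e π ∈ W₂
  hab : V.valuation (b - a) = 1
  hr : 2 ≤ r
  arch : ∀ z : F₂, ∃ k : ℕ, e π ^ k * z ∈ W₂
  span : ∀ z : F₂, ∃ c : F₁[X], c.natDegree < r ∧ c.eval₂ e θ = z
  hy0 : θ - e b ≠ 0

/-- the Eisenstein place -/
structure V2Third (e : F₁ →+* F₂) (V : ValuationSubring F₁) (π : F₁) (θ : F₂) (b : F₁) (r : ℕ)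
    (W : ValuationSubring F₂) : Prop where
  h₃ : ∀ c, e c ∈ W ↔ c ∈ V
  hθb : W.valuation (θ - e b) < 1
  hyπ : W.valuation (θ - e b) ^ (r - 1) = W.valuation (e π)

variable {e : F₁ →+* F₂} {V : ValuationSubring F₁} {W₂ W W' : ValuationSubring F₂} {π : F₁}
  {θ : F₂} {a b : F₁} {r : ℕ}

namespace V2Ctx

theorem eπ_ne_zero (X : V2Ctx e V W₂ π θ a b r) : e π ≠ 0 := by simpa using X.hπ0

theorem ba_ne_zero (X : V2Ctx e V W₂ π θ a b r) : e (b - a) ≠ 0 := by
  have : b - a ≠ 0 := by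
    intro h
    have := X.hab
    rw [h, map_zero] at this
    exact zero_ne_one this
  exact (map_ne_zero e).2 this

theorem hθa' (X : V2Ctx e V W₂ π θ a b r) : W₂.valuation (θ - e a) < 1 := by
  have h1 : θ - e a = (θ - e a) / e π * e π := by rw [div_mul_cancel₀ _ X.eπ_ne_zero]
  rw [h1, map_mul]
  exact lt_of_le_of_lt (mul_le_of_le_one_left zero_le
    ((ValuationSubring.valuation_le_one_iff _ _).2 X.hθa)) ((v2_over_lt X.h₂ π).2 X.hπ1)

theorem θ_mem (_X : V2Ctx e V W₂ π θ a b r) (T : V2Third e V π θ b r W) (hb : b ∈ V) : θ ∈ W := by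
  have : θ = (θ - e b) + e b := by ring
  rw [this]
  exact add_mem ((ValuationSubring.valuation_le_one_iff _ _).1 T.hθb.le) ((T.h₃ _).2 hb)

/-- **basis** `W₂ ∩ W = V[θ]` -/
theorem coeff_mem (X : V2Ctx e V W₂ π θ a b r) (T : V2Third e V π θ b r W) (c : F₁[X])
    (hdeg : c.natDegree < r) (hx₂ : c.eval₂ e θ ∈ W₂) (hx₃ : c.eval₂ e θ ∈ W) (i : ℕ) :
    c.coeff i ∈ V :=
  v2_coeff_mem_B e V W₂ W X.h₂ T.h₃ X.hπ0 X.hπ θ X.ha X.hb X.hθa' T.hθb X.hy0 X.hab X.hr
    T.hyπ.ge c hdeg hx₂ hx₃ i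

/-- `ε = (θ - a) / (b - a)` -/
theorem eps_sub_one (X : V2Ctx e V W₂ π θ a b r) :
    (θ - e a) / e (b - a) - 1 = (θ - e b) / e (b - a) := by
  have := X.ba_ne_zero
  field_simp
  rw [map_sub]; ring

theorem inv_ba_mem (X : V2Ctx e V W₂ π θ a b r) (h : ∀ c, e c ∈ W ↔ c ∈ V) :
    (e (b - a))⁻¹ ∈ W := by
  rw [← map_inv₀, h, ← ValuationSubring.valuation_le_one_iff, map_inv₀, X.hab, inv_one]

theorem eps_sub_one_div_mem (X : V2Ctx e V W₂ π θ a b r) (T : V2Third e V π θ b r W) :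
    ((θ - e a) / e (b - a) - 1) / (θ - e b) ∈ W := by
  rw [X.eps_sub_one, div_div, mul_comm, ← div_div, div_self X.hy0, one_div]
  exact X.inv_ba_mem T.h₃

theorem eps_val (X : V2Ctx e V W₂ π θ a b r) (T : V2Third e V π θ b r W) :
    W.valuation ((θ - e a) / e (b - a)) = 1 := by
  have h1 : (θ - e a) / e (b - a) = 1 + (θ - e b) / e (b - a) := by
    rw [← X.eps_sub_one]; ring
  have h2 : W.valuation ((θ - e b) / e (b - a)) < 1 := by
    rw [map_div₀, (v2_over_eq_one T.h₃ _).2 X.hab, div_one]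
    exact T.hθb
  rw [h1, Valuation.map_add_eq_of_lt_left _ (by rw [map_one]; exact h2), map_one]

theorem eps_pow_sub_one_div_mem (X : V2Ctx e V W₂ π θ a b r) (T : V2Third e V π θ b r W)
    (k : ℕ) : (((θ - e a) / e (b - a)) ^ k - 1) / (θ - e b) ∈ W := by
  set ε := (θ - e a) / e (b - a) with hε
  have hεW : ε ∈ W := (ValuationSubring.valuation_le_one_iff _ _).1 (X.eps_val T).le
  induction k with
  | zero => simp
  | succ k ih =>
    have : (ε ^ (k + 1) - 1) / (θ - e b) =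
        ε * ((ε ^ k - 1) / (θ - e b)) + (ε - 1) / (θ - e b) := by
      rw [pow_succ]; ring
    rw [this]
    exact add_mem (mul_mem hεW ih) (X.eps_sub_one_div_mem T)

/-- **key**: after multiplication by a power of `ε` every element of `W` lies in `V[θ]` -/
theorem exists_poly (X : V2Ctx e V W₂ π θ a b r) (T : V2Third e V π θ b r W) {z : F₂}
    (hz : z ∈ W) : ∃ (k : ℕ) (P : (↥V)[X]),
      z * ((θ - e a) / e (b - a)) ^ k = P.eval₂ (e.comp V.subtype) θ := by
  set ε := (θ - e a) / e (b - a) with hε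
  obtain ⟨k, hk⟩ := X.arch z
  have hεW : ε ∈ W := (ValuationSubring.valuation_le_one_iff _ _).1 (X.eps_val T).le
  have h1 : ε / e π ∈ W₂ := by
    have : ε / e π = (θ - e a) / e π * (e (b - a))⁻¹ := by rw [hε]; ring
    rw [this]
    exact mul_mem X.hθa (X.inv_ba_mem X.h₂)
  have h2 : z * ε ^ k ∈ W₂ := by
    have : z * ε ^ k = e π ^ k * z * (ε / e π) ^ k := by
      have h0 := pow_ne_zero k X.eπ_ne_zero
      rw [div_pow ε]
      generalize ε ^ k = E
      generalize e π ^ k = P at h0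
      field_simp
    rw [this]
    exact mul_mem hk (pow_mem h1 k)
  have h3 : z * ε ^ k ∈ W := mul_mem hz (pow_mem hεW k)
  obtain ⟨c, hdeg, hc⟩ := X.span (z * ε ^ k)
  obtain ⟨P, hP⟩ := v2_exists_lift V c
    (X.coeff_mem T c hdeg (by rw [hc]; exact h2) (by rw [hc]; exact h3))
  exact ⟨k, P, by rw [← hc, ← hP, eval₂_map]⟩

/-- `P(θ) ≡ P(b)` modulo `y` -/
theorem eval_sub_div_mem (X : V2Ctx e V W₂ π θ a b r) (T : V2Third e V π θ b r W)
    (P : (↥V)[X]) :
    (P.eval₂ (e.comp V.subtype) θ - e (P.eval ⟨b, X.hb⟩ : ↥V)) / (θ - e b) ∈ W := by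
  set φ : ↥V →+* F₂ := e.comp V.subtype with hφ
  set bA : ↥V := ⟨b, X.hb⟩ with hbA
  set Tl : (↥V)[X] := taylor bA P with hT
  have hTev : Tl.eval₂ φ (θ - e b) = P.eval₂ φ θ := by
    rw [← eval_map, ← eval_map, hT, map_taylor, taylor_eval]
    congr 1
    show θ - e b + e b = θ
    ring
  have hdec : Tl.eval₂ φ (θ - e b) = Tl.divX.eval₂ φ (θ - e b) * (θ - e b) + φ (Tl.coeff 0) := by
    conv_lhs => rw [← divX_mul_X_add Tl]
    rw [eval₂_add, eval₂_mul, eval₂_X, eval₂_C]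
  have h0 : Tl.coeff 0 = P.eval bA := by rw [hT, taylor_coeff_zero]
  have h1 : (P.eval₂ φ θ - e (P.eval bA : ↥V)) / (θ - e b) = Tl.divX.eval₂ φ (θ - e b) := by
    rw [← hTev, hdec, h0]
    have : φ (P.eval bA) = e (P.eval bA : ↥V) := rfl
    rw [this, add_sub_cancel_right, mul_div_cancel_right₀ _ X.hy0]
  rw [h1]
  exact v2_eval₂_mem T.h₃ _ ((ValuationSubring.valuation_le_one_iff _ _).1 T.hθb.le)

/-- **`f = 1`** -/
theorem res (X : V2Ctx e V W₂ π θ a b r) (T : V2Third e V π θ b r W) {z : F₂} (hz : z ∈ W) :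
    ∃ c ∈ V, (z - e c) / (θ - e b) ∈ W := by
  obtain ⟨k, P, hP⟩ := X.exists_poly T hz
  refine ⟨(P.eval ⟨b, X.hb⟩ : ↥V), (P.eval ⟨b, X.hb⟩ : ↥V).2, ?_⟩
  have h1 := X.eval_sub_div_mem T P
  have h2 := mul_mem hz (X.eps_pow_sub_one_div_mem T k)
  rw [← hP] at h1
  have : (z - e (P.eval ⟨b, X.hb⟩ : ↥V)) / (θ - e b) =
      (z * ((θ - e a) / e (b - a)) ^ k - e (P.eval ⟨b, X.hb⟩ : ↥V)) / (θ - e b) -
        z * ((((θ - e a) / e (b - a)) ^ k - 1) / (θ - e b)) := by ring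
  rw [this]
  exact sub_mem h1 h2

theorem eπ_div_y_mem (X : V2Ctx e V W₂ π θ a b r) (T : V2Third e V π θ b r W) :
    e π / (θ - e b) ∈ W := by
  rw [← ValuationSubring.valuation_le_one_iff, map_div₀, ← T.hyπ]
  obtain ⟨k, hk⟩ : ∃ k, r - 1 = k + 1 := ⟨r - 2, by have := X.hr; omega⟩
  have hv0 : W.valuation (θ - e b) ≠ 0 := (W.valuation.ne_zero_iff).2 X.hy0
  rw [hk, pow_succ, mul_div_assoc, div_self hv0, mul_one]
  exact pow_le_one₀ zero_le T.hθb.le

/-- **`y` is a uniformiser** -/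
theorem unif (X : V2Ctx e V W₂ π θ a b r) (T : V2Third e V π θ b r W) {z : F₂} (hz : z ∈ W) :
    z⁻¹ ∈ W ∨ z / (θ - e b) ∈ W := by
  obtain ⟨c, hc, hzc⟩ := X.res T hz
  rcases lt_or_eq_of_le ((ValuationSubring.valuation_le_one_iff _ _).2 hc) with h | h
  · right
    have h1 : e c / (θ - e b) ∈ W := by
      have : e c / (θ - e b) = e (c / π) * (e π / (θ - e b)) := by
        rw [map_div₀]
        have := X.eπ_ne_zero
        field_simp
      rw [this]
      exact mul_mem ((T.h₃ _).2 (X.hπ _ h)) (X.eπ_div_y_mem T)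
    have : z / (θ - e b) = (z - e c) / (θ - e b) + e c / (θ - e b) := by ring
    rw [this]
    exact add_mem hzc h1
  · left
    have h1 : W.valuation (z - e c) < 1 := by
      have : z - e c = (z - e c) / (θ - e b) * (θ - e b) := by rw [div_mul_cancel₀ _ X.hy0]
      rw [this, map_mul]
      exact lt_of_le_of_lt (mul_le_of_le_one_left zero_le
        ((ValuationSubring.valuation_le_one_iff _ _).2 hzc)) T.hθb
    have h2 : W.valuation z = 1 := by
      have : z = e c + (z - e c) := by ring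
      rw [this, Valuation.map_add_eq_of_lt_left _
        (by rw [(v2_over_eq_one T.h₃ _).2 h]; exact h1), (v2_over_eq_one T.h₃ _).2 h]
    rw [← ValuationSubring.valuation_le_one_iff, map_inv₀, h2, inv_one]

/-- **uniqueness** of the Eisenstein place -/
theorem third_le (X : V2Ctx e V W₂ π θ a b r) (T : V2Third e V π θ b r W)
    (T' : V2Third e V π θ b r W') : W ≤ W' := by
  intro z hz
  obtain ⟨k, P, hP⟩ := X.exists_poly T hz
  have h1 : P.eval₂ (e.comp V.subtype) θ ∈ W' := v2_eval₂_mem T'.h₃ P (X.θ_mem T' X.hb)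
  rw [← hP] at h1
  rw [← ValuationSubring.valuation_le_one_iff] at h1 ⊢
  rwa [map_mul, map_pow, X.eps_val T', one_pow, mul_one] at h1

theorem third_unique (X : V2Ctx e V W₂ π θ a b r) (T : V2Third e V π θ b r W)
    (T' : V2Third e V π θ b r W') : W = W' :=
  le_antisymm (X.third_le T T') (X.third_le T' T)

theorem pow_div_mem (X : V2Ctx e V W₂ π θ a b r) (T : V2Third e V π θ b r W) :
    (θ - e b) ^ (r - 1) / e π ∈ W ∧ e π / (θ - e b) ^ (r - 1) ∈ W := by
  have hv0 : W.valuation (e π) ≠ 0 := (W.valuation.ne_zero_iff).2 X.eπ_ne_zero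
  constructor
  · rw [← ValuationSubring.valuation_le_one_iff, map_div₀, map_pow, T.hyπ, div_self hv0]
  · rw [← ValuationSubring.valuation_le_one_iff, map_div₀, map_pow, T.hyπ, div_self hv0]

end V2Ctx

end Fermat.Agent.CARlib
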