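import Fermat.Agent.CAR.V2Q

/-!
# T-CAR, block V, row V2: existence of the Eisenstein place `W_VV`
-/

set_option autoImplicit false
set_option linter.unusedSectionVars false

open ModularCurve Polynomial

namespace Fermat.Agent.CARlib

open Fermat.Agent.ESlib Fermat.Agent.UNIlib
open Fermat.Agent.S28lib (RedSetup jA jAd ev2)
open Fermat.Agent.S24lib (Dv)

noncomputable section

variable {R K : Type} [CommRing R] [IsDomain R] [IsDiscreteValuationRing R] [Field K]
  [Algebra R K] [IsFractionRing R K] [Algebra ℚ K] [CharZero K] [Algebra K ℂ] [IsScalarTower ℚ K ℂ]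
  {N r : ℕ} [NeZero N] [NeZero r] [NeZero (N * r)] [NeZero (N * r * r)]
  [CharP (IsLocalRing.ResidueField R) r]

variable {Φ : ℤ[X][X]}

theorem gA_map_gRed (Φ : ℤ[X][X]) :
    (gA R K N r Φ).map (gRed R K (N * r)) =
      (Φ.map ((aeval (jA (IsLocalRing.ResidueField R)) :
        ℤ[X] →ₐ[ℤ] LaurentSeries (IsLocalRing.ResidueField R)) :
          ℤ[X] →+* LaurentSeries (IsLocalRing.ResidueField R))).map
        (qExpand (IsLocalRing.ResidueField R) r) := by
  rw [gA, Polynomial.map_map, Polynomial.map_map]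
  congr 1
  apply Polynomial.ringHom_ext
  · intro n
    simp
  · simp only [RingHom.comp_apply, RingHom.coe_coe, aeval_X]
    exact gRed_Jgen _

theorem tA_map_gRed (hr : r.Prime) (hΦ : V3Phi r Φ) :
    ∃ u : LaurentSeries (IsLocalRing.ResidueField R), u ≠ 0 ∧
      (tA R K N r Φ).map (gRed R K (N * r)) = X ^ r * (X + C u) := by
  have h1 : gRed R K (N * r) (j1A R K N r) = jA (IsLocalRing.ResidueField R) := gRed_J1
  obtain ⟨u, hu, h⟩ := v2_red_shape (κ := IsLocalRing.ResidueField R) hr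
    (Φ.map ((aeval (jA (IsLocalRing.ResidueField R)) :
        ℤ[X] →ₐ[ℤ] LaurentSeries (IsLocalRing.ResidueField R)) :
          ℤ[X] →+* LaurentSeries (IsLocalRing.ResidueField R)))
    (hΦ.monic.map _) (by rw [hΦ.monic.natDegree_map, hΦ.natDegree]) (by
      rw [← gA_map_gRed (R := R) (K := K) (N := N), ← h1, eval_map, eval₂_at_apply, gA_eval hΦ,
        map_zero])
  refine ⟨u, hu, ?_⟩
  rw [tA, map_taylor, h1, gA_map_gRed, h]

theorem qA_coeff_gRed (hr : r.Prime) (hΦ : V3Phi r Φ) :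
    ∃ u : LaurentSeries (IsLocalRing.ResidueField R), u ≠ 0 ∧
      ∀ i, gRed R K (N * r) ((qA R K N r Φ).coeff i) =
        (X ^ r * (X + C u) : (LaurentSeries (IsLocalRing.ResidueField R))[X]).coeff (i + 1) := by
  obtain ⟨u, hu, h⟩ := tA_map_gRed (R := R) (K := K) (N := N) hr hΦ
  refine ⟨u, hu, fun i => ?_⟩
  rw [← h, coeff_map, qA, coeff_divX]

theorem qA_coeff_mem (hr : r.Prime) (hΦ : V3Phi r Φ) (i : ℕ) (hi : i < r - 1) :
    (qA R K N r Φ).coeff i ∈ IsLocalRing.maximalIdeal ↥(gaussVal R K (N * r)) := by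
  obtain ⟨u, hu, h⟩ := qA_coeff_gRed (R := R) (K := K) (N := N) hr hΦ
  rw [ValuationSubring.valuation_lt_one_iff]
  apply val_lt_of_gRed_eq_zero
  rw [h, coeff_X_pow_mul', if_neg (by omega)]

theorem qA_coeff_top (hr : r.Prime) (hΦ : V3Phi r Φ) :
    (gaussVal R K (N * r)).valuation ((qA R K N r Φ).coeff (r - 1) : FK K (N * r)) = 1 := by
  obtain ⟨u, hu, h⟩ := qA_coeff_gRed (R := R) (K := K) (N := N) hr hΦ
  apply val_eq_one_of_gRed_ne_zero
  have h1 : r - 1 + 1 = r := Nat.sub_add_cancel hr.one_le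
  rw [h, h1, coeff_X_pow_mul', if_pos le_rfl, Nat.sub_self, coeff_add, coeff_X_zero, coeff_C_zero,
    zero_add]
  exact hu

theorem coe_qA_coeff_zero (hr : r.Prime) (hrN : ¬ r ∣ N) (Φ : ℤ[X][X]) :
    ((qA R K N r Φ).coeff 0 : FK K (N * r)) = wr K hr hrN (v3Theta K N r Φ) := by
  rw [qA, coeff_divX, zero_add, tA, taylor_coeff_one, gA, derivative_map, coe_eval_gA,
    v3_wr_theta]

theorem qA_coeff_zero_val [Algebra R (FK K (N * r))] [IsScalarTower R K (FK K (N * r))]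
    (hr : r.Prime) (hrN : ¬ r ∣ N) (hΦ : V3Phi r Φ) :
    (gaussVal R K (N * r)).valuation
      (((qA R K N r Φ).coeff 0 : FK K (N * r)) / algebraMap R (FK K (N * r)) ((r : ℕ) : R)) = 1 := by
  obtain ⟨U, hc, hU⟩ := v3_exists_coe_wr (K := K) (N := N) hr hrN hΦ
  rw [coe_qA_coeff_zero hr hrN, map_natCast]
  have h1 : wr K hr hrN (v3Theta K N r Φ) / (r : FK K (N * r)) =
      wr K hr hrN (v3Theta K N r Φ / (r : FK K (N * r))) := by
    rw [map_div₀, map_natCast]
  rw [h1]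
  apply val_eq_one_of_gRed_ne_zero
    (x := ⟨wr K hr hrN (v3Theta K N r Φ / (r : FK K (N * r))), v3_wr_theta_div_mem hr hrN hΦ⟩)
  rw [gRed_of_eq_coeffMap _ (coeffMap (Int.castRingHom R) U) (by rw [hU, v3_coe_R (R := R)])]
  intro h
  have h2 := congrArg (fun x => HahnSeries.coeff x (-((r : ℤ) * r + r - 1))) h
  simp only [coeffMap_coeff, hc, HahnSeries.coeff_zero, map_one, map_neg, neg_eq_zero] at h2
  exact one_ne_zero h2

/-- **existence of the Eisenstein place** -/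
theorem v2_exists_third [Algebra R (FK K (N * r))] [IsScalarTower R K (FK K (N * r))]
    (hr : r.Prime) (hrN : ¬ r ∣ N) (hπ : Irreducible ((r : ℕ) : R)) :
    ∃ W : ValuationSubring (FK K (N * r * r)),
      V2Third (i12 K N r : FK K (N * r) →+* FK K (N * r * r)) (VF1 R K N r)
        (algebraMap R (FK K (N * r)) ((r : ℕ) : R)) (vJ2 K N r) (J1 K (N * r)) r W := by
  obtain ⟨Φ, hΦ, -⟩ := v3_exists_Phi hr
  have hπ0 : algebraMap R (FK K (N * r)) ((r : ℕ) : R) ≠ 0 := tv_unif_ne_zero (N * r) hπ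
  have hval := qA_coeff_zero_val (R := R) (K := K) (N := N) hr hrN hΦ
  have h0 : (qA R K N r Φ).coeff 0 ∈ IsLocalRing.maximalIdeal ↥(gaussVal R K (N * r)) := by
    rw [ValuationSubring.valuation_lt_one_iff]
    have h1 : ((qA R K N r Φ).coeff 0 : FK K (N * r)) =
        ((qA R K N r Φ).coeff 0 : FK K (N * r)) / algebraMap R (FK K (N * r)) ((r : ℕ) : R) *
          algebraMap R (FK K (N * r)) ((r : ℕ) : R) := by
      rw [div_mul_cancel₀ _ hπ0]
    rw [h1, map_mul, hval, one_mul]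
    exact val_unif_lt hπ
  obtain ⟨W, hW, hy⟩ := v2_exists_W (i12R K N r) (VF1 R K N r) (vY K N r) (qA R K N r Φ)
    (qA_monic hΦ) (qA_eval₂ hr hrN hΦ) h0 (fun c hc => by
      rw [qA_natDegree hΦ] at hc
      exact v2_ind_vY hr hrN c hc)
  refine ⟨W, hW, hy, ?_⟩
  exact v2_val_pow_eq hW hπ0 (fun c hc => div_mem_of_val_lt hπ hc) hy hr.two_le (qA R K N r Φ)
    (qA_natDegree hΦ) (qA_monic hΦ) (qA_eval₂ hr hrN hΦ) hval
    (fun i _ hi => qA_coeff_mem hr hΦ i hi) (qA_coeff_top hr hΦ)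

end

end Fermat.Agent.CARlib
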