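import Fermat.Agent.CAR.V2App
import Fermat.Agent.CAR.V2Abs2
import Fermat.Agent.CAR.V2Res
import Fermat.Agent.CAR.V2W2

/-!
# T-CAR, block V: `VCore` from the abstract Eisenstein place `V2Third`
-/

set_option autoImplicit false
set_option linter.unusedSectionVars false
set_option linter.unusedVariables false
set_option linter.style.haveILetI false

open ModularCurve Polynomial

namespace Fermat.Agent.CARlib

open Fermat.Agent.ESlib Fermat.Agent.UNIlib
open Fermat.Agent.S28lib (jA jAd)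
open Fermat.Agent.S24lib (Dv)

noncomputable section

section abs

variable {F : Type*} [Field F]

theorem v2c_val_lt_one_iff (W : ValuationSubring F) {x : F} (hx0 : x ≠ 0) :
    W.valuation x < 1 ↔ x ∈ W ∧ x⁻¹ ∉ W := by
  rw [← ValuationSubring.valuation_le_one_iff, ← ValuationSubring.valuation_le_one_iff, map_inv₀,
    not_le]
  have hv0 : W.valuation x ≠ 0 := (W.valuation.ne_zero_iff).2 hx0
  constructor
  · intro h
    exact ⟨h.le, (one_lt_inv₀ (zero_lt_iff.2 hv0)).2 h⟩
  · rintro ⟨-, h⟩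
    exact (one_lt_inv₀ (zero_lt_iff.2 hv0)).1 h

theorem v2c_val_eq_one_iff (W : ValuationSubring F) {x : F} (hx0 : x ≠ 0) :
    W.valuation x = 1 ↔ x ∈ W ∧ x⁻¹ ∈ W := by
  rw [← ValuationSubring.valuation_le_one_iff, ← ValuationSubring.valuation_le_one_iff, map_inv₀]
  have hv0 : W.valuation x ≠ 0 := (W.valuation.ne_zero_iff).2 hx0
  constructor
  · intro h
    rw [h, inv_one]
    exact ⟨le_rfl, le_rfl⟩
  · rintro ⟨h1, h2⟩
    exact le_antisymm h1 ((inv_le_one₀ (zero_lt_iff.2 hv0)).1 h2)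

end abs

variable {R K : Type} [CommRing R] [IsDomain R] [IsDiscreteValuationRing R] [Field K]
  [Algebra R K] [IsFractionRing R K] [Algebra ℚ K] [CharZero K] [Algebra K ℂ] [IsScalarTower ℚ K ℂ]
  {N r : ℕ} [NeZero N] [NeZero r] [NeZero (N * r)] [NeZero (N * r * r)]
  [Algebra R (FK K N)] [IsScalarTower R K (FK K N)]
  [Algebra R (FK K (N * r))] [IsScalarTower R K (FK K (N * r))]
  [Algebra R (FK K (N * r * r))] [IsScalarTower R K (FK K (N * r * r))]
  [CharP (IsLocalRing.ResidueField R) r]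

/-- `j - j^(r^2)` is a unit of `V_F` -/
theorem v2c_unit (hr : r.Prime) :
    (VF1 R K N r).valuation (J1 K (N * r) - J1 K (N * r) ^ (r * r)) = 1 := by
  have h2 : 2 ≤ r * r := by nlinarith [hr.two_le]
  have hne : J1 K (N * r) - J1 K (N * r) ^ (r * r) ≠ 0 := by
    intro h
    have h3 := congrArg (fun x : FK K (N * r) => (x : LaurentSeries K)) h
    have h4 : ((J1 K (N * r) : FK K (N * r)) : LaurentSeries K) -
      ((J1 K (N * r) : FK K (N * r)) : LaurentSeries K) ^ (r * r) = 0 := h3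
    rw [J1, coe_Jgen_jAd] at h4
    exact wa_pow_sub_ne_zero (κ := K) 1 h2 (by rw [← neg_sub, h4, neg_zero])
  rw [v2c_val_eq_one_iff _ hne]
  refine ⟨(VF1 R K N r).sub_mem (Jgen_mem_gaussSub _) (pow_mem (Jgen_mem_gaussSub _) _), ?_⟩
  refine inv_mem_gaussSub_of_eq_coeffMap (jAd R 1 - jAd R 1 ^ (r * r)) ?_ ?_
  · rw [map_sub, map_pow, S28lib.coeffMap_jAd]
    show ((J1 K (N * r) : FK K (N * r)) : LaurentSeries K) -
      ((J1 K (N * r) : FK K (N * r)) : LaurentSeries K) ^ (r * r) = _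
    rw [J1, coe_Jgen_jAd]
  · rw [map_sub, map_pow, S28lib.coeffMap_jAd]
    intro h
    exact wa_pow_sub_ne_zero (κ := IsLocalRing.ResidueField R) 1 h2
      (by rw [← neg_sub, h, neg_zero])

/-- the abstract context of `V2Abs2`, instantiated -/
theorem v2c_ctx (hr : r.Prime) (hrN : ¬ r ∣ N) (hN : (N : IsLocalRing.ResidueField R) ≠ 0)
    {π : R} (hπ : Irreducible π) :
    V2Ctx (i12 K N r : FK K (N * r) →+* FK K (N * r * r)) (VF1 R K N r) (WVF R K N r)
      (algebraMap R (FK K (N * r)) π) (vJ2 K N r) (J1 K (N * r) ^ (r * r)) (J1 K (N * r)) r := by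
  have d1 := v2_isDV_VF1 (K := K) (N := N) (r := r) hπ
  have d2 := v2_isDV_WVF (K := K) (N := N) (r := r) hπ
  have hπ0 : algebraMap R (FK K (N * r)) π ≠ 0 := tv_unif_ne_zero (N * r) hπ
  refine
    { h₂ := v2_i12_mem_WVF_iff
      hπ0 := hπ0
      hπ := ?_
      hπ1 := (v2c_val_lt_one_iff _ hπ0).2 ⟨d1.unif_mem, d1.unif_inv⟩
      ha := pow_mem (Jgen_mem_gaussSub _) _
      hb := Jgen_mem_gaussSub _
      hθa := ?_
      hab := v2c_unit hr
      hr := hr.two_le
      arch := ?_
      span := ?_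
      hy0 := ?_ }
  · intro c hc
    by_cases hc0 : c = 0
    · rw [hc0, zero_div]; exact zero_mem _
    · obtain ⟨h1, h2⟩ := (v2c_val_lt_one_iff _ hc0).1 hc
      exact (d1.max c h1).resolve_left h2
  · show (vJ2 K N r - i12 K N r (J1 K (N * r) ^ (r * r))) /
      i12 K N r (algebraMap R (FK K (N * r)) π) ∈ WVF R K N r
    rw [v2_i12_algebraMap]
    exact v2r_vJ2_sub' hr hπ
  · intro z
    obtain ⟨k, hk⟩ := d2.arch z
    refine ⟨k, ?_⟩
    show i12 K N r (algebraMap R (FK K (N * r)) π) ^ k * z ∈ WVF R K N r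
    rw [v2_i12_algebraMap]
    exact hk
  · intro z
    classical
    obtain ⟨c, rfl⟩ := v1_span R hr hrN hN z
    set P : (FK K (N * r))[X] := ∑ i : Fin r, C (c i) * X ^ (i : ℕ) with hP
    have hdeg : P.degree < (r : WithBot ℕ) := degree_sum_fin_lt c
    have hnd : P.natDegree < r := by
      by_cases hP0 : P = 0
      · rw [hP0, natDegree_zero]; exact hr.pos
      · exact (natDegree_lt_iff_degree_lt hP0).2 hdeg
    refine ⟨P, hnd, ?_⟩
    rw [hP, eval₂_finsetSum]
    refine Finset.sum_congr rfl fun i _ => ?_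
    rw [eval₂_mul, eval₂_C, eval₂_pow, eval₂_X]
    rfl
  · show vJ2 K N r - i12 K N r (J1 K (N * r)) ≠ 0
    rw [i12_J1]
    intro h
    have := vY_inv_mem_WVF (R := R) (K := K) (N := N) hr
    have h1 : vY K N r = 0 := h
    have h2 := v2_isDV_WVF (K := K) (N := N) (r := r) hπ
    -- `vY = 0` contradicts `order`
    have h3 := congrArg (fun x : FK K (N * r * r) => (x : LaurentSeries K)) (sub_eq_zero.1 h)
    simp only [coe_Jgen_jAd] at h3
    haveI : NeZero (1 * r * r) := ⟨by rw [one_mul]; exact mul_ne_zero hr.ne_zero hr.ne_zero⟩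
    have h4 := congrArg HahnSeries.order h3
    rw [order_jAd, order_jAd] at h4
    have h5 : (2 : ℤ) ≤ r := by exact_mod_cast hr.two_le
    push_cast at h4
    nlinarith

/-- the pull back of the Eisenstein place by `w2` is again an Eisenstein place -/
theorem v2c_third_comap (hr : r.Prime) (hrN : ¬ r ∣ N) (hN : (N : IsLocalRing.ResidueField R) ≠ 0)
    {π : R} (hπ : Irreducible π) {W : ValuationSubring (FK K (N * r * r))}
    (T : V2Third (i12 K N r : FK K (N * r) →+* FK K (N * r * r)) (VF1 R K N r)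
      (algebraMap R (FK K (N * r)) π) (vJ2 K N r) (J1 K (N * r)) r W) :
    V2Third (i12 K N r : FK K (N * r) →+* FK K (N * r * r)) (VF1 R K N r)
      (algebraMap R (FK K (N * r)) π) (vJ2 K N r) (J1 K (N * r)) r
      (W.comap (w2 K hr hrN : FK K (N * r * r) →+* FK K (N * r * r))) := by
  have Xc := v2c_ctx (R := R) (K := K) hr hrN hN hπ
  have hyeq : vJ2 K N r - (i12 K N r : FK K (N * r) →+* FK K (N * r * r)) (J1 K (N * r)) =
      vY K N r := by
    show vJ2 K N r - i12 K N r (J1 K (N * r)) = _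
    rw [i12_J1]
  have hy0 : vY K N r ≠ 0 := by rw [← hyeq]; exact Xc.hy0
  have hy : vY K N r ∈ W ∧ (vY K N r)⁻¹ ∉ W := by
    rw [← v2c_val_lt_one_iff _ hy0, ← hyeq]
    exact T.hθb
  have hval : ∀ x, (W.comap (w2 K hr hrN : FK K (N * r * r) →+* FK K (N * r * r))).valuation x < 1
      ↔ W.valuation (w2 K hr hrN x) < 1 := by
    intro x
    by_cases hx0 : x = 0
    · simp [hx0]
    · have hx1 : w2 K hr hrN x ≠ 0 := (map_ne_zero_iff _ (w2 K hr hrN).injective).2 hx0
      rw [v2c_val_lt_one_iff _ hx0, v2c_val_lt_one_iff _ hx1, ValuationSubring.mem_comap,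
        ValuationSubring.mem_comap]
      show w2 K hr hrN x ∈ W ∧ w2 K hr hrN x⁻¹ ∉ W ↔ _
      rw [map_inv₀]
  have hone : ∀ x, (W.comap (w2 K hr hrN : FK K (N * r * r) →+* FK K (N * r * r))).valuation x = 1
      ↔ W.valuation (w2 K hr hrN x) = 1 := by
    intro x
    by_cases hx0 : x = 0
    · simp [hx0]
    · have hx1 : w2 K hr hrN x ≠ 0 := (map_ne_zero_iff _ (w2 K hr hrN).injective).2 hx0
      rw [v2c_val_eq_one_iff _ hx0, v2c_val_eq_one_iff _ hx1, ValuationSubring.mem_comap,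
        ValuationSubring.mem_comap]
      show w2 K hr hrN x ∈ W ∧ w2 K hr hrN x⁻¹ ∈ W ↔ _
      rw [map_inv₀]
  refine ⟨fun c => ?_, ?_, ?_⟩
  · rw [ValuationSubring.mem_comap]
    exact v2_over_w2 hr hrN hN hπ W T.h₃ hy c
  · rw [hyeq, hval, v1_w2_vY, Valuation.map_neg, ← hyeq]
    exact T.hθb
  · -- `y^(r-1) / π` is a unit
    have hπ2 : (i12 K N r : FK K (N * r) →+* FK K (N * r * r)) (algebraMap R (FK K (N * r)) π) =
        algebraMap R (FK K (N * r * r)) π := v2_i12_algebraMap π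
    have hϖ0 : algebraMap R (FK K (N * r * r)) π ≠ 0 := tv_unif_ne_zero (N * r * r) hπ
    have h1 : W.valuation (vY K N r ^ (r - 1) / algebraMap R (FK K (N * r * r)) π) = 1 := by
      rw [map_div₀, map_pow, ← hyeq, T.hyπ, hπ2,
        div_self ((W.valuation.ne_zero_iff).2 hϖ0)]
    have h2 : (W.comap (w2 K hr hrN : FK K (N * r * r) →+* FK K (N * r * r))).valuation
        (vY K N r ^ (r - 1) / algebraMap R (FK K (N * r * r)) π) = 1 := by
      rw [hone, map_div₀, map_pow, v1_w2_vY, v2_w2_algebraMap, map_div₀, map_pow,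
        Valuation.map_neg, ← map_pow, ← map_div₀]
      exact h1
    rw [hyeq, hπ2]
    rw [map_div₀, map_pow] at h2
    exact (div_eq_one_iff_eq ((Valuation.ne_zero_iff _).2 hϖ0)).1 h2

/-- **`VCore` from the Eisenstein place** -/
theorem v2_core_of_third (hr : r.Prime) (hrN : ¬ r ∣ N) (hN : (N : IsLocalRing.ResidueField R) ≠ 0)
    {π : R} (hπ : Irreducible π) {W : ValuationSubring (FK K (N * r * r))}
    (T : V2Third (i12 K N r : FK K (N * r) →+* FK K (N * r * r)) (VF1 R K N r)
      (algebraMap R (FK K (N * r)) π) (vJ2 K N r) (J1 K (N * r)) r W) :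
    VCore hr hrN π W := by
  have Xc := v2c_ctx (R := R) (K := K) hr hrN hN hπ
  have hyeq : vJ2 K N r - (i12 K N r : FK K (N * r) →+* FK K (N * r * r)) (J1 K (N * r)) =
      vY K N r := by
    show vJ2 K N r - i12 K N r (J1 K (N * r)) = _
    rw [i12_J1]
  have hπ2 : (i12 K N r : FK K (N * r) →+* FK K (N * r * r)) (algebraMap R (FK K (N * r)) π) =
      algebraMap R (FK K (N * r * r)) π := v2_i12_algebraMap π
  have hy0 : vY K N r ≠ 0 := by rw [← hyeq]; exact Xc.hy0
  have hW : W = W.comap (w2 K hr hrN : FK K (N * r * r) →+* FK K (N * r * r)) :=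
    Xc.third_unique T (v2c_third_comap hr hrN hN hπ T)
  refine
    { vv_incl := T.h₃
      vv_w2 := ?_
      vv_y := ?_
      vv_unif := ?_
      vv_pow := ?_
      vv_res := ?_
      basis_F := ?_ }
  · intro x
    conv_rhs => rw [hW]
    rfl
  · rw [← v2c_val_lt_one_iff _ hy0, ← hyeq]
    exact T.hθb
  · intro z hz
    have := Xc.unif T hz
    rwa [hyeq] at this
  · have := Xc.pow_div_mem T
    rwa [hyeq, hπ2] at this
  · intro z hz
    have := Xc.res T hz
    rwa [hyeq] at this
  · intro c h1 h2 i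
    classical
    set P : (FK K (N * r))[X] := ∑ i : Fin r, C (c i) * X ^ (i : ℕ) with hP
    have hdeg : P.degree < (r : WithBot ℕ) := degree_sum_fin_lt c
    have hnd : P.natDegree < r := by
      by_cases hP0 : P = 0
      · rw [hP0, natDegree_zero]; exact hr.pos
      · exact (natDegree_lt_iff_degree_lt hP0).2 hdeg
    have hev : P.eval₂ (i12 K N r : FK K (N * r) →+* FK K (N * r * r)) (vJ2 K N r) =
        ∑ i, i12 K N r (c i) * vJ2 K N r ^ (i : ℕ) := by
      rw [hP, eval₂_finsetSum]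
      refine Finset.sum_congr rfl fun i _ => ?_
      rw [eval₂_mul, eval₂_C, eval₂_pow, eval₂_X]
      rfl
    have h3 := Xc.coeff_mem T P hnd (by rw [hev]; exact h1) (by rw [hev]; exact h2) i
    have h4 : P.coeff i = c i := by
      rw [hP, finsetSum_coeff]
      simp only [coeff_C_mul_X_pow]
      rw [Finset.sum_eq_single i]
      · simp
      · intro b _ hb
        rw [if_neg (fun hh => hb (Fin.ext hh.symm))]
      · intro hh; exact absurd (Finset.mem_univ i) hh
    rwa [h4] at h3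

end

end Fermat.Agent.CARlib
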