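import Fermat.Agent.CAR.V2B
import Fermat.Agent.CAR.V2Core

/-!
# T-CAR, block V, row V2: existence of `W_VV` with all the properties of `VCore`
-/

set_option autoImplicit false
set_option linter.unusedSectionVars false

open ModularCurve Polynomial

namespace Fermat.Agent.CARlib

open Fermat.Agent.ESlib Fermat.Agent.UNIlib

noncomputable section

variable {R K : Type} [CommRing R] [IsDomain R] [IsDiscreteValuationRing R] [Field K]
  [Algebra R K] [IsFractionRing R K] [Algebra ℚ K] [CharZero K] [Algebra K ℂ] [IsScalarTower ℚ K ℂ]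
  {N r : ℕ} [NeZero N] [NeZero r] [NeZero (N * r)] [NeZero (N * r * r)]
  [Algebra R (FK K N)] [IsScalarTower R K (FK K N)]
  [Algebra R (FK K (N * r))] [IsScalarTower R K (FK K (N * r))]
  [Algebra R (FK K (N * r * r))] [IsScalarTower R K (FK K (N * r * r))]
  [CharP (IsLocalRing.ResidueField R) r]

/-- **the third valuation ring `W_VV` exists** -/
theorem v2b_exists (hr : r.Prime) (hrN : ¬ r ∣ N) (hN : (N : IsLocalRing.ResidueField R) ≠ 0)
    (hπ : Irreducible ((r : ℕ) : R)) :
    ∃ W : ValuationSubring (FK K (N * r * r)), VCore hr hrN ((r : ℕ) : R) W := by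
  obtain ⟨W, T⟩ := v2_exists_third (R := R) (K := K) (N := N) hr hrN hπ
  exact ⟨W, v2_core_of_third hr hrN hN hπ T⟩

end

end Fermat.Agent.CARlib
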