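import Fermat.Agent.CAR.VDefs

/-!
# T-CAR, block V: Laurent series over `R ⊆ R' = R[ζ_r]` (consequences of `ZetaSetup`)
-/

set_option autoImplicit false
set_option linter.unusedSectionVars false
set_option linter.unusedVariables false

open ModularCurve Polynomial

namespace Fermat.Agent.CARlib

open Fermat.Agent.ESlib Fermat.Agent.UNIlib
open Fermat.Agent.S28lib (RedSetup jA jAd scale)

noncomputable section

variable {R K κ R' K' : Type*} [CommRing R] [Field K] [Field κ] [CommRing R'] [Field K']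
  {ι : R →+* K} {ρ : R →+* κ} {π : R} {ι' : R' →+* K'} {ρ' : R' →+* κ} {lam : R'}
  {g : R →+* R'} {f : K →+* K'} {ζ : R'ˣ} {r : ℕ}

namespace ZetaSetup

theorem coeffMap_comm (Z : ZetaSetup ι ρ π ι' ρ' lam g f ζ r) (s : LaurentSeries R) :
    coeffMap f (coeffMap ι s) = coeffMap ι' (coeffMap g s) := by
  rw [coeffMap_coeffMap, coeffMap_coeffMap]
  exact coeffMap_congr (RingHom.ext Z.comm) s

theorem coeffMap_res (Z : ZetaSetup ι ρ π ι' ρ' lam g f ζ r) (s : LaurentSeries R) :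
    coeffMap ρ' (coeffMap g s) = coeffMap ρ s := by
  rw [coeffMap_coeffMap]
  exact coeffMap_congr (RingHom.ext Z.res) s

theorem coeffMap_f_injective : Function.Injective (coeffMap f) :=
  S28lib.coeffMap_injective f.injective

theorem isBdd_map (Z : ZetaSetup ι ρ π ι' ρ' lam g f ζ r) {x : LaurentSeries K}
    (hx : IsBdd ι x) : IsBdd ι' (coeffMap f x) := by
  obtain ⟨s, y, hs, h⟩ := hx
  refine ⟨coeffMap g s, coeffMap g y, ?_, ?_⟩
  · rw [← Z.coeffMap_comm]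
    exact fun h0 => hs (coeffMap_f_injective (by rw [h0, map_zero]))
  · rw [← Z.coeffMap_comm, ← Z.coeffMap_comm, ← map_mul, h]

theorem mem_map (Z : ZetaSetup ι ρ π ι' ρ' lam g f ζ r) {x : LaurentSeries K}
    (hx : x ∈ LamR ι ρ) : coeffMap f x ∈ LamR ι' ρ' := by
  obtain ⟨s, y, hs, h⟩ := hx
  refine ⟨coeffMap g s, coeffMap g y, ?_, ?_⟩
  · rw [Z.coeffMap_res]; exact hs
  · rw [← Z.coeffMap_comm, ← Z.coeffMap_comm, ← map_mul, h]

theorem redR_map (Z : ZetaSetup ι ρ π ι' ρ' lam g f ζ r) (hι : Function.Injective ι)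
    (x : LamR ι ρ) :
    redR Z.red.inj (⟨coeffMap f x, Z.mem_map x.2⟩ : LamR ι' ρ') = redR hι x := by
  obtain ⟨s, y, hs, h⟩ := x.2
  rw [redR_eq hι x hs h, redR_eq Z.red.inj _ (s := coeffMap g s) (y := coeffMap g y)
    (by rw [Z.coeffMap_res]; exact hs)
    (by
      show coeffMap ι' (coeffMap g s) * coeffMap f (x : LaurentSeries K) = _
      rw [← Z.coeffMap_comm, ← Z.coeffMap_comm, ← map_mul, h]),
    Z.coeffMap_res, Z.coeffMap_res]

theorem g_unif (Z : ZetaSetup ι ρ π ι' ρ' lam g f ζ r) (h : RedSetup ι ρ π) : ρ' (g π) = 0 := by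
  rw [Z.res, h.red_unif]

theorem coeffMap_f_C (a : K) :
    coeffMap f (HahnSeries.C a : LaurentSeries K) = HahnSeries.C (f a) := coeffMap_C' f a

/-- `Λ' ∩ K((q))_bdd = Λ` -/
theorem mem_of_map_mem (Z : ZetaSetup ι ρ π ι' ρ' lam g f ζ r) (h : RedSetup ι ρ π)
    {x : LaurentSeries K} (hx : IsBdd ι x) (hx' : coeffMap f x ∈ LamR ι' ρ') : x ∈ LamR ι ρ := by
  by_cases hx0 : x = 0
  · rw [hx0]; exact zero_mem _
  obtain ⟨a, b, u, hu, hu', hu0, hrel⟩ := hx.exists_unit h hx0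
  have hc := redSetup_C_unif_ne_zero h
  have hcm : (HahnSeries.C (ι π) : LaurentSeries K) ∈ LamR ι ρ := C_unif_mem_LamR
  rcases le_or_gt a b with hab | hab
  · obtain ⟨c, rfl⟩ := Nat.exists_eq_add_of_le hab
    have : x = (HahnSeries.C (ι π) : LaurentSeries K) ^ c * u := by
      apply mul_left_cancel₀ (pow_ne_zero a hc)
      rw [hrel, pow_add, mul_assoc]
    rw [this]
    exact mul_mem (pow_mem hcm c) hu
  · exfalso
    obtain ⟨c, rfl⟩ := Nat.exists_eq_add_of_lt hab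
    -- `π^(c+1) x = u`
    have h1 : (HahnSeries.C (ι π) : LaurentSeries K) ^ (c + 1) * x = u := by
      apply mul_left_cancel₀ (pow_ne_zero b hc)
      rw [← hrel, ← mul_assoc, ← pow_add, add_assoc]
    -- reduce `π * (π^c x u⁻¹) = 1`
    set P : LamR ι' ρ' := ⟨coeffMap f (HahnSeries.C (ι π)), Z.mem_map hcm⟩ with hP
    set X : LamR ι' ρ' := ⟨coeffMap f x, hx'⟩ with hX
    set U : LamR ι' ρ' := ⟨coeffMap f u⁻¹, Z.mem_map hu'⟩ with hU
    have h2 : P ^ (c + 1) * X * U = 1 := by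
      apply Subtype.ext
      show coeffMap f (HahnSeries.C (ι π)) ^ (c + 1) * coeffMap f x * coeffMap f u⁻¹ = 1
      rw [← map_pow, ← map_mul, ← map_mul, h1, mul_inv_cancel₀ hu0, map_one]
    have h3 : redR Z.red.inj P = 0 := by
      rw [hP, Z.redR_map h.inj ⟨_, hcm⟩, redR_C_unif h]
    have h4 := congrArg (redR Z.red.inj) h2
    rw [map_mul, map_mul, map_pow, h3, zero_pow (Nat.succ_ne_zero c), zero_mul, zero_mul,
      map_one] at h4
    exact zero_ne_one h4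

theorem mem_map_iff (Z : ZetaSetup ι ρ π ι' ρ' lam g f ζ r) (h : RedSetup ι ρ π)
    {x : LaurentSeries K} (hx : IsBdd ι x) : coeffMap f x ∈ LamR ι' ρ' ↔ x ∈ LamR ι ρ :=
  ⟨Z.mem_of_map_mem h hx, Z.mem_map⟩

/-- `lam ∣ ζ^n - 1` -/
theorem lam_dvd (Z : ZetaSetup ι ρ π ι' ρ' lam g f ζ r) (n : ℤ) :
    lam ∣ ((ζ ^ n : R'ˣ) : R') - 1 := by
  have hnat : ∀ k : ℕ, lam ∣ ((ζ ^ k : R'ˣ) : R') - 1 := by
    intro k
    rw [Units.val_pow_eq_pow_val, Z.lam_eq]
    have := sub_dvd_pow_sub_pow (ζ : R') 1 k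
    rw [one_pow] at this
    rw [← neg_sub (ζ : R') 1]
    exact (neg_dvd).2 this
  rcases Int.eq_nat_or_neg n with ⟨k, rfl | rfl⟩
  · rw [zpow_natCast]; exact hnat k
  · rw [zpow_neg, zpow_natCast]
    have h1 : (((ζ ^ k)⁻¹ : R'ˣ) : R') - 1 = -(((ζ ^ k)⁻¹ : R'ˣ) : R') * (((ζ ^ k : R'ˣ) : R') - 1) := by
      have : (((ζ ^ k)⁻¹ : R'ˣ) : R') * ((ζ ^ k : R'ˣ) : R') = 1 := Units.inv_mul _
      linear_combination this
    rw [h1]
    exact (hnat k).mul_left _

/-- `j(ζ q) - j(q) = lam * u`, `u` integral and nonzero modulo `lam` -/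
theorem exists_u (Z : ZetaSetup ι ρ π ι' ρ' lam g f ζ r) :
    ∃ u₀ : LaurentSeries R', scale ζ (jA R') - jA R' = HahnSeries.C lam * u₀ ∧
      coeffMap ρ' u₀ ≠ 0 := by
  classical
  choose w hw using Z.lam_dvd
  have hlam0 : ι' lam ≠ 0 := redSetup_unif_ne_zero Z.red
  refine ⟨HahnSeries.ofSuppBddBelow (fun n : ℤ => w n * (jA R').coeff n) ⟨-1, ?_⟩, ?_, ?_⟩
  · intro n hn
    by_contra hlt
    rw [not_le] at hlt
    apply hn
    show w n * (jA R').coeff n = 0
    rw [show (jA R').coeff n = 0 from coeff_jqModC_of_lt R' hlt, mul_zero]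
  · ext n
    rw [HahnSeries.coeff_sub, S28lib.coeff_scale, HahnSeries.C_mul_eq_smul, HahnSeries.coeff_smul]
    show _ = lam * (w n * (jA R').coeff n)
    rw [← mul_assoc, ← hw n]
    ring
  · intro h0
    have h1 := congrArg (fun x => HahnSeries.coeff x (-1)) h0
    simp only [coeffMap_coeff, HahnSeries.coeff_zero] at h1
    have h2 : ρ' (w (-1) * (jA R').coeff (-1)) = 0 := h1
    rw [show (jA R').coeff (-1) = 1 from coeff_jqModC_neg_one R', mul_one] at h2
    -- `w (-1) = ζ⁻¹`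
    have h3 : w (-1) = ((ζ⁻¹ : R'ˣ) : R') := by
      apply Z.red.inj
      apply mul_left_cancel₀ hlam0
      rw [← map_mul, ← map_mul, ← hw (-1), zpow_neg_one, Z.lam_eq]
      congr 1
      have : ((ζ⁻¹ : R'ˣ) : R') * (ζ : R') = 1 := Units.inv_mul _
      linear_combination this
    rw [h3] at h2
    have h4 : ρ' ((ζ⁻¹ : R'ˣ) : R') * ρ' (ζ : R') = 1 := by
      rw [← map_mul, Units.inv_mul, map_one]
    rw [h2, zero_mul] at h4
    exact zero_ne_one h4

end ZetaSetup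

end

end Fermat.Agent.CARlib
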