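import Mathlib
import Fermat.Agent.CAR.VDefs

/-!
# T-CAR, (V4): the ramified extension `R[ζ_r]` of a DVR `R` with uniformiser `r`

`R' = R[X] / Φ_r`, `K' = K[X] / Φ_r` (a field by Eisenstein), `lam = 1 - ζ`,
`lam ^ (r - 1) = r * unit`, residue field of `R'` = residue field of `R`.
-/

set_option autoImplicit false
set_option linter.unusedSectionVars false

namespace Fermat.Agent.CARlib

open Polynomial
open Fermat.Agent.ESlib
open Fermat.Agent.S28lib (RedSetup)

section irr

variable {R : Type*} [CommRing R] [IsDomain R]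

theorem v4_eisenstein {r : ℕ} (hr : r.Prime) (hπ : Irreducible ((r : ℕ) : R)) :
    ((cyclotomic r R).comp (X + 1)).IsEisensteinAt (Ideal.span {((r : ℕ) : R)}) := by
  have : Fact r.Prime := ⟨hr⟩
  have hZ := cyclotomic_comp_X_add_one_isEisensteinAt r
  have hmonZ : ((cyclotomic r ℤ).comp (X + 1)).Monic := by
    rw [show (X + 1 : ℤ[X]) = X + C 1 by simp]
    refine (cyclotomic.monic r ℤ).comp (monic_X_add_C 1) fun h => ?_
    rw [natDegree_X_add_C] at h
    exact zero_ne_one h.symm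
  have hmap : (cyclotomic r R).comp (X + 1) =
      ((cyclotomic r ℤ).comp (X + 1)).map (Int.castRingHom R) := by
    rw [Polynomial.map_comp, map_cyclotomic]
    simp
  rw [hmap]
  refine Monic.isEisensteinAt_of_mem_of_notMem (hmonZ.map _) ?_ (fun {i} hi => ?_) ?_
  · rw [Ne, Ideal.span_singleton_eq_top]
    exact hπ.not_isUnit
  · rw [hmonZ.natDegree_map] at hi
    have h1 := hZ.mem hi
    rw [Ideal.mem_span_singleton] at h1
    obtain ⟨c, hc⟩ := h1
    rw [coeff_map, hc, Ideal.mem_span_singleton]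
    exact ⟨(c : R), by simp⟩
  · rw [← hmap, coeff_zero_eq_eval_zero, eval_comp]
    simp only [eval_add, eval_X, eval_one, zero_add]
    rw [eval_one_cyclotomic_prime, Ideal.span_singleton_pow, Ideal.mem_span_singleton]
    rintro ⟨c, hc⟩
    apply hπ.not_isUnit
    have h0 : ((r : ℕ) : R) ≠ 0 := hπ.ne_zero
    have h1 : ((r : ℕ) : R) * 1 = (r : R) * ((r : R) * c) := by
      rw [mul_one, ← mul_assoc, ← sq]
      exact hc
    exact IsUnit.of_mul_eq_one _ (mul_left_cancel₀ h0 h1).symm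

theorem v4_irreducible {r : ℕ} (hr : r.Prime) (hπ : Prime ((r : ℕ) : R)) :
    Irreducible (cyclotomic r R) := by
  have h1 : Irreducible ((cyclotomic r R).comp (X + 1)) := by
    have hmon : ((cyclotomic r R).comp (X + 1)).Monic := by
      rw [show (X + 1 : R[X]) = X + C 1 by simp]
      refine (cyclotomic.monic r R).comp (monic_X_add_C 1) fun h => ?_
      rw [natDegree_X_add_C] at h
      exact zero_ne_one h.symm
    refine (v4_eisenstein hr hπ.irreducible).irreducible
      ((Ideal.span_singleton_prime hπ.ne_zero).2 hπ) hmon.isPrimitive ?_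
    rw [show (X + 1 : R[X]) = X + C 1 by simp, natDegree_comp, natDegree_X_add_C, mul_one,
      natDegree_cyclotomic, Nat.totient_prime hr]
    have := hr.two_le
    omega
  have h2 : (algEquivAevalXAddC (1 : R)) (cyclotomic r R) = (cyclotomic r R).comp (X + 1) := by
    simp [algEquivAevalXAddC_apply, aeval_def, comp, eval₂_eq_eval_map]
  rw [← h2] at h1
  exact (MulEquiv.irreducible_iff (algEquivAevalXAddC (1 : R)).toMulEquiv).1 h1

end irr

section pow

variable {A : Type*} [CommRing A] [IsDomain A]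

/-- `(1 - ζ) ^ (r - 1)` is associated to `r` -/
theorem v4_associated {r : ℕ} (hr : r.Prime) {ζ : A} (hζ : IsPrimitiveRoot ζ r) :
    Associated ((r : ℕ) : A) ((1 - ζ) ^ (r - 1)) := by
  obtain ⟨n, rfl⟩ : ∃ n, r = n + 1 := ⟨r - 1, by have := hr.two_le; omega⟩
  have h1 := hζ.prod_one_sub_pow_eq_order
  have h2 : ((n + 1 : ℕ) : A) = ∏ k ∈ Finset.range n, (1 - ζ ^ (k + 1)) := by
    rw [h1]; push_cast; ring
  rw [h2, Nat.add_sub_cancel]
  have h3 : (1 - ζ) ^ n = ∏ _k ∈ Finset.range n, (1 - ζ) := by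
    rw [Finset.prod_const, Finset.card_range]
  rw [h3]
  refine Associated.prod _ _ _ fun k hk => ?_
  have hk' : k + 1 < n + 1 := by
    have := Finset.mem_range.1 hk
    omega
  have hc : (k + 1).Coprime (n + 1) :=
    (Nat.coprime_of_lt_prime (Nat.succ_ne_zero k) hk' hr).symm
  have := (hζ.associated_sub_one_pow_sub_one_of_coprime hc).symm
  have h4 := this.neg_neg
  rwa [neg_sub, neg_sub] at h4

end pow

section main

variable {R K : Type} [CommRing R] [IsDomain R] [IsDiscreteValuationRing R]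
    [Field K] [Algebra R K] [IsFractionRing R K] [CharZero K]

theorem v4_irreducible_K {r : ℕ} (hr : r.Prime) (hπ : Irreducible ((r : ℕ) : R)) :
    Irreducible (cyclotomic r K) := by
  have h1 := v4_irreducible hr hπ.prime
  rw [Monic.irreducible_iff_irreducible_map_fraction_map (K := K) (cyclotomic.monic r R),
    map_cyclotomic] at h1
  exact h1

variable (R K) in
/-- `R[ζ] → K(ζ)` -/
noncomputable def v4Iota (r : ℕ) : AdjoinRoot (cyclotomic r R) →+* AdjoinRoot (cyclotomic r K) :=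
  AdjoinRoot.lift ((AdjoinRoot.of (cyclotomic r K)).comp (algebraMap R K))
    (AdjoinRoot.root (cyclotomic r K)) (by
      rw [← eval₂_map, map_cyclotomic, AdjoinRoot.eval₂_root])

theorem v4Iota_mk (r : ℕ) (P : R[X]) :
    v4Iota R K r (AdjoinRoot.mk _ P) = AdjoinRoot.mk _ (P.map (algebraMap R K)) := by
  rw [v4Iota, AdjoinRoot.lift_mk, ← eval₂_map, ← AdjoinRoot.aeval_eq, aeval_def,
    AdjoinRoot.algebraMap_eq]

theorem v4Iota_injective (r : ℕ) : Function.Injective (v4Iota R K r) := by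
  rw [injective_iff_map_eq_zero]
  intro x hx
  obtain ⟨P, rfl⟩ := AdjoinRoot.mk_surjective x
  rw [v4Iota_mk, AdjoinRoot.mk_eq_zero, ← map_cyclotomic r (algebraMap R K),
    map_dvd_map _ (IsFractionRing.injective R K) (cyclotomic.monic r R)] at hx
  rwa [AdjoinRoot.mk_eq_zero]

variable (R) in
/-- the reduction `R[ζ] → κ`, `ζ ↦ 1` -/
noncomputable def v4Rho {r : ℕ} (hr : r.Prime) (hπ : Irreducible ((r : ℕ) : R)) :
    AdjoinRoot (cyclotomic r R) →+* IsLocalRing.ResidueField R :=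
  AdjoinRoot.lift (IsLocalRing.residue R) 1 (by
    have : Fact r.Prime := ⟨hr⟩
    rw [eval₂_at_one, eval_one_cyclotomic_prime, IsLocalRing.residue_eq_zero_iff]
    exact hπ.not_isUnit)

theorem v4Rho_mk {r : ℕ} (hr : r.Prime) (hπ : Irreducible ((r : ℕ) : R)) (P : R[X]) :
    v4Rho R hr hπ (AdjoinRoot.mk _ P) = IsLocalRing.residue R (P.eval 1) := by
  rw [v4Rho, AdjoinRoot.lift_mk, eval₂_at_one]

theorem v4_exists_zetaSetup {r : ℕ} (hr : r.Prime)
    (hπ : Irreducible ((r : ℕ) : R)) :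
    ∃ (R' K' : Type) (_ : CommRing R') (_ : Field K') (ι' : R' →+* K')
      (ρ' : R' →+* IsLocalRing.ResidueField R) (lam : R') (g : R →+* R') (f : K →+* K')
      (ζ : R'ˣ), ZetaSetup (algebraMap R K) (IsLocalRing.residue R) ((r : ℕ) : R) ι' ρ' lam g f ζ r := by
  classical
  have hirr : Fact (Irreducible (cyclotomic r K)) := ⟨v4_irreducible_K hr hπ⟩
  have hinj := v4Iota_injective (R := R) (K := K) r
  have hdom : IsDomain (AdjoinRoot (cyclotomic r R)) := hinj.isDomain (v4Iota R K r)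
  have hchar : CharZero (AdjoinRoot (cyclotomic r K)) :=
    charZero_of_injective_algebraMap (algebraMap K (AdjoinRoot (cyclotomic r K))).injective
  have hr0 : NeZero r := ⟨hr.ne_zero⟩
  -- the primitive root
  have hζK : IsPrimitiveRoot (AdjoinRoot.root (cyclotomic r K)) r := by
    rw [← isRoot_cyclotomic_iff, ← map_cyclotomic r (AdjoinRoot.of (cyclotomic r K)), IsRoot.def,
      eval_map, AdjoinRoot.eval₂_root]
  have hroot : v4Iota R K r (AdjoinRoot.root (cyclotomic r R)) = AdjoinRoot.root (cyclotomic r K) := by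
    rw [v4Iota, AdjoinRoot.lift_root]
  have hζ : IsPrimitiveRoot (AdjoinRoot.root (cyclotomic r R)) r := by
    refine IsPrimitiveRoot.of_map_of_injective (f := v4Iota R K r) ?_ hinj
    rw [hroot]
    exact hζK
  obtain ⟨ζ, hζu⟩ := hζ.isUnit hr.ne_zero
  have hζ' : IsPrimitiveRoot ζ r := by
    rw [← IsPrimitiveRoot.coe_units_iff, hζu]
    exact hζ
  obtain ⟨u, hu⟩ := v4_associated hr hζ
  have hpow : (1 - AdjoinRoot.root (cyclotomic r R)) ^ (r - 1) =
      AdjoinRoot.of (cyclotomic r R) ((r : ℕ) : R) * u := by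
    rw [← hu, map_natCast]
  have hlam_dvd : (1 - AdjoinRoot.root (cyclotomic r R)) ∣
      AdjoinRoot.of (cyclotomic r R) ((r : ℕ) : R) := by
    have h1 : (1 - AdjoinRoot.root (cyclotomic r R)) ∣
        (1 - AdjoinRoot.root (cyclotomic r R)) ^ (r - 1) :=
      dvd_pow_self _ (by have := hr.two_le; omega)
    rw [hpow] at h1
    exact (Units.dvd_mul_right).1 h1
  have hlam0 : (1 - AdjoinRoot.root (cyclotomic r R)) ≠ 0 := by
    rw [sub_ne_zero]
    exact (hζ.ne_one hr.one_lt).symm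
  refine ⟨AdjoinRoot (cyclotomic r R), AdjoinRoot (cyclotomic r K), inferInstance, inferInstance,
    v4Iota R K r, v4Rho R hr hπ, 1 - AdjoinRoot.root (cyclotomic r R),
    AdjoinRoot.of (cyclotomic r R), AdjoinRoot.of (cyclotomic r K), ζ, ?_⟩
  refine ⟨⟨hinj, ?_, ?_, ?_, ?_⟩, ?_, ?_, hζ', ?_, ⟨u, hpow⟩⟩
  · -- scale
    intro c
    obtain ⟨P, rfl⟩ := AdjoinRoot.mk_surjective c
    obtain ⟨n, Q, hQ⟩ := (redSetup_of_dvr (K := K) hπ).poly.scale P
    refine ⟨(r - 1) * n, (u : AdjoinRoot (cyclotomic r R)) ^ n * AdjoinRoot.mk _ Q, ?_⟩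
    have h1 : v4Iota R K r (AdjoinRoot.of (cyclotomic r R) ((r : ℕ) : R)) =
        AdjoinRoot.mk (cyclotomic r K) (mapRingHom (algebraMap R K) (C ((r : ℕ) : R))) := by
      rw [← AdjoinRoot.mk_C, v4Iota_mk, coe_mapRingHom]
    have h2 : v4Iota R K r (1 - AdjoinRoot.root (cyclotomic r R)) ^ (r - 1) =
        AdjoinRoot.mk (cyclotomic r K) (mapRingHom (algebraMap R K) (C ((r : ℕ) : R))) *
          v4Iota R K r u := by
      rw [← map_pow, hpow, map_mul, h1]
    rw [map_mul, v4Iota_mk, ← coe_mapRingHom, hQ, map_mul, map_pow, map_pow, pow_mul, h2, mul_pow]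
    ring
  · -- ker
    intro x hx
    obtain ⟨P, rfl⟩ := AdjoinRoot.mk_surjective x
    rw [v4Rho_mk, IsLocalRing.residue_eq_zero_iff, hπ.maximalIdeal_eq,
      Ideal.mem_span_singleton] at hx
    obtain ⟨Q, hQ⟩ := X_sub_C_dvd_sub_C_eval (a := (1 : R)) (p := P)
    have h1 : P = C (P.eval 1) + (X - C 1) * Q := by rw [← hQ]; ring
    rw [h1, map_add, map_mul, map_sub, AdjoinRoot.mk_X, AdjoinRoot.mk_C, AdjoinRoot.mk_C, map_one]
    refine dvd_add (hlam_dvd.trans (map_dvd _ hx)) (Dvd.dvd.mul_right ?_ _)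
    rw [← dvd_neg, neg_sub]
  · -- red_unif
    rw [map_sub, map_one, v4Rho, AdjoinRoot.lift_root, sub_self]
  · -- reg
    intro c hc
    refine (mul_eq_zero.1 hc).resolve_left ?_
    rw [map_eq_zero_iff _ hinj]
    exact hlam0
  · -- comm
    intro a
    rw [v4Iota, AdjoinRoot.lift_of]
    rfl
  · -- res
    intro a
    rw [v4Rho, AdjoinRoot.lift_of]
  · rw [hζu]

end main

end Fermat.Agent.CARlib
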