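import Fermat.Agent.CAR.V2Core
import Fermat.Agent.CAR.V2Ser
import Fermat.Agent.CAR.V4Zeta

/-!
# T-CAR, block V: the Eisenstein place `W_VV` by the `q`-expansion at the middle cusp

`φ : F₂ → K(ζ_r)((q))`, `φ ∘ i12 = q`-expansion, `φ (j(q^(r^2))) = j(ζ q)`;
`W_VV := φ⁻¹ (Gauss ring of R[ζ_r])`.
-/

set_option autoImplicit false
set_option linter.unusedSectionVars false
set_option linter.unusedVariables false
set_option linter.style.haveILetI false

open ModularCurve Polynomial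

namespace Fermat.Agent.CARlib

open Fermat.Agent.ESlib Fermat.Agent.UNIlib
open Fermat.Agent.S28lib (RedSetup jA jAd scale)
open Fermat.Agent.S24lib (Dv)

noncomputable section

section series

variable {A : Type*} [CommRing A]

/-- `x(q^r)` is invariant under `q ↦ c q` if `c^r = 1` -/
theorem vp_scale_qExpand {r : ℕ} [NeZero r] {c : Aˣ} (hc : c ^ r = 1) (x : LaurentSeries A) :
    scale c (qExpand A r x) = qExpand A r x := by
  ext n
  rw [S28lib.coeff_scale]
  by_cases hn : (r : ℤ) ∣ n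
  · obtain ⟨m, rfl⟩ := hn
    rw [zpow_mul, zpow_natCast, hc, one_zpow, Units.val_one, one_mul]
  · rw [qExpand_coeff_of_not_dvd (N := r) x hn, mul_zero]

end series

variable {R K : Type} [CommRing R] [IsDomain R] [IsDiscreteValuationRing R] [Field K]
  [Algebra R K] [IsFractionRing R K] [Algebra ℚ K] [CharZero K] [Algebra K ℂ] [IsScalarTower ℚ K ℂ]
  {N r : ℕ} [NeZero N] [NeZero r] [NeZero (N * r)] [NeZero (N * r * r)]
  [Algebra R (FK K N)] [IsScalarTower R K (FK K N)]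
  [Algebra R (FK K (N * r))] [IsScalarTower R K (FK K (N * r))]
  [Algebra R (FK K (N * r * r))] [IsScalarTower R K (FK K (N * r * r))]
  [CharP (IsLocalRing.ResidueField R) r]
  {R' K' : Type} [CommRing R'] [Field K'] {π : R} {ι' : R' →+* K'}
  {ρ' : R' →+* IsLocalRing.ResidueField R} {lam : R'} {g : R →+* R'} {f : K →+* K'} {ζ : R'ˣ}

variable (N r) in
/-- the `q`-expansion of `F₁` with coefficients in `K'` -/
def vpS (f : K →+* K') : FK K (N * r) →+* LaurentSeries K' :=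
  (coeffMap f).comp (valF K (N * r))

theorem vpS_apply (x : FK K (N * r)) : vpS N r f x = coeffMap f (x : LaurentSeries K) := rfl

/-- `ζ` in `K'` -/
def vpZ (ι' : R' →+* K') (ζ : R'ˣ) : K'ˣ := Units.map (ι' : R' →* K') ζ

/-- `j(ζ q)` -/
def vpY (ι' : R' →+* K') (ζ : R'ˣ) : LaurentSeries K' := scale (vpZ ι' ζ) (jA K')

theorem vpY_eq (ι' : R' →+* K') (ζ : R'ˣ) : vpY ι' ζ = coeffMap ι' (scale ζ (jA R')) := by
  rw [coeffMap_scale, S28lib.coeffMap_jA]
  rfl

theorem vpS_J1 : vpS N r f (J1 K (N * r)) = jA K' := by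
  rw [vpS_apply, coe_J1_jA, S28lib.coeffMap_jA]

theorem vpZ_pow (Z : ZetaSetup (algebraMap R K) (IsLocalRing.residue R) π ι' ρ' lam g f ζ r) :
    vpZ ι' ζ ^ r = 1 := by
  rw [vpZ, ← map_pow, Z.prim.pow_eq_one, map_one]

/-- `j(ζ q) - j(q) = lam * U` -/
theorem vpY_sub (Z : ZetaSetup (algebraMap R K) (IsLocalRing.residue R) π ι' ρ' lam g f ζ r) :
    ∃ u₀ : LaurentSeries R', vpY ι' ζ - jA K' = HahnSeries.C (ι' lam) * coeffMap ι' u₀ ∧
      coeffMap ρ' u₀ ≠ 0 := by
  obtain ⟨u₀, h1, h2⟩ := Z.exists_u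
  refine ⟨u₀, ?_, h2⟩
  rw [vpY_eq, ← S28lib.coeffMap_jA ι', ← map_sub, h1, map_mul, coeffMap_C']

theorem vpY_ne (Z : ZetaSetup (algebraMap R K) (IsLocalRing.residue R) π ι' ρ' lam g f ζ r) :
    vpY ι' ζ - jA K' ≠ 0 := by
  obtain ⟨u₀, h1, h2⟩ := vpY_sub Z
  rw [h1]
  refine mul_ne_zero (redSetup_C_unif_ne_zero Z.red) ?_
  intro h0
  have : u₀ = 0 := S28lib.coeffMap_injective Z.red.inj (by rw [h0, map_zero])
  exact h2 (by rw [this, map_zero])

/-- the polynomial `G` (in `i12`-coordinates) kills `j(q^(r^2))` and `j(ζ q)` -/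
theorem vp_exists_G (hr : r.Prime) (hrN : ¬ r ∣ N) (hN : (N : IsLocalRing.ResidueField R) ≠ 0)
    (Z : ZetaSetup (algebraMap R K) (IsLocalRing.residue R) π ι' ρ' lam g f ζ r) :
    ∃ G : (FK K (N * r))[X], G.Monic ∧ G.natDegree = r ∧
      G.eval₂ (i12 K N r).toRingHom (vJ2 K N r) = 0 ∧ G.eval₂ (vpS N r f) (vpY ι' ζ) = 0 := by
  obtain ⟨g₀, G, -, -, -, hGm, hGd, hmul, hG1, -⟩ := v1_exists_G_jr (K := K) R hr hrN hN
  set w : FK K (N * r) →+* FK K (N * r) := (wr K hr hrN).toAlgHom.toRingHom with hw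
  refine ⟨G.map w, hGm.map _, by rw [hGm.natDegree_map, hGd], ?_, ?_⟩
  · rw [eval₂_map, vJ2_eq_jrr]
    exact hG1
  · -- `(g₀.map iF).map w = (X - C J1) * G.map w`
    have h1 : (g₀.map (iF K N r)).map w = (X - C (J1 K (N * r))) * G.map w := by
      rw [hmul, Polynomial.map_mul, Polynomial.map_sub, map_X, map_C]
      congr 3
      exact wr_jr hr hrN
    set τ : FK K N →+* LaurentSeries K' := (vpS N r f).comp (w.comp (iF K N r)) with hτ
    -- `τ` takes values in series in `q^r`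
    have hτ1 : ∀ x, τ x = qExpand K' r (coeffMap f (x : LaurentSeries K)) := by
      intro x
      show coeffMap f ((wr K hr hrN (inclF K (dvd_mul_right N r) x) : FK K (N * r)) :
        LaurentSeries K) = _
      rw [coe_wr_inclF, coeffMap_qExpand]
    have hτ2 : (scale (vpZ ι' ζ)).comp τ = τ := by
      refine RingHom.ext fun x => ?_
      rw [RingHom.comp_apply, hτ1, vp_scale_qExpand (vpZ_pow Z)]
    -- `g₀^τ (j) = 0`
    have h2 : g₀.eval₂ τ (jA K') = 0 := by
      have h3 : ((g₀.map (iF K N r)).map w).eval₂ (vpS N r f) (jA K') = 0 := by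
        rw [h1, eval₂_mul, eval₂_sub, eval₂_X, eval₂_C, vpS_J1, sub_self, zero_mul]
      rwa [eval₂_map, eval₂_map] at h3
    -- apply `q ↦ ζ q`
    have h4 : g₀.eval₂ τ (vpY ι' ζ) = 0 := by
      have h5 := hom_eval₂ g₀ τ (scale (vpZ ι' ζ)) (jA K')
      rw [h2, map_zero, hτ2] at h5
      exact h5.symm
    have h6 : ((g₀.map (iF K N r)).map w).eval₂ (vpS N r f) (vpY ι' ζ) = 0 := by
      rw [eval₂_map, eval₂_map]
      exact h4
    rw [h1, eval₂_mul, eval₂_sub, eval₂_X, eval₂_C, vpS_J1] at h6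
    exact (mul_eq_zero.1 h6).resolve_left (vpY_ne Z)

/-- **the embedding `φ`** -/
theorem vp_exists_phi (hr : r.Prime) (hrN : ¬ r ∣ N) (hN : (N : IsLocalRing.ResidueField R) ≠ 0)
    (Z : ZetaSetup (algebraMap R K) (IsLocalRing.residue R) π ι' ρ' lam g f ζ r) :
    ∃ φ : FK K (N * r * r) →+* LaurentSeries K', ∀ P : (FK K (N * r))[X],
      φ (P.eval₂ (i12 K N r).toRingHom (vJ2 K N r)) = P.eval₂ (vpS N r f) (vpY ι' ζ) := by
  classical
  obtain ⟨G, hGm, hGd, hG1, hG2⟩ := vp_exists_G hr hrN hN Z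
  set ev : (FK K (N * r))[X] →+* FK K (N * r * r) :=
    eval₂RingHom (i12 K N r).toRingHom (vJ2 K N r) with hev
  set ev' : (FK K (N * r))[X] →+* LaurentSeries K' :=
    eval₂RingHom (vpS N r f) (vpY ι' ζ) with hev'
  have hsurj : Function.Surjective ev := by
    intro z
    obtain ⟨c, -, hc⟩ := (v2c_ctx (R := R) (K := K) hr hrN hN
      (IsDiscreteValuationRing.exists_irreducible R).choose_spec).span z
    exact ⟨c, hc⟩
  have hker : RingHom.ker ev ≤ RingHom.ker ev' := by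
    intro P hP
    rw [RingHom.mem_ker] at hP ⊢
    have hP' : P.eval₂ (i12 K N r).toRingHom (vJ2 K N r) = 0 := hP
    have hdec := modByMonic_add_div P G
    have hdeg : (P %ₘ G).natDegree < r := by
      have h1 := natDegree_modByMonic_lt P hGm (fun h => by
        rw [h, natDegree_one] at hGd
        exact hr.ne_zero hGd.symm)
      omega
    have hrem : (P %ₘ G).eval₂ (i12 K N r).toRingHom (vJ2 K N r) = 0 := by
      have h1 := congrArg (eval₂ (i12 K N r).toRingHom (vJ2 K N r)) hdec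
      rw [eval₂_add, eval₂_mul, hG1, zero_mul, add_zero, hP'] at h1
      exact h1
    rw [v1_eval₂_eq_sum _ hdeg] at hrem
    have h0 := v1_indep hr hrN (fun i : Fin r => (P %ₘ G).coeff i) hrem
    have hzero : P %ₘ G = 0 := by
      refine Polynomial.ext fun i => ?_
      rw [coeff_zero]
      by_cases hi : i < r
      · exact h0 ⟨i, hi⟩
      · exact coeff_eq_zero_of_natDegree_lt (by omega)
    rw [hzero, zero_add] at hdec
    show P.eval₂ (vpS N r f) (vpY ι' ζ) = 0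
    rw [← hdec, eval₂_mul, hG2, zero_mul]
  refine ⟨ev.liftOfRightInverse _ (Function.rightInverse_surjInv hsurj) ⟨ev', hker⟩, fun P => ?_⟩
  exact ev.liftOfRightInverse_comp_apply _ (Function.rightInverse_surjInv hsurj) ⟨ev', hker⟩ P

section bdd

variable {A B κ₀ : Type*} [CommRing A] [Field B] [Field κ₀] {j : A →+* B}

theorem vp_isBdd_zero : IsBdd j (0 : LaurentSeries B) := by
  have := IsBdd.of_coeffMap (ι := j) 0
  rwa [map_zero] at this

theorem vp_isBdd_one : IsBdd j (1 : LaurentSeries B) := by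
  have := IsBdd.of_coeffMap (ι := j) 1
  rwa [map_one] at this

theorem vp_isBdd_pow {x : LaurentSeries B} (hx : IsBdd j x) (n : ℕ) : IsBdd j (x ^ n) := by
  induction n with
  | zero => rw [pow_zero]; exact vp_isBdd_one
  | succ n ih => rw [pow_succ]; exact ih.mul hx

end bdd

/-- `φ` takes values in quotients of integral series -/
theorem vp_isBdd (hr : r.Prime) (hrN : ¬ r ∣ N) (hN : (N : IsLocalRing.ResidueField R) ≠ 0)
    (Z : ZetaSetup (algebraMap R K) (IsLocalRing.residue R) π ι' ρ' lam g f ζ r)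
    {φ : FK K (N * r * r) →+* LaurentSeries K'}
    (hφ : ∀ P : (FK K (N * r))[X],
      φ (P.eval₂ (i12 K N r).toRingHom (vJ2 K N r)) = P.eval₂ (vpS N r f) (vpY ι' ζ))
    (x : FK K (N * r * r)) : IsBdd ι' (φ x) := by
  obtain ⟨c, -, hc⟩ := (v2c_ctx (R := R) (K := K) hr hrN hN
    (IsDiscreteValuationRing.exists_irreducible R).choose_spec).span x
  have hc' : c.eval₂ (i12 K N r).toRingHom (vJ2 K N r) = x := hc
  rw [← hc', hφ, eval₂_eq_sum_range]
  refine Finset.sum_induction _ (IsBdd ι') (fun _ _ => IsBdd.add) vp_isBdd_zero fun i _ => ?_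
  refine IsBdd.mul ?_ (vp_isBdd_pow ?_ i)
  · rw [vpS_apply]
    exact Z.isBdd_map (isBdd_of_mem_FK (R := R) (c.coeff i).2)
  · rw [vpY_eq]
    exact IsBdd.of_coeffMap _

/-- the valuation ring `φ⁻¹ (Λ')` -/
def vpW (h' : RedSetup ι' ρ' lam) (φ : FK K (N * r * r) →+* LaurentSeries K')
    (hb : ∀ x, IsBdd ι' (φ x)) : ValuationSubring (FK K (N * r * r)) where
  __ := (LamR ι' ρ').comap φ
  mem_or_inv_mem' x := by
    rcases (hb x).mem_or_inv_mem h' with h | h
    · exact Or.inl h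
    · refine Or.inr ?_
      show φ x⁻¹ ∈ LamR ι' ρ'
      rw [map_inv₀]
      exact h

theorem mem_vpW (h' : RedSetup ι' ρ' lam) (φ : FK K (N * r * r) →+* LaurentSeries K')
    (hb : ∀ x, IsBdd ι' (φ x)) (x : FK K (N * r * r)) :
    x ∈ vpW h' φ hb ↔ φ x ∈ LamR ι' ρ' := Iff.rfl

theorem vp_C_lam_inv_not_mem (h' : RedSetup ι' ρ' lam) :
    (HahnSeries.C (ι' lam) : LaurentSeries K')⁻¹ ∉ LamR ι' ρ' := by
  intro h
  have h1 : (⟨HahnSeries.C (ι' lam), C_unif_mem_LamR⟩ : LamR ι' ρ') * ⟨_, h⟩ = 1 :=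
    Subtype.ext (mul_inv_cancel₀ (redSetup_C_unif_ne_zero h'))
  have h2 := congrArg (redR h'.inj) h1
  rw [map_mul, redR_C_unif h', zero_mul, map_one] at h2
  exact zero_ne_one h2

/-- **the Eisenstein place exists** (given `R[ζ_r]`) -/
theorem vp_exists_third (hr : r.Prime) (hrN : ¬ r ∣ N) (hN : (N : IsLocalRing.ResidueField R) ≠ 0)
    (hπ : Irreducible π)
    (Z : ZetaSetup (algebraMap R K) (IsLocalRing.residue R) π ι' ρ' lam g f ζ r) :
    ∃ W : ValuationSubring (FK K (N * r * r)),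
      V2Third (i12 K N r : FK K (N * r) →+* FK K (N * r * r)) (VF1 R K N r)
        (algebraMap R (FK K (N * r)) π) (vJ2 K N r) (J1 K (N * r)) r W := by
  obtain ⟨φ, hφ⟩ := vp_exists_phi hr hrN hN Z
  have hb := vp_isBdd hr hrN hN Z hφ
  have hS := redSetup_of_dvr (K := K) hπ
  have Xc := v2c_ctx (R := R) (K := K) hr hrN hN hπ
  have hφi : ∀ c : FK K (N * r), φ (i12 K N r c) = coeffMap f (c : LaurentSeries K) := by
    intro c
    have := hφ (C c)
    rwa [eval₂_C, eval₂_C] at this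
  have hφY : φ (vJ2 K N r) = vpY ι' ζ := by
    have := hφ X
    rwa [eval₂_X, eval₂_X] at this
  obtain ⟨u₀, hu1, hu2⟩ := vpY_sub Z
  set U : LaurentSeries K' := coeffMap ι' u₀ with hU
  have hUm : U ∈ LamR ι' ρ' := coeffMap_mem_LamR u₀
  have hUi : U⁻¹ ∈ LamR ι' ρ' := inv_coeffMap_mem_LamR Z.red.inj hu2
  have hU0 : U ≠ 0 := by
    intro h0
    have : u₀ = 0 := S28lib.coeffMap_injective Z.red.inj (by rw [← hU, h0, map_zero])
    exact hu2 (by rw [this, map_zero])
  have hL0 : (HahnSeries.C (ι' lam) : LaurentSeries K') ≠ 0 := redSetup_C_unif_ne_zero Z.red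
  set y : FK K (N * r * r) :=
    vJ2 K N r - (i12 K N r : FK K (N * r) →+* FK K (N * r * r)) (J1 K (N * r)) with hy
  have hy0 : y ≠ 0 := Xc.hy0
  have hφy : φ y = HahnSeries.C (ι' lam) * U := by
    rw [hy, map_sub, hφY]
    show vpY ι' ζ - φ (i12 K N r (J1 K (N * r))) = _
    rw [hφi, coe_J1_jA, S28lib.coeffMap_jA, hu1]
  refine ⟨vpW Z.red φ hb, ⟨fun c => ?_, ?_, ?_⟩⟩
  · rw [mem_vpW]
    show φ (i12 K N r c) ∈ _ ↔ _
    rw [hφi, Z.mem_map_iff hS (isBdd_of_mem_FK (R := R) c.2)]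
    rfl
  · rw [v2c_val_lt_one_iff _ hy0, mem_vpW, mem_vpW, map_inv₀, hφy]
    refine ⟨mul_mem C_unif_mem_LamR hUm, fun h => vp_C_lam_inv_not_mem Z.red ?_⟩
    have h1 := mul_mem h hUm
    rwa [mul_inv, mul_assoc, inv_mul_cancel₀ hU0, mul_one] at h1
  · obtain ⟨u, hu⟩ := Z.pow
    set ϖ : FK K (N * r * r) :=
      (i12 K N r : FK K (N * r) →+* FK K (N * r * r)) (algebraMap R (FK K (N * r)) π) with hϖ
    have hϖ0 : ϖ ≠ 0 := Xc.eπ_ne_zero
    have hφϖ : φ ϖ = HahnSeries.C (ι' (g π)) := by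
      show φ (i12 K N r (algebraMap R (FK K (N * r)) π)) = _
      rw [hφi, coe_algebraMap_R, coeffMap_C', Z.comm]
    have hgπ0 : (HahnSeries.C (ι' (g π)) : LaurentSeries K') ≠ 0 := by
      rw [← hφϖ]
      exact (map_ne_zero φ).2 hϖ0
    have hpow : (HahnSeries.C (ι' lam) : LaurentSeries K') ^ (r - 1) =
        HahnSeries.C (ι' (g π)) * HahnSeries.C (ι' (u : R')) := by
      rw [← map_pow, ← map_pow, hu, map_mul, map_mul]
    have hz : φ (y ^ (r - 1) / ϖ) = HahnSeries.C (ι' (u : R')) * U ^ (r - 1) := by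
      rw [map_div₀, map_pow, hφy, hφϖ, mul_pow, hpow]
      field_simp
    have hCu : (HahnSeries.C (ι' (u : R')) : LaurentSeries K') ∈ LamR ι' ρ' := by
      rw [← coeffMap_C']; exact coeffMap_mem_LamR _
    have hCu' : (HahnSeries.C (ι' ((u⁻¹ : R'ˣ) : R')) : LaurentSeries K') ∈ LamR ι' ρ' := by
      rw [← coeffMap_C']; exact coeffMap_mem_LamR _
    have hCuu : (HahnSeries.C (ι' (u : R')) : LaurentSeries K') *
        HahnSeries.C (ι' ((u⁻¹ : R'ˣ) : R')) = 1 := by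
      rw [← map_mul, ← map_mul, Units.mul_inv, map_one, map_one]
    have hz0 : y ^ (r - 1) / ϖ ≠ 0 := div_ne_zero (pow_ne_zero _ hy0) hϖ0
    have h1 : (vpW Z.red φ hb).valuation (y ^ (r - 1) / ϖ) = 1 := by
      rw [v2c_val_eq_one_iff _ hz0, mem_vpW, mem_vpW, map_inv₀, hz]
      refine ⟨mul_mem hCu (pow_mem hUm _), ?_⟩
      have : (HahnSeries.C (ι' (u : R')) * U ^ (r - 1))⁻¹ =
          HahnSeries.C (ι' ((u⁻¹ : R'ˣ) : R')) * U⁻¹ ^ (r - 1) := by
        rw [mul_inv, inv_pow]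
        congr 1
        exact inv_eq_of_mul_eq_one_right hCuu
      rw [this]
      exact mul_mem hCu' (pow_mem hUi _)
    rw [map_div₀, map_pow] at h1
    exact (div_eq_one_iff_eq ((Valuation.ne_zero_iff _).2 hϖ0)).1 h1

/-- **P1**: the Eisenstein place exists -/
theorem v2_exists_third' (hr : r.Prime) (hrN : ¬ r ∣ N)
    (hN : (N : IsLocalRing.ResidueField R) ≠ 0) (hπ : Irreducible ((r : ℕ) : R)) :
    ∃ W : ValuationSubring (FK K (N * r * r)),
      V2Third (i12 K N r : FK K (N * r) →+* FK K (N * r * r)) (VF1 R K N r)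
        (algebraMap R (FK K (N * r)) ((r : ℕ) : R)) (vJ2 K N r) (J1 K (N * r)) r W := by
  obtain ⟨R', K', _, _, ι', ρ', lam, g, f, ζ, Z⟩ := v4_exists_zetaSetup (R := R) (K := K) hr hπ
  exact vp_exists_third hr hrN hN hπ Z

end

end Fermat.Agent.CARlib
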