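import Fermat.Agent.CAR.V2Basis

/-!
# T-CAR, block V, row V2: the reduction of `Φ(T, j_r)` (Kronecker, soft form)
-/

set_option autoImplicit false
set_option linter.unusedSectionVars false

open ModularCurve Polynomial

namespace Fermat.Agent.CARlib

open Fermat.Agent.ESlib Fermat.Agent.UNIlib
open Fermat.Agent.S28lib (RedSetup jA jAd)

noncomputable section

variable {κ : Type*} [Field κ] {r : ℕ} [NeZero r] [CharP κ r]

/-- a monic polynomial of degree `r + 1` with coefficients in `κ((q^r))` and root `j` is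
`(T - j)^r (T - j + u)`, `u ≠ 0`. -/
theorem v2_red_shape (hr : r.Prime) (G₀ : (LaurentSeries κ)[X]) (hm : G₀.Monic)
    (hdeg : G₀.natDegree = r + 1) (hroot : (G₀.map (qExpand κ r)).eval (jA κ) = 0) :
    ∃ u : LaurentSeries κ, u ≠ 0 ∧
      taylor (jA κ) (G₀.map (qExpand κ r)) = X ^ r * (X + C u) := by
  have : Fact r.Prime := ⟨hr⟩
  have : CharP (LaurentSeries κ) r :=
    charP_of_injective_ringHom (f := (HahnSeries.C : κ →+* LaurentSeries κ))
      HahnSeries.C_injective r
  set m₀ : (LaurentSeries κ)[X] := X ^ r - C (jA κ) with hm₀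
  have hmon : m₀.Monic := monic_X_pow_sub_C _ hr.ne_zero
  have hmdeg : m₀.natDegree = r := natDegree_X_pow_sub_C
  have hm1 : m₀ ≠ 1 := by
    intro h
    have := congrArg natDegree h
    rw [hmdeg, natDegree_one] at this
    exact hr.ne_zero this
  have hmmap : m₀.map (qExpand κ r) = X ^ r - C (jA κ ^ r) := by
    rw [hm₀, Polynomial.map_sub, Polynomial.map_pow, map_X, map_C, jA_pow_char]
  have hmev : (m₀.map (qExpand κ r)).eval (jA κ) = 0 := by
    rw [hmmap, eval_sub, eval_pow, eval_X, eval_C, sub_self]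
  have hdec := modByMonic_add_div G₀ m₀
  have hrem : G₀ %ₘ m₀ = 0 := by
    apply v2_eq_zero_of_eval_jA hr _ (by rw [← hmdeg]; exact natDegree_modByMonic_lt _ hmon hm1)
    have h1 := congrArg (fun p => (p.map (qExpand κ r)).eval (jA κ)) hdec
    simp only [Polynomial.map_add, Polynomial.map_mul, eval_add, eval_mul, hmev, zero_mul,
      add_zero, hroot] at h1
    exact h1
  rw [hrem, zero_add] at hdec
  set L₀ := G₀ /ₘ m₀ with hL₀
  have hLmon : L₀.Monic := hmon.of_mul_monic_left (by rw [hdec]; exact hm)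
  have hLdeg : L₀.natDegree = 1 := by
    rw [hL₀, natDegree_divByMonic _ hmon, hdeg, hmdeg]; omega
  have hL : L₀ = X + C (L₀.coeff 0) := hLmon.eq_X_add_C hLdeg
  set l := qExpand κ r (L₀.coeff 0) with hl
  have hLmap : L₀.map (qExpand κ r) = X + C l := by
    conv_lhs => rw [hL]
    rw [Polynomial.map_add, map_X, map_C]
  refine ⟨jA κ + l, ?_, ?_⟩
  · intro h0
    have : L₀ = 0 := by
      apply v2_eq_zero_of_eval_jA hr _ (by rw [hLdeg]; exact hr.one_lt)
      rw [hLmap, eval_add, eval_X, eval_C, h0]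
    exact hLmon.ne_zero this
  · rw [← hdec, Polynomial.map_mul, hmmap, hLmap, taylor_mul]
    congr 1
    · rw [taylor_apply, sub_comp, pow_comp, X_comp, C_comp, add_pow_char, ← C_pow,
        add_sub_cancel_right]
    · rw [taylor_apply, add_comp, X_comp, C_comp, add_assoc, ← C_add]

end

end Fermat.Agent.CARlib
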