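import Fermat.Agent.CAR.V2Red
import Fermat.Agent.CAR.V2Shape
import Fermat.Agent.CAR.V2Abs2
import Fermat.Agent.CAR.V1Deg
import Fermat.Agent.CAR.V3Diff
import Fermat.Agent.CAR.VDefs2

/-!
# T-CAR, block V, row V2: the Eisenstein polynomial `Q(Z) = Φ(j + Z, j_r) / Z` of `y = vY`
-/

set_option autoImplicit false
set_option linter.unusedSectionVars false

open ModularCurve Polynomial

namespace Fermat.Agent.CARlib

open Fermat.Agent.ESlib Fermat.Agent.UNIlib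
open Fermat.Agent.S28lib (RedSetup jA jAd ev2)
open Fermat.Agent.S24lib (Dv)

noncomputable section

section gen

theorem v2_comp_aeval {A S : Type*} [CommRing A] [CommRing S] (f : A →+* S) (y : A) :
    f.comp ((aeval y : ℤ[X] →ₐ[ℤ] A) : ℤ[X] →+* A) =
      ((aeval (f y) : ℤ[X] →ₐ[ℤ] S) : ℤ[X] →+* S) := by
  apply Polynomial.ringHom_ext
  · intro n
    simp
  · simp

theorem v2_map_eval_map {A S : Type*} [CommRing A] [CommRing S] (f : A →+* S) (P : ℤ[X][X])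
    (x y : A) :
    f ((P.map ((aeval y : ℤ[X] →ₐ[ℤ] A) : ℤ[X] →+* A)).eval x) =
      P.eval₂ ((aeval (f y) : ℤ[X] →ₐ[ℤ] S) : ℤ[X] →+* S) (f x) := by
  rw [eval_map, hom_eval₂, v2_comp_aeval]

theorem v2_map_evZ {F F' : Type*} [Field F] [Field F'] (f : F →+* F') (P : ℤ[X][X]) (x y : F) :
    f (evZ P x y) = evZ P (f x) (f y) := by
  unfold evZ
  rw [hom_eval₂, v2_comp_aeval]

end gen

variable {R K : Type} [CommRing R] [IsDomain R] [IsDiscreteValuationRing R] [Field K]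
  [Algebra R K] [IsFractionRing R K] [Algebra ℚ K] [CharZero K] [Algebra K ℂ] [IsScalarTower ℚ K ℂ]
  {N r : ℕ} [NeZero N] [NeZero r] [NeZero (N * r)] [NeZero (N * r * r)]

variable (K N r) in
/-- `i12` as a ring homomorphism -/
abbrev i12R : FK K (N * r) →+* FK K (N * r * r) := (i12 K N r).toRingHom

theorem vJ2_eq : vJ2 K N r = jrr K N r := by
  show Jgen K (N * r * r) _ = Jgen K (N * r * r) _
  congr 1
  exact Subtype.ext (show 1 * r * r = r * r by rw [one_mul])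

theorem vJ0_eq : vJ0 K N r = J1 K (N * r * r) := rfl

theorem v2q_i12_J1 : i12 K N r (J1 K (N * r)) = vJ0 K N r := rfl

theorem vY_eq : vY K N r = vJ2 K N r - i12R K N r (J1 K (N * r)) := rfl

theorem v2_vY_ne_zero (hr : r.Prime) (hrN : ¬ r ∣ N) : vY K N r ≠ 0 := by
  intro h
  apply v1_e1_jr_ne (K := K) hr hrN
  rw [e1_jr, e2_jr]
  have h1 := sub_eq_zero.1 h
  rw [vJ2_eq, vJ0_eq] at h1
  exact h1.symm

/-- independence of `1, Y, …, Y^(r-1)` along `i12` -/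
theorem v2_ind_i12 (hr : r.Prime) (hrN : ¬ r ∣ N) (c : (FK K (N * r))[X]) (hdeg : c.natDegree < r)
    (h0 : c.eval₂ (i12R K N r) (vJ2 K N r) = 0) : c = 0 := by
  have h1 : (c.map (wr K hr hrN).toAlgHom.toRingHom).eval₂ (e1R K hr hrN) (jrr K N r) = 0 := by
    rw [eval₂_map, ← vJ2_eq]
    have : (e1R K hr hrN).comp (wr K hr hrN).toAlgHom.toRingHom = i12R K N r :=
      v1_e1R_comp_wr hr hrN
    rw [this, h0]
  have h2 := v1_ind_e1 hr hrN _ (natDegree_map_le.trans_lt hdeg) h1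
  exact Polynomial.map_injective _ (wr K hr hrN).toAlgHom.toRingHom.injective
    (by rw [h2, Polynomial.map_zero])

/-- independence of `1, y, …, y^(r-1)` along `i12` -/
theorem v2_ind_vY (hr : r.Prime) (hrN : ¬ r ∣ N) (c : (FK K (N * r))[X]) (hdeg : c.natDegree < r)
    (h0 : c.eval₂ (i12R K N r) (vY K N r) = 0) : c = 0 := by
  have h1 : (taylor (-J1 K (N * r)) c).eval₂ (i12R K N r) (vJ2 K N r) = 0 := by
    rw [← eval_map, map_taylor, taylor_eval, eval_map, map_neg, ← sub_eq_add_neg, ← vY_eq, h0]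
  have h2 := v2_ind_i12 hr hrN _ (by rw [natDegree_taylor]; exact hdeg) h1
  exact (taylor_eq_zero _ _).1 h2

theorem v2_span_i12 (R : Type) [CommRing R] [IsDomain R] [IsDiscreteValuationRing R]
    [Algebra R K] [IsFractionRing R K] [CharP (IsLocalRing.ResidueField R) r]
    (hr : r.Prime) (hrN : ¬ r ∣ N) (hN : (N : IsLocalRing.ResidueField R) ≠ 0)
    (x : FK K (N * r * r)) :
    ∃ c : (FK K (N * r))[X], c.natDegree < r ∧ c.eval₂ (i12R K N r) (vJ2 K N r) = x := by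
  obtain ⟨c, hc, hx⟩ := v1_span_e1 (K := K) R hr hrN hN x
  refine ⟨c.map (wr K hr hrN).toAlgHom.toRingHom, natDegree_map_le.trans_lt hc, ?_⟩
  rw [eval₂_map, vJ2_eq, ← hx]
  rfl

/-! ### the polynomial -/

variable (R K N r) in
/-- `j_r` in the Gauss ring -/
def jrA : ↥(gaussVal R K (N * r)) := ⟨jr K N r, Jgen_mem_gaussSub _⟩

variable (R K N r) in
/-- `j` in the Gauss ring -/
def j1A : ↥(gaussVal R K (N * r)) := ⟨J1 K (N * r), Jgen_mem_gaussSub _⟩

variable (R K N r) in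
/-- `g(T) = Φ(T, j_r)` -/
def gA (Φ : ℤ[X][X]) : (↥(gaussVal R K (N * r)))[X] :=
  Φ.map ((aeval (jrA R K N r) : ℤ[X] →ₐ[ℤ] ↥(gaussVal R K (N * r))) :
    ℤ[X] →+* ↥(gaussVal R K (N * r)))

variable (R K N r) in
/-- `g(j + Z)` -/
def tA (Φ : ℤ[X][X]) : (↥(gaussVal R K (N * r)))[X] := taylor (j1A R K N r) (gA R K N r Φ)

variable (R K N r) in
/-- `Q(Z) = g(j + Z) / Z` -/
def qA (Φ : ℤ[X][X]) : (↥(gaussVal R K (N * r)))[X] := (tA R K N r Φ).divX

variable {Φ : ℤ[X][X]}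

theorem gA_monic (hΦ : V3Phi r Φ) : (gA R K N r Φ).Monic := hΦ.monic.map _

theorem gA_natDegree (hΦ : V3Phi r Φ) : (gA R K N r Φ).natDegree = r + 1 := by
  rw [gA, hΦ.monic.natDegree_map, hΦ.natDegree]

theorem v2_evZ_J1_jr (hΦ : V3Phi r Φ) : evZ Φ (J1 K (N * r)) (jr K N r) = 0 := by
  apply Subtype.ext
  rw [v3_coe_evZ Φ (X' := jA ℤ) (Y' := jAd ℤ r)
    (by rw [coe_J1_jA, S28lib.coeffMap_jA]) (by rw [coe_Jgen_jAd, S28lib.coeffMap_jAd]), hΦ.ev₂,
    map_zero]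
  rfl

theorem v2_evZ_jr_J1 (hΦ : V3Phi r Φ) : evZ Φ (jr K N r) (J1 K (N * r)) = 0 := by
  apply Subtype.ext
  rw [v3_coe_evZ Φ (X' := jAd ℤ r) (Y' := jA ℤ)
    (by rw [coe_Jgen_jAd, S28lib.coeffMap_jAd]) (by rw [coe_J1_jA, S28lib.coeffMap_jA]), hΦ.ev₁,
    map_zero]
  rfl

theorem coe_eval_gA (P : ℤ[X][X]) :
    (((P.map ((aeval (jrA R K N r) : ℤ[X] →ₐ[ℤ] ↥(gaussVal R K (N * r))) :
      ℤ[X] →+* ↥(gaussVal R K (N * r)))).eval (j1A R K N r) : ↥(gaussVal R K (N * r))) :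
        FK K (N * r)) = evZ P (J1 K (N * r)) (jr K N r) :=
  v2_map_eval_map (gaussVal R K (N * r)).subtype P (j1A R K N r) (jrA R K N r)

theorem gA_eval (hΦ : V3Phi r Φ) : (gA R K N r Φ).eval (j1A R K N r) = 0 := by
  apply Subtype.ext
  rw [gA, coe_eval_gA, v2_evZ_J1_jr hΦ]
  rfl

theorem tA_coeff_zero (hΦ : V3Phi r Φ) : (tA R K N r Φ).coeff 0 = 0 := by
  rw [tA, taylor_coeff_zero, gA_eval hΦ]

theorem tA_eq (hΦ : V3Phi r Φ) : tA R K N r Φ = qA R K N r Φ * X := by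
  have := divX_mul_X_add (tA R K N r Φ)
  rw [tA_coeff_zero hΦ, map_zero, add_zero] at this
  exact this.symm

theorem tA_monic (hΦ : V3Phi r Φ) : (tA R K N r Φ).Monic := by
  rw [tA, Monic, leadingCoeff_taylor]
  exact gA_monic hΦ

theorem tA_natDegree (hΦ : V3Phi r Φ) : (tA R K N r Φ).natDegree = r + 1 := by
  rw [tA, natDegree_taylor, gA_natDegree hΦ]

theorem qA_natDegree (hΦ : V3Phi r Φ) : (qA R K N r Φ).natDegree = r := by
  rw [qA, natDegree_divX_eq_natDegree_tsub_one, tA_natDegree hΦ, Nat.add_sub_cancel]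

theorem qA_monic (hΦ : V3Phi r Φ) : (qA R K N r Φ).Monic := by
  rw [Monic, leadingCoeff, qA_natDegree hΦ, qA, coeff_divX, ← tA_natDegree (R := R) (K := K) (N := N) hΦ]
  exact tA_monic hΦ

/-- `g(Y) = 0` -/
theorem gA_eval₂ (hΦ : V3Phi r Φ) :
    (gA R K N r Φ).eval₂ ((i12R K N r).comp (gaussVal R K (N * r)).subtype) (vJ2 K N r) = 0 := by
  rw [gA, eval₂_map, v2_comp_aeval]
  have h1 := congrArg (e2R K N r) (v2_evZ_jr_J1 (K := K) (N := N) hΦ)
  rw [v2_map_evZ, map_zero] at h1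
  have h2 : e2R K N r (jr K N r) = vJ2 K N r := by
    rw [vJ2_eq]; exact e2_jr (N := N) (r := r) K
  have h3 : e2R K N r (J1 K (N * r)) =
      ((i12R K N r).comp (gaussVal R K (N * r)).subtype) (jrA R K N r) := e2_J1 (N := N) (r := r) K
  rw [h2, h3] at h1
  exact h1

theorem qA_eval₂ (hr : r.Prime) (hrN : ¬ r ∣ N) (hΦ : V3Phi r Φ) :
    (qA R K N r Φ).eval₂ ((i12R K N r).comp (gaussVal R K (N * r)).subtype) (vY K N r) = 0 := by
  set φ := (i12R K N r).comp (gaussVal R K (N * r)).subtype with hφ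
  have h1 : (tA R K N r Φ).eval₂ φ (vY K N r) = 0 := by
    rw [tA, ← eval_map, map_taylor, taylor_eval, eval_map]
    have : vY K N r + φ (j1A R K N r) = vJ2 K N r := by
      show vJ2 K N r - vJ0 K N r + vJ0 K N r = _
      ring
    rw [this, gA_eval₂ hΦ]
  rw [tA_eq hΦ, eval₂_mul, eval₂_X] at h1
  exact (mul_eq_zero.1 h1).resolve_right (v2_vY_ne_zero hr hrN)

end

end Fermat.Agent.CARlib
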