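import Fermat.Agent.CAR.VDefs
import Fermat.Agent.UNI.NormaliseFK

/-!
# T-CAR, block V, row V2: the reduction map of the Gauss valuation ring of `F_K(M)`
-/

set_option autoImplicit false
set_option linter.unusedSectionVars false

open ModularCurve Polynomial

namespace Fermat.Agent.CARlib

open Fermat.Agent.ESlib Fermat.Agent.UNIlib
open Fermat.Agent.S28lib (RedSetup jA jAd)
open Fermat.Agent.S24lib (Dv)

noncomputable section

variable {R K : Type} [CommRing R] [IsDomain R] [IsDiscreteValuationRing R] [Field K]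
  [Algebra R K] [IsFractionRing R K] [Algebra ℚ K] [CharZero K] [Algebra K ℂ] [IsScalarTower ℚ K ℂ]
  {M : ℕ} [NeZero M]

variable (R K M) in
/-- `gaussVal → LamR` -/
def gLam : ↥(gaussVal R K M) →+* LamR (algebraMap R K) (IsLocalRing.residue R) :=
  ((algebraMap (FK K M) (LaurentSeries K)).comp (gaussVal R K M).subtype).codRestrict
    (LamR (algebraMap R K) (IsLocalRing.residue R)) (fun x => x.2)

variable (R K M) in
/-- the reduction `gaussVal → κ((q))` -/
def gRed : ↥(gaussVal R K M) →+* LaurentSeries (IsLocalRing.ResidueField R) :=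
  (redR (IsFractionRing.injective R K)).comp (gLam R K M)

theorem coe_gLam (x : ↥(gaussVal R K M)) :
    ((gLam R K M x : LamR (algebraMap R K) (IsLocalRing.residue R)) : LaurentSeries K) =
      ((x : FK K M) : LaurentSeries K) := rfl

theorem gRed_of_eq_coeffMap (x : ↥(gaussVal R K M)) (d : LaurentSeries R)
    (h : ((x : FK K M) : LaurentSeries K) = coeffMap (algebraMap R K) d) :
    gRed R K M x = coeffMap (IsLocalRing.residue R) d :=
  redR_of_eq_coeffMap (IsFractionRing.injective R K) (gLam R K M x) d h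

theorem gRed_Jgen (d : Dv M) :
    gRed R K M ⟨Jgen K M d, Jgen_mem_gaussSub d⟩ = jAd (IsLocalRing.ResidueField R) d.1 := by
  have : NeZero d.1 := ⟨fun h => NeZero.ne M (by
    have := d.2; rw [h] at this; exact Nat.eq_zero_of_zero_dvd this)⟩
  rw [gRed_of_eq_coeffMap _ (jAd R d.1) (by
    rw [S28lib.coeffMap_jAd]; exact coe_Jgen_jAd K M d), S28lib.coeffMap_jAd]

theorem gRed_J1 :
    gRed R K M ⟨J1 K M, Jgen_mem_gaussSub _⟩ = jA (IsLocalRing.ResidueField R) := by
  rw [gRed_of_eq_coeffMap _ (jA R) (by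
    rw [S28lib.coeffMap_jA]; exact coe_J1_jA K M), S28lib.coeffMap_jA]

/-- nonzero reduction `⇒` unit -/
theorem val_eq_one_of_gRed_ne_zero {x : ↥(gaussVal R K M)} (hx : gRed R K M x ≠ 0) :
    (gaussVal R K M).valuation (x : FK K M) = 1 := by
  have h1 : ((x : FK K M))⁻¹ ∈ gaussVal R K M := by
    have := inv_mem_LamR_of_redR_ne_zero (IsFractionRing.injective R K) (x := gLam R K M x) hx
    rw [mem_gaussVal_iff, mem_gaussSub_iff]
    rw [coe_gLam] at this
    exact this
  refine le_antisymm ((ValuationSubring.valuation_le_one_iff _ _).2 x.2) ?_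
  have h2 := (ValuationSubring.valuation_le_one_iff _ _).2 h1
  rw [map_inv₀] at h2
  by_cases h0 : (gaussVal R K M).valuation (x : FK K M) = 0
  · exfalso
    rw [map_eq_zero] at h0
    apply hx
    have : x = 0 := Subtype.ext h0
    rw [this, map_zero]
  · exact (inv_le_one₀ (zero_lt_iff.2 h0)).1 h2

theorem gRed_eq_zero_of_val_lt {x : ↥(gaussVal R K M)}
    (hx : (gaussVal R K M).valuation (x : FK K M) < 1) : gRed R K M x = 0 := by
  by_contra h
  exact hx.ne (val_eq_one_of_gRed_ne_zero h)

theorem val_lt_of_gRed_eq_zero {x : ↥(gaussVal R K M)} (hx : gRed R K M x = 0) :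
    (gaussVal R K M).valuation (x : FK K M) < 1 := by
  rw [← ValuationSubring.valuation_lt_one_iff, IsLocalRing.mem_maximalIdeal, mem_nonunits_iff]
  intro hu
  have := hu.map (gRed R K M)
  rw [hx] at this
  exact not_isUnit_zero this

variable [Algebra R (FK K M)] [IsScalarTower R K (FK K M)]

theorem div_mem_of_gRed_eq_zero {π : R} (hπ : Irreducible π) {x : ↥(gaussVal R K M)}
    (hx : gRed R K M x = 0) : (x : FK K M) / algebraMap R (FK K M) π ∈ gaussVal R K M := by
  obtain ⟨z, hz⟩ := exists_eq_mul_of_redR_eq_zero (redSetup_of_dvr (K := K) hπ)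
    (x := gLam R K M x) hx
  have h0 : algebraMap R (FK K M) π ≠ 0 := tv_unif_ne_zero M hπ
  have h1 : ((x : FK K M) : LaurentSeries K) =
      ((algebraMap R (FK K M) π : FK K M) : LaurentSeries K) * (z : LaurentSeries K) := by
    have := congrArg Subtype.val hz
    rw [coe_algebraMap_R]
    exact this
  rw [mem_gaussVal_iff, mem_gaussSub_iff]
  have h2 : (((x : FK K M) / algebraMap R (FK K M) π : FK K M) : LaurentSeries K) =
      (z : LaurentSeries K) := by
    have h3 : ((algebraMap R (FK K M) π : FK K M) : LaurentSeries K) ≠ 0 :=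
      fun h => h0 (Subtype.ext h)
    have h4 : (((x : FK K M) / algebraMap R (FK K M) π : FK K M) : LaurentSeries K) =
        ((x : FK K M) : LaurentSeries K) /
          ((algebraMap R (FK K M) π : FK K M) : LaurentSeries K) := rfl
    rw [h4, h1, mul_div_cancel_left₀ _ h3]
  rw [h2]
  exact z.2

/-- `π` is a uniformiser of the Gauss valuation -/
theorem div_mem_of_val_lt {π : R} (hπ : Irreducible π) {c : FK K M}
    (hc : (gaussVal R K M).valuation c < 1) : c / algebraMap R (FK K M) π ∈ gaussVal R K M :=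
  div_mem_of_gRed_eq_zero hπ (x := ⟨c, (ValuationSubring.valuation_le_one_iff _ _).1 hc.le⟩)
    (gRed_eq_zero_of_val_lt hc)

theorem gRed_unif {π : R} (hπ : Irreducible π) :
    gRed R K M ⟨algebraMap R (FK K M) π, tv_unif_mem M π⟩ = 0 := by
  rw [gRed_of_eq_coeffMap _ (HahnSeries.C π) (by rw [coe_algebraMap_R, coeffMap_C']), coeffMap_C',
    (redSetup_of_dvr (K := K) hπ).red_unif, map_zero]

theorem val_unif_lt {π : R} (hπ : Irreducible π) :
    (gaussVal R K M).valuation (algebraMap R (FK K M) π) < 1 :=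
  val_lt_of_gRed_eq_zero (x := ⟨algebraMap R (FK K M) π, tv_unif_mem M π⟩) (gRed_unif hπ)

end

end Fermat.Agent.CARlib
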