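import Fermat.Agent.UNI.PhiShape

/-!
# T-CAR, row V3 (DIFF), `q`-expansion level over `ℤ`

`Φ ∈ ℤ[Y][X]` the modular polynomial of prime level `p` (any polynomial with the properties
`V3Phi`, e.g. the one of `UNIlib.exists_PhiZ`).  Then

* `Φ_X(j(q^p), j(q))` has leading coefficient `1` (at `q^(-p^2)`);
* `Φ_X(j(q), j(q^p)) = p * U(q)`, `U ∈ ℤ((q))` with leading coefficient `-1`
  (at `q^(-(p^2+p-1))`).
-/

set_option autoImplicit false
set_option linter.unusedSectionVars false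

open ModularCurve Polynomial
open Fermat.Agent.S28lib

namespace Fermat.Agent.CARlib

open Fermat.Agent.UNIlib

noncomputable section

section top

variable {K : Type*} [Field K]

/-- `f = l q^(-a) + higher terms` -/
def V3Top (a : ℤ) (l : K) (f : LaurentSeries K) : Prop := Wle a f ∧ f.coeff (-a) = l

theorem V3Top.mul {a b : ℤ} {l m : K} {f g : LaurentSeries K} (hf : V3Top a l f)
    (hg : V3Top b m g) : V3Top (a + b) (l * m) (f * g) := by
  refine ⟨hf.1.mul hg.1, ?_⟩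
  rw [HahnSeries.coeff_mul, ← hf.2, ← hg.2]
  refine Finset.sum_eq_single (-a, -b) ?_ ?_
  · intro ij hij hne
    obtain ⟨h1, h2, h3⟩ := Finset.mem_antidiagonal.1 hij
    by_cases hi : ij.1 < -a
    · rw [hf.1 _ hi, zero_mul]
    · by_cases hj : ij.2 < -b
      · rw [hg.1 _ hj, mul_zero]
      · exact absurd (Prod.ext (by show ij.1 = -a; omega) (by show ij.2 = -b; omega)) hne
  · intro hn
    by_contra h0
    apply hn
    rw [Finset.mem_antidiagonal]
    refine ⟨?_, ?_, by show -a + -b = _; ring⟩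
    · exact fun h => h0 (by show f.coeff (-a) * _ = 0; rw [h, zero_mul])
    · exact fun h => h0 (by show _ * g.coeff (-b) = 0; rw [h, mul_zero])

theorem V3Top.one : V3Top 0 (1 : K) (1 : LaurentSeries K) :=
  ⟨Wle.one, by rw [neg_zero, HahnSeries.coeff_one, if_pos rfl]⟩

theorem V3Top.prod {ι : Type*} (T : Finset ι) (a : ι → ℤ) (l : ι → K) (f : ι → LaurentSeries K)
    (h : ∀ c ∈ T, V3Top (a c) (l c) (f c)) :
    V3Top (∑ c ∈ T, a c) (∏ c ∈ T, l c) (∏ c ∈ T, f c) := by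
  classical
  induction T using Finset.induction_on with
  | empty => simpa using V3Top.one
  | insert c T hc ih =>
    rw [Finset.sum_insert hc, Finset.prod_insert hc, Finset.prod_insert hc]
    exact (h c (Finset.mem_insert_self _ _)).mul (ih fun d hd => h d (Finset.mem_insert_of_mem hd))

end top

theorem v3_eval_derivative_mul {L : Type*} [CommRing L] (x : L) (H : L[X]) :
    (derivative ((X - C x) * H)).eval x = H.eval x := by
  simp [derivative_mul]

section product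

variable {K : Type*} [Field K] {p : ℕ} [NeZero p]

/-- the factorisation of `Ψ(X, j(q^p))` in `K((q))[X]` for any `Ψ` with the characteristic
properties of the modular polynomial -/
theorem v3_specialize_eq [IsAlgClosed K] [NeZero (p * p)] (hp : p.Prime) (hpK : (p : K) ≠ 0)
    (Ψ : K[X][X]) (hm : Ψ.Monic) (hd : Ψ.natDegree = p + 1)
    (h1 : ev2 Ψ (jAd K p) (jA K) = 0) (h2 : ev2 Ψ (jA K) (jAd K p) = 0) :
    ∃ T : Finset Kˣ, T.card = p ∧ (∀ c, c ∈ T ↔ c ^ p = 1) ∧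
      specialize Ψ (J 1 p) = (X - C (J 1 (p * p))) * ∏ c ∈ T, (X - C (J c 1)) := by
  classical
  obtain ⟨T, hTcard, hT⟩ := exists_finset_pthRoots (p := p) hpK (1 : Kˣ)
  refine ⟨T, hTcard, hT, ?_⟩
  set F := specialize Ψ (J 1 p) with hFdef
  have hmonic : F.Monic := hm.map _
  have hdeg : F.natDegree = p + 1 := by
    rw [hFdef, specialize, hm.natDegree_map, hd]
  have hnot : J (1 : Kˣ) (p * p) ∉ T.image fun c' => J c' 1 := by
    rw [Finset.mem_image]
    rintro ⟨c', _, hc'⟩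
    have h2 := (J_injective hc').2
    have hp2 := hp.two_le
    nlinarith
  have hinj : Function.Injective (fun c' : Kˣ => J c' 1) := fun a b hab => (J_injective hab).1
  set S : Finset (LaurentSeries K) := insert (J 1 (p * p)) (T.image fun c' => J c' 1) with hSdef
  have hSroot : ∀ a ∈ S, F.eval a = 0 := by
    intro a ha
    rw [hSdef, Finset.mem_insert, Finset.mem_image] at ha
    rcases ha with rfl | ⟨c', hc', rfl⟩
    · rw [hFdef, eval_specialize]
      have h := congrArg (sub (1 : Kˣ) p) h1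
      rw [sub_ev2, map_zero, ← J_one, sub_J, one_mul, one_pow] at h
      exact h
    · rw [hFdef, eval_specialize]
      have : NeZero (1 * p) := ⟨by rw [one_mul]; exact NeZero.ne p⟩
      have h := congrArg (sub c' 1) h2
      rw [sub_ev2, map_zero, ← J_one, sub_J, one_mul] at h
      rwa [J_congr ((hT c').1 hc') (one_mul p)] at h
  have hScard : F.natDegree ≤ S.card := by
    rw [hdeg, hSdef, Finset.card_insert_of_notMem hnot, Finset.card_image_of_injective _ hinj,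
      hTcard]
  have hprod := eq_prod_of_monic_of_roots F hmonic S hSroot hScard
  rw [hprod, hSdef, Finset.prod_insert hnot, Finset.prod_image (fun a _ b _ hab => hinj hab)]

theorem v3_specialize_derivative (Ψ : K[X][X]) (y : LaurentSeries K) :
    specialize (derivative Ψ) y = derivative (specialize Ψ y) := by
  rw [specialize, specialize, derivative_map]

theorem v3_top_J_one (e : ℕ) [NeZero e] : V3Top (e : ℤ) (1 : K) (J (1 : Kˣ) e) := by
  refine ⟨Wle_J 1 e, ?_⟩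
  have h2 := coeff_sub_mul (1 : Kˣ) e (jA K) (-1)
  rw [coeff_jqModC_neg_one] at h2
  rw [J, show -(e : ℤ) = (e : ℤ) * (-1) by ring, h2]
  simp

/-- **Frobenius side** over an algebraically closed field -/
theorem v3_diffF_field [IsAlgClosed K] (hp : p.Prime) (hpK : (p : K) ≠ 0)
    (Ψ : K[X][X]) (hm : Ψ.Monic) (hd : Ψ.natDegree = p + 1)
    (h1 : ev2 Ψ (jAd K p) (jA K) = 0) (h2 : ev2 Ψ (jA K) (jAd K p) = 0) :
    (ev2 (derivative Ψ) (jAd K p) (jA K)).coeff (-((p : ℤ) * p)) = 1 := by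
  classical
  have : NeZero (p * p) := ⟨mul_ne_zero (NeZero.ne p) (NeZero.ne p)⟩
  obtain ⟨T, hTcard, hT, hprod⟩ := v3_specialize_eq hp hpK Ψ hm hd h1 h2
  have hp2 : (2 : ℤ) ≤ p := by exact_mod_cast hp.two_le
  have e1 : sub (1 : Kˣ) p (ev2 (derivative Ψ) (jAd K p) (jA K)) =
      ∏ c ∈ T, (J 1 (p * p) - J c 1) := by
    rw [sub_ev2, ← J_one, sub_J, one_mul, one_pow]
    show ev2 (derivative Ψ) (J 1 (p * p)) (J 1 p) = _
    rw [← eval_specialize, v3_specialize_derivative, hprod, v3_eval_derivative_mul, eval_prod]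
    simp
  have e2 : V3Top (∑ c ∈ T, ((p * p : ℕ) : ℤ)) (∏ c ∈ T, (1 : K))
      (∏ c ∈ T, (J 1 (p * p) - J c 1)) := by
    refine V3Top.prod T _ _ _ fun c _ => ⟨(Wle_J 1 (p * p)).sub ((Wle_J c 1).mono ?_), ?_⟩
    · push_cast; nlinarith
    · rw [HahnSeries.coeff_sub, (v3_top_J_one (K := K) (p * p)).2, Wle_J c 1, sub_zero]
      push_cast; nlinarith
  have e3 := coeff_sub_mul (1 : Kˣ) p (ev2 (derivative Ψ) (jAd K p) (jA K)) (-((p : ℤ) * p))
  rw [e1] at e3
  have e4 := e2.2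
  rw [Finset.sum_const, Finset.prod_const_one, hTcard] at e4
  rw [show (p : ℤ) * -((p : ℤ) * p) = -(p • ((p * p : ℕ) : ℤ)) by push_cast; simp, e4] at e3
  simpa using e3.symm

/-- `∏_{c ≠ 1, c^p = 1} (X - c) = 1 + X + ... + X^(p-1)` -/
theorem v3_prod_erase [DecidableEq Kˣ] (T : Finset Kˣ) (hTcard : T.card = p) (hT : ∀ c, c ∈ T ↔ c ^ p = 1) :
    ∏ c ∈ T.erase 1, (X - C (c : K)) = ∑ i ∈ Finset.range p, (X : K[X]) ^ i := by
  have : DecidableEq K := Classical.decEq K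
  have h1 : (X : K[X]) ^ p - C 1 = ∏ c ∈ T, (X - C (c : K)) := by
    have := eq_prod_of_monic_of_roots ((X : K[X]) ^ p - C 1) (monic_X_pow_sub_C 1 (NeZero.ne p))
      (T.image Units.val) (fun a ha => by
        obtain ⟨c, hc, rfl⟩ := Finset.mem_image.1 ha
        have := (hT c).1 hc
        simp [← Units.val_pow_eq_pow_val, this])
      (by rw [natDegree_X_pow_sub_C, Finset.card_image_of_injective _ Units.val_injective, hTcard])
    rw [this, Finset.prod_image (fun a _ b _ hab => Units.val_injective hab)]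
  have h1T : (1 : Kˣ) ∈ T := (hT 1).2 (one_pow p)
  rw [← Finset.mul_prod_erase T _ h1T, Units.val_one, C_1, ← mul_geom_sum] at h1
  exact (mul_left_cancel₀ (X_sub_C_ne_zero (1 : K)) (by rw [C_1]; exact h1)).symm

theorem v3_one_sub_zpow (O : Subring K) (hO : ∀ c : K, c ^ p = 1 → c ∈ O) (c : Kˣ)
    (hc : c ^ p = 1) (n : ℤ) : ∃ w ∈ O, 1 - ((c ^ n : Kˣ) : K) = (1 - (c : K)) * w := by
  have hcO : (c : K) ∈ O := hO _ (by rw [← Units.val_pow_eq_pow_val, hc, Units.val_one])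
  have hcO' : ((c⁻¹ : Kˣ) : K) ∈ O :=
    hO _ (by rw [← Units.val_pow_eq_pow_val, inv_pow, hc, inv_one, Units.val_one])
  obtain ⟨k, rfl | rfl⟩ := n.eq_nat_or_neg
  · refine ⟨∑ i ∈ Finset.range k, (c : K) ^ i, sum_mem fun i _ => pow_mem hcO i, ?_⟩
    rw [mul_neg_geom_sum, zpow_natCast, Units.val_pow_eq_pow_val]
  · refine ⟨-((c⁻¹ : Kˣ) : K) * ∑ i ∈ Finset.range k, ((c⁻¹ : Kˣ) : K) ^ i,
      mul_mem (neg_mem hcO') (sum_mem fun i _ => pow_mem hcO' i), ?_⟩
    have h1 : (1 - (c : K)) * -((c⁻¹ : Kˣ) : K) = 1 - ((c⁻¹ : Kˣ) : K) := by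
      have : (c : K) * ((c⁻¹ : Kˣ) : K) = 1 := Units.mul_inv c
      linear_combination this
    rw [← mul_assoc, h1, mul_neg_geom_sum, zpow_neg, zpow_natCast, ← inv_pow,
      Units.val_pow_eq_pow_val]

theorem v3_coeff_J_one (c : Kˣ) (n : ℤ) : (J c 1).coeff n = ((c ^ n : Kˣ) : K) * (jA K).coeff n := by
  have h := coeff_sub_mul c 1 (jA K) n
  rw [Nat.cast_one, one_mul] at h
  exact h

/-- `u_c = (j(q) - j(c q)) / (1 - c)` -/
def v3u (c : Kˣ) : LaurentSeries K := HahnSeries.C ((1 - (c : K))⁻¹) * (jA K - J c 1)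

theorem v3_coeff_u (c : Kˣ) (n : ℤ) :
    (v3u c).coeff n = (1 - (c : K))⁻¹ * ((1 - ((c ^ n : Kˣ) : K)) * (jA K).coeff n) := by
  rw [v3u, HahnSeries.C_mul_eq_smul, HahnSeries.coeff_smul, HahnSeries.coeff_sub, v3_coeff_J_one,
    smul_eq_mul]
  ring

theorem v3_u_mem (O : Subring K) (hO : ∀ c : K, c ^ p = 1 → c ∈ O) (c : Kˣ)
    (hc : c ^ p = 1) (hc1 : c ≠ 1) : v3u c ∈ coeffRing O := by
  rw [mem_coeffRing_iff]
  intro n
  have h0 : 1 - (c : K) ≠ 0 := fun h => hc1 (Units.ext (by rw [Units.val_one]; exact (sub_eq_zero.1 h).symm))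
  obtain ⟨w, hw, h⟩ := v3_one_sub_zpow O hO c hc n
  rw [v3_coeff_u, h, ← mul_assoc, ← mul_assoc, inv_mul_cancel₀ h0, one_mul]
  exact mul_mem hw (mem_coeffRing_iff.1 (jA_mem_coeffRing O) n)

theorem v3_u_top (c : Kˣ) (hc1 : c ≠ 1) : V3Top 1 (-((c⁻¹ : Kˣ) : K)) (v3u c) := by
  have h0 : 1 - (c : K) ≠ 0 := fun h => hc1 (Units.ext (by rw [Units.val_one]; exact (sub_eq_zero.1 h).symm))
  constructor
  · intro m hm
    rw [v3_coeff_u, coeff_jqModC_of_lt K hm, mul_zero, mul_zero]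
  · rw [v3_coeff_u, coeff_jqModC_neg_one, mul_one, zpow_neg_one]
    have : (c : K) * ((c⁻¹ : Kˣ) : K) = 1 := Units.mul_inv c
    field_simp
    linear_combination (-1 : K) * this

theorem v3_mul_u (c : Kˣ) (hc1 : c ≠ 1) :
    jA K - J c 1 = HahnSeries.C (1 - (c : K)) * v3u c := by
  have h0 : 1 - (c : K) ≠ 0 := fun h => hc1 (Units.ext (by rw [Units.val_one]; exact (sub_eq_zero.1 h).symm))
  rw [v3u, ← mul_assoc, ← map_mul, mul_inv_cancel₀ h0, map_one, one_mul]

/-- **Verschiebung side** over an algebraically closed field -/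
theorem v3_diffV_field [IsAlgClosed K] (hp : p.Prime) (hpK : (p : K) ≠ 0)
    (Ψ : K[X][X]) (hm : Ψ.Monic) (hd : Ψ.natDegree = p + 1)
    (h1 : ev2 Ψ (jAd K p) (jA K) = 0) (h2 : ev2 Ψ (jA K) (jAd K p) = 0)
    (O : Subring K) (hO : ∀ c : K, c ^ p = 1 → c ∈ O) :
    ∃ U ∈ coeffRing O, ev2 (derivative Ψ) (jA K) (jAd K p) = HahnSeries.C (p : K) * U ∧
      U.coeff (-((p : ℤ) * p + p - 1)) = -1 := by
  classical
  have : NeZero (p * p) := ⟨mul_ne_zero (NeZero.ne p) (NeZero.ne p)⟩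
  obtain ⟨T, hTcard, hT, hprod⟩ := v3_specialize_eq hp hpK Ψ hm hd h1 h2
  have hp2 : (2 : ℤ) ≤ p := by exact_mod_cast hp.two_le
  have h1T : (1 : Kˣ) ∈ T := (hT 1).2 (one_pow p)
  have hJ11 : J (1 : Kˣ) 1 = jA K := by rw [J_one]; exact qExpand_one_apply _
  have hgeom := v3_prod_erase T hTcard hT
  have hne : ∀ c ∈ T.erase 1, c ≠ 1 := fun c hc => Finset.ne_of_mem_erase hc
  refine ⟨(jA K - J 1 (p * p)) * ∏ c ∈ T.erase 1, v3u c, ?_, ?_, ?_⟩
  · refine mul_mem (sub_mem (jA_mem_coeffRing O) ?_) (Subring.prod_mem _ fun c hc => ?_)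
    · rw [J_one]; exact jAd_mem_coeffRing O _
    · exact v3_u_mem O hO c ((hT c).1 (Finset.mem_of_mem_erase hc)) (hne c hc)
  · have e1 : specialize Ψ (J 1 p) = (X - C (jA K)) *
        ((X - C (J 1 (p * p))) * ∏ c ∈ T.erase 1, (X - C (J c 1))) := by
      rw [hprod, ← Finset.mul_prod_erase T _ h1T, hJ11]
      ring
    rw [← J_one, ← eval_specialize, v3_specialize_derivative, e1, v3_eval_derivative_mul,
      eval_mul, eval_prod]
    simp only [eval_sub, eval_X, eval_C]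
    rw [Finset.prod_congr rfl fun c hc => v3_mul_u c (hne c hc), Finset.prod_mul_distrib,
      ← map_prod]
    have e2 : ∏ c ∈ T.erase 1, (1 - (c : K)) = p := by
      have := congrArg (eval 1) hgeom
      rw [eval_prod, eval_finsetSum] at this
      simpa using this
    rw [e2]
    ring
  · have t1 : V3Top ((p * p : ℕ) : ℤ) (-1 : K) (jA K - J 1 (p * p)) := by
      refine ⟨?_, ?_⟩
      · rw [← hJ11]
        refine ((Wle_J 1 1).mono ?_).sub (Wle_J 1 (p * p))
        push_cast; nlinarith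
      · rw [HahnSeries.coeff_sub, (v3_top_J_one (K := K) (p * p)).2, coeff_jqModC_of_lt, zero_sub]
        push_cast; nlinarith
    have t2 := V3Top.prod (T.erase 1) (fun _ => (1 : ℤ)) (fun c => -((c⁻¹ : Kˣ) : K)) v3u
      fun c hc => v3_u_top c (hne c hc)
    have t3 := (t1.mul t2).2
    have e3 : ∏ c ∈ T.erase 1, (-((c⁻¹ : Kˣ) : K)) = 1 := by
      have := congrArg (eval 0) hgeom
      rw [eval_prod, eval_finsetSum] at this
      simp only [eval_sub, eval_X, eval_C, zero_sub, eval_pow] at this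
      have h3 : ∑ i ∈ Finset.range p, (0 : K) ^ i = 1 := by
        rw [Finset.sum_eq_single 0 (fun i _ hi => zero_pow hi)
          (fun h => absurd (Finset.mem_range.2 hp.pos) h), pow_zero]
      rw [h3] at this
      have h4 : (∏ c ∈ T.erase 1, (-((c⁻¹ : Kˣ) : K))) * ∏ c ∈ T.erase 1, (-(c : K)) = 1 := by
        rw [← Finset.prod_mul_distrib]
        exact Finset.prod_eq_one fun c _ => by
          rw [neg_mul_neg, Units.inv_mul]
      rwa [this, mul_one] at h4
    rw [e3, mul_one, Finset.sum_const, Finset.card_erase_of_mem h1T, hTcard] at t3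
    rw [← t3]
    congr 2
    have : ((p - 1 : ℕ) : ℤ) = (p : ℤ) - 1 := by
      rw [Nat.cast_sub hp.one_le]; simp
    rw [nsmul_eq_mul, mul_one, this]
    push_cast
    ring

end product

/-- the characteristic properties of the modular polynomial `Φ_p ∈ ℤ[Y][X]` -/
structure V3Phi (p : ℕ) [NeZero p] (Φ : ℤ[X][X]) : Prop where
  monic : Φ.Monic
  natDegree : Φ.natDegree = p + 1
  ev₁ : ev2 Φ (jAd ℤ p) (jA ℤ) = 0
  ev₂ : ev2 Φ (jA ℤ) (jAd ℤ p) = 0

theorem v3_exists_Phi {p : ℕ} [NeZero p] (hp : p.Prime) :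
    ∃ Φ : ℤ[X][X], V3Phi p Φ ∧ (∀ i, 1 ≤ i → (Φ.coeff i).natDegree ≤ p) ∧
      (Φ.coeff p).coeff p = -1 ∧ (Φ.coeff 0).natDegree ≤ p + 1 := by
  obtain ⟨Φ, h1, h2, h3, h4, h5, h6, h7⟩ := exists_PhiZ hp
  exact ⟨Φ, ⟨h1, h2, h3, h4⟩, h5, h6, h7⟩

section int

variable {p : ℕ} [NeZero p] {Φ : ℤ[X][X]}

/-- **DIFF, Frobenius side**: `Φ_X(j(q^p), j(q)) = q^(-p^2) + …` -/
theorem v3_diffF_Z (hp : p.Prime) (hΦ : V3Phi p Φ) :
    (ev2 (derivative Φ) (jAd ℤ p) (jA ℤ)).coeff (-((p : ℤ) * p)) = 1 := by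
  set K := AlgebraicClosure ℚ
  set f := Int.castRingHom K with hf
  have hinj : Function.Injective f := Int.cast_injective
  have hpK : (p : K) ≠ 0 := Nat.cast_ne_zero.2 hp.ne_zero
  set Ψ := Φ.map (mapRingHom f) with hΨ
  have hm : Ψ.Monic := hΦ.monic.map _
  have hd : Ψ.natDegree = p + 1 := by rw [hΨ, hΦ.monic.natDegree_map, hΦ.natDegree]
  have h1 : ev2 Ψ (jAd K p) (jA K) = 0 := by
    rw [← coeffMap_jAd f, ← coeffMap_jA f, hΨ, ← coeffMap_ev2, hΦ.ev₁, map_zero]
  have h2 : ev2 Ψ (jA K) (jAd K p) = 0 := by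
    rw [← coeffMap_jAd f, ← coeffMap_jA f, hΨ, ← coeffMap_ev2, hΦ.ev₂, map_zero]
  have h := v3_diffF_field hp hpK Ψ hm hd h1 h2
  rw [hΨ, derivative_map, ← coeffMap_jAd f, ← coeffMap_jA f, ← coeffMap_ev2, coeffMap_coeff] at h
  exact hinj (by rw [h, map_one])

/-- **DIFF, Verschiebung side**: `Φ_X(j(q), j(q^p)) = p * (- q^(-(p^2+p-1)) + …)` -/
theorem v3_diffV_Z (hp : p.Prime) (hΦ : V3Phi p Φ) :
    ∃ U : LaurentSeries ℤ, ev2 (derivative Φ) (jA ℤ) (jAd ℤ p) = HahnSeries.C (p : ℤ) * U ∧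
      U.coeff (-((p : ℤ) * p + p - 1)) = -1 := by
  set K := AlgebraicClosure ℚ
  set f := Int.castRingHom K with hf
  have hinj : Function.Injective f := Int.cast_injective
  have hpK : (p : K) ≠ 0 := Nat.cast_ne_zero.2 hp.ne_zero
  have hpZ : (p : ℤ) ≠ 0 := Nat.cast_ne_zero.2 hp.ne_zero
  set Ψ := Φ.map (mapRingHom f) with hΨ
  have hm : Ψ.Monic := hΦ.monic.map _
  have hd : Ψ.natDegree = p + 1 := by rw [hΨ, hΦ.monic.natDegree_map, hΦ.natDegree]
  have h1 : ev2 Ψ (jAd K p) (jA K) = 0 := by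
    rw [← coeffMap_jAd f, ← coeffMap_jA f, hΨ, ← coeffMap_ev2, hΦ.ev₁, map_zero]
  have h2 : ev2 Ψ (jA K) (jAd K p) = 0 := by
    rw [← coeffMap_jAd f, ← coeffMap_jA f, hΨ, ← coeffMap_ev2, hΦ.ev₂, map_zero]
  obtain ⟨U, hU, hev, hc⟩ := v3_diffV_field hp hpK Ψ hm hd h1 h2 (integralClosure ℤ K).toSubring
    (fun c hc => IsIntegral.of_pow hp.pos (by rw [hc]; exact isIntegral_one))
  rw [hΨ, derivative_map, ← coeffMap_jAd f, ← coeffMap_jA f, ← coeffMap_ev2] at hev
  set Z := ev2 (derivative Φ) (jA ℤ) (jAd ℤ p) with hZ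
  have hco : ∀ n, ((Z.coeff n : ℤ) : K) = (p : K) * U.coeff n := fun n => by
    have := congrArg (fun x => HahnSeries.coeff x n) hev
    simp only [coeffMap_coeff, HahnSeries.C_mul_eq_smul, HahnSeries.coeff_smul, smul_eq_mul] at this
    exact this
  have hinjK : Function.Injective (algebraMap ℚ K) := (algebraMap ℚ K).injective
  have hdvd : ∀ n, (p : ℤ) ∣ Z.coeff n := by
    intro n
    have hi : IsIntegral ℤ (U.coeff n) := mem_coeffRing_iff.1 hU n
    have hq : U.coeff n = algebraMap ℚ K ((Z.coeff n : ℚ) / p) := by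
      rw [map_div₀, map_intCast, map_natCast, hco, mul_div_cancel_left₀ _ hpK]
    rw [hq] at hi
    obtain ⟨z, hz⟩ := IsIntegrallyClosed.isIntegral_iff.1 ((isIntegral_algebraMap_iff hinjK).1 hi)
    refine ⟨z, ?_⟩
    have hpQ : (p : ℚ) ≠ 0 := Nat.cast_ne_zero.2 hp.ne_zero
    have hz' : (z : ℚ) = (Z.coeff n : ℚ) / p := by simpa using hz
    rw [eq_div_iff hpQ] at hz'
    have : ((Z.coeff n : ℤ) : ℚ) = (((p : ℤ) * z : ℤ) : ℚ) := by
      push_cast; rw [← hz']; ring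
    exact_mod_cast this
  refine ⟨{ coeff := fun n => Z.coeff n / p
            isPWO_support' := Z.isPWO_support.mono fun n hn => by
              intro h0
              apply hn
              show Z.coeff n / p = 0
              rw [h0, Int.zero_ediv] }, ?_, ?_⟩
  · ext n
    rw [HahnSeries.C_mul_eq_smul, HahnSeries.coeff_smul, smul_eq_mul]
    exact (Int.mul_ediv_cancel' (hdvd n)).symm
  · show Z.coeff _ / (p : ℤ) = -1
    have h3 := hco (-((p : ℤ) * p + p - 1))
    rw [hc] at h3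
    have h4 : Z.coeff (-((p : ℤ) * p + p - 1)) = -(p : ℤ) := by
      apply hinj
      rw [hf]
      simp only [eq_intCast]
      rw [h3]
      push_cast
      ring
    rw [h4, Int.neg_ediv_of_dvd (dvd_refl _), Int.ediv_self hpZ]

end int

end

end Fermat.Agent.CARlib
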