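import Fermat.Agent.CAR.V2Res
import Fermat.Agent.CAR.V3Approx
import Fermat.Agent.CAR.B6e

/-!
# T-CAR, block V: weak approximation for the three vertical valuation rings `W_VF`, `W_FV`, `W`
(instantiation of `V3Approx` from `VCore`)
-/

set_option autoImplicit false
set_option linter.unusedSectionVars false
set_option linter.unusedVariables false

open ModularCurve Polynomial

namespace Fermat.Agent.CARlib

open Fermat.Agent.ESlib Fermat.Agent.UNIlib
open Fermat.Agent.S28lib (jA jAd)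
open Fermat.Agent.S24lib (Dv)

noncomputable section

/-! ### abstract lemmas -/

section abs

variable {F : Type*} [Field F]

/-- a valuation ring with a uniformiser `ϖ` whose powers absorb every denominator is archimedean -/
theorem v3_arch_of_unif (W : ValuationSubring F) {ϖ : F} (h0 : ϖ ≠ 0)
    (hunif : ∀ z ∈ W, z⁻¹ ∈ W ∨ z / ϖ ∈ W) (harch : ∀ y : F, ∃ k : ℕ, ϖ ^ k * y ∈ W) :
    V3Arch W := by
  intro x hx hx' y hy
  have h1 : x / ϖ ∈ W := (hunif x hx).resolve_left hx'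
  obtain ⟨k, hk⟩ := harch y⁻¹
  refine ⟨k, ?_⟩
  have : x ^ k / y = (x / ϖ) ^ k * (ϖ ^ k * y⁻¹) := by
    rw [div_pow]
    field_simp
  rw [this]
  exact mul_mem (pow_mem h1 k) hk

theorem v3_arch_comap {F' : Type*} [Field F'] (σ : F →+* F') {W : ValuationSubring F'}
    (h : V3Arch W) : V3Arch (W.comap σ) := by
  intro x hx hx' y hy
  obtain ⟨n, hn⟩ := h (σ x) hx (by rw [← map_inv₀]; exact hx') (σ y)
    ((map_ne_zero σ).2 hy)
  exact ⟨n, by
    show σ (x ^ n / y) ∈ W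
    rw [map_div₀, map_pow]; exact hn⟩

end abs

/-! ### Gauss units -/

section red

variable {κ : Type*} [Field κ]

theorem v3i_sub_pow_ne_zero (d e : ℕ) [NeZero d] [NeZero e] (n : ℕ) (h : d ≠ e * n) :
    jAd κ d - (jAd κ e) ^ n ≠ 0 := by
  intro h0
  have h1 : jAd κ d = (jAd κ e) ^ n := sub_eq_zero.1 h0
  have h2 := congrArg HahnSeries.order h1
  rw [HahnSeries.order_pow, order_jAd, order_jAd, nsmul_eq_mul] at h2
  apply h
  have : (d : ℤ) = (e : ℤ) * n := by linarith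
  exact_mod_cast this

end red

section gauss

variable {R K : Type} [CommRing R] [IsDomain R] [IsDiscreteValuationRing R] [Field K]
  [Algebra R K] [IsFractionRing R K] [Algebra ℚ K] [CharZero K] {M : ℕ} [NeZero M]

theorem v3i_inv_mem (d e : Dv M) (n : ℕ) (h : d.1 ≠ e.1 * n) :
    (Jgen K M d - Jgen K M e ^ n)⁻¹ ∈ gaussSub R K M := by
  refine inv_mem_gaussSub_of_eq_coeffMap (jAd R d.1 - jAd R e.1 ^ n) ?_ ?_
  · rw [map_sub, map_pow, S28lib.coeffMap_jAd, S28lib.coeffMap_jAd, ← coe_Jgen_jAd K M d,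
      ← coe_Jgen_jAd K M e]
    rfl
  · rw [map_sub, map_pow, S28lib.coeffMap_jAd, S28lib.coeffMap_jAd]
    exact v3i_sub_pow_ne_zero _ _ n h

theorem v3i_ne_zero (d e : Dv M) (n : ℕ) (h : d.1 ≠ e.1 * n) :
    Jgen K M d - Jgen K M e ^ n ≠ 0 := by
  intro h0
  have h1 := congrArg (fun x : FK K M => (x : LaurentSeries K)) h0
  have h2 : ((Jgen K M d - Jgen K M e ^ n : FK K M) : LaurentSeries K) =
      jAd K d.1 - jAd K e.1 ^ n := by
    rw [← coe_Jgen_jAd K M d, ← coe_Jgen_jAd K M e]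
    rfl
  simp only [h2] at h1
  exact v3i_sub_pow_ne_zero _ _ n h h1

theorem v3i_mem (d e : Dv M) (n : ℕ) : Jgen K M d - Jgen K M e ^ n ∈ gaussSub R K M :=
  sub_mem (Jgen_mem_gaussSub d) (pow_mem (Jgen_mem_gaussSub e) n)

variable [Algebra R (FK K M)] [IsScalarTower R K (FK K M)]

theorem v3i_arch_gauss {π : R} (hπ : Irreducible π) : V3Arch (gaussVal R K M) :=
  v3_arch_of_unif _ (algebraMap_unif_ne_zero hπ) (b6e_unif hπ) (exists_pow_mul_mem_gaussSub hπ)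

/-- a Gauss unit divided by `π` is not Gauss-integral -/
theorem v3i_div_notMem {π : R} (hπ : Irreducible π) {u : FK K M} (hu : u⁻¹ ∈ gaussSub R K M)
    (hu0 : u ≠ 0) : u / algebraMap R (FK K M) π ∉ gaussSub R K M := by
  intro h
  apply inv_unif_notMem_gaussSub (K := K) (M := M) hπ
  have : (algebraMap R (FK K M) π)⁻¹ = u⁻¹ * (u / algebraMap R (FK K M) π) := by
    field_simp
  rw [this]
  exact mul_mem hu h

end gauss

/-! ### the three valuation rings -/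

section main

variable {R K : Type} [CommRing R] [IsDomain R] [IsDiscreteValuationRing R] [Field K]
  [Algebra R K] [IsFractionRing R K] [Algebra ℚ K] [CharZero K] [Algebra K ℂ] [IsScalarTower ℚ K ℂ]
  {N r : ℕ} [NeZero N] [NeZero r] [NeZero (N * r)] [NeZero (N * r * r)]
  [Algebra R (FK K N)] [IsScalarTower R K (FK K N)]
  [Algebra R (FK K (N * r))] [IsScalarTower R K (FK K (N * r))]
  [Algebra R (FK K (N * r * r))] [IsScalarTower R K (FK K (N * r * r))]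
  [CharP (IsLocalRing.ResidueField R) r]

theorem v3i_vY_inv_mem_WVF (hr : r.Prime) : (vY K N r)⁻¹ ∈ WVF R K N r := by
  have h := v3i_inv_mem (R := R) (K := K) (M := N * r * r)
    ⟨1 * r * r, Nat.mul_dvd_mul_right (Nat.mul_dvd_mul_right (one_dvd N) r) r⟩ ⟨1, one_dvd _⟩ 1
    (by
      show 1 * r * r ≠ 1 * 1
      have := hr.two_le
      nlinarith)
  rwa [pow_one] at h

theorem v3i_vY_mem_WVF : vY K N r ∈ WVF R K N r :=
  sub_mem (Jgen_mem_gaussSub _) (Jgen_mem_gaussSub _)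

theorem v3i_vY_ne_zero (hr : r.Prime) : vY K N r ≠ 0 := by
  intro h
  have h1 : vJ2 K N r = vJ0 K N r := sub_eq_zero.1 h
  have h2 := congrArg (fun x : FK K (N * r * r) => (x : LaurentSeries K).order) h1
  simp only [coe_Jgen_jAd, order_jAd] at h2
  have := hr.two_le
  have h3 : (1 * r * r : ℕ) = 1 := by exact_mod_cast neg_injective h2
  nlinarith

theorem v3i_vY_inv_mem_WFV (hr : r.Prime) (hrN : ¬ r ∣ N) : (vY K N r)⁻¹ ∈ WFV R hr hrN := by
  show w2 K hr hrN (vY K N r)⁻¹ ∈ gaussVal R K (N * r * r)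
  rw [map_inv₀, v1_w2_vY, inv_neg]
  exact neg_mem (v3i_vY_inv_mem_WVF hr)

theorem v3i_vY_mem_WFV (hr : r.Prime) (hrN : ¬ r ∣ N) : vY K N r ∈ WFV R hr hrN := by
  show w2 K hr hrN (vY K N r) ∈ gaussVal R K (N * r * r)
  rw [v1_w2_vY]
  exact neg_mem v3i_vY_mem_WVF

theorem v3i_i12_algebraMap (c : R) :
    i12 K N r (algebraMap R (FK K (N * r)) c) = algebraMap R (FK K (N * r * r)) c := by
  rw [IsScalarTower.algebraMap_apply R K (FK K (N * r)), AlgHom.commutes,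
    ← IsScalarTower.algebraMap_apply R K (FK K (N * r * r))]

variable {hr : r.Prime} {hrN : ¬ r ∣ N} {π : R} {W : ValuationSubring (FK K (N * r * r))}

theorem VCore.algebraMap_mem (V : VCore hr hrN π W) (c : R) :
    algebraMap R (FK K (N * r * r)) c ∈ W := by
  rw [← v3i_i12_algebraMap]
  exact (V.vv_incl _).2 (algebraMap_R_mem_gaussSub c)

/-- powers of `π` absorb the denominators at `W` -/
theorem VCore.pi_arch (V : VCore hr hrN π W) (hN : (N : IsLocalRing.ResidueField R) ≠ 0)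
    (hπ : Irreducible π) (y : FK K (N * r * r)) :
    ∃ k : ℕ, algebraMap R (FK K (N * r * r)) π ^ k * y ∈ W := by
  obtain ⟨c, rfl⟩ := v1_span R hr hrN hN y
  choose k hk using fun i => exists_pow_mul_mem_gaussSub (K := K) (M := N * r) hπ (c i)
  refine ⟨∑ i, k i, ?_⟩
  rw [Finset.mul_sum]
  refine sum_mem fun i _ => ?_
  have hle : k i ≤ ∑ i, k i := Finset.single_le_sum (fun _ _ => Nat.zero_le _) (Finset.mem_univ i)
  obtain ⟨l, hl⟩ := Nat.exists_eq_add_of_le hle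
  have h1 : algebraMap R (FK K (N * r * r)) π ^ (∑ i, k i) *
      (i12 K N r (c i) * vJ2 K N r ^ (i : ℕ)) =
      i12 K N r (algebraMap R (FK K (N * r)) π ^ l * (algebraMap R (FK K (N * r)) π ^ k i * c i)) *
        vJ2 K N r ^ (i : ℕ) := by
    rw [map_mul, map_mul, map_pow, map_pow, v3i_i12_algebraMap, hl]
    ring
  rw [h1]
  exact mul_mem ((V.vv_incl _).2 (mul_mem (pow_mem (algebraMap_R_mem_gaussSub π) l) (hk i)))
    (pow_mem V.vJ2_mem _)

/-- powers of `y` absorb the denominators at `W` -/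
theorem VCore.y_arch (V : VCore hr hrN π W) (hN : (N : IsLocalRing.ResidueField R) ≠ 0)
    (hπ : Irreducible π) (y : FK K (N * r * r)) : ∃ k : ℕ, vY K N r ^ k * y ∈ W := by
  obtain ⟨k, hk⟩ := V.pi_arch hN hπ y
  refine ⟨(r - 1) * k, ?_⟩
  have hπ0 : algebraMap R (FK K (N * r * r)) π ≠ 0 := algebraMap_unif_ne_zero hπ
  have : vY K N r ^ ((r - 1) * k) * y =
      (vY K N r ^ (r - 1) / algebraMap R (FK K (N * r * r)) π) ^ k *
        (algebraMap R (FK K (N * r * r)) π ^ k * y) := by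
    rw [pow_mul, div_pow]
    field_simp
  rw [this]
  exact mul_mem (pow_mem V.vv_pow.1 k) hk

theorem VCore.arch (V : VCore hr hrN π W) (hN : (N : IsLocalRing.ResidueField R) ≠ 0)
    (hπ : Irreducible π) : V3Arch W :=
  v3_arch_of_unif W (v3i_vY_ne_zero hr) V.vv_unif (V.y_arch hN hπ)

theorem v3i_arch_WFV (hr : r.Prime) (hrN : ¬ r ∣ N) {π : R} (hπ : Irreducible π) :
    V3Arch (WFV (K := K) (N := N) R hr hrN) :=
  v3_arch_comap _ (v3i_arch_gauss hπ)

/-- `π` is not a unit of `W` -/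
theorem VCore.pi_inv_notMem (V : VCore hr hrN π W) (hπ : Irreducible π) :
    (algebraMap R (FK K (N * r * r)) π)⁻¹ ∉ W := by
  rw [← v3i_i12_algebraMap, ← map_inv₀, V.vv_incl]
  exact inv_unif_notMem_gaussSub hπ

theorem v3i_pi_inv_notMem_WFV (hr : r.Prime) (hrN : ¬ r ∣ N) {π : R} (hπ : Irreducible π) :
    (algebraMap R (FK K (N * r * r)) π)⁻¹ ∉ WFV R hr hrN := by
  show ¬ (w2 K hr hrN _ ∈ gaussVal R K (N * r * r))
  rw [map_inv₀, v2r_w2_algebraMap]
  exact inv_unif_notMem_gaussSub hπ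

/-! #### the six non-inclusions -/

/-- `(j(q^r) - j(q^(r^2))^r) / π` is not Gauss-integral -/
theorem v3i_t_notMem (hr : r.Prime) {π : R} (hπ : Irreducible π) :
    (vJ1 K N r - vJ2 K N r ^ r) / algebraMap R (FK K (N * r * r)) π ∉ WVF R K N r := by
  have hne : 1 * r ≠ 1 * r * r * r := by
    have := hr.two_le
    intro h
    have h2 : r * 1 = r * (r * r) := by nlinarith
    have h3 := Nat.eq_of_mul_eq_mul_left hr.pos h2
    nlinarith
  exact v3i_div_notMem hπ (v3i_inv_mem _ _ r hne) (v3i_ne_zero _ _ r hne)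

theorem v3i_w2_t (hr : r.Prime) (hrN : ¬ r ∣ N) (π : R) :
    w2 K hr hrN ((vJ1 K N r - vJ0 K N r ^ r) / algebraMap R (FK K (N * r * r)) π) =
      (vJ1 K N r - vJ2 K N r ^ r) / algebraMap R (FK K (N * r * r)) π := by
  rw [map_div₀, map_sub, map_pow, v2r_w2_algebraMap, v1_w2_vJ0, w2_Jgen_one K hr hrN (one_dvd N)]

theorem v3i_not_VF_le_FV (hr : r.Prime) (hrN : ¬ r ∣ N) {π : R} (hπ : Irreducible π) :
    ¬ WVF R K N r ≤ WFV R hr hrN := by
  intro h
  have h1 := h (v2r_vJ1_sub (R := R) (K := K) (N := N) hr hπ)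
  have h2 : w2 K hr hrN ((vJ1 K N r - vJ0 K N r ^ r) / algebraMap R (FK K (N * r * r)) π) ∈
    gaussVal R K (N * r * r) := h1
  rw [v3i_w2_t] at h2
  exact v3i_t_notMem hr hπ h2

theorem v3i_not_FV_le_VF (hr : r.Prime) (hrN : ¬ r ∣ N) {π : R} (hπ : Irreducible π) :
    ¬ WFV R hr hrN ≤ WVF R K N r := by
  intro h
  apply v3i_t_notMem (R := R) (K := K) (N := N) hr hπ
  apply h
  show w2 K hr hrN _ ∈ gaussVal R K (N * r * r)
  rw [← v3i_w2_t hr hrN, w2_w2]
  exact v2r_vJ1_sub hr hπ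

theorem VCore.not_VF_le (V : VCore hr hrN π W) : ¬ WVF R K N r ≤ W :=
  fun h => V.vv_y.2 (h (v3i_vY_inv_mem_WVF hr))

theorem VCore.not_FV_le (V : VCore hr hrN π W) : ¬ WFV R hr hrN ≤ W :=
  fun h => V.vv_y.2 (h (v3i_vY_inv_mem_WFV hr hrN))

theorem VCore.not_le_VF (V : VCore hr hrN π W) (hπ : Irreducible π) : ¬ W ≤ WVF R K N r := by
  intro h
  refine v3i_div_notMem (u := vY K N r ^ (r - 1)) hπ ?_ (pow_ne_zero _ (v3i_vY_ne_zero hr))
    (h V.vv_pow.1)
  rw [← inv_pow]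
  exact pow_mem (v3i_vY_inv_mem_WVF hr) _

theorem VCore.not_le_FV (V : VCore hr hrN π W) (hπ : Irreducible π) : ¬ W ≤ WFV R hr hrN := by
  intro h
  have h1 : w2 K hr hrN (vY K N r ^ (r - 1) / algebraMap R (FK K (N * r * r)) π) ∈
    gaussVal R K (N * r * r) := h V.vv_pow.1
  rw [map_div₀, map_pow, v1_w2_vY, v2r_w2_algebraMap] at h1
  refine v3i_div_notMem (u := (-vY K N r) ^ (r - 1)) hπ ?_
    (pow_ne_zero _ (neg_ne_zero.2 (v3i_vY_ne_zero hr))) h1
  rw [← inv_pow, inv_neg]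
  exact pow_mem (neg_mem (v3i_vY_inv_mem_WVF hr)) _

/-! #### weak approximation -/

variable (R) in
/-- the family `![W_VF, W_FV, W]` -/
def v3iFam (hr : r.Prime) (hrN : ¬ r ∣ N) (W : ValuationSubring (FK K (N * r * r))) :
    Fin 3 → ValuationSubring (FK K (N * r * r)) := ![WVF R K N r, WFV R hr hrN, W]

theorem VCore.fam_inc (V : VCore hr hrN π W) (hπ : Irreducible π) :
    ∀ i j, i ≠ j → ¬ v3iFam R hr hrN W i ≤ v3iFam R hr hrN W j := by
  intro i j hij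
  fin_cases i <;> fin_cases j
  · exact absurd rfl hij
  · exact v3i_not_VF_le_FV hr hrN hπ
  · exact V.not_VF_le
  · exact v3i_not_FV_le_VF hr hrN hπ
  · exact absurd rfl hij
  · exact V.not_FV_le
  · exact V.not_le_VF hπ
  · exact V.not_le_FV hπ
  · exact absurd rfl hij

theorem VCore.fam_arch (V : VCore hr hrN π W) (hN : (N : IsLocalRing.ResidueField R) ≠ 0)
    (hπ : Irreducible π) : ∀ i, V3Arch (v3iFam R hr hrN W i) := by
  intro i
  fin_cases i
  · exact v3i_arch_gauss hπ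
  · exact v3i_arch_WFV hr hrN hπ
  · exact V.arch hN hπ

theorem VCore.fam_pi (V : VCore hr hrN π W) (hπ : Irreducible π) :
    ∀ i, algebraMap R (FK K (N * r * r)) π ∈ v3iFam R hr hrN W i ∧
      (algebraMap R (FK K (N * r * r)) π)⁻¹ ∉ v3iFam R hr hrN W i := by
  intro i
  fin_cases i
  · exact ⟨v2r_algebraMap_mem_WVF π, inv_unif_notMem_gaussSub hπ⟩
  · exact ⟨v2r_algebraMap_mem_WFV hr hrN π, v3i_pi_inv_notMem_WFV hr hrN hπ⟩
  · exact ⟨V.algebraMap_mem π, V.pi_inv_notMem hπ⟩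

theorem VCore.fam_ne_top (V : VCore hr hrN π W) (hπ : Irreducible π) :
    ∀ i, v3iFam R hr hrN W i ≠ ⊤ := fun i h =>
  (V.fam_pi hπ i).2 (by rw [h]; exact ValuationSubring.mem_top _)

/-- **weak approximation**, general precision, for `W_VF`, `W_FV`, `W` -/
theorem VCore.approx_gen (V : VCore hr hrN π W) (hN : (N : IsLocalRing.ResidueField R) ≠ 0)
    (hπ : Irreducible π) (s₁ s₂ s₃ ε₁ ε₂ ε₃ : FK K (N * r * r)) (h₁ : ε₁ ≠ 0) (h₂ : ε₂ ≠ 0)
    (h₃ : ε₃ ≠ 0) :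
    ∃ G : FK K (N * r * r), (G - s₁) / ε₁ ∈ WVF R K N r ∧ (G - s₂) / ε₂ ∈ WFV R hr hrN ∧
      (G - s₃) / ε₃ ∈ W := by
  obtain ⟨G, hG⟩ := v3_weakApprox (v3iFam R hr hrN W) (V.fam_inc hπ) (V.fam_arch hN hπ)
    (V.fam_ne_top hπ) ![s₁, s₂, s₃] ![ε₁, ε₂, ε₃] (by
      intro i
      fin_cases i
      · exact h₁
      · exact h₂
      · exact h₃)
  exact ⟨G, hG 0, hG 1, hG 2⟩

/-- `VData.approx`, verbatim -/
theorem VCore.approx_v3 (V : VCore hr hrN π W) (hN : (N : IsLocalRing.ResidueField R) ≠ 0)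
    (hπ : Irreducible π) : ∀ s₁ s₂ s₃ : FK K (N * r * r), ∃ G : FK K (N * r * r),
    (G - s₁) / algebraMap R (FK K (N * r * r)) π ∈ WVF R K N r ∧
    (G - s₂) / algebraMap R (FK K (N * r * r)) π ∈ WFV R hr hrN ∧
    (G - s₃) / algebraMap R (FK K (N * r * r)) π ∈ W := fun s₁ s₂ s₃ =>
  V.approx_gen hN hπ s₁ s₂ s₃ _ _ _ (algebraMap_unif_ne_zero hπ) (algebraMap_unif_ne_zero hπ)
    (algebraMap_unif_ne_zero hπ)

/-- **multiplicative weak approximation**, precision `π` at the three rings -/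
theorem v3_happ3 (V : VCore hr hrN π W) (hN : (N : IsLocalRing.ResidueField R) ≠ 0)
    (hπ : Irreducible π) : ∀ x₁ x₂ x₃ : FK K (N * r * r), x₁ ≠ 0 → x₂ ≠ 0 → x₃ ≠ 0 →
    ∃ S : FK K (N * r * r), S ≠ 0 ∧
      (S / x₁ - 1) / algebraMap R (FK K (N * r * r)) π ∈ WVF R K N r ∧
      (S / x₂ - 1) / algebraMap R (FK K (N * r * r)) π ∈ WFV R hr hrN ∧
      (S / x₃ - 1) / algebraMap R (FK K (N * r * r)) π ∈ W := by
  intro x₁ x₂ x₃ h₁ h₂ h₃
  obtain ⟨S, hS0, hS⟩ := v3_weakApprox_mul (v3iFam R hr hrN W) (V.fam_inc hπ) (V.fam_arch hN hπ)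
    (V.fam_ne_top hπ) (algebraMap_unif_ne_zero (K := K) (M := N * r * r) hπ) (V.fam_pi hπ)
    ![x₁, x₂, x₃] (by
      intro i
      fin_cases i
      · exact h₁
      · exact h₂
      · exact h₃)
  exact ⟨S, hS0, hS 0, hS 1, hS 2⟩

/-- the same with precision `π`, `π`, `y` (`happ` of `n_main`) -/
theorem v3_happ3_y (V : VCore hr hrN π W) (hN : (N : IsLocalRing.ResidueField R) ≠ 0)
    (hπ : Irreducible π) : ∀ x₁ x₂ x₃ : FK K (N * r * r), x₁ ≠ 0 → x₂ ≠ 0 → x₃ ≠ 0 →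
    ∃ S : FK K (N * r * r), S ≠ 0 ∧
      (S / x₁ - 1) / algebraMap R (FK K (N * r * r)) π ∈ WVF R K N r ∧
      (S / x₂ - 1) / algebraMap R (FK K (N * r * r)) π ∈ WFV R hr hrN ∧
      (S / x₃ - 1) / vY K N r ∈ W := by
  intro x₁ x₂ x₃ h₁ h₂ h₃
  obtain ⟨S, hS0, a1, a2, a3⟩ := v3_happ3 V hN hπ x₁ x₂ x₃ h₁ h₂ h₃
  refine ⟨S, hS0, a1, a2, ?_⟩
  have hy0 := v3i_vY_ne_zero (K := K) (N := N) hr
  have hπ0 : algebraMap R (FK K (N * r * r)) π ≠ 0 := algebraMap_unif_ne_zero hπ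
  obtain ⟨k, hk⟩ : ∃ k, r - 1 = k + 1 := ⟨r - 2, by have := hr.two_le; omega⟩
  have : (S / x₃ - 1) / vY K N r = (S / x₃ - 1) / algebraMap R (FK K (N * r * r)) π *
      (algebraMap R (FK K (N * r * r)) π / vY K N r ^ (r - 1) * vY K N r ^ k) := by
    rw [hk]
    generalize vY K N r = y at hy0
    field_simp
    ring
  rw [this]
  exact mul_mem a3 (mul_mem V.vv_pow.2 (pow_mem V.vv_y.1 k))

end main

end

end Fermat.Agent.CARlib
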