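import Fermat.Agent.CAR.VDefs

/-!
# T-CAR, block V (valuations at level 2): INTERFACE
Sorried statements, in the namespace `Fermat.Agent.CARlib.VIface`.  The owners prove the SAME
statements, same names, in the namespace `Fermat.Agent.CARlib`, in their own files (importing
`CAR/VDefs.lean`, never this file).
-/

set_option autoImplicit false
set_option linter.unusedSectionVars false
set_option linter.unusedVariables false

open ModularCurve Polynomial

namespace Fermat.Agent.CARlib.VIface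

open Fermat.Agent.ESlib Fermat.Agent.UNIlib Fermat.Agent.CARlib
open Fermat.Agent.S28lib (RedSetup jA jAd scale)
open Fermat.Agent.S24lib (Dv)

noncomputable section

/-- **(V4)** existence of `R[ζ_r]` for a DVR with uniformiser `r` (Eisenstein) -/
theorem v4_exists_zetaSetup {R K : Type} [CommRing R] [IsDomain R] [IsDiscreteValuationRing R]
    [Field K] [Algebra R K] [IsFractionRing R K] [CharZero K] {r : ℕ} (hr : r.Prime)
    (hπ : Irreducible ((r : ℕ) : R)) :
    ∃ (R' K' : Type) (_ : CommRing R') (_ : Field K') (ι' : R' →+* K')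
      (ρ' : R' →+* IsLocalRing.ResidueField R) (lam : R') (g : R →+* R') (f : K →+* K')
      (ζ : R'ˣ), ZetaSetup (algebraMap R K) (IsLocalRing.residue R) ((r : ℕ) : R) ι' ρ' lam g f ζ r := by
  sorry

/-! ### (V2b) the integral basis theorem, on Laurent series -/

section series

variable {R K κ R' K' : Type*} [CommRing R] [Field K] [Field κ] [CommRing R'] [Field K']
  {ι : R →+* K} {ρ : R →+* κ} {π : R} {ι' : R' →+* K'} {ρ' : R' →+* κ} {lam : R'}
  {g : R →+* R'} {f : K →+* K'} {ζ : R'ˣ} {r : ℕ}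

/-- **(V2b-0)** `1, j, …, j^(r-1)` are independent over `κ((q^r))` (`q`-orders mod `r`) -/
theorem v2_basis_zero [NeZero r] (h : RedSetup ι ρ π) (d : Fin r → LaurentSeries K)
    (hd : ∀ i, IsBdd ι (d i))
    (hx : ∑ i, qExpand K r (d i) * jA K ^ (i : ℕ) ∈ LamR ι ρ) : ∀ i, d i ∈ LamR ι ρ := by
  sorry

/-- **(V2b-∞)** `P(j(q^(r^2)))` integral and `P(j(ζ q))` integral over `R[ζ]`, `deg P < r`
`⇒` the coefficients of `P` are integral -/
theorem v2_basis_infty [NeZero r] [NeZero (r * r)] [CharP κ r] (hr : r.Prime) (h : RedSetup ι ρ π)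
    (Z : ZetaSetup ι ρ π ι' ρ' lam g f ζ r) (c : Fin r → LaurentSeries K)
    (hc : ∀ i, IsBdd ι (c i))
    (h1 : ∑ i, c i * jAd K (r * r) ^ (i : ℕ) ∈ LamR ι ρ)
    (h2 : ∑ i, coeffMap f (c i) * scale (Units.map (ι' : R' →* K') ζ) (jA K') ^ (i : ℕ) ∈
      LamR ι' ρ') : ∀ i, c i ∈ LamR ι ρ := by
  sorry

end series

/-! ### the modular setting -/

section main

variable {R K : Type} [CommRing R] [IsDomain R] [IsDiscreteValuationRing R] [Field K]
  [Algebra R K] [IsFractionRing R K] [Algebra ℚ K] [CharZero K] [Algebra K ℂ] [IsScalarTower ℚ K ℂ]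
  {N r : ℕ} [NeZero N] [NeZero r] [NeZero (N * r)] [NeZero (N * r * r)]
  [Algebra R (FK K N)] [IsScalarTower R K (FK K N)]
  [Algebra R (FK K (N * r))] [IsScalarTower R K (FK K (N * r))]
  [Algebra R (FK K (N * r * r))] [IsScalarTower R K (FK K (N * r * r))]

/-! #### (V1) -/

/-- **(V1)** `sw ∘ incl = B_r ∘ w_r` -/
theorem v1_w2_incl (hr : r.Prime) (hrN : ¬ r ∣ N) (x : FK K (N * r)) :
    w2 K hr hrN (i12 K N r x) = heckeBetaBar K (N * r) r (wr K hr hrN x) := by
  sorry

/-- **(V1)** `sw ∘ B_r = incl ∘ w_r` -/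
theorem v1_w2_beta (hr : r.Prime) (hrN : ¬ r ∣ N) (x : FK K (N * r)) :
    w2 K hr hrN (heckeBetaBar K (N * r) r x) = i12 K N r (wr K hr hrN x) := by
  sorry

/-- **(V1)** `1, Y, …, Y^(r-1)` (`Y = j(q^(r^2))`) span `F₂` over `i12 F₁` -/
theorem v1_span (hr : r.Prime) (hrN : ¬ r ∣ N) (x : FK K (N * r * r)) :
    ∃ c : Fin r → FK K (N * r), x = ∑ i, i12 K N r (c i) * vJ2 K N r ^ (i : ℕ) := by
  sorry

/-- **(V1)** … and are independent -/
theorem v1_indep (hr : r.Prime) (hrN : ¬ r ∣ N) (c : Fin r → FK K (N * r))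
    (h : ∑ i, i12 K N r (c i) * vJ2 K N r ^ (i : ℕ) = 0) : ∀ i, c i = 0 := by
  sorry

variable [CharP (IsLocalRing.ResidueField R) r]

/-- `W_FV = ⊕ V_V Y^i` -/
theorem v2_basis_V (hr : r.Prime) (hrN : ¬ r ∣ N) (c : Fin r → FK K (N * r))
    (h : ∑ i, i12 K N r (c i) * vJ2 K N r ^ (i : ℕ) ∈ WFV R hr hrN) :
    ∀ i, c i ∈ VV1 R hr hrN := by
  sorry

/-- `W_VF | V_F` has `f = 1` -/
theorem v2_vf_res (hr : r.Prime) (hrN : ¬ r ∣ N) (hN : (N : IsLocalRing.ResidueField R) ≠ 0)
    {π : R} (hπ : Irreducible π) (z : FK K (N * r * r)) (hz : z ∈ WVF R K N r) :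
    ∃ c ∈ VF1 R K N r, (z - i12 K N r c) / algebraMap R (FK K (N * r * r)) π ∈ WVF R K N r := by
  sorry

/-- `W_FV | V_V` is purely inseparable of degree `r` on residue fields -/
theorem v2_fv_res (hr : r.Prime) (hrN : ¬ r ∣ N) (hN : (N : IsLocalRing.ResidueField R) ≠ 0)
    {π : R} (hπ : Irreducible π) (z : FK K (N * r * r)) (hz : z ∈ WFV R hr hrN) :
    ∃ c ∈ VV1 R hr hrN,
      (z ^ r - i12 K N r c) / algebraMap R (FK K (N * r * r)) π ∈ WFV R hr hrN := by
  sorry

/-- **BLOCK V, main output** -/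
theorem v_exists_data (hr : r.Prime) (hrN : ¬ r ∣ N) (hN : (N : IsLocalRing.ResidueField R) ≠ 0)
    (hπ : Irreducible ((r : ℕ) : R)) :
    ∃ W : ValuationSubring (FK K (N * r * r)), VData hr hrN ((r : ℕ) : R) W := by
  sorry

end main

end

end Fermat.Agent.CARlib.VIface
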