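import Fermat.Agent.CAR.V1Deg
import Fermat.Agent.CAR.N2Half
import Fermat.Agent.CAR.EIface

/-!
# T-CAR, block X, row X1: the norms along `e₁ = α ∘ w_r`, `e₂ = β` versus `normAlong α`,
`normAlong β`
-/

set_option autoImplicit false
set_option linter.unusedSectionVars false
set_option linter.style.haveILetI false

open ModularCurve AlgebraicCurve Polynomial
open Fermat.Agent.S24lib Fermat.Agent.ESlib Fermat.Agent.UNIlib

namespace Fermat.Agent.CARlib

variable {K : Type} [Field K] [Algebra ℚ K] [Algebra K ℂ] [IsScalarTower ℚ K ℂ]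
variable {N r : ℕ} [NeZero N] [NeZero r] [NeZero (N * r)] [NeZero (N * r * r)]

/-- `Norm_{e₁} = w_r ∘ Norm_α` -/
theorem x1_norm_e1 (hr : r.Prime) (hrN : ¬ r ∣ N) (x : FK K (N * r * r)) :
    (letI := algebraAlong (e1 K hr hrN); Algebra.norm (FK K (N * r)) x) =
      wr K hr hrN (normAlong (heckeAlphaBar K (N * r) r) x) := by
  have h := @Algebra.norm_eq_of_equiv_equiv (FK K (N * r)) (FK K (N * r * r)) (FK K (N * r))
    (FK K (N * r * r)) _ _ _ _ (algebraAlong (e1 K hr hrN))
    (algebraAlong (heckeAlphaBar K (N * r) r)) (wr K hr hrN).toRingEquiv (RingEquiv.refl _)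
    (RingHom.ext fun a => rfl) x
  rw [h]
  have hs : ∀ z : FK K (N * r), (wr K hr hrN).toRingEquiv.symm z = wr K hr hrN z := by
    intro z
    rw [RingEquiv.symm_apply_eq]
    exact (wr_wr K hr hrN z).symm
  rw [hs]
  rfl

/-- `Norm_{e₂} = Norm_β` -/
theorem x1_norm_e2 (x : FK K (N * r * r)) :
    (letI := algebraAlong (e2 K N r); Algebra.norm (FK K (N * r)) x) =
      normAlong (heckeBetaBar K (N * r) r) x := rfl

/-- the hypothesis of `CarKAt` along `α`, in terms of the norm along `e₁` -/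
theorem x1_shape_e1 (hr : r.Prime) (hrN : ¬ r ∣ N) {m : ℕ} {g : FK K (N * r * r)}
    (h : ∃ (lam : K) (a : FK K (N * r)),
      normAlong (heckeAlphaBar K (N * r) r) g = algebraMap K (FK K (N * r)) lam * a ^ m) :
    ∃ (lam : K) (a : FK K (N * r)),
      (letI := algebraAlong (e1 K hr hrN); Algebra.norm (FK K (N * r)) g) =
        algebraMap K (FK K (N * r)) lam * a ^ m := by
  obtain ⟨lam, a, h⟩ := h
  refine ⟨lam, wr K hr hrN a, ?_⟩
  rw [x1_norm_e1, h, map_mul, map_pow, AlgEquiv.commutes]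

theorem x1_shape_e2 {m : ℕ} {g : FK K (N * r * r)}
    (h : ∃ (lam : K) (a : FK K (N * r)),
      normAlong (heckeBetaBar K (N * r) r) g = algebraMap K (FK K (N * r)) lam * a ^ m) :
    ∃ (lam : K) (a : FK K (N * r)),
      (letI := algebraAlong (e2 K N r); Algebra.norm (FK K (N * r)) g) =
        algebraMap K (FK K (N * r)) lam * a ^ m := h

section fin

variable [CharZero K] (R : Type) [CommRing R] [IsDomain R] [IsDiscreteValuationRing R]
  [Algebra R K] [IsFractionRing R K] [CharP (IsLocalRing.ResidueField R) r]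

theorem x1_finiteDimensional_e1 (hr : r.Prime) (hrN : ¬ r ∣ N)
    (hN : (N : IsLocalRing.ResidueField R) ≠ 0) :
    letI := algebraAlong (e1 K hr hrN)
    FiniteDimensional (FK K (N * r)) (FK K (N * r * r)) := by
  letI := algebraAlong (e1 K hr hrN)
  have h2 : Module.finrank (FK K (N * r)) (FK K (N * r * r)) = r := v1_finrank_e1 R hr hrN hN
  exact Module.finite_of_finrank_pos (h2.symm ▸ hr.pos)

theorem x1_finiteDimensional_e2 (hr : r.Prime) (hrN : ¬ r ∣ N)
    (hN : (N : IsLocalRing.ResidueField R) ≠ 0) :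
    letI := algebraAlong (e2 K N r)
    FiniteDimensional (FK K (N * r)) (FK K (N * r * r)) := by
  letI := algebraAlong (e2 K N r)
  have h2 : Module.finrank (FK K (N * r)) (FK K (N * r * r)) = r := v1_finrank_e2 R hr hrN hN
  exact Module.finite_of_finrank_pos (h2.symm ▸ hr.pos)

/-- the norm along `e₁` as a monoid-with-zero hom (`= normZH` for `algebraAlong e₁`) -/
noncomputable def x1N1 (hr : r.Prime) (hrN : ¬ r ∣ N)
    (hN : (N : IsLocalRing.ResidueField R) ≠ 0) : FK K (N * r * r) →*₀ FK K (N * r) :=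
  letI := algebraAlong (e1 K hr hrN)
  haveI := x1_finiteDimensional_e1 (K := K) R hr hrN hN
  normZH (FK K (N * r)) (FK K (N * r * r))

/-- the norm along `e₂` as a monoid-with-zero hom (`= normZH` for `algebraAlong e₂`) -/
noncomputable def x1N2 (hr : r.Prime) (hrN : ¬ r ∣ N)
    (hN : (N : IsLocalRing.ResidueField R) ≠ 0) : FK K (N * r * r) →*₀ FK K (N * r) :=
  letI := algebraAlong (e2 K N r)
  haveI := x1_finiteDimensional_e2 (K := K) R hr hrN hN
  normZH (FK K (N * r)) (FK K (N * r * r))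

theorem x1N1_apply (hr : r.Prime) (hrN : ¬ r ∣ N) (hN : (N : IsLocalRing.ResidueField R) ≠ 0)
    (x : FK K (N * r * r)) :
    x1N1 R hr hrN hN x = wr K hr hrN (normAlong (heckeAlphaBar K (N * r) r) x) :=
  x1_norm_e1 hr hrN x

theorem x1N2_apply (hr : r.Prime) (hrN : ¬ r ∣ N) (hN : (N : IsLocalRing.ResidueField R) ≠ 0)
    (x : FK K (N * r * r)) :
    x1N2 R hr hrN hN x = normAlong (heckeBetaBar K (N * r) r) x := rfl

/-- `h₁` of `x5_abs` -/
theorem x1_h1 (hr : r.Prime) (hrN : ¬ r ∣ N) (hN : (N : IsLocalRing.ResidueField R) ≠ 0)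
    {m : ℕ} {g : FK K (N * r * r)}
    (h : ∃ (lam : K) (a : FK K (N * r)),
      normAlong (heckeAlphaBar K (N * r) r) g = algebraMap K (FK K (N * r)) lam * a ^ m) :
    ∃ (lam : K) (a : FK K (N * r)),
      x1N1 R hr hrN hN g = algebraMap K (FK K (N * r)) lam * a ^ m :=
  x1_shape_e1 hr hrN h

/-- `h₂` of `x5_abs` -/
theorem x1_h2 (hr : r.Prime) (hrN : ¬ r ∣ N) (hN : (N : IsLocalRing.ResidueField R) ≠ 0)
    {m : ℕ} {g : FK K (N * r * r)}
    (h : ∃ (lam : K) (a : FK K (N * r)),
      normAlong (heckeBetaBar K (N * r) r) g = algebraMap K (FK K (N * r)) lam * a ^ m) :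
    ∃ (lam : K) (a : FK K (N * r)),
      x1N2 R hr hrN hN g = algebraMap K (FK K (N * r)) lam * a ^ m := h

end fin

end Fermat.Agent.CARlib
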