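import Mathlib

/-!
# T-CAR, block X: a Laurent series of positive order is a power series without constant term
(the hypotheses `hT`, `hT0` of `x4_lc`)
-/

set_option autoImplicit false

namespace Fermat.Agent.CARlib

theorem x4ps_exists {K : Type*} [Field K] {t : LaurentSeries K} (ht : 0 < t.order) :
    ∃ τ : PowerSeries K, t = (τ : LaurentSeries K) ∧ PowerSeries.constantCoeff τ = 0 := by
  refine ⟨PowerSeries.mk fun n => t.coeff n, ?_, ?_⟩
  · ext i
    rw [PowerSeries.coeff_coe]
    split_ifs with hi
    · exact HahnSeries.coeff_eq_zero_of_lt_order (hi.trans ht)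
    · rw [PowerSeries.coeff_mk]
      congr 1
      omega
  · rw [← PowerSeries.coeff_zero_eq_constantCoeff_apply, PowerSeries.coeff_mk]
    exact HahnSeries.coeff_eq_zero_of_lt_order (by simpa using ht)

end Fermat.Agent.CARlib
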