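import Fermat.Agent.CAR.XTop
import Fermat.Agent.CAR.X4Lc
import Fermat.Agent.CAR.A2Final
import Fermat.Agent.CAR.X3Chart

/-!
# T-CAR, block X: the hypothesis `X4` of `x5_carKAt` from the regularity (`CReg`) of the chart `t⁻¹`
-/

set_option autoImplicit false
set_option linter.unusedSectionVars false
set_option linter.unusedVariables false

open ModularCurve AlgebraicCurve IntermediateField

namespace Fermat.Agent.CARlib

open Fermat.Agent.ESlib Fermat.Agent.UNIlib

variable {R K : Type} [CommRing R] [IsDomain R] [IsDiscreteValuationRing R] [Field K]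
  [Algebra R K] [IsFractionRing R K] [Algebra ℚ K] [CharZero K] [Algebra K ℂ] [IsScalarTower ℚ K ℂ]
  {N r : ℕ} [NeZero N] [NeZero r] [NeZero (N * r)] [NeZero (N * r * r)]
  [Algebra R (FK K (N * r))] [IsScalarTower R K (FK K (N * r))]
  [Algebra R (FK K (N * r * r))] [IsScalarTower R K (FK K (N * r * r))]

/-- `f ≡ 1 mod π` is `π`-integral -/
theorem x4_piInt_of_sub_one_div {F : Type*} [Field F] [Algebra K F] [Algebra R F]
    [IsScalarTower R K F] {π : R} (hπ : Irreducible π) {T f : F}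
    (hf : PiInt π T ((f - 1) / algebraMap R F π)) : PiInt π T f := by
  have hp : Prime π := hπ.prime
  have hπ0 : algebraMap R F π ≠ 0 := by
    rw [IsScalarTower.algebraMap_apply R K F]
    simpa using hπ.ne_zero
  have h1 : f = 1 + algebraMap R F π * ((f - 1) / algebraMap R F π) := by
    field_simp
    ring
  rw [h1]
  exact (PiInt.of_isIntegral hp isIntegral_one).add hp ((ak12_piInt_algebraMap hp _).mul hp hf)

/-- **`X4`** from `CReg` at every closed point of the chart `t⁻¹` (only the point "cusp `∞`" is used) -/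
theorem x4_of_reg (hr : r.Prime) (hrN : ¬ r ∣ N) {m : ℕ} (hm : 0 < m) {π : R} (hπ : Irreducible π)
    (hpow : ∀ u : Rˣ, ∃ w : Rˣ, w ^ m = u) (t : FK K (N * r * r)) (ht : Transcendental K t)
    [FiniteDimensional K⟮t⁻¹⟯ (FK K (N * r * r))] (W : ValuationSubring (FK K (N * r * r)))
    (hPi' : ∀ x, PiInt π t⁻¹ x ↔ x ∈ WVF R K N r ∧ x ∈ WFV R hr hrN ∧ x ∈ W)
    (hps : ∃ T' : PowerSeries K, ((t⁻¹ : FK K (N * r * r)) : LaurentSeries K) =
      (T' : LaurentSeries K) ∧ PowerSeries.constantCoeff T' = 0)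
    (hreg : ∀ 𝔫 : Ideal (integralClosure (Algebra.adjoin R {t⁻¹}) (FK K (N * r * r))),
      𝔫.IsMaximal → algebraMap R _ π ∈ 𝔫 →
      ∃ P : Ideal (integralClosure (Algebra.adjoin R {t⁻¹}) (FK K (N * r * r))),
        P.IsPrime ∧ P ≤ 𝔫 ∧ ∃ a b, a ≠ 0 ∧ C.CReg 𝔫 P a b) :
    X4 hr hrN π W t m := by
  intro f hf0 hdiv hone _ _
  obtain ⟨T', hT, hT0⟩ := hps
  have hπ0 : algebraMap R (FK K (N * r * r)) π ≠ 0 := by
    rw [IsScalarTower.algebraMap_apply R K (FK K (N * r * r))]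
    simpa using hπ.ne_zero
  have hf1 : PiInt π t⁻¹ ((f - 1) / algebraMap R (FK K (N * r * r)) π) := (hPi' _).2 hone
  refine x4_lc hπ hT hT0 hpow hf0 fun 𝔫 h𝔫 hπ𝔫 => ?_
  obtain ⟨P, hPp, hP, a, b, ha, hab⟩ := hreg 𝔫 h𝔫 hπ𝔫
  haveI := h𝔫
  haveI := hPp
  exact a2_final_creg (K := K) hπ (x3_transcendental_inv ht) hm hdiv
    (x4_piInt_of_sub_one_div (K := K) hπ hf1) (piInt_inv_of_sub_one_div hπ.prime hπ0 hf1) 𝔫 P hP ha hab

end Fermat.Agent.CARlib
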