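import Fermat.Agent.CAR.ITop
import Fermat.Agent.CAR.ITop3
import Fermat.Agent.CAR.X7IHalf
import Fermat.Agent.CAR.CTop

/-!
# T-CAR, block X, row X8: `IChartOK` for any chart pair `(T₁, t2)` from `VCore`, `CLev1`, `hmid`,
`NodeHyp` and the two `NHalf`; then `XI` from the two charts.
-/

set_option autoImplicit false
set_option linter.unusedSectionVars false
set_option linter.unusedVariables false
set_option linter.style.haveILetI false

open ModularCurve AlgebraicCurve Polynomial IntermediateField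

namespace Fermat.Agent.CARlib

open Fermat.Agent.ESlib Fermat.Agent.UNIlib C

section main

variable {R K : Type} [CommRing R] [IsDomain R] [IsDiscreteValuationRing R] [Field K]
  [Algebra R K] [IsFractionRing R K] [Algebra ℚ K] [CharZero K] [Algebra K ℂ] [IsScalarTower ℚ K ℂ]
  {N r : ℕ} [NeZero N] [NeZero r] [NeZero (N * r)] [NeZero (N * r * r)]
  [Algebra R (FK K N)] [IsScalarTower R K (FK K N)]
  [Algebra R (FK K (N * r))] [IsScalarTower R K (FK K (N * r))]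
  [Algebra R (FK K (N * r * r))] [IsScalarTower R K (FK K (N * r * r))]
  [CharP (IsLocalRing.ResidueField R) r]
  (hr : r.Prime) (hrN : ¬ r ∣ N) {π : R}

/-- the valuation of `π` at the three vertical valuation rings -/
theorem x8_val_pi {W : ValuationSubring (FK K (N * r * r))} (hπ : Irreducible π)
    (D : VCore hr hrN π W) (i : Fin 3) :
    (iW (WFV R hr hrN) (WVF R K N r) W i).valuation (algebraMap R (FK K (N * r * r)) π) < 1 := by
  fin_cases i
  · exact cg_val_pi_WFV hr hrN hπ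
  · exact cg_val_pi hπ
  · exact val_pi_W hr hrN D hπ

theorem x8_arch {W : ValuationSubring (FK K (N * r * r))} (hπ : Irreducible π)
    (D : VCore hr hrN π W) (hN : (N : IsLocalRing.ResidueField R) ≠ 0) (i : Fin 3)
    (x : FK K (N * r * r)) :
    ∃ M : ℕ, algebraMap R (FK K (N * r * r)) π ^ M * x ∈ iW (WFV R hr hrN) (WVF R K N r) W i := by
  fin_cases i
  · exact (v2_isDV_WFV hr hrN hπ).arch x
  · exact (v2_isDV_WVF hπ).arch x
  · obtain ⟨k, hk⟩ := (D.isDV hN hπ).arch x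
    refine ⟨k, ?_⟩
    have hy0 := D.vY_ne_zero
    have : algebraMap R (FK K (N * r * r)) π ^ k * x =
        (algebraMap R (FK K (N * r * r)) π / vY K N r) ^ k * (vY K N r ^ k * x) := by
      rw [div_pow]; field_simp
    show algebraMap R (FK K (N * r * r)) π ^ k * x ∈ W
    rw [this]
    exact mul_mem (pow_mem D.unif_div_vY_mem k) hk

theorem x8_app {W : ValuationSubring (FK K (N * r * r))} (hπ : Irreducible π)
    (D : VCore hr hrN π W) (hN : (N : IsLocalRing.ResidueField R) ≠ 0)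
    (s : Fin 3 → FK K (N * r * r)) : ∃ G : FK K (N * r * r),
      ∀ i, (G - s i) / algebraMap R (FK K (N * r * r)) π ∈ iW (WFV R hr hrN) (WVF R K N r) W i := by
  obtain ⟨G, h1, h2, h3⟩ := D.approx hN hπ (s 1) (s 0) (s 2)
  refine ⟨G, fun i => ?_⟩
  fin_cases i
  · exact h2
  · exact h1
  · exact h3

theorem x8_RW {W : ValuationSubring (FK K (N * r * r))} (D : VCore hr hrN π W) (i : Fin 3) (z : R) :
    algebraMap R (FK K (N * r * r)) z ∈ iW (WFV R hr hrN) (WVF R K N r) W i := by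
  fin_cases i
  · exact v2r_algebraMap_mem_WFV hr hrN z
  · exact v2r_algebraMap_mem_WVF z
  · show algebraMap R (FK K (N * r * r)) z ∈ W
    rw [← v2_i12_algebraMap]
    exact (D.vv_incl _).2 (algebraMap_R_mem_gaussSub z)

theorem x8_r_div {W : ValuationSubring (FK K (N * r * r))} (hπ : Irreducible π)
    (D : VCore hr hrN π W) (i : Fin 3) :
    ((r : ℕ) : FK K (N * r * r)) / algebraMap R (FK K (N * r * r)) π ∈
      iW (WFV R hr hrN) (WVF R K N r) W i := by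
  obtain ⟨c, hc⟩ := v2r_dvd_r (r := r) hπ
  have h0 : algebraMap R (FK K (N * r * r)) π ≠ 0 := algebraMap_unif_ne_zero hπ
  have : ((r : ℕ) : FK K (N * r * r)) / algebraMap R (FK K (N * r * r)) π =
      algebraMap R (FK K (N * r * r)) c := by
    rw [div_eq_iff h0, ← map_mul, mul_comm c π, ← hc, map_natCast]
  rw [this]
  exact x8_RW hr hrN D i c

theorem x8_pow_div {W : ValuationSubring (FK K (N * r * r))} (hπ : Irreducible π)
    (D : VCore hr hrN π W) (i : Fin 3) (ν : FK K (N * r * r))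
    (hν : (iW (WFV R hr hrN) (WVF R K N r) W i).valuation ν < 1) :
    ν ^ r / algebraMap R (FK K (N * r * r)) π ∈ iW (WFV R hr hrN) (WVF R K N r) W i := by
  have h0 : algebraMap R (FK K (N * r * r)) π ≠ 0 := algebraMap_unif_ne_zero hπ
  have hν' := mem_of_val_lt_one hν
  have e1' : ν ^ r / algebraMap R (FK K (N * r * r)) π =
      ν / algebraMap R (FK K (N * r * r)) π * ν ^ (r - 1) := by
    have hk : ν ^ r = ν ^ (r - 1) * ν := by
      rw [← pow_succ, Nat.sub_add_cancel hr.pos]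
    rw [hk]
    ring
  have e2' : ν ^ r / algebraMap R (FK K (N * r * r)) π =
      ν ^ (r - 1) / algebraMap R (FK K (N * r * r)) π * ν := by
    have hk : ν ^ r = ν ^ (r - 1) * ν := by
      rw [← pow_succ, Nat.sub_add_cancel hr.pos]
    rw [hk]
    ring
  fin_cases i
  · rw [e1']
    exact mul_mem (cg_unif_WFV hr hrN hπ ν hν) (pow_mem hν' _)
  · rw [e1']
    exact mul_mem (cg_unif hπ ν hν) (pow_mem hν' _)
  · by_cases hz : ν = 0
    · rw [hz, zero_pow hr.ne_zero, zero_div]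
      exact zero_mem _
    rw [e2']
    refine mul_mem (D.ram hπ hν' ?_) hν'
    intro hinv
    have h1 : W.valuation ν⁻¹ ≤ 1 := (W.valuation_le_one_iff _).2 hinv
    have h2 : W.valuation ν < 1 := hν
    have h3 : W.valuation ν * W.valuation ν⁻¹ = 1 := by
      rw [← map_mul, mul_inv_cancel₀ hz, map_one]
    have h4 : W.valuation ν * W.valuation ν⁻¹ < 1 := by
      calc W.valuation ν * W.valuation ν⁻¹ ≤ W.valuation ν * 1 := mul_le_mul_right h1 _
        _ < 1 := by rwa [mul_one]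
    exact absurd h3 h4.ne

variable {W : ValuationSubring (FK K (N * r * r))} (hπ : Irreducible π) (D : VCore hr hrN π W)
  (hN : (N : IsLocalRing.ResidueField R) ≠ 0)
  {T₁ : FK K (N * r)} {t2 : FK K (N * r * r)} (he₁ : cE1 R K hr hrN T₁ = t2)
  (he₂ : cE2 R K N r T₁ = t2) (ht2 : Transcendental K t2)
  (hPi : ∀ x, PiInt π t2 x ↔ x ∈ WVF R K N r ∧ x ∈ WFV R hr hrN ∧ x ∈ W)
  {pF pV : Ideal (integralClosure (Algebra.adjoin R {T₁}) (FK K (N * r)))}
  (L : CLev1 (algebraMap R (integralClosure (Algebra.adjoin R {T₁}) (FK K (N * r))) π)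
    (VF1 R K N r) (VV1 R hr hrN) pF pV)
  (hmid : ∀ 𝔫 : Ideal (integralClosure (Algebra.adjoin R {t2}) (FK K (N * r * r))),
    𝔫.IsMaximal → cCen (integralClosure (Algebra.adjoin R {t2}) (FK K (N * r * r))) W ≤ 𝔫 →
    CMid (algebraMap R (integralClosure (Algebra.adjoin R {t2}) (FK K (N * r * r))) π) W 𝔫)
  {q : ℕ} {ρ : FK K (N * r) →+* FK K (N * r)}
  (Hn : NodeHyp π T₁ (VF1 R K N r) (VV1 R hr hrN) q ρ)

include hπ D hN he₁ he₂ ht2 hPi L hmid in
/-- `XReg` in the chart `t2` -/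
theorem x8_reg (𝔫 : Ideal (integralClosure (Algebra.adjoin R {t2}) (FK K (N * r * r))))
    (h𝔫 : 𝔫.IsMaximal)
    (hπ𝔫 : algebraMap R (integralClosure (Algebra.adjoin R {t2}) (FK K (N * r * r))) π ∈ 𝔫) :
    ∃ P : Ideal (integralClosure (Algebra.adjoin R {t2}) (FK K (N * r * r))), P.IsPrime ∧ P ≤ 𝔫 ∧
      ∃ a b, a ≠ 0 ∧ CReg 𝔫 P a b := by
  obtain ⟨⟨P, hP, -, hle, h⟩, -⟩ :=
    c_final hr hrN hπ D (c_hvf D hN hπ) he₁ he₂ ht2 hPi L hmid 𝔫 h𝔫 hπ𝔫
  exact ⟨P, hP, hle, h⟩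

include hπ D hN he₁ he₂ ht2 hPi L hmid Hn in
/-- **block I in the chart `t2`** -/
theorem x8_chartOK [FiniteDimensional K⟮t2⟯ (FK K (N * r * r))]
    {N₁ N₂ : FK K (N * r * r) →*₀ FK K (N * r)}
    (hN₁ : ∀ x, N₁ x = normAlong (e1 K hr hrN) x) (hN₂ : ∀ x, N₂ x = normAlong (e2 K N r) x)
    (H₁ : NHalf r (e1 K hr hrN).toRingHom N₁ (VF1 R K N r).toSubring (VV1 R hr hrN).toSubring
      (algebraMap R (FK K (N * r)) π) (WFV R hr hrN).toSubring (WVF R K N r).toSubring W.toSubring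
      (vY K N r))
    (H₂ : NHalf r (e2 K N r).toRingHom N₂ (VF1 R K N r).toSubring (VV1 R hr hrN).toSubring
      (algebraMap R (FK K (N * r)) π) (WVF R K N r).toSubring (WFV R hr hrN).toSubring W.toSubring
      (vY K N r))
    {m : ℕ} (hmr : Nat.Coprime m r) : IChartOK hr hrN π W t2 m := by
  intro g hg0 hgdiv hone a₁ a₂ ha₁ ha₂ ξF ξV ξF' ξV' h1 h2 h3 h4 k1 k2 k3 k4 G0 hG
  have hvf := c_hvf D hN hπ
  have hfv := v2_fv_res_of (R := R) (K := K) hr hrN hN (v2_basis_V hr hrN) hπ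
  have dVF : IsDV (VF1 R K N r).toSubring (algebraMap R (FK K (N * r)) π) := v2_isDV_VF1 hπ
  have dVV : IsDV (VV1 R hr hrN).toSubring (algebraMap R (FK K (N * r)) π) :=
    v2_isDV_VV1 hr hrN hπ
  have dWVF : IsDV (WVF R K N r).toSubring (algebraMap R (FK K (N * r * r)) π) := v2_isDV_WVF hπ
  have dWFV : IsDV (WFV R hr hrN).toSubring (algebraMap R (FK K (N * r * r)) π) :=
    v2_isDV_WFV hr hrN hπ
  have dW : IsDV W.toSubring (vY K N r) := D.isDV hN hπ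
  have D₁ := x7_iHalf_e1 hr hrN hπ D hvf hfv he₁ he₂ ht2 hPi L Hn dVF dVV dWVF dWFV dW hN₁ H₁
  have D₂ := x7_iHalf_e2 hr hrN hπ D hvf hfv he₁ he₂ ht2 hPi L Hn dVF dVV dWVF dWFV dW hN₂ H₂
  have hPi' : ∀ x, PiInt π t2 x ↔ ∀ i, x ∈ iW (WFV R hr hrN) (WVF R K N r) W i := by
    intro x
    rw [hPi]
    constructor
    · rintro ⟨a1, a2, a3⟩ i
      fin_cases i
      · exact a2
      · exact a1
      · exact a3
    · intro h
      exact ⟨h 1, h 0, h 2⟩
  refine i_chart (K := K) hπ ht2 (cE1 R K hr hrN) (cE2 R K N r) he₁ he₂ hr hPi' D₁ D₂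
    (x8_reg hr hrN hπ D hN he₁ he₂ ht2 hPi L hmid) ?_ (x8_val_pi hr hrN hπ D)
    (x8_arch hr hrN hπ D hN) (x8_app hr hrN hπ D hN) (x8_r_div hr hrN hπ D)
    (x8_pow_div hr hrN hπ D) hmr hgdiv ((xOne_iff hr hrN π W g).1 hone) ha₁ ha₂
    ξF ξV ξF' ξV' h1 h2 h3 h4 k1 k2 k3 k4 hG
  intro 𝔫 h𝔫 hπ𝔫 i
  obtain ⟨-, c1, c2, c3⟩ :=
    c_final hr hrN hπ D (c_hvf D hN hπ) he₁ he₂ ht2 hPi L hmid 𝔫 h𝔫 hπ𝔫
  fin_cases i
  · exact c1
  · exact c2
  · exact c3

/-- **`hI` of `x5_carKAt`** from the two charts `t2`, `t2⁻¹` -/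
theorem x8_hI {W : ValuationSubring (FK K (N * r * r))} (hπ : Irreducible π)
    (D : VCore hr hrN π W) (hN : (N : IsLocalRing.ResidueField R) ≠ 0)
    {T₁ T₁' : FK K (N * r)} {t2 : FK K (N * r * r)}
    (he₁ : cE1 R K hr hrN T₁ = t2) (he₂ : cE2 R K N r T₁ = t2) (ht2 : Transcendental K t2)
    (hPi : ∀ x, PiInt π t2 x ↔ x ∈ WVF R K N r ∧ x ∈ WFV R hr hrN ∧ x ∈ W)
    {pF pV : Ideal (integralClosure (Algebra.adjoin R {T₁}) (FK K (N * r)))}
    (L : CLev1 (algebraMap R (integralClosure (Algebra.adjoin R {T₁}) (FK K (N * r))) π)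
      (VF1 R K N r) (VV1 R hr hrN) pF pV)
    (hmid : ∀ 𝔫 : Ideal (integralClosure (Algebra.adjoin R {t2}) (FK K (N * r * r))),
      𝔫.IsMaximal → cCen (integralClosure (Algebra.adjoin R {t2}) (FK K (N * r * r))) W ≤ 𝔫 →
      CMid (algebraMap R (integralClosure (Algebra.adjoin R {t2}) (FK K (N * r * r))) π) W 𝔫)
    {q : ℕ} {ρ : FK K (N * r) →+* FK K (N * r)}
    (Hn : NodeHyp π T₁ (VF1 R K N r) (VV1 R hr hrN) q ρ)
    (he₁' : cE1 R K hr hrN T₁' = t2⁻¹) (he₂' : cE2 R K N r T₁' = t2⁻¹)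
    (ht2' : Transcendental K t2⁻¹)
    (hPi' : ∀ x, PiInt π t2⁻¹ x ↔ x ∈ WVF R K N r ∧ x ∈ WFV R hr hrN ∧ x ∈ W)
    {pF' pV' : Ideal (integralClosure (Algebra.adjoin R {T₁'}) (FK K (N * r)))}
    (L' : CLev1 (algebraMap R (integralClosure (Algebra.adjoin R {T₁'}) (FK K (N * r))) π)
      (VF1 R K N r) (VV1 R hr hrN) pF' pV')
    (hmid' : ∀ 𝔫 : Ideal (integralClosure (Algebra.adjoin R {t2⁻¹}) (FK K (N * r * r))),
      𝔫.IsMaximal → cCen (integralClosure (Algebra.adjoin R {t2⁻¹}) (FK K (N * r * r))) W ≤ 𝔫 →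
      CMid (algebraMap R (integralClosure (Algebra.adjoin R {t2⁻¹}) (FK K (N * r * r))) π) W 𝔫)
    {q' : ℕ} {ρ' : FK K (N * r) →+* FK K (N * r)}
    (Hn' : NodeHyp π T₁' (VF1 R K N r) (VV1 R hr hrN) q' ρ')
    [FiniteDimensional K⟮t2⟯ (FK K (N * r * r))] [FiniteDimensional K⟮t2⁻¹⟯ (FK K (N * r * r))]
    {N₁ N₂ : FK K (N * r * r) →*₀ FK K (N * r)}
    (hN₁ : ∀ x, N₁ x = normAlong (e1 K hr hrN) x) (hN₂ : ∀ x, N₂ x = normAlong (e2 K N r) x)
    (H₁ : NHalf r (e1 K hr hrN).toRingHom N₁ (VF1 R K N r).toSubring (VV1 R hr hrN).toSubring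
      (algebraMap R (FK K (N * r)) π) (WFV R hr hrN).toSubring (WVF R K N r).toSubring W.toSubring
      (vY K N r))
    (H₂ : NHalf r (e2 K N r).toRingHom N₂ (VF1 R K N r).toSubring (VV1 R hr hrN).toSubring
      (algebraMap R (FK K (N * r)) π) (WVF R K N r).toSubring (WFV R hr hrN).toSubring W.toSubring
      (vY K N r))
    {m : ℕ} (hm : 0 < m) (hmr : Nat.Coprime m r) {ζ : R} (hζ : IsPrimitiveRoot ζ m) :
    XI hr hrN π W t2 m := by
  have hvf := c_hvf D hN hπ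
  have hfv := v2_fv_res_of (R := R) (K := K) hr hrN hN (v2_basis_V hr hrN) hπ
  have dVF : IsDV (VF1 R K N r).toSubring (algebraMap R (FK K (N * r)) π) := v2_isDV_VF1 hπ
  have dVV : IsDV (VV1 R hr hrN).toSubring (algebraMap R (FK K (N * r)) π) :=
    v2_isDV_VV1 hr hrN hπ
  have dWVF : IsDV (WVF R K N r).toSubring (algebraMap R (FK K (N * r * r)) π) := v2_isDV_WVF hπ
  have dWFV : IsDV (WFV R hr hrN).toSubring (algebraMap R (FK K (N * r * r)) π) :=
    v2_isDV_WFV hr hrN hπ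
  have dW : IsDV W.toSubring (vY K N r) := D.isDV hN hπ
  have D₁ := x7_iHalf_e1 hr hrN hπ D hvf hfv he₁ he₂ ht2 hPi L Hn dVF dVV dWVF dWFV dW hN₁ H₁
  have D₂ := x7_iHalf_e2 hr hrN hπ D hvf hfv he₁ he₂ ht2 hPi L Hn dVF dVV dWVF dWFV dW hN₂ H₂
  exact i_top hr hrN hm hπ.ne_zero hζ t2 W D₁.n1F D₁.n1V D₂.n1F D₂.n1V (x8_RW hr hrN D)
    (x8_val_pi hr hrN hπ D) (x8_app hr hrN hπ D hN)
    (x8_chartOK hr hrN hπ D hN he₁ he₂ ht2 hPi L hmid Hn hN₁ hN₂ H₁ H₂ hmr)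
    (x8_chartOK hr hrN hπ D hN he₁' he₂' ht2' hPi' L' hmid' Hn' hN₁ hN₂ H₁ H₂ hmr)

end main

end Fermat.Agent.CARlib
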