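import Fermat.Agent.CAR.BLoc
import Fermat.Agent.CAR.BTopL
import Fermat.Agent.CAR.BInstFK
import Fermat.Agent.CAR.CHmid

/-!
# T-CAR, blocks B and C in one chart of the modular frame: `L : CLev1` and `hmid`
(from `bl_local`, `bTopL_of_nodeHyp`, `cHmid_gen`)
-/

set_option autoImplicit false
set_option linter.unusedSectionVars false
set_option linter.unusedVariables false
set_option linter.style.haveILetI false

open ModularCurve Polynomial IsLocalRing

namespace Fermat.Agent.CARlib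

open Fermat.Agent.ESlib Fermat.Agent.UNIlib

variable {R K : Type} [CommRing R] [IsDomain R] [IsDiscreteValuationRing R] [Field K] [Algebra R K]
  [IsFractionRing R K] [CharZero K] [Algebra ℚ K] [Algebra K ℂ] [IsScalarTower ℚ K ℂ]
  [Algebra R ℂ] [IsScalarTower R K ℂ] {N r : ℕ} [NeZero N] [NeZero r] [NeZero (N * r)]
  [NeZero (N * r * r)]
  [Algebra R (FK K N)] [IsScalarTower R K (FK K N)]
  [Algebra R (FK K (N * r))] [IsScalarTower R K (FK K (N * r))]
  [Algebra R (FK K (N * r * r))] [IsScalarTower R K (FK K (N * r * r))]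
  [CharP (IsLocalRing.ResidueField R) r] [IsAlgClosed (IsLocalRing.ResidueField R)]

set_option maxHeartbeats 4000000 in
/-- **blocks B and C in one chart** -/
theorem xb_chart (hr : r.Prime) (hrN : ¬ r ∣ N) (h49 : 4 ∣ N ∨ 9 ∣ N)
    (hN : (N : IsLocalRing.ResidueField R) ≠ 0) (hπ : Irreducible ((r : ℕ) : R))
    {W : ValuationSubring (FK K (N * r * r))} (D : VCore hr hrN ((r : ℕ) : R) W)
    {T₀ : FK K N} {t2 : FK K (N * r * r)}
    [IsFractionRing (integralClosure (Algebra.adjoin R {T₀}) (FK K N)) (FK K N)]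
    [IsIntegrallyClosed (integralClosure (Algebra.adjoin R {T₀}) (FK K N))]
    (he₁ : C.cE1 R K hr hrN (inclF K (dvd_mul_right N r) T₀) = t2)
    (he₂ : C.cE2 R K N r (inclF K (dvd_mul_right N r) T₀) = t2)
    (hsub : ∀ x : integralClosure (Algebra.adjoin R {t2}) (FK K (N * r * r)),
      (x : FK K (N * r * r)) ∈ W)
    {q : ℕ} {ρ : FK K (N * r) →+* FK K (N * r)}
    (Hn : NodeHyp ((r : ℕ) : R) (inclF K (dvd_mul_right N r) T₀) (VF1 R K N r)
      (VV1 (K := K) R hr hrN) q ρ)
    {γ : FK K (N * r) ≃+* FK K (N * r)}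
    (H : letI : Algebra (FK K N) (FK K (N * r)) := (oldI K N r).toAlgebra
      B6Hyp ((r : ℕ) : R) T₀ (gaussVal R K (N * r)) (wr K hr hrN).toRingEquiv γ r)
    (hX0 : ∀ (z' : Ideal (integralClosure (Algebra.adjoin R {T₀}) (FK K N))) [z'.IsMaximal],
      algebraMap R (integralClosure (Algebra.adjoin R {T₀}) (FK K N)) ((r : ℕ) : R) ∈ z' →
      IsNoetherianRing (integralClosure (Algebra.adjoin R {T₀}) (FK K N)) ∧
      Prime (algebraMap R (integralClosure (Algebra.adjoin R {T₀}) (FK K N)) ((r : ℕ) : R)) ∧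
      ∃ t ∈ z', (∀ x ∈ z', ∃ s, s ∉ z' ∧ s * x ∈ Ideal.span
          {algebraMap R (integralClosure (Algebra.adjoin R {T₀}) (FK K N)) ((r : ℕ) : R), t}) ∧
        ∀ (O : Type) [CommRing O] [Algebra (integralClosure (Algebra.adjoin R {T₀}) (FK K N)) O]
          [IsLocalization.AtPrime O z'] [IsLocalRing O], IsNoetherianRing O ∧
          maximalIdeal O = Ideal.span {algebraMap (integralClosure (Algebra.adjoin R {T₀}) (FK K N)) O
            (algebraMap R (integralClosure (Algebra.adjoin R {T₀}) (FK K N)) ((r : ℕ) : R)),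
            algebraMap (integralClosure (Algebra.adjoin R {T₀}) (FK K N)) O t} ∧
          Prime (algebraMap (integralClosure (Algebra.adjoin R {T₀}) (FK K N)) O
            (algebraMap R (integralClosure (Algebra.adjoin R {T₀}) (FK K N)) ((r : ℕ) : R))))
    (a : ℕ) (hua : IsUnit ((a : ℕ) : R))
    (hd : ∀ (O : Type) [CommRing O] [IsLocalRing O] [Algebra O (FK K N)] (T' : O),
      IsUnit ((a : ℕ) : O) → algebraMap O (FK K N) T' = T₀ →
      (∃ c : O, algebraMap O (FK K N) c = J1 K N) ∨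
        (∃ c ∈ maximalIdeal O, algebraMap O (FK K N) c = (J1 K N)⁻¹))
    {A : R[X]} {e : ℕ} (he : 0 < e) (hA0 : IsUnit (A.coeff 0))
    (hrel : J1 K N * T₀ ^ e = aeval T₀ A) :
    C.CLev1 (algebraMap R (integralClosure
      (Algebra.adjoin R {inclF K (dvd_mul_right N r) T₀}) (FK K (N * r))) ((r : ℕ) : R))
      (VF1 R K N r) (VV1 (K := K) R hr hrN) (C.cCen _ (VF1 R K N r))
      (C.cCen _ (VV1 (K := K) R hr hrN)) ∧
    ∀ 𝔫 : Ideal (integralClosure (Algebra.adjoin R {t2}) (FK K (N * r * r))), 𝔫.IsMaximal →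
      C.cCen (integralClosure (Algebra.adjoin R {t2}) (FK K (N * r * r))) W ≤ 𝔫 →
      C.CMid (algebraMap R (integralClosure (Algebra.adjoin R {t2}) (FK K (N * r * r)))
        ((r : ℕ) : R)) W 𝔫 := by
  letI : Algebra (FK K N) (FK K (N * r)) := (oldI K N r).toAlgebra
  haveI := binst_finiteDimensional K hr hrN
  haveI := binst_isSeparable K hr hrN
  haveI : IsScalarTower R (FK K N) (FK K (N * r)) := binst_isScalarTower (N := N) (r := r) K R
  have hr0 : ((r : ℕ) : FK K (N * r)) ≠ 0 := Nat.cast_ne_zero.2 hr.ne_zero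
  have hπr : algebraMap R (FK K (N * r)) ((r : ℕ) : R) / (r : FK K (N * r)) ∈
      gaussSub R K (N * r) := by
    rw [map_natCast, div_self hr0]; exact (gaussSub R K (N * r)).one_mem
  have hπr' : (r : FK K (N * r)) / algebraMap R (FK K (N * r)) ((r : ℕ) : R) ∈
      gaussSub R K (N * r) := by
    rw [map_natCast, div_self hr0]; exact (gaussSub R K (N * r)).one_mem
  have loc := fun (z' : Ideal (integralClosure (Algebra.adjoin R {T₀}) (FK K N)))
      (hz' : z'.IsMaximal)
      (hπz : algebraMap R (integralClosure (Algebra.adjoin R {T₀}) (FK K N)) ((r : ℕ) : R) ∈ z') =>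
    bl_local (R := R) (K := K) (N := N) (r := r) rfl hπ hr hrN h49 hN hπr hπr' H z' hπz
      (hX0 z' hπz)
  constructor
  · refine bTopL_of_nodeHyp hπ hr hrN T₀ Hn ?_
    intro z' hz' hπz
    obtain ⟨t, s, pF, pV, DB, hnc, hcusp⟩ := loc z' hz' hπz
    refine ⟨t, s, pF, pV, DB, fun hne => ?_⟩
    have hTI : IsIntegral (Algebra.adjoin R {T₀}) T₀ :=
      isIntegral_algebraMap (R := Algebra.adjoin R {T₀})
        (x := ⟨T₀, Algebra.self_mem_adjoin_singleton R T₀⟩)
    have hua' : IsUnit ((a : ℕ) : C.CO₀ (FK K N) z') := by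
      have h1 := (hua.map (algebraMap R (integralClosure (Algebra.adjoin R {T₀}) (FK K N)))).map
        (algebraMap (integralClosure (Algebra.adjoin R {T₀}) (FK K N)) (C.CO₀ (FK K N) z'))
      rwa [map_natCast, map_natCast] at h1
    have hT' : algebraMap (C.CO₀ (FK K N) z') (FK K N)
        (algebraMap (integralClosure (Algebra.adjoin R {T₀}) (FK K N)) (C.CO₀ (FK K N) z')
          ⟨T₀, hTI⟩) = T₀ :=
      ((C.CO₀.tower₀ (F₀ := FK K N) (z' := z')).algebraMap_apply _ _ _ _).symm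
    rcases hd (C.CO₀ (FK K N) z') _ hua' hT' with hJ | hJ
    · obtain ⟨b, aF, hb, haF, hV, hF⟩ := hnc hJ
      refine ⟨aF, _, haF, ?_, ?_⟩
      · rw [hF]; exact Ideal.mem_span_singleton_self _
      · rw [hV]; exact Ideal.mem_span_singleton_self _
    · exact absurd (hcusp hJ) hne
  · intro 𝔫 h𝔫 hP
    refine C.cHmid_gen (fun x => rfl) hr hrN hN hπ (Associated.refl _) D he₁ he₂ hsub
      (fun x => ⟨Hn.int_mem₁ _ x.2, Hn.int_mem₂ _ x.2⟩) he hA0 hrel ?_ 𝔫 h𝔫 hP
    intro z' hz' hπz hJ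
    obtain ⟨t, s, pF, pV, DB, hnc, hcusp⟩ := loc z' hz' hπz
    obtain ⟨b, aF, hb, haF, -, -⟩ := hnc hJ
    exact ⟨b, aF, hb, haF⟩

end Fermat.Agent.CARlib
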