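import Fermat.Agent.CAR.XTop
import Fermat.Agent.CAR.X3Chart
import Fermat.Agent.CAR.X4Top
import Fermat.Agent.CAR.V2Data
import Fermat.Agent.CAR.V2W2
import Fermat.Agent.CAR.V2Fin
import Fermat.Agent.CAR.NVInst
import Fermat.Agent.CAR.NVKron
import Fermat.Agent.CAR.CTop
import Fermat.Agent.CAR.BGam
import Fermat.Agent.CAR.ITopMod
import Fermat.Agent.CAR.XB
import Fermat.Agent.UNI.NormaliseFK

/-!
# T-CAR, block X: `carK : CarK` (final assembly)
-/

set_option autoImplicit false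
set_option linter.unusedSectionVars false
set_option linter.unusedVariables false
set_option linter.style.haveILetI false

open ModularCurve AlgebraicCurve IntermediateField

namespace Fermat.Agent.CARlib

open Fermat.Agent.ESlib Fermat.Agent.UNIlib Fermat.Agent.UNIlib.Normalise

theorem carK : CarK := by
  intro R K _ _ _ _ _ _ _ _ _ _ _ _ N r m _ _ _ _ _ hr hrN h49 hm hrm hπ hNR hmR hpow hζ' hz hs
  obtain ⟨ζ, hζ⟩ := hζ'
  haveI : NeZero (N * r * r) := ⟨Nat.mul_ne_zero (NeZero.ne (N * r)) (NeZero.ne r)⟩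
  letI : Algebra R (FK K N) := ((algebraMap K (FK K N)).comp (algebraMap R K)).toAlgebra
  haveI : IsScalarTower R K (FK K N) := IsScalarTower.of_algebraMap_eq fun _ => rfl
  letI : Algebra R (FK K (N * r)) :=
    ((algebraMap K (FK K (N * r))).comp (algebraMap R K)).toAlgebra
  haveI : IsScalarTower R K (FK K (N * r)) := IsScalarTower.of_algebraMap_eq fun _ => rfl
  letI : Algebra R (FK K (N * r * r)) :=
    ((algebraMap K (FK K (N * r * r))).comp (algebraMap R K)).toAlgebra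
  haveI : IsScalarTower R K (FK K (N * r * r)) := IsScalarTower.of_algebraMap_eq fun _ => rfl
  obtain ⟨a, ha, haN⟩ : ∃ a : ℕ, (a = 2 ∨ a = 3) ∧ a ∣ N := by
    rcases h49 with h | h
    · exact ⟨2, Or.inl rfl, (by norm_num : 2 ∣ 4).trans h⟩
    · exact ⟨3, Or.inr rfl, (by norm_num : 3 ∣ 9).trans h⟩
  haveI : NeZero a := ⟨by rcases ha with rfl | rfl <;> norm_num⟩
  have hNres : (N : IsLocalRing.ResidueField R) ≠ 0 := by
    have h1 := hNR.map (IsLocalRing.residue R)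
    rw [map_natCast] at h1
    exact h1.ne_zero
  -- block V
  obtain ⟨W, D⟩ : ∃ W : ValuationSubring (FK K (N * r * r)), VCore hr hrN ((r : ℕ) : R) W :=
    v2b_exists hr hrN hNres hπ
  have hBV : ∀ c : Fin r → FK K (N * r),
      ∑ i, i12 K N r (c i) * vJ2 K N r ^ (i : ℕ) ∈ WFV R hr hrN → ∀ i, c i ∈ VV1 R hr hrN :=
    v2_basis_V hr hrN
  haveI := (x3_finiteDimensional_vT2 (K := K) a ha haN R hr hrN hNres).1
  have dVF : IsDV (VF1 R K N r).toSubring (algebraMap R (FK K (N * r)) ((r : ℕ) : R)) :=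
    v2_isDV_VF1 hπ
  have dVV : IsDV (VV1 R hr hrN).toSubring (algebraMap R (FK K (N * r)) ((r : ℕ) : R)) :=
    v2_isDV_VV1 hr hrN hπ
  have dWVF : IsDV (WVF R K N r).toSubring (algebraMap R (FK K (N * r * r)) ((r : ℕ) : R)) :=
    v2_isDV_WVF hπ
  have dWFV : IsDV (WFV R hr hrN).toSubring (algebraMap R (FK K (N * r * r)) ((r : ℕ) : R)) :=
    v2_isDV_WFV hr hrN hπ
  have dW : IsDV W.toSubring (vY K N r) := D.isDV hNres hπ
  have hπ20 : algebraMap R (FK K (N * r * r)) ((r : ℕ) : R) ≠ 0 := by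
    rw [map_natCast]
    exact_mod_cast hr.ne_zero
  have hY0 : vY K N r ≠ 0 := by
    intro h
    apply D.vv_y.2
    rw [h, inv_zero]
    exact W.zero_mem
  have hy : nU W.toSubring (vY K N r ^ (r - 1) / algebraMap R (FK K (N * r * r)) ((r : ℕ) : R)) :=
    ⟨div_ne_zero (pow_ne_zero _ hY0) hπ20, D.vv_pow.1, by rw [inv_div]; exact D.vv_pow.2⟩
  have hRW : ∀ a : R, algebraMap R (FK K (N * r * r)) a ∈ WVF R K N r ∧
      algebraMap R (FK K (N * r * r)) a ∈ WFV R hr hrN ∧ algebraMap R (FK K (N * r * r)) a ∈ W := by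
    intro c
    have h1 : algebraMap R (FK K (N * r * r)) c ∈ WVF R K N r := algebraMap_R_mem_gaussSub c
    refine ⟨h1, ?_, ?_⟩
    · show w2 K hr hrN (algebraMap R (FK K (N * r * r)) c) ∈ gaussVal R K (N * r * r)
      rw [IsScalarTower.algebraMap_apply R K (FK K (N * r * r)), AlgEquiv.commutes,
        ← IsScalarTower.algebraMap_apply R K (FK K (N * r * r))]
      exact h1
    · have h2 : algebraMap R (FK K (N * r * r)) c = i12 K N r (algebraMap R (FK K (N * r)) c) := by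
        rw [IsScalarTower.algebraMap_apply R K (FK K (N * r * r)),
          IsScalarTower.algebraMap_apply R K (FK K (N * r)), AlgHom.commutes]
      rw [h2]
      exact (D.vv_incl _).2 (algebraMap_R_mem_gaussSub c)
  obtain ⟨N₁, N₂, hN₁, hN₂, H₁, H₂⟩ : ∃ N₁ N₂ : FK K (N * r * r) →*₀ FK K (N * r),
      (∀ x, N₁ x = normAlong (e1 K hr hrN) x) ∧ (∀ x, N₂ x = normAlong (e2 K N r) x) ∧
      NHalf r (e1 K hr hrN).toRingHom N₁ (VF1 R K N r).toSubring (VV1 R hr hrN).toSubring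
        (algebraMap R (FK K (N * r)) ((r : ℕ) : R)) (WFV R hr hrN).toSubring
        (WVF R K N r).toSubring W.toSubring (vY K N r) ∧
      NHalf r (e2 K N r).toRingHom N₂ (VF1 R K N r).toSubring (VV1 R hr hrN).toSubring
        (algebraMap R (FK K (N * r)) ((r : ℕ) : R)) (WVF R K N r).toSubring
        (WFV R hr hrN).toSubring W.toSubring (vY K N r) :=
    nv_inst hr hrN hNres hπ D (nv_kron hr hrN hNres hπ)
  have happ : ∀ x₁ x₂ x₃ : FK K (N * r * r), x₁ ≠ 0 → x₂ ≠ 0 → x₃ ≠ 0 → ∃ S : FK K (N * r * r),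
      S ≠ 0 ∧
      OneMod (WVF R K N r).toSubring (algebraMap R (FK K (N * r * r)) ((r : ℕ) : R)) (S / x₁) ∧
      OneMod (WFV R hr hrN).toSubring (algebraMap R (FK K (N * r * r)) ((r : ℕ) : R)) (S / x₂) ∧
      OneMod W.toSubring (vY K N r) (S / x₃) := by
    intro x₁ x₂ x₃ h₁ h₂ h₃
    obtain ⟨S, hS, a1, a2, -, a3⟩ := D.approx_mul hNres hπ x₁ x₂ x₃ h₁ h₂ h₃
    exact ⟨S, hS, a1, a2, a3⟩
  -- `NodeHyp` in both charts of level `N r`
  obtain ⟨s, sR, hs1, hs2⟩ := hs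
  have hIF : InvFrob ((r : ℕ) : R) r s sR := ⟨fun c => (hs1 c).symm, hs2⟩
  obtain ⟨Hn0, Hn0'⟩ := bgam_nodeHyp hIF hπ hr hrN hNR a ha haN hz
  have Hn : NodeHyp ((r : ℕ) : R) (inclF K (dvd_mul_right N r) (tF K N a ha haN)) (VF1 R K N r)
      (VV1 R hr hrN) (r ^ 2) (gamK K (N * r) (s * s) : FK K (N * r) →+* FK K (N * r)) := by
    rw [tv_incl_tF]; exact Hn0
  have Hninv : NodeHyp ((r : ℕ) : R) (inclF K (dvd_mul_right N r) (tF K N a ha haN)⁻¹)
      (VF1 R K N r) (VV1 R hr hrN) (r ^ 2)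
      (gamK K (N * r) (s * s) : FK K (N * r) →+* FK K (N * r)) := by
    rw [map_inv₀, tv_incl_tF]; exact Hn0'
  -- blocks B (level `N r`) and C (middle component), both charts
  have haR : IsUnit ((a : ℕ) : R) := by
    obtain ⟨k, rfl⟩ := haN
    rw [Nat.cast_mul] at hNR
    exact isUnit_of_mul_isUnit_left hNR
  obtain ⟨HB, HBinv⟩ := b6e_hyp hIF hπ hr hrN hNR a ha haN hz
  haveI := binst_isFractionRing_tF K R N a ha haN
  haveI := binst_isIntegrallyClosed_tF K R N a ha haN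
  haveI := binst_isFractionRing_tF_inv K R N a ha haN
  haveI := binst_isIntegrallyClosed_tF_inv K R N a ha haN
  obtain ⟨A, e, hA, he, he', hA0, hrel⟩ := b7_exists_tF_rel (K := K) (N := N) R a ha haN haR
  obtain ⟨L, hmid⟩ := xb_chart hr hrN h49 hNres hπ D (C.cE1_chart a ha haN hr hrN)
    (C.cE2_chart a ha haN)
    (fun x => ((D.piInt_iff a ha haN hNres hBV hπ _).1 (PiInt.of_isIntegral hπ.prime x.2)).2.2)
    Hn HB (fun z' _ hπz => x0_regular_tF N hπ hNR a ha haN hz z' hπz) a haR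
    (fun O _ _ _ T' hu hT => b7_dich_tF a ha haN hu T' hT) he hA0 hrel
  obtain ⟨Linv, hmidinv⟩ := xb_chart hr hrN h49 hNres hπ D (C.cE1_chart_inv a ha haN hr hrN)
    (C.cE2_chart_inv a ha haN)
    (fun x => ((D.piInt_inv_iff a ha haN hNres hBV hπ _).1
      (PiInt.of_isIntegral hπ.prime x.2)).2.2)
    Hninv HBinv (fun z' _ hπz => x0_regular_tF_inv N hπ hNR a ha haN hz z' hπz) a haR
    (fun O _ _ _ T' _ hT => b7_dich_tF_inv a ha haN T' hT)
    (A := A.reverse) (e := A.natDegree - e) (by omega)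
    (by rw [Polynomial.coeff_zero_reverse, hA.leadingCoeff]; exact isUnit_one)
    (c_dich_rel_inv he' (tF_ne_zero K N a ha haN) hrel)
  haveI := (x3_finiteDimensional_vT2 (K := K) a ha haN R hr hrN hNres).2
  have hmr : Nat.Coprime m r := ((Nat.Prime.coprime_iff_not_dvd hr).2 hrm).symm
  have hOK : IChartOK hr hrN ((r : ℕ) : R) W (vT2 K r a ha haN) m :=
    itm_chartOK D hNres hπ (C.cE1_chart a ha haN hr hrN) (C.cE2_chart a ha haN)
      (x3_transcendental_vT2 a ha haN) (D.piInt_iff a ha haN hNres hBV hπ) L Hn hmid hmr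
  have hOK' : IChartOK hr hrN ((r : ℕ) : R) W (vT2 K r a ha haN)⁻¹ m :=
    itm_chartOK D hNres hπ (C.cE1_chart_inv a ha haN hr hrN) (C.cE2_chart_inv a ha haN)
      (C.transcendental_vT2_inv a ha haN) (D.piInt_inv_iff a ha haN hNres hBV hπ) Linv Hninv
      hmidinv hmr
  have hvf := C.c_hvf D hNres hπ
  have hfv := v2_fv_res_of (R := R) (K := K) hr hrN hNres hBV hπ
  have D₁ := x7_iHalf_e1 hr hrN hπ D hvf hfv (C.cE1_chart a ha haN hr hrN) (C.cE2_chart a ha haN)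
    (x3_transcendental_vT2 a ha haN) (D.piInt_iff a ha haN hNres hBV hπ) L Hn dVF dVV dWVF dWFV dW
    hN₁ H₁
  have D₂ := x7_iHalf_e2 hr hrN hπ D hvf hfv (C.cE1_chart a ha haN hr hrN) (C.cE2_chart a ha haN)
    (x3_transcendental_vT2 a ha haN) (D.piInt_iff a ha haN hNres hBV hπ) L Hn dVF dVV dWVF dWFV dW
    hN₂ H₂
  have hI : XI hr hrN ((r : ℕ) : R) W (vT2 K r a ha haN) m := by
    refine i_top hr hrN hm hπ.ne_zero hζ (vT2 K r a ha haN) W D₁.n1F D₁.n1V D₂.n1F D₂.n1V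
      ?_ ?_ ?_ hOK hOK'
    · intro i z
      fin_cases i
      · exact (hRW z).2.1
      · exact (hRW z).1
      · exact (hRW z).2.2
    · intro i
      fin_cases i
      · exact C.cg_val_pi_WFV hr hrN hπ
      · exact C.cg_val_pi hπ
      · exact C.val_pi_W hr hrN D hπ
    · intro s'
      obtain ⟨G, h1, h2, h3⟩ := D.approx hNres hπ (s' 1) (s' 0) (s' 2)
      refine ⟨G, fun i => ?_⟩
      fin_cases i
      · exact h2
      · exact h1
      · exact h3
  have hreg' : ∀ 𝔫 : Ideal (integralClosure (Algebra.adjoin R {(vT2 K r a ha haN)⁻¹})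
      (FK K (N * r * r))), 𝔫.IsMaximal → algebraMap R _ ((r : ℕ) : R) ∈ 𝔫 →
      ∃ P : Ideal (integralClosure (Algebra.adjoin R {(vT2 K r a ha haN)⁻¹}) (FK K (N * r * r))),
        P.IsPrime ∧ P ≤ 𝔫 ∧ ∃ a b, a ≠ 0 ∧ C.CReg 𝔫 P a b := by
    intro 𝔫 h𝔫 hπ𝔫
    obtain ⟨⟨P, hP, -, hle, h⟩, -⟩ := C.c_top_inv a ha haN D hNres hπ Linv hmidinv 𝔫 h𝔫 hπ𝔫
    exact ⟨P, hP, hle, h⟩
  have hX4 : X4 hr hrN ((r : ℕ) : R) W (vT2 K r a ha haN) m :=
    x4_of_reg hr hrN hm hπ hpow (vT2 K r a ha haN) (x3_transcendental_vT2 a ha haN) W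
      (D.piInt_inv_iff a ha haN hNres hBV hπ) (x3_vT2_inv_powerSeries a ha haN) hreg'
  exact x5_carKAt hr hrN hm hrm hπ hmR hpow ζ hζ (vT2 K r a ha haN)
    (x3_transcendental_vT2 a ha haN) W (D.piInt_iff a ha haN hNres hBV hπ) N₁ N₂ hN₁ hN₂
    dVF dVV dWVF dWFV dW hy hRW H₁ H₂ happ hI hX4

end Fermat.Agent.CARlib
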