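import Fermat.Agent.CAR.BGam
import Fermat.Agent.CAR.VDefs
import Fermat.Agent.UNI.TwoValPi

/-!
# T-CAR, block X: `NodeHyp` for the two charts of level `N r`, in the frame of `XFinal`
-/

set_option autoImplicit false
set_option linter.unusedSectionVars false
set_option linter.unusedVariables false
set_option linter.style.haveILetI false

open ModularCurve

namespace Fermat.Agent.CARlib

open Fermat.Agent.ESlib Fermat.Agent.UNIlib

variable {R K : Type} [CommRing R] [IsDomain R] [IsDiscreteValuationRing R] [Field K] [Algebra R K]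
  [IsFractionRing R K] [CharZero K] [Algebra ℚ K] [Algebra K ℂ] [IsScalarTower ℚ K ℂ]
  [Algebra R ℂ] [IsScalarTower R K ℂ] {N r : ℕ} [NeZero N] [NeZero r] [NeZero (N * r)]
  [CharP (IsLocalRing.ResidueField R) r]
  [Algebra R (FK K (N * r))] [IsScalarTower R K (FK K (N * r))]
  {π : R}

/-- the Frobenius hypothesis of `CarK` is an `InvFrob` -/
theorem xn_invFrob
    (hs : ∃ (s : K ≃ₐ[ℚ] K) (sR : R →+* R), (∀ c, s (algebraMap R K c) = algebraMap R K (sR c)) ∧
      ∀ c, π ∣ sR c ^ r - c) :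
    ∃ (s : K ≃ₐ[ℚ] K) (sR : R →+* R), InvFrob π r s sR := by
  obtain ⟨s, sR, h1, h2⟩ := hs
  exact ⟨s, sR, fun c => (h1 c).symm, h2⟩

/-- **`NodeHyp` in both charts, in the frame of `XFinal`.** -/
theorem xn_nodeHyp
    (hs : ∃ (s : K ≃ₐ[ℚ] K) (sR : R →+* R), (∀ c, s (algebraMap R K c) = algebraMap R K (sR c)) ∧
      ∀ c, π ∣ sR c ^ r - c)
    (hπ : Irreducible π) (hr : r.Prime) (hrN : ¬ r ∣ N)
    (hN : IsUnit (N : R)) (a : ℕ) [NeZero a] (ha : a = 2 ∨ a = 3) (haN : a ∣ N)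
    (hζN : ∃ z : K, IsPrimitiveRoot z N) :
    ∃ ρ : FK K (N * r) →+* FK K (N * r),
      NodeHyp π (inclF K (dvd_mul_right N r) (tF K N a ha haN)) (VF1 R K N r) (VV1 R hr hrN)
        (r ^ 2) ρ ∧
      NodeHyp π (inclF K (dvd_mul_right N r) (tF K N a ha haN)⁻¹) (VF1 R K N r) (VV1 R hr hrN)
        (r ^ 2) ρ := by
  obtain ⟨s, sR, h⟩ := xn_invFrob hs
  obtain ⟨h1, h2⟩ := bgam_nodeHyp h hπ hr hrN hN a ha haN hζN
  refine ⟨(gamK K (N * r) (s * s) : FK K (N * r) →+* FK K (N * r)), ?_, ?_⟩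
  · rw [tv_incl_tF]
    exact h1
  · rw [map_inv₀, tv_incl_tF]
    exact h2

end Fermat.Agent.CARlib
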