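import Fermat.Agent.CAR.CLev1Top
import Fermat.Agent.CAR.CInstV
import Fermat.Agent.CAR.V2Res
import Fermat.Agent.CAR.V2W2
import Fermat.Agent.CAR.BGam
import Fermat.Agent.CAR.X0FK

/-!
# T-CAR, block X: small concrete inputs of `x6_iHalf` (`hnormF`, `hresF`, `hsubF`, `hsubV`, `NodeHyp`)
-/

set_option autoImplicit false
set_option linter.unusedSectionVars false
set_option linter.unusedVariables false

open ModularCurve Polynomial

namespace Fermat.Agent.CARlib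

open Fermat.Agent.ESlib Fermat.Agent.UNIlib

/-- `hnormF` of `x6_iHalf` / `c1_frob` from `NodeHyp.norm₁` -/
theorem xs_normF {R F : Type*} [CommRing R] [Field F] [Algebra R F] {π : R} {T : F}
    {VF VV : ValuationSubring F} {q : ℕ} {ρ : F →+* F} (H : NodeHyp π T VF VV q ρ)
    (unifF : ∀ x : F, VF.valuation x < 1 → x / algebraMap R F π ∈ VF)
    (hpi : (algebraMap R F π)⁻¹ ∉ VF) (Z : F) (hZ : Z ∈ VF)
    (p : (integralClosure (Algebra.adjoin R {T}) F)[X]) (hp : p.Monic)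
    (h : VF.valuation (aeval Z p) < 1) :
    ∃ x : integralClosure (Algebra.adjoin R {T}) F,
      VF.valuation (Z - algebraMap (integralClosure (Algebra.adjoin R {T}) F) F x) < 1 := by
  obtain ⟨x, hx, hx'⟩ := H.norm₁ Z ⟨hZ, p.map (algebraMap _ F), hp.map _, fun i => by
    rw [coeff_map]; exact (p.coeff i).2, by
    rw [eval_map_algebraMap]; exact unifF _ h⟩
  exact ⟨⟨x, hx⟩, C.val_lt_one_of_div_mem hpi hx'⟩

theorem xs_subF {R F : Type*} [CommRing R] [Field F] [Algebra R F] {π : R} {T : F}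
    {VF VV : ValuationSubring F} {q : ℕ} {ρ : F →+* F} (H : NodeHyp π T VF VV q ρ)
    (b : integralClosure (Algebra.adjoin R {T}) F) :
    algebraMap (integralClosure (Algebra.adjoin R {T}) F) F b ∈ VF := H.int_mem₁ _ b.2

theorem xs_subV {R F : Type*} [CommRing R] [Field F] [Algebra R F] {π : R} {T : F}
    {VF VV : ValuationSubring F} {q : ℕ} {ρ : F →+* F} (H : NodeHyp π T VF VV q ρ)
    (b : integralClosure (Algebra.adjoin R {T}) F) :
    algebraMap (integralClosure (Algebra.adjoin R {T}) F) F b ∈ VV := H.int_mem₂ _ b.2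

section main

variable {R K : Type} [CommRing R] [IsDomain R] [IsDiscreteValuationRing R] [Field K]
  [Algebra R K] [IsFractionRing R K] [Algebra ℚ K] [CharZero K] [Algebra K ℂ] [IsScalarTower ℚ K ℂ]
  [Algebra R ℂ] [IsScalarTower R K ℂ]
  {N r : ℕ} [NeZero N] [NeZero r] [NeZero (N * r)] [NeZero (N * r * r)]
  [Algebra R (FK K N)] [IsScalarTower R K (FK K N)]
  [Algebra R (FK K (N * r))] [IsScalarTower R K (FK K (N * r))]
  [Algebra R (FK K (N * r * r))] [IsScalarTower R K (FK K (N * r * r))]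
  [CharP (IsLocalRing.ResidueField R) r]

/-- `hresF` of `x6_iHalf` along `e₁` (`Wi = W_FV`) -/
theorem xs_resF_e1 (hr : r.Prime) (hrN : ¬ r ∣ N) (hN : (N : IsLocalRing.ResidueField R) ≠ 0)
    {π : R} (hπ : Irreducible π) (x : FK K (N * r * r)) (hx : x ∈ WFV R hr hrN) :
    ∃ u ∈ VF1 R K N r, (WFV R hr hrN).valuation (x ^ r - e1 K hr hrN u) < 1 := by
  obtain ⟨c, hc, h⟩ := v2_fv_res_of hr hrN hN (v2_basis_V hr hrN) hπ x hx
  refine ⟨wr K hr hrN c, hc, ?_⟩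
  rw [e1_wr]
  refine C.val_lt_one_of_div_mem (ϖ := algebraMap R (FK K (N * r * r)) π) ?_ h
  intro h1
  have h2 : w2 K hr hrN (algebraMap R (FK K (N * r * r)) π)⁻¹ ∈ gaussVal R K (N * r * r) := h1
  rw [map_inv₀, C.w2_algebraMap_R] at h2
  exact x0_gauss_pi_inv (N * r * r) hπ h2

/-- `hresF` of `x6_iHalf` along `e₂` (`Wi = W_VF`) -/
theorem xs_resF_e2 (hr : r.Prime) (hrN : ¬ r ∣ N) (hN : (N : IsLocalRing.ResidueField R) ≠ 0)
    {π : R} (hπ : Irreducible π) (x : FK K (N * r * r)) (hx : x ∈ WVF R K N r) :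
    ∃ u ∈ VF1 R K N r, (WVF R K N r).valuation (x ^ r - e2 K N r u) < 1 := by
  have hx' : w2 K hr hrN x ∈ WFV R hr hrN := by
    show w2 K hr hrN (w2 K hr hrN x) ∈ gaussVal R K (N * r * r)
    rw [w2_w2]
    exact hx
  obtain ⟨u, hu, h⟩ := xs_resF_e1 hr hrN hN hπ _ hx'
  refine ⟨u, hu, ?_⟩
  have h1 := (C.val_comap_lt_one_iff (W := WVF R K N r) (V := WFV R hr hrN)
      (e := (w2 K hr hrN : FK K (N * r * r) →+* FK K (N * r * r))) rfl _).2 h
  have h2 : (w2 K hr hrN : FK K (N * r * r) →+* FK K (N * r * r))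
      (w2 K hr hrN x ^ r - e1 K hr hrN u) = x ^ r - e2 K N r u := by
    show w2 K hr hrN (w2 K hr hrN x ^ r - e1 K hr hrN u) = _
    rw [map_sub, map_pow, w2_w2, w2_e1]
  rwa [h2] at h1

/-- `NodeHyp` at level 1 in the two charts `T₁ = incl (tF)`, `incl (tF⁻¹)` from the hypothesis on
`(s, sR)` in `CarK` -/
theorem xs_nodeHyp (hr : r.Prime) (hrN : ¬ r ∣ N) (hπ : Irreducible ((r : ℕ) : R))
    (hN : IsUnit ((N : ℕ) : R)) (a : ℕ) [NeZero a] (ha : a = 2 ∨ a = 3) (haN : a ∣ N)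
    (hζN : ∃ z : K, IsPrimitiveRoot z N)
    (hs : ∃ (s : K ≃ₐ[ℚ] K) (sR : R →+* R),
      (∀ c, s (algebraMap R K c) = algebraMap R K (sR c)) ∧ ∀ c, ((r : ℕ) : R) ∣ sR c ^ r - c) :
    ∃ ρ : FK K (N * r) →+* FK K (N * r),
      NodeHyp ((r : ℕ) : R) (inclF K (dvd_mul_right N r) (tF K N a ha haN)) (VF1 R K N r)
        (VV1 R hr hrN) (r ^ 2) ρ ∧
      NodeHyp ((r : ℕ) : R) (inclF K (dvd_mul_right N r) (tF K N a ha haN)⁻¹) (VF1 R K N r)
        (VV1 R hr hrN) (r ^ 2) ρ := by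
  obtain ⟨s, sR, h1, h2⟩ := hs
  have h : InvFrob ((r : ℕ) : R) r s sR := ⟨fun c => (h1 c).symm, h2⟩
  obtain ⟨H1, H2⟩ := bgam_nodeHyp h hπ hr hrN hN a ha haN hζN
  refine ⟨(gamK K (N * r) (s * s) : FK K (N * r) →+* FK K (N * r)), ?_, ?_⟩
  · rw [tv_incl_tF]
    exact H1
  · rw [map_inv₀, tv_incl_tF]
    exact H2

end main

end Fermat.Agent.CARlib
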