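import Fermat.Agent.CAR.NMain
import Fermat.Agent.ES.E.Transport
import Fermat.Agent.S24.PlaceBasic

/-!
# T-CAR, block X, row (X5): the top chain, abstract form

`g` with `m ∣ div g` and both norms of the form (constant) × (`m`-th power)
`⟹` (`n_main`) `g' = g ^ ((r+1)(r-1)) π ^ k G ^ m ≡ 1 mod π C₂`, norms of `g'` exact `m`-th powers
`⟹` (block I + X4 + crit, hypothesis `hI`) `g' ^ (r² - 1) G₀ ^ m = ψ ^ m`
`⟹` `g ^ ((r+1)(r-1)(r²-1)) = λ ψ' ^ m`.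
-/

set_option autoImplicit false

open AlgebraicCurve

namespace Fermat.Agent.CARlib

open Fermat.Agent.UNIlib.Normalise Fermat.Agent.ESlib

/-- (X2) a nonzero constant is `π ^ k` times an `m`-th power of a unit -/
theorem x2_const {R K : Type*} [CommRing R] [IsDomain R] [IsDiscreteValuationRing R] [Field K]
    [Algebra R K] [IsFractionRing R K] {π : R} (hπ : Irreducible π) {m : ℕ}
    (hpow : ∀ u : Rˣ, ∃ w : Rˣ, w ^ m = u) {lam : K} (h : lam ≠ 0) :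
    ∃ (k : ℤ) (w : K), w ≠ 0 ∧ lam = algebraMap R K π ^ k * w ^ m := by
  obtain ⟨a, b, hb, rfl⟩ := IsFractionRing.div_surjective (A := R) lam
  have hb0 : b ≠ 0 := nonZeroDivisors.ne_zero hb
  have ha0 : a ≠ 0 := by
    rintro rfl
    apply h
    rw [map_zero, zero_div]
  obtain ⟨na, ua, rfl⟩ := IsDiscreteValuationRing.eq_unit_mul_pow_irreducible ha0 hπ
  obtain ⟨nb, ub, rfl⟩ := IsDiscreteValuationRing.eq_unit_mul_pow_irreducible hb0 hπ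
  obtain ⟨w, hw⟩ := hpow (ua * ub⁻¹)
  have hπK : algebraMap R K π ≠ 0 := by
    rw [Ne, IsFractionRing.to_map_eq_zero_iff]
    exact hπ.ne_zero
  have hubK : algebraMap R K (ub : R) ≠ 0 := by
    rw [Ne, IsFractionRing.to_map_eq_zero_iff]
    exact ub.ne_zero
  refine ⟨(na : ℤ) - nb, algebraMap R K (w : R), ?_, ?_⟩
  · rw [Ne, IsFractionRing.to_map_eq_zero_iff]
    exact w.ne_zero
  · rw [← map_pow, ← Units.val_pow_eq_pow_val, hw, zpow_sub₀ hπK, zpow_natCast, zpow_natCast,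
      map_mul, map_mul, map_pow, map_pow, Units.val_mul, map_mul]
    have h1 : algebraMap R K ((ub⁻¹ : Rˣ) : R) = (algebraMap R K (ub : R))⁻¹ := by
      apply eq_inv_of_mul_eq_one_left
      rw [← map_mul, Units.inv_mul, map_one]
    rw [h1]
    have := pow_ne_zero nb hπK
    field_simp

theorem x5_mDiv_const {K F : Type*} [Field K] [Field F] [Algebra K F] {m : ℕ} {c : K}
    (hc : c ≠ 0) : MDiv K m (algebraMap K F c) :=
  ⟨by simpa using hc, fun v => by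
    rw [Fermat.Agent.S24lib.Place.ord_algebraMap]; exact dvd_zero _⟩

/-- a unit of the form `ϖ ^ k b ^ m` is an `m`-th power -/
theorem x5_exact {F : Type*} [Field F] {V : Subring F} {ϖ : F} (d : IsDV V ϖ) {m : ℕ} {x b : F}
    {k : ℤ} (hb : b ≠ 0) (h : x = ϖ ^ k * b ^ m) (hu : nU V x) : ∃ a : F, x = a ^ m := by
  have h0 := d.unif_ne_zero
  obtain ⟨β, hβ⟩ := d.exists_hasOrd hb
  have h1 : HasOrd V ϖ x (k + β * m) := by
    rw [h, mul_comm β]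
    exact (d.hasOrd_zpow k).mul d (hβ.pow m)
  have h2 : k + β * m = 0 := HasOrd.unique d h1 (hasOrd_zero_iff.2 hu)
  refine ⟨b / ϖ ^ β, ?_⟩
  have h3 : k = -(β * m) := by omega
  rw [h, h3, div_pow, ← zpow_natCast (ϖ ^ β) m, ← zpow_mul, zpow_neg, div_eq_mul_inv, mul_comm]

variable {K F₁ F₂ : Type*} [Field K] [Field F₁] [Field F₂] [Algebra K F₁] [Algebra K F₂]

/-- **(X5), abstract form.** -/
theorem x5_abs {r m : ℕ} (hr : 2 ≤ r) (hm : 0 < m) (hrm : Nat.Coprime r m)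
    {e₁ e₂ : F₁ →+* F₂} {N₁ N₂ : F₂ →*₀ F₁} {VF VV : Subring F₁}
    {WVF WFV WVV : Subring F₂} {y : F₂} {π : K} (hπ0 : π ≠ 0)
    (he₁ : ∀ c : K, e₁ (algebraMap K F₁ c) = algebraMap K F₂ c)
    (he₂ : ∀ c : K, e₂ (algebraMap K F₁ c) = algebraMap K F₂ c)
    (dVF : IsDV VF (algebraMap K F₁ π)) (dVV : IsDV VV (algebraMap K F₁ π))
    (dWVF : IsDV WVF (algebraMap K F₂ π)) (dWFV : IsDV WFV (algebraMap K F₂ π))
    (dWVV : IsDV WVV y) (hy : nU WVV (y ^ (r - 1) / algebraMap K F₂ π)) (hm0 : (m : F₂) ≠ 0)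
    (hmVF : (m : F₂)⁻¹ ∈ WVF) (hmFV : (m : F₂)⁻¹ ∈ WFV) (hmVV : (m : F₂)⁻¹ ∈ WVV)
    (H₁ : NHalf r e₁ N₁ VF VV (algebraMap K F₁ π) WFV WVF WVV y)
    (H₂ : NHalf r e₂ N₂ VF VV (algebraMap K F₁ π) WVF WFV WVV y)
    (happ : ∀ x₁ x₂ x₃ : F₂, x₁ ≠ 0 → x₂ ≠ 0 → x₃ ≠ 0 → ∃ S : F₂, S ≠ 0 ∧
      OneMod WVF (algebraMap K F₂ π) (S / x₁) ∧ OneMod WFV (algebraMap K F₂ π) (S / x₂) ∧
      OneMod WVV y (S / x₃))
    (hconst : ∀ lam : K, lam ≠ 0 → ∃ (k : ℤ) (w : K), w ≠ 0 ∧ lam = π ^ k * w ^ m)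
    (hI : ∀ g : F₂, MDiv K m g → OneMod WVF (algebraMap K F₂ π) g →
      OneMod WFV (algebraMap K F₂ π) g → OneMod WVV (algebraMap K F₂ π) g →
      (∃ a, N₁ g = a ^ m) → (∃ a, N₂ g = a ^ m) →
      ∃ G₀ ψ : F₂, G₀ ≠ 0 ∧ g ^ (r ^ 2 - 1) * G₀ ^ m = ψ ^ m)
    {g : F₂} (hg : MDiv K m g)
    (h₁ : ∃ (lam : K) (a : F₁), N₁ g = algebraMap K F₁ lam * a ^ m)
    (h₂ : ∃ (lam : K) (a : F₁), N₂ g = algebraMap K F₁ lam * a ^ m) :
    ∃ (lam : K) (ψ : F₂), g ^ ((r + 1) * (r - 1) * (r ^ 2 - 1)) = algebraMap K F₂ lam * ψ ^ m := by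
  have hπ10 : algebraMap K F₁ π ≠ 0 := dVF.unif_ne_zero
  have hπ20 : algebraMap K F₂ π ≠ 0 := dWVF.unif_ne_zero
  -- constants
  have norm_shape : ∀ {N' : F₂ →*₀ F₁}, (∃ (lam : K) (a : F₁), N' g = algebraMap K F₁ lam * a ^ m) →
      ∃ (k : ℤ) (b : F₁), b ≠ 0 ∧ N' g = algebraMap K F₁ π ^ k * b ^ m := by
    rintro N' ⟨lam, a, h⟩
    have hN0 : N' g ≠ 0 := (map_ne_zero N').2 hg.1
    have hlam : lam ≠ 0 := by
      rintro rfl
      rw [map_zero, zero_mul] at h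
      exact hN0 h
    have ha : a ≠ 0 := by
      rintro rfl
      rw [zero_pow hm.ne', mul_zero] at h
      exact hN0 h
    obtain ⟨k, w, hw, rfl⟩ := hconst lam hlam
    refine ⟨k, algebraMap K F₁ w * a, mul_ne_zero (by simpa using hw) ha, ?_⟩
    rw [h, map_mul, map_zpow₀, map_pow, mul_pow, mul_assoc]
  obtain ⟨k₁, b₁, hb₁, h₁'⟩ := norm_shape h₁
  obtain ⟨k₂, b₂, hb₂, h₂'⟩ := norm_shape h₂
  obtain ⟨k, G, hG, c1, c2, c3⟩ := n_main hr hm hrm (he₁ π) (he₂ π) dVF dVV dWVF dWFV dWVV hy hm0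
    hmVF hmFV hmVV H₁ H₂ happ hg.1 h₁' h₂'
  set s := (r + 1) * (r - 1) with hs
  set g' := g ^ s * algebraMap K F₂ π ^ k * G ^ m with hg'
  have hdiv : MDiv K m g' := by
    refine ((hg.pow' s).mul' ?_).mul' (MDiv.pow_self' hG)
    rw [← map_zpow₀]
    exact x5_mDiv_const (zpow_ne_zero _ hπ0)
  -- norms of `g'`
  have norm' : ∀ {e : F₁ →+* F₂} {N' : F₂ →*₀ F₁} {Wi Wu Wr : Subring F₂} {k' : ℤ} {b : F₁},
      (∀ c : K, e (algebraMap K F₁ c) = algebraMap K F₂ c) →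
      NHalf r e N' VF VV (algebraMap K F₁ π) Wi Wu Wr y → b ≠ 0 →
      N' g = algebraMap K F₁ π ^ k' * b ^ m → nU Wi g' → ∃ a, N' g' = a ^ m := by
    intro e N' Wi Wu Wr k' b he H hb h hu
    have hNG : N' G ≠ 0 := (map_ne_zero N').2 hG
    have e1 : N' g' = algebraMap K F₁ π ^ (k' * s + r * k) * (b ^ s * N' G) ^ m := by
      rw [hg', map_mul, map_mul, map_pow, map_pow, map_zpow₀, ← he π, H.N_e, h,
        zpow_add₀ hπ10, zpow_mul, zpow_mul, zpow_natCast, zpow_natCast, mul_pow, mul_pow,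
        ← pow_mul, ← pow_mul, mul_comm m s]
      ring
    have hu' : nU VF (N' g') := by
      have := H.ordF g' 0 (by rw [zpow_zero, div_one]; exact hu)
      rwa [mul_zero, zpow_zero, div_one] at this
    exact x5_exact dVF (mul_ne_zero (pow_ne_zero _ hb) hNG) e1 hu'
  obtain ⟨G₀, ψ, hG₀, hψ⟩ := hI g' hdiv c1 c2 c3
    (norm' he₁ H₁ hb₁ h₁' (dWFV.nU_of_oneMod c2)) (norm' he₂ H₂ hb₂ h₂' (dWVF.nU_of_oneMod c1))
  set t := r ^ 2 - 1 with ht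
  refine ⟨(π ^ (k * t))⁻¹, ψ / (G₀ * G ^ t), ?_⟩
  have h3 : g' ^ t = g ^ (s * t) * algebraMap K F₂ π ^ (k * t) * (G ^ t) ^ m := by
    rw [hg', mul_pow, mul_pow, ← pow_mul, ← pow_mul, ← pow_mul, mul_comm m t, zpow_mul,
      zpow_natCast]
  have h4 : algebraMap K F₂ π ^ (k * t) ≠ 0 := zpow_ne_zero _ hπ20
  have h5 : G ^ t ≠ 0 := pow_ne_zero _ hG
  rw [map_inv₀, map_zpow₀, div_pow, ← hψ, h3, mul_pow]
  have h6 := pow_ne_zero m hG₀
  have h7 := pow_ne_zero m h5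
  field_simp

end Fermat.Agent.CARlib
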